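/-
helper7050 — S33 leaf "ORDFREE" (board #2104): the inertia-level order is a FREE lattice.

Input = the output shape of S19-ORDER (`S19/helper1243_Order.order_spec`), i.e. what the Cech
assembly delivers: a subring `H0` of `M → Qbar` (`M` a finite set with an action of inertia) of
`A`-valued, inertia-equivariant functions, stable under the inertia-fixed constants `R0 = A^I`
and separating points.  No finiteness, no basis, no open-stabiliser hypothesis.

Output = the finite-free hypothesis consumed by every form of LOCAL-ORD (#2990 (3)):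

* `exists_basis`   : a `Qbar`-basis `b` of ALL functions `M → Qbar`, indexed by
  `Fin (Nat.card M)`, with `b i ∈ H0` and `φ ∈ H0 ↔ all b-coordinates of φ lie in R0`;
* `orderSubmodule`, `exists_moduleBasis`, `orderSubmodule_free`, `orderSubmodule_finite`,
  `finrank_orderSubmodule` : the module form over `R0`;
* `exists_basis_structure` : the structure constants (unit, product, addition law) of that basis
  lie in `R0`.

Proof: an injective `φ0 ∈ H0` (S19 `exists_injective_mem`); the powers `1, φ0, …, φ0^(|M|-1)`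
are `Qbar`-independent (Vandermonde); the coordinates of any `φ ∈ H0` in this family are
inertia-fixed (uniqueness + equivariance) and, multiplied by the Vandermonde determinant, lie in
`A` (Cramer); `A` has rank one (S19 `exists_pow_mul_inv_mem`), so `H0` sits between two free
`R0`-lattices, and `R0` is a PID (S19 `helper1821.isDiscreteValuationRing`).
-/
import Mathlib
import Fermat.Agent.S19.helper1243_Order
import Fermat.Agent.S19.helper1821_BaseRing

set_option autoImplicit false

namespace Fermat.Agent.S33.helper7050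

open Fermat.Agent.S19

local notation "Qb" => AlgebraicClosure ℚ
local notation "GQ" => (AlgebraicClosure ℚ ≃ₐ[ℚ] AlgebraicClosure ℚ)

/-! ### Part A: abstract linear algebra (Mathlib only) -/

section Abstract

variable {Ω : Type*} [Field Ω] {M : Type*}

/-- The family `1, φ, φ^2, …, φ^(n-1)` of functions. -/
def powFam (n : ℕ) (φ : M → Ω) : Fin n → M → Ω := fun j => φ ^ (j : ℕ)

theorem sum_powFam_apply {n : ℕ} (φ : M → Ω) (c : Fin n → Ω) (m : M) :
    (∑ j, c j • powFam n φ j) m = ∑ j, c j * φ m ^ (j : ℕ) := by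
  simp [powFam, Finset.sum_apply]

/-- Evaluation of a combination of powers at the points `e i` is a Vandermonde product. -/
theorem sum_powFam_eq_mulVec {n : ℕ} (φ : M → Ω) (e : Fin n → M) (c : Fin n → Ω) (i : Fin n) :
    (∑ j, c j • powFam n φ j) (e i) = (Matrix.vandermonde (fun i => φ (e i))).mulVec c i := by
  rw [sum_powFam_apply]
  simp [Matrix.mulVec, dotProduct, Matrix.vandermonde_apply, mul_comm]

/-- The powers of a function taking `n` distinct values are linearly independent. -/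
theorem linearIndependent_powFam {n : ℕ} (φ : M → Ω) (e : Fin n → M)
    (hinj : Function.Injective (fun i => φ (e i))) : LinearIndependent Ω (powFam n φ) := by
  rw [Fintype.linearIndependent_iff]
  intro c hc
  have hdet : (Matrix.vandermonde (fun i => φ (e i))).det ≠ 0 :=
    Matrix.det_vandermonde_ne_zero_iff.mpr hinj
  have h0 : (Matrix.vandermonde (fun i => φ (e i))).mulVec c = 0 := by
    funext i
    rw [← sum_powFam_eq_mulVec, hc]
    rfl
  have h1 := Matrix.eq_zero_of_mulVec_eq_zero hdet h0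
  intro i
  exact congrFun h1 i

/-- CRAMER: the Vandermonde determinant times a coefficient is a determinant in the values. -/
theorem det_mul_coeff {n : ℕ} (φ : M → Ω) (e : Fin n → M) (c : Fin n → Ω) (ψ : M → Ω)
    (hψ : ψ = ∑ j, c j • powFam n φ j) (i : Fin n) :
    (Matrix.vandermonde (fun i => φ (e i))).det * c i =
      ((Matrix.vandermonde (fun i => φ (e i))).updateCol i (fun k => ψ (e k))).det := by
  have h1 : (fun k => ψ (e k)) = (Matrix.vandermonde (fun i => φ (e i))).mulVec c := by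
    funext k
    rw [hψ, sum_powFam_eq_mulVec]
  rw [← Matrix.cramer_apply, h1, Matrix.cramer_eq_adjugate_mulVec, Matrix.mulVec_mulVec,
    Matrix.adjugate_mul, Matrix.smul_mulVec, Matrix.one_mulVec]
  rfl

/-- The determinant of a matrix with entries in a subring lies in the subring. -/
theorem det_mem_of_entries {n : Type*} [DecidableEq n] [Fintype n] {R : Type*} [CommRing R]
    (S : Subring R) (N : Matrix n n R) (hN : ∀ i j, N i j ∈ S) : N.det ∈ S := by
  rw [Matrix.det_apply]
  refine Subring.sum_mem _ fun σ _ => ?_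
  have hprod : ∏ i, N (σ i) i ∈ S := Subring.prod_mem _ fun i _ => hN _ _
  rcases Int.units_eq_one_or (Equiv.Perm.sign σ) with h | h
  · rw [h, one_smul]
    exact hprod
  · rw [h, Units.neg_smul, one_smul]
    exact S.neg_mem hprod

end Abstract

/-! ### Part B: the order is a free `R0`-lattice -/

/-- The `R0`-submodule of `M → Qbar` carried by a subring `H0` stable under the inertia-fixed
constants of `A`. -/
def orderSubmodule {M : Type*} (A : ValuationSubring Qb) (H0 : Subring (M → Qb))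
    (hR0 : ∀ c ∈ A, (∀ s ∈ A.inertiaSubgroupIn ℚ, s c = c) →
      ∀ φ ∈ H0, (fun m => c * φ m) ∈ H0) :
    Submodule (helper1821.R0 A) (M → Qb) where
  carrier := H0
  add_mem' := H0.add_mem
  zero_mem' := H0.zero_mem
  smul_mem' := fun c φ hφ => hR0 c c.2.1 c.2.2 φ hφ

theorem mem_orderSubmodule {M : Type*} (A : ValuationSubring Qb) (H0 : Subring (M → Qb))
    (hR0 : ∀ c ∈ A, (∀ s ∈ A.inertiaSubgroupIn ℚ, s c = c) →
      ∀ φ ∈ H0, (fun m => c * φ m) ∈ H0) (φ : M → Qb) :
    φ ∈ orderSubmodule A H0 hR0 ↔ φ ∈ H0 := Iff.rfl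

theorem smul_one_injective (A : ValuationSubring Qb) :
    Function.Injective fun r : helper1821.R0 A => r • (1 : Qb) := by
  intro x y h
  apply Subtype.ext
  simpa [Subring.smul_def] using h

/-- **(O1)** The order `H0` is the `R0`-lattice spanned by a `Qbar`-basis of all functions. -/
theorem exists_basis {M : Type*} [Finite M] {p : ℕ} (hp : p.Prime) (A : ValuationSubring Qb)
    (hA : A.LiesOverPrime p) (act : GQ → M → M)
    (hact : ∀ s ∈ A.inertiaSubgroupIn ℚ, Function.Surjective (act s))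
    (H0 : Subring (M → Qb))
    (hval : ∀ φ ∈ H0, ∀ m, φ m ∈ A)
    (hI : ∀ φ ∈ H0, ∀ s ∈ A.inertiaSubgroupIn ℚ, ∀ m, φ (act s m) = s (φ m))
    (hR0 : ∀ c ∈ A, (∀ s ∈ A.inertiaSubgroupIn ℚ, s c = c) →
      ∀ φ ∈ H0, (fun m => c * φ m) ∈ H0)
    (hsep : ∀ m m', m ≠ m' → ∃ φ ∈ H0, φ m ≠ φ m') :
    ∃ b : Module.Basis (Fin (Nat.card M)) Qb (M → Qb), (∀ i, b i ∈ H0) ∧
      ∀ φ : M → Qb, φ ∈ H0 ↔ ∀ i, b.repr φ i ∈ helper1821.R0 A := by
  classical
  have : Fintype M := Fintype.ofFinite M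
  have hcard : Fintype.card (Fin (Nat.card M)) = Module.finrank Qb (M → Qb) := by
    rw [Module.finrank_fintype_fun_eq_card, Fintype.card_fin, Nat.card_eq_fintype_card]
  let e : Fin (Nat.card M) → M := (Finite.equivFin M).symm
  obtain ⟨φ0, hφ0, hφ0inj⟩ := helper1243.exists_injective_mem H0 hsep
  have hinj : Function.Injective (fun i => φ0 (e i)) :=
    hφ0inj.comp (Finite.equivFin M).symm.injective
  have hdet : (Matrix.vandermonde (fun i => φ0 (e i))).det ≠ 0 :=
    Matrix.det_vandermonde_ne_zero_iff.mpr hinj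
  have hli0 : LinearIndependent Qb (powFam (Nat.card M) φ0) := linearIndependent_powFam φ0 e hinj
  have hb0mem : ∀ j, powFam (Nat.card M) φ0 j ∈ H0 := fun j => pow_mem hφ0 _
  have hspan0 : Submodule.span Qb (Set.range (powFam (Nat.card M) φ0)) = ⊤ :=
    hli0.span_eq_top_of_card_eq_finrank' hcard
  have hcoef : ∀ φ : M → Qb, ∃ c : Fin (Nat.card M) → Qb,
      φ = ∑ j, c j • powFam (Nat.card M) φ0 j := by
    intro φ
    have hmem : φ ∈ Submodule.span Qb (Set.range (powFam (Nat.card M) φ0)) := by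
      rw [hspan0]
      trivial
    obtain ⟨c, hc⟩ := (Submodule.mem_span_range_iff_exists_fun Qb).mp hmem
    exact ⟨c, hc.symm⟩
  obtain ⟨j0, hj0⟩ := helper1243.exists_pow_mul_inv_mem A hp hA hdet
  have hp0 : (p : Qb) ≠ 0 := Nat.cast_ne_zero.mpr hp.ne_zero
  have hpj0 : (p : Qb) ^ j0 ≠ 0 := pow_ne_zero _ hp0
  -- the coordinates of an element of `H0`, multiplied by `p ^ j0`, lie in `R0`
  have hkey : ∀ φ ∈ H0, ∀ c : Fin (Nat.card M) → Qb,
      φ = ∑ j, c j • powFam (Nat.card M) φ0 j → ∀ i, (p : Qb) ^ j0 * c i ∈ helper1821.R0 A := by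
    intro φ hφ c hc i
    refine ⟨?_, ?_⟩
    · have h1 := det_mul_coeff φ0 e c φ hc i
      have h2 : ((Matrix.vandermonde (fun i => φ0 (e i))).updateCol i
          (fun k => φ (e k))).det ∈ A.toSubring := by
        apply det_mem_of_entries
        intro a b
        rw [Matrix.updateCol_apply]
        split_ifs
        · exact hval φ hφ _
        · rw [Matrix.vandermonde_apply]
          exact pow_mem (hval φ0 hφ0 _) _
      have h3 : (p : Qb) ^ j0 * c i
          = ((p : Qb) ^ j0 * ((Matrix.vandermonde (fun i => φ0 (e i))).det)⁻¹)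
            * ((Matrix.vandermonde (fun i => φ0 (e i))).det * c i) := by
        field_simp
      rw [h3, h1]
      exact A.mul_mem _ _ hj0 h2
    · intro s hs
      have hsum : ∑ j, s (c j) • powFam (Nat.card M) φ0 j
          = ∑ j, c j • powFam (Nat.card M) φ0 j := by
        rw [← hc]
        funext m'
        obtain ⟨m, rfl⟩ := hact s hs m'
        rw [sum_powFam_apply, hI φ hφ s hs m, hc, sum_powFam_apply, map_sum]
        refine Finset.sum_congr rfl fun j _ => ?_
        rw [map_mul, map_pow, hI φ0 hφ0 s hs m]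
      have hsub : ∑ j, (s (c j) - c j) • powFam (Nat.card M) φ0 j = 0 := by
        simp only [sub_smul, Finset.sum_sub_distrib, hsum, sub_self]
      have hzero := (Fintype.linearIndependent_iff.mp hli0) _ hsub
      rw [map_mul, map_pow, map_natCast, sub_eq_zero.mp (hzero i)]
  -- the module structure over `R0`
  have : IsDiscreteValuationRing (helper1821.R0 A) := helper1821.isDiscreteValuationRing hp hA
  let b1 : Fin (Nat.card M) → M → Qb := fun j => ((p : Qb) ^ j0)⁻¹ • powFam (Nat.card M) φ0 j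
  have hli1Q : LinearIndependent Qb b1 :=
    hli0.units_smul (fun _ => Units.mk0 _ (inv_ne_zero hpj0))
  have hli1 : LinearIndependent (helper1821.R0 A) b1 :=
    hli1Q.restrict_scalars (smul_one_injective A)
  have hli0R : LinearIndependent (helper1821.R0 A) (powFam (Nat.card M) φ0) :=
    hli0.restrict_scalars (smul_one_injective A)
  have hle : orderSubmodule A H0 hR0 ≤ Submodule.span (helper1821.R0 A) (Set.range b1) := by
    intro φ hφ
    obtain ⟨c, hc⟩ := hcoef φ
    have hmem := hkey φ hφ c hc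
    rw [Submodule.mem_span_range_iff_exists_fun]
    refine ⟨fun j => ⟨(p : Qb) ^ j0 * c j, hmem j⟩, ?_⟩
    rw [hc]
    refine Finset.sum_congr rfl fun j _ => ?_
    show ((p : Qb) ^ j0 * c j) • (((p : Qb) ^ j0)⁻¹ • powFam (Nat.card M) φ0 j)
      = c j • powFam (Nat.card M) φ0 j
    rw [smul_smul]
    congr 1
    field_simp
  obtain ⟨n', bH⟩ := Submodule.basisOfPidOfLE hle (Module.Basis.span hli1)
  have hn1 : Nat.card M ≤ n' := by
    have hli : LinearIndependent (helper1821.R0 A)
        (fun j => (⟨powFam (Nat.card M) φ0 j, hb0mem j⟩ : orderSubmodule A H0 hR0)) := by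
      apply LinearIndependent.of_comp (orderSubmodule A H0 hR0).subtype
      exact hli0R
    simpa using bH.card_le_card_of_linearIndependent hli
  have hn2 : n' ≤ Nat.card M := by
    have hli : LinearIndependent (helper1821.R0 A)
        (fun i => Submodule.inclusion hle (bH i)) :=
      bH.linearIndependent.map' (Submodule.inclusion hle)
        (LinearMap.ker_eq_bot.mpr (Submodule.inclusion_injective hle))
    simpa using (Module.Basis.span hli1).card_le_card_of_linearIndependent hli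
  have hnn : n' = Nat.card M := le_antisymm hn2 hn1
  let bH' : Module.Basis (Fin (Nat.card M)) (helper1821.R0 A) (orderSubmodule A H0 hR0) :=
    bH.reindex (finCongr hnn)
  let v : Fin (Nat.card M) → M → Qb := fun i => (bH' i : M → Qb)
  have hvH0 : ∀ i, v i ∈ H0 := fun i => (bH' i).2
  -- every element of `H0` is an `R0`-combination of the `v i`
  have hexp : ∀ (φ : M → Qb) (hφ : φ ∈ H0),
      φ = ∑ i, ((bH'.repr ⟨φ, hφ⟩ i : helper1821.R0 A) : Qb) • v i := by
    intro φ hφ
    have h1 := congrArg (fun x : orderSubmodule A H0 hR0 => (x : M → Qb))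
      (bH'.sum_repr ⟨φ, hφ⟩)
    simp only [Submodule.coe_sum, Submodule.coe_smul] at h1
    exact h1.symm
  have hspanv : ⊤ ≤ Submodule.span Qb (Set.range v) := by
    rw [← hspan0, Submodule.span_le]
    rintro _ ⟨j, rfl⟩
    rw [hexp _ (hb0mem j)]
    exact Submodule.sum_mem _ fun i _ =>
      Submodule.smul_mem _ _ (Submodule.subset_span ⟨i, rfl⟩)
  let b : Module.Basis (Fin (Nat.card M)) Qb (M → Qb) :=
    basisOfTopLeSpanOfCardEqFinrank v hspanv hcard
  have hb : ∀ i, b i = v i := fun i => by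
    simp [b]
  refine ⟨b, fun i => by rw [hb]; exact hvH0 i, fun φ => ⟨fun hφ i => ?_, fun h => ?_⟩⟩
  · have h2 : φ = ∑ i, ((bH'.repr ⟨φ, hφ⟩ i : helper1821.R0 A) : Qb) • b i := by
      simp only [hb]
      exact hexp φ hφ
    rw [h2, Module.Basis.repr_sum_self]
    exact (bH'.repr ⟨φ, hφ⟩ i).2
  · rw [← b.sum_repr φ]
    refine Subring.sum_mem _ fun i _ => ?_
    rw [hb]
    exact hR0 _ (h i).1 (h i).2 _ (hvH0 i)

/-- **(O2)** Module form of `exists_basis`: an `R0`-basis of the order which is at the same time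
a `Qbar`-basis of all functions, with the same coordinates. -/
theorem exists_moduleBasis {M : Type*} [Finite M] {p : ℕ} (hp : p.Prime)
    (A : ValuationSubring Qb) (hA : A.LiesOverPrime p) (act : GQ → M → M)
    (hact : ∀ s ∈ A.inertiaSubgroupIn ℚ, Function.Surjective (act s))
    (H0 : Subring (M → Qb))
    (hval : ∀ φ ∈ H0, ∀ m, φ m ∈ A)
    (hI : ∀ φ ∈ H0, ∀ s ∈ A.inertiaSubgroupIn ℚ, ∀ m, φ (act s m) = s (φ m))
    (hR0 : ∀ c ∈ A, (∀ s ∈ A.inertiaSubgroupIn ℚ, s c = c) →
      ∀ φ ∈ H0, (fun m => c * φ m) ∈ H0)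
    (hsep : ∀ m m', m ≠ m' → ∃ φ ∈ H0, φ m ≠ φ m') :
    ∃ (B : Module.Basis (Fin (Nat.card M)) (helper1821.R0 A) (orderSubmodule A H0 hR0))
      (b : Module.Basis (Fin (Nat.card M)) Qb (M → Qb)),
      (∀ i, ((B i : orderSubmodule A H0 hR0) : M → Qb) = b i) ∧
      ∀ (φ : orderSubmodule A H0 hR0) (i : Fin (Nat.card M)),
        ((B.repr φ i : helper1821.R0 A) : Qb) = b.repr (φ : M → Qb) i := by
  classical
  obtain ⟨b, hb, hbR⟩ := exists_basis hp A hA act hact H0 hval hI hR0 hsep
  let w : Fin (Nat.card M) → orderSubmodule A H0 hR0 := fun i => ⟨b i, hb i⟩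
  have hliR : LinearIndependent (helper1821.R0 A) (fun i => (b i : M → Qb)) :=
    b.linearIndependent.restrict_scalars (smul_one_injective A)
  have hli : LinearIndependent (helper1821.R0 A) w := by
    apply LinearIndependent.of_comp (orderSubmodule A H0 hR0).subtype
    exact hliR
  have hexp : ∀ φ : orderSubmodule A H0 hR0,
      φ = ∑ i, (⟨b.repr (φ : M → Qb) i, (hbR _).mp φ.2 i⟩ : helper1821.R0 A) • w i := by
    intro φ
    apply Subtype.ext
    simp only [Submodule.coe_sum, Submodule.coe_smul]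
    exact (b.sum_repr (φ : M → Qb)).symm
  have hsp : ⊤ ≤ Submodule.span (helper1821.R0 A) (Set.range w) := by
    intro φ _
    rw [hexp φ]
    exact Submodule.sum_mem _ fun i _ =>
      Submodule.smul_mem _ _ (Submodule.subset_span ⟨i, rfl⟩)
  let B : Module.Basis (Fin (Nat.card M)) (helper1821.R0 A) (orderSubmodule A H0 hR0) :=
    Module.Basis.mk hli hsp
  have hB : ∀ i, B i = w i := fun i => by simp [B]
  refine ⟨B, b, fun i => by rw [hB], fun φ i => ?_⟩
  have h1 := congrArg (fun x : orderSubmodule A H0 hR0 => (x : M → Qb)) (B.sum_repr φ)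
  simp only [Submodule.coe_sum, Submodule.coe_smul, hB] at h1
  have h2 : (φ : M → Qb) = ∑ i, ((B.repr φ i : helper1821.R0 A) : Qb) • b i := h1.symm
  conv_rhs => rw [h2, Module.Basis.repr_sum_self]

/-- The order is a free `R0`-module. -/
theorem orderSubmodule_free {M : Type*} [Finite M] {p : ℕ} (hp : p.Prime)
    (A : ValuationSubring Qb) (hA : A.LiesOverPrime p) (act : GQ → M → M)
    (hact : ∀ s ∈ A.inertiaSubgroupIn ℚ, Function.Surjective (act s))
    (H0 : Subring (M → Qb))
    (hval : ∀ φ ∈ H0, ∀ m, φ m ∈ A)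
    (hI : ∀ φ ∈ H0, ∀ s ∈ A.inertiaSubgroupIn ℚ, ∀ m, φ (act s m) = s (φ m))
    (hR0 : ∀ c ∈ A, (∀ s ∈ A.inertiaSubgroupIn ℚ, s c = c) →
      ∀ φ ∈ H0, (fun m => c * φ m) ∈ H0)
    (hsep : ∀ m m', m ≠ m' → ∃ φ ∈ H0, φ m ≠ φ m') :
    Module.Free (helper1821.R0 A) (orderSubmodule A H0 hR0) := by
  obtain ⟨B, -, -, -⟩ := exists_moduleBasis hp A hA act hact H0 hval hI hR0 hsep
  exact Module.Free.of_basis B

/-- The order is a finite `R0`-module. -/
theorem orderSubmodule_finite {M : Type*} [Finite M] {p : ℕ} (hp : p.Prime)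
    (A : ValuationSubring Qb) (hA : A.LiesOverPrime p) (act : GQ → M → M)
    (hact : ∀ s ∈ A.inertiaSubgroupIn ℚ, Function.Surjective (act s))
    (H0 : Subring (M → Qb))
    (hval : ∀ φ ∈ H0, ∀ m, φ m ∈ A)
    (hI : ∀ φ ∈ H0, ∀ s ∈ A.inertiaSubgroupIn ℚ, ∀ m, φ (act s m) = s (φ m))
    (hR0 : ∀ c ∈ A, (∀ s ∈ A.inertiaSubgroupIn ℚ, s c = c) →
      ∀ φ ∈ H0, (fun m => c * φ m) ∈ H0)
    (hsep : ∀ m m', m ≠ m' → ∃ φ ∈ H0, φ m ≠ φ m') :
    Module.Finite (helper1821.R0 A) (orderSubmodule A H0 hR0) := by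
  obtain ⟨B, -, -, -⟩ := exists_moduleBasis hp A hA act hact H0 hval hI hR0 hsep
  exact Module.Finite.of_basis B

/-- The rank of the order over `R0` is the number of points. -/
theorem finrank_orderSubmodule {M : Type*} [Finite M] {p : ℕ} (hp : p.Prime)
    (A : ValuationSubring Qb) (hA : A.LiesOverPrime p) (act : GQ → M → M)
    (hact : ∀ s ∈ A.inertiaSubgroupIn ℚ, Function.Surjective (act s))
    (H0 : Subring (M → Qb))
    (hval : ∀ φ ∈ H0, ∀ m, φ m ∈ A)
    (hI : ∀ φ ∈ H0, ∀ s ∈ A.inertiaSubgroupIn ℚ, ∀ m, φ (act s m) = s (φ m))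
    (hR0 : ∀ c ∈ A, (∀ s ∈ A.inertiaSubgroupIn ℚ, s c = c) →
      ∀ φ ∈ H0, (fun m => c * φ m) ∈ H0)
    (hsep : ∀ m m', m ≠ m' → ∃ φ ∈ H0, φ m ≠ φ m') :
    Module.finrank (helper1821.R0 A) (orderSubmodule A H0 hR0) = Nat.card M := by
  obtain ⟨B, -, -, -⟩ := exists_moduleBasis hp A hA act hact H0 hval hI hR0 hsep
  rw [Module.finrank_eq_card_basis B, Fintype.card_fin]

/-- **(O3)** The basis of `exists_basis` with its structure constants in `R0`: the unit, the
products and (from the addition law `hadd` of the order) the comultiplication. -/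
theorem exists_basis_structure {M : Type*} [Finite M] [Add M] {p : ℕ} (hp : p.Prime)
    (A : ValuationSubring Qb) (hA : A.LiesOverPrime p) (act : GQ → M → M)
    (hact : ∀ s ∈ A.inertiaSubgroupIn ℚ, Function.Surjective (act s))
    (H0 : Subring (M → Qb))
    (hval : ∀ φ ∈ H0, ∀ m, φ m ∈ A)
    (hI : ∀ φ ∈ H0, ∀ s ∈ A.inertiaSubgroupIn ℚ, ∀ m, φ (act s m) = s (φ m))
    (hR0 : ∀ c ∈ A, (∀ s ∈ A.inertiaSubgroupIn ℚ, s c = c) →
      ∀ φ ∈ H0, (fun m => c * φ m) ∈ H0)
    (hsep : ∀ m m', m ≠ m' → ∃ φ ∈ H0, φ m ≠ φ m')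
    (hadd : ∀ φ ∈ H0, ∃ (n : ℕ) (a b : Fin n → M → Qb), (∀ k, a k ∈ H0) ∧ (∀ k, b k ∈ H0) ∧
      ∀ m m', φ (m + m') = ∑ k, a k m * b k m') :
    ∃ b : Module.Basis (Fin (Nat.card M)) Qb (M → Qb), (∀ i, b i ∈ H0) ∧
      (∀ φ : M → Qb, φ ∈ H0 ↔ ∀ i, b.repr φ i ∈ helper1821.R0 A) ∧
      (∃ u : Fin (Nat.card M) → Qb, (∀ k, u k ∈ helper1821.R0 A) ∧
        (1 : M → Qb) = ∑ k, u k • b k) ∧
      (∃ d : Fin (Nat.card M) → Fin (Nat.card M) → Fin (Nat.card M) → Qb,
        (∀ i j k, d i j k ∈ helper1821.R0 A) ∧ ∀ i j, b i * b j = ∑ k, d i j k • b k) ∧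
      (∃ c : Fin (Nat.card M) → Fin (Nat.card M) → Fin (Nat.card M) → Qb,
        (∀ i j k, c i j k ∈ helper1821.R0 A) ∧
        ∀ i m m', b i (m + m') = ∑ j, ∑ k, c i j k * (b j m * b k m')) := by
  classical
  obtain ⟨b, hb, hbR⟩ := exists_basis hp A hA act hact H0 hval hI hR0 hsep
  refine ⟨b, hb, hbR, ⟨fun k => b.repr 1 k, (hbR 1).mp H0.one_mem, (b.sum_repr 1).symm⟩,
    ⟨fun i j k => b.repr (b i * b j) k, fun i j => (hbR _).mp (H0.mul_mem (hb i) (hb j)),
      fun i j => (b.sum_repr _).symm⟩, ?_⟩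
  choose nn a a' ha ha' hlaw using fun i => hadd (b i) (hb i)
  refine ⟨fun i j k => ∑ l : Fin (nn i), b.repr (a i l) j * b.repr (a' i l) k,
    fun i j k => Subring.sum_mem _ fun l _ =>
      Subring.mul_mem _ ((hbR _).mp (ha i l) j) ((hbR _).mp (ha' i l) k), fun i m m' => ?_⟩
  rw [hlaw i m m']
  have hexp : ∀ (φ : M → Qb) (x : M), φ x = ∑ j, b.repr φ j * b j x := by
    intro φ x
    conv_lhs => rw [← b.sum_repr φ]
    simp [Finset.sum_apply]
  calc ∑ l, a i l m * a' i l m'
      = ∑ l, (∑ j, b.repr (a i l) j * b j m) * (∑ k, b.repr (a' i l) k * b k m') :=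
        Finset.sum_congr rfl fun l _ => by rw [← hexp, ← hexp]
    _ = ∑ l, ∑ j, ∑ k, b.repr (a i l) j * b.repr (a' i l) k * (b j m * b k m') := by
        refine Finset.sum_congr rfl fun l _ => ?_
        rw [Finset.sum_mul_sum]
        refine Finset.sum_congr rfl fun j _ => Finset.sum_congr rfl fun k _ => ?_
        ring
    _ = ∑ j, ∑ l, ∑ k, b.repr (a i l) j * b.repr (a' i l) k * (b j m * b k m') :=
        Finset.sum_comm
    _ = ∑ j, ∑ k, ∑ l, b.repr (a i l) j * b.repr (a' i l) k * (b j m * b k m') :=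
        Finset.sum_congr rfl fun j _ => Finset.sum_comm
    _ = ∑ j, ∑ k, (∑ l, b.repr (a i l) j * b.repr (a' i l) k) * (b j m * b k m') :=
        Finset.sum_congr rfl fun j _ => Finset.sum_congr rfl fun k _ => by
          rw [Finset.sum_mul]

/-- `A` is `p`-adically separated: an element divisible by every power of `p` in `A` is zero. -/
theorem eq_zero_of_forall_pow_dvd {p : ℕ} (hp : p.Prime) (A : ValuationSubring Qb)
    (hA : A.LiesOverPrime p) {x : Qb} (hx : ∀ k : ℕ, ∃ y ∈ A, x = (p : Qb) ^ k * y) : x = 0 := by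
  by_contra hx0
  obtain ⟨j, hj⟩ := helper1243.exists_pow_mul_inv_mem A hp hA hx0
  obtain ⟨y, hy, hxy⟩ := hx (j + 1)
  have hp0 : (p : Qb) ≠ 0 := Nat.cast_ne_zero.mpr hp.ne_zero
  have hy0 : y ≠ 0 := by
    rintro rfl
    rw [mul_zero] at hxy
    exact hx0 hxy
  have h1 : (p : Qb) ^ j * x⁻¹ * ((p : Qb) * y) = 1 := by
    rw [hxy]
    field_simp
    ring
  have h2 : A.valuation ((p : Qb) ^ j * x⁻¹) ≤ 1 := (A.valuation_le_one_iff _).mpr hj
  have h3 : A.valuation ((p : Qb) * y) < 1 := by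
    rw [map_mul]
    calc A.valuation (p : Qb) * A.valuation y ≤ A.valuation (p : Qb) * 1 :=
          mul_le_mul_right ((A.valuation_le_one_iff _).mpr hy) _
      _ < 1 := by rw [mul_one]; exact A.mem_nonunits_iff.mp hA
  have h4 : A.valuation ((p : Qb) ^ j * x⁻¹ * ((p : Qb) * y)) < 1 := by
    rw [map_mul]
    calc A.valuation ((p : Qb) ^ j * x⁻¹) * A.valuation ((p : Qb) * y)
        ≤ 1 * A.valuation ((p : Qb) * y) := mul_le_mul_left h2 _
      _ < 1 := by rw [one_mul]; exact h3
  rw [h1, map_one] at h4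
  exact lt_irrefl _ h4

/-- The order is `p`-adically separated (the `hsep` hypothesis of `S33/helper6126_BinomCore`). -/
theorem order_padic_separated {M : Type*} {p : ℕ} (hp : p.Prime) (A : ValuationSubring Qb)
    (hA : A.LiesOverPrime p) (H0 : Subring (M → Qb)) (hval : ∀ φ ∈ H0, ∀ m, φ m ∈ A)
    (φ : M → Qb) (hφ : ∀ k : ℕ, ∃ φ' ∈ H0, φ = p ^ k • φ') : φ = 0 := by
  funext m
  refine eq_zero_of_forall_pow_dvd hp A hA fun k => ?_
  obtain ⟨φ', hφ', hk⟩ := hφ k
  refine ⟨φ' m, hval φ' hφ' m, ?_⟩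
  rw [hk]
  simp [Pi.smul_apply, nsmul_eq_mul]

end Fermat.Agent.S33.helper7050
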