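/-
helper7050 — S33 leaf "ORDFREE", adapter to the vocabulary of LOCAL-ORD
(`S33/helper2784_LocalOrd`), as asked in the captain's decisions v1 (team_s33_chat #67).

`Qb = AlgebraicClosure ℚ`, `A` a valuation subring over the prime `p`,
`G = ↥(A.inertiaSubgroupIn ℚ)` (or any group acting on `Qb` through a surjection `j` onto the
inertia group).

* `exists_basis_smul`          : `exists_basis` for an action of a group `G` on `M`;
* `baseHyp_of_surj`, `baseHyp_inertia` :
    `helper2784.BaseHyp G p A.toSubring (helper2784.nonunitsAddSubgroup A)`;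
* `exists_fixedBasis_of_surj`, `exists_fixedBasis_inertia`, `exists_fixedBasis_inertia'` :
    an order with `helper2784.OrderHyp` has a fixed basis `helper2784.IsFixedBasis`
    (of cardinality `Nat.card M`, linearly independent over `Qb`);
* `mem_of_trivial_step_inertia`, `smul_eq_of_chain_inertia'` : the two forms of LOCAL-ORD with
  the basis and the base hypotheses discharged (only `OrderHyp` is left).
-/
import Fermat.Agent.S33.helper7050_OrdFree
import Fermat.Agent.S33.helper2784_LocalOrd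

set_option autoImplicit false

namespace Fermat.Agent.S33.helper7050

open Fermat.Agent.S19

local notation "Qb" => AlgebraicClosure ℚ
local notation "GQ" => (AlgebraicClosure ℚ ≃ₐ[ℚ] AlgebraicClosure ℚ)

/-- `exists_basis` for a group `G` acting on `M`, the equivariance being expressed through a
map `j` of `G` onto the inertia group of `A`. -/
theorem exists_basis_smul {M : Type*} [Finite M] {G : Type*} [Group G] [MulAction G M] {p : ℕ}
    (hp : p.Prime) (A : ValuationSubring Qb) (hA : A.LiesOverPrime p)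
    (j : G → GQ) (hjsurj : ∀ s ∈ A.inertiaSubgroupIn ℚ, ∃ g, j g = s)
    (H0 : Subring (M → Qb))
    (hval : ∀ φ ∈ H0, ∀ m, φ m ∈ A)
    (hI : ∀ φ ∈ H0, ∀ (g : G) (m : M), φ (g • m) = j g (φ m))
    (hR0 : ∀ c ∈ A, (∀ s ∈ A.inertiaSubgroupIn ℚ, s c = c) →
      ∀ φ ∈ H0, (fun m => c * φ m) ∈ H0)
    (hsep : ∀ m m', m ≠ m' → ∃ φ ∈ H0, φ m ≠ φ m') :
    ∃ b : Module.Basis (Fin (Nat.card M)) Qb (M → Qb), (∀ i, b i ∈ H0) ∧
      ∀ φ : M → Qb, φ ∈ H0 ↔ ∀ i, b.repr φ i ∈ helper1821.R0 A := by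
  classical
  let act : GQ → M → M := fun s m => if h : ∃ g, j g = s then h.choose • m else m
  have hactI : ∀ s ∈ A.inertiaSubgroupIn ℚ, ∃ g, j g = s ∧ ∀ m, act s m = g • m := by
    intro s hs
    have h := hjsurj s hs
    exact ⟨h.choose, h.choose_spec, fun m => by simp only [act, dif_pos h]⟩
  have hact : ∀ s ∈ A.inertiaSubgroupIn ℚ, Function.Surjective (act s) := by
    intro s hs m
    obtain ⟨g, -, hg⟩ := hactI s hs
    exact ⟨g⁻¹ • m, by rw [hg, smul_inv_smul]⟩
  have hI' : ∀ φ ∈ H0, ∀ s ∈ A.inertiaSubgroupIn ℚ, ∀ m, φ (act s m) = s (φ m) := by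
    intro φ hφ s hs m
    obtain ⟨g, hgs, hg⟩ := hactI s hs
    rw [hg, hI φ hφ, hgs]
  exact exists_basis hp A hA act hact H0 hval hI' hR0 hsep

section Adapter

variable {G : Type*} [Group G] [MulSemiringAction G Qb]

/-- `Fixed G` is fixedness under the inertia group. -/
theorem fixed_iff (A : ValuationSubring Qb) (j : G → GQ) (hj : ∀ (g : G) (x : Qb), g • x = j g x)
    (hjI : ∀ g, j g ∈ A.inertiaSubgroupIn ℚ)
    (hjsurj : ∀ s ∈ A.inertiaSubgroupIn ℚ, ∃ g, j g = s) (x : Qb) :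
    helper2784.Fixed G x ↔ ∀ s ∈ A.inertiaSubgroupIn ℚ, s x = x := by
  constructor
  · intro h s hs
    obtain ⟨g, rfl⟩ := hjsurj s hs
    rw [← hj]
    exact h g
  · intro h g
    rw [hj]
    exact h _ (hjI g)

/-- The base hypotheses of LOCAL-ORD for a valuation subring of `Qbar` over `p` and a group
acting through a surjection onto its inertia group. -/
theorem baseHyp_of_surj {p : ℕ} (hp : p.Prime) (A : ValuationSubring Qb)
    (hA : A.LiesOverPrime p) (j : G → GQ) (hj : ∀ (g : G) (x : Qb), g • x = j g x)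
    (hjI : ∀ g, j g ∈ A.inertiaSubgroupIn ℚ)
    (hjsurj : ∀ s ∈ A.inertiaSubgroupIn ℚ, ∃ g, j g = s) :
    helper2784.BaseHyp G p A.toSubring (helper2784.nonunitsAddSubgroup A) := by
  refine helper2784.baseHyp_of_valuationSubring A p (Nat.cast_ne_zero.mpr hp.ne_zero) ?_ ?_ ?_
  · intro g a ha
    rw [hj]
    exact A.mem_nonunits_iff.mp
      (Fermat.Agent.Lib.helper954.apply_sub_mem_nonunits_of_mem_inertia (hjI g) ha)
  · intro a ha hfix
    have haA : a ∈ A := (A.valuation_le_one_iff a).mp (le_of_lt ha)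
    have haR : a ∈ helper1821.R0 A := ⟨haA, (fixed_iff A j hj hjI hjsurj a).mp hfix⟩
    obtain ⟨y, hy, hay⟩ :=
      helper1821.natCast_dvd_of_mem_nonunits hp hA haR (A.mem_nonunits_iff.mpr ha)
    exact ⟨y, hy.1, hay⟩
  · intro a _ h
    exact eq_zero_of_forall_pow_dvd hp A hA h

/-- The base hypotheses of LOCAL-ORD for the inertia group itself. -/
theorem baseHyp_inertia {p : ℕ} (hp : p.Prime) (A : ValuationSubring Qb)
    (hA : A.LiesOverPrime p) :
    helper2784.BaseHyp ↥(A.inertiaSubgroupIn ℚ) p A.toSubring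
      (helper2784.nonunitsAddSubgroup A) :=
  baseHyp_of_surj (G := ↥(A.inertiaSubgroupIn ℚ)) hp A hA (fun g => g.1) (fun _ _ => rfl)
    (fun g => g.2) (fun s hs => ⟨⟨s, hs⟩, rfl⟩)

variable {M : Type*} [AddCommGroup M] [Finite M] [DistribMulAction G M]

/-- **ORDFREE in the LOCAL-ORD vocabulary**: an order satisfying `OrderHyp` has a fixed basis,
indexed by `Fin (Nat.card M)` and linearly independent over `Qbar`. -/
theorem exists_fixedBasis_of_surj {p : ℕ} (hp : p.Prime) (A : ValuationSubring Qb)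
    (hA : A.LiesOverPrime p) (j : G → GQ) (hj : ∀ (g : G) (x : Qb), g • x = j g x)
    (hjI : ∀ g, j g ∈ A.inertiaSubgroupIn ℚ)
    (hjsurj : ∀ s ∈ A.inertiaSubgroupIn ℚ, ∃ g, j g = s)
    {mA : AddSubgroup Qb} (H : Subring (M → Qb))
    (hH : helper2784.OrderHyp G A.toSubring mA H) :
    ∃ h : Fin (Nat.card M) → M → Qb,
      helper2784.IsFixedBasis G A.toSubring H h ∧ LinearIndependent Qb h := by
  classical
  obtain ⟨b, hb, hbR⟩ := exists_basis_smul hp A hA j hjsurj H hH.val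
    (fun φ hφ g m => by rw [hH.eqv φ hφ g m, hj])
    (fun c hc hfix φ hφ => hH.smul c hc ((fixed_iff A j hj hjI hjsurj c).mpr hfix) φ hφ) hH.sep
  refine ⟨fun i => b i, ⟨hb, fun φ hφ => ?_, fun c _ _ hc => ?_⟩, b.linearIndependent⟩
  · refine ⟨fun i => b.repr φ i, fun i => ((hbR φ).mp hφ i).1,
      fun i => (fixed_iff A j hj hjI hjsurj _).mpr ((hbR φ).mp hφ i).2, fun m => ?_⟩
    conv_lhs => rw [← b.sum_repr φ]
    simp [Finset.sum_apply]
  · refine Fintype.linearIndependent_iff.mp b.linearIndependent c ?_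
    funext m
    simpa [Finset.sum_apply] using hc m

/-- `exists_fixedBasis_of_surj` for the inertia group itself. -/
theorem exists_fixedBasis_inertia' {M : Type*} [AddCommGroup M] [Finite M] {p : ℕ}
    (hp : p.Prime) (A : ValuationSubring Qb) (hA : A.LiesOverPrime p)
    [DistribMulAction ↥(A.inertiaSubgroupIn ℚ) M]
    {mA : AddSubgroup Qb} (H : Subring (M → Qb))
    (hH : helper2784.OrderHyp ↥(A.inertiaSubgroupIn ℚ) A.toSubring mA H) :
    ∃ h : Fin (Nat.card M) → M → Qb,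
      helper2784.IsFixedBasis ↥(A.inertiaSubgroupIn ℚ) A.toSubring H h ∧
        LinearIndependent Qb h :=
  exists_fixedBasis_of_surj (G := ↥(A.inertiaSubgroupIn ℚ)) hp A hA (fun g => g.1)
    (fun _ _ => rfl) (fun g => g.2) (fun s hs => ⟨⟨s, hs⟩, rfl⟩) H hH

/-- The shape asked for in team_s33_chat #67: `∃ k h, IsFixedBasis G A.toSubring H h`. -/
theorem exists_fixedBasis_inertia {M : Type*} [AddCommGroup M] [Finite M] {p : ℕ}
    (hp : p.Prime) (A : ValuationSubring Qb) (hA : A.LiesOverPrime p)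
    [DistribMulAction ↥(A.inertiaSubgroupIn ℚ) M]
    {mA : AddSubgroup Qb} (H : Subring (M → Qb))
    (hH : helper2784.OrderHyp ↥(A.inertiaSubgroupIn ℚ) A.toSubring mA H) :
    ∃ (k : ℕ) (h : Fin k → M → Qb),
      helper2784.IsFixedBasis ↥(A.inertiaSubgroupIn ℚ) A.toSubring H h := by
  obtain ⟨h, hB, -⟩ := exists_fixedBasis_inertia' hp A hA H hH
  exact ⟨_, h, hB⟩

end Adapter

/-- **LOCAL-ORD, relative NOFIX form, everything but `OrderHyp` discharged**: for the inertia
group `G` of `A` acting on the finite group `M` carrying an order `H`, an element fixed by `G`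
modulo a stable subgroup `M'` and with `p • m₁ ∈ M'` lies in `M'`. -/
theorem mem_of_trivial_step_inertia {M : Type*} [AddCommGroup M] [Finite M] {p : ℕ}
    (hp : p.Prime) (hp2 : p ≠ 2) (A : ValuationSubring Qb) (hA : A.LiesOverPrime p)
    [DistribMulAction ↥(A.inertiaSubgroupIn ℚ) M] (H : Subring (M → Qb))
    (hH : helper2784.OrderHyp ↥(A.inertiaSubgroupIn ℚ) A.toSubring
      (helper2784.nonunitsAddSubgroup A) H)
    (M' : AddSubgroup M) (hM' : ∀ (g : ↥(A.inertiaSubgroupIn ℚ)), ∀ x ∈ M', g • x ∈ M')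
    (m₁ : M) (hpm : p • m₁ ∈ M') (hg : ∀ g : ↥(A.inertiaSubgroupIn ℚ), g • m₁ - m₁ ∈ M') :
    m₁ ∈ M' := by
  obtain ⟨h, hB, -⟩ := exists_fixedBasis_inertia' hp A hA H hH
  exact helper2784.mem_of_trivial_step hp hp2 (baseHyp_inertia hp A hA) hH hB M' hM' m₁ hpm hg

/-- **LOCAL-ORD, chain form, everything but `OrderHyp` discharged.** -/
theorem smul_eq_of_chain_inertia' {M : Type*} [AddCommGroup M] [Finite M] {p : ℕ}
    (hp : p.Prime) (hp2 : p ≠ 2) (A : ValuationSubring Qb) (hA : A.LiesOverPrime p)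
    [DistribMulAction ↥(A.inertiaSubgroupIn ℚ) M] (H : Subring (M → Qb))
    (hH : helper2784.OrderHyp ↥(A.inertiaSubgroupIn ℚ) A.toSubring
      (helper2784.nonunitsAddSubgroup A) H)
    (n : ℕ) (hMn : ∀ m : M, (p ^ n) • m = 0)
    (ε : ↥(A.inertiaSubgroupIn ℚ) → ℕ)
    (hε : ∀ (g : ↥(A.inertiaSubgroupIn ℚ)) (ζ : Qb), ζ ^ (p ^ n) = 1 → g • ζ = ζ ^ ε g)
    {ζ : Qb} (hζ : IsPrimitiveRoot ζ (p ^ n))
    (r : ℕ) (C : ℕ → AddSubgroup M) (hC0 : C 0 = ⊥) (hCr : C r = ⊤)
    (hCstab : ∀ i (g : ↥(A.inertiaSubgroupIn ℚ)), ∀ x ∈ C i, g • x ∈ C i)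
    (hCstep : ∀ i, i < r → (∀ x ∈ C (i + 1), p • x ∈ C i) ∧
      ((∀ (g : ↥(A.inertiaSubgroupIn ℚ)), ∀ x ∈ C (i + 1), g • x - x ∈ C i) ∨
       (∀ (g : ↥(A.inertiaSubgroupIn ℚ)), ∀ x ∈ C (i + 1), g • x - ε g • x ∈ C i))) :
    ∀ (g : ↥(A.inertiaSubgroupIn ℚ)) (m : M), g • m = ε g • m := by
  obtain ⟨h, hB, -⟩ := exists_fixedBasis_inertia' hp A hA H hH
  have : NeZero (p ^ n) := ⟨pow_ne_zero n hp.ne_zero⟩
  exact helper2784.smul_eq_of_chain hp hp2 (baseHyp_inertia hp A hA) hH hB n hMn ε hε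
    (fun d hd => helper2784.exists_char_ne_one_of_primitiveRoot hζ hMn d hd) r C hC0 hCr hCstab
    hCstep

end Fermat.Agent.S33.helper7050
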