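import Fermat.Agent.S19.helper2055_CechPic

/-!
# S33-CECHORD, stage 1: truncated Čech coordinates on a group of classes trivial mod `π`

Assembly (2c) of the S33 route (also the core assembly of the S19 second line), on top of the
bundle-level theory of `Fermat.Agent.S19.helper2055_CechPic`.

Setting: `(𝒪, π)` any commutative ring with an element (in practice a finite-level DVR with a
uniformiser), charts `S0, S1 ≤ S01` (subalgebras of `F`), `η : Fin g → F`, the three properties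
`Fac`, `Uni`, `Law` of the Čech units at every level.

A *family* over an additive group `M` attaches to every `x : M` a two-chart bundle `bun x` with a
trivialisation `(e0 x, e1 x)` mod `π`, multiplicatively up to a global scalar.

Output: for every family there is a system `β : ℕ → M → Fin g → 𝒪` of Čech coordinates
(`IsCoordSys`), and every such system
* has values in `(π)` (`IsCoordSys.small`),
* is compatible (`IsCoordSys.compat`),
* satisfies the law `β m (x + y) ≡ Φ m (β m x) (β m y)` mod `π ^ m` (`IsCoordSys.law`),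
* vanishes at `0` (`IsCoordSys.zero`),
* detects `0` (`IsCoordSys.exists_global`) and separates points
  (`IsCoordSys.exists_not_mem`) under bounded torsion,
* is equivariant under semilinear automorphisms (`IsCoordSys.eqv`, and `IsCoordSys.eqv_scalar`:
  up to a scalar depending on the point).
-/

set_option autoImplicit false

namespace Fermat.Agent.S33.helper2055

open Fermat.Agent.S19.helper2055

variable {𝒪 F : Type*} [CommRing 𝒪] [CommRing F] [Algebra 𝒪 F]

section Algebra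

variable {π : 𝒪} {S0 S1 S01 : Subalgebra 𝒪 F} {g : ℕ} {η : Fin g → F}

/-- `∏ (1 + b_i η_i)` is a one-unit of `S01` for small `b`. -/
theorem oneUnit_prodEta (hη : ∀ i, η i ∈ S01) {b : Fin g → 𝒪} (hb : Small π b) :
    OneUnit π S01 (prodEta η b) := by
  refine ⟨prodEta_mem hη b, ?_⟩
  have h := prodEta_congr (π := π) (S01 := S01) hη (m := 1) (b := b) (b' := 0)
    (fun i => by simpa using hb i)
  rwa [prodEta_zero] at h

/-- Cancellation in the law: if `Φ b b' ≡ b'` mod `π ^ m` then `b ≡ 0` mod `π ^ m`. -/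
theorem law_cancel (hη : ∀ i, η i ∈ S01) (hC : Charts π S0 S1 S01) {m : ℕ}
    (hU : Uni π S0 S1 S01 η m) {Φ : (Fin g → 𝒪) → (Fin g → 𝒪) → Fin g → 𝒪}
    (hL : Law π S0 S1 S01 η m Φ) {b b' : Fin g → 𝒪} (hb : Small π b) (hb' : Small π b')
    (h : ∀ i, Φ b b' i - b' i ∈ Ideal.span {π ^ m}) : ∀ i, b i ∈ Ideal.span {π ^ m} := by
  obtain ⟨-, c0, c1, hc0, hc1, hlaw⟩ := hL b b' hb hb'
  have h1 : prodEta η (Φ b b') - prodEta η b' ∈ pp π m (Subalgebra.toSubmodule S01) :=
    prodEta_congr hη h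
  obtain ⟨v, hv, hinv⟩ := (oneUnit_prodEta (π := π) hη hb').exists_inv m
  have hc0S : c0 ∈ S01 := hC.le0 hc0.1
  have hc1S : c1 ∈ S01 := hC.le1 hc1.1
  have hkey : 1 * prodEta η b * 1 - c0 * prodEta η (0 : Fin g → 𝒪) * c1
      ∈ pp π m (Subalgebra.toSubmodule S01) := by
    rw [prodEta_zero]
    have e : 1 * prodEta η b * 1 - c0 * 1 * c1
        = v * (prodEta η b * prodEta η b' - c0 * prodEta η (Φ b b') * c1)
          + (c0 * c1 * v) * (prodEta η (Φ b b') - prodEta η b')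
          - (prodEta η b - c0 * c1) * (prodEta η b' * v - 1) := by ring
    rw [e]
    refine Submodule.sub_mem _ (Submodule.add_mem _ ?_ ?_) ?_
    · exact mul_mem_pp (L := Subalgebra.toSubmodule S01) (fun y hy => S01.mul_mem hv.1 hy) hlaw
    · exact mul_mem_pp (L := Subalgebra.toSubmodule S01)
        (fun y hy => S01.mul_mem (S01.mul_mem (S01.mul_mem hc0S hc1S) hv.1) hy) h1
    · exact mul_mem_pp (L := Subalgebra.toSubmodule S01)
        (fun y hy => S01.mul_mem (S01.sub_mem (prodEta_mem hη b) (S01.mul_mem hc0S hc1S)) hy) hinv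
  have := hU 1 c0 1 c1 b 0 (OneUnit.one _ _) hc0 (OneUnit.one _ _) hc1 hb (Small.zero π) hkey
  intro i
  simpa using this i

end Algebra

/-! ### The bundle `f⁻¹ B` -/

/-- The bundle `{z | f * z ∈ B}`. -/
def comapMul {S0 S1 S01 : Subalgebra 𝒪 F} (B : Bundle S0 S1 S01) (f : F) : Bundle S0 S1 S01 where
  L0 := B.L0.comap (LinearMap.mulLeft 𝒪 f)
  L1 := B.L1.comap (LinearMap.mulLeft 𝒪 f)
  L01 := B.L01.comap (LinearMap.mulLeft 𝒪 f)
  le0 := Submodule.comap_mono B.le0
  le1 := Submodule.comap_mono B.le1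
  mul0 := fun s hs x hx => by
    simp only [Submodule.mem_comap, LinearMap.mulLeft_apply] at hx ⊢
    have e : f * (s * x) = s * (f * x) := by ring
    rw [e]
    exact B.mul0 s hs _ hx
  mul1 := fun s hs x hx => by
    simp only [Submodule.mem_comap, LinearMap.mulLeft_apply] at hx ⊢
    have e : f * (s * x) = s * (f * x) := by ring
    rw [e]
    exact B.mul1 s hs _ hx
  mul01 := fun s hs x hx => by
    simp only [Submodule.mem_comap, LinearMap.mulLeft_apply] at hx ⊢
    have e : f * (s * x) = s * (f * x) := by ring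
    rw [e]
    exact B.mul01 s hs _ hx

theorem mem_comapMul_L01 {S0 S1 S01 : Subalgebra 𝒪 F} {B : Bundle S0 S1 S01} {f z : F} :
    z ∈ (comapMul B f).L01 ↔ f * z ∈ B.L01 := by
  simp [comapMul]

/-! ### Families of bundles trivial mod `π` -/

variable {M : Type*} [AddCommGroup M]

/-- A family of two-chart bundles over the additive group `M`, trivialised mod `π`,
multiplicative up to a global scalar, with a global generator mod `π` at `0`. -/
structure IsFamily (π : 𝒪) {S0 S1 S01 : Subalgebra 𝒪 F} (bun : M → Bundle S0 S1 S01)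
    (e0 e1 : M → F) : Prop where
  triv : ∀ x, Triv π (bun x) (e0 x) (e1 x)
  add : ∀ x y, ∃ f : F, (∀ a ∈ (bun x).L01, ∀ b ∈ (bun y).L01, f * (a * b) ∈ (bun (x + y)).L01) ∧
    Triv π (bun (x + y)) (f * (e0 x * e0 y)) (f * (e1 x * e1 y))
  zero : ∃ s, Triv π (bun 0) s s

/-- `β` is a system of Čech coordinates of the family at every level. -/
def IsCoordSys (π : 𝒪) {S0 S1 S01 : Subalgebra 𝒪 F} {g : ℕ} (η : Fin g → F)
    (bun : M → Bundle S0 S1 S01) (e0 e1 : M → F) (β : ℕ → M → Fin g → 𝒪) : Prop :=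
  ∀ m x, IsCoord π η (bun x) (e0 x) (e1 x) m (β m x)

section Family

variable {π : 𝒪} {S0 S1 S01 : Subalgebra 𝒪 F} {g : ℕ} {η : Fin g → F}
  {bun : M → Bundle S0 S1 S01} {e0 e1 : M → F}

/-- Existence of a system of Čech coordinates. -/
theorem exists_isCoordSys (hfam : IsFamily π bun e0 e1) (hF : ∀ m, Fac π S0 S1 S01 η m) :
    ∃ β : ℕ → M → Fin g → 𝒪, IsCoordSys π η bun e0 e1 β := by
  have h : ∀ m x, ∃ b, IsCoord π η (bun x) (e0 x) (e1 x) m b :=
    fun m x => exists_isCoord (hfam.triv x) (hF m)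
  choose β hβ using h
  exact ⟨β, hβ⟩

variable {β : ℕ → M → Fin g → 𝒪}

omit [AddCommGroup M] in
/-- The coordinates lie in `(π)`. -/
theorem IsCoordSys.small (hβ : IsCoordSys π η bun e0 e1 β) (m : ℕ) (x : M) (i : Fin g) :
    β m x i ∈ Ideal.span {π} :=
  (hβ m x).1 i

/-- Any vector of coordinates at level `m` agrees with the system mod `π ^ m`. -/
theorem IsCoordSys.unique (hβ : IsCoordSys π η bun e0 e1 β) (hη : ∀ i, η i ∈ S01)
    (hC : Charts π S0 S1 S01) (hfam : IsFamily π bun e0 e1) {m : ℕ}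
    (hU : Uni π S0 S1 S01 η m) {x : M} {b : Fin g → 𝒪}
    (hb : IsCoord π η (bun x) (e0 x) (e1 x) m b) (i : Fin g) :
    β m x i - b i ∈ Ideal.span {π ^ m} :=
  IsCoord.unique hη hC (hfam.triv x) hU (hβ m x) hb i

/-- Compatibility of the levels. -/
theorem IsCoordSys.compat (hβ : IsCoordSys π η bun e0 e1 β) (hη : ∀ i, η i ∈ S01)
    (hC : Charts π S0 S1 S01) (hfam : IsFamily π bun e0 e1) {m k : ℕ} (hkm : k ≤ m)
    (hU : Uni π S0 S1 S01 η k) (x : M) (i : Fin g) :
    β m x i - β k x i ∈ Ideal.span {π ^ k} := by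
  have h := hβ.unique hη hC hfam hU ((hβ m x).of_le hkm) i
  have e : β m x i - β k x i = -(β k x i - β m x i) := by ring
  rw [e]
  exact Ideal.neg_mem_iff _ |>.2 h

/-- The coordinates of the class `0` vanish. -/
theorem IsCoordSys.zero (hβ : IsCoordSys π η bun e0 e1 β) (hη : ∀ i, η i ∈ S01)
    (hC : Charts π S0 S1 S01) (hfam : IsFamily π bun e0 e1) {m : ℕ}
    (hU : Uni π S0 S1 S01 η m) (i : Fin g) : β m 0 i ∈ Ideal.span {π ^ m} := by
  obtain ⟨s, hs⟩ := hfam.zero
  have h := hβ.unique hη hC hfam hU (isCoord_zero_of_global hη hC (hfam.triv 0) hs m) i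
  simpa using h

/-- The coordinates of a sum are given by the law. -/
theorem IsCoordSys.isCoord_add (hβ : IsCoordSys π η bun e0 e1 β) (hη : ∀ i, η i ∈ S01)
    (hC : Charts π S0 S1 S01) (hfam : IsFamily π bun e0 e1) {m : ℕ}
    {Φ : (Fin g → 𝒪) → (Fin g → 𝒪) → Fin g → 𝒪} (hL : Law π S0 S1 S01 η m Φ) (x y : M) :
    IsCoord π η (bun (x + y)) (e0 (x + y)) (e1 (x + y)) m (Φ (β m x) (β m y)) := by
  obtain ⟨f, hf, hT⟩ := hfam.add x y
  have hx := hfam.triv x
  have hy := hfam.triv y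
  have h1 : IsCoord π η (comapMul (bun (x + y)) f) (e0 x * e0 y) (e1 x * e1 y) m
      (Φ (β m x) (β m y)) :=
    IsCoord.mul hη hC ((bun x).le0 hx.mem0) ((bun y).le0 hy.mem0) ((bun y).le1 hy.mem1)
      (fun a ha b hb => mem_comapMul_L01.2 (hf a ha b hb)) hL (hβ m x) (hβ m y)
  have h2 : IsCoord π η (bun (x + y)) (f * (e0 x * e0 y)) (f * (e1 x * e1 y)) m
      (Φ (β m x) (β m y)) :=
    IsCoord.scale (fun z hz => mem_comapMul_L01.1 hz) h1
  exact IsCoord.indep hη hC hT (hfam.triv (x + y)) h2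

/-- **The law** mod `π ^ m`. -/
theorem IsCoordSys.law (hβ : IsCoordSys π η bun e0 e1 β) (hη : ∀ i, η i ∈ S01)
    (hC : Charts π S0 S1 S01) (hfam : IsFamily π bun e0 e1) {m : ℕ}
    (hU : Uni π S0 S1 S01 η m)
    {Φ : (Fin g → 𝒪) → (Fin g → 𝒪) → Fin g → 𝒪} (hL : Law π S0 S1 S01 η m Φ) (x y : M)
    (i : Fin g) : β m (x + y) i - Φ (β m x) (β m y) i ∈ Ideal.span {π ^ m} :=
  hβ.unique hη hC hfam hU (hβ.isCoord_add hη hC hfam hL x y) i

/-- **Injectivity**: a class whose coordinates vanish mod `π ^ (c + 1)` (`c` a torsion bound of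
its Čech `H^1`) has a bundle with a global generator mod `π`. -/
theorem IsCoordSys.exists_global (hβ : IsCoordSys π η bun e0 e1 β) (hη : ∀ i, η i ∈ S01)
    (hC : Charts π S0 S1 S01) (hfam : IsFamily π bun e0 e1) {x : M} {c : ℕ}
    (htors : ∀ h ∈ (bun x).L01, π ^ (c + 1) • h ∈ (bun x).L0 ⊔ (bun x).L1 →
      π ^ c • h ∈ (bun x).L0 ⊔ (bun x).L1)
    (h0 : ∀ i, β (c + 1) x i ∈ Ideal.span {π ^ (c + 1)}) : ∃ s, Triv π (bun x) s s := by
  have h1 : IsCoord π η (bun x) (e0 x) (e1 x) (c + 1) 0 :=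
    IsCoord.congr hη hC (hfam.triv x) (hβ (c + 1) x) (Small.zero π)
      (fun i => by simpa using h0 i)
  exact (isCoord_zero_iff_global hη hC (hfam.triv x) htors).1 h1

/-- **Separation**: if the bundle of `x - y` has no global generator mod `π` and the torsion of
its Čech `H^1` is bounded by `π ^ c`, the coordinates of `x` and `y` differ mod `π ^ (c + 1)`. -/
theorem IsCoordSys.exists_not_mem (hβ : IsCoordSys π η bun e0 e1 β) (hη : ∀ i, η i ∈ S01)
    (hC : Charts π S0 S1 S01) (hfam : IsFamily π bun e0 e1) {x y : M} {c : ℕ}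
    (hU : Uni π S0 S1 S01 η (c + 1))
    {Φ : (Fin g → 𝒪) → (Fin g → 𝒪) → Fin g → 𝒪} (hL : Law π S0 S1 S01 η (c + 1) Φ)
    (htors : ∀ h ∈ (bun (x - y)).L01, π ^ (c + 1) • h ∈ (bun (x - y)).L0 ⊔ (bun (x - y)).L1 →
      π ^ c • h ∈ (bun (x - y)).L0 ⊔ (bun (x - y)).L1)
    (hglob : ¬ ∃ s, Triv π (bun (x - y)) s s) :
    ∃ i, β (c + 1) x i - β (c + 1) y i ∉ Ideal.span {π ^ (c + 1)} := by
  by_contra hcon
  have hcon : ∀ i, β (c + 1) x i - β (c + 1) y i ∈ Ideal.span {π ^ (c + 1)} := by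
    intro i
    by_contra hi
    exact hcon ⟨i, hi⟩
  apply hglob
  refine hβ.exists_global hη hC hfam htors ?_
  refine law_cancel hη hC hU hL (b := β (c + 1) (x - y)) (b' := β (c + 1) y)
    (fun i => hβ.small _ _ i) (fun i => hβ.small _ _ i) (fun i => ?_)
  have h1 := hβ.law hη hC hfam hU hL (x - y) y i
  rw [sub_add_cancel] at h1
  have e : Φ (β (c + 1) (x - y)) (β (c + 1) y) i - β (c + 1) y i
      = (β (c + 1) x i - β (c + 1) y i)
        - (β (c + 1) x i - Φ (β (c + 1) (x - y)) (β (c + 1) y) i) := by ring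
  rw [e]
  exact Ideal.sub_mem _ (hcon i) h1

/-- **Equivariance** under a semilinear automorphism `(σ, τ, γ)` preserving the charts, `η`,
the bundles and the trivialisations (`τ π = c * π`). -/
theorem IsCoordSys.eqv (hβ : IsCoordSys π η bun e0 e1 β) (hη : ∀ i, η i ∈ S01)
    (hC : Charts π S0 S1 S01) (hfam : IsFamily π bun e0 e1) {m : ℕ}
    (hU : Uni π S0 S1 S01 η m)
    (τ : 𝒪 →+* 𝒪) (σ : F →+* F) (γ : M → M)
    (hστ : ∀ a, σ (algebraMap 𝒪 F a) = algebraMap 𝒪 F (τ a)) {c : 𝒪} (hπ : τ π = c * π)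
    (h0 : ∀ s ∈ S0, σ s ∈ S0) (h1 : ∀ s ∈ S1, σ s ∈ S1) (hση : ∀ i, σ (η i) = η i)
    (hbun : ∀ x, ∀ a ∈ (bun x).L01, σ a ∈ (bun (γ x)).L01)
    (htriv : ∀ x, Triv π (bun (γ x)) (σ (e0 x)) (σ (e1 x))) (x : M) (i : Fin g) :
    β m (γ x) i - τ (β m x i) ∈ Ideal.span {π ^ m} := by
  have hπ' : τ π = c * π ^ 1 := by rw [pow_one, hπ]
  have h2 : IsCoord π η (bun (γ x)) (σ (e0 x)) (σ (e1 x)) (1 * m) (fun i => τ (β m x i)) :=
    IsCoord.map τ σ hστ (le_refl 1) hπ' h0 h1 hση (hbun x) (hβ m x)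
  rw [one_mul] at h2
  exact hβ.unique hη hC hfam hU (IsCoord.indep hη hC (htriv x) (hfam.triv (γ x)) h2) i

/-- **Equivariance up to a scalar** (pin of helper2287): it suffices that `f * σ (bun x) ⊆ bun (γ x)`
and that `(f * σ (e0 x), f * σ (e1 x))` trivialises `bun (γ x)`, for some `f` depending on `x`
(no equivariant choice of the representatives is needed). -/
theorem IsCoordSys.eqv_scalar (hβ : IsCoordSys π η bun e0 e1 β) (hη : ∀ i, η i ∈ S01)
    (hC : Charts π S0 S1 S01) (hfam : IsFamily π bun e0 e1) {m : ℕ}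
    (hU : Uni π S0 S1 S01 η m)
    (τ : 𝒪 →+* 𝒪) (σ : F →+* F) (γ : M → M)
    (hστ : ∀ a, σ (algebraMap 𝒪 F a) = algebraMap 𝒪 F (τ a)) {c : 𝒪} (hπ : τ π = c * π)
    (h0 : ∀ s ∈ S0, σ s ∈ S0) (h1 : ∀ s ∈ S1, σ s ∈ S1) (hση : ∀ i, σ (η i) = η i)
    (x : M) (f : F) (hbun : ∀ a ∈ (bun x).L01, f * σ a ∈ (bun (γ x)).L01)
    (htriv : Triv π (bun (γ x)) (f * σ (e0 x)) (f * σ (e1 x))) (i : Fin g) :
    β m (γ x) i - τ (β m x i) ∈ Ideal.span {π ^ m} := by
  have hπ' : τ π = c * π ^ 1 := by rw [pow_one, hπ]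
  have h2 : IsCoord π η (comapMul (bun (γ x)) f) (σ (e0 x)) (σ (e1 x)) (1 * m)
      (fun i => τ (β m x i)) :=
    IsCoord.map τ σ hστ (le_refl 1) hπ' h0 h1 hση
      (fun a ha => mem_comapMul_L01.2 (hbun a ha)) (hβ m x)
  rw [one_mul] at h2
  have h3 : IsCoord π η (bun (γ x)) (f * σ (e0 x)) (f * σ (e1 x)) m (fun i => τ (β m x i)) :=
    IsCoord.scale (fun z hz => mem_comapMul_L01.1 hz) h2
  exact hβ.unique hη hC hfam hU (IsCoord.indep hη hC htriv (hfam.triv (γ x)) h3) i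

end Family

end Fermat.Agent.S33.helper2055
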