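import Fermat.Agent.S19.helper2055_CechPic
import Fermat.Agent.S19.helper8101_CechLaw

/-!
# S33-CECHORD, (α) CECH-ADAPT: the Čech unit package from the integral Čech datum

`IsCechInt π S0 S1 S01 η` : the integral two-chart Čech datum at a level `(𝒪, π)`, in element form
inside an ambient ring `F` (`span`, `indep`, `inter`; `π` regular on `F`; `𝒪` local with maximal
ideal `(π)`; `π` not invertible in `S01`).  No flatness, no tensor products, no graded hypotheses.

* `IsCechInt.charts` : `Charts π S0 S1 S01` (`sat0`, `const`, `unit`);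
* `IsCechInt.fac`    : `Fac π S0 S1 S01 η m` for every `m` (existence of the unit factorisation);
* `IsCechInt.uni`    : `Uni π S0 S1 S01 η m` for every `m` (uniqueness of the coordinates);
* `exists_law_of_base` : from an `R`-level datum `B0, B1 ≤ B01` (subalgebras of `F` over a base
  ring `R → 𝒪`) with `B01 ≤ B0 + B1 + ∑ R η_i` and `B_i ⊆ S_i`: polynomials `P m i` over `R` with
  `Law π S0 S1 S01 η m (fun b b' i => aeval (Sum.elim b b') (P m i))` for every `m`.

These are exactly the Čech-unit hypotheses of `exists_order_of_family` / `exists_order_subgroup`.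
-/

set_option autoImplicit false

namespace Fermat.Agent.S33.helper2055

open Fermat.Agent.S19.helper2055
open Fermat.Agent.S19

variable {𝒪 F : Type*} [CommRing 𝒪] [CommRing F] [Algebra 𝒪 F]

/-! ### `π`-adic calculus in element form -/

section PP

variable {π : 𝒪}

theorem mem_pp_alg {k : ℕ} {L : Submodule 𝒪 F} {x : F} :
    x ∈ pp π k L ↔ ∃ y ∈ L, x = algebraMap 𝒪 F π ^ k * y := by
  rw [mem_pp]
  constructor
  · rintro ⟨y, hy, rfl⟩
    exact ⟨y, hy, by rw [Algebra.smul_def, map_pow]⟩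
  · rintro ⟨y, hy, h⟩
    exact ⟨y, hy, by rw [h, Algebra.smul_def, map_pow]⟩

theorem pp_mul_pp {S : Subalgebra 𝒪 F} {j k : ℕ} {x y : F}
    (hx : x ∈ pp π j (Subalgebra.toSubmodule S)) (hy : y ∈ pp π k (Subalgebra.toSubmodule S)) :
    x * y ∈ pp π (j + k) (Subalgebra.toSubmodule S) := by
  obtain ⟨x', hx', rfl⟩ := mem_pp_alg.1 hx
  obtain ⟨y', hy', rfl⟩ := mem_pp_alg.1 hy
  exact mem_pp_alg.2 ⟨x' * y', S.mul_mem hx' hy', by rw [pow_add]; ring⟩

theorem mul_mem_pp_self {S : Subalgebra 𝒪 F} {k : ℕ} {s x : F} (hs : s ∈ S)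
    (hx : x ∈ pp π k (Subalgebra.toSubmodule S)) : s * x ∈ pp π k (Subalgebra.toSubmodule S) :=
  mul_mem_pp (L := Subalgebra.toSubmodule S) (fun _ hy => S.mul_mem hs hy) hx

theorem pp_mul_mem_self {S : Subalgebra 𝒪 F} {k : ℕ} {s x : F} (hs : s ∈ S)
    (hx : x ∈ pp π k (Subalgebra.toSubmodule S)) : x * s ∈ pp π k (Subalgebra.toSubmodule S) := by
  rw [mul_comm]
  exact mul_mem_pp_self hs hx

theorem mem_of_mem_pp {S : Subalgebra 𝒪 F} {k : ℕ} {x : F}
    (hx : x ∈ pp π k (Subalgebra.toSubmodule S)) : x ∈ S :=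
  pp_le π k _ hx

theorem pow_mul_mem_pp {S : Subalgebra 𝒪 F} {k : ℕ} {y : F} (hy : y ∈ S) :
    algebraMap 𝒪 F π ^ k * y ∈ pp π k (Subalgebra.toSubmodule S) :=
  mem_pp_alg.2 ⟨y, hy, rfl⟩

/-- The sum `∑ c_i η_i`. -/
def etaSum {g : ℕ} (η : Fin g → F) (c : Fin g → 𝒪) : F := ∑ i, c i • η i

theorem etaSum_mem {S01 : Subalgebra 𝒪 F} {g : ℕ} {η : Fin g → F} (hη : ∀ i, η i ∈ S01)
    (c : Fin g → 𝒪) : etaSum η c ∈ S01 :=
  sum_mem fun i _ => S01.smul_mem (hη i) _

theorem etaSum_sub_mul {g : ℕ} (η : Fin g → F) (c d : Fin g → 𝒪) (a : 𝒪) :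
    etaSum η (fun i => c i - a * d i) = etaSum η c - algebraMap 𝒪 F a * etaSum η d := by
  simp only [etaSum, Finset.mul_sum, ← Finset.sum_sub_distrib]
  refine Finset.sum_congr rfl fun i _ => ?_
  rw [sub_smul, mul_smul, Algebra.smul_def a]

/-- A factorisation of a product of one-units perturbed at order `k`. -/
theorem factor_perturb_pp {S : Subalgebra 𝒪 F} {k : ℕ} (hk : 1 ≤ k) {A0 A1 P P' β0 β1 γ : F}
    (hA0 : OneUnit π S A0) (hA1 : OneUnit π S A1) (hP : OneUnit π S P)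
    (hβ0 : β0 ∈ pp π k (Subalgebra.toSubmodule S)) (hβ1 : β1 ∈ pp π k (Subalgebra.toSubmodule S))
    (hγ : γ ∈ pp π k (Subalgebra.toSubmodule S))
    (hP' : P' - P - γ ∈ pp π (k + 1) (Subalgebra.toSubmodule S)) :
    (A0 + β0) * P' * (A1 + β1) - A0 * P * A1 - (β0 + β1 + γ)
      ∈ pp π (k + 1) (Subalgebra.toSubmodule S) := by
  have e : (A0 + β0) * P' * (A1 + β1) - A0 * P * A1 - (β0 + β1 + γ) =
      (A0 + β0) * (A1 + β1) * (P' - P - γ) + γ * (A0 * A1 - 1) + β0 * (A1 * P - 1) +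
        β1 * (A0 * P - 1) + β0 * (β1 * P) + γ * (β0 * A1 + A0 * β1 + β0 * β1) := by ring
  rw [e]
  have hQ1 : ∀ {x : F}, x ∈ pp π k (Subalgebra.toSubmodule S) →
      x ∈ pp π 1 (Subalgebra.toSubmodule S) := fun hx => pp_anti hk _ hx
  have h1 : ∀ {x y : F}, x ∈ pp π k (Subalgebra.toSubmodule S) →
      y ∈ pp π 1 (Subalgebra.toSubmodule S) → x * y ∈ pp π (k + 1) (Subalgebra.toSubmodule S) :=
    fun hx hy => pp_mul_pp hx hy
  refine Submodule.add_mem _ (Submodule.add_mem _ (Submodule.add_mem _ (Submodule.add_mem _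
    (Submodule.add_mem _ ?_ ?_) ?_) ?_) ?_) ?_
  · exact mul_mem_pp_self (S.mul_mem (S.add_mem hA0.1 (mem_of_mem_pp hβ0))
      (S.add_mem hA1.1 (mem_of_mem_pp hβ1))) hP'
  · exact h1 hγ (hA0.mul hA1).2
  · exact h1 hβ0 (hA1.mul hP).2
  · exact h1 hβ1 (hA0.mul hP).2
  · exact h1 hβ0 (hQ1 (pp_mul_mem_self hP.1 hβ1))
  · exact h1 hγ (hQ1 (Submodule.add_mem _ (Submodule.add_mem _ (pp_mul_mem_self hA1.1 hβ0)
      (mul_mem_pp_self hA0.1 hβ1)) (mul_mem_pp_self (mem_of_mem_pp hβ0) hβ1)))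

/-- Linearisation of `∏ (1 + b_i η_i)` at order `k`. -/
theorem prodEta_perturb {S01 : Subalgebra 𝒪 F} {g : ℕ} {η : Fin g → F} (hη : ∀ i, η i ∈ S01)
    {b : Fin g → 𝒪} (hb : Small π b) {k : ℕ} (hk : 1 ≤ k) (c : Fin g → 𝒪) :
    prodEta η (fun i => b i + π ^ k * c i) - prodEta η b - algebraMap 𝒪 F π ^ k * etaSum η c
      ∈ pp π (k + 1) (Subalgebra.toSubmodule S01) := by
  have hsmall : ∀ a : Fin g, ∀ t : 𝒪, t ∈ Ideal.span {π} →
      t • η a ∈ pp π 1 (Subalgebra.toSubmodule S01) := by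
    intro a t ht
    obtain ⟨t', rfl⟩ := Ideal.mem_span_singleton'.1 ht
    exact mem_pp_alg.2 ⟨t' • η a, S01.smul_mem (hη a) _, by
      rw [Algebra.smul_def, Algebra.smul_def, map_mul, pow_one]; ring⟩
  have key : ∀ s : Finset (Fin g),
      (∏ i ∈ s, (1 + (b i + π ^ k * c i) • η i)) - (∏ i ∈ s, (1 + b i • η i))
          - algebraMap 𝒪 F π ^ k * ∑ i ∈ s, c i • η i
        ∈ pp π (k + 1) (Subalgebra.toSubmodule S01) ∧
      (∏ i ∈ s, (1 + b i • η i)) - 1 ∈ pp π 1 (Subalgebra.toSubmodule S01) := by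
    intro s
    induction s using Finset.induction_on with
    | empty => simp
    | insert a s ha ih =>
      obtain ⟨ih1, ih2⟩ := ih
      rw [Finset.prod_insert ha, Finset.prod_insert ha, Finset.sum_insert ha]
      have hPi : (∏ i ∈ s, (1 + b i • η i)) ∈ S01 :=
        prod_mem fun i _ => S01.add_mem S01.one_mem (S01.smul_mem (hη i) _)
      have hSum : (∑ i ∈ s, c i • η i) ∈ S01 := sum_mem fun i _ => S01.smul_mem (hη i) _
      have hπk : π ^ k ∈ Ideal.span {π} :=
        Ideal.pow_mem_of_mem _ (Ideal.subset_span (Set.mem_singleton π)) k hk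
      have hba : b a + π ^ k * c a ∈ Ideal.span {π} :=
        (Ideal.span {π}).add_mem (hb a) ((Ideal.span {π}).mul_mem_right _ hπk)
      have hA'1 := hsmall a _ hba
      have hA'm : 1 + (b a + π ^ k * c a) • η a ∈ S01 :=
        S01.add_mem S01.one_mem (S01.smul_mem (hη a) _)
      have hca : algebraMap 𝒪 F π ^ k * (c a • η a) ∈ pp π k (Subalgebra.toSubmodule S01) :=
        pow_mul_mem_pp (S01.smul_mem (hη a) _)
      have hSumk : algebraMap 𝒪 F π ^ k * ∑ i ∈ s, c i • η i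
          ∈ pp π k (Subalgebra.toSubmodule S01) := pow_mul_mem_pp hSum
      constructor
      · have e : (1 + (b a + π ^ k * c a) • η a) * ∏ i ∈ s, (1 + (b i + π ^ k * c i) • η i)
              - (1 + b a • η a) * ∏ i ∈ s, (1 + b i • η i)
              - algebraMap 𝒪 F π ^ k * (c a • η a + ∑ i ∈ s, c i • η i)
            = (1 + (b a + π ^ k * c a) • η a)
                * ((∏ i ∈ s, (1 + (b i + π ^ k * c i) • η i)) - (∏ i ∈ s, (1 + b i • η i))
                  - algebraMap 𝒪 F π ^ k * ∑ i ∈ s, c i • η i)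
              + (algebraMap 𝒪 F π ^ k * (c a • η a)) * ((∏ i ∈ s, (1 + b i • η i)) - 1)
              + ((b a + π ^ k * c a) • η a) * (algebraMap 𝒪 F π ^ k * ∑ i ∈ s, c i • η i) := by
          rw [add_smul, mul_smul, Algebra.smul_def (π ^ k), map_pow]
          ring
        rw [e]
        refine Submodule.add_mem _ (Submodule.add_mem _ (mul_mem_pp_self hA'm ih1)
          (pp_mul_pp hca ih2)) ?_
        have h3 := pp_mul_pp hA'1 hSumk
        rwa [add_comm] at h3
      · have e : (1 + b a • η a) * ∏ i ∈ s, (1 + b i • η i) - 1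
            = (1 + b a • η a) * ((∏ i ∈ s, (1 + b i • η i)) - 1) + b a • η a := by ring
        rw [e]
        exact Submodule.add_mem _ (mul_mem_pp_self
          (S01.add_mem S01.one_mem (S01.smul_mem (hη a) _)) ih2) (hsmall a _ (hb a))
  exact (key Finset.univ).1

/-- `∏ (1 + b_i η_i)` is a one-unit of `S01` for small `b`. -/
theorem oneUnit_prodEta' {S01 : Subalgebra 𝒪 F} {g : ℕ} {η : Fin g → F} (hη : ∀ i, η i ∈ S01)
    {b : Fin g → 𝒪} (hb : Small π b) : OneUnit π S01 (prodEta η b) := by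
  refine ⟨prodEta_mem hη b, ?_⟩
  have h := prodEta_congr (π := π) (S01 := S01) hη (m := 1) (b := b) (b' := 0)
    (fun i => by simpa using hb i)
  rwa [prodEta_zero] at h

end PP

/-! ### The integral Čech datum -/

/-- The integral two-chart Čech datum at level `(𝒪, π)`, element form inside `F`. -/
structure IsCechInt (π : 𝒪) (S0 S1 S01 : Subalgebra 𝒪 F) {g : ℕ} (η : Fin g → F) : Prop where
  le0 : S0 ≤ S01
  le1 : S1 ≤ S01
  eta : ∀ i, η i ∈ S01
  span : ∀ x ∈ S01, ∃ x0 ∈ S0, ∃ x1 ∈ S1, ∃ c : Fin g → 𝒪, x = x0 + x1 + ∑ i, c i • η i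
  indep : ∀ x0 ∈ S0, ∀ x1 ∈ S1, ∀ c : Fin g → 𝒪, x0 + x1 + ∑ i, c i • η i = 0 → c = 0
  inter : ∀ x ∈ S0, x ∈ S1 → ∃ a : 𝒪, x = algebraMap 𝒪 F a
  reg : ∀ y : F, π • y = 0 → y = 0
  loc : ∀ a : 𝒪, a ∈ Ideal.span {π} ∨ IsUnit a
  nonunit : ∀ y ∈ S01, π • y ≠ 1

section Int

variable {π : 𝒪} {S0 S1 S01 : Subalgebra 𝒪 F} {g : ℕ} {η : Fin g → F}

theorem IsCechInt.reg_pow (h : IsCechInt π S0 S1 S01 η) (k : ℕ) {y y' : F}
    (hy : algebraMap 𝒪 F π ^ k * y = algebraMap 𝒪 F π ^ k * y') : y = y' := by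
  induction k with
  | zero => simpa using hy
  | succ k ih =>
    apply ih
    have h1 : π • (algebraMap 𝒪 F π ^ k * y - algebraMap 𝒪 F π ^ k * y') = 0 := by
      rw [Algebra.smul_def]
      linear_combination hy
    exact sub_eq_zero.1 (h.reg _ h1)

/-- The kernel of `S0 × S1 × 𝒪^g → S01 / π S01`. -/
theorem IsCechInt.ker (h : IsCechInt π S0 S1 S01 η) {x0 x1 : F} (hx0 : x0 ∈ S0) (hx1 : x1 ∈ S1)
    {c : Fin g → 𝒪}
    (hx : x0 + x1 + etaSum η c ∈ pp π 1 (Subalgebra.toSubmodule S01)) :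
    ∃ y0 ∈ S0, ∃ y1 ∈ S1, ∃ (d : Fin g → 𝒪) (a : 𝒪), (∀ i, c i = π * d i) ∧
      x0 = algebraMap 𝒪 F a + algebraMap 𝒪 F π * y0 ∧
      x1 = -algebraMap 𝒪 F a + algebraMap 𝒪 F π * y1 := by
  obtain ⟨y, hy, hyx⟩ := mem_pp_alg.1 hx
  rw [pow_one] at hyx
  obtain ⟨y0, hy0, y1, hy1, d, rfl⟩ := h.span y hy
  have hy0' : x0 - algebraMap 𝒪 F π * y0 ∈ S0 :=
    S0.sub_mem hx0 (S0.mul_mem (S0.algebraMap_mem _) hy0)
  have hy1' : x1 - algebraMap 𝒪 F π * y1 ∈ S1 :=
    S1.sub_mem hx1 (S1.mul_mem (S1.algebraMap_mem _) hy1)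
  have hrel : (x0 - algebraMap 𝒪 F π * y0) + (x1 - algebraMap 𝒪 F π * y1)
      + ∑ i, (c i - π * d i) • η i = 0 := by
    have e := etaSum_sub_mul η c d π
    simp only [etaSum] at e hyx
    rw [e]
    linear_combination hyx
  have hc := h.indep _ hy0' _ hy1' _ hrel
  have hc' : ∀ i, c i = π * d i := fun i => sub_eq_zero.1 (congrFun hc i)
  have hrel' : x0 - algebraMap 𝒪 F π * y0 = -(x1 - algebraMap 𝒪 F π * y1) := by
    have h0 : ∑ i, (c i - π * d i) • η i = 0 :=
      Finset.sum_eq_zero fun i _ => by rw [hc' i, sub_self, zero_smul]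
    rw [h0, add_zero] at hrel
    linear_combination hrel
  obtain ⟨a, ha⟩ := h.inter _ hy0' (by rw [hrel']; exact S1.neg_mem hy1')
  refine ⟨y0, hy0, y1, hy1, d, a, hc', ?_, ?_⟩
  · linear_combination ha
  · linear_combination hrel' - ha

/-- `Charts` from the integral Čech datum. -/
theorem IsCechInt.charts (h : IsCechInt π S0 S1 S01 η) : Charts π S0 S1 S01 where
  le0 := h.le0
  le1 := h.le1
  sat0 := by
    intro s hs hs1
    have hx : s + 0 + etaSum η (0 : Fin g → 𝒪) ∈ pp π 1 (Subalgebra.toSubmodule S01) := by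
      simpa [etaSum] using hs1
    obtain ⟨y0, hy0, y1, hy1, d, a, -, h0, h1⟩ := h.ker hs S1.zero_mem hx
    rcases h.loc a with ha | ha
    · obtain ⟨a', rfl⟩ := Ideal.mem_span_singleton'.1 ha
      refine mem_pp_alg.2 ⟨algebraMap 𝒪 F a' + y0, S0.add_mem (S0.algebraMap_mem _) hy0, ?_⟩
      rw [h0, map_mul, pow_one]
      ring
    · exfalso
      obtain ⟨v, hv⟩ := ha.exists_right_inv
      refine h.nonunit (algebraMap 𝒪 F v * y1)
        (S01.mul_mem (S01.algebraMap_mem _) (h.le1 hy1)) ?_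
      have h2 : algebraMap 𝒪 F a * algebraMap 𝒪 F v = 1 := by
        rw [← map_mul, hv, map_one]
      rw [Algebra.smul_def]
      linear_combination (-algebraMap 𝒪 F v) * h1 + h2
  const := by
    intro s0 hs0 s1 hs1 h01
    have hx : s0 + (-s1) + etaSum η (0 : Fin g → 𝒪) ∈ pp π 1 (Subalgebra.toSubmodule S01) := by
      simpa [etaSum, sub_eq_add_neg] using h01
    obtain ⟨y0, hy0, y1, hy1, d, a, -, h0, h1⟩ := h.ker hs0 (S1.neg_mem hs1) hx
    refine ⟨a, mem_pp_alg.2 ⟨y0, hy0, ?_⟩, mem_pp_alg.2 ⟨-y1, S1.neg_mem hy1, ?_⟩⟩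
    · rw [pow_one]
      linear_combination h0
    · rw [pow_one]
      linear_combination -h1
  unit := by
    rintro a ⟨s, hs, has⟩
    rcases h.loc a with ha | ha
    · exfalso
      obtain ⟨a', rfl⟩ := Ideal.mem_span_singleton'.1 ha
      obtain ⟨z, hz, hze⟩ := mem_pp_alg.1 has
      rw [pow_one] at hze
      refine h.nonunit (algebraMap 𝒪 F a' * s - z)
        (S01.sub_mem (S01.mul_mem (S01.algebraMap_mem _) (h.le0 hs)) (h.le0 hz)) ?_
      rw [Algebra.smul_def]
      rw [map_mul] at hze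
      linear_combination hze
    · exact ha

/-- **Existence of the unit factorisation** at every level. -/
theorem IsCechInt.fac (h : IsCechInt π S0 S1 S01 η) (m : ℕ) : Fac π S0 S1 S01 η m := by
  intro u hu hu1
  have key : ∀ k, 1 ≤ k → ∃ (a0 a1 : F) (b : Fin g → 𝒪), OneUnit π S0 a0 ∧ OneUnit π S1 a1 ∧
      Small π b ∧ u - a0 * prodEta η b * a1 ∈ pp π k (Subalgebra.toSubmodule S01) := by
    intro k hk
    induction k, hk using Nat.le_induction with
    | base =>
      exact ⟨1, 1, 0, OneUnit.one _ _, OneUnit.one _ _, Small.zero π, by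
        simpa [prodEta_zero] using hu1⟩
    | succ k hk ih =>
      obtain ⟨a0, a1, b, ha0, ha1, hb, hk'⟩ := ih
      obtain ⟨y, hy, hye⟩ := mem_pp_alg.1 hk'
      obtain ⟨y0, hy0, y1, hy1, d, rfl⟩ := h.span y hy
      have hπk : π ^ k ∈ Ideal.span {π} :=
        Ideal.pow_mem_of_mem _ (Ideal.subset_span (Set.mem_singleton π)) k hk
      have hβ0 : algebraMap 𝒪 F π ^ k * y0 ∈ pp π k (Subalgebra.toSubmodule S0) :=
        pow_mul_mem_pp hy0
      have hβ1 : algebraMap 𝒪 F π ^ k * y1 ∈ pp π k (Subalgebra.toSubmodule S1) :=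
        pow_mul_mem_pp hy1
      refine ⟨a0 + algebraMap 𝒪 F π ^ k * y0, a1 + algebraMap 𝒪 F π ^ k * y1,
        fun i => b i + π ^ k * d i, ⟨S0.add_mem ha0.1 (mem_of_mem_pp hβ0), ?_⟩,
        ⟨S1.add_mem ha1.1 (mem_of_mem_pp hβ1), ?_⟩, ?_, ?_⟩
      · have e : a0 + algebraMap 𝒪 F π ^ k * y0 - 1 = (a0 - 1) + algebraMap 𝒪 F π ^ k * y0 := by
          ring
        rw [e]
        exact Submodule.add_mem _ ha0.2 (pp_anti hk _ hβ0)
      · have e : a1 + algebraMap 𝒪 F π ^ k * y1 - 1 = (a1 - 1) + algebraMap 𝒪 F π ^ k * y1 := by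
          ring
        rw [e]
        exact Submodule.add_mem _ ha1.2 (pp_anti hk _ hβ1)
      · intro i
        exact (Ideal.span {π}).add_mem (hb i) ((Ideal.span {π}).mul_mem_right _ hπk)
      · have hpert := prodEta_perturb h.eta hb hk d
        have hfac := factor_perturb_pp (S := S01) hk (ha0.mono h.le0) (ha1.mono h.le1)
          (oneUnit_prodEta' h.eta hb) (pp_mono h.le0 hβ0) (pp_mono h.le1 hβ1)
          (pow_mul_mem_pp (etaSum_mem h.eta d)) hpert
        have e : u - (a0 + algebraMap 𝒪 F π ^ k * y0) * prodEta η (fun i => b i + π ^ k * d i)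
              * (a1 + algebraMap 𝒪 F π ^ k * y1)
            = -((a0 + algebraMap 𝒪 F π ^ k * y0) * prodEta η (fun i => b i + π ^ k * d i)
                * (a1 + algebraMap 𝒪 F π ^ k * y1) - a0 * prodEta η b * a1
              - (algebraMap 𝒪 F π ^ k * y0 + algebraMap 𝒪 F π ^ k * y1
                + algebraMap 𝒪 F π ^ k * etaSum η d)) := by
          simp only [etaSum]
          linear_combination hye
        rw [e]
        exact Submodule.neg_mem _ hfac
  rcases Nat.eq_zero_or_pos m with rfl | hm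
  · refine ⟨1, 1, 0, OneUnit.one _ _, OneUnit.one _ _, Small.zero π, ?_⟩
    rw [pp_zero, prodEta_zero]
    simpa using S01.sub_mem hu S01.one_mem
  · exact key m hm

/-- **Uniqueness of the coordinates** at every level. -/
theorem IsCechInt.uni (h : IsCechInt π S0 S1 S01 η) (m : ℕ) : Uni π S0 S1 S01 η m := by
  intro a0 a0' a1 a1' b b' ha0 ha0' ha1 ha1' hb hb' hP
  have key : ∀ k, 1 ≤ k → k ≤ m → ∃ r : 𝒪, r - 1 ∈ Ideal.span {π} ∧
      a0' - algebraMap 𝒪 F r * a0 ∈ pp π k (Subalgebra.toSubmodule S0) ∧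
      algebraMap 𝒪 F r * a1' - a1 ∈ pp π k (Subalgebra.toSubmodule S1) ∧
      ∀ i, b' i - b i ∈ Ideal.span {π ^ k} := by
    intro k hk
    induction k, hk using Nat.le_induction with
    | base =>
      intro _
      refine ⟨1, by simp, ?_, ?_, fun i => ?_⟩
      · have e : a0' - algebraMap 𝒪 F 1 * a0 = (a0' - 1) - (a0 - 1) := by
          rw [map_one]
          ring
        rw [e]
        exact Submodule.sub_mem _ ha0'.2 ha0.2
      · have e : algebraMap 𝒪 F 1 * a1' - a1 = (a1' - 1) - (a1 - 1) := by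
          rw [map_one]
          ring
        rw [e]
        exact Submodule.sub_mem _ ha1'.2 ha1.2
      · rw [pow_one]
        exact (Ideal.span {π}).sub_mem (hb' i) (hb i)
    | succ k hk ih =>
      intro hkm
      obtain ⟨r, hr, h0, h1, hbb⟩ := ih (by omega)
      obtain ⟨x0, hx0, hx0e⟩ := mem_pp_alg.1 h0
      obtain ⟨x1, hx1, hx1e⟩ := mem_pp_alg.1 h1
      have hc : ∀ i, ∃ c : 𝒪, b' i = b i + π ^ k * c := by
        intro i
        obtain ⟨c, hc⟩ := Ideal.mem_span_singleton'.1 (hbb i)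
        exact ⟨c, by linear_combination -hc⟩
      choose c hc using hc
      have hb'eq : b' = fun i => b i + π ^ k * c i := funext hc
      have hπk : π ^ k ∈ Ideal.span {π} :=
        Ideal.pow_mem_of_mem _ (Ideal.subset_span (Set.mem_singleton π)) k hk
      -- `r a0` is a one-unit
      obtain ⟨r', hr'⟩ := Ideal.mem_span_singleton'.1 hr
      have hrA0 : OneUnit π S01 (algebraMap 𝒪 F r * a0) := by
        refine ⟨S01.mul_mem (S01.algebraMap_mem _) (h.le0 ha0.1), ?_⟩
        have e : algebraMap 𝒪 F r * a0 - 1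
            = algebraMap 𝒪 F r * (a0 - 1) + algebraMap 𝒪 F π ^ 1 * algebraMap 𝒪 F r' := by
          have e2 : algebraMap 𝒪 F r = algebraMap 𝒪 F r' * algebraMap 𝒪 F π + 1 := by
            rw [← map_mul, hr', map_sub, map_one]
            ring
          rw [pow_one]
          linear_combination e2
        rw [e]
        exact Submodule.add_mem _ (mul_mem_pp_self (S01.algebraMap_mem _) (pp_mono h.le0 ha0.2))
          (pow_mul_mem_pp (S01.algebraMap_mem _))
      have hpert := prodEta_perturb h.eta hb hk c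
      rw [← hb'eq] at hpert
      have hfac := factor_perturb_pp (S := S01) hk hrA0 (ha1.mono h.le1)
        (oneUnit_prodEta' h.eta hb) (pp_mono h.le0 (pow_mul_mem_pp hx0))
        (pp_mono h.le1 (pow_mul_mem_pp hx1)) (pow_mul_mem_pp (etaSum_mem h.eta c)) hpert
      -- the error term lies in `π^(k+1) S01`
      have hP' : a0 * prodEta η b * a1 - a0' * prodEta η b' * a1'
          ∈ pp π (k + 1) (Subalgebra.toSubmodule S01) := pp_anti hkm _ hP
      have hmain : algebraMap 𝒪 F π ^ k * (x0 + x1 + etaSum η c)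
          ∈ pp π (k + 1) (Subalgebra.toSubmodule S01) := by
        have e : algebraMap 𝒪 F π ^ k * (x0 + x1 + etaSum η c)
            = -((algebraMap 𝒪 F r * a0 + algebraMap 𝒪 F π ^ k * x0) * prodEta η b'
                  * (a1 + algebraMap 𝒪 F π ^ k * x1)
                - algebraMap 𝒪 F r * a0 * prodEta η b * a1
                - (algebraMap 𝒪 F π ^ k * x0 + algebraMap 𝒪 F π ^ k * x1
                  + algebraMap 𝒪 F π ^ k * etaSum η c))
              - algebraMap 𝒪 F r * (a0 * prodEta η b * a1 - a0' * prodEta η b' * a1') := by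
          have e0 : algebraMap 𝒪 F r * a0 + algebraMap 𝒪 F π ^ k * x0 = a0' := by
            linear_combination -hx0e
          have e1 : a1 + algebraMap 𝒪 F π ^ k * x1 = algebraMap 𝒪 F r * a1' := by
            linear_combination -hx1e
          rw [e0, e1]
          ring
        rw [e]
        exact Submodule.sub_mem _ (Submodule.neg_mem _ hfac)
          (mul_mem_pp_self (S01.algebraMap_mem _) hP')
      obtain ⟨y, hy, hye⟩ := mem_pp_alg.1 hmain
      have hx : x0 + x1 + etaSum η c ∈ pp π 1 (Subalgebra.toSubmodule S01) := by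
        refine mem_pp_alg.2 ⟨y, hy, ?_⟩
        apply h.reg_pow k
        rw [hye, pow_succ, pow_one]
        ring
      obtain ⟨y0, hy0, y1, hy1, d, s, hcd, hx0s, hx1s⟩ := h.ker hx0 hx1 hx
      obtain ⟨z0, hz0, hz0e⟩ := mem_pp_alg.1 ha0.2
      obtain ⟨z1, hz1, hz1e⟩ := mem_pp_alg.1 ha1'.2
      rw [pow_one] at hz0e hz1e
      refine ⟨r + π ^ k * s, ?_, ?_, ?_, fun i => ?_⟩
      · have e : r + π ^ k * s - 1 = (r - 1) + π ^ k * s := by ring
        rw [e]
        exact (Ideal.span {π}).add_mem hr ((Ideal.span {π}).mul_mem_right _ hπk)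
      · refine mem_pp_alg.2 ⟨y0 - algebraMap 𝒪 F s * z0,
          S0.sub_mem hy0 (S0.mul_mem (S0.algebraMap_mem _) hz0), ?_⟩
        rw [map_add, map_mul, map_pow, pow_succ]
        linear_combination hx0e + algebraMap 𝒪 F π ^ k * hx0s
          - (algebraMap 𝒪 F π ^ k * algebraMap 𝒪 F s) * hz0e
      · refine mem_pp_alg.2 ⟨y1 + algebraMap 𝒪 F s * z1,
          S1.add_mem hy1 (S1.mul_mem (S1.algebraMap_mem _) hz1), ?_⟩
        rw [map_add, map_mul, map_pow, pow_succ]
        linear_combination hx1e + algebraMap 𝒪 F π ^ k * hx1s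
          + (algebraMap 𝒪 F π ^ k * algebraMap 𝒪 F s) * hz1e
      · refine Ideal.mem_span_singleton'.2 ⟨d i, ?_⟩
        rw [hc i, hcd i, pow_succ]
        ring
  intro i
  rcases Nat.eq_zero_or_pos m with rfl | hm
  · simp
  · obtain ⟨r, -, -, -, hbb⟩ := key m hm le_rfl
    have e : b i - b' i = -(b' i - b i) := by ring
    rw [e]
    exact (Ideal.span {π ^ m}).neg_mem (hbb i)

end Int

/-! ### The addition law from a datum over a base ring -/

section Law

open MvPolynomial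

variable {π : 𝒪}

/-- A polynomial in `(vars) ^ n` with coefficients in `S`, evaluated at a point of `(π 𝒪)^σ`,
lies in `π ^ n S`. -/
theorem eval_mem_pp {σ : Type*} (S : Subalgebra 𝒪 F) (n : ℕ) (p : MvPolynomial σ F)
    (hc : ∀ d, p.coeff d ∈ S) (hp : p ∈ idealOfVars σ F ^ n) (z : σ → 𝒪)
    (hz : ∀ i, z i ∈ Ideal.span {π}) :
    eval (fun i => algebraMap 𝒪 F (z i)) p ∈ pp π n (Subalgebra.toSubmodule S) := by
  classical
  have hw : ∀ i, ∃ w : 𝒪, z i = w * π := fun i => by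
    obtain ⟨w, hw⟩ := Ideal.mem_span_singleton'.1 (hz i)
    exact ⟨w, hw.symm⟩
  choose w hw using hw
  rw [eval_eq]
  refine Submodule.sum_mem _ fun d hd => ?_
  have hdeg : n ≤ Finsupp.degree d := (mem_pow_idealOfVars_iff n p).mp hp d hd
  have e : coeff d p * ∏ i ∈ d.support, algebraMap 𝒪 F (z i) ^ d i
      = algebraMap 𝒪 F π ^ Finsupp.degree d
        * (coeff d p * ∏ i ∈ d.support, algebraMap 𝒪 F (w i) ^ d i) := by
    have e1 : ∏ i ∈ d.support, algebraMap 𝒪 F (z i) ^ d i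
        = (∏ i ∈ d.support, algebraMap 𝒪 F (w i) ^ d i)
          * algebraMap 𝒪 F π ^ Finsupp.degree d := by
      rw [Finsupp.degree_apply, ← Finset.prod_pow_eq_pow_sum, ← Finset.prod_mul_distrib]
      refine Finset.prod_congr rfl fun i _ => ?_
      rw [hw i, map_mul, mul_pow]
    rw [e1]
    ring
  rw [e]
  exact pp_anti hdeg _ (pow_mul_mem_pp (S.mul_mem (hc d)
    (prod_mem fun i _ => pow_mem (S.algebraMap_mem _) _)))

/-- A polynomial without constant term, evaluated at a point of `(π 𝒪)^σ`, lies in `π 𝒪`. -/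
theorem aeval_mem_span {R σ : Type*} [CommRing R] [Algebra R 𝒪] (p : MvPolynomial σ R)
    (hp : constantCoeff p = 0) (z : σ → 𝒪) (hz : ∀ i, z i ∈ Ideal.span {π}) :
    aeval z p ∈ Ideal.span {π} := by
  rw [← Ideal.Quotient.eq_zero_iff_mem, map_aeval]
  have h0 : (fun i => Ideal.Quotient.mk (Ideal.span {π}) (z i)) = fun _ => 0 :=
    funext fun i => Ideal.Quotient.eq_zero_iff_mem.2 (hz i)
  rw [h0, eval₂Hom_zero'_apply, hp, map_zero]

/-- The value of a polynomial with constant coefficient `1` and coefficients in `S` at a point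
of `(π 𝒪)^σ` is a one-unit of `S`. -/
theorem oneUnit_eval {σ : Type*} (S : Subalgebra 𝒪 F) (p : MvPolynomial σ F)
    (hc : ∀ d, p.coeff d ∈ S) (hp : constantCoeff p = 1) (z : σ → 𝒪)
    (hz : ∀ i, z i ∈ Ideal.span {π}) :
    OneUnit π S (eval (fun i => algebraMap 𝒪 F (z i)) p) := by
  classical
  constructor
  · have h := eval_mem_pp (π := π) S 0 p hc (by simp) z hz
    rwa [pp_zero] at h
  · have h := eval_mem_pp (π := π) S 1 (p - 1) (fun d => by
      rw [coeff_sub, coeff_one]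
      split_ifs
      · exact S.sub_mem (hc d) S.one_mem
      · simpa using hc d) (by
      rw [pow_one]
      exact helper8101.sub_one_mem_idealOfVars p hp) z hz
    simpa using h

/-- **The addition law** from a datum over a base ring `R`: `B0, B1 ≤ B01` subalgebras of `F`
over `R` with `B01 ≤ B0 + B1 + ∑ R η_i`, and `B_i ⊆ S_i`.  The law is given by polynomials
over `R` (hence fixed by every automorphism fixing `R`). -/
theorem exists_law_of_base {R : Type*} [CommRing R] [Algebra R 𝒪] [Algebra R F]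
    [IsScalarTower R 𝒪 F] (B0 B1 B01 : Subalgebra R F) (h0 : B0 ≤ B01) (h1 : B1 ≤ B01)
    {g : ℕ} (η : Fin g → F) (hη : ∀ i, η i ∈ B01)
    (hE : Subalgebra.toSubmodule B01 ≤ Subalgebra.toSubmodule B0 ⊔ Subalgebra.toSubmodule B1 ⊔
      Submodule.span R (Set.range η))
    (S0 S1 S01 : Subalgebra 𝒪 F) (hB0 : ∀ x ∈ B0, x ∈ S0) (hB1 : ∀ x ∈ B1, x ∈ S1)
    (hB01 : ∀ x ∈ B01, x ∈ S01) :
    ∃ P : ℕ → Fin g → MvPolynomial (Fin g ⊕ Fin g) R, ∀ m, Law π S0 S1 S01 η m
      (fun b b' i => aeval (Sum.elim b b') (P m i)) := by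
  have key : ∀ m : ℕ, ∃ P : Fin g → MvPolynomial (Fin g ⊕ Fin g) R, Law π S0 S1 S01 η m
      (fun b b' i => aeval (Sum.elim b b') (P i)) := by
    intro m
    obtain ⟨P, a₁, a₂, ε, hP, ha₁, ha₁c, ha₂, ha₂c, hε, hεm, hid⟩ :=
      helper8101.exists_law_ambient B0 B1 B01 h0 h1 η hη hE m
    refine ⟨P, fun b b' hb hb' => ?_⟩
    have hz : ∀ x, Sum.elim b b' x ∈ Ideal.span {π} := by
      rintro (i | i)
      · exact hb i
      · exact hb' i
    refine ⟨fun i => aeval_mem_span (P i) (hP i) _ hz,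
      eval (fun x => algebraMap 𝒪 F (Sum.elim b b' x)) a₁,
      eval (fun x => algebraMap 𝒪 F (Sum.elim b b' x)) a₂,
      oneUnit_eval S0 a₁ (fun d => hB0 _ (ha₁ d)) ha₁c _ hz,
      oneUnit_eval S1 a₂ (fun d => hB1 _ (ha₂ d)) ha₂c _ hz, ?_⟩
    have hε' := eval_mem_pp (π := π) S01 m ε (fun d => hB01 _ (hε d)) hεm _ hz
    have hev := congrArg (eval (fun x => algebraMap 𝒪 F (Sum.elim b b' x))) hid
    have hPk : ∀ k, eval (fun x => algebraMap 𝒪 F (Sum.elim b b' x))
        (map (algebraMap R F) (P k)) = algebraMap 𝒪 F (aeval (Sum.elim b b') (P k)) := by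
      intro k
      rw [← aeval_algebraMap_apply, eval_map, aeval_def]
      rfl
    simp only [map_mul, map_add, map_prod, map_one, eval_C, eval_X, hPk, Sum.elim_inl,
      Sum.elim_inr] at hev
    have e : prodEta η b * prodEta η b'
        - eval (fun x => algebraMap 𝒪 F (Sum.elim b b' x)) a₁
          * prodEta η (fun i => aeval (Sum.elim b b') (P i))
          * eval (fun x => algebraMap 𝒪 F (Sum.elim b b' x)) a₂
        = eval (fun x => algebraMap 𝒪 F (Sum.elim b b' x)) ε := by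
      simp only [prodEta, Algebra.smul_def]
      have hcomm : ∀ (t : Fin g → 𝒪), (∏ k, (1 + algebraMap 𝒪 F (t k) * η k))
          = ∏ k, (1 + η k * algebraMap 𝒪 F (t k)) :=
        fun t => Finset.prod_congr rfl fun k _ => by rw [mul_comm]
      rw [hcomm, hcomm, hcomm, hev]
      ring
    rw [e]
    exact hε'
  choose P hP using key
  exact ⟨P, hP⟩

end Law

end Fermat.Agent.S33.helper2055
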