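/-
S33-LINDISJ-BC (sub-leaf (epsilon) of CECHORD, team_s33_chat #102): element-form base change
`R → 𝒪` of the Cech datum fields `span / indep / inter`.

Setting: `R` a principal ideal domain, `𝒪` an `R`-torsion-free commutative `R`-algebra, `F` a
commutative `𝒪`-algebra, `F0` an `R`-subalgebra of `F` that is linearly disjoint from `𝒪` over `R`
(hypothesis `hLD`, in element form), `B0 B1 ≤ B01 ≤ F0` the `R`-level chart algebras and
`S0 S1 S01` their `𝒪`-spans.  Then the three element-form Cech fields pass from `R` to `𝒪`.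

Mathlib-only.  Proof: finitely many elements of `𝒪` lie in a finitely generated torsion-free,
hence free, `R`-submodule; expand in a basis of it; apply `hLD` and the `R`-level field.
-/
import Mathlib

set_option autoImplicit false

namespace Fermat.Agent.S33.helper2860

open scoped BigOperators

section Basis

variable {R 𝒪 : Type*} [CommRing R] [IsDomain R] [IsPrincipalIdealRing R] [CommRing 𝒪]
  [Algebra R 𝒪]

/-- Finitely many elements of a torsion-free module over a principal ideal domain are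
`R`-combinations of one finite `R`-linearly independent family. -/
theorem exists_linearIndependent_expand
    (htf : ∀ (r : R) (a : 𝒪), r • a = 0 → r = 0 ∨ a = 0) (T : Finset 𝒪) :
    ∃ (n : ℕ) (ω : Fin n → 𝒪), LinearIndependent R ω ∧
      ∀ a ∈ T, ∃ r : Fin n → R, a = ∑ t, r t • ω t := by
  classical
  have : Module.IsTorsionFree R 𝒪 := Module.IsTorsionFree.of_smul_eq_zero htf
  let N : Submodule R 𝒪 := Submodule.span R (T : Set 𝒪)
  have : Module.Finite R N := Module.Finite.iff_fg.mpr (Submodule.fg_span T.finite_toSet)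
  have : Module.Free R N := Module.free_of_finite_type_torsion_free'
  let b := Module.finBasis R N
  refine ⟨Module.finrank R N, fun t => (b t : 𝒪), ?_, ?_⟩
  · have h := b.linearIndependent.map' N.subtype (Submodule.ker_subtype N)
    exact h
  · intro a ha
    have haN : a ∈ N := Submodule.subset_span ha
    refine ⟨fun t => b.repr ⟨a, haN⟩ t, ?_⟩
    have h := congrArg (fun x : N => (x : 𝒪)) (b.sum_repr ⟨a, haN⟩)
    simp only [Submodule.coe_sum, Submodule.coe_smul] at h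
    exact h.symm

end Basis

section Expand

variable {R 𝒪 F : Type*} [CommRing R] [CommRing 𝒪] [CommRing F]
  [Algebra R 𝒪] [Algebra R F] [Algebra 𝒪 F] [IsScalarTower R 𝒪 F]

/-- An element of the `𝒪`-span of an `R`-submodule `B`, written with coefficients that are
`R`-combinations of the family `ω`, is an `ω`-combination of elements of `B`. -/
theorem exists_expand {n : ℕ} (ω : Fin n → 𝒪) (B : Submodule R F) {m : ℕ}
    (a : Fin m → 𝒪) (u : Fin m → F) (hu : ∀ j, u j ∈ B)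
    (ha : ∀ j, ∃ r : Fin n → R, a j = ∑ t, r t • ω t) :
    ∃ U : Fin n → F, (∀ t, U t ∈ B) ∧ ∑ j, a j • u j = ∑ t, ω t • U t := by
  classical
  choose r hr using ha
  refine ⟨fun t => ∑ j, r j t • u j, fun t => B.sum_mem fun j _ => B.smul_mem _ (hu j), ?_⟩
  have h1 : ∀ j, a j • u j = ∑ t, ω t • (r j t • u j) := by
    intro j
    rw [hr j, Finset.sum_smul]
    refine Finset.sum_congr rfl fun t _ => ?_
    rw [smul_assoc, smul_comm]
  calc ∑ j, a j • u j = ∑ j, ∑ t, ω t • (r j t • u j) := Finset.sum_congr rfl fun j _ => h1 j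
    _ = ∑ t, ∑ j, ω t • (r j t • u j) := Finset.sum_comm
    _ = ∑ t, ω t • ∑ j, r j t • u j := Finset.sum_congr rfl fun t _ => Finset.smul_sum.symm

/-- The common-basis form: finitely many elements of the `𝒪`-spans of two `R`-submodules and a
finite family of coefficients of `𝒪` expand in one `R`-linearly independent family. -/
theorem exists_common_expand [IsDomain R] [IsPrincipalIdealRing R]
    (htf : ∀ (r : R) (a : 𝒪), r • a = 0 → r = 0 ∨ a = 0)
    (B B' : Submodule R F) {x x' : F}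
    (hx : x ∈ Submodule.span 𝒪 (B : Set F)) (hx' : x' ∈ Submodule.span 𝒪 (B' : Set F))
    {g : ℕ} (c : Fin g → 𝒪) :
    ∃ (n : ℕ) (ω : Fin n → 𝒪), LinearIndependent R ω ∧
      (∃ U : Fin n → F, (∀ t, U t ∈ B) ∧ x = ∑ t, ω t • U t) ∧
      (∃ U' : Fin n → F, (∀ t, U' t ∈ B') ∧ x' = ∑ t, ω t • U' t) ∧
      (∃ s : Fin g → Fin n → R, ∀ i, c i = ∑ t, s i t • ω t) := by
  classical
  obtain ⟨m, a, u, hxu⟩ := Submodule.mem_span_set'.mp hx
  obtain ⟨m', a', u', hxu'⟩ := Submodule.mem_span_set'.mp hx'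
  obtain ⟨n, ω, hω, hT⟩ := exists_linearIndependent_expand (R := R) htf
    (Finset.univ.image a ∪ Finset.univ.image a' ∪ Finset.univ.image c)
  refine ⟨n, ω, hω, ?_, ?_, ?_⟩
  · obtain ⟨U, hU, h⟩ := exists_expand ω B a (fun j => (u j : F)) (fun j => (u j).2)
      (fun j => hT _ (by simp))
    exact ⟨U, hU, by rw [← hxu, h]⟩
  · obtain ⟨U, hU, h⟩ := exists_expand ω B' a' (fun j => (u' j : F)) (fun j => (u' j).2)
      (fun j => hT _ (by simp))
    exact ⟨U, hU, by rw [← hxu', h]⟩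
  · have : ∀ i, ∃ r : Fin n → R, c i = ∑ t, r t • ω t := fun i => hT _ (by simp)
    choose s hs using this
    exact ⟨s, hs⟩

end Expand

section BaseChange

variable {R 𝒪 F : Type*} [CommRing R] [IsDomain R] [IsPrincipalIdealRing R] [CommRing 𝒪]
  [CommRing F] [Algebra R 𝒪] [Algebra R F] [Algebra 𝒪 F] [IsScalarTower R 𝒪 F]

omit [IsDomain R] [IsPrincipalIdealRing R] in
/-- (span) over `𝒪` from (span) over `R`.  Needs neither `htf` nor `hLD`. -/
theorem span_baseChange {g : ℕ}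
    (B0 B1 B01 : Subalgebra R F) (η : Fin g → F)
    (hspan : ∀ x ∈ B01, ∃ x0 ∈ B0, ∃ x1 ∈ B1, ∃ c : Fin g → R, x = x0 + x1 + ∑ i, c i • η i)
    (S0 S1 S01 : Subalgebra 𝒪 F)
    (hS0 : Subalgebra.toSubmodule S0 = Submodule.span 𝒪 (B0 : Set F))
    (hS1 : Subalgebra.toSubmodule S1 = Submodule.span 𝒪 (B1 : Set F))
    (hS01 : Subalgebra.toSubmodule S01 = Submodule.span 𝒪 (B01 : Set F)) :
    ∀ x ∈ S01, ∃ x0 ∈ S0, ∃ x1 ∈ S1, ∃ c : Fin g → 𝒪, x = x0 + x1 + ∑ i, c i • η i := by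
  classical
  intro x hx
  have hx' : x ∈ Submodule.span 𝒪 (B01 : Set F) := by
    rw [← hS01]; exact hx
  have hB0 : ∀ y ∈ B0, y ∈ S0 := fun y hy => by
    have : y ∈ Subalgebra.toSubmodule S0 := by rw [hS0]; exact Submodule.subset_span hy
    exact this
  have hB1 : ∀ y ∈ B1, y ∈ S1 := fun y hy => by
    have : y ∈ Subalgebra.toSubmodule S1 := by rw [hS1]; exact Submodule.subset_span hy
    exact this
  clear hx
  induction hx' using Submodule.span_induction with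
  | mem y hy =>
    obtain ⟨x0, hx0, x1, hx1, c, rfl⟩ := hspan y hy
    refine ⟨x0, hB0 x0 hx0, x1, hB1 x1 hx1, fun i => algebraMap R 𝒪 (c i), ?_⟩
    simp only [algebraMap_smul]
  | zero =>
    exact ⟨0, S0.zero_mem, 0, S1.zero_mem, 0, by simp⟩
  | add y z _ _ hy hz =>
    obtain ⟨y0, hy0, y1, hy1, c, rfl⟩ := hy
    obtain ⟨z0, hz0, z1, hz1, d, rfl⟩ := hz
    refine ⟨y0 + z0, S0.add_mem hy0 hz0, y1 + z1, S1.add_mem hy1 hz1, c + d, ?_⟩
    simp only [Pi.add_apply, add_smul, Finset.sum_add_distrib]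
    ring
  | smul a y _ hy =>
    obtain ⟨y0, hy0, y1, hy1, c, rfl⟩ := hy
    refine ⟨a • y0, S0.smul_mem hy0 a, a • y1, S1.smul_mem hy1 a, fun i => a * c i, ?_⟩
    simp only [smul_add, Finset.smul_sum, mul_smul]

/-- (indep) over `𝒪` from (indep) over `R` and linear disjointness. -/
theorem indep_baseChange {g : ℕ}
    (htf : ∀ (r : R) (a : 𝒪), r • a = 0 → r = 0 ∨ a = 0)
    (F0 : Subalgebra R F)
    (hLD : ∀ (n : ℕ) (ω : Fin n → 𝒪) (f : Fin n → F), LinearIndependent R ω →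
      (∀ k, f k ∈ F0) → ∑ k, ω k • f k = 0 → ∀ k, f k = 0)
    (B0 B1 B01 : Subalgebra R F) (h01 : B01 ≤ F0) (h0 : B0 ≤ B01) (h1 : B1 ≤ B01)
    (η : Fin g → F) (hη : ∀ i, η i ∈ B01)
    (hindep : ∀ x0 ∈ B0, ∀ x1 ∈ B1, ∀ c : Fin g → R, x0 + x1 + ∑ i, c i • η i = 0 → c = 0)
    (S0 S1 : Subalgebra 𝒪 F)
    (hS0 : Subalgebra.toSubmodule S0 = Submodule.span 𝒪 (B0 : Set F))
    (hS1 : Subalgebra.toSubmodule S1 = Submodule.span 𝒪 (B1 : Set F)) :
    ∀ x0 ∈ S0, ∀ x1 ∈ S1, ∀ c : Fin g → 𝒪, x0 + x1 + ∑ i, c i • η i = 0 → c = 0 := by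
  classical
  intro x0 hx0 x1 hx1 c hc
  have hx0' : x0 ∈ Submodule.span 𝒪 ((Subalgebra.toSubmodule B0 : Submodule R F) : Set F) := by
    have : x0 ∈ Subalgebra.toSubmodule S0 := hx0
    rw [hS0] at this; exact this
  have hx1' : x1 ∈ Submodule.span 𝒪 ((Subalgebra.toSubmodule B1 : Submodule R F) : Set F) := by
    have : x1 ∈ Subalgebra.toSubmodule S1 := hx1
    rw [hS1] at this; exact this
  obtain ⟨n, ω, hω, ⟨U, hU, rfl⟩, ⟨U', hU', rfl⟩, ⟨s, hs⟩⟩ :=
    exists_common_expand (R := R) htf _ _ hx0' hx1' c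
  -- regroup the relation along `ω`
  have hsum : ∑ i, c i • η i = ∑ t, ω t • ∑ i, s i t • η i := by
    have h1 : ∀ i, c i • η i = ∑ t, ω t • (s i t • η i) := by
      intro i
      rw [hs i, Finset.sum_smul]
      refine Finset.sum_congr rfl fun t _ => ?_
      rw [smul_assoc, smul_comm]
    calc ∑ i, c i • η i = ∑ i, ∑ t, ω t • (s i t • η i) := Finset.sum_congr rfl fun i _ => h1 i
      _ = ∑ t, ∑ i, ω t • (s i t • η i) := Finset.sum_comm
      _ = ∑ t, ω t • ∑ i, s i t • η i := Finset.sum_congr rfl fun t _ => Finset.smul_sum.symm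
  have hrel : ∑ t, ω t • (U t + U' t + ∑ i, s i t • η i) = 0 := by
    rw [← hc, hsum]
    simp only [smul_add, Finset.sum_add_distrib]
  have hmem : ∀ t, U t + U' t + ∑ i, s i t • η i ∈ F0 := fun t =>
    h01 (B01.add_mem (B01.add_mem (h0 (hU t)) (h1 (hU' t)))
      (B01.sum_mem fun i _ => B01.smul_mem (hη i) _))
  have hzero := hLD n ω _ hω hmem hrel
  have hst : ∀ t, (fun i => s i t) = 0 := fun t =>
    hindep (U t) (hU t) (U' t) (hU' t) (fun i => s i t) (hzero t)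
  funext i
  rw [hs i]
  simp only [Pi.zero_apply]
  refine Finset.sum_eq_zero fun t _ => ?_
  have := congrFun (hst t) i
  simp only [Pi.zero_apply] at this
  rw [this, zero_smul]

/-- (inter) over `𝒪` from (inter) over `R` and linear disjointness. -/
theorem inter_baseChange
    (htf : ∀ (r : R) (a : 𝒪), r • a = 0 → r = 0 ∨ a = 0)
    (F0 : Subalgebra R F)
    (hLD : ∀ (n : ℕ) (ω : Fin n → 𝒪) (f : Fin n → F), LinearIndependent R ω →
      (∀ k, f k ∈ F0) → ∑ k, ω k • f k = 0 → ∀ k, f k = 0)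
    (B0 B1 B01 : Subalgebra R F) (h01 : B01 ≤ F0) (h0 : B0 ≤ B01) (h1 : B1 ≤ B01)
    (hinter : ∀ x ∈ B0, x ∈ B1 → ∃ a : R, x = algebraMap R F a)
    (S0 S1 : Subalgebra 𝒪 F)
    (hS0 : Subalgebra.toSubmodule S0 = Submodule.span 𝒪 (B0 : Set F))
    (hS1 : Subalgebra.toSubmodule S1 = Submodule.span 𝒪 (B1 : Set F)) :
    ∀ x ∈ S0, x ∈ S1 → ∃ a : 𝒪, x = algebraMap 𝒪 F a := by
  classical
  intro x hx0 hx1
  have hx0' : x ∈ Submodule.span 𝒪 ((Subalgebra.toSubmodule B0 : Submodule R F) : Set F) := by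
    have : x ∈ Subalgebra.toSubmodule S0 := hx0
    rw [hS0] at this; exact this
  have hx1' : x ∈ Submodule.span 𝒪 ((Subalgebra.toSubmodule B1 : Submodule R F) : Set F) := by
    have : x ∈ Subalgebra.toSubmodule S1 := hx1
    rw [hS1] at this; exact this
  obtain ⟨n, ω, hω, ⟨U, hU, hxU⟩, ⟨U', hU', hxU'⟩, -⟩ :=
    exists_common_expand (R := R) htf _ _ hx0' hx1' (g := 0) (fun i => i.elim0)
  have hrel : ∑ t, ω t • (U t - U' t) = 0 := by
    simp only [smul_sub, Finset.sum_sub_distrib]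
    rw [← hxU, ← hxU', sub_self]
  have hmem : ∀ t, U t - U' t ∈ F0 := fun t =>
    h01 (B01.sub_mem (h0 (hU t)) (h1 (hU' t)))
  have hzero := hLD n ω _ hω hmem hrel
  have hUeq : ∀ t, U t = U' t := fun t => sub_eq_zero.mp (hzero t)
  have hconst : ∀ t, ∃ a : R, U t = algebraMap R F a := fun t =>
    hinter (U t) (hU t) (by rw [hUeq t]; exact hU' t)
  choose r hr using hconst
  refine ⟨∑ t, r t • ω t, ?_⟩
  rw [hxU, map_sum]
  refine Finset.sum_congr rfl fun t _ => ?_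
  rw [hr t, Algebra.smul_def, Algebra.smul_def, map_mul, ← IsScalarTower.algebraMap_apply,
    mul_comm]

/-- **LINDISJ-BC** (team_s33_chat #102 (epsilon)): the element-form Cech fields
`span / indep / inter` pass from the `R`-level chart algebras `B0 B1 ≤ B01 ≤ F0` to their
`𝒪`-spans `S0 S1 S01`, for `R` a principal ideal domain, `𝒪` torsion-free over `R`, and `F0`
linearly disjoint from `𝒪` over `R` (element form `hLD`). -/
theorem cech_baseChange {g : ℕ}
    (htf : ∀ (r : R) (a : 𝒪), r • a = 0 → r = 0 ∨ a = 0)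
    (F0 : Subalgebra R F)
    (hLD : ∀ (n : ℕ) (ω : Fin n → 𝒪) (f : Fin n → F), LinearIndependent R ω →
      (∀ k, f k ∈ F0) → ∑ k, ω k • f k = 0 → ∀ k, f k = 0)
    (B0 B1 B01 : Subalgebra R F) (h01 : B01 ≤ F0) (h0 : B0 ≤ B01) (h1 : B1 ≤ B01)
    (η : Fin g → F) (hη : ∀ i, η i ∈ B01)
    (hspan : ∀ x ∈ B01, ∃ x0 ∈ B0, ∃ x1 ∈ B1, ∃ c : Fin g → R, x = x0 + x1 + ∑ i, c i • η i)
    (hindep : ∀ x0 ∈ B0, ∀ x1 ∈ B1, ∀ c : Fin g → R, x0 + x1 + ∑ i, c i • η i = 0 → c = 0)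
    (hinter : ∀ x ∈ B0, x ∈ B1 → ∃ a : R, x = algebraMap R F a)
    (S0 S1 S01 : Subalgebra 𝒪 F)
    (hS0 : Subalgebra.toSubmodule S0 = Submodule.span 𝒪 (B0 : Set F))
    (hS1 : Subalgebra.toSubmodule S1 = Submodule.span 𝒪 (B1 : Set F))
    (hS01 : Subalgebra.toSubmodule S01 = Submodule.span 𝒪 (B01 : Set F)) :
    (∀ x ∈ S01, ∃ x0 ∈ S0, ∃ x1 ∈ S1, ∃ c : Fin g → 𝒪, x = x0 + x1 + ∑ i, c i • η i) ∧
    (∀ x0 ∈ S0, ∀ x1 ∈ S1, ∀ c : Fin g → 𝒪, x0 + x1 + ∑ i, c i • η i = 0 → c = 0) ∧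
    (∀ x ∈ S0, x ∈ S1 → ∃ a : 𝒪, x = algebraMap 𝒪 F a) :=
  ⟨span_baseChange B0 B1 B01 η hspan S0 S1 S01 hS0 hS1 hS01,
   indep_baseChange htf F0 hLD B0 B1 B01 h01 h0 h1 η hη hindep S0 S1 hS0 hS1,
   inter_baseChange htf F0 hLD B0 B1 B01 h01 h0 h1 hinter S0 S1 hS0 hS1⟩

omit [IsDomain R] [IsPrincipalIdealRing R] [Algebra R 𝒪] [IsScalarTower R 𝒪 F] in
/-- The three inclusion/membership fields of the `𝒪`-level datum (`le0`, `le1`, `eta`). -/
theorem le_baseChange {g : ℕ}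
    (B0 B1 B01 : Subalgebra R F) (h0 : B0 ≤ B01) (h1 : B1 ≤ B01)
    (η : Fin g → F) (hη : ∀ i, η i ∈ B01)
    (S0 S1 S01 : Subalgebra 𝒪 F)
    (hS0 : Subalgebra.toSubmodule S0 = Submodule.span 𝒪 (B0 : Set F))
    (hS1 : Subalgebra.toSubmodule S1 = Submodule.span 𝒪 (B1 : Set F))
    (hS01 : Subalgebra.toSubmodule S01 = Submodule.span 𝒪 (B01 : Set F)) :
    S0 ≤ S01 ∧ S1 ≤ S01 ∧ ∀ i, η i ∈ S01 := by
  have key : ∀ (S : Subalgebra 𝒪 F) (B : Subalgebra R F),
      Subalgebra.toSubmodule S = Submodule.span 𝒪 (B : Set F) → B ≤ B01 → S ≤ S01 := by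
    intro S B hS hB x hx
    have hx' : x ∈ Subalgebra.toSubmodule S := hx
    rw [hS] at hx'
    have : x ∈ Subalgebra.toSubmodule S01 := by
      rw [hS01]
      exact Submodule.span_mono (fun y hy => hB hy) hx'
    exact this
  refine ⟨key S0 B0 hS0 h0, key S1 B1 hS1 h1, fun i => ?_⟩
  have : η i ∈ Subalgebra.toSubmodule S01 := by
    rw [hS01]; exact Submodule.subset_span (hη i)
  exact this

end BaseChange

end Fermat.Agent.S33.helper2860
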