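/-
S33-LINDISJ (helper3185): sub-leaf (c) of the S33 GeomSpec (helper1085, team_s33_chat #116).

Linear disjointness of the constants `ℚ̄` and the rational function field `ℚ(X₀(N))` over `ℚ`
inside `ℚ̄(X₀(N))`, in element form, read off coefficientwise on `q`-expansions:

  `b k ∈ ℚ̄` linearly independent over `ℚ`, `f k ∈ FQ N`,
  `∑ k, cst (b k) * emb (f k) = 0`  ⟹  all `f k = 0`.

Also: the same with the constants taken in any ring `𝒪` mapping injectively to `ℚ̄` and linearly
independent over any ring `R` of characteristic zero acting on `𝒪` (e.g. `R = ℤ_(p)`,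
`𝒪 = P ∩ E`), which is the (LD) hypothesis of the base change `ℤ_(p) → 𝒪` of the Čech datum.
-/
import Mathlib
import Fermat.Agent.S19.helper9190_SpecC

set_option autoImplicit false

namespace Fermat.Agent.S33.helper3185

open Fermat.Agent.S19.helper9190

noncomputable section

local notation "Qb" => AlgebraicClosure ℚ

/-! ## 1. Series level (any field `L` of characteristic zero) -/

section Core

variable {L : Type*} [Field L] [Algebra ℚ L]

omit [Algebra ℚ L] in
theorem coeff_algebraMap_mul (c : L) (x : LaurentSeries L) (k : ℤ) :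
    (algebraMap L (LaurentSeries L) c * x).coeff k = c * x.coeff k := by
  rw [ModularCurve.algebraMap_laurentSeries_eq_single, HahnSeries.coeff_single_zero_mul]

/-- **Linear disjointness on `q`-expansions**: a vanishing combination of rational series with
`ℚ`-linearly independent constant coefficients has all its series zero. -/
theorem series_linDisj {ι : Type*} (s : Finset ι) (b : ι → L) (hb : LinearIndependent ℚ b)
    (f : ι → LaurentSeries ℚ)
    (h : ∑ k ∈ s, algebraMap L (LaurentSeries L) (b k) * ModularCurve.coeffEmb L (f k) = 0) :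
    ∀ k ∈ s, f k = 0 := by
  intro k hk
  ext m
  have hm := congrArg (fun x : LaurentSeries L => x.coeff m) h
  simp only [HahnSeries.coeff_sum, coeff_algebraMap_mul, ModularCurve.coeffEmb_coeff,
    HahnSeries.coeff_zero] at hm
  have hm' : ∑ k ∈ s, (f k).coeff m • b k = 0 := by
    rw [← hm]
    refine Finset.sum_congr rfl fun k _ => ?_
    rw [Algebra.smul_def, mul_comm]
  exact linearIndependent_iff'.1 hb s (fun k => (f k).coeff m) hm' k hk

/-- Constants linearly independent over a ring `R` of characteristic zero stay linearly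
independent over `ℚ` after an injective ring map into a field of characteristic zero. -/
theorem linearIndependent_rat_of_injective {R 𝒪 : Type*} [CommRing R] [CharZero R] [CommRing 𝒪]
    [Algebra R 𝒪] (φ : 𝒪 →+* L) (hφ : Function.Injective φ) {κ : Type*} (ω : κ → 𝒪)
    (hω : LinearIndependent R ω) : LinearIndependent ℚ (fun k => φ (ω k)) := by
  have h1 : LinearIndependent ℤ ω := by
    refine LinearIndependent.restrict_scalars (R := ℤ) (K := R) ?_ hω
    intro a b hab
    simpa using hab
  have h2 : LinearIndependent ℤ (fun k => φ (ω k)) := by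
    have := h1.map' (φ.toAddMonoidHom.toIntLinearMap) (by
      rw [LinearMap.ker_eq_bot]
      exact hφ)
    exact this
  exact (LinearIndependent.iff_fractionRing ℤ ℚ).1 h2

end Core

/-! ## 2. The modular function fields -/

section Modular

variable (N : ℕ)

theorem coe_emb (f : FQ N) :
    ((emb N f : FK N) : LaurentSeries Qb) = ModularCurve.coeffEmb Qb (f : LaurentSeries ℚ) := rfl

theorem coe_cst (c : Qb) :
    ((cst N c : FK N) : LaurentSeries Qb) = algebraMap Qb (LaurentSeries Qb) c := rfl

/-- **LINDISJ**, sub-leaf (c) of GeomSpec: `b k ∈ ℚ̄` linearly independent over `ℚ`,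
`f k ∈ ℚ(X₀(N))`, `∑ cst (b k) * emb (f k) = 0` ⟹ all `f k = 0`. -/
theorem linDisj_finset {ι : Type*} (s : Finset ι) (b : ι → Qb) (hb : LinearIndependent ℚ b)
    (f : ι → FQ N) (h : ∑ k ∈ s, cst N (b k) * emb N (f k) = 0) : ∀ k ∈ s, f k = 0 := by
  have h' : ∑ k ∈ s, algebraMap Qb (LaurentSeries Qb) (b k) *
      ModularCurve.coeffEmb Qb ((f k : FQ N) : LaurentSeries ℚ) = 0 := by
    have h0 := congrArg (fun x : FK N => (x : LaurentSeries Qb)) h
    simp only [AddSubmonoidClass.coe_finsetSum, MulMemClass.coe_mul, ZeroMemClass.coe_zero] at h0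
    exact h0
  intro k hk
  exact Subtype.ext (series_linDisj s b hb (fun k => ((f k : FQ N) : LaurentSeries ℚ)) h' k hk)

/-- **LINDISJ** (`Fintype` form). -/
theorem linDisj {ι : Type*} [Fintype ι] (b : ι → Qb) (hb : LinearIndependent ℚ b)
    (f : ι → FQ N) (h : ∑ k, cst N (b k) * emb N (f k) = 0) : ∀ k, f k = 0 :=
  fun k => linDisj_finset N Finset.univ b hb f h k (Finset.mem_univ k)

/-- **LINDISJ over a level ring**: constants `ω k` in a ring `𝒪 ↪ ℚ̄`, linearly independent over
a ring `R` of characteristic zero acting on `𝒪` (e.g. `R = ℤ_(p)`, `𝒪 = P ∩ E`). -/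
theorem linDisj_ring {R 𝒪 : Type*} [CommRing R] [CharZero R] [CommRing 𝒪] [Algebra R 𝒪]
    (φ : 𝒪 →+* Qb) (hφ : Function.Injective φ) {ι : Type*} [Fintype ι] (ω : ι → 𝒪)
    (hω : LinearIndependent R ω) (f : ι → FQ N)
    (h : ∑ k, cst N (φ (ω k)) * emb N (f k) = 0) : ∀ k, f k = 0 :=
  linDisj N (fun k => φ (ω k)) (linearIndependent_rat_of_injective φ hφ ω hω) f h

/-- **(LD)** in the shape of the element-form base change (helper2055, team_s33_chat #102
(epsilon)): the constants in a subring `𝒪` of `ℚ̄`, the functions in the image of `ℚ(X₀(N))`. -/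
theorem ld_subring {R : Type*} [CommRing R] [CharZero R] (𝒪 : Subring Qb) [Algebra R 𝒪]
    {ι : Type*} [Fintype ι] (ω : ι → 𝒪) (hω : LinearIndependent R ω) (f : ι → FK N)
    (hf : ∀ k, f k ∈ Set.range (emb N)) (h : ∑ k, cst N (ω k : Qb) * f k = 0) : ∀ k, f k = 0 := by
  choose g hg using hf
  have h' : ∑ k, cst N (𝒪.subtype (ω k)) * emb N (g k) = 0 := by
    rw [← h]
    exact Finset.sum_congr rfl fun k _ => by rw [hg k]; rfl
  intro k
  rw [← hg k, linDisj_ring N 𝒪.subtype Subtype.val_injective ω hω g h' k, map_zero]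

/-- **(LD)** with the scalar action of the subring `𝒪 ⊆ ℚ̄` on `ℚ̄(X₀(N))`. -/
theorem ld_subring_smul {R : Type*} [CommRing R] [CharZero R] (𝒪 : Subring Qb) [Algebra R 𝒪]
    {ι : Type*} [Fintype ι] (ω : ι → 𝒪) (hω : LinearIndependent R ω) (f : ι → FK N)
    (hf : ∀ k, f k ∈ Set.range (emb N)) (h : ∑ k, ω k • f k = 0) : ∀ k, f k = 0 := by
  refine ld_subring N 𝒪 ω hω f hf ?_
  rw [← h]
  refine Finset.sum_congr rfl fun k _ => ?_
  rw [Algebra.smul_def]
  rfl

end Modular

end

end Fermat.Agent.S33.helper3185
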