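import Fermat.Agent.S33.helper1085_GeomSpec
import Fermat.Agent.S33.helper2055_CechAdapt
import Fermat.Agent.S33.helper2860_BaseChange
import Fermat.Agent.S33.helper3185_LinDisj
import Fermat.Agent.S28.helper508_RatLoc

/-!
# S33 CECH-E assembly (sub-leaves (d) + (e) of the GeomSpec): `Stmt_CechLevel` from H1FREE-SS
and the dictionary DICT-E

* `cech_package_of_base` : abstract form.  An `R`-level Čech datum `B0, B1 ≤ B01` inside a field
  `F`, linearly disjoint from `𝒪` over `R`, and `S_i = 𝒪 · B_i`: the whole Čech-unit package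
  (`Charts`, `Fac`, `Uni`, polynomial `Law` over `R`) at the level `(𝒪, π)`.
* `Stmt_DictE` : the dictionary DICT-E as one `Prop`: the chart rings of the GeomSpec at a finite
  level `E` are the `𝒪_E`-spans of the `ℤ_(p)`-charts of the Prelude.
* `stmt_cechLevel_of_dict` : `Stmt_H1Free N p → Stmt_DictE p N W → Stmt_CechLevel p N W`.
-/

set_option autoImplicit false

namespace Fermat.Agent.S33.helper2055

open Fermat.Agent.S19.helper2055
open Fermat.Agent.S19

section Abstract

variable {R 𝒪 F : Type*} [CommRing R] [IsDomain R] [IsPrincipalIdealRing R] [CommRing 𝒪]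
  [Field F] [Algebra R 𝒪] [Algebra R F] [Algebra 𝒪 F] [IsScalarTower R 𝒪 F]

/-- **The Čech-unit package at level `(𝒪, π)` from an `R`-level Čech datum** (element form, no
tensor products): `B0, B1 ≤ B01` subalgebras over `R` of a field `F` with `span / indep / inter`
over `R`, linearly disjoint from `𝒪` over `R` (`hLD`), `S_i` the `𝒪`-span of `B_i`. -/
theorem cech_package_of_base
    (htf : ∀ (r : R) (a : 𝒪), r • a = 0 → r = 0 ∨ a = 0)
    (B0 B1 B01 : Subalgebra R F) (h0 : B0 ≤ B01) (h1 : B1 ≤ B01) {g : ℕ} (η : Fin g → F)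
    (hη : ∀ i, η i ∈ B01)
    (hLD : ∀ (n : ℕ) (ω : Fin n → 𝒪) (f : Fin n → F), LinearIndependent R ω →
      (∀ k, f k ∈ B01) → ∑ k, ω k • f k = 0 → ∀ k, f k = 0)
    (hspan : ∀ x ∈ B01, ∃ x0 ∈ B0, ∃ x1 ∈ B1, ∃ c : Fin g → R, x = x0 + x1 + ∑ i, c i • η i)
    (hindep : ∀ x0 ∈ B0, ∀ x1 ∈ B1, ∀ c : Fin g → R, x0 + x1 + ∑ i, c i • η i = 0 → c = 0)
    (hinter : ∀ x ∈ B0, x ∈ B1 → ∃ a : R, x = algebraMap R F a)
    (S0 S1 S01 : Subalgebra 𝒪 F)
    (hS0 : Subalgebra.toSubmodule S0 = Submodule.span 𝒪 (B0 : Set F))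
    (hS1 : Subalgebra.toSubmodule S1 = Submodule.span 𝒪 (B1 : Set F))
    (hS01 : Subalgebra.toSubmodule S01 = Submodule.span 𝒪 (B01 : Set F))
    (π : 𝒪) (hπ : algebraMap 𝒪 F π ≠ 0) (hloc : ∀ a : 𝒪, a ∈ Ideal.span {π} ∨ IsUnit a)
    (hnu : ∀ y ∈ S01, π • y ≠ 1) :
    (∀ i, η i ∈ S01) ∧ Charts π S0 S1 S01 ∧ (∀ m, Fac π S0 S1 S01 η m) ∧
      (∀ m, Uni π S0 S1 S01 η m) ∧
      ∃ P : ℕ → Fin g → MvPolynomial (Fin g ⊕ Fin g) R, ∀ m, Law π S0 S1 S01 η m
        (fun b b' i => MvPolynomial.aeval (Sum.elim b b') (P m i)) := by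
  obtain ⟨hsp, hin, hit⟩ := helper2860.cech_baseChange htf B01 hLD B0 B1 B01 le_rfl h0 h1 η hη
    hspan hindep hinter S0 S1 S01 hS0 hS1 hS01
  obtain ⟨l0, l1, le⟩ := helper2860.le_baseChange (𝒪 := 𝒪) B0 B1 B01 h0 h1 η hη S0 S1 S01
    hS0 hS1 hS01
  have hI : IsCechInt π S0 S1 S01 η :=
    { le0 := l0
      le1 := l1
      eta := le
      span := hsp
      indep := hin
      inter := hit
      reg := by
        intro y hy
        rw [Algebra.smul_def] at hy
        exact (mul_eq_zero.1 hy).resolve_left hπ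
      loc := hloc
      nonunit := hnu }
  have hmem : ∀ (S : Subalgebra 𝒪 F) (B : Subalgebra R F),
      Subalgebra.toSubmodule S = Submodule.span 𝒪 (B : Set F) → ∀ x ∈ B, x ∈ S := by
    intro S B hS x hx
    have : x ∈ Subalgebra.toSubmodule S := by
      rw [hS]
      exact Submodule.subset_span hx
    exact this
  have hE : Subalgebra.toSubmodule B01 ≤ Subalgebra.toSubmodule B0 ⊔ Subalgebra.toSubmodule B1 ⊔
      Submodule.span R (Set.range η) := by
    intro x hx
    obtain ⟨x0, hx0, x1, hx1, c, rfl⟩ := hspan x hx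
    exact Submodule.add_mem _ (Submodule.add_mem _
      (Submodule.mem_sup_left (Submodule.mem_sup_left hx0))
      (Submodule.mem_sup_left (Submodule.mem_sup_right hx1)))
      (Submodule.mem_sup_right (Submodule.sum_mem _ fun i _ =>
        Submodule.smul_mem _ _ (Submodule.subset_span ⟨i, rfl⟩)))
  exact ⟨le, hI.charts, hI.fac, hI.uni,
    exists_law_of_base (π := π) B0 B1 B01 h0 h1 η hη hE S0 S1 S01 (hmem S0 B0 hS0)
      (hmem S1 B1 hS1) (hmem S01 B01 hS01)⟩

end Abstract

/-! ### The modular instance -/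

section Modular

open ModularCurve ModularCurve.IgusaScheme AlgebraicCurve
open Fermat.Agent.S19.helper5454 Fermat.Agent.S19.helper9190
open Fermat.Agent.S33.helper1085 Fermat.Agent.S34.helper584

local notation "Qb" => AlgebraicClosure ℚ
local notation "GQ" => (AlgebraicClosure ℚ ≃ₐ[ℚ] AlgebraicClosure ℚ)

/-- Rational numbers with denominator prime to `p` lie in every valuation ring over `p`. -/
theorem algebraMap_mem_of_liesOver {p : ℕ} (P : ValuationSubring Qb) (hP : P.LiesOverPrime p)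
    {q : ℚ} (hq : q ∈ GaloisRep.ratLocalizedAt p) : algebraMap ℚ Qb q ∈ P := by
  have hcop : Nat.Coprime q.den p := hq
  have hden : ((q.den : ℕ) : Qb) ∈ P := natCast_mem P q.den
  have hp : P.valuation ((p : ℕ) : Qb) < 1 := (P.mem_nonunits_iff).1 hP
  have hv : P.valuation ((q.den : ℕ) : Qb) = 1 := by
    refine le_antisymm ((P.valuation_le_one_iff _).2 hden) ?_
    by_contra hlt
    rw [not_le] at hlt
    obtain ⟨a, b, hab⟩ := Nat.isCoprime_iff_coprime.2 hcop
    have h1 : (a : Qb) * ((q.den : ℕ) : Qb) + (b : Qb) * ((p : ℕ) : Qb) = 1 := by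
      exact_mod_cast congrArg (Int.cast : ℤ → Qb) hab
    have hva : P.valuation (a : Qb) ≤ 1 := (P.valuation_le_one_iff _).2 (intCast_mem P a)
    have hvb : P.valuation (b : Qb) ≤ 1 := (P.valuation_le_one_iff _).2 (intCast_mem P b)
    have h2 : P.valuation (1 : Qb) < 1 := by
      rw [← h1]
      refine lt_of_le_of_lt (Valuation.map_add _ _ _) (max_lt ?_ ?_)
      · rw [map_mul]
        exact (mul_le_mul' hva le_rfl).trans_lt (by rwa [one_mul])
      · rw [map_mul]
        exact (mul_le_mul' hvb le_rfl).trans_lt (by rwa [one_mul])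
    simp at h2
  have hinv : ((q.den : ℕ) : Qb)⁻¹ ∈ P := by
    rw [← ValuationSubring.valuation_le_one_iff, map_inv₀, hv, inv_one]
  have e : algebraMap ℚ Qb q = ((q.num : ℤ) : Qb) * ((q.den : ℕ) : Qb)⁻¹ := by
    rw [eq_ratCast, Rat.cast_def, div_eq_mul_inv]
  rw [e]
  exact P.mul_mem _ _ (intCast_mem P _) hinv

/-- `ℤ_(p) → 𝒪_E = P ∩ E`. -/
noncomputable def zpToLvl {p : ℕ} (P : ValuationSubring Qb) (hP : P.LiesOverPrime p)
    (E : IntermediateField ℚ Qb) : GaloisRep.ratLocalizedAt p →+* lvlRing P E :=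
  ((algebraMap ℚ Qb).comp (GaloisRep.ratLocalizedAt p).subtype).codRestrict (lvlRing P E)
    (fun r => (mem_lvlRing P E).2 ⟨algebraMap_mem_of_liesOver P hP r.2, E.algebraMap_mem _⟩)

theorem coe_zpToLvl {p : ℕ} (P : ValuationSubring Qb) (hP : P.LiesOverPrime p)
    (E : IntermediateField ℚ Qb) (r : GaloisRep.ratLocalizedAt p) :
    ((zpToLvl P hP E r : lvlRing P E) : Qb) = algebraMap ℚ Qb (r : ℚ) := rfl

variable (p N : ℕ) [NeZero N] [Fact p.Prime]
  (W : modularFunctionFieldBar N ≃ₐ[Qb] modularFunctionFieldBar N)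

/-- **DICT-E** (sub-leaf (b) of the GeomSpec, as one `Prop`): at every admissible finite level
the three chart rings of the GeomSpec are the `𝒪_E`-spans of the `ℤ_(p)`-charts of the Prelude
(embedded coefficientwise in `ℚ̄(X₀(N))`). -/
def Stmt_DictE : Prop :=
  ∀ P : ValuationSubring Qb, P.LiesOverPrime p →
    ∀ (E : IntermediateField ℚ Qb) (π : lvlRing P E) (e : ℕ), IsLevel p P E π e →
      (∀ f : FK N, f ∈ chart P N W E (cFin N) ↔
        f ∈ Submodule.span (lvlRing P E) (emb N '' (chartAlgFin N p : Set (FQ N)))) ∧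
      (∀ f : FK N, f ∈ chart P N W E (cInf N) ↔
        f ∈ Submodule.span (lvlRing P E) (emb N '' (chartAlgInf N p : Set (FQ N)))) ∧
      (∀ f : FK N, f ∈ chart P N W E (cMid N) ↔
        f ∈ Submodule.span (lvlRing P E) (emb N '' (chartAlgMid N p : Set (FQ N))))

set_option synthInstance.maxHeartbeats 200000 in
set_option maxHeartbeats 1000000 in
/-- **CECH-E**: the Čech datum of the two-component model at every finite level, from H1FREE-SS
over `ℤ_(p)` and the dictionary DICT-E. -/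
theorem stmt_cechLevel_of_dict (hH : Stmt_H1Free N p) (hD : Stmt_DictE p N W) :
    Stmt_CechLevel p N W := by
  intro P hP
  obtain ⟨g, η, hspan, hindep, hinter, -, -⟩ := hH
  refine ⟨g, fun i => (η i : FQ N), ?_⟩
  intro E π e hlev
  obtain ⟨hD0, hD1, hD01⟩ := hD P hP E π e hlev
  letI algRO : Algebra (GaloisRep.ratLocalizedAt p) (lvlRing P E) := (zpToLvl P hP E).toAlgebra
  have hRF : ∀ r : GaloisRep.ratLocalizedAt p,
      algebraMap (GaloisRep.ratLocalizedAt p) (FK N) r = ((r : ℚ) : FK N) := by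
    intro r
    rw [← eq_ratCast (algebraMap ℚ (FK N))]
    rfl
  haveI : IsScalarTower (GaloisRep.ratLocalizedAt p) (lvlRing P E) (FK N) :=
    IsScalarTower.of_algebraMap_eq (fun r => by
      have h3 : algebraMap (lvlRing P E) (FK N) (algebraMap (GaloisRep.ratLocalizedAt p) _ r)
          = algebraMap Qb (FK N) (algebraMap ℚ Qb (r : ℚ)) := rfl
      rw [hRF, h3, eq_ratCast, map_ratCast])
  have hcomm : ∀ r : GaloisRep.ratLocalizedAt p,
      emb N (algebraMap (GaloisRep.ratLocalizedAt p) (FQ N) r)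
        = algebraMap (GaloisRep.ratLocalizedAt p) (FK N) r := by
    intro r
    have h1 : algebraMap (GaloisRep.ratLocalizedAt p) (FQ N) r = ((r : ℚ) : FQ N) := by
      rw [← eq_ratCast (algebraMap ℚ (FQ N))]
      rfl
    rw [h1, hRF, map_ratCast]
  let embA : FQ N →ₐ[GaloisRep.ratLocalizedAt p] FK N :=
    { emb N with commutes' := hcomm }
  have hembA : ∀ y, embA y = emb N y := fun _ => rfl
  have hinj : Function.Injective (emb N) := (emb N).injective
  have hsm : ∀ (c : GaloisRep.ratLocalizedAt p) (x : FQ N), embA (c • x) = c • emb N x := by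
    intro c x
    rw [Algebra.smul_def, Algebra.smul_def, map_mul]
    congr 1
    exact hcomm c
  -- the `ℤ_(p)`-level datum inside `FK`
  have h0 : (chartAlgFin N p).map embA ≤ (chartAlgMid N p).map embA :=
    Subalgebra.map_mono (chartAlg_mono N p (sFin_subset N))
  have h1 : (chartAlgInf N p).map embA ≤ (chartAlgMid N p).map embA :=
    Subalgebra.map_mono (chartAlg_mono N p (sInf_subset N))
  have hη : ∀ i, emb N (η i : FQ N) ∈ (chartAlgMid N p).map embA :=
    fun i => Subalgebra.mem_map.2 ⟨(η i : FQ N), (η i).2, rfl⟩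
  have hspan' : ∀ x ∈ (chartAlgMid N p).map embA, ∃ x0 ∈ (chartAlgFin N p).map embA,
      ∃ x1 ∈ (chartAlgInf N p).map embA, ∃ c : Fin g → GaloisRep.ratLocalizedAt p,
        x = x0 + x1 + ∑ i, c i • emb N (η i : FQ N) := by
    intro x hx
    obtain ⟨y, hy, rfl⟩ := Subalgebra.mem_map.1 hx
    obtain ⟨x0, x1, c, hxc⟩ := hspan ⟨y, hy⟩
    refine ⟨embA x0, Subalgebra.mem_map.2 ⟨x0, x0.2, rfl⟩, embA x1,
      Subalgebra.mem_map.2 ⟨x1, x1.2, rfl⟩, c, ?_⟩
    have hval : y = (x0 : FQ N) + (x1 : FQ N) + ∑ i, c i • (η i : FQ N) := by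
      have h : y = ((inclFin N p x0 + inclInf N p x1 + ∑ i, c i • η i : chartAlgMid N p) : FQ N) :=
        congrArg (Subtype.val : chartAlgMid N p → FQ N) hxc
      rw [h]
      push_cast
      rfl
    show embA y = _
    rw [hval, map_add, map_add, map_sum]
    rw [Finset.sum_congr rfl fun i _ => hsm (c i) (η i : FQ N)]
  have hindep' : ∀ x0 ∈ (chartAlgFin N p).map embA, ∀ x1 ∈ (chartAlgInf N p).map embA,
      ∀ c : Fin g → GaloisRep.ratLocalizedAt p,
        x0 + x1 + ∑ i, c i • emb N (η i : FQ N) = 0 → c = 0 := by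
    intro x0 hx0 x1 hx1 c hc
    obtain ⟨y0, hy0, rfl⟩ := Subalgebra.mem_map.1 hx0
    obtain ⟨y1, hy1, rfl⟩ := Subalgebra.mem_map.1 hx1
    apply hindep ⟨y0, hy0⟩ ⟨y1, hy1⟩ c
    have hval : y0 + y1 + ∑ i, c i • (η i : FQ N) = 0 := by
      apply hinj
      rw [map_zero, ← hembA, map_add, map_add, map_sum,
        Finset.sum_congr rfl fun i _ => hsm (c i) (η i : FQ N)]
      exact hc
    apply Subtype.ext
    have h : ((inclFin N p ⟨y0, hy0⟩ + inclInf N p ⟨y1, hy1⟩ + ∑ i, c i • η i : chartAlgMid N p)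
        : FQ N) = y0 + y1 + ∑ i, c i • (η i : FQ N) := by
      push_cast
      rfl
    rw [h, hval]
    rfl
  have hinter' : ∀ x ∈ (chartAlgFin N p).map embA, x ∈ (chartAlgInf N p).map embA →
      ∃ a : GaloisRep.ratLocalizedAt p, x = algebraMap (GaloisRep.ratLocalizedAt p) (FK N) a := by
    intro x hx0 hx1
    obtain ⟨y0, hy0, rfl⟩ := Subalgebra.mem_map.1 hx0
    obtain ⟨y1, hy1, hy⟩ := Subalgebra.mem_map.1 hx1
    have hyy : y1 = y0 := hinj hy
    subst hyy
    obtain ⟨r, hr0, -⟩ := hinter ⟨y1, hy0⟩ ⟨y1, hy1⟩ (Subtype.ext rfl)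
    refine ⟨r, ?_⟩
    have hy1r : y1 = algebraMap (GaloisRep.ratLocalizedAt p) (FQ N) r :=
      congrArg (Subtype.val : chartAlgFin N p → FQ N) hr0
    rw [hy1r]
    exact hcomm r
  have htf : ∀ (r : GaloisRep.ratLocalizedAt p) (a : lvlRing P E), r • a = 0 → r = 0 ∨ a = 0 := by
    intro r a hra
    rw [Algebra.smul_def, mul_eq_zero] at hra
    rcases hra with h | h
    · left
      have h' : algebraMap ℚ Qb (r : ℚ) = 0 := congrArg (Subtype.val : lvlRing P E → Qb) h
      exact Subtype.ext ((map_eq_zero _).1 h')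
    · exact Or.inr h
  have hLD : ∀ (n : ℕ) (ω : Fin n → lvlRing P E) (f : Fin n → FK N),
      LinearIndependent (GaloisRep.ratLocalizedAt p) ω →
      (∀ k, f k ∈ (chartAlgMid N p).map embA) → ∑ k, ω k • f k = 0 → ∀ k, f k = 0 := by
    intro n ω f hω hf h
    refine helper3185.ld_subring_smul N (lvlRing P E) ω hω f (fun k => ?_) h
    obtain ⟨y, -, hy⟩ := Subalgebra.mem_map.1 (hf k)
    exact ⟨y, hy⟩
  have hSof : ∀ (c : Place Qb (FK N) → Prop)
      (B : Subalgebra (GaloisRep.ratLocalizedAt p) (FQ N)),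
      (∀ f : FK N, f ∈ chart P N W E c ↔
        f ∈ Submodule.span (lvlRing P E) (emb N '' (B : Set (FQ N)))) →
      Subalgebra.toSubmodule (chart P N W E c)
        = Submodule.span (lvlRing P E) ((B.map embA : Subalgebra _ (FK N)) : Set (FK N)) := by
    intro c B hB
    ext f
    rw [Subalgebra.mem_toSubmodule, hB f, Subalgebra.coe_map]
    rfl
  -- the level
  have hp0 : ((p : ℕ) : Qb) ≠ 0 := Nat.cast_ne_zero.2 (Fact.out : p.Prime).ne_zero
  have hπ0 : (π : Qb) ≠ 0 := by
    intro h0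
    have hpm : ((p : ℕ) : Qb) ∈ lvlRing P E :=
      (mem_lvlRing P E).2 ⟨ValuationSubring.nonunits_subset hP, natCast_mem E p⟩
    have hmem := hlev.sat 1 ⟨_, hpm⟩ ⟨1, P.one_mem, by simp⟩
    obtain ⟨c, hc⟩ := Ideal.mem_span_singleton'.1 hmem
    have hπz : π = 0 := Subtype.ext h0
    have he : e * 1 ≠ 0 := by
      have := hlev.pos
      omega
    rw [hπz, zero_pow he, mul_zero] at hc
    exact hp0 (congrArg (Subtype.val : lvlRing P E → Qb) hc).symm
  have hπ : algebraMap (lvlRing P E) (FK N) π ≠ 0 := by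
    intro h
    have h' : algebraMap Qb (FK N) (π : Qb) = 0 := h
    exact hπ0 ((map_eq_zero _).1 h')
  have hloc : ∀ a : lvlRing P E, a ∈ Ideal.span {π} ∨ IsUnit a := by
    intro a
    by_cases ha : (a : Qb) ∈ P.nonunits
    · exact Or.inl (hlev.unif a ha)
    · right
      have hv : P.valuation (a : Qb) = 1 :=
        le_antisymm ((P.valuation_le_one_iff _).2 ((mem_lvlRing P E).1 a.2).1)
          (not_lt.1 fun h => ha ((P.mem_nonunits_iff).2 h))
      have ha0 : (a : Qb) ≠ 0 := by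
        intro h0
        rw [h0, map_zero] at hv
        exact zero_ne_one hv
      have hinv : (a : Qb)⁻¹ ∈ lvlRing P E :=
        (mem_lvlRing P E).2 ⟨by
          rw [← ValuationSubring.valuation_le_one_iff, map_inv₀, hv, inv_one],
          E.inv_mem ((mem_lvlRing P E).1 a.2).2⟩
      exact IsUnit.of_mul_eq_one (⟨_, hinv⟩ : lvlRing P E) (Subtype.ext (mul_inv_cancel₀ ha0))
  have hnu : ∀ y ∈ chart P N W E (cMid N), π • y ≠ 1 := by
    intro y hy h1
    have hyO : y ∈ ball P N W E := chartRing_le _ _ hy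
    have hyg : y ∈ gaussV P N := ((mem_ball P N W E).1 hyO).1
    have h2 : algebraMap Qb (FK N) (π : Qb) * y = 1 := by
      rw [← h1, Algebra.smul_def]
      rfl
    have hy' : y = algebraMap Qb (FK N) ((π : Qb)⁻¹) := by
      rw [map_inv₀]
      exact eq_inv_of_mul_eq_one_right h2
    have h3 : ((π : Qb))⁻¹ ∈ P := by
      rw [← gaussF_valuation_algebraMap_le_one_iff P N, ValuationSubring.valuation_le_one_iff,
        ← hy']
      exact hyg
    have h4 := hlev.nonunit
    rw [ValuationSubring.mem_nonunits_iff_or] at h4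
    rcases h4 with h4 | h4
    · exact hπ0 h4
    · exact h4 h3
  obtain ⟨hη', hC, hF, hU, Pl, hL⟩ := cech_package_of_base htf
    ((chartAlgFin N p).map embA) ((chartAlgInf N p).map embA) ((chartAlgMid N p).map embA)
    h0 h1 (fun i => emb N (η i : FQ N)) hη hLD hspan' hindep' hinter'
    (chart P N W E (cFin N)) (chart P N W E (cInf N)) (chart P N W E (cMid N))
    (hSof _ _ hD0) (hSof _ _ hD1) (hSof _ _ hD01) π hπ hloc hnu
  exact ⟨hη', hC, hF, hU, GaloisRep.ratLocalizedAt p, inferInstance, algRO, Pl,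
    fun s _ c => s.commutes (c : ℚ), hL⟩

end Modular

end Fermat.Agent.S33.helper2055
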