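/-
S33 / H1FREE-SS, abstract core without nodes (helper2082).  `import Mathlib` only.

Cech form of Zariski's connectedness theorem for a two-chart model `X = U0 ∪ U1` over a ring `R`
and a prime number `p`:

  `S0 = O(U0)`, `S1 = O(U1)`, `S01 = O(U0 ∩ U1)` subalgebras of an `R`-algebra `F` in which `p` is
  a non zero divisor, with
  * (H1)   `S0 ∩ S1 = R`                                   (global functions are constants),
  * (BT)   the `p`-power torsion of `S01 / (S0 + S1)` is killed by one `p ^ k`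
           (automatic when `S01 / (S0 + S1)` is a finite module over a noetherian `R`),
  * (RED)  `S0 / p S0` and `S1 / p S1` are reduced        (the special fibre is reduced),
  * (PERF) every `r : R` is a `p ^ k`-th power modulo `p` (`R = ℤ_(p)`: Fermat).

Then
  * `exists_const_of_sub_eq` : a function on the special fibre is a constant:
      `a ∈ S0`, `b ∈ S1`, `a - b ∈ p S01`  ⟹  `a ≡ t (mod p S0)`, `b ≡ t (mod p S1)`, `t : R`;
  * `exists_add_of_add_eq`   : `S0 + S1` is `p`-saturated in `S01`, i.e. `H¹ = S01 / (S0 + S1)`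
      has no `p`-torsion.

NO node relation, NO constant field of a component, NO `q`-expansion is used: the `p ^ k`-th
power of a function on the special fibre lifts to `R` (bounded torsion), and Frobenius is injective
on a reduced ring of characteristic `p`.
-/
import Mathlib

set_option autoImplicit false

namespace Fermat.Agent.S33.helper2082

section Core

variable {R F : Type*} [CommRing R] [CommRing F] [Algebra R F]

/-- Frobenius step on one chart: if `a ^ (p ^ k) = t ^ (p ^ k) + p * z` with `z ∈ S` and `S / p S`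
is reduced, then `a - t ∈ p S`. -/
theorem exists_sub_eq_of_pow_eq {p : ℕ} (hp : p.Prime) (S : Subalgebra R F)
    (hred : ∀ (n : ℕ) (x : F), x ∈ S → (∃ y ∈ S, x ^ n = (p : F) * y) → ∃ y ∈ S, x = (p : F) * y)
    {a : F} (ha : a ∈ S) (t : R) (k : ℕ) {z : F} (hz : z ∈ S)
    (h : a ^ p ^ k = algebraMap R F t ^ p ^ k + (p : F) * z) :
    ∃ a' ∈ S, a - algebraMap R F t = (p : F) * a' := by
  have ht : algebraMap R F t ∈ S := S.algebraMap_mem t
  obtain ⟨w, hw⟩ := exists_add_pow_prime_pow_eq hp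
    ((⟨a, ha⟩ : S) - ⟨algebraMap R F t, ht⟩) (⟨algebraMap R F t, ht⟩ : S) k
  have hw' := congrArg (Subtype.val : S → F) hw
  simp only [sub_add_cancel, Subalgebra.coe_add, Subalgebra.coe_mul, Subalgebra.coe_pow,
    Subalgebra.coe_sub, SubringClass.coe_natCast] at hw'
  refine hred (p ^ k) _ (S.sub_mem ha ht)
    ⟨z - (a - algebraMap R F t) * algebraMap R F t * (w : F),
      S.sub_mem hz (S.mul_mem (S.mul_mem (S.sub_mem ha ht) ht) w.2), ?_⟩
  rw [h] at hw'
  linear_combination -hw'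

/-- **Functions on the special fibre are constants** (Cech form of Zariski connectedness). -/
theorem exists_const_of_sub_eq {p : ℕ} (hp : p.Prime)
    (S0 S1 S01 : Subalgebra R F) (h0 : S0 ≤ S01) (h1 : S1 ≤ S01)
    (hinter : ∀ x : F, x ∈ S0 → x ∈ S1 → ∃ r : R, x = algebraMap R F r)
    (k : ℕ)
    (hbt : ∀ (m : ℕ) (y : F), y ∈ S01 →
      (∃ s0 ∈ S0, ∃ s1 ∈ S1, (p : F) ^ m * y = s0 + s1) →
      ∃ s0 ∈ S0, ∃ s1 ∈ S1, (p : F) ^ k * y = s0 + s1)
    (hred0 : ∀ (n : ℕ) (x : F), x ∈ S0 → (∃ y ∈ S0, x ^ n = (p : F) * y) →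
      ∃ y ∈ S0, x = (p : F) * y)
    (hred1 : ∀ (n : ℕ) (x : F), x ∈ S1 → (∃ y ∈ S1, x ^ n = (p : F) * y) →
      ∃ y ∈ S1, x = (p : F) * y)
    (hperf : ∀ r : R, ∃ t s : R, r = t ^ p ^ k + (p : R) * s)
    {a b x : F} (ha : a ∈ S0) (hb : b ∈ S1) (hx : x ∈ S01) (h : a - b = (p : F) * x) :
    ∃ t : R, (∃ a' ∈ S0, a - algebraMap R F t = (p : F) * a') ∧
      (∃ b' ∈ S1, b - algebraMap R F t = (p : F) * b') := by
  -- `a ^ (p ^ k) - b ^ (p ^ k) = p ^ (k + 1) * y` with `y ∈ S01`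
  have hdvd : ((p : ℕ) : S01) ∣ (⟨a, h0 ha⟩ : S01) - ⟨b, h1 hb⟩ :=
    ⟨⟨x, hx⟩, Subtype.ext (by simpa using h)⟩
  obtain ⟨Y, hY⟩ := dvd_sub_pow_of_dvd_sub hdvd k
  have hY' := congrArg (Subtype.val : S01 → F) hY
  simp only [Subalgebra.coe_mul, Subalgebra.coe_pow, Subalgebra.coe_sub,
    SubringClass.coe_natCast] at hY'
  -- bounded torsion
  obtain ⟨s0, hs0, s1, hs1, hs⟩ := hbt (k + 1) (Y : F) Y.2
    ⟨a ^ p ^ k, S0.pow_mem ha _, -(b ^ p ^ k), S1.neg_mem (S1.pow_mem hb _), by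
      rw [← hY']; ring⟩
  have hpS0 : (p : F) ∈ S0 := natCast_mem S0 p
  have hpS1 : (p : F) ∈ S1 := natCast_mem S1 p
  -- the common constant
  have hc : a ^ p ^ k - (p : F) * s0 = b ^ p ^ k + (p : F) * s1 := by
    have e : a ^ p ^ k - b ^ p ^ k = (p : F) * ((p : F) ^ k * (Y : F)) := by
      rw [hY']; ring
    rw [hs] at e
    linear_combination e
  obtain ⟨r, hr⟩ := hinter (a ^ p ^ k - (p : F) * s0)
    (S0.sub_mem (S0.pow_mem ha _) (S0.mul_mem hpS0 hs0))
    (by rw [hc]; exact S1.add_mem (S1.pow_mem hb _) (S1.mul_mem hpS1 hs1))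
  obtain ⟨t, s, hts⟩ := hperf r
  have hrF : algebraMap R F r = algebraMap R F t ^ p ^ k + (p : F) * algebraMap R F s := by
    rw [hts]; simp
  refine ⟨t, ?_, ?_⟩
  · refine exists_sub_eq_of_pow_eq hp S0 hred0 ha t k
      (z := algebraMap R F s + s0) (S0.add_mem (S0.algebraMap_mem s) hs0) ?_
    linear_combination hr + hrF
  · refine exists_sub_eq_of_pow_eq hp S1 hred1 hb t k
      (z := algebraMap R F s - s1) (S1.sub_mem (S1.algebraMap_mem s) hs1) ?_
    linear_combination hr + hrF - hc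

/-- **`S0 + S1` is `p`-saturated in `S01`**: `H¹ = S01 / (S0 + S1)` has no `p`-torsion. -/
theorem exists_add_of_add_eq {p : ℕ} (hp : p.Prime)
    (hpF : ∀ x : F, (p : F) * x = 0 → x = 0)
    (S0 S1 S01 : Subalgebra R F) (h0 : S0 ≤ S01) (h1 : S1 ≤ S01)
    (hinter : ∀ x : F, x ∈ S0 → x ∈ S1 → ∃ r : R, x = algebraMap R F r)
    (k : ℕ)
    (hbt : ∀ (m : ℕ) (y : F), y ∈ S01 →
      (∃ s0 ∈ S0, ∃ s1 ∈ S1, (p : F) ^ m * y = s0 + s1) →
      ∃ s0 ∈ S0, ∃ s1 ∈ S1, (p : F) ^ k * y = s0 + s1)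
    (hred0 : ∀ (n : ℕ) (x : F), x ∈ S0 → (∃ y ∈ S0, x ^ n = (p : F) * y) →
      ∃ y ∈ S0, x = (p : F) * y)
    (hred1 : ∀ (n : ℕ) (x : F), x ∈ S1 → (∃ y ∈ S1, x ^ n = (p : F) * y) →
      ∃ y ∈ S1, x = (p : F) * y)
    (hperf : ∀ r : R, ∃ t s : R, r = t ^ p ^ k + (p : R) * s)
    {a b x : F} (ha : a ∈ S0) (hb : b ∈ S1) (hx : x ∈ S01) (h : a + b = (p : F) * x) :
    ∃ a' ∈ S0, ∃ b' ∈ S1, x = a' + b' := by
  obtain ⟨t, ⟨a', ha', e0⟩, ⟨b', hb', e1⟩⟩ :=
    exists_const_of_sub_eq hp S0 S1 S01 h0 h1 hinter k hbt hred0 hred1 hperf ha (S1.neg_mem hb) hx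
      (by rw [sub_neg_eq_add]; exact h)
  refine ⟨a', ha', -b', S1.neg_mem hb', ?_⟩
  have e : (p : F) * (x - (a' + -b')) = 0 := by
    linear_combination e0 - e1 - h
  exact sub_eq_zero.mp (hpF _ e)

end Core

/-! ### Bounded torsion from finite generation -/

section BT

variable {R M : Type*} [CommRing R] [AddCommGroup M] [Module R M]

/-- In a noetherian module the `ϖ`-power torsion is killed by one power of `ϖ`. -/
theorem exists_pow_smul_eq_zero_bound [IsNoetherian R M] (ϖ : R) :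
    ∃ k : ℕ, ∀ (m : ℕ) (z : M), ϖ ^ m • z = 0 → ϖ ^ k • z = 0 := by
  let f : ℕ →o Submodule R M :=
    ⟨fun n => LinearMap.ker (LinearMap.lsmul R M (ϖ ^ n)), by
      intro n m hnm z hz
      simp only [LinearMap.mem_ker, LinearMap.lsmul_apply] at hz ⊢
      obtain ⟨d, rfl⟩ := Nat.exists_eq_add_of_le hnm
      rw [pow_add, mul_comm, mul_smul, hz, smul_zero]⟩
  obtain ⟨k, hk⟩ := monotone_stabilizes_iff_noetherian.mpr (inferInstance : IsNoetherian R M) f
  refine ⟨k, fun m z hz => ?_⟩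
  have hmem : z ∈ f (max k m) := by
    have : z ∈ f m := by
      simpa [f] using hz
    exact f.monotone (le_max_right k m) this
  rw [← hk (max k m) (le_max_left k m)] at hmem
  simpa [f] using hmem

/-- Bounded torsion of a finitely generated quotient over a noetherian ring, element form. -/
theorem exists_bound_of_finite_quotient [IsNoetherianRing R] (P : Submodule R M)
    [Module.Finite R (M ⧸ P)] (ϖ : R) :
    ∃ k : ℕ, ∀ (m : ℕ) (y : M), ϖ ^ m • y ∈ P → ϖ ^ k • y ∈ P := by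
  have : IsNoetherian R (M ⧸ P) := isNoetherian_of_isNoetherianRing_of_finite R (M ⧸ P)
  obtain ⟨k, hk⟩ := exists_pow_smul_eq_zero_bound (M := M ⧸ P) ϖ
  refine ⟨k, fun m y hy => ?_⟩
  have h1 : ϖ ^ m • P.mkQ y = 0 := by
    rw [← map_smul, Submodule.mkQ_apply, Submodule.Quotient.mk_eq_zero]
    exact hy
  have h2 := hk m _ h1
  rwa [← map_smul, Submodule.mkQ_apply, Submodule.Quotient.mk_eq_zero] at h2

end BT

end Fermat.Agent.S33.helper2082
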