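import Fermat.Agent.S19.helper2052_H1FreeAll
import Fermat.Agent.S19.helper9190_SpecC
import Fermat.Agent.S33.helper2082_SatReduced

/-!
# S33-H1FREE-SS (helper5660): the Cech datum of the two charts of `X₀(N)` over `ℤ_(p)`,
# from REDUCEDNESS of the two chart fibres alone (no hypothesis on `p` versus `N`)

`R = ℤ_(p)`, `S0 = chartAlgFin N p`, `S1 = chartAlgInf N p`, `S01 = chartAlgMid N p`
(Prelude charts: integral closures of `R[j]`, `R[1/j]`, `R[j, 1/j]` in `ℚ(X₀(N))`).

* `ChartReduced N p S` : the fibre `chartAlg N p S / p` is reduced (element form);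
* `sat_key_of_reduced` : if the fibres of `S0` and `S1` are reduced then `S0 + S1` is
  `p`-saturated in `S01` (the hypothesis `hsat` of the landed `helper2052_H1FreeAll`);
* `stmt_H1Free_of_reduced` : hence `S19.helper9190.Stmt_H1Free N p`, i.e. the five fields of the
  Cech datum (`S01 = S0 + S1 + ⨁ R η i`, independence, `S0 ∩ S1 = R`, injectivity, flatness);
* `exists_coords_of_reduced` : the coordinate form (`S01 / (S0 + S1) ≃ R^g`);
* `chartReduced_of_ker` : reducedness of a chart fibre from any ring hom to a reduced ring with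
  kernel `p · chart` (the form in which the two-valuation saturation S33-SAT2 is consumed:
  the pair of `q`-expansion reductions at the cusps `∞` and `0`).

Inputs: the landed S19-H1FREE library (`helper2052`: `S0 ∩ S1 = R`, finite generation of
`S01 / (S0 + S1)` and its bounded torsion for EVERY prime), and the Cech form of Zariski
connectedness (`helper2082.exists_add_of_add_eq`).
-/

set_option autoImplicit false
set_option linter.unusedSectionVars false

noncomputable section

open ModularCurve ModularCurve.IgusaScheme Polynomial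

namespace Fermat.Agent.S33.helper5660

open Fermat.Agent.S28 Fermat.Agent.S28.helper1588 Fermat.Agent.S19.helper2052

variable (N : ℕ) [NeZero N] (p : ℕ) [Fact p.Prime]

/-- **(RED)** The fibre at `p` of the chart `chartAlg N p S` is reduced, in element form:
`x ∈ S`, `x ^ n ∈ p S` imply `x ∈ p S`. -/
def ChartReduced (S : Set ↥(modularFunctionFieldFull N)) : Prop :=
  ∀ (n : ℕ) (x : ↥(modularFunctionFieldFull N)), x ∈ chartAlg N p S →
    (∃ y ∈ chartAlg N p S, x ^ n = (p : ↥(modularFunctionFieldFull N)) * y) →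
    ∃ y ∈ chartAlg N p S, x = (p : ↥(modularFunctionFieldFull N)) * y

/-- Every element of `ℤ_(p)` is a `p ^ k`-th power modulo `p` (Fermat). -/
theorem exists_eq_pow_add (k : ℕ) (r : Zl p) :
    ∃ t s : Zl p, r = t ^ p ^ k + (p : Zl p) * s := by
  have h0 : Fermat.Agent.S28.helper508.toZMod p (r - r ^ p ^ k) = 0 := by
    rw [map_sub, map_pow, ZMod.pow_card_pow, sub_self]
  obtain ⟨s, hs⟩ := (Fermat.Agent.S28.helper508.toZMod_eq_zero_iff p _).mp h0
  exact ⟨r, s, by rw [← hs]; ring⟩

theorem natCast_pow_smul_coe (m : ℕ) (y : ↥(chartAlgMid N p)) :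
    ((((p : Zl p) ^ m • y : ↥(chartAlgMid N p)) : ↥(modularFunctionFieldFull N))) =
      (p : ↥(modularFunctionFieldFull N)) ^ m * (y : ↥(modularFunctionFieldFull N)) := by
  rw [Subalgebra.coe_smul, Algebra.smul_def, map_pow, map_natCast]

/-- Bounded torsion of `H¹ = S01 / (S0 + S1)`, element form in the function field. -/
theorem exists_torsion_bound :
    ∃ k : ℕ, ∀ (m : ℕ) (y : ↥(modularFunctionFieldFull N)), y ∈ chartAlgMid N p →
      (∃ s0 ∈ chartAlgFin N p, ∃ s1 ∈ chartAlgInf N p,
        (p : ↥(modularFunctionFieldFull N)) ^ m * y = s0 + s1) →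
      ∃ s0 ∈ chartAlgFin N p, ∃ s1 ∈ chartAlgInf N p,
        (p : ↥(modularFunctionFieldFull N)) ^ k * y = s0 + s1 := by
  obtain ⟨k, hk⟩ := exists_bounded_torsion_all p N
  refine ⟨k, ?_⟩
  rintro m y hy ⟨s0, hs0, s1, hs1, h⟩
  have hmem : (p : Zl p) ^ m • (⟨y, hy⟩ : ↥(chartAlgMid N p)) ∈ chartSum p N := by
    refine (mem_chartSum_iff p N _).mpr ⟨⟨s0, hs0⟩, ⟨s1, hs1⟩, Subtype.ext ?_⟩
    rw [natCast_pow_smul_coe, Subalgebra.coe_add, coe_chartIncl, coe_chartIncl]
    exact h
  obtain ⟨a, b, hab⟩ := (mem_chartSum_iff p N _).mp (hk m _ hmem)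
  refine ⟨a, a.2, b, b.2, ?_⟩
  have h2 := congrArg Subtype.val hab
  rw [natCast_pow_smul_coe, Subalgebra.coe_add, coe_chartIncl, coe_chartIncl] at h2
  exact h2

/-- **Saturation, key step**: if the fibres of `S0` and `S1` are reduced, then `S0 + S1` is
`p`-saturated in `S01`. -/
theorem sat_key_of_reduced (h0 : ChartReduced N p {jFull N})
    (h1 : ChartReduced N p {(jFull N)⁻¹}) (a : ↥(chartAlgFin N p))
    (b : ↥(chartAlgInf N p)) (x : ↥(chartAlgMid N p))
    (h : inclFin N p a + inclInf N p b = (p : Zl p) • x) :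
    ∃ (a' : ↥(chartAlgFin N p)) (b' : ↥(chartAlgInf N p)),
      x = inclFin N p a' + inclInf N p b' := by
  have hp : p.Prime := Fact.out
  have hl0 : (p : ↥(modularFunctionFieldFull N)) ≠ 0 := Nat.cast_ne_zero.mpr hp.ne_zero
  have hF : (a : ↥(modularFunctionFieldFull N)) + (b : ↥(modularFunctionFieldFull N)) =
      (p : ↥(modularFunctionFieldFull N)) * (x : ↥(modularFunctionFieldFull N)) := by
    have h2 := congrArg Subtype.val h
    have h3 : (((p : Zl p) • x : ↥(chartAlgMid N p)) : ↥(modularFunctionFieldFull N)) =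
        (p : ↥(modularFunctionFieldFull N)) * (x : ↥(modularFunctionFieldFull N)) := by
      rw [Subalgebra.coe_smul, Algebra.smul_def, map_natCast]
    exact h2.trans h3
  obtain ⟨k, hk⟩ := exists_torsion_bound N p
  obtain ⟨a', ha', b', hb', hx⟩ := Fermat.Agent.S33.helper2082.exists_add_of_add_eq hp
    (fun y hy => (mul_eq_zero.mp hy).resolve_left hl0)
    (chartAlgFin N p) (chartAlgInf N p) (chartAlgMid N p)
    (chartAlg_mono N p (sFin_subset N)) (chartAlg_mono N p (sInf_subset N))
    (fun y hy0 hy1 => eq_algebraMap_of_mem_fin_of_mem_inf p N y hy0 hy1)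
    k hk h0 h1 (exists_eq_pow_add p k) a.2 b.2 x.2 hF
  refine ⟨⟨a', ha'⟩, ⟨b', hb'⟩, Subtype.ext ?_⟩
  rw [Subalgebra.coe_add, coe_chartIncl, coe_chartIncl]
  exact hx

/-- **H1FREE, coordinate form**: `S01 / (S0 + S1)` is a free `ℤ_(p)`-module of finite rank when
the fibres of `S0`, `S1` are reduced. -/
theorem exists_coords_of_reduced (h0 : ChartReduced N p {jFull N})
    (h1 : ChartReduced N p {(jFull N)⁻¹}) :
    ∃ (g : ℕ) (π : ↥(chartAlgMid N p) →ₗ[Zl p] (Fin g → Zl p)),
      Function.Surjective π ∧ LinearMap.ker π = chartSum p N :=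
  exists_coords_of_sat p N (sat_key_of_reduced N p h0 h1)

/-- **S33-H1FREE-SS, Cech-datum form**: if the fibres at `p` of the two charts `S0`, `S1` are
reduced, the five fields of the Cech datum hold for the Prelude charts over `ℤ_(p)` — the
Prop `S19.helper9190.Stmt_H1Free N p` — with no hypothesis on `p` versus `N`. -/
theorem stmt_H1Free_of_reduced (h0 : ChartReduced N p {jFull N})
    (h1 : ChartReduced N p {(jFull N)⁻¹}) :
    Fermat.Agent.S19.helper9190.Stmt_H1Free N p :=
  exists_cechDatum_fields_of_sat p N (sat_key_of_reduced N p h0 h1)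

/-! ### Reducedness of a chart fibre from a kernel statement

The form in which the two-valuation saturation (S33-SAT2) is consumed: any "reduction" (ring hom
to a reduced ring, e.g. the pair of `q`-expansion reductions at the cusps `∞` and `0` with values
in `𝔽_p((q)) × 𝔽_p((q))`) whose kernel on the chart is `p · chart` makes the fibre reduced. -/

/-- If a ring hom `red` from the chart to a reduced ring kills `p` and has kernel `p · chart`,
the chart fibre is reduced. -/
theorem chartReduced_of_ker (S : Set ↥(modularFunctionFieldFull N)) {κ : Type*} [CommRing κ]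
    [IsReduced κ] (red : ↥(chartAlg N p S) →+* κ) (hp0 : red (p : ↥(chartAlg N p S)) = 0)
    (hker : ∀ s : ↥(chartAlg N p S), red s = 0 → ∃ s' : ↥(chartAlg N p S),
      s = (p : ↥(chartAlg N p S)) * s') :
    ChartReduced N p S := by
  rintro n x hx ⟨y, hy, hxy⟩
  have h1 : red (⟨x, hx⟩ : ↥(chartAlg N p S)) ^ n = 0 := by
    have h2 : (⟨x, hx⟩ : ↥(chartAlg N p S)) ^ n = (p : ↥(chartAlg N p S)) * ⟨y, hy⟩ :=
      Subtype.ext (by
        rw [Subalgebra.coe_pow, Subalgebra.coe_mul, SubringClass.coe_natCast]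
        exact hxy)
    rw [← map_pow, h2, map_mul, hp0, zero_mul]
  have h3 : red (⟨x, hx⟩ : ↥(chartAlg N p S)) = 0 := IsReduced.eq_zero _ ⟨n, h1⟩
  obtain ⟨s', hs'⟩ := hker _ h3
  refine ⟨s', s'.2, ?_⟩
  have h4 := congrArg Subtype.val hs'
  rw [Subalgebra.coe_mul, SubringClass.coe_natCast] at h4
  exact h4

/-- Element form of the same criterion, without a reduction map: if `x ∈ chart` with
`x ^ n ∈ p · chart` always satisfies a property `Small x` (e.g. "both `q`-expansions of `x` are
divisible by `p`"), and `Small` elements of the chart lie in `p · chart`, then the chart fibre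
is reduced. -/
theorem chartReduced_of_small (S : Set ↥(modularFunctionFieldFull N))
    (Small : ↥(modularFunctionFieldFull N) → Prop)
    (hsmall : ∀ (n : ℕ) (x y : ↥(modularFunctionFieldFull N)), x ∈ chartAlg N p S →
      y ∈ chartAlg N p S → x ^ n = (p : ↥(modularFunctionFieldFull N)) * y → Small x)
    (hker : ∀ x : ↥(modularFunctionFieldFull N), x ∈ chartAlg N p S → Small x →
      ∃ y ∈ chartAlg N p S, x = (p : ↥(modularFunctionFieldFull N)) * y) :
    ChartReduced N p S := by
  rintro n x hx ⟨y, hy, hxy⟩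
  exact hker x hx (hsmall n x y hx hy hxy)

end Fermat.Agent.S33.helper5660
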