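import Fermat.Agent.S33.helper8997_Sat2
import Fermat.Agent.S33.helper5660_H1FreeSS

/-!
# S33-SAT2, consumer forms (helper8997)

The two-valuation saturation of `helper8997_Sat2` in the shape consumed by
`helper5660_H1FreeSS`: the special fibres of the three `j`-charts of `X₀(ℓ M)` over `ℤ_(ℓ)`
(`ℓ ∤ M`) are reduced, hence the Cech datum `Stmt_H1Free (ℓ M) ℓ` of the two charts.
-/

set_option autoImplicit false

open ModularCurve ModularCurve.IgusaScheme

namespace Fermat.Agent.S33.helper8997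

variable (ℓ M : ℕ) [Fact ℓ.Prime] [NeZero M] (hℓM : ¬ ℓ ∣ M)

include hℓM in
/-- The special fibre of the finite chart of `X₀(ℓ M)` over `ℤ_(ℓ)` is reduced (`ℓ ∤ M`). -/
theorem chartReduced_fin :
    Fermat.Agent.S33.helper5660.ChartReduced (ℓ * M) ℓ {jFull (ℓ * M)} :=
  fun n x hx hxn => reduced_fin ℓ M hℓM n x hx hxn

include hℓM in
/-- The special fibre of the chart at infinity of `X₀(ℓ M)` over `ℤ_(ℓ)` is reduced. -/
theorem chartReduced_inf :
    Fermat.Agent.S33.helper5660.ChartReduced (ℓ * M) ℓ {(jFull (ℓ * M))⁻¹} :=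
  fun n x hx hxn => reduced_inf ℓ M hℓM n x hx hxn

include hℓM in
/-- The special fibre of the overlap chart of `X₀(ℓ M)` over `ℤ_(ℓ)` is reduced. -/
theorem chartReduced_mid :
    Fermat.Agent.S33.helper5660.ChartReduced (ℓ * M) ℓ {jFull (ℓ * M), (jFull (ℓ * M))⁻¹} :=
  fun n x hx hxn => reduced_mid ℓ M hℓM n x hx hxn

include hℓM in
/-- **The Cech datum of the two charts of `X₀(ℓ M)` over `ℤ_(ℓ)`, `ℓ ∥ ℓ M`**
(`S19.helper9190.Stmt_H1Free` at a semistable prime). -/
theorem stmt_H1Free : Fermat.Agent.S19.helper9190.Stmt_H1Free (ℓ * M) ℓ :=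
  Fermat.Agent.S33.helper5660.stmt_H1Free_of_reduced (ℓ * M) ℓ
    (chartReduced_fin ℓ M hℓM) (chartReduced_inf ℓ M hℓM)

end Fermat.Agent.S33.helper8997
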