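import Fermat.Agent.S33.helper7050_OrdPowAdapter
import Fermat.Agent.S33.helper2055_CechLevel
import Fermat.Agent.S33.helper8997_Sat2Red
import Fermat.Agent.S37.helper5162_HeckeInputsModular

/-!
# S33, step (C): `Stmt_OrderJ` from the two open leaves

The chain end of (C) in the captain's shape, with everything that is on main discharged:

* H1FREE-SS (`helper8997.stmt_H1Free`), LINDISJ, BASECHANGE, CECH-ADAPT, the Čech order
  (`exists_order_of_family`), the GeomSpec assembly and the `d = 1` adapter are consumed here;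
* the two remaining inputs are `Stmt_DictE p (p * M) (wAL h)` (DICT-E) and
  `helper1085.Stmt_Family p M h` (FAMILY).
-/

set_option autoImplicit false

namespace Fermat.Agent.S33.helper2055

open AlgebraicCurve ModularCurve
open Fermat.Agent.S33.helper1085

local notation "Qb" => AlgebraicClosure ℚ

/-- **CECH-E at a semistable prime**: `Stmt_CechLevel p (p * M) W` from the dictionary DICT-E
alone (H1FREE-SS is on main). -/
theorem stmt_cechLevel_of_dictE {p : ℕ} [Fact p.Prime] (M : ℕ) [NeZero M] (hpM : ¬ p ∣ M)
    (W : modularFunctionFieldBar (p * M) ≃ₐ[Qb] modularFunctionFieldBar (p * M))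
    (hD : Stmt_DictE p (p * M) W) : Stmt_CechLevel p (p * M) W :=
  stmt_cechLevel_of_dict p (p * M) W (Fermat.Agent.S33.helper8997.stmt_H1Free p M hpM) hD

/-- **Step (C) modulo the two open leaves** DICT-E and FAMILY. -/
theorem stmt_orderJ_of_dictE_family {p : ℕ} [NeZero p] [Fact p.Prime] (M : ℕ) [NeZero M]
    (h : Nat.Coprime p M) (hD : Stmt_DictE p (p * M) (wAL h)) (hfam : Stmt_Family p M h) :
    Fermat.Agent.S33.helper2784.Stmt_OrderJ p M h := by
  have hp : p.Prime := Fact.out
  have hpM : ¬ p ∣ M := fun hdvd => hp.one_lt.ne' (Nat.Coprime.eq_one_of_dvd h hdvd)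
  exact Fermat.Agent.S33.helper7050.stmt_orderJ_of_leaves h hp
    (stmt_cechLevel_of_dictE M hpM (wAL h) hD) hfam

end Fermat.Agent.S33.helper2055
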