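/-
S33-FIBCOUNT (helper2582): the special-fibre family of the root-closed count core
`Fermat.Agent.S35.helper1788.exists_seeds_of_root_closed`, from CHART DATA alone.

Setting: fields `K ⊆ F` with Prelude places / divisors / Riemann-Roch spaces, a finite family of
valuations `val i` of `F` with common restriction `vK` to `K`, and a reduction
`red : F → Fk` (`RedDataW` of `S35/helper2459`, weights `1`).  Chart rings
`B0, B1 ≤ B01` (subrings of the unit ball containing the integral constants) and a coordinate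
`j` with `j ∈ B0`, `j⁻¹ ∈ B1`, `val i j = 1`.  `E1`, `E2` are the divisors with
`ball ∩ L(p E1 + q E2) = j⁻^q B0 ∩ j^p B1` (polar and zero divisor of `j`).

The family `fibN p q := { y ∈ Fk | j̄^q y ∈ red B0 ∧ j̄⁻^p y ∈ red B1 }` is monotone, separated,
contains the reductions of the unit balls of `L(p E1 + q E2)`, and

* (`exists_lift_of_mem_fibN`) if `B01 = j⁻^q B0 + j^p B1` (Cech `H¹(O(p E1 + q E2)) = 0`, which
  follows from FINITE GENERATION of `B01 / (B0 + B1)` for `p + q` large) and the kernel of `red`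
  on `B01` is `𝔪 · B01`, then every element of `fibN p q` is the reduction of an element of
  `ball ∩ L(p E1 + q E2)`;
* (`finrank_fibN_le`) hence `dim_kk (fibN p q) ≤ dim_K L(p E1 + q E2)`: the special-fibre Riemann
  bound holds with the SAME constant as on the generic fibre — no Riemann theorem on the
  components of the special fibre, no genus of the components, no node count;
* (`fibN_root`) `fibN` is closed under `m`-th roots as soon as `red B0` and `red B1` are.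

`exists_seeds_of_charts` feeds this to `helper1788.exists_seeds_of_root_closed`.
-/
import Mathlib
import Fermat.Prelude.Def_AlgebraicCurve_Repartitions
import Fermat.Agent.S35.helper2459_KummerMultiSF
import Fermat.Agent.S35.helper1788_KummerMultiInst

set_option autoImplicit false

open AlgebraicCurve

namespace Fermat.Agent.S33.helper2582

open Fermat.Agent.S35.helper2459

section Lift

variable {K F : Type*} [Field K] [Field F] [Algebra K F]
variable {Γ₀ : Type*} [LinearOrderedCommGroupWithZero Γ₀] {ι : Type*}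
  {kk : Type*} [Field kk] {Fk : Type*} [CommRing Fk] [Algebra kk Fk] {red : F → Fk}
  {val : ι → Valuation F Γ₀} {vK : Valuation K Γ₀}

/-- **Lifts of independent reductions are independent.**  If the reductions of finitely many
elements of the unit ball are `kk`-linearly independent, the elements are `K`-linearly
independent (divide a relation by its largest coefficient). -/
theorem linearIndependent_of_red [Nonempty ι]
    (hred : RedDataW val (fun _ => (1 : Γ₀)) vK kk red red)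
    (hcst : ∀ c : K, vK c ≤ 1 → ∃ κ : kk, red (algebraMap K F c) = algebraMap kk Fk κ)
    {n : ℕ} (x : Fin n → F) (hx : ∀ s i, val i (x s) ≤ 1)
    (hli : LinearIndependent kk (fun s => red (x s))) : LinearIndependent K x := by
  classical
  rw [Fintype.linearIndependent_iff]
  intro g hg
  by_contra hne
  rw [not_forall] at hne
  obtain ⟨s1, hs1⟩ := hne
  obtain ⟨s0, -, hmax⟩ := Finset.exists_max_image Finset.univ (fun s => vK (g s))
    ⟨s1, Finset.mem_univ _⟩
  have hg0 : g s0 ≠ 0 := by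
    intro h0
    have h1 := hmax s1 (Finset.mem_univ _)
    rw [h0, map_zero, le_zero_iff, map_eq_zero] at h1
    exact hs1 h1
  have hv0 : vK (g s0) ≠ 0 := (map_ne_zero vK).mpr hg0
  have hc1 : ∀ s, vK (g s / g s0) ≤ 1 := by
    intro s
    rw [map_div₀]
    exact (div_le_one₀ (zero_lt_iff.mpr hv0)).mpr (hmax s (Finset.mem_univ _))
  have hsum : ∑ s, (g s / g s0) • x s = 0 := by
    have h1 : ∑ s, (g s / g s0) • x s = (g s0)⁻¹ • ∑ s, g s • x s := by
      rw [Finset.smul_sum]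
      refine Finset.sum_congr rfl fun s _ => ?_
      rw [smul_smul, div_eq_inv_mul]
    rw [h1, hg, smul_zero]
  have hball : ∀ s i, val i ((g s / g s0) • x s) ≤ 1 := fun s i =>
    hred.smul_mem_ball (g s / g s0) (hc1 s) (x s) (hx s) i
  have hredsum : red (∑ s, (g s / g s0) • x s) =
      ∑ s, red (algebraMap K F (g s / g s0)) * red (x s) := by
    rw [hred.mapM_sum Finset.univ _ (fun s _ => hball s)]
    exact Finset.sum_congr rfl fun s _ => hred.mapM_smul (g s / g s0) (hc1 s) (x s) (hx s)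
  choose κ hκ using fun s => hcst (g s / g s0) (hc1 s)
  have h0 : ∑ s, κ s • red (x s) = 0 := by
    rw [← hred.map_zero, ← hsum, hredsum]
    exact Finset.sum_congr rfl fun s _ => by rw [hκ s, Algebra.smul_def]
  have hκ0 := (Fintype.linearIndependent_iff.mp hli) κ h0 s0
  have h1 : red (algebraMap K F (g s0 / g s0)) = 1 := by
    rw [div_self hg0, map_one, hred.map_one]
  rw [hκ s0, hκ0, map_zero] at h1
  have := hred.nontrivial
  exact zero_ne_one h1

end Lift

/-! ### Chart data and the fibre family -/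

section Family

variable {K F : Type*} [Field K] [Field F] [Algebra K F]
variable {Γ₀ : Type*} [LinearOrderedCommGroupWithZero Γ₀] {ι : Type*}
  {kk : Type*} [Field kk] {Fk : Type*} [CommRing Fk] [Algebra kk Fk] {red : F → Fk}
  {val : ι → Valuation F Γ₀} {vK : Valuation K Γ₀}

/-- **Chart data**: two chart rings `B0`, `B1` inside the overlap ring `B01`, all inside the unit
ball of the valuations `val i` and containing the integral constants; a coordinate `j` which is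
a unit of the ball, lies in `B0`, and whose inverse lies in `B1`. -/
structure ChartData (val : ι → Valuation F Γ₀) (vK : Valuation K Γ₀) (B0 B1 B01 : Subring F)
    (j : F) : Prop where
  le0 : B0 ≤ B01
  le1 : B1 ≤ B01
  ball : ∀ a ∈ B01, ∀ i, val i a ≤ 1
  const0 : ∀ c : K, vK c ≤ 1 → algebraMap K F c ∈ B0
  const1 : ∀ c : K, vK c ≤ 1 → algebraMap K F c ∈ B1
  j_mem : j ∈ B0
  jinv_mem : j⁻¹ ∈ B1
  val_j : ∀ i, val i j = 1

namespace ChartData

variable {B0 B1 B01 : Subring F} {j : F} (hC : ChartData val vK B0 B1 B01 j)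
include hC

theorem ball0 {a : F} (ha : a ∈ B0) (i : ι) : val i a ≤ 1 := hC.ball a (hC.le0 ha) i

theorem ball1 {a : F} (ha : a ∈ B1) (i : ι) : val i a ≤ 1 := hC.ball a (hC.le1 ha) i

theorem ball_j (i : ι) : val i j ≤ 1 := (hC.val_j i).le

theorem val_jinv (i : ι) : val i j⁻¹ = 1 := by rw [map_inv₀, hC.val_j i, inv_one]

theorem ball_jinv (i : ι) : val i j⁻¹ ≤ 1 := (hC.val_jinv i).le

theorem j_ne_zero [Nonempty ι] : j ≠ 0 := by
  obtain ⟨i⟩ := ‹Nonempty ι›
  intro h0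
  have h1 := hC.val_j i
  rw [h0, map_zero] at h1
  exact zero_ne_one h1

theorem ball_pow_j (n : ℕ) (i : ι) : val i (j ^ n) ≤ 1 := by
  rw [map_pow, hC.val_j i, one_pow]

theorem ball_pow_jinv (n : ℕ) (i : ι) : val i (j⁻¹ ^ n) ≤ 1 := by
  rw [map_pow, hC.val_jinv i, one_pow]

theorem smul_mem0 {c : K} (hc : vK c ≤ 1) {a : F} (ha : a ∈ B0) : c • a ∈ B0 := by
  rw [Algebra.smul_def]
  exact B0.mul_mem (hC.const0 c hc) ha

theorem smul_mem1 {c : K} (hc : vK c ≤ 1) {a : F} (ha : a ∈ B1) : c • a ∈ B1 := by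
  rw [Algebra.smul_def]
  exact B1.mul_mem (hC.const1 c hc) ha

end ChartData

variable {B0 B1 B01 : Subring F} {j : F}

/-- `red j * red j⁻¹ = 1`. -/
theorem red_j_mul_red_jinv [Nonempty ι] (hred : RedDataW val (fun _ => (1 : Γ₀)) vK kk red red)
    (hC : ChartData val vK B0 B1 B01 j) : red j * red j⁻¹ = 1 := by
  rw [← hred.map_mul j j⁻¹ hC.ball_j hC.ball_jinv, mul_inv_cancel₀ hC.j_ne_zero, hred.map_one]

theorem red_j_pow_mul_red_jinv_pow [Nonempty ι]
    (hred : RedDataW val (fun _ => (1 : Γ₀)) vK kk red red)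
    (hC : ChartData val vK B0 B1 B01 j) (n : ℕ) : red j ^ n * red j⁻¹ ^ n = 1 := by
  rw [← mul_pow, red_j_mul_red_jinv hred hC, one_pow]

/-- The special-fibre family attached to chart data:
`fibN p q = { y | j̄ ^ q * y ∈ red B0 ∧ j̄⁻¹ ^ p * y ∈ red B1 }`
(sections of `O(p E1 + q E2)` on the special fibre, `E1` the polar and `E2` the zero divisor of
`j`). -/
def fibN (hred : RedDataW val (fun _ => (1 : Γ₀)) vK kk red red)
    (hC : ChartData val vK B0 B1 B01 j) (p q : ℕ) : Submodule kk Fk where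
  carrier := {y | (∃ a ∈ B0, red j ^ q * y = red a) ∧ ∃ b ∈ B1, red j⁻¹ ^ p * y = red b}
  zero_mem' := ⟨⟨0, B0.zero_mem, by rw [mul_zero, hred.map_zero]⟩,
    ⟨0, B1.zero_mem, by rw [mul_zero, hred.map_zero]⟩⟩
  add_mem' := by
    rintro y y' ⟨⟨a, ha, h1⟩, ⟨b, hb, h2⟩⟩ ⟨⟨a', ha', h1'⟩, ⟨b', hb', h2'⟩⟩
    refine ⟨⟨a + a', B0.add_mem ha ha', ?_⟩, ⟨b + b', B1.add_mem hb hb', ?_⟩⟩
    · rw [mul_add, h1, h1', hred.map_add a a' (hC.ball0 ha) (hC.ball0 ha')]
    · rw [mul_add, h2, h2', hred.map_add b b' (hC.ball1 hb) (hC.ball1 hb')]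
  smul_mem' := by
    rintro κ y ⟨⟨a, ha, h1⟩, ⟨b, hb, h2⟩⟩
    obtain ⟨c, hc1, hc2⟩ := hred.exists_const κ
    have hcb : ∀ i, val i (algebraMap K F c) ≤ 1 := fun i => by
      rw [hred.val_algebraMap]; exact hc1
    refine ⟨⟨algebraMap K F c * a, B0.mul_mem (hC.const0 c hc1) ha, ?_⟩,
      ⟨algebraMap K F c * b, B1.mul_mem (hC.const1 c hc1) hb, ?_⟩⟩
    · rw [mul_smul_comm, h1, hred.map_mul _ _ hcb (hC.ball0 ha), hc2, Algebra.smul_def]
    · rw [mul_smul_comm, h2, hred.map_mul _ _ hcb (hC.ball1 hb), hc2, Algebra.smul_def]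

theorem mem_fibN (hred : RedDataW val (fun _ => (1 : Γ₀)) vK kk red red)
    (hC : ChartData val vK B0 B1 B01 j) {p q : ℕ} {y : Fk} :
    y ∈ fibN hred hC p q ↔
      (∃ a ∈ B0, red j ^ q * y = red a) ∧ ∃ b ∈ B1, red j⁻¹ ^ p * y = red b := Iff.rfl

/-- `fibN` is monotone in both indices. -/
theorem fibN_mono (hred : RedDataW val (fun _ => (1 : Γ₀)) vK kk red red)
    (hC : ChartData val vK B0 B1 B01 j) (p p' q q' : ℕ) (hp : p ≤ p') (hq : q ≤ q') :
    fibN hred hC p q ≤ fibN hred hC p' q' := by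
  rintro y ⟨⟨a, ha, h1⟩, ⟨b, hb, h2⟩⟩
  obtain ⟨r, rfl⟩ := Nat.exists_eq_add_of_le hq
  obtain ⟨s, rfl⟩ := Nat.exists_eq_add_of_le hp
  refine ⟨⟨j ^ r * a, B0.mul_mem (B0.pow_mem hC.j_mem r) ha, ?_⟩,
    ⟨j⁻¹ ^ s * b, B1.mul_mem (B1.pow_mem hC.jinv_mem s) hb, ?_⟩⟩
  · rw [hred.map_mul _ _ (hC.ball_pow_j r) (hC.ball0 ha),
      Fermat.Agent.S35.helper1788.red_pow_of_ball hred hC.ball_j r, ← h1]
    ring
  · rw [hred.map_mul _ _ (hC.ball_pow_jinv s) (hC.ball1 hb),
      Fermat.Agent.S35.helper1788.red_pow_of_ball hred hC.ball_jinv s, ← h2]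
    ring

/-- `fibN` is separated: `N p q ⊓ N p' q' ≤ N p q'`. -/
theorem fibN_inf (hred : RedDataW val (fun _ => (1 : Γ₀)) vK kk red red)
    (hC : ChartData val vK B0 B1 B01 j) (p p' q q' : ℕ) :
    fibN hred hC p q ⊓ fibN hred hC p' q' ≤ fibN hred hC p q' := by
  rintro y ⟨⟨-, h2⟩, ⟨h1, -⟩⟩
  exact ⟨h1, h2⟩

/-- Root closure of `fibN` from root closure of the reduced chart rings. -/
theorem fibN_root (hred : RedDataW val (fun _ => (1 : Γ₀)) vK kk red red)
    (hC : ChartData val vK B0 B1 B01 j) (m : ℕ)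
    (hroot0 : ∀ z : Fk, (∃ a ∈ B0, z ^ m = red a) → ∃ a ∈ B0, z = red a)
    (hroot1 : ∀ z : Fk, (∃ b ∈ B1, z ^ m = red b) → ∃ b ∈ B1, z = red b)
    (p q : ℕ) (y : Fk) (hy : y ^ m ∈ fibN hred hC (m * p) (m * q)) : y ∈ fibN hred hC p q := by
  obtain ⟨⟨a, ha, h1⟩, ⟨b, hb, h2⟩⟩ := hy
  refine ⟨hroot0 _ ⟨a, ha, ?_⟩, hroot1 _ ⟨b, hb, ?_⟩⟩
  · rw [← h1, mul_pow, ← pow_mul, mul_comm q m]
  · rw [← h2, mul_pow, ← pow_mul, mul_comm p m]

end Family

/-! ### Containment, lifting, and the count -/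

section Count

open Fermat.Agent.S35.helper1788 (red_pow_of_ball)

variable {K F : Type*} [Field K] [Field F] [Algebra K F]
variable {Γ₀ : Type*} [LinearOrderedCommGroupWithZero Γ₀] {ι : Type*}
  {kk : Type*} [Field kk] {Fk : Type*} [CommRing Fk] [Algebra kk Fk] {red : F → Fk}
  {val : ι → Valuation F Γ₀} {vK : Valuation K Γ₀}
  {B0 B1 B01 : Subring F} {j : F}

/-- **Untwisted containment** (`hNred0`): the reduction of the unit ball of `L(p E1 + q E2)` lies
in `fibN p q`, as soon as the unit ball of `L(p E1 + q E2)` is inside `j⁻^q B0 ∩ j^p B1`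
(unit ball of the chart). -/
theorem red_mem_fibN (hred : RedDataW val (fun _ => (1 : Γ₀)) vK kk red red)
    (hC : ChartData val vK B0 B1 B01 j) (E1 E2 : Divisor K F)
    (hB : ∀ p q : ℕ, ∀ x ∈ riemannRochSpace (p • E1 + q • E2), (∀ i, val i x ≤ 1) →
      j ^ q * x ∈ B0 ∧ j⁻¹ ^ p * x ∈ B1)
    (p q : ℕ) (x : F) (hx : x ∈ riemannRochSpace (p • E1 + q • E2)) (hxb : ∀ i, val i x ≤ 1) :
    red x ∈ fibN hred hC p q := by
  obtain ⟨h0, h1⟩ := hB p q x hx hxb
  refine ⟨⟨_, h0, ?_⟩, ⟨_, h1, ?_⟩⟩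
  · rw [hred.map_mul _ _ (hC.ball_pow_j q) hxb, red_pow_of_ball hred hC.ball_j q]
  · rw [hred.map_mul _ _ (hC.ball_pow_jinv p) hxb, red_pow_of_ball hred hC.ball_jinv p]

/-- **Lifting** (Cech `H¹(O(p E1 + q E2)) = 0`): if `B01 = j⁻^q B0 + j^p B1` and the kernel of
the reduction on `B01` is `𝔪 · B01`, every element of `fibN p q` is the reduction of an element
of the unit ball of `L(p E1 + q E2)`. -/
theorem exists_lift_of_mem_fibN [Nonempty ι]
    (hred : RedDataW val (fun _ => (1 : Γ₀)) vK kk red red)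
    (hC : ChartData val vK B0 B1 B01 j) (E1 E2 : Divisor K F)
    (hL : ∀ p q : ℕ, ∀ x : F, j ^ q * x ∈ B0 → j⁻¹ ^ p * x ∈ B1 →
      x ∈ riemannRochSpace (p • E1 + q • E2))
    (hker : ∀ f ∈ B01, red f = 0 → ∃ (n : ℕ) (c : Fin n → K) (z : Fin n → F),
      (∀ k, vK (c k) < 1) ∧ (∀ k, z k ∈ B01) ∧ f = ∑ k, c k • z k)
    (p q : ℕ) (hfg : ∀ z ∈ B01, ∃ a ∈ B0, ∃ b ∈ B1, z = j⁻¹ ^ q * a + j ^ p * b)
    (y : Fk) (hy : y ∈ fibN hred hC p q) :
    ∃ x ∈ riemannRochSpace (p • E1 + q • E2), (∀ i, val i x ≤ 1) ∧ red x = y := by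
  classical
  obtain ⟨⟨a, ha, h1⟩, ⟨b, hb, h2⟩⟩ := hy
  have hj0 : j ≠ 0 := hC.j_ne_zero
  have hjq : ∀ n : ℕ, j ^ n * j⁻¹ ^ n = 1 := fun n => by
    rw [← mul_pow, mul_inv_cancel₀ hj0, one_pow]
  have hjq' : ∀ n : ℕ, j⁻¹ ^ n * j ^ n = 1 := fun n => by rw [mul_comm, hjq n]
  have hjinv01 : j⁻¹ ∈ B01 := hC.le1 hC.jinv_mem
  have hj01 : j ∈ B01 := hC.le0 hC.j_mem
  have hfmem : j⁻¹ ^ q * a - j ^ p * b ∈ B01 :=
    B01.sub_mem (B01.mul_mem (B01.pow_mem hjinv01 q) (hC.le0 ha))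
      (B01.mul_mem (B01.pow_mem hj01 p) (hC.le1 hb))
  have hb1 : ∀ i, val i (j⁻¹ ^ q * a) ≤ 1 := fun i => by
    rw [map_mul, map_pow, hC.val_jinv i, one_pow, one_mul]; exact hC.ball0 ha i
  have hb2 : ∀ i, val i (j ^ p * b) ≤ 1 := fun i => by
    rw [map_mul, map_pow, hC.val_j i, one_pow, one_mul]; exact hC.ball1 hb i
  have hfred : red (j⁻¹ ^ q * a - j ^ p * b) = 0 := by
    rw [hred.map_sub _ _ hb1 hb2, hred.map_mul _ _ (hC.ball_pow_jinv q) (hC.ball0 ha),
      hred.map_mul _ _ (hC.ball_pow_j p) (hC.ball1 hb), red_pow_of_ball hred hC.ball_jinv q,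
      red_pow_of_ball hred hC.ball_j p, ← h1, ← h2, ← mul_assoc, ← mul_assoc,
      mul_comm (red j⁻¹ ^ q), red_j_pow_mul_red_jinv_pow hred hC q,
      red_j_pow_mul_red_jinv_pow hred hC p, sub_self]
  obtain ⟨n, c, z, hc, hz, hf⟩ := hker _ hfmem hfred
  choose a' ha' b' hb' hz' using fun k => hfg (z k) (hz k)
  have hsa : ∑ k, c k • a' k ∈ B0 :=
    B0.sum_mem fun k _ => hC.smul_mem0 (hc k).le (ha' k)
  have hsb : ∑ k, c k • b' k ∈ B1 :=
    B1.sum_mem fun k _ => hC.smul_mem1 (hc k).le (hb' k)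
  have ha'' : a - ∑ k, c k • a' k ∈ B0 := B0.sub_mem ha hsa
  have hb'' : b + ∑ k, c k • b' k ∈ B1 := B1.add_mem hb hsb
  -- the two expressions of the lift agree
  have hid : j⁻¹ ^ q * (a - ∑ k, c k • a' k) = j ^ p * (b + ∑ k, c k • b' k) := by
    have h3 : ∑ k, c k • z k =
        j⁻¹ ^ q * ∑ k, c k • a' k + j ^ p * ∑ k, c k • b' k := by
      rw [Finset.mul_sum, Finset.mul_sum, ← Finset.sum_add_distrib]
      refine Finset.sum_congr rfl fun k _ => ?_
      rw [hz' k, smul_add, mul_smul_comm, mul_smul_comm]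
    rw [h3] at hf
    rw [mul_sub, mul_add]
    linear_combination hf
  have hxb : ∀ i, val i (j⁻¹ ^ q * (a - ∑ k, c k • a' k)) ≤ 1 := fun i => by
    rw [map_mul, map_pow, hC.val_jinv i, one_pow, one_mul]; exact hC.ball0 ha'' i
  refine ⟨j⁻¹ ^ q * (a - ∑ k, c k • a' k), hL p q _ ?_ ?_, hxb, ?_⟩
  · rw [← mul_assoc, hjq q, one_mul]; exact ha''
  · rw [hid, ← mul_assoc, hjq' p, one_mul]; exact hb''
  · have hsmall : ∀ i, val i (∑ k, c k • a' k) < 1 := fun i => by
      refine Valuation.map_sum_lt (val i) one_ne_zero fun k _ => ?_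
      rw [hred.val_smul]
      exact lt_of_le_of_lt (mul_le_of_le_one_right' (hC.ball0 (ha' k) i)) (hc k)
    have hs0 : red (∑ k, c k • a' k) = 0 :=
      (hred.eq_zero_iff _ fun i => (hsmall i).le).mpr hsmall
    rw [hred.map_mul _ _ (hC.ball_pow_jinv q) (hC.ball0 ha''),
      hred.map_sub _ _ (hC.ball0 ha) (hC.ball0 hsa), hs0, sub_zero,
      red_pow_of_ball hred hC.ball_jinv q, ← h1, ← mul_assoc, mul_comm (red j⁻¹ ^ q),
      red_j_pow_mul_red_jinv_pow hred hC q, one_mul]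

/-- **The count** (`hRiemk` with the generic constant): under the hypotheses of the lifting
lemma, `fibN p q` is finite-dimensional of dimension at most `dim_K L(p E1 + q E2)`. -/
theorem finrank_fibN_le [Nonempty ι]
    (hred : RedDataW val (fun _ => (1 : Γ₀)) vK kk red red)
    (hC : ChartData val vK B0 B1 B01 j)
    (hcst : ∀ c : K, vK c ≤ 1 → ∃ κ : kk, red (algebraMap K F c) = algebraMap kk Fk κ)
    (E1 E2 : Divisor K F)
    (hL : ∀ p q : ℕ, ∀ x : F, j ^ q * x ∈ B0 → j⁻¹ ^ p * x ∈ B1 →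
      x ∈ riemannRochSpace (p • E1 + q • E2))
    (hker : ∀ f ∈ B01, red f = 0 → ∃ (n : ℕ) (c : Fin n → K) (z : Fin n → F),
      (∀ k, vK (c k) < 1) ∧ (∀ k, z k ∈ B01) ∧ f = ∑ k, c k • z k)
    (p q : ℕ) (hfg : ∀ z ∈ B01, ∃ a ∈ B0, ∃ b ∈ B1, z = j⁻¹ ^ q * a + j ^ p * b)
    [Module.Finite K (riemannRochSpace (p • E1 + q • E2))] :
    Module.Finite kk (fibN hred hC p q) ∧
      Module.finrank kk (fibN hred hC p q) ≤
        Module.finrank K (riemannRochSpace (p • E1 + q • E2)) := by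
  classical
  have key : ∀ (m : ℕ) (v : Fin m → fibN hred hC p q), LinearIndependent kk v →
      m ≤ Module.finrank K (riemannRochSpace (p • E1 + q • E2)) := by
    intro m v hv
    choose x hxL hxb hxr using fun s =>
      exists_lift_of_mem_fibN hred hC E1 E2 hL hker p q hfg (v s) (v s).2
    have hli : LinearIndependent kk (fun s => red (x s)) := by
      have h1 := hv.map' (fibN hred hC p q).subtype (Submodule.ker_subtype _)
      have h2 : (fun s => red (x s)) = (fibN hred hC p q).subtype ∘ v := by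
        funext s; exact hxr s
      rw [h2]; exact h1
    have hK := linearIndependent_of_red hred hcst x hxb hli
    have hK' : LinearIndependent K
        (fun s => (⟨x s, hxL s⟩ : riemannRochSpace (p • E1 + q • E2))) := by
      apply LinearIndependent.of_comp (riemannRochSpace (p • E1 + q • E2)).subtype
      exact hK
    have h3 := hK'.fintype_card_le_finrank
    rwa [Fintype.card_fin] at h3
  have hrank : Module.rank kk (fibN hred hC p q) ≤
      ((Module.finrank K (riemannRochSpace (p • E1 + q • E2)) : ℕ) : Cardinal) := by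
    apply rank_le
    intro s hs
    have h4 := key s.card (fun i => (s.equivFin.symm i : fibN hred hC p q))
      (hs.comp _ s.equivFin.symm.injective)
    exact h4
  have hfin : Module.Finite kk (fibN hred hC p q) :=
    Module.rank_lt_aleph0_iff.mp (lt_of_le_of_lt hrank Cardinal.natCast_lt_aleph0)
  exact ⟨hfin, Module.finrank_le_of_rank_le hrank⟩

/-- **Finiteness for all indices**: with the Cech decomposition available for `c0 ≤ p + q`, every
`fibN p q` is finite-dimensional (it sits inside `fibN (p + c0) q`). -/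
theorem fibN_finite [Nonempty ι]
    (hred : RedDataW val (fun _ => (1 : Γ₀)) vK kk red red)
    (hC : ChartData val vK B0 B1 B01 j)
    (hcst : ∀ c : K, vK c ≤ 1 → ∃ κ : kk, red (algebraMap K F c) = algebraMap kk Fk κ)
    (E1 E2 : Divisor K F)
    (hL : ∀ p q : ℕ, ∀ x : F, j ^ q * x ∈ B0 → j⁻¹ ^ p * x ∈ B1 →
      x ∈ riemannRochSpace (p • E1 + q • E2))
    (hker : ∀ f ∈ B01, red f = 0 → ∃ (n : ℕ) (c : Fin n → K) (z : Fin n → F),
      (∀ k, vK (c k) < 1) ∧ (∀ k, z k ∈ B01) ∧ f = ∑ k, c k • z k)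
    (c0 : ℕ)
    (hfg : ∀ p q : ℕ, c0 ≤ p + q → ∀ z ∈ B01, ∃ a ∈ B0, ∃ b ∈ B1, z = j⁻¹ ^ q * a + j ^ p * b)
    (hLfin : ∀ p q : ℕ, Module.Finite K (riemannRochSpace (p • E1 + q • E2)))
    (p q : ℕ) : Module.Finite kk (fibN hred hC p q) := by
  have := hLfin (p + c0) q
  have h1 := (finrank_fibN_le hred hC hcst E1 E2 hL hker (p + c0) q
    (hfg (p + c0) q (by omega))).1
  exact Submodule.finiteDimensional_of_le
    (fibN_mono hred hC p (p + c0) q q (Nat.le_add_right _ _) le_rfl)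

/-- **`hRiemk` with the generic constant**: an upper Riemann bound
`dim_K L(p E1 + q E2) ≤ (p + q) d + 1 - γ` on the generic fibre (for `c ≤ (p + q) d`) passes to
`fibN` with the same `d`, `γ` (for `max c (c0 d) ≤ (p + q) d`). -/
theorem finrank_fibN_le_of_riemann [Nonempty ι]
    (hred : RedDataW val (fun _ => (1 : Γ₀)) vK kk red red)
    (hC : ChartData val vK B0 B1 B01 j)
    (hcst : ∀ c : K, vK c ≤ 1 → ∃ κ : kk, red (algebraMap K F c) = algebraMap kk Fk κ)
    (E1 E2 : Divisor K F)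
    (hL : ∀ p q : ℕ, ∀ x : F, j ^ q * x ∈ B0 → j⁻¹ ^ p * x ∈ B1 →
      x ∈ riemannRochSpace (p • E1 + q • E2))
    (hker : ∀ f ∈ B01, red f = 0 → ∃ (n : ℕ) (c : Fin n → K) (z : Fin n → F),
      (∀ k, vK (c k) < 1) ∧ (∀ k, z k ∈ B01) ∧ f = ∑ k, c k • z k)
    (c0 : ℕ)
    (hfg : ∀ p q : ℕ, c0 ≤ p + q → ∀ z ∈ B01, ∃ a ∈ B0, ∃ b ∈ B1, z = j⁻¹ ^ q * a + j ^ p * b)
    (hLfin : ∀ p q : ℕ, Module.Finite K (riemannRochSpace (p • E1 + q • E2)))
    (d γ c : ℤ) (hd : 0 < d)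
    (hRiem0 : ∀ p q : ℕ, c ≤ ((p : ℤ) + q) * d →
      (Module.finrank K (riemannRochSpace (p • E1 + q • E2)) : ℤ) ≤ ((p : ℤ) + q) * d + 1 - γ)
    (p q : ℕ) (hpq : max c ((c0 : ℤ) * d) ≤ ((p : ℤ) + q) * d) :
    (Module.finrank kk (fibN hred hC p q) : ℤ) ≤ ((p : ℤ) + q) * d + 1 - γ := by
  have hc : c ≤ ((p : ℤ) + q) * d := le_trans (le_max_left _ _) hpq
  have hc0 : (c0 : ℤ) * d ≤ ((p : ℤ) + q) * d := le_trans (le_max_right _ _) hpq
  have hc0' : c0 ≤ p + q := by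
    have h1 : (c0 : ℤ) ≤ (p : ℤ) + q := le_of_mul_le_mul_right hc0 hd
    exact_mod_cast h1
  have := hLfin p q
  have h1 := (finrank_fibN_le hred hC hcst E1 E2 hL hker p q (hfg p q hc0')).2
  have h2 : (Module.finrank kk (fibN hred hC p q) : ℤ) ≤
      (Module.finrank K (riemannRochSpace (p • E1 + q • E2)) : ℤ) := by exact_mod_cast h1
  exact le_trans h2 (hRiem0 p q hc)

/-- Root closure of `fibN` on the reductions of the unit ball, from root closure of the reduced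
chart rings on the reductions of the unit ball (the form consumed by the `_on` variants of the
count core, with `S` = the set of reductions of the unit ball). -/
theorem fibN_root_on [Nonempty ι] (hred : RedDataW val (fun _ => (1 : Γ₀)) vK kk red red)
    (hC : ChartData val vK B0 B1 B01 j) (m : ℕ)
    (hroot0 : ∀ x : F, (∀ i, val i x ≤ 1) → (∃ a ∈ B0, red x ^ m = red a) → ∃ a ∈ B0, red x = red a)
    (hroot1 : ∀ x : F, (∀ i, val i x ≤ 1) → (∃ b ∈ B1, red x ^ m = red b) → ∃ b ∈ B1, red x = red b)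
    (p q : ℕ) (y : Fk) (hyS : y ∈ {y : Fk | ∃ x : F, (∀ i, val i x ≤ 1) ∧ red x = y})
    (hy : y ^ m ∈ fibN hred hC (m * p) (m * q)) : y ∈ fibN hred hC p q := by
  obtain ⟨x, hxb, rfl⟩ := hyS
  obtain ⟨⟨a, ha, h1⟩, ⟨b, hb, h2⟩⟩ := hy
  have hb0 : ∀ i, val i (j ^ q * x) ≤ 1 := fun i => by
    rw [map_mul, map_pow, hC.val_j i, one_pow, one_mul]; exact hxb i
  have hb1 : ∀ i, val i (j⁻¹ ^ p * x) ≤ 1 := fun i => by
    rw [map_mul, map_pow, hC.val_jinv i, one_pow, one_mul]; exact hxb i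
  have e0 : red (j ^ q * x) = red j ^ q * red x := by
    rw [hred.map_mul _ _ (hC.ball_pow_j q) hxb, red_pow_of_ball hred hC.ball_j q]
  have e1 : red (j⁻¹ ^ p * x) = red j⁻¹ ^ p * red x := by
    rw [hred.map_mul _ _ (hC.ball_pow_jinv p) hxb, red_pow_of_ball hred hC.ball_jinv p]
  obtain ⟨a', ha', h1'⟩ := hroot0 (j ^ q * x) hb0 ⟨a, ha, by
    rw [e0, ← h1, mul_pow, ← pow_mul, mul_comm q m]⟩
  obtain ⟨b', hb', h2'⟩ := hroot1 (j⁻¹ ^ p * x) hb1 ⟨b, hb, by
    rw [e1, ← h2, mul_pow, ← pow_mul, mul_comm p m]⟩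
  exact ⟨⟨a', ha', by rw [← e0, h1']⟩, ⟨b', hb', by rw [← e1, h2']⟩⟩

/-- **Seeds from chart data** (the conclusion of
`helper1788.exists_seeds_of_root_closed_on`, with the special-fibre family `fibN` and ALL its
hypotheses discharged from chart data): the inputs are

* on the generic fibre: `hcart`, the lower Riemann bound `hRiemF` for the twisted spaces and the
  upper Riemann bound `hRiem0` for the untwisted ones, with the same `d`, `γ`;
* the chart dictionary `hB` / `hL` (`ball ∩ L(p E1 + q E2) = j⁻^q B0 ∩ j^p B1`);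
* the Cech decomposition `hfg` (`B01 = j⁻^q B0 + j^p B1` for `c0 ≤ p + q`) and the kernel of the
  reduction `hker` (`= 𝔪 B01`);
* root closure of the reduced chart rings on reductions of the unit ball (`hroot0`, `hroot1`). -/
theorem exists_seeds_of_charts [Finite ι] [Nonempty ι]
    (D0 E1 E2 : Divisor K F) (hE1 : ∀ v : Place K F, 0 ≤ E1 v) (hE2 : ∀ v : Place K F, 0 ≤ E2 v)
    (m : ℕ) (a b : F) (ha : a ≠ 0) (hb : b ≠ 0)
    (hord : ∀ v : Place K F, (m : ℤ) * D0 v = v.ord a - v.ord b)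
    (val : ι → Valuation F Γ₀) (vK : Valuation K Γ₀)
    (hu1 : ∀ i, val i (a * b⁻¹ - 1) < 1)
    (hred : RedDataW val (fun _ => (1 : Γ₀)) vK kk red red)
    (hcart : ∀ p q : ℕ,
      CartesianW val (fun _ => (1 : Γ₀)) vK (riemannRochSpace (D0 + p • E1 + q • E2)))
    (d γ c : ℤ) (hd : 0 < d)
    (hRiemF : ∀ p q : ℕ, c ≤ ((p : ℤ) + q) * d → ((p : ℤ) + q) * d + 1 - γ ≤
      (Module.finrank K (riemannRochSpace (D0 + p • E1 + q • E2)) : ℤ))
    (B0 B1 B01 : Subring F) (j : F) (hC : ChartData val vK B0 B1 B01 j)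
    (hcst : ∀ c : K, vK c ≤ 1 → ∃ κ : kk, red (algebraMap K F c) = algebraMap kk Fk κ)
    (hB : ∀ p q : ℕ, ∀ x ∈ riemannRochSpace (p • E1 + q • E2), (∀ i, val i x ≤ 1) →
      j ^ q * x ∈ B0 ∧ j⁻¹ ^ p * x ∈ B1)
    (hL : ∀ p q : ℕ, ∀ x : F, j ^ q * x ∈ B0 → j⁻¹ ^ p * x ∈ B1 →
      x ∈ riemannRochSpace (p • E1 + q • E2))
    (hker : ∀ f ∈ B01, red f = 0 → ∃ (n : ℕ) (c : Fin n → K) (z : Fin n → F),
      (∀ k, vK (c k) < 1) ∧ (∀ k, z k ∈ B01) ∧ f = ∑ k, c k • z k)
    (c0 : ℕ)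
    (hfg : ∀ p q : ℕ, c0 ≤ p + q → ∀ z ∈ B01, ∃ a ∈ B0, ∃ b ∈ B1, z = j⁻¹ ^ q * a + j ^ p * b)
    (hLfin : ∀ p q : ℕ, Module.Finite K (riemannRochSpace (p • E1 + q • E2)))
    (hRiem0 : ∀ p q : ℕ, c ≤ ((p : ℤ) + q) * d →
      (Module.finrank K (riemannRochSpace (p • E1 + q • E2)) : ℤ) ≤ ((p : ℤ) + q) * d + 1 - γ)
    (hroot0 : ∀ x : F, (∀ i, val i x ≤ 1) → (∃ a ∈ B0, red x ^ m = red a) → ∃ a ∈ B0, red x = red a)
    (hroot1 : ∀ x : F, (∀ i, val i x ≤ 1) → (∃ b ∈ B1, red x ^ m = red b) → ∃ b ∈ B1, red x = red b) :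
    ∃ k₀ : ℕ, ∀ k : ℕ, k₀ ≤ k →
      ∃ a₀ ∈ riemannRochSpace (D0 + k • E1), ∃ b₀ ∈ riemannRochSpace (D0 + k • E2),
        (∀ i, val i (a₀ - 1) < 1) ∧ (∀ i, val i (b₀ - 1) < 1) ∧ ∀ i, val i (a₀ - b₀) < 1 :=
  Fermat.Agent.S35.helper1788.exists_seeds_of_root_closed_on D0 E1 E2 hE1 hE2 m a b ha hb hord
    val vK hu1 hred hcart d γ (max c ((c0 : ℤ) * d)) hd
    (fun p q hpq => hRiemF p q (le_trans (le_max_left _ _) hpq))
    (fibN hred hC)
    (fibN_finite hred hC hcst E1 E2 hL hker c0 hfg hLfin)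
    (red_mem_fibN hred hC E1 E2 hB)
    (finrank_fibN_le_of_riemann hred hC hcst E1 E2 hL hker c0 hfg hLfin d γ c hd hRiem0)
    {y : Fk | ∃ x : F, (∀ i, val i x ≤ 1) ∧ red x = y} (fun x hx => ⟨x, hx, rfl⟩)
    (fibN_root_on hred hC m hroot0 hroot1)

end Count

end Fermat.Agent.S33.helper2582
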