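/-
S33-FIBCOUNT, place layer (helper2582): the chart data of `helper2582_FibCount` for the three
charts of a coordinate function `j` on a function field with Prelude places.

Setting: `K ⊆ F` with Prelude places, `[HasPrincipalDivisors K F]`, all places of degree one,
Riemann's inequality (`S18.helper981.HasRiemannBound`); a finite family of valuations `val i` of
`F` with common restriction `vK` to `K` and reduction `red` (`RedDataW`, weights `1`);
`j : F` with `val i j = 1`; `O := ballRing val` the common unit ball, and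

  `B0 := chartRing (OnFin j) O`, `B1 := chartRing (OnInf j) O`, `B01 := chartRing (OnMid j) O`

(`S19.helper5454`: the elements of the ball regular where `j` is finite / where `j⁻¹` is finite /
where `j` is a unit).  `E1`, `E2` = polar and zero divisor of `j`.

Everything in `exists_seeds_of_charts` is discharged here except
* `(FG)`  : `B01 = j⁻^q B0 + j^p B1` for `p + q ≥ c0` (`hfg_of_span`: it follows from
            `B01 = B0 + B1 + ∑ (ball of K) ζ_k` for finitely many `ζ_k`);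
* `(ROOT)`: `red B0`, `red B1` are `m`-th-root closed inside `red O`;
* `hcart`, `hVG`, `hcst` (properties of the valuation family, known at the Gauss pair).
-/
import Mathlib
import Fermat.Agent.S33.helper2582_FibCount
import Fermat.Agent.S19.helper5454_ChartDiv
import Fermat.Agent.S18.helper981_Riemann

set_option autoImplicit false

open AlgebraicCurve

namespace Fermat.Agent.S33.helper2582

open Fermat.Agent.S35.helper2459 Fermat.Agent.S19.helper5454 Fermat.Agent.S18.helper981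

section Ball

variable {F : Type*} [Field F] {Γ₀ : Type*} [LinearOrderedCommGroupWithZero Γ₀] {ι : Type*}

/-- The common unit ball of a family of valuations, as a subring. -/
def ballRing (val : ι → Valuation F Γ₀) : Subring F where
  carrier := {x | ∀ i, val i x ≤ 1}
  zero_mem' := fun i => by simp
  one_mem' := fun i => by simp
  add_mem' := fun {a b} ha hb i => le_trans ((val i).map_add a b) (max_le (ha i) (hb i))
  neg_mem' := fun {a} ha i => by rw [Valuation.map_neg]; exact ha i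
  mul_mem' := fun {a b} ha hb i => by rw [map_mul]; exact mul_le_one' (ha i) (hb i)

theorem mem_ballRing {val : ι → Valuation F Γ₀} {x : F} :
    x ∈ ballRing val ↔ ∀ i, val i x ≤ 1 := Iff.rfl

end Ball

section PlaceLayer

variable {K F : Type*} [Field K] [Field F] [Algebra K F]
variable {Γ₀ : Type*} [LinearOrderedCommGroupWithZero Γ₀] {ι : Type*}
  {kk : Type*} [Field kk] {Fk : Type*} [CommRing Fk] [Algebra kk Fk] {red : F → Fk}
  {val : ι → Valuation F Γ₀} {vK : Valuation K Γ₀}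

/-- The chart data of the three charts of `j`. -/
theorem chartData_of_places (hred : RedDataW val (fun _ => (1 : Γ₀)) vK kk red red)
    (j : F) (hvj : ∀ i, val i j = 1) :
    ChartData val vK (chartRing (OnFin (K := K) j) (ballRing val))
      (chartRing (OnInf (K := K) j) (ballRing val))
      (chartRing (OnMid (K := K) j) (ballRing val)) j where
  le0 := chartRing_fin_le_mid
  le1 := chartRing_inf_le_mid
  ball := fun _ ha i => ha.1 i
  const0 := fun c hc => algebraMap_mem_chartRing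
    (fun i => by rw [hred.val_algebraMap]; exact hc)
  const1 := fun c hc => algebraMap_mem_chartRing
    (fun i => by rw [hred.val_algebraMap]; exact hc)
  j_mem := self_mem_chartRing_fin (fun i => (hvj i).le)
  jinv_mem := inv_mem_chartRing_inf (fun i => by rw [map_inv₀, hvj i, inv_one])
  val_j := hvj

theorem ord_pow_mul (v : Place K F) {j x : F} (hj : j ≠ 0) (hx : x ≠ 0) (n : ℕ) :
    v.ord (j ^ n * x) = (n : ℤ) * v.ord j + v.ord x := by
  rw [v.ord_mul (pow_ne_zero n hj) hx, ← zpow_natCast, v.ord_zpow]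

theorem ord_inv_pow_mul (v : Place K F) {j x : F} (hj : j ≠ 0) (hx : x ≠ 0) (n : ℕ) :
    v.ord (j⁻¹ ^ n * x) = -((n : ℤ) * v.ord j) + v.ord x := by
  rw [ord_pow_mul v (inv_ne_zero hj) hx, v.ord_inv]
  ring

theorem nsmul_add_nsmul_apply (E1 E2 : Divisor K F) (p q : ℕ) (v : Place K F) :
    (p • E1 + q • E2) v = (p : ℤ) * E1 v + (q : ℤ) * E2 v := by
  rw [Finsupp.add_apply, Finsupp.smul_apply, Finsupp.smul_apply, nsmul_eq_mul, nsmul_eq_mul]

/-- `hB`: the unit ball of `L(p E1 + q E2)` lies in `j⁻^q B0 ∩ j^p B1`. -/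
theorem hB_of_places (val : ι → Valuation F Γ₀) (j : F) (hj : j ≠ 0) (hvj : ∀ i, val i j = 1)
    (E1 E2 : Divisor K F)
    (hE1 : ∀ v : Place K F, E1 v = max 0 (-(v.ord j)))
    (hE2 : ∀ v : Place K F, E2 v = max 0 (v.ord j))
    (p q : ℕ) (x : F) (hx : x ∈ riemannRochSpace (p • E1 + q • E2)) (hxb : ∀ i, val i x ≤ 1) :
    j ^ q * x ∈ chartRing (OnFin (K := K) j) (ballRing val) ∧
      j⁻¹ ^ p * x ∈ chartRing (OnInf (K := K) j) (ballRing val) := by
  rcases eq_or_ne x 0 with rfl | hx0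
  · rw [mul_zero, mul_zero]
    exact ⟨Subring.zero_mem _, Subring.zero_mem _⟩
  have hL : ∀ v : Place K F, -((p : ℤ) * E1 v + (q : ℤ) * E2 v) ≤ v.ord x := fun v => by
    have h := (mem_riemannRochSpace_iff.mp hx v).resolve_left hx0
    rwa [nsmul_add_nsmul_apply] at h
  constructor
  · refine mem_chartRing_iff_ord.mpr ⟨fun i => ?_, fun v hv => Or.inr ?_⟩
    · rw [map_mul, map_pow, hvj i, one_pow, one_mul]; exact hxb i
    · have ho : 0 ≤ v.ord j := (onFin_iff_ord hj v).mp hv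
      have h := hL v
      rw [hE1 v, hE2 v, max_eq_left (by omega : -(v.ord j) ≤ 0), max_eq_right ho, mul_zero,
        zero_add] at h
      rw [ord_pow_mul v hj hx0]
      linarith
  · refine mem_chartRing_iff_ord.mpr ⟨fun i => ?_, fun v hv => Or.inr ?_⟩
    · rw [map_mul, map_pow, map_inv₀, hvj i, inv_one, one_pow, one_mul]; exact hxb i
    · have ho : v.ord j ≤ 0 := (onInf_iff_ord hj v).mp hv
      have h := hL v
      rw [hE1 v, hE2 v, max_eq_right (by omega : 0 ≤ -(v.ord j)), max_eq_left ho, mul_zero,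
        add_zero] at h
      rw [ord_inv_pow_mul v hj hx0]
      linarith

/-- `hL`: `j⁻^q B0 ∩ j^p B1 ⊆ L(p E1 + q E2)`. -/
theorem hL_of_places (val : ι → Valuation F Γ₀) (j : F) (hj : j ≠ 0)
    (E1 E2 : Divisor K F)
    (hE1 : ∀ v : Place K F, E1 v = max 0 (-(v.ord j)))
    (hE2 : ∀ v : Place K F, E2 v = max 0 (v.ord j))
    (p q : ℕ) (x : F) (h0 : j ^ q * x ∈ chartRing (OnFin (K := K) j) (ballRing val))
    (h1 : j⁻¹ ^ p * x ∈ chartRing (OnInf (K := K) j) (ballRing val)) :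
    x ∈ riemannRochSpace (p • E1 + q • E2) := by
  rcases eq_or_ne x 0 with rfl | hx0
  · exact Submodule.zero_mem _
  refine mem_riemannRochSpace_iff.mpr fun v => Or.inr ?_
  rw [nsmul_add_nsmul_apply, hE1 v, hE2 v]
  have hp : (0 : ℤ) ≤ p := Int.natCast_nonneg p
  have hq : (0 : ℤ) ≤ q := Int.natCast_nonneg q
  rcases le_total 0 (v.ord j) with ho | ho
  · have h := ((mem_chartRing_iff_ord.mp h0).2 v ((onFin_iff_ord hj v).mpr ho)).resolve_left
      (mul_ne_zero (pow_ne_zero q hj) hx0)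
    rw [ord_pow_mul v hj hx0] at h
    rw [max_eq_left (by omega : -(v.ord j) ≤ 0), max_eq_right ho, mul_zero, zero_add]
    linarith
  · have h := ((mem_chartRing_iff_ord.mp h1).2 v ((onInf_iff_ord hj v).mpr ho)).resolve_left
      (mul_ne_zero (pow_ne_zero p (inv_ne_zero hj)) hx0)
    rw [ord_inv_pow_mul v hj hx0] at h
    rw [max_eq_right (by omega : 0 ≤ -(v.ord j)), max_eq_left ho, mul_zero, add_zero]
    linarith

/-- `hker`: an element of a chart ring of the ball with reduction `0` is a small constant times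
an element of the chart ring (the value groups of `val i` and `vK` agree). -/
theorem hker_of_places [Finite ι] [Nonempty ι]
    (hred : RedDataW val (fun _ => (1 : Γ₀)) vK kk red red)
    (hVG : ∀ (i : ι) (f : F), f ≠ 0 → ∃ c : K, vK c = val i f)
    (c : Place K F → Prop) (f : F) (hf : f ∈ chartRing c (ballRing val)) (h0 : red f = 0) :
    ∃ (n : ℕ) (cc : Fin n → K) (z : Fin n → F),
      (∀ k, vK (cc k) < 1) ∧ (∀ k, z k ∈ chartRing c (ballRing val)) ∧ f = ∑ k, cc k • z k := by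
  classical
  rcases eq_or_ne f 0 with rfl | hf0
  · exact ⟨0, Fin.elim0, Fin.elim0, fun k => k.elim0, fun k => k.elim0, by simp⟩
  have hlt : ∀ i, val i f < 1 := (hred.eq_zero_iff f hf.1).mp h0
  cases nonempty_fintype ι
  obtain ⟨i0, -, hmax⟩ := Finset.exists_max_image Finset.univ (fun i => val i f)
    ⟨Classical.arbitrary ι, Finset.mem_univ _⟩
  obtain ⟨c0, hc0⟩ := hVG i0 f hf0
  have hv0 : vK c0 ≠ 0 := by
    rw [hc0]; exact (Valuation.ne_zero_iff _).mpr hf0
  have hc00 : c0 ≠ 0 := (Valuation.ne_zero_iff _).mp hv0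
  refine ⟨1, fun _ => c0, fun _ => c0⁻¹ • f, fun _ => ?_, fun _ => ⟨fun i => ?_, fun v hv => ?_⟩, ?_⟩
  · rw [hc0]; exact hlt i0
  · rw [hred.val_smul, map_inv₀, inv_mul_le_one₀ (zero_lt_iff.mpr hv0), hc0]
    exact hmax i (Finset.mem_univ _)
  · rw [Algebra.smul_def, map_mul]
    exact mul_le_one' (v.adicValuation_algebraMap_le_one _) (hf.2 v hv)
  · rw [Fin.sum_univ_one, smul_smul, mul_inv_cancel₀ hc00, one_smul]

/-- `(FG)` from a finite spanning family: if `B01 = B0 + B1 + ∑ (ball of K) ζ_k`, then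
`B01 = j⁻^q B0 + j^p B1` as soon as `p + q` is large. -/
theorem hfg_of_span [HasPrincipalDivisors K F]
    (hred : RedDataW val (fun _ => (1 : Γ₀)) vK kk red red)
    (j : F) (hj : j ≠ 0) (hvj : ∀ i, val i j = 1)
    (n : ℕ) (ζ : Fin n → F) (hζ : ∀ k, ζ k ∈ chartRing (OnMid (K := K) j) (ballRing val))
    (hspan : ∀ z ∈ chartRing (OnMid (K := K) j) (ballRing val),
      ∃ a ∈ chartRing (OnFin (K := K) j) (ballRing val),
      ∃ b ∈ chartRing (OnInf (K := K) j) (ballRing val),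
      ∃ c : Fin n → K, (∀ k, vK (c k) ≤ 1) ∧ z = a + b + ∑ k, c k • ζ k) :
    ∃ c0 : ℕ, ∀ p q : ℕ, c0 ≤ p + q → ∀ z ∈ chartRing (OnMid (K := K) j) (ballRing val),
      ∃ a ∈ chartRing (OnFin (K := K) j) (ballRing val),
      ∃ b ∈ chartRing (OnInf (K := K) j) (ballRing val), z = j⁻¹ ^ q * a + j ^ p * b := by
  classical
  have hC := chartData_of_places (K := K) hred j hvj
  have hjO : j ∈ ballRing val := fun i => (hvj i).le
  have hjinvO : j⁻¹ ∈ ballRing val := fun i => by rw [map_inv₀, hvj i, inv_one]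
  have hfin : ∀ k, ∃ N : ℕ, ∀ m : ℕ, N ≤ m →
      j ^ m * ζ k ∈ chartRing (OnFin (K := K) j) (ballRing val) := fun k => by
    obtain ⟨N, hN⟩ := exists_pow_mul_mem_chartMod_fin (K := K) hj hjO
      (mem_chartRing_iff_mem_chartMod_zero.mp (hζ k))
    exact ⟨N, fun m hm => mem_chartRing_iff_mem_chartMod_zero.mpr (hN m hm)⟩
  have hinf : ∀ k, ∃ N : ℕ, ∀ m : ℕ, N ≤ m →
      j⁻¹ ^ m * ζ k ∈ chartRing (OnInf (K := K) j) (ballRing val) := fun k => by
    obtain ⟨N, hN⟩ := exists_pow_mul_mem_chartMod_inf (K := K) hj hjinvO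
      (mem_chartRing_iff_mem_chartMod_zero.mp (hζ k))
    exact ⟨N, fun m hm => mem_chartRing_iff_mem_chartMod_zero.mpr (hN m hm)⟩
  choose Q hQ using hfin
  choose P hP using hinf
  have hjq : ∀ n : ℕ, j⁻¹ ^ n * j ^ n = 1 := fun n => by
    rw [← mul_pow, inv_mul_cancel₀ hj, one_pow]
  have hjp : ∀ n : ℕ, j ^ n * j⁻¹ ^ n = 1 := fun n => by
    rw [← mul_pow, mul_inv_cancel₀ hj, one_pow]
  refine ⟨Finset.univ.sup Q + Finset.univ.sup P, fun p q hpq z hz => ?_⟩
  obtain ⟨a, ha, b, hb, c, hc, rfl⟩ := hspan z hz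
  have ha' : j ^ q * a ∈ chartRing (OnFin (K := K) j) (ballRing val) :=
    Subring.mul_mem _ (Subring.pow_mem _ hC.j_mem q) ha
  have hb' : j⁻¹ ^ p * b ∈ chartRing (OnInf (K := K) j) (ballRing val) :=
    Subring.mul_mem _ (Subring.pow_mem _ hC.jinv_mem p) hb
  by_cases hq : Finset.univ.sup Q ≤ q
  · refine ⟨j ^ q * a + ∑ k, c k • (j ^ q * ζ k),
      Subring.add_mem _ ha' (Subring.sum_mem _ fun k _ =>
        hC.smul_mem0 (hc k) (hQ k q ((Finset.le_sup (Finset.mem_univ k)).trans hq))),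
      j⁻¹ ^ p * b, hb', ?_⟩
    have h1 : j⁻¹ ^ q * ∑ k, c k • (j ^ q * ζ k) = ∑ k, c k • ζ k := by
      rw [Finset.mul_sum]
      refine Finset.sum_congr rfl fun k _ => ?_
      rw [mul_smul_comm, ← mul_assoc, hjq q, one_mul]
    rw [mul_add, h1, ← mul_assoc, hjq q, one_mul, ← mul_assoc, hjp p, one_mul]
    ring
  · have hp : Finset.univ.sup P ≤ p := by omega
    refine ⟨j ^ q * a, ha', j⁻¹ ^ p * b + ∑ k, c k • (j⁻¹ ^ p * ζ k),
      Subring.add_mem _ hb' (Subring.sum_mem _ fun k _ =>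
        hC.smul_mem1 (hc k) (hP k p ((Finset.le_sup (Finset.mem_univ k)).trans hp))), ?_⟩
    have h1 : j ^ p * ∑ k, c k • (j⁻¹ ^ p * ζ k) = ∑ k, c k • ζ k := by
      rw [Finset.mul_sum]
      refine Finset.sum_congr rfl fun k _ => ?_
      rw [mul_smul_comm, ← mul_assoc, hjp p, one_mul]
    rw [mul_add, h1, ← mul_assoc, hjq q, one_mul, ← mul_assoc, hjp p, one_mul]
    ring

/-- The zero divisor and the polar divisor of `j` have the same degree. -/
theorem degree_zeroDiv_eq [HasPrincipalDivisors K F] (j : F) (hj : j ≠ 0) (E1 E2 : Divisor K F)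
    (hE1 : ∀ v : Place K F, E1 v = max 0 (-(v.ord j)))
    (hE2 : ∀ v : Place K F, E2 v = max 0 (v.ord j)) :
    Divisor.degree E2 = Divisor.degree E1 := by
  obtain ⟨Z, hZ, hZ0⟩ := HasPrincipalDivisors.exists_divisor (K := K) j hj
  have h : E2 = E1 + Z := Finsupp.ext fun v => by
    rw [Finsupp.add_apply, hE1 v, hE2 v, hZ v]
    omega
  rw [h, map_add, hZ0, add_zero]

/-- A divisor `D` with `n D = div u`, `n ≠ 0`, has degree `0`. -/
theorem degree_eq_zero_of_mul_eq_ord [HasPrincipalDivisors K F] (n : ℕ) (hn : n ≠ 0) (u : F)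
    (hu : u ≠ 0) (D : Divisor K F) (hD : ∀ v : Place K F, (n : ℤ) * D v = v.ord u) :
    Divisor.degree D = 0 := by
  obtain ⟨Z, hZ, hZ0⟩ := HasPrincipalDivisors.exists_divisor (K := K) u hu
  have h : (n : ℤ) • D = Z := Finsupp.ext fun v => by
    rw [Finsupp.smul_apply, smul_eq_mul, hD v, hZ v]
  have h1 : (n : ℤ) * Divisor.degree D = 0 := by
    rw [← smul_eq_mul, ← map_zsmul, h, hZ0]
  rcases mul_eq_zero.mp h1 with h2 | h2
  · exact absurd (by exact_mod_cast h2) hn
  · exact h2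

/-- **Seeds from the three charts of `j`** (Riemann-Roch form): everything in
`exists_seeds_of_charts` discharged from places and Riemann's theorem on the generic fibre,
except `(FG)` and `(ROOT)`. -/
theorem exists_seeds_of_places [HasPrincipalDivisors K F] [Finite ι] [Nonempty ι]
    (hdeg : ∀ v : Place K F, v.deg = 1) (P₀ : Place K F) (hRB : HasRiemannBound K F)
    (D0 : Divisor K F) (hD0 : Divisor.degree D0 = 0)
    (m : ℕ) (a b : F) (ha : a ≠ 0) (hb : b ≠ 0)
    (hord : ∀ v : Place K F, (m : ℤ) * D0 v = v.ord a - v.ord b)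
    (val : ι → Valuation F Γ₀) (vK : Valuation K Γ₀)
    (hu1 : ∀ i, val i (a * b⁻¹ - 1) < 1)
    (hred : RedDataW val (fun _ => (1 : Γ₀)) vK kk red red)
    (hcart : ∀ S : Submodule K F, Module.Finite K S →
      CartesianW val (fun _ => (1 : Γ₀)) vK S)
    (hVG : ∀ (i : ι) (f : F), f ≠ 0 → ∃ c : K, vK c = val i f)
    (hcst : ∀ c : K, vK c ≤ 1 → ∃ κ : kk, red (algebraMap K F c) = algebraMap kk Fk κ)
    (j : F) (hvj : ∀ i, val i j = 1)
    (E1 E2 : Divisor K F)
    (hE1 : ∀ v : Place K F, E1 v = max 0 (-(v.ord j)))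
    (hE2 : ∀ v : Place K F, E2 v = max 0 (v.ord j))
    (hd : 0 < Divisor.degree E1)
    (c0 : ℕ)
    (hfg : ∀ p q : ℕ, c0 ≤ p + q → ∀ z ∈ chartRing (OnMid (K := K) j) (ballRing val),
      ∃ a ∈ chartRing (OnFin (K := K) j) (ballRing val),
      ∃ b ∈ chartRing (OnInf (K := K) j) (ballRing val), z = j⁻¹ ^ q * a + j ^ p * b)
    (hroot0 : ∀ x : F, (∀ i, val i x ≤ 1) →
      (∃ a ∈ chartRing (OnFin (K := K) j) (ballRing val), red x ^ m = red a) →
      ∃ a ∈ chartRing (OnFin (K := K) j) (ballRing val), red x = red a)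
    (hroot1 : ∀ x : F, (∀ i, val i x ≤ 1) →
      (∃ b ∈ chartRing (OnInf (K := K) j) (ballRing val), red x ^ m = red b) →
      ∃ b ∈ chartRing (OnInf (K := K) j) (ballRing val), red x = red b) :
    ∃ k₀ : ℕ, ∀ k : ℕ, k₀ ≤ k →
      ∃ a₀ ∈ riemannRochSpace (D0 + k • E1), ∃ b₀ ∈ riemannRochSpace (D0 + k • E2),
        (∀ i, val i (a₀ - 1) < 1) ∧ (∀ i, val i (b₀ - 1) < 1) ∧ ∀ i, val i (a₀ - b₀) < 1 := by
  have hC := chartData_of_places (K := K) hred j hvj
  have hj : j ≠ 0 := hC.j_ne_zero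
  have hE1nn : ∀ v : Place K F, 0 ≤ E1 v := fun v => by rw [hE1 v]; exact le_max_left _ _
  have hE2nn : ∀ v : Place K F, 0 ≤ E2 v := fun v => by rw [hE2 v]; exact le_max_left _ _
  have hdE := degree_zeroDiv_eq j hj E1 E2 hE1 hE2
  obtain ⟨c, hc⟩ := exists_forall_finrank_eq hdeg P₀ hRB
  have hdeg0 : ∀ p q : ℕ, Divisor.degree (p • E1 + q • E2) =
      ((p : ℤ) + q) * Divisor.degree E1 := fun p q => by
    rw [map_add, map_nsmul, map_nsmul, nsmul_eq_mul, nsmul_eq_mul, hdE]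
    ring
  have hdegD : ∀ p q : ℕ, Divisor.degree (D0 + p • E1 + q • E2) =
      ((p : ℤ) + q) * Divisor.degree E1 := fun p q => by
    rw [add_assoc, map_add, hD0, zero_add, hdeg0]
  exact exists_seeds_of_charts D0 E1 E2 hE1nn hE2nn m a b ha hb hord val vK hu1 hred
    (fun p q => hcart _ (finite_riemannRochSpace hdeg P₀ _))
    (Divisor.degree E1) (riemannGenus K F : ℤ) c hd
    (fun p q _ => by
      have h := riemannGenus_mem hRB (D0 + p • E1 + q • E2)
      rw [hdegD] at h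
      exact h)
    _ _ _ j hC hcst (hB_of_places val j hj hvj E1 E2 hE1 hE2)
    (hL_of_places val j hj E1 E2 hE1 hE2)
    (fun f hf h0 => hker_of_places hred hVG _ f hf h0) c0 hfg
    (fun p q => finite_riemannRochSpace hdeg P₀ _)
    (fun p q hpq => by
      have h := hc (p • E1 + q • E2) (by rw [hdeg0]; exact hpq)
      rw [hdeg0] at h
      exact h.le)
    hroot0 hroot1

/-- A section of `L(D0 + k E1)` which is `≡ 1` lies in the chart lattice `L_0(D0)` of the ball. -/
theorem mem_chartMod_fin_of_seed (val : ι → Valuation F Γ₀) (j : F) (hj : j ≠ 0)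
    (D0 E1 : Divisor K F) (hE1 : ∀ v : Place K F, E1 v = max 0 (-(v.ord j))) (k : ℕ) (a₀ : F)
    (ha₀ : a₀ ∈ riemannRochSpace (D0 + k • E1)) (h1 : ∀ i, val i (a₀ - 1) < 1) :
    a₀ ∈ chartMod (OnFin (K := K) j) (ballRing val) D0 := by
  refine ⟨fun i => ?_, fun v hv => ?_⟩
  · have h := (val i).map_add (a₀ - 1) 1
    rw [sub_add_cancel, map_one] at h
    exact h.trans (max_le (h1 i).le le_rfl)
  · have ho : 0 ≤ v.ord j := (onFin_iff_ord hj v).mp hv
    have h := ha₀ v
    rwa [Finsupp.add_apply, Finsupp.smul_apply, hE1 v, max_eq_left (by omega : -(v.ord j) ≤ 0),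
      smul_zero, add_zero] at h

/-- A section of `L(D0 + k E2)` which is `≡ 1` lies in the chart lattice `L_1(D0)` of the ball. -/
theorem mem_chartMod_inf_of_seed (val : ι → Valuation F Γ₀) (j : F) (hj : j ≠ 0)
    (D0 E2 : Divisor K F) (hE2 : ∀ v : Place K F, E2 v = max 0 (v.ord j)) (k : ℕ) (b₀ : F)
    (hb₀ : b₀ ∈ riemannRochSpace (D0 + k • E2)) (h1 : ∀ i, val i (b₀ - 1) < 1) :
    b₀ ∈ chartMod (OnInf (K := K) j) (ballRing val) D0 := by
  refine ⟨fun i => ?_, fun v hv => ?_⟩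
  · have h := (val i).map_add (b₀ - 1) 1
    rw [sub_add_cancel, map_one] at h
    exact h.trans (max_le (h1 i).le le_rfl)
  · have ho : v.ord j ≤ 0 := (onInf_iff_ord hj v).mp hv
    have h := hb₀ v
    rwa [Finsupp.add_apply, Finsupp.smul_apply, hE2 v, max_eq_left ho, smul_zero, add_zero] at h

/-- **Seeds in chart form**: generators `≡ 1` of the two chart lattices `L_0(D0)`, `L_1(D0)` of a
Kummer divisor `D0` (`m D0 = div (a / b)`, `a / b ≡ 1` at all the valuations). -/
theorem exists_chart_seeds_of_places [HasPrincipalDivisors K F] [Finite ι] [Nonempty ι]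
    (hdeg : ∀ v : Place K F, v.deg = 1) (P₀ : Place K F) (hRB : HasRiemannBound K F)
    (D0 : Divisor K F) (hD0 : Divisor.degree D0 = 0)
    (m : ℕ) (a b : F) (ha : a ≠ 0) (hb : b ≠ 0)
    (hord : ∀ v : Place K F, (m : ℤ) * D0 v = v.ord a - v.ord b)
    (val : ι → Valuation F Γ₀) (vK : Valuation K Γ₀)
    (hu1 : ∀ i, val i (a * b⁻¹ - 1) < 1)
    (hred : RedDataW val (fun _ => (1 : Γ₀)) vK kk red red)
    (hcart : ∀ S : Submodule K F, Module.Finite K S →
      CartesianW val (fun _ => (1 : Γ₀)) vK S)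
    (hVG : ∀ (i : ι) (f : F), f ≠ 0 → ∃ c : K, vK c = val i f)
    (hcst : ∀ c : K, vK c ≤ 1 → ∃ κ : kk, red (algebraMap K F c) = algebraMap kk Fk κ)
    (j : F) (hvj : ∀ i, val i j = 1)
    (E1 : Divisor K F) (hE1 : ∀ v : Place K F, E1 v = max 0 (-(v.ord j)))
    (hd : 0 < Divisor.degree E1)
    (c0 : ℕ)
    (hfg : ∀ p q : ℕ, c0 ≤ p + q → ∀ z ∈ chartRing (OnMid (K := K) j) (ballRing val),
      ∃ a ∈ chartRing (OnFin (K := K) j) (ballRing val),
      ∃ b ∈ chartRing (OnInf (K := K) j) (ballRing val), z = j⁻¹ ^ q * a + j ^ p * b)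
    (hroot0 : ∀ x : F, (∀ i, val i x ≤ 1) →
      (∃ a ∈ chartRing (OnFin (K := K) j) (ballRing val), red x ^ m = red a) →
      ∃ a ∈ chartRing (OnFin (K := K) j) (ballRing val), red x = red a)
    (hroot1 : ∀ x : F, (∀ i, val i x ≤ 1) →
      (∃ b ∈ chartRing (OnInf (K := K) j) (ballRing val), red x ^ m = red b) →
      ∃ b ∈ chartRing (OnInf (K := K) j) (ballRing val), red x = red b) :
    ∃ e0 ∈ chartMod (OnFin (K := K) j) (ballRing val) D0,
      ∃ e1 ∈ chartMod (OnInf (K := K) j) (ballRing val) D0,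
        (∀ i, val i (e0 - 1) < 1) ∧ (∀ i, val i (e1 - 1) < 1) ∧ ∀ i, val i (e0 - e1) < 1 := by
  have hj : j ≠ 0 := (chartData_of_places (K := K) hred j hvj).j_ne_zero
  obtain ⟨Z, hZ, hZ0⟩ := HasPrincipalDivisors.exists_divisor (K := K) j hj
  have hE2 : ∀ v : Place K F, (E1 + Z) v = max 0 (v.ord j) := fun v => by
    rw [Finsupp.add_apply, hE1 v, hZ v]
    omega
  obtain ⟨k₀, hk₀⟩ := exists_seeds_of_places hdeg P₀ hRB D0 hD0 m a b ha hb hord val vK hu1 hred
    hcart hVG hcst j hvj E1 (E1 + Z) hE1 hE2 hd c0 hfg hroot0 hroot1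
  obtain ⟨a₀, ha₀, b₀, hb₀, h1, h2, h3⟩ := hk₀ k₀ le_rfl
  exact ⟨a₀, mem_chartMod_fin_of_seed val j hj D0 E1 hE1 k₀ a₀ ha₀ h1,
    b₀, mem_chartMod_inf_of_seed val j hj D0 (E1 + Z) hE2 k₀ b₀ hb₀ h2, h1, h2, h3⟩

/-- **The four seeds** of a Kummer divisor `D0`: generators `≡ 1` of `L_0(D0)`, `L_0(-D0)`,
`L_1(D0)`, `L_1(-D0)` (the inverse witnesses consumed by
`S19.helper5454.IsWitness.of_sub_one_mem_addSubgroup`). -/
theorem exists_four_seeds_of_places [HasPrincipalDivisors K F] [Finite ι] [Nonempty ι]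
    (hdeg : ∀ v : Place K F, v.deg = 1) (P₀ : Place K F) (hRB : HasRiemannBound K F)
    (D0 : Divisor K F) (hD0 : Divisor.degree D0 = 0)
    (m : ℕ) (a b : F) (ha : a ≠ 0) (hb : b ≠ 0)
    (hord : ∀ v : Place K F, (m : ℤ) * D0 v = v.ord a - v.ord b)
    (val : ι → Valuation F Γ₀) (vK : Valuation K Γ₀)
    (hu1 : ∀ i, val i (a * b⁻¹ - 1) < 1)
    (hred : RedDataW val (fun _ => (1 : Γ₀)) vK kk red red)
    (hcart : ∀ S : Submodule K F, Module.Finite K S →
      CartesianW val (fun _ => (1 : Γ₀)) vK S)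
    (hVG : ∀ (i : ι) (f : F), f ≠ 0 → ∃ c : K, vK c = val i f)
    (hcst : ∀ c : K, vK c ≤ 1 → ∃ κ : kk, red (algebraMap K F c) = algebraMap kk Fk κ)
    (j : F) (hvj : ∀ i, val i j = 1)
    (E1 : Divisor K F) (hE1 : ∀ v : Place K F, E1 v = max 0 (-(v.ord j)))
    (hd : 0 < Divisor.degree E1)
    (c0 : ℕ)
    (hfg : ∀ p q : ℕ, c0 ≤ p + q → ∀ z ∈ chartRing (OnMid (K := K) j) (ballRing val),
      ∃ a ∈ chartRing (OnFin (K := K) j) (ballRing val),
      ∃ b ∈ chartRing (OnInf (K := K) j) (ballRing val), z = j⁻¹ ^ q * a + j ^ p * b)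
    (hroot0 : ∀ x : F, (∀ i, val i x ≤ 1) →
      (∃ a ∈ chartRing (OnFin (K := K) j) (ballRing val), red x ^ m = red a) →
      ∃ a ∈ chartRing (OnFin (K := K) j) (ballRing val), red x = red a)
    (hroot1 : ∀ x : F, (∀ i, val i x ≤ 1) →
      (∃ b ∈ chartRing (OnInf (K := K) j) (ballRing val), red x ^ m = red b) →
      ∃ b ∈ chartRing (OnInf (K := K) j) (ballRing val), red x = red b) :
    ∃ e0 ∈ chartMod (OnFin (K := K) j) (ballRing val) D0,
      ∃ e0' ∈ chartMod (OnFin (K := K) j) (ballRing val) (-D0),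
      ∃ e1 ∈ chartMod (OnInf (K := K) j) (ballRing val) D0,
      ∃ e1' ∈ chartMod (OnInf (K := K) j) (ballRing val) (-D0),
        (∀ i, val i (e0 - 1) < 1) ∧ (∀ i, val i (e0' - 1) < 1) ∧
        (∀ i, val i (e1 - 1) < 1) ∧ (∀ i, val i (e1' - 1) < 1) := by
  obtain ⟨e0, he0, e1, he1, h0, h1, -⟩ := exists_chart_seeds_of_places hdeg P₀ hRB D0 hD0 m a b ha
    hb hord val vK hu1 hred hcart hVG hcst j hvj E1 hE1 hd c0 hfg hroot0 hroot1
  have hvu : ∀ i, val i (a * b⁻¹) = 1 :=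
    (Fermat.Agent.S35.helper1788.red_eq_one_of_val_sub_one_lt hred hu1).1
  have hu1' : ∀ i, val i (b * a⁻¹ - 1) < 1 := fun i => by
    have h2 : b * a⁻¹ - 1 = -((a * b⁻¹ - 1) * (b * a⁻¹)) := by
      field_simp
      ring
    have h3 : val i (b * a⁻¹) = 1 := by
      have h4 : b * a⁻¹ = (a * b⁻¹)⁻¹ := by rw [mul_inv, inv_inv, mul_comm]
      rw [h4, map_inv₀, hvu i, inv_one]
    rw [h2, Valuation.map_neg, map_mul, h3, mul_one]
    exact hu1 i
  obtain ⟨e0', he0', e1', he1', h0', h1', -⟩ := exists_chart_seeds_of_places hdeg P₀ hRB (-D0)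
    (by rw [map_neg, hD0, neg_zero]) m b a hb ha
    (fun v => by rw [Finsupp.neg_apply, mul_neg, hord v]; ring)
    val vK hu1' hred hcart hVG hcst j hvj E1 hE1 hd c0 hfg hroot0 hroot1
  exact ⟨e0, he0, e0', he0', e1, he1, e1', he1', h0, h0', h1, h1'⟩

end PlaceLayer

end Fermat.Agent.S33.helper2582
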