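/-
S33-FIBCOUNT, Gauss-pair instance (helper2582): the four seeds of a Kummer class at level `ℓ M`
(`ℓ ∤ M`), for the pair of Gauss valuations `(v_∞, v_∞ ∘ W_ℓ)` over a valuation subring `A` of
`ℚ̄` above `ℓ`, from TWO named facts about the three `j`-chart rings of the common unit ball

  `gB0 = chartRing (OnFin j) O`, `gB1 = chartRing (OnInf j) O`, `gB01 = chartRing (OnMid j) O`,
  `O = ballRing (gpVal A (ℓ M) W_ℓ)`:

* `StmtFG ℓ M hℓM A`     : `gB01 = gB0 + gB1 + ∑ A ζ_k` for finitely many `ζ_k`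
                           (finite generation of the integral Cech `H¹`);
* `StmtRoot ℓ M hℓM A n` : the reductions of `gB0`, `gB1` in `k((t)) × k((t))` are `n`-th-root
                           closed inside the reduction of `O`.

Everything else (reduction data, cartesian property, value group, Riemann's theorem on the
generic fibre, the chart dictionary) is discharged from landed files.
-/
import Mathlib
import Fermat.Agent.S33.helper2582_FibCountPlace
import Fermat.Agent.S35.helper882_GaussPairCart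
import Fermat.Agent.S37.helper6267_RiemannModular
import Fermat.Agent.S29.helper8217_KummerClass

set_option autoImplicit false

open ModularCurve AlgebraicCurve IntermediateField

noncomputable section

namespace Fermat.Agent.S33.helper2582

open Fermat.Agent.S24.helper24 Fermat.Agent.S35.helper882 Fermat.Agent.S19.helper5454
open Fermat.Agent.S35 Fermat.Agent.S29.helper8217

section Gauss

variable (ℓ M : ℕ) [Fact ℓ.Prime] [NeZero M] (hℓM : ¬ ℓ ∣ M) (A : ValuationSubring Kbar)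

/-- The common unit ball of the two Gauss valuations at level `ℓ M`. -/
abbrev gO : Subring (FN (ℓ * M)) := ballRing (gpVal A (ℓ * M) (helper1928.wAL ℓ M hℓM))

/-- The chart ring of the ball, `j` finite. -/
abbrev gB0 : Subring (FN (ℓ * M)) :=
  chartRing (OnFin (K := Kbar) (jBar (ℓ * M))) (gO ℓ M hℓM A)

/-- The chart ring of the ball, `j⁻¹` finite. -/
abbrev gB1 : Subring (FN (ℓ * M)) :=
  chartRing (OnInf (K := Kbar) (jBar (ℓ * M))) (gO ℓ M hℓM A)

/-- The chart ring of the ball, `j` a unit. -/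
abbrev gB01 : Subring (FN (ℓ * M)) :=
  chartRing (OnMid (K := Kbar) (jBar (ℓ * M))) (gO ℓ M hℓM A)

/-- **(FG)** at the Gauss pair: the overlap ring is the sum of the two chart rings and a finitely
generated `A`-module. -/
def StmtFG : Prop :=
  ∃ (n : ℕ) (ζ : Fin n → FN (ℓ * M)), (∀ k, ζ k ∈ gB01 ℓ M hℓM A) ∧
    ∀ z ∈ gB01 ℓ M hℓM A, ∃ a ∈ gB0 ℓ M hℓM A, ∃ b ∈ gB1 ℓ M hℓM A, ∃ c : Fin n → Kbar,
      (∀ k, c k ∈ A) ∧ z = a + b + ∑ k, c k • ζ k

/-- **(ROOT)** at the Gauss pair: the reductions of the two chart rings are `n`-th-root closed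
inside the reduction of the ball. -/
def StmtRoot (n : ℕ) : Prop :=
  (∀ x : FN (ℓ * M), (∀ i, gpVal A (ℓ * M) (helper1928.wAL ℓ M hℓM) i x ≤ 1) →
    (∃ a ∈ gB0 ℓ M hℓM A, gpRed A (ℓ * M) (helper1928.wAL ℓ M hℓM) x ^ n =
      gpRed A (ℓ * M) (helper1928.wAL ℓ M hℓM) a) →
    ∃ a ∈ gB0 ℓ M hℓM A, gpRed A (ℓ * M) (helper1928.wAL ℓ M hℓM) x =
      gpRed A (ℓ * M) (helper1928.wAL ℓ M hℓM) a) ∧
  (∀ x : FN (ℓ * M), (∀ i, gpVal A (ℓ * M) (helper1928.wAL ℓ M hℓM) i x ≤ 1) →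
    (∃ b ∈ gB1 ℓ M hℓM A, gpRed A (ℓ * M) (helper1928.wAL ℓ M hℓM) x ^ n =
      gpRed A (ℓ * M) (helper1928.wAL ℓ M hℓM) b) →
    ∃ b ∈ gB1 ℓ M hℓM A, gpRed A (ℓ * M) (helper1928.wAL ℓ M hℓM) x =
      gpRed A (ℓ * M) (helper1928.wAL ℓ M hℓM) b)

/-- Both Gauss valuations of `j` are `1`. -/
theorem gpVal_jBar (i : Fin 2) :
    gpVal A (ℓ * M) (helper1928.wAL ℓ M hℓM) i (jBar (ℓ * M)) = 1 := by
  have h0 : gpVal A (ℓ * M) (helper1928.wAL ℓ M hℓM) 0 (jBar (ℓ * M)) = 1 := by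
    have h := gpRing_resTranscendental A (ℓ * M) Polynomial.X
      (fun i => by
        rw [Polynomial.coeff_X]
        split_ifs
        · rw [map_one, map_one]
        · rw [map_zero, map_zero]; exact zero_le_one)
      ⟨1, by rw [Polynomial.coeff_X_one, map_one, map_one]⟩
    rwa [Polynomial.aeval_X] at h
  fin_cases i
  · exact h0
  · have h := gpVal_adjoin ℓ M hℓM A
      ⟨jBar (ℓ * M), IntermediateField.mem_adjoin_simple_self Kbar (jBar (ℓ * M))⟩
    exact h.trans h0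

/-- Constants of `A` reduce to constants. -/
theorem gpRed_algebraMap_const (c : Kbar)
    (hc : gpBase A (ℓ * M) c ≤ 1) :
    ∃ κ : IsLocalRing.ResidueField A,
      gpRed A (ℓ * M) (helper1928.wAL ℓ M hℓM) (algebraMap Kbar (FN (ℓ * M)) c) =
        algebraMap (IsLocalRing.ResidueField A)
          (LaurentSeries (IsLocalRing.ResidueField A) ×
            LaurentSeries (IsLocalRing.ResidueField A)) κ := by
  have hcA : c ∈ A := (gpBase_le_one_iff A (ℓ * M) c).mp hc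
  refine ⟨IsLocalRing.residue A ⟨c, hcA⟩, Prod.ext (gpRho_algebraMap A (ℓ * M) hcA) ?_⟩
  show gpRho A (ℓ * M) (helper1928.wAL ℓ M hℓM (algebraMap Kbar (FN (ℓ * M)) c)) = _
  rw [AlgEquiv.commutes]
  exact gpRho_algebraMap A (ℓ * M) hcA

/-- **Seeds at the Gauss pair** (the shape of `helper5683.Stmt_SeedsJ`).  For `n ≠ 0`, a
function `u ≠ 0` of level `ℓ M` which is `≡ 1` at both Gauss valuations and a divisor `D` with
`n D = div u`: the chart lattices `L_0(D)`, `L_1(D)` (over the common unit ball, charts of `j`)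
contain elements `≡ 1` at both valuations — provided `(FG)` and `(ROOT)` hold. -/
theorem seeds_gauss (hA : (ℓ : Kbar) ∈ A.nonunits) (n : ℕ) (hn : n ≠ 0) (u : FN (ℓ * M))
    (D : Divisor Kbar (FN (ℓ * M))) (hu : u ≠ 0)
    (hD : ∀ v : Place Kbar (FN (ℓ * M)), (n : ℤ) * D v = v.ord u)
    (h1 : ∀ i, gpVal A (ℓ * M) (helper1928.wAL ℓ M hℓM) i (u - 1) < 1)
    (hFG : StmtFG ℓ M hℓM A) (hRoot : StmtRoot ℓ M hℓM A n) :
    ∃ a₀ ∈ chartMod (OnFin (K := Kbar) (jBar (ℓ * M))) (gO ℓ M hℓM A) D,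
      ∃ b₀ ∈ chartMod (OnInf (K := Kbar) (jBar (ℓ * M))) (gO ℓ M hℓM A) D,
        (∀ i, gpVal A (ℓ * M) (helper1928.wAL ℓ M hℓM) i (a₀ - 1) < 1) ∧
        ∀ i, gpVal A (ℓ * M) (helper1928.wAL ℓ M hℓM) i (b₀ - 1) < 1 := by
  have hℓ : ℓ.Prime := Fact.out
  have : NeZero (ℓ * M) := ⟨Nat.mul_ne_zero hℓ.ne_zero (NeZero.ne M)⟩
  have : FiniteDimensional Kbar⟮jBar (ℓ * M)⟯ (FN (ℓ * M)) :=
    (Fermat.Agent.S24.helper504.stmt_JFinrank (ℓ * M)).1
  obtain ⟨E1, hE1, hE1deg⟩ := Fermat.Agent.S37.helper6267.exists_poleDivisor_jBar (ℓ * M)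
  have hd : 0 < Divisor.degree E1 := by
    rw [hE1deg]
    exact_mod_cast Module.finrank_pos
  obtain ⟨P₀⟩ : Nonempty (Place Kbar (FN (ℓ * M))) := by
    by_contra hne
    rw [not_nonempty_iff] at hne
    have h0 : E1 = 0 := Subsingleton.elim _ _
    rw [h0, map_zero] at hd
    exact lt_irrefl _ hd
  have hred := gpRedData A (ℓ * M) (helper1928.wAL ℓ M hℓM)
  have hvj := gpVal_jBar ℓ M hℓM A
  have hj : jBar (ℓ * M) ≠ 0 := (chartData_of_places (K := Kbar) hred _ hvj).j_ne_zero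
  obtain ⟨m, ζ, hζ, hspan⟩ := hFG
  obtain ⟨c0, hc0⟩ := hfg_of_span (K := Kbar) hred (jBar (ℓ * M)) hj hvj m ζ hζ
    (fun z hz => by
      obtain ⟨a, ha, b, hb, c, hc, hz'⟩ := hspan z hz
      exact ⟨a, ha, b, hb, c, fun k => (gpBase_le_one_iff A (ℓ * M) (c k)).mpr (hc k), hz'⟩)
  obtain ⟨a₀, ha₀, b₀, hb₀, h2, h3, -⟩ := exists_chart_seeds_of_places
    (Fermat.Agent.S37.helper5162.place_deg_eq_one (ℓ * M)) P₀
    (Fermat.Agent.S37.helper6267.hasRiemannBound_FN (ℓ * M))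
    D (degree_eq_zero_of_mul_eq_ord n hn u hu D hD) n u 1 hu one_ne_zero
    (fun v => by rw [hD v, v.ord_one, sub_zero])
    (gpVal A (ℓ * M) (helper1928.wAL ℓ M hℓM)) (gpBase A (ℓ * M))
    (fun i => by rw [inv_one, mul_one]; exact h1 i)
    hred
    (fun S hS => by
      have : FiniteDimensional Kbar S := hS
      exact gp_cartesianW ℓ M hℓM A hA S)
    (fun i f hf => exists_gpBase_eq A (ℓ * M) (helper1928.wAL ℓ M hℓM) i f hf)
    (gpRed_algebraMap_const ℓ M hℓM A)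
    (jBar (ℓ * M)) hvj E1 hE1 hd c0 hc0 hRoot.1 hRoot.2
  exact ⟨a₀, ha₀, b₀, hb₀, h2, h3⟩

/-- **The four seeds at the Gauss pair.**  For an `n`-Kummer function `h` (`n ≠ 0`) of level
`ℓ M` which is `≡ 1` at both Gauss valuations, the chart lattices `L_i(± D)` of
`D = div(h) / n` contain elements `≡ 1` at both valuations — provided `(FG)` and `(ROOT)`. -/
theorem exists_four_seeds_gauss (hA : (ℓ : Kbar) ∈ A.nonunits) (n : ℕ) (hn : n ≠ 0)
    (h : FN (ℓ * M)) (hK : IsKummer Kbar n h)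
    (h1 : ∀ i, gpVal A (ℓ * M) (helper1928.wAL ℓ M hℓM) i (h - 1) < 1)
    (hFG : StmtFG ℓ M hℓM A) (hRoot : StmtRoot ℓ M hℓM A n) :
    ∃ e0 ∈ chartMod (OnFin (K := Kbar) (jBar (ℓ * M))) (gO ℓ M hℓM A) (kummerDivisor Kbar n h),
      ∃ e0' ∈ chartMod (OnFin (K := Kbar) (jBar (ℓ * M))) (gO ℓ M hℓM A)
        (-kummerDivisor Kbar n h),
      ∃ e1 ∈ chartMod (OnInf (K := Kbar) (jBar (ℓ * M))) (gO ℓ M hℓM A) (kummerDivisor Kbar n h),
      ∃ e1' ∈ chartMod (OnInf (K := Kbar) (jBar (ℓ * M))) (gO ℓ M hℓM A)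
        (-kummerDivisor Kbar n h),
        (∀ i, gpVal A (ℓ * M) (helper1928.wAL ℓ M hℓM) i (e0 - 1) < 1) ∧
        (∀ i, gpVal A (ℓ * M) (helper1928.wAL ℓ M hℓM) i (e0' - 1) < 1) ∧
        (∀ i, gpVal A (ℓ * M) (helper1928.wAL ℓ M hℓM) i (e1 - 1) < 1) ∧
        (∀ i, gpVal A (ℓ * M) (helper1928.wAL ℓ M hℓM) i (e1' - 1) < 1) := by
  have hD : ∀ v : Place Kbar (FN (ℓ * M)), (n : ℤ) * kummerDivisor Kbar n h v = v.ord h :=
    fun v => by rw [kummerDivisor_apply]; exact Int.mul_ediv_cancel' (hK.2 v)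
  obtain ⟨e0, he0, e1, he1, h0, h1'⟩ :=
    seeds_gauss ℓ M hℓM A hA n hn h _ hK.1 hD h1 hFG hRoot
  have hvu : ∀ i, gpVal A (ℓ * M) (helper1928.wAL ℓ M hℓM) i h = 1 := fun i => by
    have e : h = 1 + (h - 1) := by ring
    rw [e]
    exact Valuation.map_one_add_of_lt _ (h1 i)
  have h1inv : ∀ i, gpVal A (ℓ * M) (helper1928.wAL ℓ M hℓM) i (h⁻¹ - 1) < 1 := fun i => by
    have e : h⁻¹ - 1 = -((h - 1) * h⁻¹) := by
      have := hK.1
      field_simp
      ring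
    rw [e, Valuation.map_neg, map_mul, map_inv₀, hvu i, inv_one, mul_one]
    exact h1 i
  obtain ⟨e0', he0', e1', he1', h0', h1''⟩ :=
    seeds_gauss ℓ M hℓM A hA n hn h⁻¹ (-kummerDivisor Kbar n h) (inv_ne_zero hK.1)
      (fun v => by rw [Finsupp.neg_apply, mul_neg, hD v, v.ord_inv]) h1inv hFG hRoot
  exact ⟨e0, he0, e0', he0', e1, he1, e1', he1', h0, h0', h1', h1''⟩

end Gauss

end Fermat.Agent.S33.helper2582

end
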