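/-
S33-FREEHALF (helper3511): the free half (1) of route #2990 for S33 (ordinarity at `p ∥ N`).

`K_n := kBoth A N n W` is the subgroup of `J₀(N)` of the classes of `n`-Kummer functions having
ONE representative `h` which is `≡ 1` at BOTH Gauss valuations of `ℚ̄(X₀(N))` above a valuation
subring `A` of `ℚ̄` (the Gauss ring `gaussV A N` of S34/helper584 and its twin under an
automorphism `W`, in practice the Atkin–Lehner involution).  Nothing relates the residue
characteristic of `A` to the modulus `n`: `n = p ^ m` with `A` over `p` and `p ∣ N` is allowed.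

* `kBothAbs K n V₁ V₂` : the abstract subgroup of `Pic0 K F` (two valuation subrings of `F`).
* `smul_mem_kBothAbs`, `sub_mem_kBothAbs` : stability under a semilinear automorphism preserving
  "`≡ 1`", and `g x - x ∈ K_n` for `g` acting trivially on both residue fields (with (REP)).
* `kBoth A N n W`, `mem_kBoth_iff`, `kBoth_le_torsion`.
* (F1) `smul_mem_kBoth` : `K_n` is stable under the decomposition group of `A`.
* (F2) `inertia_sub_mem_kBoth` : `τ x - x ∈ K_n` for `τ` in the inertia group of `A`, `x ∈ J₀(N)[n]`.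
* (F3) `smul_mem_kBoth_atkinLehner`, `inertia_sub_mem_kBoth_atkinLehner` : the instance
  `N = q * M`, `q` prime, `q ∤ M`, `W = W_q` (S35/helper1219), all side hypotheses discharged.
-/
import Fermat.Agent.S34.helper584_UniInst

set_option autoImplicit false

namespace Fermat.Agent.S33.helper3511

open AlgebraicCurve ModularCurve
open Fermat.Agent.S29.helper8217
open Fermat.Agent.S34.helper584
open Fermat.Agent.S18

noncomputable section

/-! ### Valuation lemmas: elements `≡ 1` -/

section Val

variable {F : Type*} [Field F] (V : ValuationSubring F)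

theorem valuation_eq_one_of_sub_one_lt {h : F} (hh : V.valuation (h - 1) < 1) :
    V.valuation h = 1 := by
  have e : h = 1 + (h - 1) := by ring
  rw [e]
  exact Valuation.map_one_add_of_lt _ hh

theorem valuation_mul_sub_one_lt {h h' : F} (hh : V.valuation (h - 1) < 1)
    (hh' : V.valuation (h' - 1) < 1) : V.valuation (h * h' - 1) < 1 := by
  have e : h * h' - 1 = (h - 1) * h' + (h' - 1) := by ring
  rw [e]
  refine lt_of_le_of_lt (V.valuation.map_add _ _) (max_lt ?_ hh')
  rw [map_mul, valuation_eq_one_of_sub_one_lt V hh', mul_one]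
  exact hh

theorem valuation_inv_sub_one_lt {h : F} (hh : V.valuation (h - 1) < 1) :
    V.valuation (h⁻¹ - 1) < 1 := by
  have h1 := valuation_eq_one_of_sub_one_lt V hh
  have h0 : h ≠ 0 := by
    rintro rfl
    rw [map_zero] at h1
    exact zero_ne_one h1
  have e : h⁻¹ - 1 = -((h - 1) * h⁻¹) := by
    field_simp
    ring
  rw [e, Valuation.map_neg, map_mul, map_inv₀, h1, inv_one, mul_one]
  exact hh

theorem valuation_one_sub_one_lt : V.valuation ((1 : F) - 1) < 1 := by
  rw [sub_self, map_zero]
  exact zero_lt_one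

end Val

/-! ### The abstract subgroup `K_n` -/

section Abstract

variable (K : Type*) {F : Type*} [Field K] [Field F] [Algebra K F] [HasPrincipalDivisors K F]

/-- `K_n`: the classes of `n`-Kummer elements having one representative which is `≡ 1` for both
valuation subrings `V₁`, `V₂`. -/
def kBothAbs (n : ℕ) (V₁ V₂ : ValuationSubring F) : AddSubgroup (Pic0 K F) where
  carrier := {x | ∃ h : F, IsKummer K n h ∧ V₁.valuation (h - 1) < 1 ∧
    V₂.valuation (h - 1) < 1 ∧ kummerClass K n h = x}
  zero_mem' := ⟨1, isKummer_one n, valuation_one_sub_one_lt V₁, valuation_one_sub_one_lt V₂,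
    kummerClass_one n⟩
  add_mem' := by
    rintro _ _ ⟨h, hk, h1, h2, rfl⟩ ⟨h', hk', h1', h2', rfl⟩
    exact ⟨h * h', hk.mul hk', valuation_mul_sub_one_lt V₁ h1 h1',
      valuation_mul_sub_one_lt V₂ h2 h2', kummerClass_mul hk hk'⟩
  neg_mem' := by
    rintro _ ⟨h, hk, h1, h2, rfl⟩
    exact ⟨h⁻¹, hk.inv, valuation_inv_sub_one_lt V₁ h1, valuation_inv_sub_one_lt V₂ h2,
      kummerClass_inv hk⟩

variable {K}

theorem mem_kBothAbs_iff {n : ℕ} {V₁ V₂ : ValuationSubring F} {x : Pic0 K F} :
    x ∈ kBothAbs K n V₁ V₂ ↔ ∃ h : F, IsKummer K n h ∧ V₁.valuation (h - 1) < 1 ∧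
      V₂.valuation (h - 1) < 1 ∧ kummerClass K n h = x :=
  Iff.rfl

/-- `K_n` consists of `n`-torsion classes. -/
theorem zsmul_eq_zero_of_mem_kBothAbs {n : ℕ} {V₁ V₂ : ValuationSubring F} {x : Pic0 K F}
    (hx : x ∈ kBothAbs K n V₁ V₂) : (n : ℤ) • x = 0 := by
  obtain ⟨h, -, -, -, rfl⟩ := hx
  exact zsmul_kummerClass n h

/-- `K_n` is stable under a semilinear automorphism preserving "`≡ 1`" at both valuations. -/
theorem smul_mem_kBothAbs {n : ℕ} (g : SemilinearAut K F) {V₁ V₂ : ValuationSubring F}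
    (hg₁ : ∀ x : F, V₁.valuation (x - 1) < 1 → V₁.valuation (g • x - 1) < 1)
    (hg₂ : ∀ x : F, V₂.valuation (x - 1) < 1 → V₂.valuation (g • x - 1) < 1)
    {x : Pic0 K F} (hx : x ∈ kBothAbs K n V₁ V₂) : g • x ∈ kBothAbs K n V₁ V₂ := by
  obtain ⟨h, hk, h1, h2, rfl⟩ := hx
  exact ⟨g • h, (isKummer_smul_iff g).mpr hk, hg₁ h h1, hg₂ h h2, (smul_kummerClass g n h).symm⟩

/-- **The free half, abstract form.**  If `g` induces the identity on the residue fields of `V₁`
and `V₂` and every `n`-Kummer element is a two-sided unit times an `n`-th power (REP), then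
`g x - x ∈ K_n` for every `n`-torsion class `x`. -/
theorem sub_mem_kBothAbs {n : ℕ} (hn : n ≠ 0) (g : SemilinearAut K F)
    {V₁ V₂ : ValuationSubring F}
    (hg₁ : ∀ x : F, V₁.valuation x ≤ 1 → V₁.valuation (g • x - x) < 1)
    (hg₂ : ∀ x : F, V₂.valuation x ≤ 1 → V₂.valuation (g • x - x) < 1)
    (hRep : ∀ u : F, IsKummer K n u →
      ∃ u₀ w : F, w ≠ 0 ∧ u = u₀ * w ^ n ∧ V₁.valuation u₀ = 1 ∧ V₂.valuation u₀ = 1)
    (x : Pic0 K F) (hx : (n : ℤ) • x = 0) : g • x - x ∈ kBothAbs K n V₁ V₂ := by
  obtain ⟨u, hu, rfl⟩ := exists_kummerClass_eq hn (Pic0.mem_torsion.mpr hx)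
  obtain ⟨u₀, w, hw, rfl, h1, h2⟩ := hRep u hu
  have hu₀ : u₀ ≠ 0 := by
    rintro rfl
    rw [map_zero] at h1
    exact zero_ne_one h1
  have hgw : g • w ≠ 0 := by
    rw [SemilinearAut.smul_def]
    exact (map_ne_zero _).mpr hw
  have hK₀ : IsKummer K n u₀ := by
    have h := hu.div (isKummer_pow_self (K := K) n hw)
    rwa [mul_div_assoc, div_self (pow_ne_zero n hw), mul_one] at h
  have hKg : IsKummer K n (g • u₀) := (isKummer_smul_iff g).mpr hK₀
  have hval : ∀ V : ValuationSubring F, V.valuation u₀ = 1 →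
      (∀ x : F, V.valuation x ≤ 1 → V.valuation (g • x - x) < 1) →
      V.valuation (g • u₀ / u₀ - 1) < 1 := by
    intro V hV hgV
    have e : g • u₀ / u₀ - 1 = (g • u₀ - u₀) / u₀ := by
      field_simp
    rw [e, map_div₀, hV, div_one]
    exact hgV u₀ hV.le
  refine ⟨g • u₀ / u₀, hKg.div hK₀, hval V₁ h1 hg₁, hval V₂ h2 hg₂, ?_⟩
  have e : g • (u₀ * w ^ n) = g • u₀ * (g • w) ^ n := by
    simp only [SemilinearAut.smul_def, map_mul, map_pow]
  rw [kummerClass_div hKg hK₀, smul_kummerClass, kummerClass_mul_pow_self hn hw hK₀, e,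
    kummerClass_mul_pow_self hn hgw hKg]

end Abstract

/-! ### The decomposition group and the Gauss ring -/

section Decomp

variable {L : Type*} [Field L] [Algebra ℚ L] (A : ValuationSubring L)

theorem residue_decompRingHom_eq_zero_iff (g : A.decompositionSubgroup ℚ) (a : A) :
    IsLocalRing.residue A (decompRingHom A g a) = 0 ↔ IsLocalRing.residue A a = 0 := by
  rw [IsLocalRing.residue_eq_zero_iff, IsLocalRing.residue_eq_zero_iff,
    IsLocalRing.mem_maximalIdeal, IsLocalRing.mem_maximalIdeal, mem_nonunits_iff,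
    mem_nonunits_iff, not_iff_not]
  constructor
  · intro h
    have h2 := (decompRingHom A g⁻¹).isUnit_map h
    have e : decompRingHom A g⁻¹ (decompRingHom A g a) = a := inv_smul_smul g a
    rwa [e] at h2
  · exact (decompRingHom A g).isUnit_map

theorem red_coeffMap_decomp_eq_zero_iff (g : A.decompositionSubgroup ℚ) (X : LaurentSeries A) :
    helper8991.red A (IsLocalRing.residue A) (coeffMap (decompRingHom A g) X) = 0 ↔
      helper8991.red A (IsLocalRing.residue A) X = 0 := by
  rw [red_eq_zero_iff_forall, red_eq_zero_iff_forall]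
  exact forall_congr' fun n => residue_decompRingHom_eq_zero_iff A g (X.coeff n)

/-- The decomposition group of `A` preserves the maximal ideal of the Gauss ring. -/
theorem gaussF_valuation_decomp_lt (N : ℕ) {σ : L ≃ₐ[ℚ] L}
    (hσ : σ ∈ A.decompositionSubgroup ℚ)
    (x : laurentBaseChange L (modularFunctionFieldFull N))
    (hx : (helper8991.gaussF A (IsLocalRing.residue A) N).valuation x < 1) :
    (helper8991.gaussF A (IsLocalRing.residue A) N).valuation
      (arithmeticGalois (modularFunctionFieldFull N) σ • x) < 1 := by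
  have hx' : x ∈ helper8991.gaussF A (IsLocalRing.residue A) N :=
    (ValuationSubring.valuation_le_one_iff _ _).mp hx.le
  have hmax : (⟨x, hx'⟩ : helper8991.gaussF A (IsLocalRing.residue A) N) ∈
      IsLocalRing.maximalIdeal (helper8991.gaussF A (IsLocalRing.residue A) N) :=
    (ValuationSubring.valuation_lt_one_iff _ _).mpr hx
  have hred0 := (helper8991.gaussFRed_eq_zero_iff A (IsLocalRing.residue A) N _).mpr hmax
  obtain ⟨X, Y, hY, h⟩ := (helper8991.mem_gaussF_iff A (IsLocalRing.residue A) N x).mp hx'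
  rw [helper8991.gaussFRed_eq A (IsLocalRing.residue A) N ⟨x, hx'⟩ hY h, div_eq_zero_iff] at hred0
  have hX : helper8991.red A (IsLocalRing.residue A) X = 0 := hred0.resolve_right hY
  let g : A.decompositionSubgroup ℚ := ⟨σ, hσ⟩
  have hY' : helper8991.red A (IsLocalRing.residue A) (coeffMap (decompRingHom A g) Y) ≠ 0 :=
    fun h0 => hY ((red_coeffMap_decomp_eq_zero_iff A g Y).mp h0)
  have hX' : helper8991.red A (IsLocalRing.residue A) (coeffMap (decompRingHom A g) X) = 0 :=
    (red_coeffMap_decomp_eq_zero_iff A g X).mpr hX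
  have h' : ((arithmeticGalois (modularFunctionFieldFull N) σ • x :
          laurentBaseChange L (modularFunctionFieldFull N)) : LaurentSeries L) *
        helper8991.inc A (coeffMap (decompRingHom A g) Y) =
      helper8991.inc A (coeffMap (decompRingHom A g) X) := by
    rw [inc_coeffMap_decomp, inc_coeffMap_decomp, ← h, map_mul]
    rfl
  have hgx : arithmeticGalois (modularFunctionFieldFull N) σ • x ∈
      helper8991.gaussF A (IsLocalRing.residue A) N :=
    (helper8991.mem_gaussF_iff A (IsLocalRing.residue A) N _).mpr ⟨_, _, hY', h'⟩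
  have hd : helper8991.gaussFRed A (IsLocalRing.residue A) N ⟨_, hgx⟩ = 0 := by
    rw [helper8991.gaussFRed_eq A (IsLocalRing.residue A) N ⟨_, hgx⟩ hY' h', hX', zero_div]
  have hm := (helper8991.gaussFRed_eq_zero_iff A (IsLocalRing.residue A) N _).mp hd
  exact (ValuationSubring.valuation_lt_one_iff _ _).mp hm

/-- The decomposition group of `A` preserves "`≡ 1`" at the Gauss valuation. -/
theorem gaussF_valuation_decomp_sub_one_lt (N : ℕ) {σ : L ≃ₐ[ℚ] L}
    (hσ : σ ∈ A.decompositionSubgroup ℚ)
    (x : laurentBaseChange L (modularFunctionFieldFull N))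
    (hx : (helper8991.gaussF A (IsLocalRing.residue A) N).valuation (x - 1) < 1) :
    (helper8991.gaussF A (IsLocalRing.residue A) N).valuation
      (arithmeticGalois (modularFunctionFieldFull N) σ • x - 1) < 1 := by
  have e : arithmeticGalois (modularFunctionFieldFull N) σ • x - 1 =
      arithmeticGalois (modularFunctionFieldFull N) σ • (x - 1) := by
    simp only [SemilinearAut.smul_def, map_sub, map_one]
  rw [e]
  exact gaussF_valuation_decomp_lt A N hσ (x - 1) hx

end Decomp

/-! ### The modular instance -/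

section Modular

local notation "Qb" => AlgebraicClosure ℚ

variable (A : ValuationSubring Qb) (N n : ℕ)
  [HasPrincipalDivisors Qb (modularFunctionFieldBar N)]

/-- `W` as a ring endomorphism. -/
abbrev ringHomOf (W : modularFunctionFieldBar N ≃ₐ[Qb] modularFunctionFieldBar N) :
    modularFunctionFieldBar N →+* modularFunctionFieldBar N :=
  ((W : modularFunctionFieldBar N ≃+* modularFunctionFieldBar N) :
    modularFunctionFieldBar N →+* modularFunctionFieldBar N)

/-- **`K_n`** at level `N`: the classes in `J₀(N)` of the `n`-Kummer functions with one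
representative `≡ 1` at the Gauss valuation of `A` and at its `W`-twin. -/
def kBoth (W : modularFunctionFieldBar N ≃ₐ[Qb] modularFunctionFieldBar N) :
    AddSubgroup (JZero N) :=
  kBothAbs Qb n (gaussV A N) ((gaussV A N).comap (ringHomOf N W))

variable {A N n}

theorem mem_kBoth_iff {W : modularFunctionFieldBar N ≃ₐ[Qb] modularFunctionFieldBar N}
    {x : JZero N} :
    x ∈ kBoth A N n W ↔ ∃ h : modularFunctionFieldBar N, IsKummer Qb n h ∧
      (gaussV A N).valuation (h - 1) < 1 ∧ (gaussV A N).valuation (W h - 1) < 1 ∧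
      kummerClass Qb n h = x := by
  refine exists_congr fun h => and_congr_right fun _ => and_congr_right fun _ =>
    and_congr_left fun _ => ?_
  rw [valuation_comap_lt_one_iff]
  show (gaussV A N).valuation (W (h - 1)) < 1 ↔ _
  rw [map_sub, map_one]

/-- `K_n ≤ J₀(N)[n]`. -/
theorem kBoth_le_torsion {W : modularFunctionFieldBar N ≃ₐ[Qb] modularFunctionFieldBar N}
    {x : JZero N} (hx : x ∈ kBoth A N n W) : (n : ℤ) • x = 0 :=
  zsmul_eq_zero_of_mem_kBothAbs hx

theorem nsmul_eq_zero_of_mem_kBoth
    {W : modularFunctionFieldBar N ≃ₐ[Qb] modularFunctionFieldBar N}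
    {x : JZero N} (hx : x ∈ kBoth A N n W) : n • x = 0 := by
  have h := kBoth_le_torsion hx
  rwa [natCast_zsmul] at h

/-- **(F1)** `K_n` is stable under the decomposition group of `A` (for `W` commuting with the
coefficientwise Galois action). -/
theorem smul_mem_kBoth {W : modularFunctionFieldBar N ≃ₐ[Qb] modularFunctionFieldBar N}
    {σ : Qb ≃ₐ[ℚ] Qb} (hσ : σ ∈ A.decompositionSubgroup ℚ)
    (hWσ : ∀ x : modularFunctionFieldBar N,
      W (arithmeticGalois (modularFunctionFieldFull N) σ • x) =
        arithmeticGalois (modularFunctionFieldFull N) σ • W x)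
    {x : JZero N} (hx : x ∈ kBoth A N n W) : σ • x ∈ kBoth A N n W := by
  rw [galois_smul_pic0_def]
  refine smul_mem_kBothAbs _ (gaussF_valuation_decomp_sub_one_lt A N hσ) ?_ hx
  intro y hy
  rw [valuation_comap_lt_one_iff] at hy ⊢
  have e1 : ringHomOf N W (y - 1) = W y - 1 := by
    show W (y - 1) = _
    rw [map_sub, map_one]
  have e2 : ringHomOf N W (arithmeticGalois (modularFunctionFieldFull N) σ • y - 1) =
      arithmeticGalois (modularFunctionFieldFull N) σ • W y - 1 := by
    show W (_ - 1) = _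
    rw [map_sub, map_one, hWσ]
  rw [e1] at hy
  rw [e2]
  exact gaussF_valuation_decomp_sub_one_lt A N hσ (W y) hy

/-- **(F2), the free half**: for `τ` in the inertia group of `A` (over the prime `q`) and an
`n`-torsion class `x` of `J₀(N)`, `τ x - x ∈ K_n`.  No hypothesis relates `q` and `n`. -/
theorem inertia_sub_mem_kBoth (hn : n ≠ 0) {q : ℕ} (hq : q.Prime) (hA : A.LiesOverPrime q)
    {τ : Qb ≃ₐ[ℚ] Qb} (hτ : τ ∈ A.inertiaSubgroupIn ℚ)
    (W : modularFunctionFieldBar N ≃ₐ[Qb] modularFunctionFieldBar N)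
    (hWτ : ∀ x : modularFunctionFieldBar N,
      W (arithmeticGalois (modularFunctionFieldFull N) τ • x) =
        arithmeticGalois (modularFunctionFieldFull N) τ • W x)
    (b c' : modularFunctionFieldBar N)
    (hb₁ : (gaussV A N).valuation b = 1) (hb₂ : (gaussV A N).valuation (W b) < 1)
    (hc₁ : (gaussV A N).valuation c' < 1) (hc₂ : (gaussV A N).valuation (W c') = 1)
    (x : JZero N) (hx : (n : ℤ) • x = 0) : τ • x - x ∈ kBoth A N n W := by
  have hWr : ∀ x, ringHomOf N W x = W x := fun _ => rfl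
  have hg₁ := gaussF_valuation_inertia_sub_lt A N hτ
  rw [galois_smul_pic0_def]
  refine sub_mem_kBothAbs hn _ hg₁ ?_ ?_ x hx
  · intro y hy
    rw [valuation_comap_le_one_iff, hWr] at hy
    rw [valuation_comap_lt_one_iff, hWr, map_sub, hWτ]
    exact hg₁ (W y) hy
  · intro u hu
    refine rep_of_approx hn (gaussV A N) ((gaussV A N).comap (ringHomOf N W)) ?_
      (fun a => IsAlgClosed.exists_pow_nat_eq a (Nat.pos_of_ne_zero hn))
      (gaussF_exists_const A (IsLocalRing.residue A) N) ?_ b c' hb₁ hc₁ ?_ ?_ u hu.ne_zero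
    · intro a ha
      rwa [valuation_comap_le_one_iff, hWr, W.commutes] at ha
    · intro y hy
      obtain ⟨a, ha, hva⟩ := gaussF_exists_const A (IsLocalRing.residue A) N (W y)
        ((map_ne_zero W).mpr hy)
      refine ⟨a, ha, ?_⟩
      rw [valuation_comap_eq_one_iff, hWr, map_div₀, W.commutes]
      exact hva
    · rw [valuation_comap_eq_one_iff, hWr]
      exact hc₂
    · intro d hd
      obtain ⟨k, hk⟩ := gaussV_arch hq A hA N hb₂ ((map_ne_zero W).mpr hd)
      refine ⟨k, ?_⟩
      rw [valuation_comap_lt_one_iff, hWr, map_div₀, map_pow]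
      exact hk

end Modular

/-! ### (F3) The instance `N = q * M`, `W = W_q` -/

section AtkinLehner

local notation "Qb" => AlgebraicClosure ℚ

open Fermat.Agent.S35.helper1219

variable {q M : ℕ} [NeZero q] [NeZero M] (h : Nat.Coprime q M)
  [HasPrincipalDivisors Qb (modularFunctionFieldBar (q * M))]

/-- (F1) for the Atkin–Lehner involution: `K_n` at level `q * M` is stable under the
decomposition group of `A`. -/
theorem smul_mem_kBoth_atkinLehner {A : ValuationSubring Qb} {n : ℕ} {σ : Qb ≃ₐ[ℚ] Qb}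
    (hσ : σ ∈ A.decompositionSubgroup ℚ) {x : JZero (q * M)}
    (hx : x ∈ kBoth A (q * M) n (atkinLehnerBar q M h)) :
    σ • x ∈ kBoth A (q * M) n (atkinLehnerBar q M h) :=
  smul_mem_kBoth hσ (atkinLehnerBar_arithmeticGalois_smul q M h σ) hx

/-- (F2) for the Atkin–Lehner involution at a prime `q ∥ q * M`: for `τ` in the inertia group
of `A ∣ q` and `x ∈ J₀(q M)[n]` (any `n ≠ 0`, e.g. `n = q ^ m`), `τ x - x ∈ K_n`. -/
theorem inertia_sub_mem_kBoth_atkinLehner (hq : q.Prime) {n : ℕ} (hn : n ≠ 0)
    {A : ValuationSubring Qb} (hA : A.LiesOverPrime q) {τ : Qb ≃ₐ[ℚ] Qb}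
    (hτ : τ ∈ A.inertiaSubgroupIn ℚ) (x : JZero (q * M)) (hx : (n : ℤ) • x = 0) :
    τ • x - x ∈ kBoth A (q * M) n (atkinLehnerBar q M h) := by
  obtain ⟨b, c', hb₁, hb₂, hc₁, hc₂⟩ := exists_witness A hq hA (q * M) (Dvd.intro M rfl)
    (atkinLehnerBar q M h) (atkinLehnerBar_swap h)
  exact inertia_sub_mem_kBoth hn hq hA hτ (atkinLehnerBar q M h)
    (atkinLehnerBar_arithmeticGalois_smul q M h τ) b c' hb₁ hb₂ hc₁ hc₂ x hx

end AtkinLehner

end

end Fermat.Agent.S33.helper3511
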