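/-
S33-FORMTRIV-SS, stage 2 (helper5683): formal triviality of the classes of `K_n` on the
two-component model, in the divisor language of `S19.helper5454` (`chartMod`, `IsWitness`).

Abstract part (fields `K ⊆ F` with Prelude places, a family of valuations `val i` of `F`):

* `ballRing val` : the common unit ball, as a subring;
* `isWitness_of_seeds` : four seeds `e₀, e₁` (for `D`) and `e₀', e₁'` (for `-D`) in the chart
  modules of the unit ball, all `≡ 1` modulo a constant `c`, are inverse witnesses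
  (`helper5454.IsWitness`) at ANY level: for every subfield `R` of `F` containing the seeds and a
  constant `π` with `|c| ≤ |π|`, over the integrality ring `ballRing val ⊓ R`.
  No discreteness of the valuations on `R` and no descent of the seeds is needed: the level is
  chosen after the seeds.
-/
import Fermat.Agent.S19.helper5454_ChartDiv
import Fermat.Agent.S35.helper882_GaussPair
import Fermat.Agent.S33.helper3511_FreeHalf

set_option autoImplicit false

noncomputable section

open AlgebraicCurve WithZero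

namespace Fermat.Agent.S33.helper5683

open Fermat.Agent.S19.helper5454

/-! ### The unit ball of a family of valuations -/

section Abstract

variable {K F : Type*} [Field K] [Field F] [Algebra K F]
variable {Γ₀ : Type*} [LinearOrderedCommGroupWithZero Γ₀] {ι : Type*}

/-- The common unit ball of a family of valuations, as a subring. -/
def ballRing (val : ι → Valuation F Γ₀) : Subring F where
  carrier := {f | ∀ i, val i f ≤ 1}
  mul_mem' := fun {a b} ha hb i => by
    rw [map_mul]
    exact mul_le_one' (ha i) (hb i)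
  one_mem' := fun i => by rw [map_one]
  add_mem' := fun {a b} ha hb i => (Valuation.map_add _ _ _).trans (max_le (ha i) (hb i))
  zero_mem' := fun i => by
    rw [map_zero]
    exact zero_le_one
  neg_mem' := fun {a} ha i => by
    rw [Valuation.map_neg]
    exact ha i

theorem mem_ballRing {val : ι → Valuation F Γ₀} {f : F} :
    f ∈ ballRing val ↔ ∀ i, val i f ≤ 1 := Iff.rfl

/-- The adic valuation of a nonzero constant is `1`. -/
theorem adicValuation_algebraMap_eq_one (v : Place K F) {a : K} (ha : a ≠ 0) :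
    v.adicValuation (algebraMap K F a) = 1 := by
  refine le_antisymm (v.adicValuation_algebraMap_le_one a) ?_
  have h1 := v.adicValuation_algebraMap_le_one a⁻¹
  rw [map_inv₀, map_inv₀] at h1
  have h0 : v.adicValuation (algebraMap K F a) ≠ 0 :=
    v.adicValuation_ne_zero ((map_ne_zero (algebraMap K F)).mpr ha)
  exact (inv_le_one₀ (zero_lt_iff.mpr h0)).mp h1

/-- A product of two elements `≡ 1` modulo `c` is `≡ 1` modulo `c`. -/
theorem val_mul_sub_one_le {val : ι → Valuation F Γ₀} {γ : Γ₀} {a b : F}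
    (hb : ∀ i, val i b ≤ 1) (ha1 : ∀ i, val i (a - 1) ≤ γ) (hb1 : ∀ i, val i (b - 1) ≤ γ)
    (i : ι) : val i (a * b - 1) ≤ γ := by
  have e : a * b - 1 = (a - 1) * b + (b - 1) := by ring
  rw [e]
  refine (Valuation.map_add _ _ _).trans (max_le ?_ (hb1 i))
  rw [map_mul]
  calc val i (a - 1) * val i b ≤ γ * 1 := mul_le_mul' (ha1 i) (hb i)
    _ = γ := mul_one γ

/-- The quotient of an element `≡ 0` modulo `c` in a chart ring of the unit ball by a constant
`π` with `|c| ≤ |π|` lies in the chart ring of the unit ball at every level `R` containing the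
element and `π`. -/
theorem div_mem_chartRing {val : ι → Valuation F Γ₀} {vK : Valuation K Γ₀}
    (hvK : ∀ (i : ι) (a : K), val i (algebraMap K F a) = vK a)
    {ch : Place K F → Prop} {y : F} (hy : y ∈ chartRing ch (ballRing val))
    {c π : K} (hyc : ∀ i, val i y ≤ vK c) (hπ0 : π ≠ 0) (hcπ : vK c ≤ vK π)
    (R : Subfield F) (hyR : y ∈ R) (hπR : algebraMap K F π ∈ R) :
    y * (algebraMap K F π)⁻¹ ∈ chartRing ch (ballRing val ⊓ R.toSubring) := by
  have hπv : vK π ≠ 0 := (map_ne_zero vK).mpr hπ0
  refine ⟨⟨fun i => ?_, R.mul_mem hyR (R.inv_mem hπR)⟩, fun v hv => ?_⟩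
  · rw [map_mul, map_inv₀, hvK]
    exact (mul_inv_le_iff₀ (zero_lt_iff.mpr hπv)).mpr (by
      rw [one_mul]
      exact (hyc i).trans hcπ)
  · rw [map_mul, map_inv₀, adicValuation_algebraMap_eq_one v hπ0, inv_one, mul_one]
    exact hy.2 v hv

/-- **Inverse witnesses from four seeds, at any level.**  Four seeds `e₀ ∈ L₀(D)`,
`e₀' ∈ L₀(-D)`, `e₁ ∈ L₁(D)`, `e₁' ∈ L₁(-D)` of the unit ball, all `≡ 1` modulo the constant `c`,
are inverse witnesses of formal triviality of `D` at precision `π`, over the integrality ring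
`ballRing val ⊓ R`, for EVERY subfield `R` containing the seeds and the constant `π`, as soon as
`|c| ≤ |π|`. -/
theorem isWitness_of_seeds {val : ι → Valuation F Γ₀} {vK : Valuation K Γ₀}
    (hvK : ∀ (i : ι) (a : K), val i (algebraMap K F a) = vK a)
    {c0 c1 c01 : Place K F → Prop} (h0 : ∀ v, c01 v → c0 v) (h1 : ∀ v, c01 v → c1 v)
    {D : Divisor K F} {e0 e0' e1 e1' : F}
    (he0 : e0 ∈ chartMod c0 (ballRing val) D) (he0' : e0' ∈ chartMod c0 (ballRing val) (-D))
    (he1 : e1 ∈ chartMod c1 (ballRing val) D) (he1' : e1' ∈ chartMod c1 (ballRing val) (-D))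
    {c : K} (h0c : ∀ i, val i (e0 - 1) ≤ vK c) (h0c' : ∀ i, val i (e0' - 1) ≤ vK c)
    (h1c : ∀ i, val i (e1 - 1) ≤ vK c) (h1c' : ∀ i, val i (e1' - 1) ≤ vK c)
    (R : Subfield F) {π : K} (hπ0 : π ≠ 0) (hcπ : vK c ≤ vK π)
    (hπR : algebraMap K F π ∈ R)
    (hR0 : e0 ∈ R) (hR0' : e0' ∈ R) (hR1 : e1 ∈ R) (hR1' : e1' ∈ R) :
    IsWitness c0 c1 c01 (ballRing val ⊓ R.toSubring) (algebraMap K F π) D e0 e0' e1 e1' := by
  have hπF : algebraMap K F π ≠ 0 := (map_ne_zero (algebraMap K F)).mpr hπ0
  have key : ∀ {ch : Place K F → Prop} {a b : F}, a * b ∈ chartRing ch (ballRing val) →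
      a ∈ R → b ∈ R → (∀ i, val i (a * b - 1) ≤ vK c) →
      ∃ s ∈ chartRing ch (ballRing val ⊓ R.toSubring), a * b = 1 + algebraMap K F π * s := by
    intro ch a b hab haR hbR hc
    have hy : a * b - 1 ∈ chartRing ch (ballRing val) :=
      (chartRing ch (ballRing val)).sub_mem hab (chartRing ch (ballRing val)).one_mem
    refine ⟨(a * b - 1) * (algebraMap K F π)⁻¹,
      div_mem_chartRing hvK hy hc hπ0 hcπ R (R.sub_mem (R.mul_mem haR hbR) R.one_mem) hπR, ?_⟩
    field_simp
    ring
  refine ⟨⟨⟨he0.1, hR0⟩, he0.2⟩, ⟨⟨he0'.1, hR0'⟩, he0'.2⟩, ⟨⟨he1.1, hR1⟩, he1.2⟩,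
    ⟨⟨he1'.1, hR1'⟩, he1'.2⟩, ?_, ?_, ?_⟩
  · exact key (mul_mem_chartRing_of_neg he0 he0') hR0 hR0'
      (val_mul_sub_one_le he0'.1 h0c h0c')
  · exact key (mul_mem_chartRing_of_neg he1 he1') hR1 hR1'
      (val_mul_sub_one_le he1'.1 h1c h1c')
  · exact key (mul_mem_chartRing_of_neg (chartMod_anti h1 he1) (chartMod_anti h0 he0')) hR1 hR0'
      (val_mul_sub_one_le he0'.1 h1c h0c')

/-- An element `≡ 1` is a unit of the valuation. -/
theorem val_eq_one_of_sub_one_lt (v : Valuation F Γ₀) {x : F} (hx : v (x - 1) < 1) : v x = 1 := by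
  have e : x = 1 + (x - 1) := by ring
  rw [e]
  exact Valuation.map_one_add_of_lt _ hx

/-- The inverse of an element `≡ 1` is `≡ 1`. -/
theorem val_inv_sub_one_lt (v : Valuation F Γ₀) {x : F} (hx : v (x - 1) < 1) :
    v (x⁻¹ - 1) < 1 := by
  have h1 := val_eq_one_of_sub_one_lt v hx
  have h0 : x ≠ 0 := by
    rintro rfl
    rw [map_zero] at h1
    exact zero_ne_one h1
  have e : x⁻¹ - 1 = -((x - 1) * x⁻¹) := by
    field_simp
    ring
  rw [e, Valuation.map_neg, map_mul, map_inv₀, h1, inv_one, mul_one]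
  exact hx

end Abstract

/-! ### The modular instance: level `p * M`, the Gauss valuation of `P` and its `W_p`-twin -/

section Modular

open ModularCurve
open Fermat.Agent.S34.helper584 Fermat.Agent.S35.helper882 Fermat.Agent.S35.helper1219
open Fermat.Agent.S24.helper24

local notation "Qb" => AlgebraicClosure ℚ

/-- The unit ball of the Gauss pair is the intersection of the Gauss ring and its twin. -/
theorem mem_ballRing_gpVal (A : ValuationSubring Qb) (N : ℕ)
    (W : modularFunctionFieldBar N ≃ₐ[Qb] modularFunctionFieldBar N)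
    (f : modularFunctionFieldBar N) :
    f ∈ ballRing (gpVal A N W) ↔ f ∈ gaussV A N ∧ W f ∈ gaussV A N :=
  gpVal_le_one_iff A N W f

/-- A common constant bound: finitely many functions which are small at both Gauss valuations
are bounded there by ONE nonzero constant of the maximal ideal of `A`. -/
theorem exists_const_bound (A : ValuationSubring Qb) (N : ℕ)
    (W : modularFunctionFieldBar N ≃ₐ[Qb] modularFunctionFieldBar N)
    {q : ℕ} [NeZero q] (hA : A.LiesOverPrime q) {T : Type*} [Finite T]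
    (y : T → modularFunctionFieldBar N) (hy : ∀ t i, gpVal A N W i (y t) < 1) :
    ∃ c : Qb, c ≠ 0 ∧ c ∈ A.nonunits ∧ ∀ t i, gpVal A N W i (y t) ≤ gpBase A N c := by
  classical
  have hq0 : (q : Qb) ≠ 0 := Nat.cast_ne_zero.mpr (NeZero.ne q)
  -- one constant for each function and each valuation
  have h1 : ∀ (t : T) (i : Fin 2), ∃ c : Qb, c ≠ 0 ∧ c ∈ A.nonunits ∧
      gpVal A N W i (y t) ≤ gpBase A N c := by
    intro t i
    by_cases h0 : y t = 0
    · refine ⟨(q : Qb), hq0, hA, ?_⟩
      rw [h0, map_zero]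
      exact zero_le
    · obtain ⟨c, hc⟩ := exists_gpBase_eq A N W i (y t) h0
      have hc0 : c ≠ 0 := by
        rintro rfl
        rw [map_zero] at hc
        exact (Valuation.ne_zero_iff _).mpr h0 hc.symm
      refine ⟨c, hc0, (gpBase_lt_one_iff A N c).mp ?_, hc.ge⟩
      rw [hc]
      exact hy t i
  choose c hc0 hcA hc using h1
  let g : Option (T × Fin 2) → Qb := fun o => o.elim (q : Qb) (fun ti => c ti.1 ti.2)
  obtain ⟨o₀, ho₀⟩ := Finite.exists_max (fun o => gpBase A N (g o))
  refine ⟨g o₀, ?_, ?_, fun t i => (hc t i).trans (ho₀ (some (t, i)))⟩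
  · cases o₀ with
    | none => exact hq0
    | some ti => exact hc0 ti.1 ti.2
  · cases o₀ with
    | none => exact hA
    | some ti => exact hcA ti.1 ti.2

variable (p M : ℕ) [NeZero p] [NeZero M] (h : Nat.Coprime p M)

/-- **(SEEDS-J)**, the geometric input of formal triviality at level `p * M`, over `ℚ̄`:
for a valuation subring `P` over `p`, every `p ^ m`-Kummer pair `(u, D)` (`p ^ m • D = div u`)
with `u ≡ 1` at the Gauss valuation of `P` and at its `W_p`-twin has two seeds: a section `a₀` of
`L(D)` on the chart `j ≠ ∞` and a section `b₀` on the chart `j ≠ 0`, both in the two-sided unit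
ball and `≡ 1` at both Gauss valuations.  (Output shape of the count core
`S33.helper2582.exists_seeds_of_charts` on the `j`-charts.) -/
def Stmt_SeedsJ : Prop :=
  ∀ P : ValuationSubring Qb, P.LiesOverPrime p →
    ∀ (m : ℕ) (u : modularFunctionFieldBar (p * M))
      (D : Divisor Qb (modularFunctionFieldBar (p * M))), u ≠ 0 →
      (∀ v : Place Qb (modularFunctionFieldBar (p * M)), ((p ^ m : ℕ) : ℤ) * D v = v.ord u) →
      (∀ i, gpVal P (p * M) (atkinLehnerBar p M h) i (u - 1) < 1) →
      ∃ a₀ ∈ chartMod (OnFin (jBar (p * M)))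
          (ballRing (gpVal P (p * M) (atkinLehnerBar p M h))) D,
        ∃ b₀ ∈ chartMod (OnInf (jBar (p * M)))
            (ballRing (gpVal P (p * M) (atkinLehnerBar p M h))) D,
          (∀ i, gpVal P (p * M) (atkinLehnerBar p M h) i (a₀ - 1) < 1) ∧
          ∀ i, gpVal P (p * M) (atkinLehnerBar p M h) i (b₀ - 1) < 1

variable {p M}

/-- **FORMTRIV-SS, witnesses at every level.**  Let `(D x, u x)`, `x` in a finite type, be
`p ^ m`-Kummer pairs with `u x ≡ 1` at the Gauss valuation of `P` and at its `W_p`-twin.  Then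
there are four seeds per `x` and ONE nonzero constant `c` of the maximal ideal of `P` such that:
for every subfield `R` of the function field containing the seeds and a constant `π` with
`c / π ∈ P`, the seeds are inverse witnesses of formal triviality of `D x` at precision `π`
(`helper5454.IsWitness` on the three `j`-charts) over the integrality ring
`O = gaussV ⊓ W⁻¹ gaussV ⊓ R` (e.g. `R = levelField (p * M) E`: `O = helper1085.ball`). -/
theorem exists_witness (hS : Stmt_SeedsJ p M h) (P : ValuationSubring Qb)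
    (hP : P.LiesOverPrime p) (m : ℕ) {X : Type*} [Finite X]
    (D : X → Divisor Qb (modularFunctionFieldBar (p * M)))
    (u : X → modularFunctionFieldBar (p * M)) (hu : ∀ x, u x ≠ 0)
    (hdiv : ∀ (x : X) (v : Place Qb (modularFunctionFieldBar (p * M))),
      ((p ^ m : ℕ) : ℤ) * D x v = v.ord (u x))
    (h1 : ∀ x, (gaussV P (p * M)).valuation (u x - 1) < 1)
    (h2 : ∀ x, (gaussV P (p * M)).valuation (atkinLehnerBar p M h (u x) - 1) < 1) :
    ∃ (e0 e0' e1 e1' : X → modularFunctionFieldBar (p * M)) (c : Qb), c ≠ 0 ∧ c ∈ P.nonunits ∧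
      ∀ (R : Subfield (modularFunctionFieldBar (p * M)))
        (O : Subring (modularFunctionFieldBar (p * M))),
        (∀ f, f ∈ O ↔ f ∈ gaussV P (p * M) ∧ atkinLehnerBar p M h f ∈ gaussV P (p * M) ∧ f ∈ R) →
        ∀ π : Qb, π ≠ 0 → c * π⁻¹ ∈ P →
          algebraMap Qb (modularFunctionFieldBar (p * M)) π ∈ R →
          (∀ x, e0 x ∈ R ∧ e0' x ∈ R ∧ e1 x ∈ R ∧ e1' x ∈ R) →
          ∀ x, IsWitness (OnFin (jBar (p * M))) (OnInf (jBar (p * M))) (OnMid (jBar (p * M))) O
            (algebraMap Qb (modularFunctionFieldBar (p * M)) π) (D x)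
            (e0 x) (e0' x) (e1 x) (e1' x) := by
  classical
  set W := atkinLehnerBar p M h with hW
  set val := gpVal P (p * M) W with hval
  -- `u x ≡ 1` in the family form
  have hu1 : ∀ x i, val i (u x - 1) < 1 := by
    intro x
    have e : W (u x - 1) = W (u x) - 1 := by rw [map_sub, map_one]
    rw [hval, Fin.forall_fin_two, gpVal_zero, gpVal_one, e]
    exact ⟨h1 x, h2 x⟩
  -- the seeds for `D x` and for `-D x`
  have hS1 := fun x => hS P hP m (u x) (D x) (hu x) (hdiv x) (hu1 x)
  have hS2 := fun x => hS P hP m (u x)⁻¹ (-D x) (inv_ne_zero (hu x))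
    (fun v => by
      rw [Finsupp.neg_apply, mul_neg, hdiv x v, v.ord_inv])
    (fun i => val_inv_sub_one_lt (val i) (hu1 x i))
  choose e0 he0 e1 he1 h0c h1c using hS1
  choose e0' he0' e1' he1' h0c' h1c' using hS2
  -- the common constant
  let y : X × Fin 4 → modularFunctionFieldBar (p * M) := fun t =>
    ![e0 t.1 - 1, e0' t.1 - 1, e1 t.1 - 1, e1' t.1 - 1] t.2
  have hy : ∀ t i, val i (y t) < 1 := by
    rintro ⟨x, k⟩ i
    fin_cases k
    · exact h0c x i
    · exact h0c' x i
    · exact h1c x i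
    · exact h1c' x i
  obtain ⟨c, hc0, hcP, hc⟩ := exists_const_bound P (p * M) W hP y hy
  refine ⟨e0, e0', e1, e1', c, hc0, hcP, ?_⟩
  intro R O hO π hπ0 hcπ hπR hR x
  have hOeq : O = ballRing val ⊓ R.toSubring := by
    ext f
    rw [hO f, Subring.mem_inf, mem_ballRing_gpVal, and_assoc]
    rfl
  rw [hOeq]
  have hle : gpBase P (p * M) c ≤ gpBase P (p * M) π := by
    have h3 := (gpBase_le_one_iff P (p * M) (c * π⁻¹)).mpr hcπ
    rw [map_mul, map_inv₀] at h3
    have hπv : gpBase P (p * M) π ≠ 0 := (map_ne_zero _).mpr hπ0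
    have h4 := (mul_inv_le_iff₀ (zero_lt_iff.mpr hπv)).mp h3
    rwa [one_mul] at h4
  exact isWitness_of_seeds (fun i a => gpVal_algebraMap P (p * M) W i a)
    (fun _ hv => hv.onFin) (fun _ hv => hv.onInf)
    (he0 x) (he0' x) (he1 x) (he1' x)
    (fun i => hc (x, 0) i) (fun i => hc (x, 1) i) (fun i => hc (x, 2) i) (fun i => hc (x, 3) i)
    R hπ0 hle hπR (hR x).1 (hR x).2.1 (hR x).2.2.1 (hR x).2.2.2

end Modular

end Fermat.Agent.S33.helper5683
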