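/-
S33-FIBCOUNT, adapter (J0) (helper2582): the geometric input `helper5683.Stmt_SeedsJ p M h` of
formal triviality (FORMTRIV-SS) follows from the two named facts of the count core at the Gauss
pair, for every valuation subring `P` of `ℚ̄` above `p`:

* `StmtFG p M hpM P`          (finite generation of the integral Cech `H¹` on the `j`-charts);
* `StmtRoot p M hpM P (p^m)`  (`p^m`-th-root closedness of the reduced chart rings), all `m`.

The proof is `seeds_gauss` plus a repacking of the chart-module memberships (the unit ball of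
`helper5683` and the unit ball of `helper2582` have the same carrier).
-/
import Mathlib
import Fermat.Agent.S33.helper5683_FormTriv
import Fermat.Agent.S33.helper2582_FibCountGauss

set_option autoImplicit false

open ModularCurve AlgebraicCurve

noncomputable section

namespace Fermat.Agent.S33.helper2582

open Fermat.Agent.S24.helper24 Fermat.Agent.S35.helper882 Fermat.Agent.S19.helper5454
open Fermat.Agent.S35

/-- **(J0)** `Stmt_SeedsJ` from `StmtFG` and `StmtRoot` (explicit `hpM : ¬ p ∣ M`). -/
theorem stmt_SeedsJ_of_fg_root (p M : ℕ) [NeZero p] [NeZero M] (h : Nat.Coprime p M)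
    [Fact p.Prime] (hpM : ¬ p ∣ M)
    (hFG : ∀ P : ValuationSubring Kbar, P.LiesOverPrime p → StmtFG p M hpM P)
    (hRoot : ∀ P : ValuationSubring Kbar, P.LiesOverPrime p →
      ∀ m : ℕ, StmtRoot p M hpM P (p ^ m)) :
    Fermat.Agent.S33.helper5683.Stmt_SeedsJ p M h := by
  intro P hP m u D hu hD h1
  have hp : p.Prime := Fact.out
  obtain ⟨a, ha, b, hb, h2, h3⟩ :=
    seeds_gauss p M hpM P hP (p ^ m) (pow_ne_zero m hp.ne_zero) u D hu hD h1 (hFG P hP)
      (hRoot P hP m)
  exact ⟨a, ⟨ha.1, ha.2⟩, b, ⟨hb.1, hb.2⟩, h2, h3⟩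

/-- `¬ p ∣ M` from coprimality, for a prime `p`. -/
theorem not_dvd_of_coprime_prime {p M : ℕ} [Fact p.Prime] (h : Nat.Coprime p M) : ¬ p ∣ M :=
  (Nat.Prime.coprime_iff_not_dvd Fact.out).mp h

/-- **(J0)**, with `¬ p ∣ M` read off the coprimality hypothesis. -/
theorem stmt_SeedsJ_of_fg_root_coprime (p M : ℕ) [NeZero p] [NeZero M] (h : Nat.Coprime p M)
    [Fact p.Prime]
    (hFG : ∀ P : ValuationSubring Kbar, P.LiesOverPrime p →
      StmtFG p M (not_dvd_of_coprime_prime h) P)
    (hRoot : ∀ P : ValuationSubring Kbar, P.LiesOverPrime p →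
      ∀ m : ℕ, StmtRoot p M (not_dvd_of_coprime_prime h) P (p ^ m)) :
    Fermat.Agent.S33.helper5683.Stmt_SeedsJ p M h :=
  stmt_SeedsJ_of_fg_root p M h (not_dvd_of_coprime_prime h) hFG hRoot

end Fermat.Agent.S33.helper2582
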