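import Fermat.Agent.S34.helper1336_Core
import Fermat.Agent.S31.helper74_GenCheb

/-!
# S33 (helper1600): the determinant of a Hecke--Galois datum is cyclotomic

`detIsCyclotomic` : for a Hecke--Galois datum `H` with `p ∈ S`, the frozen
`H.ρ.DetIsCyclotomic p`: if `σ` acts on the `p ^ n`-th roots of unity by `μ ↦ μ ^ a`, then
`det ρ(σ) - a ∈ (p ^ n)`.  Inputs: generator-Chebotarev (on main), `charpoly_frob`, adic
continuity, and Krull's intersection theorem in `T ⧸ (p ^ n)`.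
-/

set_option autoImplicit false

namespace Fermat.Agent.S33.helper1600

open CuspForm

local notation "Qb" => AlgebraicClosure ℚ
local notation "GQ" => (AlgebraicClosure ℚ ≃ₐ[ℚ] AlgebraicClosure ℚ)

/-- In a Noetherian local ring every ideal is closed for the adic topology of the maximal
ideal: if `x ∈ 𝔪 ^ k + I` for every `k`, then `x ∈ I`. -/
theorem mem_of_forall_mem_pow_add {T : Type*} [CommRing T] [IsLocalRing T] [IsNoetherianRing T]
    (I : Ideal T) (x : T)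
    (h : ∀ k : ℕ, ∃ y ∈ IsLocalRing.maximalIdeal T ^ k, ∃ z ∈ I, x = y + z) : x ∈ I := by
  have hkrull := Ideal.iInf_pow_smul_eq_bot_of_isLocalRing (R := T) (M := T ⧸ I)
    (IsLocalRing.maximalIdeal T) (Ideal.IsMaximal.ne_top inferInstance)
  have hmem : (Ideal.Quotient.mk I x : T ⧸ I) ∈
      (⨅ i : ℕ, IsLocalRing.maximalIdeal T ^ i • ⊤ : Submodule T (T ⧸ I)) := by
    rw [Submodule.mem_iInf]
    intro k
    obtain ⟨y, hy, z, hz, rfl⟩ := h k
    have h1 : (Ideal.Quotient.mk I (y + z) : T ⧸ I) = y • (Ideal.Quotient.mk I 1 : T ⧸ I) := by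
      rw [map_add, Ideal.Quotient.eq_zero_iff_mem.mpr hz, add_zero, map_one, Algebra.smul_def,
        mul_one]
      rfl
    rw [h1]
    exact Submodule.smul_mem_smul hy Submodule.mem_top
  rw [hkrull, Submodule.mem_bot] at hmem
  exact Ideal.Quotient.eq_zero_iff_mem.mp hmem

variable {p : ℕ} {N : ℕ} [NeZero N] {S : Finset ℕ}
  {𝒪 : Type} [CommRing 𝒪] [IsDomain 𝒪] [IsDiscreteValuationRing 𝒪]
  [IsAdicComplete (IsLocalRing.maximalIdeal 𝒪) 𝒪]
  {θ : CuspForm.heckeAlgebra N 2 (↑S : Set ℕ) →+* IsLocalRing.ResidueField 𝒪}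
  {T : Type} [CommRing T] [IsLocalRing T] [IsNoetherianRing T]
  [IsAdicComplete (IsLocalRing.maximalIdeal T) T] [Algebra 𝒪 T] [IsLocalHom (algebraMap 𝒪 T)]
  [Module.Finite 𝒪 T] [Module.Free 𝒪 T]

/-- **DETCYC.** The determinant of the representation of a Hecke--Galois datum is the `p`-adic
cyclotomic character (frozen `GaloisRepAdic.DetIsCyclotomic`). -/
theorem detIsCyclotomic (hp : p.Prime) (hp𝒪 : (p : 𝒪) ∈ IsLocalRing.maximalIdeal 𝒪)
    (hpS : p ∈ S) (H : CuspForm.HeckeGaloisRepDatum N (↑S : Set ℕ) 𝒪 θ T) :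
    H.ρ.DetIsCyclotomic p := by
  classical
  have hpT : (p : T) ∈ IsLocalRing.maximalIdeal T :=
    Fermat.Agent.S31.helper8024.natCast_mem_maximalIdeal hp𝒪
  refine ⟨hpT, ?_⟩
  intro n σ a hσ
  refine mem_of_forall_mem_pow_add _ _ fun k => ?_
  obtain ⟨L₁, hL₁fin, hL₁⟩ := H.ρ.isAdicContinuous k
  have : NeZero ((p : ℕ) : Qb) := ⟨Nat.cast_ne_zero.mpr hp.ne_zero⟩
  obtain ⟨ζ, hζ⟩ := HasEnoughRootsOfUnity.exists_primitiveRoot Qb (p ^ n)
  have hpn : 0 < p ^ n := pow_pos hp.pos n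
  have := hL₁fin
  have : FiniteDimensional ℚ (IntermediateField.adjoin ℚ ({ζ} : Set Qb)) :=
    IntermediateField.adjoin.finiteDimensional ((hζ.isIntegral hpn).tower_top (R := ℤ))
  have hKfin : FiniteDimensional ℚ (L₁ ⊔ IntermediateField.adjoin ℚ ({ζ} : Set Qb) :
      IntermediateField ℚ Qb) := IntermediateField.finiteDimensional_sup _ _
  have hN0 : N ≠ 0 := NeZero.ne N
  obtain ⟨ℓ, A, s, a', hℓ, hℓS', hA, hs, hsg⟩ :=
    Fermat.Agent.S31.helper74.genCheb_8024 _ hKfin (S ∪ N.primeFactors) σ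
  rw [Finset.mem_union, not_or] at hℓS'
  have hℓS : ℓ ∉ (↑S : Set ℕ) := fun h => hℓS'.1 (Finset.mem_coe.mp h)
  have hℓN : ¬ ℓ ∣ N := fun h => hℓS'.2 (Nat.mem_primeFactors.mpr ⟨hℓ, h, hN0⟩)
  have hℓp : ℓ ≠ p := fun h => hℓS'.1 (h ▸ hpS)
  have hζK : ζ ∈ L₁ ⊔ IntermediateField.adjoin ℚ ({ζ} : Set Qb) :=
    (le_sup_right : _ ≤ L₁ ⊔ IntermediateField.adjoin ℚ ({ζ} : Set Qb))
      (IntermediateField.mem_adjoin_simple_self ℚ ζ)
  have hle₁ : L₁ ≤ L₁ ⊔ IntermediateField.adjoin ℚ ({ζ} : Set Qb) := le_sup_left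
  have hζpow : ζ ^ (p ^ n) = 1 := hζ.pow_eq_one
  have hcop : Nat.Coprime ℓ (p ^ n) :=
    Nat.Coprime.pow_right n ((Nat.coprime_primes hℓ hp).mpr hℓp)
  have e1 : (s ^ a') ζ = ζ ^ (ℓ ^ a') :=
    Fermat.Agent.S31.helper5402.frob_pow_apply_of_pow_eq_one hA hs hcop hζpow a'
  have e3 : ζ ^ (ℓ ^ a') = ζ ^ a := by
    rw [← e1, hsg ζ hζK, hσ ζ hζpow]
  have hmod : ℓ ^ a' ≡ a [MOD p ^ n] :=
    Fermat.Agent.S31.helper5402.modEq_of_pow_eq_pow hζ hpn e3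
  obtain ⟨c, hc⟩ : ∃ c : ℤ, ((ℓ : ℤ) ^ a' - (a : ℤ)) = ((p ^ n : ℕ) : ℤ) * c := by
    obtain ⟨c, hc⟩ := Nat.modEq_iff_dvd.mp hmod.symm
    exact ⟨c, by push_cast at hc ⊢; linarith⟩
  have d1 := Fermat.Agent.S34.helper1336.det_sub_det_mem H.ρ k L₁ hL₁ σ (s ^ a')
    fun x hx => (hsg x (hle₁ hx)).symm
  rw [Fermat.Agent.S34.helper1336.det_frob_pow H hℓ hℓN hℓS A hA s hs a'] at d1
  refine ⟨_, d1, ((p ^ n : ℕ) : T) * (c : T), Ideal.mul_mem_right _ _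
    (Ideal.subset_span (Set.mem_singleton _)), ?_⟩
  have h4 := congrArg (Int.cast : ℤ → T) hc
  push_cast at h4
  push_cast
  rw [← h4]
  ring

end Fermat.Agent.S33.helper1600
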