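import Mathlib
import Fermat.Prelude.Def_FLTPrelim_Ramification
import Fermat.Prelude.Def_GaloisRep_LocalConditions
import Fermat.Agent.S58.helper6024_Unram

/-!
# S33 brick (helper6050): inertia at an odd prime `p` moves the `p`-th roots of unity

`Qb := AlgebraicClosure ℚ`.  For an odd prime `p`, a valuation subring `P` of `Qb` over `p` and a
primitive `p`-th root of unity `ζ`:

* `exists_inertia_apply_ne` : there is `t ∈ P.inertiaSubgroupIn ℚ` with `t ζ ≠ ζ`.

Proof: otherwise all the `1 - ζ ^ k` are inertia-fixed; by the product formula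
`∏_{k=1}^{p-1} (1 - ζ ^ k) = p` one of them is a non-unit of `P`, and then so is its "mirror"
`1 - ζ ^ (p - k)` (a different factor, because `p` is odd); by the landed
`Fermat.Agent.S58.helper6024.unram` (inertia-fixed non-units are divisible by `p`) both have
valuation `≤ v(p)`, hence `v(p) ≤ v(p) ^ 2`, which is absurd.

Consequences in the shape the S33 endgame consumes (the element `t₀` of findings #2600 (1)):

* `exists_inertia_exists_root_ne` : the same in the `∀ P, … → ∃ t ∈ I_P, ∃ ζ, ζ ^ p = 1 ∧ t ζ ≠ ζ`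
  hypothesis shape;
* `exists_inertia_forall_not_modEq`, `exists_inertia_forall_isUnit_natCast_sub_one` : one
  `t₀ ∈ I_P` all of whose exponents `a` on `μ_{p^n}` (`n ≠ 0`) have `a ≢ 1 mod p`, resp. `a - 1` a
  unit in every local ring with `p` in its maximal ideal;
* `exists_inertia_apply_eq_pow` : `t ∈ I_P`, `c : ℕ` with `t μ = μ ^ c` on `μ_p` and `c - 1`
  prime to `p`;
* `exists_inertia_isUnit_det_sub_one` : for a `GaloisRepAdic` over a local ring with cyclotomic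
  determinant (`DetIsCyclotomic p`), some `t₀ ∈ I_P` has `IsUnit (det (ρ t₀) - 1)`.
-/

set_option autoImplicit false

namespace Fermat.Agent.S33.helper6050

local notation "Qb" => AlgebraicClosure ℚ
local notation "GQ" => (AlgebraicClosure ℚ ≃ₐ[ℚ] AlgebraicClosure ℚ)

/-- Roots of unity have valuation `1` at every valuation subring. -/
theorem valuation_eq_one_of_pow_eq_one (A : ValuationSubring Qb) {x : Qb} {m : ℕ} (hm : m ≠ 0)
    (hx : x ^ m = 1) : A.valuation x = 1 := by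
  have h : A.valuation x ^ m = 1 := by rw [← map_pow, hx, map_one]
  rcases pow_eq_one_iff.mp h with h1 | h1
  · exact h1
  · exact absurd h1 hm

/-- `1 - x` has valuation `≤ 1` for a root of unity `x`. -/
theorem valuation_one_sub_le_one (A : ValuationSubring Qb) {x : Qb} {m : ℕ} (hm : m ≠ 0)
    (hx : x ^ m = 1) : A.valuation (1 - x) ≤ 1 := by
  refine (A.valuation.map_sub 1 x).trans ?_
  rw [map_one, valuation_eq_one_of_pow_eq_one A hm hx, max_self]

/-- **Inertia at an odd prime `p` acts non-trivially on the `p`-th roots of unity.** -/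
theorem exists_inertia_apply_ne {p : ℕ} (hp : p.Prime) (hp2 : p ≠ 2) (P : ValuationSubring Qb)
    (hP : P.LiesOverPrime p) {ζ : Qb} (hζ : IsPrimitiveRoot ζ p) :
    ∃ t ∈ P.inertiaSubgroupIn ℚ, t ζ ≠ ζ := by
  by_contra hcon
  push Not at hcon
  obtain ⟨n, rfl⟩ : ∃ n, p = n + 1 := ⟨p - 1, (Nat.sub_add_cancel hp.one_lt.le).symm⟩
  have hp0 : ((n + 1 : ℕ) : Qb) ≠ 0 := by exact_mod_cast hp.ne_zero
  have hvp : P.valuation ((n + 1 : ℕ) : Qb) < 1 := (P.mem_nonunits_iff).mp hP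
  have hvp0 : 0 < P.valuation ((n + 1 : ℕ) : Qb) :=
    zero_lt_iff.mpr ((Valuation.ne_zero_iff _).mpr hp0)
  have hζp : ζ ^ (n + 1) = 1 := hζ.pow_eq_one
  -- the factors
  set a : ℕ → Qb := fun k => 1 - ζ ^ (k + 1) with ha
  have hpow : ∀ k : ℕ, (ζ ^ (k + 1)) ^ (n + 1) = 1 := fun k => by
    rw [← pow_mul, mul_comm, pow_mul, hζp, one_pow]
  have hle : ∀ k, P.valuation (a k) ≤ 1 := fun k =>
    valuation_one_sub_le_one P (Nat.succ_ne_zero n) (hpow k)
  have hfix : ∀ k, ∀ σ ∈ P.inertiaSubgroupIn ℚ, σ (a k) = a k := fun k σ hσ => by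
    simp only [ha, map_sub, map_one, map_pow, hcon σ hσ]
  have hdiv : ∀ k, P.valuation (a k) < 1 → P.valuation (a k) ≤ P.valuation ((n + 1 : ℕ) : Qb) := by
    intro k hk
    have h := Fermat.Agent.S58.helper6024.unram hp P hP (a k) (hfix k) hk
    rw [map_div₀] at h
    exact (div_le_one₀ hvp0).mp h
  have hprod : ∏ k ∈ Finset.range n, a k = ((n + 1 : ℕ) : Qb) := by
    have := hζ.prod_one_sub_pow_eq_order
    simpa [ha] using this
  have hvprod : ∏ k ∈ Finset.range n, P.valuation (a k) = P.valuation ((n + 1 : ℕ) : Qb) := by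
    rw [← hprod, map_prod]
  -- some factor is a non-unit
  obtain ⟨k₀, hk₀n, hk₀⟩ : ∃ k₀ ∈ Finset.range n, P.valuation (a k₀) < 1 := by
    by_contra hall
    push Not at hall
    have h1 : ∏ k ∈ Finset.range n, P.valuation (a k) = 1 :=
      Finset.prod_eq_one fun k hk => le_antisymm (hle k) (hall k hk)
    rw [hvprod] at h1
    exact absurd h1 hvp.ne
  rw [Finset.mem_range] at hk₀n
  -- the mirror factor
  set k₁ : ℕ := n - 1 - k₀ with hk₁
  have hk₁n : k₁ < n := by omega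
  have hsum : (k₁ + 1) + (k₀ + 1) = n + 1 := by omega
  have hne : k₁ ≠ k₀ := by
    intro h
    have h2 : n + 1 = 2 * (k₀ + 1) := by omega
    have h3 : 2 ∣ n + 1 := ⟨k₀ + 1, h2⟩
    exact hp2 ((Nat.prime_dvd_prime_iff_eq Nat.prime_two hp).mp h3).symm
  have hmirror : a k₁ = -(ζ ^ (k₁ + 1)) * a k₀ := by
    have h1 : ζ ^ (k₁ + 1) * ζ ^ (k₀ + 1) = 1 := by rw [← pow_add, hsum, hζp]
    simp only [ha]
    linear_combination -h1
  have hk₁ : P.valuation (a k₁) < 1 := by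
    rw [hmirror, map_mul, Valuation.map_neg,
      valuation_eq_one_of_pow_eq_one P (Nat.succ_ne_zero n) (hpow k₁), one_mul]
    exact hk₀
  -- split the product
  have hsplit : ∏ k ∈ Finset.range n, P.valuation (a k) =
      P.valuation (a k₀) * (P.valuation (a k₁) *
        ∏ k ∈ ((Finset.range n).erase k₀).erase k₁, P.valuation (a k)) := by
    rw [← Finset.mul_prod_erase (Finset.range n) _ (Finset.mem_range.mpr hk₀n),
      ← Finset.mul_prod_erase ((Finset.range n).erase k₀) _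
        (Finset.mem_erase.mpr ⟨hne, Finset.mem_range.mpr hk₁n⟩)]
  have hrest : ∏ k ∈ ((Finset.range n).erase k₀).erase k₁, P.valuation (a k) ≤ 1 :=
    Finset.prod_le_one' fun k _ => hle k
  have hfinal : P.valuation ((n + 1 : ℕ) : Qb) ≤
      P.valuation ((n + 1 : ℕ) : Qb) * P.valuation ((n + 1 : ℕ) : Qb) := by
    calc P.valuation ((n + 1 : ℕ) : Qb)
        = P.valuation (a k₀) * (P.valuation (a k₁) *
            ∏ k ∈ ((Finset.range n).erase k₀).erase k₁, P.valuation (a k)) := by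
          rw [← hsplit, hvprod]
      _ ≤ P.valuation ((n + 1 : ℕ) : Qb) * (P.valuation ((n + 1 : ℕ) : Qb) * 1) :=
          mul_le_mul' (hdiv k₀ hk₀) (mul_le_mul' (hdiv k₁ hk₁) hrest)
      _ = P.valuation ((n + 1 : ℕ) : Qb) * P.valuation ((n + 1 : ℕ) : Qb) := by rw [mul_one]
  have hlt : P.valuation ((n + 1 : ℕ) : Qb) * P.valuation ((n + 1 : ℕ) : Qb) <
      P.valuation ((n + 1 : ℕ) : Qb) := by
    have := mul_lt_mul_of_pos_left hvp hvp0
    rwa [mul_one] at this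
  exact absurd hfinal (not_le.mpr hlt)

/-- The brick in the hypothesis shape `hT0` of the S33 tops: for every `P` over the odd prime `p`
some `t ∈ I_P` moves some `p`-th root of unity. -/
theorem exists_inertia_exists_root_ne {p : ℕ} (hp : p.Prime) (hp2 : p ≠ 2) :
    ∀ P : ValuationSubring Qb, P.LiesOverPrime p →
      ∃ t ∈ P.inertiaSubgroupIn ℚ, ∃ ζ : Qb, ζ ^ p = 1 ∧ t ζ ≠ ζ := by
  intro P hP
  have : NeZero (p : ℚ) := ⟨by exact_mod_cast hp.ne_zero⟩
  have : NeZero p := ⟨hp.ne_zero⟩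
  obtain ⟨ζ, hζ⟩ := HasEnoughRootsOfUnity.exists_primitiveRoot Qb p
  obtain ⟨t, ht, hne⟩ := exists_inertia_apply_ne hp hp2 P hP hζ
  exact ⟨t, ht, ζ, hζ.pow_eq_one, hne⟩

/-- One `t₀ ∈ I_P` such that EVERY exponent `a` of `t₀` on the `p ^ n`-th roots of unity
(`n ≠ 0`) satisfies `a ≢ 1 mod p` (`p` odd). -/
theorem exists_inertia_forall_not_modEq {p : ℕ} (hp : p.Prime) (hp2 : p ≠ 2)
    (P : ValuationSubring Qb) (hP : P.LiesOverPrime p) :
    ∃ t₀ ∈ P.inertiaSubgroupIn ℚ, ∀ n : ℕ, n ≠ 0 → ∀ a : ℕ,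
      (∀ μ : Qb, μ ^ (p ^ n) = 1 → t₀ μ = μ ^ a) → ¬ a ≡ 1 [MOD p] := by
  have : NeZero (p : ℚ) := ⟨by exact_mod_cast hp.ne_zero⟩
  have : NeZero p := ⟨hp.ne_zero⟩
  obtain ⟨ζ, hζ⟩ := HasEnoughRootsOfUnity.exists_primitiveRoot Qb p
  obtain ⟨t, ht, hne⟩ := exists_inertia_apply_ne hp hp2 P hP hζ
  refine ⟨t, ht, fun n hn a ha hmod => hne ?_⟩
  have hζn : ζ ^ (p ^ n) = 1 := by
    obtain ⟨m, rfl⟩ := Nat.exists_eq_succ_of_ne_zero hn
    rw [pow_succ', pow_mul, hζ.pow_eq_one, one_pow]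
  rw [ha ζ hζn]
  have key : ∀ m : ℕ, ζ ^ m = ζ ^ (m % p) := fun m => by
    conv_lhs => rw [← Nat.mod_add_div m p, pow_add, pow_mul, hζ.pow_eq_one, one_pow, mul_one]
  have h1 : ζ ^ a = ζ ^ 1 := by
    rw [key a, key 1]
    exact congrArg (fun m => ζ ^ m) hmod
  rw [h1, pow_one]

/-- There is `t ∈ I_P` acting on the `p`-th roots of unity by `μ ↦ μ ^ c` with `c ≢ 1 mod p`
(`p` odd). -/
theorem exists_inertia_apply_eq_pow {p : ℕ} (hp : p.Prime) (hp2 : p ≠ 2)
    (P : ValuationSubring Qb) (hP : P.LiesOverPrime p) :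
    ∃ t ∈ P.inertiaSubgroupIn ℚ, ∃ c : ℕ,
      (∀ μ : Qb, μ ^ p = 1 → t μ = μ ^ c) ∧ ¬ c ≡ 1 [MOD p] := by
  have : NeZero (p : ℚ) := ⟨by exact_mod_cast hp.ne_zero⟩
  have : NeZero p := ⟨hp.ne_zero⟩
  obtain ⟨ζ, hζ⟩ := HasEnoughRootsOfUnity.exists_primitiveRoot Qb p
  obtain ⟨t, ht, hne⟩ := exists_inertia_apply_ne hp hp2 P hP hζ
  have htζ : (t ζ) ^ p = 1 := by rw [← map_pow, hζ.pow_eq_one, map_one]
  obtain ⟨c, -, hcζ⟩ := hζ.eq_pow_of_pow_eq_one htζ
  refine ⟨t, ht, c, fun μ hμ => ?_, fun hmod => hne ?_⟩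
  · obtain ⟨j, -, rfl⟩ := hζ.eq_pow_of_pow_eq_one hμ
    rw [map_pow, ← hcζ, ← pow_mul, ← pow_mul, mul_comm]
  · rw [← hcζ]
    have key : ∀ m : ℕ, ζ ^ m = ζ ^ (m % p) := fun m => by
      conv_lhs => rw [← Nat.mod_add_div m p, pow_add, pow_mul, hζ.pow_eq_one, one_pow, mul_one]
    have h1 : ζ ^ c = ζ ^ 1 := by
      rw [key c, key 1]
      exact congrArg (fun m => ζ ^ m) hmod
    rw [h1, pow_one]

/-- In a local ring with `p` in the maximal ideal, `c - 1` is a unit when `c ≢ 1 mod p`. -/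
theorem isUnit_natCast_sub_one {A : Type*} [CommRing A] [IsLocalRing A] {p : ℕ} (hp : p.Prime)
    (hpA : (p : A) ∈ IsLocalRing.maximalIdeal A) {c : ℕ} (hc : ¬ c ≡ 1 [MOD p]) :
    IsUnit ((c : A) - 1) := by
  have hndvd : ¬ (p : ℤ) ∣ (c : ℤ) - 1 := by
    intro h
    apply hc
    exact ((Nat.modEq_iff_dvd (n := p) (a := 1) (b := c)).mpr (by simpa using h)).symm
  have hcop : IsCoprime (p : ℤ) ((c : ℤ) - 1) :=
    (Nat.prime_iff_prime_int.mp hp).irreducible.coprime_iff_not_dvd.mpr hndvd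
  obtain ⟨u, v, huv⟩ := hcop
  have h1 : (u : A) * (p : A) + (v : A) * ((c : A) - 1) = 1 := by
    have := congrArg (Int.cast : ℤ → A) huv
    push_cast at this
    exact this
  have h2 : IsUnit ((v : A) * ((c : A) - 1)) := by
    apply IsLocalRing.isUnit_of_mem_nonunits_one_sub_self
    have h3 : 1 - (v : A) * ((c : A) - 1) = (u : A) * (p : A) := by linear_combination -h1
    rw [h3]
    exact Ideal.mul_mem_left _ _ hpA
  exact isUnit_of_mul_isUnit_right h2

/-- One `t₀ ∈ I_P` such that for EVERY local ring `A` with `p ∈ 𝔪_A` and every exponent `a` of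
`t₀` on the `p ^ n`-th roots of unity (`n ≠ 0`), `a - 1` is a unit of `A`. -/
theorem exists_inertia_forall_isUnit_natCast_sub_one.{u} {p : ℕ} (hp : p.Prime) (hp2 : p ≠ 2)
    (P : ValuationSubring Qb) (hP : P.LiesOverPrime p) :
    ∃ t₀ ∈ P.inertiaSubgroupIn ℚ, ∀ (A : Type u) [CommRing A] [IsLocalRing A],
      (p : A) ∈ IsLocalRing.maximalIdeal A → ∀ n : ℕ, n ≠ 0 → ∀ a : ℕ,
      (∀ μ : Qb, μ ^ (p ^ n) = 1 → t₀ μ = μ ^ a) → IsUnit ((a : A) - 1) := by
  obtain ⟨t, ht, h⟩ := exists_inertia_forall_not_modEq hp hp2 P hP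
  exact ⟨t, ht, fun A _ _ hpA n hn a ha => isUnit_natCast_sub_one hp hpA (h n hn a ha)⟩

/-- **The element `t₀`**, abstract form: if `d : G_ℚ → A` is congruent modulo the maximal ideal
to the mod `p` cyclotomic exponent on the inertia group `I_P` (`p` odd, `P ∣ p`, `p ∈ 𝔪_A`), then
`d t₀ - 1` is a unit for some `t₀ ∈ I_P`. -/
theorem exists_inertia_isUnit_sub_one {A : Type*} [CommRing A] [IsLocalRing A] {p : ℕ}
    (hp : p.Prime) (hp2 : p ≠ 2) (hpA : (p : A) ∈ IsLocalRing.maximalIdeal A)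
    (P : ValuationSubring Qb) (hP : P.LiesOverPrime p) (d : GQ → A)
    (hd : ∀ t ∈ P.inertiaSubgroupIn ℚ, ∀ c : ℕ, (∀ μ : Qb, μ ^ p = 1 → t μ = μ ^ c) →
      d t - (c : A) ∈ IsLocalRing.maximalIdeal A) :
    ∃ t₀ ∈ P.inertiaSubgroupIn ℚ, IsUnit (d t₀ - 1) := by
  obtain ⟨t, ht, c, hc, hc1⟩ := exists_inertia_apply_eq_pow hp hp2 P hP
  refine ⟨t, ht, ?_⟩
  have hmem := hd t ht c hc
  have hu := isUnit_natCast_sub_one hp hpA hc1
  rw [← IsLocalRing.notMem_maximalIdeal] at hu ⊢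
  intro h
  apply hu
  have h3 : (c : A) - 1 = (d t - 1) - (d t - (c : A)) := by ring
  rw [h3]
  exact Ideal.sub_mem _ h hmem

/-- **The element `t₀`** for a representation with cyclotomic determinant: some `t₀ ∈ I_P` has
`det (ρ t₀) - 1` a unit (`p` odd, `P ∣ p`). -/
theorem exists_inertia_isUnit_det_sub_one {A : Type} [CommRing A] [IsLocalRing A]
    (ρ : GaloisRepAdic A) {p : ℕ} (hp : p.Prime) (hp2 : p ≠ 2) (hdet : ρ.DetIsCyclotomic p)
    (P : ValuationSubring Qb) (hP : P.LiesOverPrime p) :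
    ∃ t₀ ∈ P.inertiaSubgroupIn ℚ, IsUnit (LinearMap.det (ρ.ρ t₀) - 1) := by
  refine exists_inertia_isUnit_sub_one hp hp2 hdet.1 P hP (fun t => LinearMap.det (ρ.ρ t)) ?_
  intro t _ c hc
  have h1 := hdet.2 1 t c (fun μ hμ => hc μ (by simpa using hμ))
  have hle : Ideal.span {((p ^ 1 : ℕ) : A)} ≤ IsLocalRing.maximalIdeal A := by
    rw [Ideal.span_singleton_le_iff_mem]
    simpa using hdet.1
  exact hle h1

end Fermat.Agent.S33.helper6050
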