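/-
S33, board leaf "S33-LEVEL" (helper7248): LEVEL DESCENT of the `J`-level local statement.

The geometric inputs of the S33 route (two-component model of `X₀(N)` at `p ∥ N`: genus
inequality on the Hauptmodul line `t_r`, node count, twisted lattices) are available only at
levels `N'` divisible by an auxiliary prime `r ∈ {2, 3}`, `r ≠ p`.  The local statement consumed
by the top of S33 (`Stmt_LocalJ`, the shape announced in `team_s33_chat` #30) is a statement
about Galois-stable pairs `B ≤ A` of subgroups of a finite power of `J₀(N)[p^m]`; it descends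
along every injective Galois-equivariant homomorphism `J₀(N) →+ J₀(N')`, in particular along
`β_r^* : J₀(N) → J₀(N.lcm r)` (`S19.helper2289.exists_lcm`, hypothesis-free).

* `CycExp`, `OrdChain`, `WeakOrd`, `StrongOrd`, `Stmt_LocalJ`, `Stmt_LocalJStrong` : the local
  statement (weak form `(y - 1) A ⊆ (t - 1)² A + B`, strong form `(x - a)(y - 1) A ⊆ B`);
* `OrdChain.map`, `WeakOrd.of_map`, `StrongOrd.of_map` : transfer along an injective equivariant
  additive map (generic, no modular input);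
* `torsMapZ`, `powMap` : the maps induced by `φ : J₀(N) →+ J₀(N')` on torsion and on powers;
* `stmt_LocalJ_of_level`, `stmt_LocalJ_of_lcm`, `stmt_LocalJ_of_aux` (and the `Strong` twins):
  the level descent; `stmt_LocalJ_of_aux` is the consumer form "the local statement at all
  levels divisible by `r` gives it at all levels"; `stmt_LocalJ_of_even_mul` is the same in the
  `p * M` vocabulary of the S33 Spec (`M` even, coprime to `p`).
-/
import Mathlib
import Fermat.Agent.S32.helper1215_Top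
import Fermat.Agent.S19.helper2289_Level

set_option autoImplicit false

noncomputable section

namespace Fermat.Agent.S33.helper7248

open ModularCurve AlgebraicCurve
open Fermat.Agent.S32.helper1215 (torsAct coe_torsAct)

local notation "Qb" => AlgebraicClosure ℚ
local notation "GQ" => (AlgebraicClosure ℚ ≃ₐ[ℚ] AlgebraicClosure ℚ)

/-! ## The local statement -/

/-- `σ` acts on the `n`-th roots of unity by `μ ↦ μ ^ a`. -/
def CycExp (n : ℕ) (σ : GQ) (a : ℕ) : Prop := ∀ μ : Qb, μ ^ n = 1 → σ μ = μ ^ a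

/-- A chain from `B` to `A`, stable under `Γ`, with steps killed by `p` on which `Γ` acts
trivially or through the cyclotomic exponent. -/
def OrdChain (p : ℕ) (Γ : Set GQ) {U : Type*} [AddCommGroup U] (act : GQ → U → U)
    (B A : AddSubgroup U) : Prop :=
  ∃ (k : ℕ) (C : ℕ → AddSubgroup U), C 0 = B ∧ C k = A ∧
    (∀ i, ∀ γ ∈ Γ, ∀ c ∈ C i, act γ c ∈ C i) ∧
    ∀ i < k, C i ≤ C (i + 1) ∧ (∀ c ∈ C (i + 1), p • c ∈ C i) ∧
      ((∀ γ ∈ Γ, ∀ c ∈ C (i + 1), act γ c - c ∈ C i) ∨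
        (∀ γ ∈ Γ, ∀ a : ℕ, CycExp p γ a → ∀ c ∈ C (i + 1), act γ c - a • c ∈ C i))

/-- Weak ordinarity of the pair `B ≤ A`: `(y - 1) A ⊆ (t - 1)² A + B`. -/
def WeakOrd {U : Type*} [AddCommGroup U] (act : GQ → U → U) (t y : GQ)
    (B A : AddSubgroup U) : Prop :=
  ∀ v ∈ A, ∃ w ∈ A, (act y v - v) - (act t (act t w - w) - (act t w - w)) ∈ B

/-- Strong ordinarity of the pair `B ≤ A`: `(x - a)(y - 1) A ⊆ B`. -/
def StrongOrd {U : Type*} [AddCommGroup U] (act : GQ → U → U) (x : GQ) (a : ℕ) (y : GQ)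
    (B A : AddSubgroup U) : Prop :=
  ∀ v ∈ A, act x (act y v - v) - a • (act y v - v) ∈ B

/-- **The `J`-level local statement** (weak form, shape of `team_s33_chat` #30): for every place
`P` over `p`, every pair `B ≤ A` of subgroups of a finite power of `J₀(N)[p^m]` joined by an
inertia-stable chain with steps trivial or cyclotomic, every `t` in the inertia group whose
exponent on `μ_p` is not `1`, and every `y` in the inertia group: `(y - 1) A ⊆ (t - 1)² A + B`. -/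
def Stmt_LocalJ (N p : ℕ) : Prop :=
  ∀ P : ValuationSubring Qb, P.LiesOverPrime p →
    ∀ (m r : ℕ) (B A : AddSubgroup (Fin r → ↥(Submodule.torsionBy ℤ (JZero N) ((p : ℤ) ^ m)))),
      OrdChain p (P.inertiaSubgroupIn ℚ) (fun σ x i => torsAct N ((p : ℤ) ^ m) σ (x i)) B A →
      ∀ t ∈ P.inertiaSubgroupIn ℚ, ∀ a : ℕ, CycExp p t a → ¬ a ≡ 1 [MOD p] →
        ∀ y ∈ P.inertiaSubgroupIn ℚ,
          WeakOrd (fun σ x i => torsAct N ((p : ℤ) ^ m) σ (x i)) t y B A

/-- **The `J`-level local statement, strong form**: `(x - a)(y - 1) A ⊆ B` for `x`, `y` in the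
inertia group and `a` the exponent of `x` on `μ_{p^m}`. -/
def Stmt_LocalJStrong (N p : ℕ) : Prop :=
  ∀ P : ValuationSubring Qb, P.LiesOverPrime p →
    ∀ (m r : ℕ) (B A : AddSubgroup (Fin r → ↥(Submodule.torsionBy ℤ (JZero N) ((p : ℤ) ^ m)))),
      OrdChain p (P.inertiaSubgroupIn ℚ) (fun σ x i => torsAct N ((p : ℤ) ^ m) σ (x i)) B A →
      ∀ x ∈ P.inertiaSubgroupIn ℚ, ∀ a : ℕ, CycExp (p ^ m) x a →
        ∀ y ∈ P.inertiaSubgroupIn ℚ,
          StrongOrd (fun σ x i => torsAct N ((p : ℤ) ^ m) σ (x i)) x a y B A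

/-! ## Generic transfer along an injective equivariant map -/

section Generic

variable {U U' : Type*} [AddCommGroup U] [AddCommGroup U']
  {act : GQ → U → U} {act' : GQ → U' → U'}

/-- A chain is mapped to a chain by an equivariant additive map. -/
theorem OrdChain.map {p : ℕ} {Γ : Set GQ} (ψ : U →+ U')
    (hψ : ∀ (σ : GQ) (x : U), ψ (act σ x) = act' σ (ψ x)) {B A : AddSubgroup U}
    (h : OrdChain p Γ act B A) : OrdChain p Γ act' (B.map ψ) (A.map ψ) := by
  obtain ⟨k, C, h0, hk, hstab, hstep⟩ := h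
  refine ⟨k, fun i => (C i).map ψ, congrArg (AddSubgroup.map ψ) h0,
    congrArg (AddSubgroup.map ψ) hk, ?_, ?_⟩
  · rintro i γ hγ _ ⟨c, hc, rfl⟩
    exact ⟨act γ c, hstab i γ hγ c hc, hψ γ c⟩
  · intro i hi
    obtain ⟨hle, hp, hor⟩ := hstep i hi
    refine ⟨AddSubgroup.map_mono hle, ?_, ?_⟩
    · rintro _ ⟨c, hc, rfl⟩
      exact ⟨p • c, hp c hc, map_nsmul ψ p c⟩
    · rcases hor with h1 | h2
      · left
        rintro γ hγ _ ⟨c, hc, rfl⟩
        exact ⟨act γ c - c, h1 γ hγ c hc, by rw [map_sub, hψ]⟩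
      · right
        rintro γ hγ a ha _ ⟨c, hc, rfl⟩
        exact ⟨act γ c - a • c, h2 γ hγ a ha c hc, by rw [map_sub, hψ, map_nsmul]⟩

/-- Weak ordinarity of the image pair under an injective equivariant map gives weak ordinarity
of the pair. -/
theorem WeakOrd.of_map (ψ : U →+ U') (hinj : Function.Injective ψ)
    (hψ : ∀ (σ : GQ) (x : U), ψ (act σ x) = act' σ (ψ x)) {t y : GQ} {B A : AddSubgroup U}
    (h : WeakOrd act' t y (B.map ψ) (A.map ψ)) : WeakOrd act t y B A := by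
  intro v hv
  obtain ⟨_, ⟨w, hw, rfl⟩, b, hb, hbeq⟩ := h (ψ v) ⟨v, hv, rfl⟩
  refine ⟨w, hw, ?_⟩
  have hkey : ψ b = ψ ((act y v - v) - (act t (act t w - w) - (act t w - w))) := by
    rw [hbeq]
    simp only [map_sub, hψ]
  rw [← hinj hkey]
  exact hb

/-- Strong ordinarity of the image pair under an injective equivariant map gives strong
ordinarity of the pair. -/
theorem StrongOrd.of_map (ψ : U →+ U') (hinj : Function.Injective ψ)
    (hψ : ∀ (σ : GQ) (x : U), ψ (act σ x) = act' σ (ψ x)) {x : GQ} {a : ℕ} {y : GQ}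
    {B A : AddSubgroup U} (h : StrongOrd act' x a y (B.map ψ) (A.map ψ)) :
    StrongOrd act x a y B A := by
  intro v hv
  obtain ⟨b, hb, hbeq⟩ := h (ψ v) ⟨v, hv, rfl⟩
  have hkey : ψ b = ψ (act x (act y v - v) - a • (act y v - v)) := by
    rw [hbeq]
    simp only [map_sub, map_nsmul, hψ]
  rw [← hinj hkey]
  exact hb

end Generic

/-! ## The maps induced on torsion and on finite powers -/

section Tors

variable {N N' : ℕ}

/-- The restriction of a homomorphism `φ : J₀(N) →+ J₀(N')` to `n`-torsion. -/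
def torsMapZ (φ : JZero N →+ JZero N') (n : ℤ) :
    ↥(Submodule.torsionBy ℤ (JZero N) n) →+ ↥(Submodule.torsionBy ℤ (JZero N') n) where
  toFun x := ⟨φ (x : JZero N), by
    have hx := x.2
    rw [Submodule.mem_torsionBy_iff] at hx ⊢
    rw [← map_zsmul, hx, map_zero]⟩
  map_zero' := Subtype.ext (by simp)
  map_add' x y := Subtype.ext (by simp)

@[simp]
theorem coe_torsMapZ (φ : JZero N →+ JZero N') (n : ℤ)
    (x : ↥(Submodule.torsionBy ℤ (JZero N) n)) :
    (torsMapZ φ n x : JZero N') = φ (x : JZero N) :=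
  rfl

theorem torsMapZ_injective (φ : JZero N →+ JZero N') (hφ : Function.Injective φ) (n : ℤ) :
    Function.Injective (torsMapZ φ n) := fun _ _ h =>
  Subtype.ext (hφ (congrArg Subtype.val h))

theorem torsMapZ_torsAct (φ : JZero N →+ JZero N')
    (hgal : ∀ (σ : GQ) (x : JZero N), φ (σ • x) = σ • φ x) (n : ℤ) (σ : GQ)
    (x : ↥(Submodule.torsionBy ℤ (JZero N) n)) :
    torsMapZ φ n (torsAct N n σ x) = torsAct N' n σ (torsMapZ φ n x) :=
  Subtype.ext (by rw [coe_torsMapZ, coe_torsAct, coe_torsAct, coe_torsMapZ, hgal])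

/-- The map induced by `φ` on the `r`-th power of the `n`-torsion. -/
def powMap (φ : JZero N →+ JZero N') (n : ℤ) (r : ℕ) :
    (Fin r → ↥(Submodule.torsionBy ℤ (JZero N) n)) →+
      (Fin r → ↥(Submodule.torsionBy ℤ (JZero N') n)) :=
  (torsMapZ φ n).compLeft (Fin r)

@[simp]
theorem powMap_apply (φ : JZero N →+ JZero N') (n : ℤ) (r : ℕ)
    (x : Fin r → ↥(Submodule.torsionBy ℤ (JZero N) n)) (i : Fin r) :
    powMap φ n r x i = torsMapZ φ n (x i) :=
  rfl

theorem powMap_injective (φ : JZero N →+ JZero N') (hφ : Function.Injective φ) (n : ℤ)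
    (r : ℕ) : Function.Injective (powMap φ n r) := fun _ _ h =>
  funext fun i => torsMapZ_injective φ hφ n (congrFun h i)

theorem powMap_act (φ : JZero N →+ JZero N')
    (hgal : ∀ (σ : GQ) (x : JZero N), φ (σ • x) = σ • φ x) (n : ℤ) (r : ℕ) (σ : GQ)
    (x : Fin r → ↥(Submodule.torsionBy ℤ (JZero N) n)) :
    powMap φ n r (fun i => torsAct N n σ (x i)) =
      fun i => torsAct N' n σ (powMap φ n r x i) :=
  funext fun i => torsMapZ_torsAct φ hgal n σ (x i)

end Tors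

/-! ## Level descent -/

/-- **Level descent, weak form.**  If `φ : J₀(N) →+ J₀(N')` is injective and Galois-equivariant,
the local statement at level `N'` gives the local statement at level `N`. -/
theorem stmt_LocalJ_of_level {N N' : ℕ} (φ : JZero N →+ JZero N')
    (hφ : Function.Injective φ) (hgal : ∀ (σ : GQ) (x : JZero N), φ (σ • x) = σ • φ x)
    (p : ℕ) (h : Stmt_LocalJ N' p) : Stmt_LocalJ N p := by
  intro P hP m r B A hch t ht a ha ha1 y hy
  have hψ := powMap_act φ hgal ((p : ℤ) ^ m) r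
  exact WeakOrd.of_map (powMap φ ((p : ℤ) ^ m) r) (powMap_injective φ hφ _ r) hψ
    (h P hP m r _ _ (OrdChain.map (powMap φ ((p : ℤ) ^ m) r) hψ hch) t ht a ha ha1 y hy)

/-- **Level descent, strong form.** -/
theorem stmt_LocalJStrong_of_level {N N' : ℕ} (φ : JZero N →+ JZero N')
    (hφ : Function.Injective φ) (hgal : ∀ (σ : GQ) (x : JZero N), φ (σ • x) = σ • φ x)
    (p : ℕ) (h : Stmt_LocalJStrong N' p) : Stmt_LocalJStrong N p := by
  intro P hP m r B A hch x hx a ha y hy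
  have hψ := powMap_act φ hgal ((p : ℤ) ^ m) r
  exact StrongOrd.of_map (powMap φ ((p : ℤ) ^ m) r) (powMap_injective φ hφ _ r) hψ
    (h P hP m r _ _ (OrdChain.map (powMap φ ((p : ℤ) ^ m) r) hψ hch) x hx a ha y hy)

/-- Level descent from `N.lcm r` to `N`, `r` prime (weak form). -/
theorem stmt_LocalJ_of_lcm (N : ℕ) [NeZero N] (r : ℕ) (hr : r.Prime) (p : ℕ)
    (h : Stmt_LocalJ (N.lcm r) p) : Stmt_LocalJ N p := by
  obtain ⟨φ, hφ, hgal⟩ := Fermat.Agent.S19.helper2289.exists_lcm N r hr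
  exact stmt_LocalJ_of_level φ hφ hgal p h

/-- Level descent from `N.lcm r` to `N`, `r` prime (strong form). -/
theorem stmt_LocalJStrong_of_lcm (N : ℕ) [NeZero N] (r : ℕ) (hr : r.Prime) (p : ℕ)
    (h : Stmt_LocalJStrong (N.lcm r) p) : Stmt_LocalJStrong N p := by
  obtain ⟨φ, hφ, hgal⟩ := Fermat.Agent.S19.helper2289.exists_lcm N r hr
  exact stmt_LocalJStrong_of_level φ hφ hgal p h

/-- Arithmetic of the auxiliary level: `p ∥ N` and `r ≠ p` prime give `p ∥ N.lcm r`. -/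
theorem exact_dvd_lcm {N p r : ℕ} (hp : p.Prime) (hr : r.Prime) (hrp : r ≠ p) (hpN : p ∣ N)
    (hp2N : ¬ p ^ 2 ∣ N) : p ∣ N.lcm r ∧ ¬ p ^ 2 ∣ N.lcm r := by
  refine ⟨hpN.trans (Nat.dvd_lcm_left N r), fun h => hp2N ?_⟩
  have h1 : p ^ 2 ∣ N * r := h.trans (Nat.lcm_dvd_mul N r)
  have hcop : Nat.Coprime (p ^ 2) r :=
    Nat.Coprime.pow_left 2 ((Nat.coprime_primes hp hr).2 (Ne.symm hrp))
  exact hcop.dvd_of_dvd_mul_right h1

/-- **Consumer form (weak).**  If the local statement holds at every level `N'` with `p ∥ N'`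
which is divisible by the auxiliary prime `r ≠ p`, then it holds at every level `N` with
`p ∥ N`. -/
theorem stmt_LocalJ_of_aux {p r : ℕ} (hp : p.Prime) (hr : r.Prime) (hrp : r ≠ p)
    (hgeom : ∀ N' : ℕ, N' ≠ 0 → r ∣ N' → p ∣ N' → ¬ p ^ 2 ∣ N' → Stmt_LocalJ N' p)
    (N : ℕ) [NeZero N] (hpN : p ∣ N) (hp2N : ¬ p ^ 2 ∣ N) : Stmt_LocalJ N p := by
  obtain ⟨h1, h2⟩ := exact_dvd_lcm hp hr hrp hpN hp2N
  exact stmt_LocalJ_of_lcm N r hr p
    (hgeom (N.lcm r) (Nat.lcm_ne_zero (NeZero.ne N) hr.ne_zero) (Nat.dvd_lcm_right N r) h1 h2)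

/-- **Consumer form (strong).** -/
theorem stmt_LocalJStrong_of_aux {p r : ℕ} (hp : p.Prime) (hr : r.Prime) (hrp : r ≠ p)
    (hgeom : ∀ N' : ℕ, N' ≠ 0 → r ∣ N' → p ∣ N' → ¬ p ^ 2 ∣ N' → Stmt_LocalJStrong N' p)
    (N : ℕ) [NeZero N] (hpN : p ∣ N) (hp2N : ¬ p ^ 2 ∣ N) : Stmt_LocalJStrong N p := by
  obtain ⟨h1, h2⟩ := exact_dvd_lcm hp hr hrp hpN hp2N
  exact stmt_LocalJStrong_of_lcm N r hr p
    (hgeom (N.lcm r) (Nat.lcm_ne_zero (NeZero.ne N) hr.ne_zero) (Nat.dvd_lcm_right N r) h1 h2)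

/-- **Consumer form at `r = 2`** (`p` odd): the local statement at all even levels with `p ∥ N'`
gives it at all levels with `p ∥ N`. -/
theorem stmt_LocalJ_of_even {p : ℕ} (hp : p.Prime) (hp2 : p ≠ 2)
    (hgeom : ∀ N' : ℕ, N' ≠ 0 → 2 ∣ N' → p ∣ N' → ¬ p ^ 2 ∣ N' → Stmt_LocalJ N' p)
    (N : ℕ) [NeZero N] (hpN : p ∣ N) (hp2N : ¬ p ^ 2 ∣ N) : Stmt_LocalJ N p :=
  stmt_LocalJ_of_aux hp Nat.prime_two (Ne.symm hp2) hgeom N hpN hp2N

/-- Arithmetic: an even level `p * M` with `p` odd and `p ∥ p * M` has `M` even, nonzero and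
coprime to `p`. -/
theorem even_level_decomp {p M : ℕ} (hp : p.Prime) (hp2 : p ≠ 2) (h0 : p * M ≠ 0)
    (h2 : 2 ∣ p * M) (hp2M : ¬ p ^ 2 ∣ p * M) : M ≠ 0 ∧ Nat.Coprime p M ∧ 2 ∣ M := by
  refine ⟨fun h => h0 (by rw [h, mul_zero]), ?_, ?_⟩
  · rw [Nat.Prime.coprime_iff_not_dvd hp]
    rintro ⟨c, rfl⟩
    exact hp2M ⟨c, by ring⟩
  · have hcop : Nat.Coprime 2 p := (Nat.coprime_primes Nat.prime_two hp).2 (Ne.symm hp2)
    exact hcop.dvd_of_dvd_mul_left h2

/-- **Consumer form in the `p * M` vocabulary of the S33 Spec (weak).**  If the local statement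
holds at every level `p * M` with `M` even and coprime to the odd prime `p`, then it holds at
every level `N` with `p ∥ N`. -/
theorem stmt_LocalJ_of_even_mul {p : ℕ} (hp : p.Prime) (hp2 : p ≠ 2)
    (hgeom : ∀ (M : ℕ) [NeZero M], Nat.Coprime p M → 2 ∣ M → Stmt_LocalJ (p * M) p)
    (N : ℕ) [NeZero N] (hpN : p ∣ N) (hp2N : ¬ p ^ 2 ∣ N) : Stmt_LocalJ N p := by
  refine stmt_LocalJ_of_even hp hp2 (fun N' hN' h2 hpN' hp2N' => ?_) N hpN hp2N
  obtain ⟨M, rfl⟩ := hpN'
  obtain ⟨hM0, hcop, h2M⟩ := even_level_decomp hp hp2 hN' h2 hp2N'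
  haveI : NeZero M := ⟨hM0⟩
  exact hgeom M hcop h2M

/-- **Consumer form in the `p * M` vocabulary (strong).** -/
theorem stmt_LocalJStrong_of_even_mul {p : ℕ} (hp : p.Prime) (hp2 : p ≠ 2)
    (hgeom : ∀ (M : ℕ) [NeZero M], Nat.Coprime p M → 2 ∣ M → Stmt_LocalJStrong (p * M) p)
    (N : ℕ) [NeZero N] (hpN : p ∣ N) (hp2N : ¬ p ^ 2 ∣ N) : Stmt_LocalJStrong N p := by
  refine stmt_LocalJStrong_of_aux hp Nat.prime_two (Ne.symm hp2)
    (fun N' hN' h2 hpN' hp2N' => ?_) N hpN hp2N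
  obtain ⟨M, rfl⟩ := hpN'
  obtain ⟨hM0, hcop, h2M⟩ := even_level_decomp hp hp2 hN' h2 hp2N'
  haveI : NeZero M := ⟨hM0⟩
  exact hgeom M hcop h2M

end Fermat.Agent.S33.helper7248

end
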