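import Mathlib
import Fermat.Prelude.Def_CuspForm_HeckeGaloisRepDatum
import Fermat.Prelude.Def_GaloisRep_LocalConditions
import Fermat.Agent.S32.helper1215_Top
import Fermat.Agent.S32.helper2804_LevelRep
import Fermat.Agent.S33.helper7248_LevelDescent
import Fermat.Agent.S33.helper6050_CycInertia
import Fermat.Agent.S33.helper1600_DetCyc

/-!
# S33, top seam through the final transfer Prop of S32 (helper1005)

`result_of_localJ` : the frozen statement S33 (`H.ρ.IsOrdinaryAt p`) from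

* `hx : Fermat.Agent.S32.helper1215.Stmt_Subquot p H` -- the final finite-level transfer Prop of
  the S32 project, unchanged (every `V ⧸ I V` is an equivariant image of a Galois-stable subgroup
  of a finite power of `J₀(N)[p^m]`);
* `hL : Fermat.Agent.S33.helper7248.Stmt_LocalJ N p` -- the local statement at `p` on `J₀(N)`:
  for a pair `B ≤ A` of subgroups of a finite power of `J₀(N)[p^m]` joined by a chain, stable
  under the inertia group `I_P`, whose steps are killed by `p` and on which `I_P` acts trivially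
  or through the mod `p` cyclotomic exponent, `(y - 1) A ⊆ (t - 1)² A + B` for `y, t ∈ I_P`,
  `t` nontrivial on `μ_p`.

The chain is built on `V ⧸ 𝔪ⁿ V` directly from the frozen hypothesis `hres` (`ordChain_level`)
and pulled back along the transfer map (`ordChain_comapPull`).  The endgame (`isOrdinary_core`)
uses Krull's intersection theorem, Nakayama and the `2 × 2` Cayley--Hamilton identity only.
The element `t₀` of the inertia group moving `μ_p` is `helper6050`'s, the determinant is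
`helper1600`'s.
-/

set_option autoImplicit false

namespace Fermat.Agent.S33.helper1005

open ModularCurve
open Fermat.Agent.S33.helper7248 (CycExp OrdChain WeakOrd Stmt_LocalJ)

local notation "Qb" => AlgebraicClosure ℚ
local notation "GQ" => (AlgebraicClosure ℚ ≃ₐ[ℚ] AlgebraicClosure ℚ)

/-! ## Chains with trivial or cyclotomic steps -/

section Chain

variable {U : Type*} [AddCommGroup U]

variable {p : ℕ} {Γ : Set GQ} {act : GQ → U → U}

theorem ordChain_refl (B : AddSubgroup U) (hB : ∀ γ ∈ Γ, ∀ c ∈ B, act γ c ∈ B) :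
    OrdChain p Γ act B B :=
  ⟨0, fun _ => B, rfl, rfl, fun _ => hB, fun i hi => absurd hi (Nat.not_lt_zero i)⟩

theorem ordChain_trans {B C A : AddSubgroup U} (h1 : OrdChain p Γ act B C)
    (h2 : OrdChain p Γ act C A) : OrdChain p Γ act B A := by
  obtain ⟨k1, C1, h10, h1k, h1s, h1st⟩ := h1
  obtain ⟨k2, C2, h20, h2k, h2s, h2st⟩ := h2
  refine ⟨k1 + k2, fun i => if i ≤ k1 then C1 i else C2 (i - k1), ?_, ?_, ?_, ?_⟩
  · simp [h10]
  · by_cases hk2 : k2 = 0
    · subst hk2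
      simp only [add_zero, le_refl, if_true]
      rw [h1k, ← h20, h2k]
    · have hn : ¬ (k1 + k2 ≤ k1) := by omega
      simp only [hn, if_false, Nat.add_sub_cancel_left]
      exact h2k
  · intro i γ hγ c hc
    by_cases hik : i ≤ k1
    · simp only [hik, if_true] at hc ⊢
      exact h1s i γ hγ c hc
    · simp only [hik, if_false] at hc ⊢
      exact h2s (i - k1) γ hγ c hc
  · intro i hi
    by_cases hik : i < k1
    · have h1' : i ≤ k1 := hik.le
      have h2' : i + 1 ≤ k1 := hik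
      simp only [h1', h2', if_true]
      exact h1st i hik
    · by_cases hik' : i = k1
      · subst hik'
        have h2' : ¬ (i + 1 ≤ i) := by omega
        simp only [le_refl, if_true, h2', if_false, Nat.add_sub_cancel_left]
        have h3 := h2st 0 (by omega)
        rw [zero_add, h20, ← h1k] at h3
        exact h3
      · have h1' : ¬ (i ≤ k1) := by omega
        have h2' : ¬ (i + 1 ≤ k1) := by omega
        simp only [h1', h2', if_false]
        have h3 := h2st (i - k1) (by omega)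
        rwa [show i - k1 + 1 = i + 1 - k1 by omega] at h3

theorem ordChain_of_triv {B A : AddSubgroup U} (hBA : B ≤ A)
    (hB : ∀ γ ∈ Γ, ∀ c ∈ B, act γ c ∈ B) (hA : ∀ γ ∈ Γ, ∀ c ∈ A, act γ c ∈ A)
    (hp : ∀ c ∈ A, p • c ∈ B) (h : ∀ γ ∈ Γ, ∀ c ∈ A, act γ c - c ∈ B) :
    OrdChain p Γ act B A := by
  refine ⟨1, fun i => if i = 0 then B else A, by simp, by simp, ?_, ?_⟩
  · intro i γ hγ c hc
    by_cases hi : i = 0
    · simp only [hi, if_true] at hc ⊢
      exact hB γ hγ c hc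
    · simp only [hi, if_false] at hc ⊢
      exact hA γ hγ c hc
  · intro i hi
    have hi0 : i = 0 := by omega
    subst hi0
    simp only [if_true, zero_add, one_ne_zero, if_false]
    exact ⟨hBA, hp, Or.inl h⟩

theorem ordChain_of_omega {B A : AddSubgroup U} (hBA : B ≤ A)
    (hB : ∀ γ ∈ Γ, ∀ c ∈ B, act γ c ∈ B) (hA : ∀ γ ∈ Γ, ∀ c ∈ A, act γ c ∈ A)
    (hp : ∀ c ∈ A, p • c ∈ B)
    (h : ∀ γ ∈ Γ, ∀ a : ℕ, CycExp p γ a → ∀ c ∈ A, act γ c - a • c ∈ B) :
    OrdChain p Γ act B A := by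
  refine ⟨1, fun i => if i = 0 then B else A, by simp, by simp, ?_, ?_⟩
  · intro i γ hγ c hc
    by_cases hi : i = 0
    · simp only [hi, if_true] at hc ⊢
      exact hB γ hγ c hc
    · simp only [hi, if_false] at hc ⊢
      exact hA γ hγ c hc
  · intro i hi
    have hi0 : i = 0 := by omega
    subst hi0
    simp only [if_true, zero_add, one_ne_zero, if_false]
    exact ⟨hBA, hp, Or.inr h⟩

/-- The pullback of a subgroup `D` of `U'` along `f : Nsub →+ U'`, as a subgroup of `U`. -/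
def pullSub {U' : Type*} [AddCommGroup U'] (Nsub : AddSubgroup U) (f : Nsub →+ U')
    (D : AddSubgroup U') : AddSubgroup U :=
  (D.comap f).map Nsub.subtype

theorem mem_pullSub {U' : Type*} [AddCommGroup U'] {Nsub : AddSubgroup U} {f : Nsub →+ U'}
    {D : AddSubgroup U'} {x : U} : x ∈ pullSub Nsub f D ↔ ∃ hx : x ∈ Nsub, f ⟨x, hx⟩ ∈ D := by
  constructor
  · rintro ⟨y, hy, rfl⟩
    exact ⟨y.2, hy⟩
  · rintro ⟨hx, h⟩
    exact ⟨⟨x, hx⟩, h, rfl⟩

theorem pullSub_top {U' : Type*} [AddCommGroup U'] (Nsub : AddSubgroup U) (f : Nsub →+ U') :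
    pullSub Nsub f ⊤ = Nsub := by
  ext x
  rw [mem_pullSub]
  exact ⟨fun ⟨hx, _⟩ => hx, fun hx => ⟨hx, AddSubgroup.mem_top _⟩⟩

/-- Chains pull back along an equivariant homomorphism defined on a stable subgroup. -/
theorem ordChain_comapPull {U' : Type*} [AddCommGroup U'] {act' : GQ → U' → U'}
    (Nsub : AddSubgroup U) (hN : ∀ γ ∈ Γ, ∀ x ∈ Nsub, act γ x ∈ Nsub) (f : Nsub →+ U')
    (hf : ∀ γ ∈ Γ, ∀ (x : U) (hx : x ∈ Nsub) (hx' : act γ x ∈ Nsub),
      f ⟨act γ x, hx'⟩ = act' γ (f ⟨x, hx⟩))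
    {B' A' : AddSubgroup U'} (h : OrdChain p Γ act' B' A') :
    OrdChain p Γ act (pullSub Nsub f B') (pullSub Nsub f A') := by
  obtain ⟨k, C, h0, hk, hs, hst⟩ := h
  obtain ⟨C2, hC2⟩ : ∃ C2 : ℕ → AddSubgroup U, ∀ i, C2 i = pullSub Nsub f (C i) :=
    ⟨_, fun _ => rfl⟩
  refine ⟨k, C2, by rw [hC2, h0], by rw [hC2, hk], ?_, ?_⟩
  · intro i γ hγ c hc
    rw [hC2] at hc ⊢
    obtain ⟨hx, hfx⟩ := mem_pullSub.mp hc
    refine mem_pullSub.mpr ⟨hN γ hγ c hx, ?_⟩
    rw [hf γ hγ c hx]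
    exact hs i γ hγ _ hfx
  · intro i hi
    obtain ⟨hle, hp, hor⟩ := hst i hi
    rw [hC2, hC2]
    refine ⟨?_, ?_, ?_⟩
    · intro x hx
      obtain ⟨hxN, hfx⟩ := mem_pullSub.mp hx
      exact mem_pullSub.mpr ⟨hxN, hle hfx⟩
    · intro c hc
      obtain ⟨hx, hfx⟩ := mem_pullSub.mp hc
      refine mem_pullSub.mpr ⟨Nsub.nsmul_mem hx p, ?_⟩
      have h1 : (⟨p • c, Nsub.nsmul_mem hx p⟩ : Nsub) = p • ⟨c, hx⟩ := rfl
      rw [h1, map_nsmul]
      exact hp _ hfx
    · rcases hor with htriv | hom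
      · left
        intro γ hγ c hc
        obtain ⟨hx, hfx⟩ := mem_pullSub.mp hc
        have hx' := hN γ hγ c hx
        refine mem_pullSub.mpr ⟨Nsub.sub_mem hx' hx, ?_⟩
        have h1 : (⟨act γ c - c, Nsub.sub_mem hx' hx⟩ : Nsub) = ⟨act γ c, hx'⟩ - ⟨c, hx⟩ := rfl
        rw [h1, map_sub, hf γ hγ c hx]
        exact htriv γ hγ _ hfx
      · right
        intro γ hγ a ha c hc
        obtain ⟨hx, hfx⟩ := mem_pullSub.mp hc
        have hx' := hN γ hγ c hx
        refine mem_pullSub.mpr ⟨Nsub.sub_mem hx' (Nsub.nsmul_mem hx a), ?_⟩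
        have h1 : (⟨act γ c - a • c, Nsub.sub_mem hx' (Nsub.nsmul_mem hx a)⟩ : Nsub) =
            ⟨act γ c, hx'⟩ - a • ⟨c, hx⟩ := rfl
        rw [h1, map_sub, map_nsmul, hf γ hγ c hx]
        exact hom γ hγ a ha _ hfx

/-- Transport of the identity `(y - 1) x = (t - 1)² w` (modulo the kernel) along an equivariant
map `f : Nsub →+ U'`. -/
theorem transfer_identity {U' : Type*} [AddCommGroup U'] {act' : GQ → U' → U'}
    (Nsub : AddSubgroup U) (f : Nsub →+ U')
    (hN : ∀ (γ : GQ) (x : U), x ∈ Nsub → act γ x ∈ Nsub)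
    (hf : ∀ (γ : GQ) (x : U) (hx : x ∈ Nsub) (hx' : act γ x ∈ Nsub),
      f ⟨act γ x, hx'⟩ = act' γ (f ⟨x, hx⟩))
    (y t : GQ) (x w : U) (hx : x ∈ Nsub) (hw : w ∈ Nsub)
    (hmem : act y x - x - (act t (act t w - w) - (act t w - w)) ∈ pullSub Nsub f ⊥)
    (u u' : U') (hu : f ⟨x, hx⟩ = u) (hu' : f ⟨w, hw⟩ = u') :
    (act' y u - u) - (act' t (act' t u' - u') - (act' t u' - u')) = 0 := by
  obtain ⟨hexpr, hzero⟩ := mem_pullSub.mp hmem
  have hyx : act y x ∈ Nsub := hN y _ hx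
  have htw : act t w ∈ Nsub := hN t _ hw
  have hD : act t w - w ∈ Nsub := Nsub.sub_mem htw hw
  have htD : act t (act t w - w) ∈ Nsub := hN t _ hD
  have e1 : (⟨act y x - x - (act t (act t w - w) - (act t w - w)), hexpr⟩ : Nsub) =
      (⟨act y x, hyx⟩ - ⟨x, hx⟩) - (⟨act t (act t w - w), htD⟩ - ⟨act t w - w, hD⟩) := rfl
  have e2 : (⟨act t w - w, hD⟩ : Nsub) = ⟨act t w, htw⟩ - ⟨w, hw⟩ := rfl
  have hfD : f ⟨act t w - w, hD⟩ = act' t (f ⟨w, hw⟩) - f ⟨w, hw⟩ := by
    rw [e2, map_sub, hf t w hw htw]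
  have h0 : f ⟨act y x - x - (act t (act t w - w) - (act t w - w)), hexpr⟩ = 0 :=
    (AddSubgroup.mem_bot).mp hzero
  rw [e1, map_sub, map_sub, map_sub, hf y x hx hyx, hf t _ hD htD, hfD, hu, hu'] at h0
  exact h0

end Chain

/-- A linear map preserves `I • ⊤`. -/
theorem map_mem_smul_top {T : Type*} [CommRing T] {V : Type*} [AddCommGroup V] [Module T V]
    (g : V →ₗ[T] V) {I : Ideal T} {x : V}
    (hx : x ∈ I • (⊤ : Submodule T V)) : g x ∈ I • (⊤ : Submodule T V) := by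
  have h := Submodule.mem_map_of_mem (f := g) hx
  rw [Submodule.map_smul''] at h
  exact Submodule.smul_mono le_rfl le_top h

/-! ## The chain on `V ⧸ 𝔪ⁿ V` -/

section LevelChain

open IsLocalRing

variable {T : Type} [CommRing T] [IsLocalRing T]

/-- The image in `V ⧸ I V` of a submodule of `V`, as an additive subgroup. -/
def imQ (ρ : GaloisRepAdic T) (I : Ideal T) (W : Submodule T ρ.V) :
    AddSubgroup (ρ.V ⧸ (I • (⊤ : Submodule T ρ.V))) :=
  (W.map (I • (⊤ : Submodule T ρ.V)).mkQ).toAddSubgroup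

theorem mem_imQ {ρ : GaloisRepAdic T} {I : Ideal T} {W : Submodule T ρ.V}
    {c : ρ.V ⧸ (I • (⊤ : Submodule T ρ.V))} :
    c ∈ imQ ρ I W ↔ ∃ w ∈ W, (Submodule.Quotient.mk w : ρ.V ⧸ (I • (⊤ : Submodule T ρ.V))) = c :=
  Iff.rfl

theorem levelAction_mk (ρ : GaloisRepAdic T) (I : Ideal T) (σ : GQ) (v : ρ.V) :
    ρ.levelAction I σ (Submodule.Quotient.mk v) = Submodule.Quotient.mk (ρ.ρ σ v) :=
  Submodule.mapQ_apply _ _ _ _

theorem imQ_top (ρ : GaloisRepAdic T) (I : Ideal T) : imQ ρ I ⊤ = ⊤ := by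
  ext c
  refine ⟨fun _ => AddSubgroup.mem_top _, fun _ => ?_⟩
  obtain ⟨w, rfl⟩ := Submodule.Quotient.mk_surjective _ c
  exact mem_imQ.mpr ⟨w, Submodule.mem_top, rfl⟩

theorem imQ_self (ρ : GaloisRepAdic T) (I : Ideal T) :
    imQ ρ I (I • (⊤ : Submodule T ρ.V)) = ⊥ := by
  ext c
  rw [mem_imQ, AddSubgroup.mem_bot]
  constructor
  · rintro ⟨w, hw, rfl⟩
    exact (Submodule.Quotient.mk_eq_zero _).mpr hw
  · rintro rfl
    exact ⟨0, Submodule.zero_mem _, rfl⟩

theorem ordChain_imQ_triv (ρ : GaloisRepAdic T) (I : Ideal T) (p : ℕ) (Γ : Set GQ)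
    {W1 W2 : Submodule T ρ.V} (h12 : W1 ≤ W2)
    (hs1 : ∀ γ ∈ Γ, ∀ w ∈ W1, ρ.ρ γ w ∈ W1) (hs2 : ∀ γ ∈ Γ, ∀ w ∈ W2, ρ.ρ γ w ∈ W2)
    (hp : ∀ w ∈ W2, p • w ∈ W1) (h : ∀ γ ∈ Γ, ∀ w ∈ W2, ρ.ρ γ w - w ∈ W1) :
    OrdChain p Γ (fun σ x => ρ.levelAction I σ x) (imQ ρ I W1) (imQ ρ I W2) := by
  apply ordChain_of_triv
  · intro c hc
    obtain ⟨w, hw, rfl⟩ := mem_imQ.mp hc
    exact mem_imQ.mpr ⟨w, h12 hw, rfl⟩
  · intro γ hγ c hc
    obtain ⟨w, hw, rfl⟩ := mem_imQ.mp hc
    exact mem_imQ.mpr ⟨ρ.ρ γ w, hs1 γ hγ w hw, (levelAction_mk ρ I γ w).symm⟩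
  · intro γ hγ c hc
    obtain ⟨w, hw, rfl⟩ := mem_imQ.mp hc
    exact mem_imQ.mpr ⟨ρ.ρ γ w, hs2 γ hγ w hw, (levelAction_mk ρ I γ w).symm⟩
  · intro c hc
    obtain ⟨w, hw, rfl⟩ := mem_imQ.mp hc
    exact mem_imQ.mpr ⟨p • w, hp w hw, map_nsmul (I • (⊤ : Submodule T ρ.V)).mkQ p w⟩
  · intro γ hγ c hc
    obtain ⟨w, hw, rfl⟩ := mem_imQ.mp hc
    refine mem_imQ.mpr ⟨ρ.ρ γ w - w, h γ hγ w hw, ?_⟩
    show _ = ρ.levelAction I γ (Submodule.Quotient.mk w) - Submodule.Quotient.mk w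
    rw [levelAction_mk]
    rfl

theorem ordChain_imQ_omega (ρ : GaloisRepAdic T) (I : Ideal T) (p : ℕ) (Γ : Set GQ)
    {W1 W2 : Submodule T ρ.V} (h12 : W1 ≤ W2)
    (hs1 : ∀ γ ∈ Γ, ∀ w ∈ W1, ρ.ρ γ w ∈ W1) (hs2 : ∀ γ ∈ Γ, ∀ w ∈ W2, ρ.ρ γ w ∈ W2)
    (hp : ∀ w ∈ W2, p • w ∈ W1)
    (h : ∀ γ ∈ Γ, ∀ a : ℕ, CycExp p γ a → ∀ w ∈ W2, ρ.ρ γ w - a • w ∈ W1) :
    OrdChain p Γ (fun σ x => ρ.levelAction I σ x) (imQ ρ I W1) (imQ ρ I W2) := by
  apply ordChain_of_omega
  · intro c hc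
    obtain ⟨w, hw, rfl⟩ := mem_imQ.mp hc
    exact mem_imQ.mpr ⟨w, h12 hw, rfl⟩
  · intro γ hγ c hc
    obtain ⟨w, hw, rfl⟩ := mem_imQ.mp hc
    exact mem_imQ.mpr ⟨ρ.ρ γ w, hs1 γ hγ w hw, (levelAction_mk ρ I γ w).symm⟩
  · intro γ hγ c hc
    obtain ⟨w, hw, rfl⟩ := mem_imQ.mp hc
    exact mem_imQ.mpr ⟨ρ.ρ γ w, hs2 γ hγ w hw, (levelAction_mk ρ I γ w).symm⟩
  · intro c hc
    obtain ⟨w, hw, rfl⟩ := mem_imQ.mp hc
    exact mem_imQ.mpr ⟨p • w, hp w hw, map_nsmul (I • (⊤ : Submodule T ρ.V)).mkQ p w⟩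
  · intro γ hγ a ha c hc
    obtain ⟨w, hw, rfl⟩ := mem_imQ.mp hc
    refine mem_imQ.mpr ⟨ρ.ρ γ w - a • w, h γ hγ a ha w hw, ?_⟩
    show _ = ρ.levelAction I γ (Submodule.Quotient.mk w) - a • Submodule.Quotient.mk w
    rw [levelAction_mk]
    exact (map_sub (I • (⊤ : Submodule T ρ.V)).mkQ _ _).trans
      (congrArg _ (map_nsmul (I • (⊤ : Submodule T ρ.V)).mkQ a w))

omit [IsLocalRing T] in
theorem smul_mem_pow_succ {V : Type*} [AddCommGroup V] [Module T V] {𝔞 : Ideal T} {j : ℕ}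
    {t : T} (ht : t ∈ 𝔞 ^ j) {y : V} (hy : y ∈ 𝔞 • (⊤ : Submodule T V)) :
    t • y ∈ 𝔞 ^ (j + 1) • (⊤ : Submodule T V) := by
  have h := Submodule.smul_mem_smul ht hy
  rwa [← Submodule.mul_smul, ← pow_succ] at h

/-- **The chain on `V ⧸ 𝔪ⁿ V`.**  If `(ρ(γ) - 1) V ⊆ T v₀ + 𝔪 V` and `ρ(γ) v₀ ≡ a v₀` modulo
`𝔪 V` for `γ ∈ Γ` with cyclotomic exponent `a` modulo `p`, then `V ⧸ 𝔪ⁿ V` carries a chain from
`0` to everything with trivial or cyclotomic steps. -/
theorem ordChain_level (ρ : GaloisRepAdic T) (p : ℕ) (hpT : (p : T) ∈ maximalIdeal T)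
    (Γ : Set GQ) (v0 : ρ.V)
    (ha : ∀ γ ∈ Γ, ∀ v : ρ.V,
      ρ.ρ γ v - v ∈ Submodule.span T {v0} ⊔ maximalIdeal T • (⊤ : Submodule T ρ.V))
    (hb : ∀ γ ∈ Γ, ∀ a : ℕ, CycExp p γ a →
      ρ.ρ γ v0 - a • v0 ∈ maximalIdeal T • (⊤ : Submodule T ρ.V))
    (n : ℕ) :
    OrdChain p Γ (fun σ x => ρ.levelAction (maximalIdeal T ^ n) σ x) ⊥ ⊤ := by
  obtain ⟨Wm, hWm⟩ : ∃ Wm : ℕ → Submodule T ρ.V, ∀ j, Wm j =
      maximalIdeal T ^ j • Submodule.span T {v0} ⊔
        maximalIdeal T ^ (j + 1) • (⊤ : Submodule T ρ.V) := ⟨_, fun _ => rfl⟩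
  have hle1 : ∀ j, maximalIdeal T ^ (j + 1) • (⊤ : Submodule T ρ.V) ≤ Wm j := fun j => by
    rw [hWm]; exact le_sup_right
  have hle2 : ∀ j, Wm j ≤ maximalIdeal T ^ j • (⊤ : Submodule T ρ.V) := fun j => by
    rw [hWm]
    exact sup_le (Submodule.smul_mono le_rfl le_top)
      (Submodule.smul_mono (Ideal.pow_le_pow_right (Nat.le_succ j)) le_rfl)
  -- (f1)
  have f1 : ∀ j, ∀ γ ∈ Γ, ∀ w ∈ maximalIdeal T ^ j • (⊤ : Submodule T ρ.V),
      ρ.ρ γ w - w ∈ Wm j := by
    intro j γ hγ w hw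
    refine Submodule.smul_induction_on hw ?_ ?_
    · intro t ht w' _
      rw [map_smul, ← smul_sub, hWm]
      obtain ⟨x, hx, y, hy, hxy⟩ := Submodule.mem_sup.mp (ha γ hγ w')
      rw [← hxy, smul_add]
      exact Submodule.add_mem _ (Submodule.mem_sup_left (Submodule.smul_mem_smul ht hx))
        (Submodule.mem_sup_right (smul_mem_pow_succ ht hy))
    · intro x y hx hy
      rw [map_add, add_sub_add_comm]
      exact Submodule.add_mem _ hx hy
  -- (f2)
  have f2 : ∀ j, ∀ γ ∈ Γ, ∀ a : ℕ, CycExp p γ a → ∀ w ∈ Wm j,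
      ρ.ρ γ w - a • w ∈ maximalIdeal T ^ (j + 1) • (⊤ : Submodule T ρ.V) := by
    intro j γ hγ a hcyc w hw
    rw [hWm] at hw
    obtain ⟨x, hx, y, hy, rfl⟩ := Submodule.mem_sup.mp hw
    rw [map_add, smul_add, add_sub_add_comm]
    refine Submodule.add_mem _ ?_ ?_
    · refine Submodule.smul_induction_on hx ?_ ?_
      · intro t ht x' hx'
        obtain ⟨c, rfl⟩ := Submodule.mem_span_singleton.mp hx'
        have h := hb γ hγ a hcyc
        have e1 : ρ.ρ γ (t • c • v0) - a • (t • c • v0) = (t * c) • (ρ.ρ γ v0 - a • v0) := by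
          rw [map_smul, map_smul, smul_sub, mul_smul, mul_smul, smul_comm a t, smul_comm a c]
        rw [e1]
        exact smul_mem_pow_succ (Ideal.mul_mem_right c _ ht) h
      · intro x y hx hy
        rw [map_add, smul_add, add_sub_add_comm]
        exact Submodule.add_mem _ hx hy
    · exact Submodule.sub_mem _ (map_mem_smul_top _ hy) (nsmul_mem hy a)
  -- stability
  have f3 : ∀ j, ∀ γ ∈ Γ, ∀ w ∈ maximalIdeal T ^ j • (⊤ : Submodule T ρ.V),
      ρ.ρ γ w ∈ maximalIdeal T ^ j • (⊤ : Submodule T ρ.V) :=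
    fun j γ _ w hw => map_mem_smul_top _ hw
  have f4 : ∀ j, ∀ γ ∈ Γ, ∀ w ∈ Wm j, ρ.ρ γ w ∈ Wm j := by
    intro j γ hγ w hw
    have h := f1 j γ hγ w (hle2 j hw)
    have e1 : ρ.ρ γ w = w + (ρ.ρ γ w - w) := by abel
    rw [e1]
    exact Submodule.add_mem _ hw h
  -- steps are killed by `p`
  have hpmul : ∀ j, ∀ t ∈ maximalIdeal T ^ j, (p : T) * t ∈ maximalIdeal T ^ (j + 1) := by
    intro j t ht
    rw [pow_succ']
    exact Ideal.mul_mem_mul hpT ht
  have f5 : ∀ j, ∀ w ∈ maximalIdeal T ^ j • (⊤ : Submodule T ρ.V),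
      p • w ∈ maximalIdeal T ^ (j + 1) • (⊤ : Submodule T ρ.V) := by
    intro j w hw
    refine Submodule.smul_induction_on hw ?_ ?_
    · intro t ht w' _
      rw [← Nat.cast_smul_eq_nsmul T, smul_smul]
      exact Submodule.smul_mem_smul (hpmul j t ht) Submodule.mem_top
    · intro x y hx hy
      rw [smul_add]
      exact Submodule.add_mem _ hx hy
  have key : ∀ j, OrdChain p Γ (fun σ x => ρ.levelAction (maximalIdeal T ^ n) σ x)
      (imQ ρ (maximalIdeal T ^ n) (maximalIdeal T ^ j • (⊤ : Submodule T ρ.V))) ⊤ := by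
    intro j
    induction j with
    | zero =>
      have h0 : imQ ρ (maximalIdeal T ^ n) (maximalIdeal T ^ 0 • (⊤ : Submodule T ρ.V)) = ⊤ := by
        rw [pow_zero, Ideal.one_eq_top, Submodule.top_smul, imQ_top]
      rw [h0]
      exact ordChain_refl ⊤ (fun _ _ _ _ => AddSubgroup.mem_top _)
    | succ j ih =>
      have s1 := ordChain_imQ_omega ρ (maximalIdeal T ^ n) p Γ (hle1 j) (f3 (j + 1)) (f4 j)
        (fun w hw => f5 j w (hle2 j hw)) (f2 j)
      have s2 := ordChain_imQ_triv ρ (maximalIdeal T ^ n) p Γ (hle2 j) (f4 j) (f3 j)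
        (fun w hw => hle1 j (f5 j w hw)) (f1 j)
      exact ordChain_trans s1 (ordChain_trans s2 ih)
  have hn := key n
  rwa [imQ_self] at hn

end LevelChain

/-! ## The endgame: pure algebra over a noetherian local ring -/

section Endgame

open IsLocalRing

variable {T : Type*} [CommRing T] [IsLocalRing T] [IsNoetherianRing T]
  {V : Type*} [AddCommGroup V] [Module T V]

/-- Krull: an element lying in all powers of the maximal ideal is zero. -/
theorem eq_zero_of_forall_mem_pow {x : T} (h : ∀ n : ℕ, x ∈ maximalIdeal T ^ n) : x = 0 := by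
  have h1 : x ∈ ⨅ n : ℕ, maximalIdeal T ^ n := by
    rw [Submodule.mem_iInf]; exact h
  rw [Ideal.iInf_pow_eq_bot_of_isLocalRing _ (Ideal.IsMaximal.ne_top inferInstance)] at h1
  exact h1

omit [IsLocalRing T] [IsNoetherianRing T] in
/-- The second coordinate of an element of `T b₀ + I V` lies in `I`. -/
theorem repr_one_mem {b : Module.Basis (Fin 2) T V} {I : Ideal T} {w : V}
    (hw : w ∈ Submodule.span T {b 0} ⊔ I • (⊤ : Submodule T V)) : b.repr w 1 ∈ I := by
  obtain ⟨x, hx, y, hy, rfl⟩ := Submodule.mem_sup.mp hw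
  obtain ⟨c, rfl⟩ := Submodule.mem_span_singleton.mp hx
  have h0 : b.repr (c • b 0) 1 = 0 := by
    rw [map_smul, Finsupp.smul_apply, Module.Basis.repr_self, Finsupp.single_apply]
    simp
  rw [map_add, Finsupp.add_apply, h0, zero_add]
  exact Fermat.Agent.S32.helper2804.repr_mem_of_mem_smul_top b I hy 1

omit [IsNoetherianRing T] in
/-- A vector outside `𝔪 V` of a free module of rank two is the first vector of a basis. -/
theorem exists_basis_of_not_mem [Module.Finite T V] (e : Module.Basis (Fin 2) T V) (b0 : V)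
    (h : b0 ∉ maximalIdeal T • (⊤ : Submodule T V)) :
    ∃ b : Module.Basis (Fin 2) T V, b 0 = b0 := by
  classical
  have hex : ∃ j : Fin 2, e.repr b0 j ∉ maximalIdeal T := by
    by_contra hcon
    push Not at hcon
    exact h (Fermat.Agent.S32.helper2804.mem_smul_top_of_repr_mem e _ hcon)
  obtain ⟨j, hj⟩ := hex
  have hu : IsUnit (e.repr b0 j) := by
    by_contra hnu
    exact hj ((mem_maximalIdeal _).mpr hnu)
  obtain ⟨u, hu⟩ := hu
  have hsum : e.repr b0 0 • e 0 + e.repr b0 1 • e 1 = b0 := by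
    rw [← Fin.sum_univ_two (f := fun i => e.repr b0 i • e i)]
    exact e.sum_repr b0
  -- the other index
  obtain ⟨j', hjj', hother⟩ : ∃ j' : Fin 2, j' ≠ j ∧
      e j ∈ Submodule.span T ({b0, e j'} : Set V) := by
    have hb0 : b0 ∈ Submodule.span T ({b0, e (1 : Fin 2)} : Set V) :=
      Submodule.subset_span (by simp)
    have hb0' : b0 ∈ Submodule.span T ({b0, e (0 : Fin 2)} : Set V) :=
      Submodule.subset_span (by simp)
    have he1 : e 1 ∈ Submodule.span T ({b0, e (1 : Fin 2)} : Set V) :=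
      Submodule.subset_span (by simp)
    have he0 : e 0 ∈ Submodule.span T ({b0, e (0 : Fin 2)} : Set V) :=
      Submodule.subset_span (by simp)
    fin_cases j
    · refine ⟨1, by decide, ?_⟩
      have h2 : e 0 = (↑u⁻¹ : T) • (b0 - e.repr b0 1 • e 1) := by
        have h3 : b0 - e.repr b0 1 • e 1 = (u : T) • e 0 := by
          rw [hu]
          exact sub_eq_of_eq_add hsum.symm
        rw [h3, smul_smul, Units.inv_mul, one_smul]
      show e 0 ∈ _
      rw [h2]
      exact Submodule.smul_mem _ _ (Submodule.sub_mem _ hb0 (Submodule.smul_mem _ _ he1))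
    · refine ⟨0, by decide, ?_⟩
      have h2 : e 1 = (↑u⁻¹ : T) • (b0 - e.repr b0 0 • e 0) := by
        have h3 : b0 - e.repr b0 0 • e 0 = (u : T) • e 1 := by
          rw [hu]
          exact sub_eq_of_eq_add' hsum.symm
        rw [h3, smul_smul, Units.inv_mul, one_smul]
      show e 1 ∈ _
      rw [h2]
      exact Submodule.smul_mem _ _ (Submodule.sub_mem _ hb0' (Submodule.smul_mem _ _ he0))
  let g : Fin 2 → V := ![b0, e j']
  let φ : V →ₗ[T] V := e.constr T g
  have hrange : LinearMap.range φ = Submodule.span T (Set.range g) := e.constr_range T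
  have hg : Set.range g = ({b0, e j'} : Set V) := by
    ext x
    simp only [Set.mem_range, Set.mem_insert_iff, Set.mem_singleton_iff, g]
    constructor
    · rintro ⟨i, rfl⟩
      fin_cases i
      · left; rfl
      · right; rfl
    · rintro (rfl | rfl)
      · exact ⟨0, rfl⟩
      · exact ⟨1, rfl⟩
  have htop : Submodule.span T (Set.range g) = ⊤ := by
    rw [eq_top_iff, ← e.span_eq, Submodule.span_le, hg]
    rintro x ⟨i, rfl⟩
    have hi : i = j ∨ i = j' := by
      fin_cases i <;> fin_cases j <;> fin_cases j' <;> simp at hjj' ⊢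
    rcases hi with rfl | rfl
    · exact hother
    · exact Submodule.subset_span (by simp)
  have hsurj : Function.Surjective φ := by
    rw [← LinearMap.range_eq_top, hrange, htop]
  have hinj : Function.Injective φ :=
    OrzechProperty.injective_of_surjective_endomorphism φ hsurj
  have hbij : Function.Bijective φ := ⟨hinj, hsurj⟩
  refine ⟨e.map (LinearEquiv.ofBijective φ hbij), ?_⟩
  rw [Module.Basis.map_apply]
  show e.constr T g (e 0) = b0
  rw [Module.Basis.constr_basis]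
  rfl

/-- **The endgame.**  `V` free of rank two over a noetherian local ring `T`, `ρ : G → End_T V`,
`Iset ⊆ G` stable under conjugation by `Dset`, `t ∈ Iset` with `det ρ(t) - 1` a unit.  If
`(ρ(y) - 1) V ⊆ T v₀ + 𝔪 V` for `y ∈ Iset` and `(ρ(y) - 1) V ⊆ (ρ(t) - 1)² V + 𝔪ⁿ V` for all `n`
and `y ∈ Iset`, then `L := (ρ(t) - 1) V` is spanned by the first vector of a basis, is stable
under `Dset`, and `Iset` acts trivially on `V ⧸ L`. -/
theorem isOrdinary_core [Module.Free T V] [Module.Finite T V]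
    (hV : Module.finrank T V = 2) {G : Type*} [Group G] (ρ : G →* Module.End T V)
    (Dset Iset : Set G) (hnorm : ∀ σ ∈ Dset, ∀ y ∈ Iset, σ * y * σ⁻¹ ∈ Iset)
    (t : G) (ht : t ∈ Iset) (hdet : IsUnit (LinearMap.det (ρ t) - 1)) (v0 : V)
    (h1 : ∀ y ∈ Iset, ∀ v : V,
      ρ y v - v ∈ Submodule.span T {v0} ⊔ maximalIdeal T • (⊤ : Submodule T V))
    (h3 : ∀ n : ℕ, ∀ y ∈ Iset, ∀ v : V, ∃ w : V,
      (ρ y v - v) - (ρ t (ρ t w - w) - (ρ t w - w)) ∈
        maximalIdeal T ^ n • (⊤ : Submodule T V)) :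
    ∃ L : Submodule T V, (∃ b : Module.Basis (Fin 2) T V, L = Submodule.span T {b 0}) ∧
      (∀ σ ∈ Dset, ∀ v ∈ L, ρ σ v ∈ L) ∧ (∀ σ ∈ Iset, ∀ v : V, ρ σ v - v ∈ L) := by
  classical
  let e : Module.Basis (Fin 2) T V := Module.finBasisOfFinrankEq T V hV
  obtain ⟨A, hA⟩ : ∃ A : Module.End T V, A = ρ t - 1 := ⟨_, rfl⟩
  have hAv : ∀ v, A v = ρ t v - v := fun v => by rw [hA]; rfl
  obtain ⟨M, hM⟩ : ∃ M : Matrix (Fin 2) (Fin 2) T, M = LinearMap.toMatrix e e A := ⟨_, rfl⟩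
  have hAM : A = Matrix.toLin e e M := by rw [hM, Matrix.toLin_toMatrix]
  have hMij : ∀ i j, M i j = e.repr (A (e j)) i := fun i j => by
    rw [hM, LinearMap.toMatrix_apply]
  have hS : ∀ v, A v ∈ Submodule.span T {v0} ⊔ maximalIdeal T • (⊤ : Submodule T V) :=
    fun v => by rw [hAv]; exact h1 t ht v
  have h3' : ∀ n : ℕ, ∀ y ∈ Iset, ∀ v : V, ∃ w : V,
      (ρ y v - v) - A (A w) ∈ maximalIdeal T ^ n • (⊤ : Submodule T V) := by
    intro n y hy v
    obtain ⟨w, hw⟩ := h3 n y hy v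
    refine ⟨w, ?_⟩
    rw [hAv, hAv]
    exact hw
  -- Step 1: `det A = 0`
  have hδ : M.det = 0 := by
    let B : Module.End T V := Matrix.toLin e e M.adjugate
    have hBA : ∀ v, B (A v) = M.det • v := by
      intro v
      have h : B ∘ₗ A = M.det • LinearMap.id := by
        rw [hAM]
        show Matrix.toLin e e M.adjugate ∘ₗ Matrix.toLin e e M = _
        rw [← Matrix.toLin_mul, Matrix.adjugate_mul, map_smul, Matrix.toLin_one]
      exact LinearMap.congr_fun h v
    -- a basis vector outside `T v₀ + 𝔪 V`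
    have hex : ∃ i : Fin 2, e i ∉ Submodule.span T {v0} ⊔ maximalIdeal T • (⊤ : Submodule T V) := by
      by_contra hcon
      push Not at hcon
      have hc : ∀ i : Fin 2, ∃ c : T, ∀ j : Fin 2,
          e.repr (e i) j - c * e.repr v0 j ∈ maximalIdeal T := by
        intro i
        obtain ⟨x, hx, y, hy, hxy⟩ := Submodule.mem_sup.mp (hcon i)
        obtain ⟨c, rfl⟩ := Submodule.mem_span_singleton.mp hx
        refine ⟨c, fun j => ?_⟩
        rw [← hxy, map_add, Finsupp.add_apply, map_smul, Finsupp.smul_apply, smul_eq_mul,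
          add_sub_cancel_left]
        exact Fermat.Agent.S32.helper2804.repr_mem_of_mem_smul_top e _ hy j
      obtain ⟨c0, hc0⟩ := hc 0
      obtain ⟨c1, hc1⟩ := hc 1
      have h00 := hc0 0
      have h01 := hc0 1
      have h11 := hc1 1
      rw [Module.Basis.repr_self, Finsupp.single_apply] at h00 h01 h11
      simp only [if_true] at h00 h11
      rw [if_neg (by decide), zero_sub, neg_mem_iff] at h01
      -- `c0` is a unit
      have hc0u : IsUnit c0 := by
        by_contra hnu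
        have hmem : c0 * e.repr v0 0 ∈ maximalIdeal T :=
          Ideal.mul_mem_right _ _ ((mem_maximalIdeal _).mpr hnu)
        have : (1 : T) ∈ maximalIdeal T := by
          have := Ideal.add_mem _ h00 hmem
          rwa [sub_add_cancel] at this
        exact (Ideal.IsMaximal.ne_top inferInstance) ((Ideal.eq_top_iff_one _).mpr this)
      have hx1 : e.repr v0 1 ∈ maximalIdeal T := (Ideal.unit_mul_mem_iff_mem _ hc0u).mp h01
      have : (1 : T) ∈ maximalIdeal T := by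
        have := Ideal.add_mem _ h11 (Ideal.mul_mem_left _ c1 hx1)
        rwa [sub_add_cancel] at this
      exact (Ideal.IsMaximal.ne_top inferInstance) ((Ideal.eq_top_iff_one _).mpr this)
    obtain ⟨i0, hi0⟩ := hex
    refine eq_zero_of_forall_mem_pow fun n => ?_
    obtain ⟨w, hw⟩ := h3' n t ht (e i0)
    rw [← hAv] at hw
    have h2 : M.det • (e i0 - A w) ∈ maximalIdeal T ^ n • (⊤ : Submodule T V) := by
      have := map_mem_smul_top B hw
      rwa [map_sub, hBA, hBA, ← smul_sub] at this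
    have h4 : e i0 - A w ∉ maximalIdeal T • (⊤ : Submodule T V) := by
      intro hmem
      apply hi0
      have : e i0 = A w + (e i0 - A w) := by abel
      rw [this]
      exact Submodule.add_mem _ (hS w) (Submodule.mem_sup_right hmem)
    have hex2 : ∃ j : Fin 2, e.repr (e i0 - A w) j ∉ maximalIdeal T := by
      by_contra hcon
      push Not at hcon
      exact h4 (Fermat.Agent.S32.helper2804.mem_smul_top_of_repr_mem e _ hcon)
    obtain ⟨j, hj⟩ := hex2
    have hu : IsUnit (e.repr (e i0 - A w) j) := by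
      by_contra hnu
      exact hj ((mem_maximalIdeal _).mpr hnu)
    have h5 := Fermat.Agent.S32.helper2804.repr_mem_of_mem_smul_top e _ h2 j
    rw [map_smul, Finsupp.smul_apply, smul_eq_mul] at h5
    exact (Ideal.mul_unit_mem_iff_mem _ hu).mp h5
  -- Step 2: the trace is a unit and `A² = tr(A) A`
  have hdet2 : M 0 0 * M 1 1 - M 0 1 * M 1 0 = 0 := by rw [← Matrix.det_fin_two]; exact hδ
  have hρM : LinearMap.toMatrix e e (ρ t) = 1 + M := by
    have : ρ t = 1 + A := by rw [hA]; abel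
    rw [this, map_add, hM, LinearMap.toMatrix_one]
  have htr : M.trace = LinearMap.det (ρ t) - 1 := by
    rw [← LinearMap.det_toMatrix e, hρM, Matrix.det_fin_two, Matrix.trace_fin_two]
    simp only [Matrix.add_apply, Matrix.one_apply_eq, Matrix.one_apply_ne, ne_eq, Fin.isValue,
      zero_ne_one, one_ne_zero, not_false_eq_true, zero_add]
    linear_combination (-1 : T) * hdet2
  obtain ⟨τ, hτ⟩ : ∃ τ : T, τ = M.trace := ⟨_, rfl⟩
  have hτu : IsUnit τ := by rw [hτ, htr]; exact hdet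
  have hτ2 : τ = M 0 0 + M 1 1 := by rw [hτ, Matrix.trace_fin_two]
  have hCH : M * M = τ • M := by
    ext i j
    fin_cases i <;> fin_cases j <;>
      simp only [Matrix.mul_apply, Fin.sum_univ_two, Matrix.smul_apply, smul_eq_mul, hτ2,
        Fin.zero_eta, Fin.mk_one, Fin.isValue]
    · linear_combination (-1 : T) * hdet2
    · ring
    · ring
    · linear_combination (-1 : T) * hdet2
  have hAA : ∀ v, A (A v) = τ • A v := by
    intro v
    have h : A ∘ₗ A = τ • A := by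
      conv_lhs => rw [hAM]
      rw [← Matrix.toLin_mul, hCH, map_smul, ← hAM]
    exact LinearMap.congr_fun h v
  -- Step 3: a vector `b0 = A v1` outside `𝔪 V`
  have hex1 : ∃ v1, A v1 ∉ maximalIdeal T • (⊤ : Submodule T V) := by
    by_contra hcon
    push Not at hcon
    have hent : ∀ i j, M i j ∈ maximalIdeal T := fun i j => by
      rw [hMij]
      exact Fermat.Agent.S32.helper2804.repr_mem_of_mem_smul_top e _ (hcon (e j)) i
    have : τ ∈ maximalIdeal T := by
      rw [hτ2]; exact Ideal.add_mem _ (hent 0 0) (hent 1 1)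
    exact (mem_maximalIdeal _).mp this hτu
  obtain ⟨v1, hv1⟩ := hex1
  obtain ⟨b0, hb0⟩ : ∃ b0 : V, b0 = A v1 := ⟨_, rfl⟩
  have hb0n : b0 ∉ maximalIdeal T • (⊤ : Submodule T V) := by rw [hb0]; exact hv1
  have hAb0 : A b0 = τ • b0 := by rw [hb0, hAA]
  -- `T v₀ + 𝔪 V ≤ T b0 + 𝔪 V`
  have hle : Submodule.span T {v0} ⊔ maximalIdeal T • (⊤ : Submodule T V) ≤
      Submodule.span T {b0} ⊔ maximalIdeal T • (⊤ : Submodule T V) := by
    have hb0S := hS v1
    rw [← hb0] at hb0S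
    obtain ⟨x, hx, y, hy, hxy⟩ := Submodule.mem_sup.mp hb0S
    obtain ⟨c, rfl⟩ := Submodule.mem_span_singleton.mp hx
    have hcu : IsUnit c := by
      by_contra hnu
      apply hb0n
      rw [← hxy]
      exact Submodule.add_mem _
        (Submodule.smul_mem_smul ((mem_maximalIdeal _).mpr hnu) Submodule.mem_top) hy
    obtain ⟨u, rfl⟩ := hcu
    have hv0 : v0 = (↑u⁻¹ : T) • b0 - (↑u⁻¹ : T) • y := by
      rw [← hxy, smul_add, smul_smul, Units.inv_mul, one_smul, add_sub_cancel_right]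
    refine sup_le ?_ le_sup_right
    rw [Submodule.span_singleton_le_iff_mem, hv0]
    exact Submodule.sub_mem _
      (Submodule.mem_sup_left (Submodule.smul_mem _ _ (Submodule.mem_span_singleton_self b0)))
      (Submodule.mem_sup_right (Submodule.smul_mem _ _ hy))
  -- Step 4: a basis `b` with `b 0 = b0`, and `A (b 1) ∈ T b0`
  obtain ⟨b, hb⟩ := exists_basis_of_not_mem e b0 hb0n
  have hcoord : ∀ v, v = b.repr v 0 • b 0 + b.repr v 1 • b 1 := by
    intro v
    rw [← Fin.sum_univ_two (f := fun i => b.repr v i • b i)]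
    exact (b.sum_repr v).symm
  have hr00 : b.repr (b 0) 1 = 0 := by
    rw [Module.Basis.repr_self, Finsupp.single_apply]; simp
  have hr11 : b.repr (b 1) 1 = 1 := by
    rw [Module.Basis.repr_self, Finsupp.single_apply]; simp
  have hAb0' : A (b 0) = τ • b 0 := by rw [hb]; exact hAb0
  obtain ⟨α, hα⟩ : ∃ α : T, α = b.repr (A (b 1)) 0 := ⟨_, rfl⟩
  obtain ⟨β, hβ⟩ : ∃ β : T, β = b.repr (A (b 1)) 1 := ⟨_, rfl⟩
  have hAb1 : A (b 1) = α • b 0 + β • b 1 := by rw [hα, hβ]; exact hcoord _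
  have hβm : β ∈ maximalIdeal T := by
    rw [hβ]
    apply repr_one_mem
    rw [hb]
    exact hle (hS (b 1))
  have hβ0 : β = 0 := by
    have h := congrArg (fun x => b.repr x 1) (hAA (b 1))
    simp only [hAb1, map_add, map_smul, hAb0', Finsupp.add_apply, Finsupp.smul_apply,
      smul_eq_mul, hr00, hr11, mul_zero, mul_one, zero_add] at h
    -- h : β * β = τ * β
    have hu : IsUnit (τ - β) := by
      by_contra hnu
      have h6 : τ - β ∈ maximalIdeal T := (mem_maximalIdeal _).mpr hnu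
      have : τ ∈ maximalIdeal T := by
        have := Ideal.add_mem _ h6 hβm
        rwa [sub_add_cancel] at this
      exact (mem_maximalIdeal _).mp this hτu
    have h7 : (τ - β) * β = 0 := by linear_combination -h
    exact (hu.mul_right_eq_zero).mp h7
  have hAb1' : A (b 1) = α • b 0 := by rw [hAb1, hβ0, zero_smul, add_zero]
  have hrange : ∀ v, A v ∈ Submodule.span T {b 0} := by
    intro v
    have hv := hcoord v
    have : A v = (b.repr v 0 * τ + b.repr v 1 * α) • b 0 := by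
      conv_lhs => rw [hv]
      rw [map_add, map_smul, map_smul, hAb0', hAb1', smul_smul, smul_smul, ← add_smul]
    rw [this]
    exact Submodule.smul_mem _ _ (Submodule.mem_span_singleton_self _)
  -- Step 5: inertia acts trivially modulo `L`
  have hI : ∀ y ∈ Iset, ∀ v : V, ρ y v - v ∈ Submodule.span T {b 0} := by
    intro y hy v
    have hμ : b.repr (ρ y v - v) 1 = 0 := by
      refine eq_zero_of_forall_mem_pow fun n => ?_
      obtain ⟨w, hw⟩ := h3' n y hy v
      have h8 := Fermat.Agent.S32.helper2804.repr_mem_of_mem_smul_top b _ hw 1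
      obtain ⟨c, hc⟩ := Submodule.mem_span_singleton.mp (hrange (A w))
      rw [map_sub, Finsupp.sub_apply, ← hc, map_smul, Finsupp.smul_apply, hr00, smul_zero,
        sub_zero] at h8
      exact h8
    have h9 := hcoord (ρ y v - v)
    rw [hμ, zero_smul, add_zero] at h9
    rw [h9]
    exact Submodule.smul_mem _ _ (Submodule.mem_span_singleton_self _)
  refine ⟨Submodule.span T {b 0}, ⟨b, rfl⟩, ?_, hI⟩
  -- Step 6: stability under `Dset`
  intro σ hσ l hl
  obtain ⟨c, rfl⟩ := Submodule.mem_span_singleton.mp hl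
  have h10 : ρ σ (b 0) = ρ (σ * t * σ⁻¹) (ρ σ v1) - ρ σ v1 := by
    rw [hb, hb0, hAv, map_sub]
    congr 1
    have : ρ (σ * t * σ⁻¹) * ρ σ = ρ σ * ρ t := by
      rw [← map_mul, ← map_mul]
      congr 1
      group
    exact (LinearMap.congr_fun this v1).symm
  rw [map_smul, h10]
  exact Submodule.smul_mem _ _ (hI _ (hnorm σ hσ t ht) _)

end Endgame

/-! ## From the frozen residual hypothesis to a line in `V` -/

section Bridge

open IsLocalRing
open scoped TensorProduct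

variable {T : Type} [CommRing T] [IsLocalRing T]

theorem residue_smul_one_tmul {V : Type*} [AddCommGroup V] [Module T V] (c : T) (v : V) :
    (residue T c) • ((1 : ResidueField T) ⊗ₜ[T] v) = (1 : ResidueField T) ⊗ₜ[T] (c • v) := by
  have h : (residue T c) • (1 : ResidueField T) = c • (1 : ResidueField T) := by
    rw [smul_eq_mul, mul_one, Algebra.smul_def, mul_one, ResidueField.algebraMap_eq]
  rw [TensorProduct.smul_tmul', h, TensorProduct.smul_tmul]

/-- Every element of `k ⊗ V` is of the form `1 ⊗ v`. -/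
theorem exists_eq_one_tmul {V : Type*} [AddCommGroup V] [Module T V]
    (x : ResidueField T ⊗[T] V) : ∃ v : V, x = (1 : ResidueField T) ⊗ₜ[T] v := by
  induction x using TensorProduct.induction_on with
  | zero => exact ⟨0, by rw [TensorProduct.tmul_zero]⟩
  | tmul c v =>
    obtain ⟨c, rfl⟩ := residue_surjective c
    refine ⟨c • v, ?_⟩
    rw [← residue_smul_one_tmul, TensorProduct.smul_tmul', smul_eq_mul, mul_one]
  | add x y hx hy =>
    obtain ⟨v, rfl⟩ := hx
    obtain ⟨w, rfl⟩ := hy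
    exact ⟨v + w, by rw [TensorProduct.tmul_add]⟩

/-- `1 ⊗ w = 0` in `k ⊗ V` forces `w ∈ 𝔪 V` (`V` free). -/
theorem mem_smul_top_of_one_tmul_eq_zero {V : Type*} [AddCommGroup V] [Module T V]
    (e : Module.Basis (Fin 2) T V) {w : V}
    (h : (1 : ResidueField T) ⊗ₜ[T] w = 0) : w ∈ maximalIdeal T • (⊤ : Submodule T V) := by
  refine Fermat.Agent.S32.helper2804.mem_smul_top_of_repr_mem e _ fun i => ?_
  have h1 := congrArg (fun x => (Algebra.TensorProduct.basis (ResidueField T) e).repr x i) h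
  simp only [Algebra.TensorProduct.basis_repr_tmul, map_zero, Finsupp.coe_zero, Pi.zero_apply,
    one_smul, Finsupp.mapRange_apply, ResidueField.algebraMap_eq] at h1
  exact (residue_eq_zero_iff _).mp h1

/-- **The line.**  From the frozen residual hypothesis and `det ρ ≡` cyclotomic modulo `𝔪`:
a vector `v₀ ∈ V` with `(ρ(y) - 1) V ⊆ T v₀ + 𝔪 V` and `ρ(y) v₀ ≡ a v₀` modulo `𝔪 V` for every
`y` in the inertia group with exponent `a` on `μ_p`. -/
theorem exists_line_of_hres (ρ : GaloisRepAdic T) (p : ℕ)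
    (hdet : ∀ (σ : GQ) (a : ℕ), CycExp p σ a →
      LinearMap.det (ρ.ρ σ) - (a : T) ∈ maximalIdeal T)
    (hres : (GaloisRepAdic.ofResidualGaloisRep ρ.residual).IsOrdinaryAt p)
    (P : ValuationSubring Qb) (hP : P.LiesOverPrime p) :
    ∃ v0 : ρ.V,
      (∀ y ∈ P.inertiaSubgroupIn ℚ, ∀ v : ρ.V,
        ρ.ρ y v - v ∈ Submodule.span T {v0} ⊔ maximalIdeal T • (⊤ : Submodule T ρ.V)) ∧
      (∀ y ∈ P.inertiaSubgroupIn ℚ, ∀ a : ℕ, CycExp p y a →
        ρ.ρ y v0 - a • v0 ∈ maximalIdeal T • (⊤ : Submodule T ρ.V)) := by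
  classical
  let e : Module.Basis (Fin 2) T ρ.V := Module.finBasisOfFinrankEq T ρ.V ρ.finrank_eq
  -- unfold the residual representation
  have hres' : ∃ L : Submodule (ResidueField T) (ResidueField T ⊗[T] ρ.V),
      (∃ b : Module.Basis (Fin 2) (ResidueField T) (ResidueField T ⊗[T] ρ.V),
        L = Submodule.span (ResidueField T) {b 0}) ∧
      (∀ σ ∈ P.decompositionSubgroup ℚ, ∀ v ∈ L,
        (ρ.ρ σ).baseChange (ResidueField T) v ∈ L) ∧
      (∀ σ ∈ P.inertiaSubgroupIn ℚ, ∀ v : ResidueField T ⊗[T] ρ.V,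
        (ρ.ρ σ).baseChange (ResidueField T) v - v ∈ L) := hres P hP
  obtain ⟨L, ⟨b, hb⟩, hD, hI⟩ := hres'
  have hρ : ∀ (σ : GQ) (v : ρ.V),
      (ρ.ρ σ).baseChange (ResidueField T) ((1 : ResidueField T) ⊗ₜ[T] v) =
        (1 : ResidueField T) ⊗ₜ[T] (ρ.ρ σ v) := fun σ v => LinearMap.baseChange_tmul _ _ _
  obtain ⟨v0, hv0⟩ := exists_eq_one_tmul (T := T) (V := ρ.V) (b 0)
  have hb0L : b 0 ∈ L := by rw [hb]; exact Submodule.mem_span_singleton_self _
  refine ⟨v0, ?_, ?_⟩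
  · intro y hy v
    have h := hI y hy ((1 : ResidueField T) ⊗ₜ[T] v)
    rw [hb] at h
    obtain ⟨c, hc⟩ := Submodule.mem_span_singleton.mp h
    obtain ⟨c, rfl⟩ := residue_surjective c
    rw [hρ, hv0, residue_smul_one_tmul, ← TensorProduct.tmul_sub] at hc
    have h2 : (1 : ResidueField T) ⊗ₜ[T] (ρ.ρ y v - v - c • v0) = 0 := by
      rw [TensorProduct.tmul_sub, ← hc, sub_self]
    have h3 := mem_smul_top_of_one_tmul_eq_zero e h2
    have e1 : ρ.ρ y v - v = c • v0 + (ρ.ρ y v - v - c • v0) := by abel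
    rw [e1]
    exact Submodule.add_mem _
      (Submodule.mem_sup_left (Submodule.smul_mem _ _ (Submodule.mem_span_singleton_self _)))
      (Submodule.mem_sup_right h3)
  · intro y hy a ha
    have hyD : y ∈ P.decompositionSubgroup ℚ := by
      obtain ⟨⟨τ, hτ⟩, -, rfl⟩ := hy
      exact hτ
    obtain ⟨f, hf⟩ : ∃ f, f = (ρ.ρ y).baseChange (ResidueField T) := ⟨_, rfl⟩
    have h0 := hD y hyD (b 0) hb0L
    have h1 := hI y hy (b 1)
    rw [hb, ← hf] at h0 h1
    obtain ⟨c, hc⟩ := Submodule.mem_span_singleton.mp h0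
    obtain ⟨d, hd⟩ := Submodule.mem_span_singleton.mp h1
    have hf1 : f (b 1) = b 1 + d • b 0 := by rw [hd]; abel
    -- the determinant of `f` is `c`
    have hdetf : LinearMap.det f = c := by
      rw [← LinearMap.det_toMatrix b, Matrix.det_fin_two]
      simp only [LinearMap.toMatrix_apply, ← hc, hf1, map_add, map_smul, Finsupp.add_apply,
        Finsupp.smul_apply, Module.Basis.repr_self, Finsupp.single_apply, smul_eq_mul]
      simp
    have hdetf2 : LinearMap.det f = residue T (LinearMap.det (ρ.ρ y)) := by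
      rw [hf]
      have := LinearMap.det_baseChange (A := ResidueField T) (ρ.ρ y)
      rw [ResidueField.algebraMap_eq] at this
      exact this
    have hca : c = residue T (a : T) := by
      rw [← hdetf, hdetf2]
      have h4 := hdet y a ha
      rw [← residue_eq_zero_iff, map_sub, sub_eq_zero] at h4
      exact h4
    rw [hf, hv0, hρ, hca, residue_smul_one_tmul] at hc
    have h2 : (1 : ResidueField T) ⊗ₜ[T] (ρ.ρ y v0 - a • v0) = 0 := by
      rw [TensorProduct.tmul_sub, ← Nat.cast_smul_eq_nsmul T, hc, sub_self]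
    exact mem_smul_top_of_one_tmul_eq_zero e h2

end Bridge

/-! ## Normality of the inertia group -/

section Normal

theorem conj_mem_map_subtype {G : Type*} [Group G] (D : Subgroup G) (K : Subgroup D)
    [hn : K.Normal] {σ y : G} (hσ : σ ∈ D) (hy : y ∈ K.map D.subtype) :
    σ * y * σ⁻¹ ∈ K.map D.subtype := by
  rw [Subgroup.mem_map] at hy ⊢
  obtain ⟨y', hy', rfl⟩ := hy
  refine ⟨⟨σ, hσ⟩ * y' * ⟨σ, hσ⟩⁻¹, hn.conj_mem y' hy' ⟨σ, hσ⟩, ?_⟩
  rw [map_mul, map_mul, map_inv]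
  simp only [Subgroup.subtype_apply]

/-- The inertia group at `P` is normalised by the decomposition group. -/
theorem inertiaIn_conj_mem (P : ValuationSubring Qb) {σ y : GQ}
    (hσ : σ ∈ P.decompositionSubgroup ℚ) (hy : y ∈ P.inertiaSubgroupIn ℚ) :
    σ * y * σ⁻¹ ∈ P.inertiaSubgroupIn ℚ := by
  have hn : (P.inertiaSubgroup ℚ).Normal := by
    unfold ValuationSubring.inertiaSubgroup
    infer_instance
  exact conj_mem_map_subtype (P.decompositionSubgroup ℚ) (P.inertiaSubgroup ℚ) hσ hy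

end Normal

/-! ## The frozen statement -/

section Main

open IsLocalRing

variable {p : ℕ} {N : ℕ} [NeZero N] {S : Finset ℕ}
  {𝒪 : Type} [CommRing 𝒪] [IsDomain 𝒪] [IsDiscreteValuationRing 𝒪]
  [IsAdicComplete (IsLocalRing.maximalIdeal 𝒪) 𝒪]
  {θ : CuspForm.heckeAlgebra N 2 (↑S : Set ℕ) →+* IsLocalRing.ResidueField 𝒪}
  {T : Type} [CommRing T] [IsLocalRing T] [IsNoetherianRing T]
  [IsAdicComplete (IsLocalRing.maximalIdeal T) T] [Algebra 𝒪 T] [IsLocalHom (algebraMap 𝒪 T)]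
  [Module.Finite 𝒪 T] [Module.Free 𝒪 T]

/-- **S33 from the final transfer Prop of S32 and the `J`-level local statement.**  The binders
up to `hres` are those of the frozen statement. -/
theorem result_of_localJ
    [Finite (IsLocalRing.ResidueField 𝒪)] [CharZero 𝒪]
    (hp : p.Prime) (hp2 : p ≠ 2) (hp𝒪 : (p : 𝒪) ∈ IsLocalRing.maximalIdeal 𝒪)
    (hN : p ∣ N ∧ ¬ p ^ 2 ∣ N)
    (hNS : ∀ q : ℕ, q.Prime → q ∣ N → q ∈ S)
    (H : CuspForm.HeckeGaloisRepDatum N (↑S : Set ℕ) 𝒪 θ T)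
    (hres : (GaloisRepAdic.ofResidualGaloisRep H.ρ.residual).IsOrdinaryAt p)
    (hx : Fermat.Agent.S32.helper1215.Stmt_Subquot p H) (hL : Stmt_LocalJ N p) :
    H.ρ.IsOrdinaryAt p := by
  classical
  have hpS : p ∈ S := hNS p hp hN.1
  have hcyc := Fermat.Agent.S33.helper1600.detIsCyclotomic hp hp𝒪 hpS H
  have hpT : (p : T) ∈ maximalIdeal T := hcyc.1
  have hdet : ∀ (σ : GQ) (a : ℕ), CycExp p σ a →
      LinearMap.det (H.ρ.ρ σ) - (a : T) ∈ maximalIdeal T := by
    intro σ a ha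
    have h1 := hcyc.2 1 σ a (fun μ hμ => ha μ (by simpa using hμ))
    have hle : Ideal.span {((p ^ 1 : ℕ) : T)} ≤ maximalIdeal T := by
      rw [Ideal.span_singleton_le_iff_mem, pow_one]
      exact hpT
    exact hle h1
  intro P hP
  -- the element `t` of the inertia group moving `μ_p`
  obtain ⟨t, ht, c, hc, hc1⟩ :=
    Fermat.Agent.S33.helper6050.exists_inertia_apply_eq_pow hp hp2 P hP
  have hunit : IsUnit (LinearMap.det (H.ρ.ρ t) - 1) := by
    have h1 := hdet t c hc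
    have h2 : IsUnit ((c : T) - 1) :=
      Fermat.Agent.S33.helper6050.isUnit_natCast_sub_one hp hpT hc1
    by_contra hnu
    have h3 : LinearMap.det (H.ρ.ρ t) - 1 ∈ maximalIdeal T := (mem_maximalIdeal _).mpr hnu
    have h4 : (c : T) - 1 ∈ maximalIdeal T := by
      have := Ideal.sub_mem _ h3 h1
      rwa [sub_sub_sub_cancel_left] at this
    exact (mem_maximalIdeal _).mp h4 h2
  -- the line from `hres`
  obtain ⟨v0, hv0a, hv0b⟩ := exists_line_of_hres H.ρ p hdet hres P hP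
  -- normality of inertia in the decomposition group
  have hnorm : ∀ σ ∈ (P.decompositionSubgroup ℚ : Set GQ),
      ∀ y ∈ (P.inertiaSubgroupIn ℚ : Set GQ), σ * y * σ⁻¹ ∈ (P.inertiaSubgroupIn ℚ : Set GQ) :=
    fun σ hσ y hy => inertiaIn_conj_mem P hσ hy
  -- the finite-level input
  have h3 : ∀ n : ℕ, ∀ y ∈ (P.inertiaSubgroupIn ℚ : Set GQ), ∀ v : H.ρ.V, ∃ w : H.ρ.V,
      (H.ρ.ρ y v - v) - (H.ρ.ρ t (H.ρ.ρ t w - w) - (H.ρ.ρ t w - w)) ∈
        maximalIdeal T ^ n • (⊤ : Submodule T H.ρ.V) := by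
    intro n y hy v
    have : Finite (T ⧸ maximalIdeal T) := Fermat.Agent.S32.helper2804.finite_residueField H
    have : Finite (T ⧸ maximalIdeal T ^ n) :=
      Ideal.finite_quotient_pow (Ideal.fg_of_isNoetherianRing _) n
    obtain ⟨m, r, Nsub, hstab, f, hf, hfeq⟩ := hx (maximalIdeal T ^ n) inferInstance
    obtain ⟨act, hact⟩ : ∃ act : GQ → (Fin r → ↥(Submodule.torsionBy ℤ (JZero N) ((p : ℤ) ^ m))) →
        (Fin r → ↥(Submodule.torsionBy ℤ (JZero N) ((p : ℤ) ^ m))),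
        act = fun σ x i => Fermat.Agent.S32.helper1215.torsAct N ((p : ℤ) ^ m) σ (x i) :=
      ⟨_, rfl⟩
    have hact' : ∀ (σ : GQ) (x : Fin r → ↥(Submodule.torsionBy ℤ (JZero N) ((p : ℤ) ^ m)))
        (i : Fin r), ((act σ x i : ↥(Submodule.torsionBy ℤ (JZero N) ((p : ℤ) ^ m))) : JZero N) =
          σ • (x i : JZero N) := by
      intro σ x i
      rw [hact]
      rfl
    have hNst : ∀ σ : GQ, ∀ x ∈ Nsub, act σ x ∈ Nsub := fun σ x hxN =>
      hstab σ x hxN _ (fun i => hact' σ x i)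
    have hfe : ∀ (σ : GQ) (x : Fin r → ↥(Submodule.torsionBy ℤ (JZero N) ((p : ℤ) ^ m)))
        (hxN : x ∈ Nsub) (hx' : act σ x ∈ Nsub),
        f ⟨act σ x, hx'⟩ = H.ρ.levelAction (maximalIdeal T ^ n) σ (f ⟨x, hxN⟩) := by
      intro σ x hxN hx'
      exact hfeq σ ⟨x, hxN⟩ ⟨act σ x, hx'⟩ (fun i => hact' σ x i)
    have hchain := ordChain_comapPull (p := p) (Γ := (P.inertiaSubgroupIn ℚ : Set GQ)) Nsub
      (fun γ _ => hNst γ) f (fun γ _ => hfe γ)
      (ordChain_level H.ρ p hpT (P.inertiaSubgroupIn ℚ : Set GQ) v0 hv0a hv0b n)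
    rw [pullSub_top] at hchain
    have hLJ := hL P hP m r (pullSub Nsub f ⊥) Nsub
    rw [← hact] at hLJ
    have hw := hLJ hchain t ht c hc hc1 y hy
    obtain ⟨x, hxv⟩ := hf (Submodule.Quotient.mk v)
    obtain ⟨w, hwN, hmem⟩ := hw x.1 x.2
    obtain ⟨wV, hwV⟩ := Submodule.Quotient.mk_surjective _ (f ⟨w, hwN⟩)
    refine ⟨wV, ?_⟩
    rw [← Submodule.Quotient.mk_eq_zero]
    have h0 := transfer_identity (act' := fun σ => H.ρ.levelAction (maximalIdeal T ^ n) σ)
      Nsub f hNst hfe y t x.1 w x.2 hwN hmem (Submodule.Quotient.mk v) (Submodule.Quotient.mk wV)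
      hxv hwV.symm
    simp only [levelAction_mk, ← Submodule.Quotient.mk_sub] at h0
    exact h0
  exact isOrdinary_core H.ρ.finrank_eq H.ρ.ρ (P.decompositionSubgroup ℚ : Set GQ)
    (P.inertiaSubgroupIn ℚ : Set GQ) hnorm t ht hunit v0 hv0a h3

end Main

end Fermat.Agent.S33.helper1005
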