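/-
# S33, Spec (captain helper2784): the two leaf `Prop`s below `Stmt_LocalJ`

Chain (route #2990 with the simplification #3108 and the top seam of helper1005):

  frozen S33  ⟸  `S32.helper1215.Stmt_Subquot p H`   (unconditional on main, also for `p ∣ N`)
               +  the inertia element `t₀` moving `μ_p`  (`S33.helper6050`, on main)
               +  `Stmt_LocalJ (p * M) p`              (helper1005, file `helper1005_TopJ`)
  `Stmt_LocalJ (p * M) p`  ⟸  FREEHALF (`S33.helper3511`, on main)  +  `Stmt_NoFixJ p M h`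
  `Stmt_NoFixJ p M h`      ⟸  LOCAL-ORD (`S33.helper2784_LocalOrd`, on main)  +  `Stmt_OrderJ p M h`
  `Stmt_OrderJ p M h`      ⟸  the Čech order on `K_{p^m}` (CECHORD, GeomSpec leaves)

Here the level is `p * M` with `h : Nat.Coprime p M`, `W` is the Atkin–Lehner involution
`S35.helper1219.atkinLehnerBar p M h`, and `K_n = S33.helper3511.kBoth P (p * M) n W` is the
group of `n`-Kummer classes having one representative `≡ 1` at the Gauss valuation of `P` and
at its `W`-twin.

* `Stmt_NoFixJ p M h` : for every valuation subring `P` over `p`, all `m`, `r`, every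
  inertia-stable subgroup `B` of `J₀(pM)^r` and every `x ∈ K_{p^m}^r` with `p x ∈ B` and
  `s x - x ∈ B` for all `s` in the inertia group: `x ∈ B`.  (No nonzero inertia-fixed element in
  any inertia-subquotient of `K_{p^m}^r`.)
* `Stmt_OrderJ p M h` : for every `P` over `p` and every `m` there is a subring `H0` of the
  functions `K_{p^m} → ℚ̄` with values in `P`, inertia-equivariant, stable under the
  inertia-fixed scalars of `P`, separating points, closed under the addition law, and with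
  `φ x - φ 0 ∈ 𝔪_P` for all `φ ∈ H0`, `x` (the conclusion of
  `S19.helper1243.exists_order_of_exactLaw` for `K_{p^m}` and the inertia group, plus (Loc)).
-/
import Fermat.Agent.S33.helper3511_FreeHalf

set_option autoImplicit false

namespace Fermat.Agent.S33.helper2784

open AlgebraicCurve ModularCurve
open Fermat.Agent.S33.helper3511
open Fermat.Agent.S35.helper1219

local notation "Qb" => AlgebraicClosure ℚ

section Props

variable (p M : ℕ) [NeZero p] [NeZero M] (h : Nat.Coprime p M)
  [HasPrincipalDivisors Qb (modularFunctionFieldBar (p * M))]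

/-- **(NOFIX-J)** No inertia-fixed element in any inertia-subquotient of `K_{p^m}^r`. -/
def Stmt_NoFixJ : Prop :=
  ∀ P : ValuationSubring Qb, P.LiesOverPrime p →
    ∀ (m r : ℕ) (B : AddSubgroup (Fin r → JZero (p * M))),
      (∀ s ∈ P.inertiaSubgroupIn ℚ, ∀ x ∈ B, (fun i => s • x i) ∈ B) →
      ∀ x : Fin r → JZero (p * M),
        (∀ i, x i ∈ kBoth P (p * M) (p ^ m) (atkinLehnerBar p M h)) →
        p • x ∈ B →
        (∀ s ∈ P.inertiaSubgroupIn ℚ, (fun i => s • x i - x i) ∈ B) →
        x ∈ B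

/-- **(ORDER-J)** The inertia-level order on `K_{p^m}` with (Loc). -/
def Stmt_OrderJ : Prop :=
  ∀ P : ValuationSubring Qb, P.LiesOverPrime p → ∀ m : ℕ,
    ∃ H0 : Subring (↥(kBoth P (p * M) (p ^ m) (atkinLehnerBar p M h)) → Qb),
      (∀ φ ∈ H0, ∀ x, φ x ∈ P) ∧
      (∀ φ ∈ H0, ∀ s ∈ P.inertiaSubgroupIn ℚ,
        ∀ x y : ↥(kBoth P (p * M) (p ^ m) (atkinLehnerBar p M h)),
          (y : JZero (p * M)) = s • (x : JZero (p * M)) → φ y = s (φ x)) ∧
      (∀ c ∈ P, (∀ s ∈ P.inertiaSubgroupIn ℚ, s c = c) → ∀ φ ∈ H0, (fun x => c * φ x) ∈ H0) ∧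
      (∀ x y : ↥(kBoth P (p * M) (p ^ m) (atkinLehnerBar p M h)), x ≠ y →
        ∃ φ ∈ H0, φ x ≠ φ y) ∧
      (∀ φ ∈ H0, ∃ (n : ℕ)
        (a b : Fin n → ↥(kBoth P (p * M) (p ^ m) (atkinLehnerBar p M h)) → Qb),
        (∀ k, a k ∈ H0) ∧ (∀ k, b k ∈ H0) ∧ ∀ x y, φ (x + y) = ∑ k, a k x * b k y) ∧
      (∀ φ ∈ H0, ∀ x, φ x - φ 0 ∈ P.nonunits)

end Props

end Fermat.Agent.S33.helper2784
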