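/-
# S33, step (A) (helper2784): `Stmt_NoFixJ p M h → Stmt_LocalJ (p * M) p`

* `weakOrd_of_nofix` : the abstract induction along an ordinary chain.  If `KU` is a
  `Γ`-stable subgroup containing all `γ c - c` (free half) and having no `Γ`-fixed element in
  any `Γ`-subquotient (NOFIX), then along a chain from `B` to `A` with steps trivial or
  cyclotomic, `(y - 1) A ⊆ (t - 1)² A + B` for `t` of exponent `≢ 1` on `μ_p`.
* `stmt_localJ_of_noFixJ` : the `J`-level local statement `S33.helper7248.Stmt_LocalJ` at level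
  `p * M` from (NOFIX-J) and the free half `S33.helper3511`.
-/
import Fermat.Agent.S33.helper2784_Spec
import Fermat.Agent.S33.helper7248_LevelDescent

set_option autoImplicit false

namespace Fermat.Agent.S33.helper2784

open AlgebraicCurve ModularCurve
open Fermat.Agent.S33.helper3511
open Fermat.Agent.S35.helper1219
open Fermat.Agent.S33.helper7248 (CycExp OrdChain WeakOrd Stmt_LocalJ)
open Fermat.Agent.S32.helper1215 (torsAct coe_torsAct)

local notation "Qb" => AlgebraicClosure ℚ
local notation "GQ" => (AlgebraicClosure ℚ ≃ₐ[ℚ] AlgebraicClosure ℚ)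

/-- The inertia group lies in the decomposition group. -/
theorem mem_decomposition_of_mem_inertiaIn' {P : ValuationSubring Qb} {s : GQ}
    (hs : s ∈ P.inertiaSubgroupIn ℚ) : s ∈ P.decompositionSubgroup ℚ := by
  obtain ⟨t, -, rfl⟩ := hs
  exact t.2

/-- **The chain induction.** -/
theorem weakOrd_of_nofix {U : Type*} [AddCommGroup U] {p : ℕ} (hp : p.Prime) {Γ : Set GQ}
    (act : GQ → U → U) (hadd : ∀ σ x y, act σ (x + y) = act σ x + act σ y)
    (KU : AddSubgroup U) (hKU : ∀ γ ∈ Γ, ∀ c ∈ KU, act γ c ∈ KU)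
    (hfree : ∀ γ ∈ Γ, ∀ c : U, act γ c - c ∈ KU)
    (hnofix : ∀ D : AddSubgroup U, (∀ γ ∈ Γ, ∀ c ∈ D, act γ c ∈ D) → ∀ c ∈ KU, p • c ∈ D →
      (∀ γ ∈ Γ, act γ c - c ∈ D) → c ∈ D)
    {B A : AddSubgroup U} (hchain : OrdChain p Γ act B A)
    {t : GQ} (ht : t ∈ Γ) {a : ℕ} (ha : CycExp p t a) (ha1 : ¬ a ≡ 1 [MOD p])
    {y : GQ} (hy : y ∈ Γ) : WeakOrd act t y B A := by
  classical
  obtain ⟨k, C, hC0, hCk, hCstab, hCstep⟩ := hchain
  -- `act t` as an additive map
  have hzero : act t 0 = 0 := by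
    have h1 := hadd t 0 0
    rw [add_zero] at h1
    exact left_eq_add.mp h1
  let τ : U →+ U := { toFun := act t, map_zero' := hzero, map_add' := hadd t }
  have hτ : ∀ x, τ x = act t x := fun _ => rfl
  -- Bezout
  have hndvd : ¬ (p : ℤ) ∣ (1 - (a : ℤ)) := by
    intro hdvd
    apply ha1
    exact ((Nat.modEq_iff_dvd).mpr hdvd)
  have hcop : IsCoprime (p : ℤ) (1 - (a : ℤ)) :=
    (Nat.prime_iff_prime_int.mp hp).irreducible.coprime_iff_not_dvd.mpr hndvd
  obtain ⟨u, v, huv⟩ := hcop
  -- the key induction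
  have key : ∀ i, i ≤ k → ∀ c ∈ C i, c ∈ KU →
      ∃ w ∈ C i, w ∈ KU ∧ c - (τ w - w) ∈ C 0 ∧ c - (τ w - w) ∈ KU := by
    intro i
    induction i with
    | zero =>
      intro _ c hc hcK
      refine ⟨0, (C 0).zero_mem, KU.zero_mem, ?_, ?_⟩
      · rw [map_zero, sub_zero, sub_zero]; exact hc
      · rw [map_zero, sub_zero, sub_zero]; exact hcK
    | succ i ih =>
      intro hi c hc hcK
      have hik : i < k := hi
      obtain ⟨hle, hpk, hor⟩ := hCstep i hik
      rcases hor with h1 | h2
      · -- trivial step: `c ∈ C i` by NOFIX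
        have hci : c ∈ C i := hnofix (C i) (hCstab i) c hcK (hpk c hc)
          (fun γ hγ => h1 γ hγ c hc)
        obtain ⟨w, hw, hwK, hw0, hwK0⟩ := ih (le_of_lt hik) c hci hcK
        exact ⟨w, hle hw, hwK, hw0, hwK0⟩
      · -- cyclotomic step
        have hd : act t c - a • c ∈ C i := h2 t ht a ha c hc
        have hdK : act t c - a • c ∈ KU := KU.sub_mem (hKU t ht c hcK) (KU.nsmul_mem hcK a)
        set d := act t c - a • c with hddef
        have hτc : τ c = d + (a : ℤ) • c := by
          rw [hτ, hddef, natCast_zsmul]; abel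
        -- `c' = c - (τ (b • c) - b • c)` with `b = -v`
        have hpc : (p : ℤ) • c ∈ C i := by
          rw [natCast_zsmul]; exact hpk c hc
        have hpcK : (p : ℤ) • c ∈ KU := KU.zsmul_mem hcK _
        have hc'eq : c - (τ ((-v) • c) - (-v) • c) = u • ((p : ℤ) • c) - (-v) • d := by
          have h3 : (u * (p : ℤ) + v * (1 - (a : ℤ))) • c = c := by rw [huv, one_smul]
          rw [add_smul, mul_smul, mul_smul, sub_smul, one_smul, smul_sub] at h3
          have h4 : c = u • ((p : ℤ) • c) + v • c - v • ((a : ℤ) • c) := by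
            rw [add_sub_assoc]; exact h3.symm
          rw [map_zsmul, hτc, smul_add, neg_smul, neg_smul, neg_smul]
          generalize u • ((p : ℤ) • c) = X at h4 ⊢
          generalize v • ((a : ℤ) • c) = Z at h4 ⊢
          generalize v • c = Y at h4 ⊢
          generalize v • d = D
          rw [h4]; abel
        have hc'C : c - (τ ((-v) • c) - (-v) • c) ∈ C i := by
          rw [hc'eq]
          exact (C i).sub_mem ((C i).zsmul_mem hpc u) ((C i).zsmul_mem hd _)
        have hc'K : c - (τ ((-v) • c) - (-v) • c) ∈ KU := by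
          rw [hc'eq]
          exact KU.sub_mem (KU.zsmul_mem hpcK u) (KU.zsmul_mem hdK _)
        obtain ⟨w', hw', hw'K, hw'0, hw'K0⟩ := ih (le_of_lt hik) _ hc'C hc'K
        refine ⟨(-v) • c + w', (C (i + 1)).add_mem ((C (i + 1)).zsmul_mem hc _) (hle hw'),
          KU.add_mem (KU.zsmul_mem hcK _) hw'K, ?_, ?_⟩
        · have h5 : c - (τ ((-v) • c + w') - ((-v) • c + w')) =
              c - (τ ((-v) • c) - (-v) • c) - (τ w' - w') := by
            rw [map_add]; abel
          rw [h5]; exact hw'0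
        · have h5 : c - (τ ((-v) • c + w') - ((-v) • c + w')) =
              c - (τ ((-v) • c) - (-v) • c) - (τ w' - w') := by
            rw [map_add]; abel
          rw [h5]; exact hw'K0
  -- conclusion
  intro x hx
  have hxk : x ∈ C k := hCk ▸ hx
  have hu : act y x - x ∈ C k := (C k).sub_mem (hCstab k y hy x hxk) hxk
  have huK : act y x - x ∈ KU := hfree y hy x
  obtain ⟨w1, hw1, hw1K, hd1, -⟩ := key k le_rfl _ hu huK
  obtain ⟨w2, hw2, -, hd2, -⟩ := key k le_rfl _ hw1 hw1K
  refine ⟨w2, hCk ▸ hw2, ?_⟩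
  rw [← hC0]
  have h6 : act y x - x - (act t (act t w2 - w2) - (act t w2 - w2)) =
      (act y x - x - (τ w1 - w1)) + (τ (w1 - (τ w2 - w2)) - (w1 - (τ w2 - w2))) := by
    simp only [← hτ, map_sub]
    abel
  rw [h6]
  refine (C 0).add_mem hd1 ((C 0).sub_mem ?_ hd2)
  rw [hτ]
  exact hCstab 0 t ht _ hd2

section Main

variable {p M : ℕ} [NeZero p] [NeZero M] (h : Nat.Coprime p M)
  [HasPrincipalDivisors Qb (modularFunctionFieldBar (p * M))]

/-- **Step (A).** (NOFIX-J) and the free half give the `J`-level local statement at level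
`p * M`. -/
theorem stmt_localJ_of_noFixJ (hp : p.Prime) (hNF : Stmt_NoFixJ p M h) :
    Stmt_LocalJ (p * M) p := by
  classical
  intro P hP m r B A hchain t ht a ha ha1 y hy
  have hpm0 : p ^ m ≠ 0 := pow_ne_zero m hp.ne_zero
  -- the coordinatewise inclusion into `J₀(pM)^r`
  let incl : (Fin r → ↥(Submodule.torsionBy ℤ (JZero (p * M)) ((p : ℤ) ^ m))) →+
      (Fin r → JZero (p * M)) :=
    { toFun := fun x i => (x i : JZero (p * M))
      map_zero' := rfl
      map_add' := fun _ _ => rfl }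
  have hincl_inj : Function.Injective incl := by
    intro x x' hxx'
    funext i
    exact Subtype.ext (congrFun hxx' i)
  have hincl_act : ∀ (σ : GQ) (x : Fin r → ↥(Submodule.torsionBy ℤ (JZero (p * M)) ((p : ℤ) ^ m))),
      incl (fun i => torsAct (p * M) ((p : ℤ) ^ m) σ (x i)) = fun i => σ • incl x i := by
    intro σ x
    funext i
    rfl
  -- the `K`-part
  let KU : AddSubgroup (Fin r → ↥(Submodule.torsionBy ℤ (JZero (p * M)) ((p : ℤ) ^ m))) :=
    { carrier := {x | ∀ i, (x i : JZero (p * M)) ∈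
        kBoth P (p * M) (p ^ m) (atkinLehnerBar p M h)}
      add_mem' := fun {x x'} hx hx' i => AddSubgroup.add_mem _ (hx i) (hx' i)
      zero_mem' := fun i => AddSubgroup.zero_mem _
      neg_mem' := fun {x} hx i => AddSubgroup.neg_mem _ (hx i) }
  refine weakOrd_of_nofix hp _ ?_ KU ?_ ?_ ?_ hchain ht ha ha1 hy
  · intro σ x x'
    funext i
    apply Subtype.ext
    show σ • ((x i : JZero (p * M)) + (x' i : JZero (p * M))) = _
    rw [smul_add]
    rfl
  · intro γ hγ c hc i
    exact smul_mem_kBoth_atkinLehner h (mem_decomposition_of_mem_inertiaIn' hγ) (hc i)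
  · intro γ hγ c i
    have hci : ((p ^ m : ℕ) : ℤ) • (c i : JZero (p * M)) = 0 := by
      have h1 := (Submodule.mem_torsionBy_iff _ _).1 (c i).2
      rw [Nat.cast_pow]
      exact h1
    exact inertia_sub_mem_kBoth_atkinLehner h hp hpm0 hP hγ (c i : JZero (p * M)) hci
  · intro D hD c hcK hpc hfix
    have h1 : incl c ∈ D.map incl := by
      refine hNF P hP m r (D.map incl) ?_ (incl c) hcK ?_ ?_
      · rintro s hs _ ⟨d, hd, rfl⟩
        exact ⟨_, hD s hs d hd, hincl_act s d⟩
      · exact ⟨p • c, hpc, map_nsmul incl p c⟩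
      · intro s hs
        exact ⟨_, hfix s hs, by rw [map_sub, hincl_act]; rfl⟩
    obtain ⟨c', hc', hcc'⟩ := h1
    rw [← hincl_inj hcc']
    exact hc'

end Main

end Fermat.Agent.S33.helper2784
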