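/-
# S33, step (B) (helper2784): `Stmt_OrderJ p M h → Stmt_NoFixJ p M h`

The inertia-level order on `K_{p^m}` (one copy) gives, through the product order on
`K_{p^m}^r` (`S33.helper9487`), the fixed basis (`S33.helper7050`, ORDFREE) and LOCAL-ORD in its
relative form (`S33.helper2784.mem_of_trivial_step`), the statement (NOFIX-J): no inertia-fixed
element in any inertia-subquotient of `K_{p^m}^r`.
-/
import Fermat.Agent.S33.helper2784_Spec
import Fermat.Agent.S33.helper7050_OrdFreeAdapter
import Fermat.Agent.S33.helper9487_ProdOrder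
import Fermat.Agent.S29.helper288_FinTorsion

set_option autoImplicit false

namespace Fermat.Agent.S33.helper2784

open AlgebraicCurve ModularCurve
open Fermat.Agent.S33.helper3511
open Fermat.Agent.S35.helper1219

local notation "Qb" => AlgebraicClosure ℚ
local notation "GQ" => (AlgebraicClosure ℚ ≃ₐ[ℚ] AlgebraicClosure ℚ)

/-- The inertia group lies in the decomposition group. -/
theorem mem_decomposition_of_mem_inertiaIn {P : ValuationSubring Qb} {s : GQ}
    (hs : s ∈ P.inertiaSubgroupIn ℚ) : s ∈ P.decompositionSubgroup ℚ := by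
  obtain ⟨t, -, rfl⟩ := hs
  exact t.2

section Action

variable {p M : ℕ} [NeZero p] [NeZero M] (h : Nat.Coprime p M)
  [HasPrincipalDivisors Qb (modularFunctionFieldBar (p * M))]
  (P : ValuationSubring Qb) (n : ℕ)

/-- The action of the inertia group of `P` on `K_n`. -/
@[reducible] noncomputable def inertiaActK :
    DistribMulAction ↥(P.inertiaSubgroupIn ℚ) ↥(kBoth P (p * M) n (atkinLehnerBar p M h)) where
  smul g k := ⟨(g : GQ) • (k : JZero (p * M)),
    smul_mem_kBoth_atkinLehner h (mem_decomposition_of_mem_inertiaIn g.2) k.2⟩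
  one_smul k := Subtype.ext (one_smul GQ (k : JZero (p * M)))
  mul_smul g g' k := Subtype.ext (mul_smul (g : GQ) (g' : GQ) (k : JZero (p * M)))
  smul_zero g := Subtype.ext (smul_zero (g : GQ))
  smul_add g k k' := Subtype.ext (smul_add (g : GQ) (k : JZero (p * M)) (k' : JZero (p * M)))

end Action

section Main

variable {p M : ℕ} [NeZero p] [NeZero M] (h : Nat.Coprime p M)
  [HasPrincipalDivisors Qb (modularFunctionFieldBar (p * M))]

/-- **Step (B).** The order on `K_{p^m}` gives (NOFIX-J). -/
theorem stmt_noFixJ_of_orderJ (hp : p.Prime) (hp2 : p ≠ 2) (hO : Stmt_OrderJ p M h) :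
    Stmt_NoFixJ p M h := by
  classical
  intro P hP m r B hB x hxK hpx hsx
  -- the degenerate case `r = 0`
  by_cases hr : r = 0
  · subst hr
    have hx0 : x = 0 := funext fun i => i.elim0
    rw [hx0]
    exact B.zero_mem
  obtain ⟨H0, hval, hI, hR0, hsep, hadd, hloc⟩ := hO P hP m
  letI : DistribMulAction ↥(P.inertiaSubgroupIn ℚ)
      ↥(kBoth P (p * M) (p ^ m) (atkinLehnerBar p M h)) := inertiaActK h P (p ^ m)
  have hsmul_coe : ∀ (g : ↥(P.inertiaSubgroupIn ℚ))
      (k : ↥(kBoth P (p * M) (p ^ m) (atkinLehnerBar p M h))),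
      ((g • k : ↥(kBoth P (p * M) (p ^ m) (atkinLehnerBar p M h))) : JZero (p * M)) =
        (g : GQ) • (k : JZero (p * M)) := fun _ _ => rfl
  -- finiteness of `K_{p^m}`
  have hpm0 : p ^ m ≠ 0 := pow_ne_zero m hp.ne_zero
  have hfinK : Finite ↥(kBoth P (p * M) (p ^ m) (atkinLehnerBar p M h)) := by
    have hfin := Fermat.Agent.S29.helper288.finite_torsion_JZero (p * M) hpm0
    have : Finite ↥{x : JZero (p * M) | p ^ m • x = 0} := hfin.to_subtype
    refine Finite.of_injective
      (fun k : ↥(kBoth P (p * M) (p ^ m) (atkinLehnerBar p M h)) =>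
        (⟨(k : JZero (p * M)), nsmul_eq_zero_of_mem_kBoth k.2⟩ :
          ↥{x : JZero (p * M) | p ^ m • x = 0})) ?_
    intro k k' hkk'
    have h1 : (k : JZero (p * M)) = (k' : JZero (p * M)) :=
      congrArg (fun z : ↥{x : JZero (p * M) | p ^ m • x = 0} => (z : JZero (p * M))) hkk'
    exact Subtype.ext h1
  -- the action as a family of maps indexed by the whole Galois group
  let act : GQ → ↥(kBoth P (p * M) (p ^ m) (atkinLehnerBar p M h)) →
      ↥(kBoth P (p * M) (p ^ m) (atkinLehnerBar p M h)) :=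
    fun s k => if hs : s ∈ P.inertiaSubgroupIn ℚ then
      (⟨s, hs⟩ : ↥(P.inertiaSubgroupIn ℚ)) • k else k
  have hact : ∀ (g : ↥(P.inertiaSubgroupIn ℚ))
      (k : ↥(kBoth P (p * M) (p ^ m) (atkinLehnerBar p M h))), act g.1 k = g • k := by
    intro g k
    simp only [act, dif_pos g.2]
  have hI' : ∀ φ ∈ H0, ∀ s ∈ P.inertiaSubgroupIn ℚ, ∀ k, φ (act s k) = s (φ k) := by
    intro φ hφ s hs k
    refine hI φ hφ s hs k (act s k) ?_
    simp only [act, dif_pos hs]
    rfl
  obtain ⟨pval, peqv, psmul, psep, plaw, ploc⟩ :=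
    Fermat.Agent.S33.helper9487.prodOrder_spec_valuationSubring r hr P
      (P.inertiaSubgroupIn ℚ) act H0 hval hI' hR0 hsep hadd hloc
  -- the hypotheses of LOCAL-ORD for the product order
  have hH : OrderHyp ↥(P.inertiaSubgroupIn ℚ) P.toSubring (nonunitsAddSubgroup P)
      (Fermat.Agent.S33.helper9487.prodOrder r H0) := by
    refine ⟨pval, ?_, ?_, psep, plaw, ?_⟩
    · intro ψ hψ g y
      have h1 := peqv ψ hψ g.1 g.2 y
      have h2 : (fun i => act g.1 (y i)) = g • y := by
        funext i
        rw [hact g (y i)]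
        rfl
      rw [h2] at h1
      exact h1
    · intro c hc hfix ψ hψ
      exact psmul c hc (fun s hs => hfix ⟨s, hs⟩) ψ hψ
    · intro ψ hψ y
      exact (ValuationSubring.mem_nonunits_iff P).mp (ploc ψ hψ y)
  -- the subgroup of `K^r` cut out by `B`
  let incl : (Fin r → ↥(kBoth P (p * M) (p ^ m) (atkinLehnerBar p M h))) →+
      (Fin r → JZero (p * M)) :=
    { toFun := fun y i => (y i : JZero (p * M))
      map_zero' := rfl
      map_add' := fun _ _ => rfl }
  have hincl : ∀ y i, incl y i = (y i : JZero (p * M)) := fun _ _ => rfl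
  let m₁ : Fin r → ↥(kBoth P (p * M) (p ^ m) (atkinLehnerBar p M h)) := fun i => ⟨x i, hxK i⟩
  have hm₁ : incl m₁ = x := rfl
  have hmem : m₁ ∈ B.comap incl := by
    refine Fermat.Agent.S33.helper7050.mem_of_trivial_step_inertia hp hp2 P hP
      (Fermat.Agent.S33.helper9487.prodOrder r H0) hH (B.comap incl) ?_ m₁ ?_ ?_
    · intro g y hy
      rw [AddSubgroup.mem_comap] at hy ⊢
      have h1 := hB g.1 g.2 (incl y) hy
      have h2 : incl (g • y) = fun i => (g : GQ) • incl y i := by
        funext i
        rfl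
      rw [h2]
      exact h1
    · rw [AddSubgroup.mem_comap, map_nsmul, hm₁]
      exact hpx
    · intro g
      rw [AddSubgroup.mem_comap]
      have h1 := hsx g.1 g.2
      have h2 : incl (g • m₁ - m₁) = fun i => (g : GQ) • x i - x i := by
        funext i
        rfl
      rw [h2]
      exact h1
  rw [AddSubgroup.mem_comap, hm₁] at hmem
  exact hmem

end Main

end Fermat.Agent.S33.helper2784
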