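/-
# S33, root of the Spec (captain helper2784)

The frozen statement S33 (template binders) from

* `hTop`  : the top step (T) — `Stmt_Subquot p H` and `Stmt_LocalJ N p` give `H.ρ.IsOrdinaryAt p`
            (`S33.helper1005.result_of_localJ`, on main; discharged in `result_of_orderJ`);
* `hC`    : the long pole (C) — `Stmt_OrderJ p M h` for every even `M` coprime to `p`.

Everything else is discharged from main:
`S32.helper2559.stmt_subquot` + `S32.helper1429.stmt_HF` + the S18 export (the finite-level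
transfer, also for `p ∣ N`), `S33.helper7248.stmt_LocalJ_of_even_mul` (level descent),
`stmt_localJ_of_noFixJ` (step (A)), `stmt_noFixJ_of_orderJ` (step (B)).
-/
import Fermat.Agent.S33.helper2784_LocalJ
import Fermat.Agent.S33.helper2784_NoFixJ
import Fermat.Agent.S32.helper1215_Asm
import Fermat.Agent.S37.helper5162_HeckeInputsModular
import Fermat.Agent.S33.helper1005_TopJ

set_option autoImplicit false

namespace Fermat.Agent.S33.helper2784

open AlgebraicCurve ModularCurve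

local notation "Qb" => AlgebraicClosure ℚ

section Root

variable {p : ℕ} {N : ℕ} [NeZero N] {S : Finset ℕ}
  {𝒪 : Type} [CommRing 𝒪] [IsDomain 𝒪] [IsDiscreteValuationRing 𝒪]
  [IsAdicComplete (IsLocalRing.maximalIdeal 𝒪) 𝒪]
  {θ : CuspForm.heckeAlgebra N 2 (↑S : Set ℕ) →+* IsLocalRing.ResidueField 𝒪}
  {T : Type} [CommRing T] [IsLocalRing T] [IsNoetherianRing T]
  [IsAdicComplete (IsLocalRing.maximalIdeal T) T] [Algebra 𝒪 T] [IsLocalHom (algebraMap 𝒪 T)]
  [Module.Finite 𝒪 T] [Module.Free 𝒪 T]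

/-- The finite-level transfer for the datum, in the frozen S33 binders (`p ∣ N` allowed):
unconditional on main. -/
theorem stmt_subquot_datum [Finite (IsLocalRing.ResidueField 𝒪)] [CharZero 𝒪]
    (hp : p.Prime) (hp𝒪 : (p : 𝒪) ∈ IsLocalRing.maximalIdeal 𝒪) (hpN : p ∣ N)
    (hNS : ∀ q : ℕ, q.Prime → q ∣ N → q ∈ S)
    (H : CuspForm.HeckeGaloisRepDatum N (↑S : Set ℕ) 𝒪 θ T) :
    Fermat.Agent.S32.helper1215.Stmt_Subquot p H :=
  Fermat.Agent.S32.helper2559.stmt_subquot hp hp𝒪 (hNS p hp hpN) hNS H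
    (Fermat.Agent.S32.helper1215.stmt_Frob_of_kf0 Fermat.Agent.S32.helper1215.stmt_KF0All N p)
    (Fermat.Agent.S32.helper1429.stmt_HF hp hp𝒪 H
      (Fermat.Agent.S32.helper1215.stmt_K5 N p hp.ne_zero))

/-- The `J`-level local statement at every level `N` with `p ∥ N`, from (ORDER-J) at the even
levels `p * M`. -/
theorem stmt_localJ_of_orderJ [NeZero p] (hp : p.Prime) (hp2 : p ≠ 2)
    (hN : p ∣ N ∧ ¬ p ^ 2 ∣ N)
    (hC : ∀ (M : ℕ) [NeZero M] (h : Nat.Coprime p M), 2 ∣ M → Stmt_OrderJ p M h) :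
    Fermat.Agent.S33.helper7248.Stmt_LocalJ N p :=
  Fermat.Agent.S33.helper7248.stmt_LocalJ_of_even_mul hp hp2
    (fun M _ h h2 => stmt_localJ_of_noFixJ h hp (stmt_noFixJ_of_orderJ h hp hp2 (hC M h h2)))
    N hN.1 hN.2

/-- **Root of the S33 Spec.**  The frozen S33 statement from the top step (T) and the long pole
(C). -/
theorem result_of_top_orderJ [Finite (IsLocalRing.ResidueField 𝒪)] [CharZero 𝒪] [NeZero p]
    (hp : p.Prime) (hp2 : p ≠ 2) (hp𝒪 : (p : 𝒪) ∈ IsLocalRing.maximalIdeal 𝒪)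
    (hN : p ∣ N ∧ ¬ p ^ 2 ∣ N)
    (hNS : ∀ q : ℕ, q.Prime → q ∣ N → q ∈ S)
    (H : CuspForm.HeckeGaloisRepDatum N (↑S : Set ℕ) 𝒪 θ T)
    (hTop : Fermat.Agent.S32.helper1215.Stmt_Subquot p H →
      Fermat.Agent.S33.helper7248.Stmt_LocalJ N p → H.ρ.IsOrdinaryAt p)
    (hC : ∀ (M : ℕ) [NeZero M] (h : Nat.Coprime p M), 2 ∣ M → Stmt_OrderJ p M h) :
    H.ρ.IsOrdinaryAt p :=
  hTop (stmt_subquot_datum hp hp𝒪 hN.1 hNS H) (stmt_localJ_of_orderJ hp hp2 hN hC)

/-- **S33 from the long pole (C) alone.**  The frozen S33 statement from `Stmt_OrderJ p M h` at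
the even levels `p * M`; the top step is `S33.helper1005.result_of_localJ`. -/
theorem result_of_orderJ [Finite (IsLocalRing.ResidueField 𝒪)] [CharZero 𝒪] [NeZero p]
    (hp : p.Prime) (hp2 : p ≠ 2) (hp𝒪 : (p : 𝒪) ∈ IsLocalRing.maximalIdeal 𝒪)
    (hN : p ∣ N ∧ ¬ p ^ 2 ∣ N)
    (hNS : ∀ q : ℕ, q.Prime → q ∣ N → q ∈ S)
    (H : CuspForm.HeckeGaloisRepDatum N (↑S : Set ℕ) 𝒪 θ T)
    (hres : (GaloisRepAdic.ofResidualGaloisRep H.ρ.residual).IsOrdinaryAt p)
    (hC : ∀ (M : ℕ) [NeZero M] (h : Nat.Coprime p M), 2 ∣ M → Stmt_OrderJ p M h) :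
    H.ρ.IsOrdinaryAt p :=
  result_of_top_orderJ hp hp2 hp𝒪 hN hNS H
    (fun hx hL => Fermat.Agent.S33.helper1005.result_of_localJ hp hp2 hp𝒪 hN hNS H hres hx hL)
    hC

end Root

end Fermat.Agent.S33.helper2784
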