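/-
S33, seam adapter (helper7050): the target of the geometry Spec (`helper1085.Stmt_OrdPow`, the
order on `K_n ^ d` for every `d`) gives the leaf Prop of the captain's chain
(`helper2784.Stmt_OrderJ`, the order on `K_n`), by reading it at `d = 1` through the
identification `(Fin 1 → K_n) ≃ K_n`.

Also the closed top of step (C): `stmt_orderJ_of_leaves`, the two geometric leaf Props of
`helper1085_GeomSpec` give `helper2784.Stmt_OrderJ` (finiteness of `K_n` discharged here).
-/
import Fermat.Agent.S33.helper1085_GeomSpec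
import Fermat.Agent.S33.helper2784_Spec
import Fermat.Agent.S29.helper288_FinTorsion

set_option autoImplicit false

namespace Fermat.Agent.S33.helper7050

open AlgebraicCurve ModularCurve
open Fermat.Agent.S33.helper3511

local notation "Qb" => AlgebraicClosure ℚ
local notation "GQ" => (AlgebraicClosure ℚ ≃ₐ[ℚ] AlgebraicClosure ℚ)

section Abstract

variable {K : Type*}

/-- Pull back a function on `K` to `Fin 1 → K`, as a ring homomorphism. -/
def pullOne : (K → Qb) →+* ((Fin 1 → K) → Qb) where
  toFun ψ := fun f => ψ (f 0)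
  map_one' := rfl
  map_mul' _ _ := rfl
  map_zero' := rfl
  map_add' _ _ := rfl

theorem pullOne_apply (ψ : K → Qb) (f : Fin 1 → K) : pullOne ψ f = ψ (f 0) := rfl

theorem const_eval_zero (f : Fin 1 → K) : (fun _ : Fin 1 => f 0) = f := by
  funext i
  rw [Subsingleton.elim i 0]

theorem pullOne_comp_const (φ : (Fin 1 → K) → Qb) :
    pullOne (fun x : K => φ (fun _ => x)) = φ := by
  funext f
  rw [pullOne_apply, const_eval_zero]

end Abstract

/-- **`Stmt_OrdPow` (helper1085, all powers) ⟹ `Stmt_OrderJ` (helper2784, the group itself).** -/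
theorem stmt_orderJ_of_ordPow {p M : ℕ} [NeZero p] [NeZero M] (h : Nat.Coprime p M)
    [HasPrincipalDivisors Qb (modularFunctionFieldBar (p * M))]
    (hO : Fermat.Agent.S33.helper1085.Stmt_OrdPow p M h) :
    Fermat.Agent.S33.helper2784.Stmt_OrderJ p M h := by
  intro P hP m
  obtain ⟨H0, hval, hI, hR0, hsep, hadd, hloc⟩ := hO P hP m 1
  refine ⟨H0.comap pullOne, ?_, ?_, ?_, ?_, ?_, ?_⟩
  · intro ψ hψ x
    exact hval _ hψ (fun _ => x)
  · intro ψ hψ s hs x y hxy
    have h1 := hI _ hψ s hs (fun _ => x)
    rw [pullOne_apply, pullOne_apply] at h1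
    have h2 : Fermat.Agent.S33.helper1085.actPow h P (p ^ m) 1 s (fun _ => x) 0 = y := by
      apply Subtype.ext
      rw [Fermat.Agent.S33.helper1085.coe_actPow h P (p ^ m) 1 hs]
      exact hxy.symm
    rw [h2] at h1
    exact h1
  · intro c hc hfix ψ hψ
    exact hR0 c hc hfix _ hψ
  · intro x y hxy
    have hne : (fun _ : Fin 1 => x) ≠ (fun _ : Fin 1 => y) := fun he => hxy (congrFun he 0)
    obtain ⟨φ, hφ, hφne⟩ := hsep _ _ hne
    refine ⟨fun z => φ (fun _ => z), ?_, hφne⟩
    rw [Subring.mem_comap, pullOne_comp_const]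
    exact hφ
  · intro ψ hψ
    obtain ⟨n, a, b, ha, hb, hab⟩ := hadd _ hψ
    refine ⟨n, fun k z => a k (fun _ => z), fun k z => b k (fun _ => z), ?_, ?_, ?_⟩
    · intro k
      rw [Subring.mem_comap, pullOne_comp_const]
      exact ha k
    · intro k
      rw [Subring.mem_comap, pullOne_comp_const]
      exact hb k
    · intro x y
      have h1 := hab (fun _ => x) (fun _ => y)
      rw [pullOne_apply] at h1
      exact h1
  · intro ψ hψ x
    have h1 := hloc _ hψ (fun _ => x)
    rw [pullOne_apply, pullOne_apply] at h1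
    exact h1

/-- `K_n` is finite for `n ≠ 0` (it sits inside the `n`-torsion of `J₀(pM)`). -/
theorem finite_Kn {p M : ℕ} [NeZero p] [NeZero M] (h : Nat.Coprime p M)
    [HasPrincipalDivisors Qb (modularFunctionFieldBar (p * M))]
    (P : ValuationSubring Qb) {n : ℕ} (hn : n ≠ 0) :
    Finite ↥(Fermat.Agent.S33.helper1085.Kn h P n) := by
  have hfin := Fermat.Agent.S29.helper288.finite_torsion_JZero (p * M) hn
  have : Finite ↥{x : JZero (p * M) | n • x = 0} := hfin.to_subtype
  refine Finite.of_injective
    (fun k : ↥(Fermat.Agent.S33.helper1085.Kn h P n) =>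
      (⟨(k : JZero (p * M)), nsmul_eq_zero_of_mem_kBoth k.2⟩ :
        ↥{x : JZero (p * M) | n • x = 0})) ?_
  intro k k' hkk'
  have h1 : (k : JZero (p * M)) = (k' : JZero (p * M)) :=
    congrArg (fun z : ↥{x : JZero (p * M) | n • x = 0} => (z : JZero (p * M))) hkk'
  exact Subtype.ext h1

/-- **Closed top of step (C)**: the two geometric leaves of `helper1085_GeomSpec`
(`Stmt_CechLevel` at level `p * M` with the Atkin–Lehner involution, and `Stmt_Family`) give
the leaf Prop `Stmt_OrderJ` of the captain's chain. -/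
theorem stmt_orderJ_of_leaves {p M : ℕ} [NeZero p] [NeZero M] (h : Nat.Coprime p M)
    [HasPrincipalDivisors Qb (modularFunctionFieldBar (p * M))] (hp : p.Prime)
    (hcech : Fermat.Agent.S33.helper1085.Stmt_CechLevel p (p * M)
      (Fermat.Agent.S33.helper1085.wAL h))
    (hfam : Fermat.Agent.S33.helper1085.Stmt_Family p M h) :
    Fermat.Agent.S33.helper2784.Stmt_OrderJ p M h :=
  stmt_orderJ_of_ordPow h
    (Fermat.Agent.S33.helper1085.stmt_OrdPow_of_leaves h hp
      (fun P m => finite_Kn h P (pow_ne_zero m hp.ne_zero)) hcech hfam)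

end Fermat.Agent.S33.helper7050
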