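/-
# S33, root of the geometry Spec (captain helper2784)

The frozen statement S33 (template binders) from the TWO geometric leaf `Prop`s of
`S33.helper1085_GeomSpec` at the even levels `p * M`:

* `helper1085.Stmt_CechLevel p (p * M) (wAL h)` : the Čech datum of the two-component model of
  `X₀(pM)` at every finite level;
* `helper1085.Stmt_Family p M h` : the classes of `K_{p^m}` form a family of two-chart bundles
  trivial mod `π` at some finite level.

Chain: leaves ⟹ `helper1085.Stmt_OrdPow` (`helper1085.stmt_OrdPow_of_leaves`, with the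
finiteness of `K_{p^m}` discharged here) ⟹ `Stmt_OrderJ` (`helper7050.stmt_orderJ_of_ordPow`)
⟹ frozen S33 (`result_of_orderJ`).
-/
import Fermat.Agent.S33.helper2784_Final
import Fermat.Agent.S33.helper7050_OrdPowAdapter

set_option autoImplicit false

namespace Fermat.Agent.S33.helper2784

open AlgebraicCurve ModularCurve
open Fermat.Agent.S33.helper3511

local notation "Qb" => AlgebraicClosure ℚ

section Leaves

variable {p M : ℕ} [NeZero p] [NeZero M] (h : Nat.Coprime p M)
  [HasPrincipalDivisors Qb (modularFunctionFieldBar (p * M))]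

/-- `K_{p^m}` is finite (it lies in the `p^m`-torsion of `J₀(pM)`). -/
theorem finite_Kn (hp : p.Prime) (P : ValuationSubring Qb) (m : ℕ) :
    Finite ↥(Fermat.Agent.S33.helper1085.Kn h P (p ^ m)) := by
  have hpm0 : p ^ m ≠ 0 := pow_ne_zero m hp.ne_zero
  have hfin := Fermat.Agent.S29.helper288.finite_torsion_JZero (p * M) hpm0
  have : Finite ↥{x : JZero (p * M) | p ^ m • x = 0} := hfin.to_subtype
  refine Finite.of_injective
    (fun k : ↥(Fermat.Agent.S33.helper1085.Kn h P (p ^ m)) =>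
      (⟨(k : JZero (p * M)), nsmul_eq_zero_of_mem_kBoth k.2⟩ :
        ↥{x : JZero (p * M) | p ^ m • x = 0})) ?_
  intro k k' hkk'
  have h1 : (k : JZero (p * M)) = (k' : JZero (p * M)) :=
    congrArg (fun z : ↥{x : JZero (p * M) | p ^ m • x = 0} => (z : JZero (p * M))) hkk'
  exact Subtype.ext h1

/-- **(C) from the two leaves of the geometry Spec.** -/
theorem stmt_orderJ_of_leaves (hp : p.Prime)
    (hcech : Fermat.Agent.S33.helper1085.Stmt_CechLevel p (p * M)
      (Fermat.Agent.S33.helper1085.wAL h))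
    (hfam : Fermat.Agent.S33.helper1085.Stmt_Family p M h) :
    Stmt_OrderJ p M h :=
  Fermat.Agent.S33.helper7050.stmt_orderJ_of_ordPow h
    (Fermat.Agent.S33.helper1085.stmt_OrdPow_of_leaves h hp (fun P m => finite_Kn h hp P m)
      hcech hfam)

end Leaves

section Root

variable {p : ℕ} {N : ℕ} [NeZero N] {S : Finset ℕ}
  {𝒪 : Type} [CommRing 𝒪] [IsDomain 𝒪] [IsDiscreteValuationRing 𝒪]
  [IsAdicComplete (IsLocalRing.maximalIdeal 𝒪) 𝒪]
  {θ : CuspForm.heckeAlgebra N 2 (↑S : Set ℕ) →+* IsLocalRing.ResidueField 𝒪}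
  {T : Type} [CommRing T] [IsLocalRing T] [IsNoetherianRing T]
  [IsAdicComplete (IsLocalRing.maximalIdeal T) T] [Algebra 𝒪 T] [IsLocalHom (algebraMap 𝒪 T)]
  [Module.Finite 𝒪 T] [Module.Free 𝒪 T]

/-- **S33 from the two geometric leaves.**  The frozen S33 statement from `Stmt_CechLevel` and
`Stmt_Family` at the even levels `p * M`. -/
theorem result_of_leaves [Finite (IsLocalRing.ResidueField 𝒪)] [CharZero 𝒪] [NeZero p]
    (hp : p.Prime) (hp2 : p ≠ 2) (hp𝒪 : (p : 𝒪) ∈ IsLocalRing.maximalIdeal 𝒪)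
    (hN : p ∣ N ∧ ¬ p ^ 2 ∣ N)
    (hNS : ∀ q : ℕ, q.Prime → q ∣ N → q ∈ S)
    (H : CuspForm.HeckeGaloisRepDatum N (↑S : Set ℕ) 𝒪 θ T)
    (hres : (GaloisRepAdic.ofResidualGaloisRep H.ρ.residual).IsOrdinaryAt p)
    (hcech : ∀ (M : ℕ) [NeZero M] (h : Nat.Coprime p M), 2 ∣ M →
      Fermat.Agent.S33.helper1085.Stmt_CechLevel p (p * M) (Fermat.Agent.S33.helper1085.wAL h))
    (hfam : ∀ (M : ℕ) [NeZero M] (h : Nat.Coprime p M), 2 ∣ M →
      Fermat.Agent.S33.helper1085.Stmt_Family p M h) :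
    H.ρ.IsOrdinaryAt p :=
  result_of_orderJ hp hp2 hp𝒪 hN hNS H hres
    (fun M _ h h2 => stmt_orderJ_of_leaves h hp (hcech M h h2) (hfam M h h2))

end Root

end Fermat.Agent.S33.helper2784
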