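import Fermat.Agent.S33.helper5528_UnitBall2
import Fermat.Agent.S19.helper2258_Points
import Fermat.Agent.S19.helper5454_ChartDiv
import Fermat.Agent.S34.helper584_UniInst

/-!
# S33, leaf DICTINT-SS, part D (helper5528): DICT-E, the chart rings at a finite level

`N = ℓ M`, `ℓ ∤ M`, `W = W_ℓ` (`S35.helper1219.atkinLehnerBar`), `P` a valuation subring of `ℚ̄`
over `ℓ`, `E ⊆ ℚ̄` ANY intermediate field.  A function `f ∈ ℚ̄(X₀(N))` is

* rational over `E` (`f ∈ S19.helper9190.levelField N E`),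
* integral for the Gauss valuation of `P` and for its `W`-twin, and
* regular at the places of the generic fibre of the `j`-chart `c` (`j` finite / `1/j` finite /
  overlap)

if and only if it is a finite combination `∑ a_k ι(s_k)` with `a_k ∈ P ∩ E` and `s_k` in the
Prelude `ℤ_(ℓ)`-chart algebra `chartAlgFin / chartAlgInf / chartAlgMid N ℓ`
(`mem_twoBall_chart_iff`, and the three chart forms `dictE_fin`, `dictE_inf`, `dictE_mid`,
`mem_chartRing_*_iff`, `toSubmodule_eq_span_*`).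

Proof: `(⊇)` integrality of the charts at both cusps (parts B, C) and PT0 (`helper2258`);
`(⊆)` PT0 gives a `ℚ̄`-combination of chart functions; all `q`-coefficients of a function of
level `E` lie in `E`, so a `ℚ`-linear retraction `ℚ̄ → E` applied to the constants gives an
`E`-combination of the same chart functions; then MAIN2 (part C) with `I = P ∩ E`.
-/

set_option autoImplicit false
set_option linter.unusedSectionVars false

noncomputable section

open ModularCurve ModularCurve.IgusaScheme AlgebraicCurve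

namespace Fermat.Agent.S33.helper5528

open Fermat.Agent.S28 Fermat.Agent.S28.helper1588
open Fermat.Agent.S19.helper7154 Fermat.Agent.S19.helper9190
open Fermat.Agent.S34.helper584
open Fermat.Agent.S24.helper24
open Fermat.Agent.S35.helper1928

local notation "Qb" => AlgebraicClosure ℚ

/-! ### Series of sums `∑ cst a * emb s` -/

theorem coe_cst_eq_C (N : ℕ) (c : Qb) :
    ((cst N c : FK N) : LaurentSeries Qb) = HahnSeries.C c := by
  show algebraMap Qb (LaurentSeries Qb) c = HahnSeries.C c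
  rw [algebraMap_laurentSeries_eq_single]
  rfl

theorem coe_emb_eq (N : ℕ) (x : FQ N) :
    ((emb N x : FK N) : LaurentSeries Qb) = coeffEmb Qb (x : LaurentSeries ℚ) := rfl

theorem coe_sum_cst_mul_emb (N : ℕ) {n : ℕ} (a : Fin n → Qb) (s : Fin n → FQ N) :
    ((∑ k, cst N (a k) * emb N (s k) : FK N) : LaurentSeries Qb) = comb Qb a s := by
  have h : ∀ x : FK N, (x : LaurentSeries Qb)
      = (modularFunctionFieldBar N).toSubring.subtype x := fun _ => rfl
  rw [h, map_sum, comb]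
  refine Finset.sum_congr rfl fun p _ => ?_
  rw [map_mul]
  show ((cst N (a p) : FK N) : LaurentSeries Qb) * ((emb N (s p) : FK N) : LaurentSeries Qb) = _
  rw [coe_cst_eq_C, coe_emb_eq]

/-! ### Coefficients of functions of level `E` -/

/-- All `q`-coefficients of a function of level `E` lie in `E`. -/
theorem coeff_mem_of_mem_levelField (N : ℕ) (E : IntermediateField ℚ Qb) {f : FK N}
    (hf : f ∈ levelField N E) (k : ℤ) : ((f : FK N) : LaurentSeries Qb).coeff k ∈ E := by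
  have key : levelField N E ≤ ((coeffMap (algebraMap E Qb)).fieldRange).comap
      ((modularFunctionFieldBar N).toSubring.subtype) := by
    unfold levelField
    rw [Subfield.closure_le]
    rintro x (⟨c, hc, rfl⟩ | ⟨t, rfl⟩)
    · refine ⟨HahnSeries.C (⟨c, hc⟩ : E), ?_⟩
      show coeffMap (algebraMap E Qb) (HahnSeries.single 0 (⟨c, hc⟩ : E))
        = ((cst N c : FK N) : LaurentSeries Qb)
      rw [coeffMap_single, coe_cst_eq_C]
      rfl
    · refine ⟨coeffMap (algebraMap ℚ E) (t : LaurentSeries ℚ), ?_⟩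
      show coeffMap (algebraMap E Qb) (coeffMap (algebraMap ℚ E) (t : LaurentSeries ℚ))
        = coeffEmb Qb (t : LaurentSeries ℚ)
      rw [coeffMap_coeffMap]
      rfl
  obtain ⟨y, hy⟩ := key hf
  have h1 : ((f : FK N) : LaurentSeries Qb).coeff k = algebraMap E Qb (y.coeff k) := by
    rw [← coeffMap_coeff]
    exact congrArg (fun z : LaurentSeries Qb => z.coeff k) hy.symm
  rw [h1]
  exact (y.coeff k).2

/-- A `ℚ`-linear retraction of `ℚ̄` onto `E`. -/
theorem exists_retraction (E : IntermediateField ℚ Qb) :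
    ∃ ρ : Qb →ₗ[ℚ] Qb, (∀ x ∈ E, ρ x = x) ∧ ∀ x, ρ x ∈ E := by
  obtain ⟨g, hg⟩ := LinearMap.exists_leftInverse_of_injective (E.val.toLinearMap : E →ₗ[ℚ] Qb)
    (LinearMap.ker_eq_bot.mpr E.val.injective)
  refine ⟨E.val.toLinearMap.comp g, fun x hx => ?_, fun x => (g x).2⟩
  have h := congrArg (fun φ : E →ₗ[ℚ] E => φ ⟨x, hx⟩) hg
  have h' : g x = ⟨x, hx⟩ := h
  show ((g x : E) : Qb) = x
  rw [h']

theorem comb_coeff_map {N : ℕ} {L : Type*} [Field L] [Algebra ℚ L] (ρ : L →ₗ[ℚ] L) {n : ℕ}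
    (a : Fin n → L) (s : Fin n → ↥(modularFunctionFieldFull N)) (k : ℤ) :
    (comb L (fun p => ρ (a p)) s).coeff k = ρ ((comb L a s).coeff k) := by
  rw [comb_coeff, comb_coeff, map_sum]
  refine Finset.sum_congr rfl fun p _ => ?_
  rw [mul_comm, ← Algebra.smul_def, mul_comm (a p), ← Algebra.smul_def, map_smul]

/-- If all coefficients of a combination lie in the fixed space of a `ℚ`-linear map `ρ`, the
constants may be replaced by their images under `ρ`. -/
theorem comb_eq_comb_map {N : ℕ} {L : Type*} [Field L] [Algebra ℚ L] (ρ : L →ₗ[ℚ] L) {n : ℕ}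
    (a : Fin n → L) (s : Fin n → ↥(modularFunctionFieldFull N))
    (h : ∀ k, ρ ((comb L a s).coeff k) = (comb L a s).coeff k) :
    comb L a s = comb L (fun p => ρ (a p)) s := by
  ext k
  rw [comb_coeff_map, h k]

/-! ### Gauss integrality of constants and of integral rational functions -/

theorem mem_gaussV_iff_coe (P : ValuationSubring Qb) (N : ℕ) (f : FK N) :
    f ∈ gaussV P N ↔ ((f : FK N) : LaurentSeries Qb) ∈
      Fermat.Agent.S18.helper8991.gaussRing P (IsLocalRing.residue P) := Iff.rfl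

theorem residue_eq_zero_of_mem (P : ValuationSubring Qb) :
    ∀ a : P, a ∈ IsLocalRing.maximalIdeal P → IsLocalRing.residue P a = 0 :=
  fun a ha => (IsLocalRing.residue_eq_zero_iff a).mpr ha

theorem cst_mem_gaussV (P : ValuationSubring Qb) (N : ℕ) {a : Qb} (ha : a ∈ P) :
    cst N a ∈ gaussV P N := by
  rw [← ValuationSubring.valuation_le_one_iff]
  exact (gaussF_valuation_algebraMap_le_one_iff P N a).2 ha

theorem emb_mem_gaussV (ℓ : ℕ) [Fact ℓ.Prime] (P : ValuationSubring Qb) (hP : P.LiesOverPrime ℓ)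
    (N : ℕ) (x : FQ N) (hx : IsZlIntegral ℓ ((x : FQ N) : LaurentSeries ℚ)) :
    emb N x ∈ gaussV P N := by
  rw [mem_gaussV_iff_coe]
  refine mem_gaussRing_of_coeff_mem P _ fun k => ?_
  rw [coe_emb_eq, coeffEmb_coeff]
  exact algebraMap_mem_of_liesOverPrime P hP (hx k)

/-! ### The Atkin–Lehner involution on combinations -/

section AL

variable (ℓ M : ℕ) [Fact ℓ.Prime] [NeZero M] (hℓM : ¬ ℓ ∣ M)

theorem wAL_emb (x : FQ (ℓ * M)) :
    wAL ℓ M hℓM (emb (ℓ * M) x) = emb (ℓ * M) (W0 ℓ M hℓM x) :=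
  Subtype.ext (coeffEmb_W0 ℓ M hℓM x (emb (ℓ * M) x) rfl)

theorem wAL_sum_cst_mul_emb {n : ℕ} (a : Fin n → Qb) (s : Fin n → FQ (ℓ * M)) :
    wAL ℓ M hℓM (∑ k, cst (ℓ * M) (a k) * emb (ℓ * M) (s k)) =
      ∑ k, cst (ℓ * M) (a k) * emb (ℓ * M) (W0 ℓ M hℓM (s k)) := by
  rw [map_sum]
  refine Finset.sum_congr rfl fun k _ => ?_
  rw [map_mul, AlgEquiv.commutes, wAL_emb]

end AL

/-! ### The two-sided unit ball at level `E` -/

/-- The two-sided unit ball at level `E`: functions rational over `E` which are integral for the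
Gauss valuation of `P` and for its `W`-twin (`= S33.helper1085.ball`, same definition). -/
def twoBall (P : ValuationSubring Qb) (N : ℕ) (W : FK N ≃ₐ[Qb] FK N)
    (E : IntermediateField ℚ Qb) : Subring (FK N) :=
  ((gaussV P N).toSubring ⊓ (gaussV P N).toSubring.comap (W : FK N →+* FK N)) ⊓
    (levelField N E).toSubring

theorem mem_twoBall {P : ValuationSubring Qb} {N : ℕ} {W : FK N ≃ₐ[Qb] FK N}
    {E : IntermediateField ℚ Qb} {f : FK N} :
    f ∈ twoBall P N W E ↔ f ∈ gaussV P N ∧ W f ∈ gaussV P N ∧ f ∈ levelField N E := by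
  unfold twoBall
  simp only [Subring.mem_inf, Subring.mem_comap]
  exact and_assoc

/-! ### DICT-E, general chart -/

section Dict

variable (ℓ M : ℕ) [Fact ℓ.Prime] [NeZero M] (hℓM : ¬ ℓ ∣ M)

/-- **DICT-E (general chart).**  Let `S` be a two-expansion coefficient lattice whose underlying
set is the chart `i` of `S19.helper9190.chartSet` (`i = 0, 1, 2`: `j` finite, `1/j` finite,
overlap).  A function of `ℚ̄(X₀(ℓ M))` lies in the two-sided unit ball at level `E` and is regular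
at the places of the generic chart `i` iff it is a `P ∩ E`-combination of elements of `S`. -/
theorem mem_twoBall_chart_iff (P : ValuationSubring Qb) (hP : P.LiesOverPrime ℓ)
    (E : IntermediateField ℚ Qb) (i : ℕ)
    (S : Subalgebra (Zl ℓ) (FQ (ℓ * M))) (hS : IsCoeffLattice2 ℓ M hℓM S)
    (hSi : (S : Set (FQ (ℓ * M))) = chartSet (ℓ * M) ℓ i) (f : FK (ℓ * M)) :
    (f ∈ twoBall P (ℓ * M) (wAL ℓ M hℓM) E ∧
        ∀ v : Place Qb (FK (ℓ * M)), chartReg (ℓ * M) i v → 0 ≤ v.ord f) ↔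
      ∃ (n : ℕ) (a : Fin n → Qb) (s : Fin n → FQ (ℓ * M)),
        (∀ k, a k ∈ P ∧ a k ∈ E) ∧ (∀ k, s k ∈ S) ∧
          f = ∑ k, cst (ℓ * M) (a k) * emb (ℓ * M) (s k) := by
  constructor
  · rintro ⟨hb, hreg⟩
    obtain ⟨hg, hg', hE⟩ := mem_twoBall.mp hb
    obtain ⟨n, a, s, hs, hf⟩ :=
      Fermat.Agent.S19.helper2258.exists_coe_eq_sum_of_regular (ℓ * M) ℓ i f hreg
    have hf0 : ((f : FK (ℓ * M)) : LaurentSeries Qb) = comb Qb a s := hf
    obtain ⟨ρ, hρ, hρE⟩ := exists_retraction E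
    have hf1 : ((f : FK (ℓ * M)) : LaurentSeries Qb) = comb Qb (fun p => ρ (a p)) s := by
      rw [hf0]
      refine comb_eq_comb_map ρ a s fun k => hρ _ ?_
      rw [← hf0]
      exact coeff_mem_of_mem_levelField _ E hE k
    have hfe : f = ∑ k, cst (ℓ * M) (ρ (a k)) * emb (ℓ * M) (s k) :=
      Subtype.ext (hf1.trans (coe_sum_cst_mul_emb _ _ s).symm)
    have hWf : ((wAL ℓ M hℓM f : FK (ℓ * M)) : LaurentSeries Qb) =
        comb Qb (fun p => ρ (a p)) (fun p => W0 ℓ M hℓM (s p)) := by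
      rw [hfe, wAL_sum_cst_mul_emb, coe_sum_cst_mul_emb]
    have hsS : ∀ p, s p ∈ S := fun p => by
      have h := hs p
      rw [← hSi] at h
      exact h
    have hc : ∀ k : ℤ, (comb Qb (fun p => ρ (a p)) s).coeff k ∈ P :=
      coeff_mem_of_comb_mem_gaussRing P hP (IsLocalRing.residue P) (residue_eq_zero_of_mem P)
        _ s (fun p => hS.int _ (hsS p)) (by rw [← hf1]; exact hg)
    have hc' : ∀ k : ℤ,
        (comb Qb (fun p => ρ (a p)) (fun p => W0 ℓ M hℓM (s p))).coeff k ∈ P :=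
      coeff_mem_of_comb_mem_gaussRing P hP (IsLocalRing.residue P) (residue_eq_zero_of_mem P)
        _ _ (fun p => hS.int' _ (hsS p)) (by rw [← hWf]; exact hg')
    have hcE : ∀ (t : Fin n → FQ (ℓ * M)) (k : ℤ),
        (comb Qb (fun p => ρ (a p)) t).coeff k ∈ E := fun t k => by
      rw [comb_coeff]
      exact sum_mem fun p _ => mul_mem (hρE _) (E.algebraMap_mem _)
    let I : AddSubgroup Qb := P.toSubring.toAddSubgroup ⊓ E.toSubring.toAddSubgroup
    have hI : ∀ r ∈ GaloisRep.ratLocalizedAt ℓ, ∀ x ∈ I, algebraMap ℚ Qb r * x ∈ I :=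
      fun r hr x hx => ⟨P.mul_mem _ _ (algebraMap_mem_of_liesOverPrime P hP hr) hx.1,
        E.mul_mem (E.algebraMap_mem r) hx.2⟩
    obtain ⟨m, a', s', ha', hs', h, -⟩ := hS.exists_comb_of_coeff_mem I hI _ s hsS
      (fun k => ⟨hc k, hcE s k⟩) (fun k => ⟨hc' k, hcE _ k⟩)
    exact ⟨m, a', s', ha', hs',
      Subtype.ext ((hf1.trans h).trans (coe_sum_cst_mul_emb _ a' s').symm)⟩
  · rintro ⟨n, a, s, ha, hs, rfl⟩
    refine ⟨mem_twoBall.mpr ⟨?_, ?_, ?_⟩, ?_⟩
    · exact sum_mem fun k _ => mul_mem (cst_mem_gaussV P _ (ha k).1)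
        (emb_mem_gaussV ℓ P hP _ _ (hS.int _ (hs k)))
    · rw [wAL_sum_cst_mul_emb]
      exact sum_mem fun k _ => mul_mem (cst_mem_gaussV P _ (ha k).1)
        (emb_mem_gaussV ℓ P hP _ _ (hS.int' _ (hs k)))
    · exact sum_mem fun k _ => mul_mem
        (Subfield.subset_closure (Or.inl ⟨a k, (ha k).2, rfl⟩))
        (Subfield.subset_closure (Or.inr ⟨s k, rfl⟩))
    · intro v hv
      rw [Fermat.Agent.S27.helper4586.ord_nonneg_iff_mem]
      refine sum_mem fun k _ => mul_mem (v.algebraMap_mem' _) ?_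
      rw [← Fermat.Agent.S27.helper4586.ord_nonneg_iff_mem]
      refine (Fermat.Agent.S19.helper2258.mem_span_chartSet_iff (ℓ * M) ℓ i _).mp
        (Submodule.subset_span ⟨s k, ?_, rfl⟩) v hv
      rw [← hSi]
      exact hs k

end Dict

/-! ### The three `j`-charts in the vocabulary of `S19.helper5454` -/

section Places

theorem mem_place_iff_adic {K F : Type*} [Field K] [Field F] [Algebra K F] (v : Place K F)
    (x : F) : x ∈ v.toValuationSubring ↔ v.adicValuation x ≤ 1 := by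
  rw [Fermat.Agent.S27.helper4586.adicValuation_le_one_iff,
    Fermat.Agent.S27.helper4586.ord_nonneg_iff_mem]

variable (N : ℕ) [NeZero N]

theorem jK_eq_jBar : jK N = jBar N := Fermat.Agent.S19.helper2258.jb_eq_jBar N

theorem jBar_ne_zero_of_neZero : jBar N ≠ 0 := by
  rw [← jK_eq_jBar]
  exact (_root_.map_ne_zero (emb N)).mpr (jFull_ne_zero N)

theorem chartReg_zero_iff (v : Place Qb (FK N)) :
    chartReg N 0 v ↔ Fermat.Agent.S19.helper5454.OnFin (jBar N) v := by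
  unfold chartReg Fermat.Agent.S19.helper5454.OnFin
  rw [if_pos rfl, jK_eq_jBar, mem_place_iff_adic]

theorem chartReg_one_iff (v : Place Qb (FK N)) :
    chartReg N 1 v ↔ Fermat.Agent.S19.helper5454.OnInf (jBar N) v := by
  unfold chartReg Fermat.Agent.S19.helper5454.OnInf
  rw [if_neg one_ne_zero, if_pos rfl, jK_eq_jBar, mem_place_iff_adic]

theorem chartReg_two_iff (v : Place Qb (FK N)) :
    chartReg N 2 v ↔ Fermat.Agent.S19.helper5454.OnMid (jBar N) v := by
  rw [Fermat.Agent.S19.helper5454.onMid_iff (jBar_ne_zero_of_neZero N)]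
  unfold chartReg Fermat.Agent.S19.helper5454.OnFin Fermat.Agent.S19.helper5454.OnInf
  rw [if_neg (by norm_num), if_neg (by norm_num), jK_eq_jBar, mem_place_iff_adic,
    mem_place_iff_adic]

theorem chartSet_zero (ℓ : ℕ) [Fact ℓ.Prime] :
    chartSet N ℓ 0 = (chartAlgFin N ℓ : Set (FQ N)) := by
  unfold chartSet
  rw [if_pos rfl]

theorem chartSet_one (ℓ : ℕ) [Fact ℓ.Prime] :
    chartSet N ℓ 1 = (chartAlgInf N ℓ : Set (FQ N)) := by
  unfold chartSet
  rw [if_neg one_ne_zero, if_pos rfl]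

theorem chartSet_two (ℓ : ℕ) [Fact ℓ.Prime] :
    chartSet N ℓ 2 = (chartAlgMid N ℓ : Set (FQ N)) := by
  unfold chartSet
  rw [if_neg (by norm_num), if_neg (by norm_num)]

/-- From the finite-sum description of a subalgebra to the span form. -/
theorem toSubmodule_eq_span_of_dict (𝒪 : Subring Qb) (T : Subalgebra 𝒪 (FK N))
    (S : Set (FQ N))
    (hT : ∀ f : FK N, f ∈ T ↔ ∃ (n : ℕ) (a : Fin n → Qb) (s : Fin n → FQ N),
      (∀ k, a k ∈ 𝒪) ∧ (∀ k, s k ∈ S) ∧ f = ∑ k, cst N (a k) * emb N (s k)) :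
    Subalgebra.toSubmodule T = Submodule.span 𝒪 (emb N '' S) := by
  apply le_antisymm
  · intro f hf
    obtain ⟨n, a, s, ha, hs, rfl⟩ := (hT f).mp hf
    refine Submodule.sum_mem _ fun k _ => ?_
    have h1 : cst N (a k) * emb N (s k) = (⟨a k, ha k⟩ : 𝒪) • emb N (s k) := by
      rw [Subring.smul_def, Algebra.smul_def]
    rw [h1]
    exact Submodule.smul_mem _ _ (Submodule.subset_span ⟨s k, hs k, rfl⟩)
  · rw [Submodule.span_le]
    rintro _ ⟨s, hs, rfl⟩
    exact (hT _).mpr ⟨1, fun _ => 1, fun _ => s, fun _ => 𝒪.one_mem, fun _ => hs, by simp⟩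

end Places

/-! ### DICT-E in consumer shape -/

section Consumer

theorem not_dvd_of_coprime_prime (ℓ M : ℕ) [Fact ℓ.Prime] (h : Nat.Coprime ℓ M) : ¬ ℓ ∣ M :=
  (Nat.Prime.coprime_iff_not_dvd (Fact.out : ℓ.Prime)).mp h

variable (ℓ M : ℕ) [Fact ℓ.Prime] [NeZero M] (h : Nat.Coprime ℓ M)

/-- **DICT-E, general form** (chart predicate `c` equivalent to the generic chart `i`, constants
`𝒪 = P ∩ E`, unit ball `O` = two-sided Gauss ball at level `E`). -/
theorem mem_chartRing_iff_of_chartReg (P : ValuationSubring Qb) (hP : P.LiesOverPrime ℓ)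
    (E : IntermediateField ℚ Qb) (𝒪 : Subring Qb) (h𝒪 : ∀ a, a ∈ 𝒪 ↔ a ∈ P ∧ a ∈ E)
    (O : Subring (FK (ℓ * M)))
    (hO : ∀ f, f ∈ O ↔ f ∈ gaussV P (ℓ * M) ∧
      Fermat.Agent.S35.helper1219.atkinLehnerBar ℓ M h f ∈ gaussV P (ℓ * M) ∧
        f ∈ levelField (ℓ * M) E)
    (i : ℕ) (S : Subalgebra (Zl ℓ) (FQ (ℓ * M)))
    (hS : IsCoeffLattice2 ℓ M (not_dvd_of_coprime_prime ℓ M h) S)
    (hSi : (S : Set (FQ (ℓ * M))) = chartSet (ℓ * M) ℓ i)
    (c : Place Qb (FK (ℓ * M)) → Prop) (hc : ∀ v, c v ↔ chartReg (ℓ * M) i v)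
    (f : FK (ℓ * M)) :
    f ∈ Fermat.Agent.S19.helper5454.chartRing c O ↔
      ∃ (n : ℕ) (a : Fin n → Qb) (s : Fin n → FQ (ℓ * M)),
        (∀ k, a k ∈ 𝒪) ∧ (∀ k, s k ∈ S) ∧
          f = ∑ k, cst (ℓ * M) (a k) * emb (ℓ * M) (s k) := by
  have key := mem_twoBall_chart_iff ℓ M (not_dvd_of_coprime_prime ℓ M h) P hP E i S hS hSi f
  have h1 : f ∈ Fermat.Agent.S19.helper5454.chartRing c O ↔
      (f ∈ twoBall P (ℓ * M) (wAL ℓ M (not_dvd_of_coprime_prime ℓ M h)) E ∧
        ∀ v : Place Qb (FK (ℓ * M)), chartReg (ℓ * M) i v → 0 ≤ v.ord f) := by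
    rw [Fermat.Agent.S19.helper5454.mem_chartRing, hO, mem_twoBall]
    refine and_congr Iff.rfl (forall_congr' fun v => ?_)
    rw [hc v, Fermat.Agent.S27.helper4586.adicValuation_le_one_iff]
  rw [h1, key]
  refine exists_congr fun n => exists_congr fun a => exists_congr fun s => ?_
  refine and_congr (forall_congr' fun k => (h𝒪 (a k)).symm) Iff.rfl

section Three

variable (P : ValuationSubring Qb) (hP : P.LiesOverPrime ℓ)
  (E : IntermediateField ℚ Qb) (𝒪 : Subring Qb) (h𝒪 : ∀ a, a ∈ 𝒪 ↔ a ∈ P ∧ a ∈ E)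
  (O : Subring (FK (ℓ * M)))
  (hO : ∀ f, f ∈ O ↔ f ∈ gaussV P (ℓ * M) ∧
    Fermat.Agent.S35.helper1219.atkinLehnerBar ℓ M h f ∈ gaussV P (ℓ * M) ∧
      f ∈ levelField (ℓ * M) E)

include hP h𝒪 hO

/-- **DICT-E, chart `j` finite**: the chart ring at level `E` is the set of `P ∩ E`-combinations
of the `ℤ_(ℓ)`-chart `chartAlgFin (ℓ M) ℓ`. -/
theorem mem_chartRing_fin_iff (f : FK (ℓ * M)) :
    f ∈ Fermat.Agent.S19.helper5454.chartRing
        (Fermat.Agent.S19.helper5454.OnFin (K := Qb) (jBar (ℓ * M))) O ↔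
      ∃ (n : ℕ) (a : Fin n → Qb) (s : Fin n → FQ (ℓ * M)),
        (∀ k, a k ∈ 𝒪) ∧ (∀ k, s k ∈ chartAlgFin (ℓ * M) ℓ) ∧
          f = ∑ k, cst (ℓ * M) (a k) * emb (ℓ * M) (s k) :=
  mem_chartRing_iff_of_chartReg ℓ M h P hP E 𝒪 h𝒪 O hO 0 (chartAlgFin (ℓ * M) ℓ)
    (isCoeffLattice2_chartAlgFin ℓ M _) (chartSet_zero _ ℓ).symm _
    (fun v => (chartReg_zero_iff _ v).symm) f

/-- **DICT-E, chart `1/j` finite.** -/
theorem mem_chartRing_inf_iff (f : FK (ℓ * M)) :
    f ∈ Fermat.Agent.S19.helper5454.chartRing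
        (Fermat.Agent.S19.helper5454.OnInf (K := Qb) (jBar (ℓ * M))) O ↔
      ∃ (n : ℕ) (a : Fin n → Qb) (s : Fin n → FQ (ℓ * M)),
        (∀ k, a k ∈ 𝒪) ∧ (∀ k, s k ∈ chartAlgInf (ℓ * M) ℓ) ∧
          f = ∑ k, cst (ℓ * M) (a k) * emb (ℓ * M) (s k) :=
  mem_chartRing_iff_of_chartReg ℓ M h P hP E 𝒪 h𝒪 O hO 1 (chartAlgInf (ℓ * M) ℓ)
    (isCoeffLattice2_chartAlgInf ℓ M _) (chartSet_one _ ℓ).symm _
    (fun v => (chartReg_one_iff _ v).symm) f

/-- **DICT-E, overlap chart.** -/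
theorem mem_chartRing_mid_iff (f : FK (ℓ * M)) :
    f ∈ Fermat.Agent.S19.helper5454.chartRing
        (Fermat.Agent.S19.helper5454.OnMid (K := Qb) (jBar (ℓ * M))) O ↔
      ∃ (n : ℕ) (a : Fin n → Qb) (s : Fin n → FQ (ℓ * M)),
        (∀ k, a k ∈ 𝒪) ∧ (∀ k, s k ∈ chartAlgMid (ℓ * M) ℓ) ∧
          f = ∑ k, cst (ℓ * M) (a k) * emb (ℓ * M) (s k) :=
  mem_chartRing_iff_of_chartReg ℓ M h P hP E 𝒪 h𝒪 O hO 2 (chartAlgMid (ℓ * M) ℓ)
    (isCoeffLattice2_chartAlgMid ℓ M _) (chartSet_two _ ℓ).symm _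
    (fun v => (chartReg_two_iff _ v).symm) f

/-- **DICT-E, span form, chart `j` finite**: any `𝒪`-subalgebra with the elements of the chart
ring is the `𝒪`-span of the image of the `ℤ_(ℓ)`-chart. -/
theorem toSubmodule_eq_span_fin (T : Subalgebra 𝒪 (FK (ℓ * M)))
    (hT : ∀ f, f ∈ T ↔ f ∈ Fermat.Agent.S19.helper5454.chartRing
      (Fermat.Agent.S19.helper5454.OnFin (K := Qb) (jBar (ℓ * M))) O) :
    Subalgebra.toSubmodule T =
      Submodule.span 𝒪 (emb (ℓ * M) '' (chartAlgFin (ℓ * M) ℓ : Set (FQ (ℓ * M)))) :=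
  toSubmodule_eq_span_of_dict _ 𝒪 T _ fun f =>
    (hT f).trans (mem_chartRing_fin_iff ℓ M h P hP E 𝒪 h𝒪 O hO f)

/-- **DICT-E, span form, chart `1/j` finite.** -/
theorem toSubmodule_eq_span_inf (T : Subalgebra 𝒪 (FK (ℓ * M)))
    (hT : ∀ f, f ∈ T ↔ f ∈ Fermat.Agent.S19.helper5454.chartRing
      (Fermat.Agent.S19.helper5454.OnInf (K := Qb) (jBar (ℓ * M))) O) :
    Subalgebra.toSubmodule T =
      Submodule.span 𝒪 (emb (ℓ * M) '' (chartAlgInf (ℓ * M) ℓ : Set (FQ (ℓ * M)))) :=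
  toSubmodule_eq_span_of_dict _ 𝒪 T _ fun f =>
    (hT f).trans (mem_chartRing_inf_iff ℓ M h P hP E 𝒪 h𝒪 O hO f)

/-- **DICT-E, span form, overlap chart.** -/
theorem toSubmodule_eq_span_mid (T : Subalgebra 𝒪 (FK (ℓ * M)))
    (hT : ∀ f, f ∈ T ↔ f ∈ Fermat.Agent.S19.helper5454.chartRing
      (Fermat.Agent.S19.helper5454.OnMid (K := Qb) (jBar (ℓ * M))) O) :
    Subalgebra.toSubmodule T =
      Submodule.span 𝒪 (emb (ℓ * M) '' (chartAlgMid (ℓ * M) ℓ : Set (FQ (ℓ * M)))) :=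
  toSubmodule_eq_span_of_dict _ 𝒪 T _ fun f =>
    (hT f).trans (mem_chartRing_mid_iff ℓ M h P hP E 𝒪 h𝒪 O hO f)

end Three

end Consumer

end Fermat.Agent.S33.helper5528
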