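import Fermat.Agent.S33.helper1085_GeomSpec
import Fermat.Agent.S33.helper5528_DictE

/-!
# S33, leaf DICT-E (helper5528): the chart rings of the GeomSpec at every level

In the vocabulary of `S33.helper1085` (`lvlRing`, `ball`, `chart`, `cFin / cInf / cMid`, `wAL`):
for `N = p M`, `p` prime, `p ∤ M`, `P` over `p` and EVERY intermediate field `E`,

  `chart P N (wAL h) E c = (lvlRing P E)`-span of the image of the `ℤ_(p)`-chart
  `chartAlgFin / chartAlgInf / chartAlgMid N p`,

in sum form (`mem_chart_cFin_iff`, ...), span form (`mem_chart_cFin_iff_span`, ...,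
`toSubmodule_chart_cFin`, ...) and as one statement for the three charts (`dictE`).
No hypothesis on the level (no `IsLevel`, no finiteness of `E`).
-/

set_option autoImplicit false
set_option linter.unusedSectionVars false

noncomputable section

open ModularCurve ModularCurve.IgusaScheme AlgebraicCurve

namespace Fermat.Agent.S33.helper5528

open Fermat.Agent.S33.helper1085
open Fermat.Agent.S19.helper9190

local notation "Qb" => AlgebraicClosure ℚ

variable {p M : ℕ} [NeZero p] [NeZero M] [Fact p.Prime] (h : Nat.Coprime p M)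
  (P : ValuationSubring Qb) (hP : P.LiesOverPrime p) (E : IntermediateField ℚ Qb)

include hP

/-- **DICT-E, sum form, chart `j` finite.** -/
theorem mem_chart_cFin_iff (f : FK (p * M)) :
    f ∈ chart P (p * M) (wAL h) E (cFin (p * M)) ↔
      ∃ (n : ℕ) (a : Fin n → Qb) (s : Fin n → FQ (p * M)),
        (∀ k, a k ∈ lvlRing P E) ∧ (∀ k, s k ∈ chartAlgFin (p * M) p) ∧
          f = ∑ k, cst (p * M) (a k) * emb (p * M) (s k) :=
  mem_chartRing_fin_iff p M h P hP E (lvlRing P E) (fun _ => Iff.rfl)
    (ball P (p * M) (wAL h) E) (fun _ => mem_ball P (p * M) (wAL h) E) f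

/-- **DICT-E, sum form, chart `1/j` finite.** -/
theorem mem_chart_cInf_iff (f : FK (p * M)) :
    f ∈ chart P (p * M) (wAL h) E (cInf (p * M)) ↔
      ∃ (n : ℕ) (a : Fin n → Qb) (s : Fin n → FQ (p * M)),
        (∀ k, a k ∈ lvlRing P E) ∧ (∀ k, s k ∈ chartAlgInf (p * M) p) ∧
          f = ∑ k, cst (p * M) (a k) * emb (p * M) (s k) :=
  mem_chartRing_inf_iff p M h P hP E (lvlRing P E) (fun _ => Iff.rfl)
    (ball P (p * M) (wAL h) E) (fun _ => mem_ball P (p * M) (wAL h) E) f

/-- **DICT-E, sum form, overlap chart.** -/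
theorem mem_chart_cMid_iff (f : FK (p * M)) :
    f ∈ chart P (p * M) (wAL h) E (cMid (p * M)) ↔
      ∃ (n : ℕ) (a : Fin n → Qb) (s : Fin n → FQ (p * M)),
        (∀ k, a k ∈ lvlRing P E) ∧ (∀ k, s k ∈ chartAlgMid (p * M) p) ∧
          f = ∑ k, cst (p * M) (a k) * emb (p * M) (s k) :=
  mem_chartRing_mid_iff p M h P hP E (lvlRing P E) (fun _ => Iff.rfl)
    (ball P (p * M) (wAL h) E) (fun _ => mem_ball P (p * M) (wAL h) E) f

/-- **DICT-E, span form, chart `j` finite.** -/
theorem toSubmodule_chart_cFin :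
    Subalgebra.toSubmodule (chart P (p * M) (wAL h) E (cFin (p * M))) =
      Submodule.span (lvlRing P E) (emb (p * M) '' (chartAlgFin (p * M) p : Set (FQ (p * M)))) :=
  toSubmodule_eq_span_fin p M h P hP E (lvlRing P E) (fun _ => Iff.rfl)
    (ball P (p * M) (wAL h) E) (fun _ => mem_ball P (p * M) (wAL h) E) _ (fun _ => Iff.rfl)

/-- **DICT-E, span form, chart `1/j` finite.** -/
theorem toSubmodule_chart_cInf :
    Subalgebra.toSubmodule (chart P (p * M) (wAL h) E (cInf (p * M))) =
      Submodule.span (lvlRing P E) (emb (p * M) '' (chartAlgInf (p * M) p : Set (FQ (p * M)))) :=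
  toSubmodule_eq_span_inf p M h P hP E (lvlRing P E) (fun _ => Iff.rfl)
    (ball P (p * M) (wAL h) E) (fun _ => mem_ball P (p * M) (wAL h) E) _ (fun _ => Iff.rfl)

/-- **DICT-E, span form, overlap chart.** -/
theorem toSubmodule_chart_cMid :
    Subalgebra.toSubmodule (chart P (p * M) (wAL h) E (cMid (p * M))) =
      Submodule.span (lvlRing P E) (emb (p * M) '' (chartAlgMid (p * M) p : Set (FQ (p * M)))) :=
  toSubmodule_eq_span_mid p M h P hP E (lvlRing P E) (fun _ => Iff.rfl)
    (ball P (p * M) (wAL h) E) (fun _ => mem_ball P (p * M) (wAL h) E) _ (fun _ => Iff.rfl)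

theorem mem_chart_cFin_iff_span (f : FK (p * M)) :
    f ∈ chart P (p * M) (wAL h) E (cFin (p * M)) ↔
      f ∈ Submodule.span (lvlRing P E)
        (emb (p * M) '' (chartAlgFin (p * M) p : Set (FQ (p * M)))) := by
  rw [← toSubmodule_chart_cFin h P hP E]
  exact Iff.rfl

theorem mem_chart_cInf_iff_span (f : FK (p * M)) :
    f ∈ chart P (p * M) (wAL h) E (cInf (p * M)) ↔
      f ∈ Submodule.span (lvlRing P E)
        (emb (p * M) '' (chartAlgInf (p * M) p : Set (FQ (p * M)))) := by
  rw [← toSubmodule_chart_cInf h P hP E]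
  exact Iff.rfl

theorem mem_chart_cMid_iff_span (f : FK (p * M)) :
    f ∈ chart P (p * M) (wAL h) E (cMid (p * M)) ↔
      f ∈ Submodule.span (lvlRing P E)
        (emb (p * M) '' (chartAlgMid (p * M) p : Set (FQ (p * M)))) := by
  rw [← toSubmodule_chart_cMid h P hP E]
  exact Iff.rfl

/-- **DICT-E** (sub-leaf (b) of the GeomSpec) for the three charts, in span form, at EVERY
intermediate field `E`. -/
theorem dictE (f : FK (p * M)) :
    (f ∈ chart P (p * M) (wAL h) E (cFin (p * M)) ↔
        f ∈ Submodule.span (lvlRing P E)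
          (emb (p * M) '' (chartAlgFin (p * M) p : Set (FQ (p * M))))) ∧
      (f ∈ chart P (p * M) (wAL h) E (cInf (p * M)) ↔
        f ∈ Submodule.span (lvlRing P E)
          (emb (p * M) '' (chartAlgInf (p * M) p : Set (FQ (p * M))))) ∧
      (f ∈ chart P (p * M) (wAL h) E (cMid (p * M)) ↔
        f ∈ Submodule.span (lvlRing P E)
          (emb (p * M) '' (chartAlgMid (p * M) p : Set (FQ (p * M))))) :=
  ⟨mem_chart_cFin_iff_span h P hP E f, mem_chart_cInf_iff_span h P hP E f,
    mem_chart_cMid_iff_span h P hP E f⟩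

end Fermat.Agent.S33.helper5528
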