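import Fermat.Agent.S33.helper2055_CechLevel
import Fermat.Agent.S33.helper5528_DictEGeom

/-!
# S33, leaf DICT-E (helper5528): `helper2055.Stmt_DictE p (p * M) (wAL h)`

The dictionary DICT-E in the exact `Prop` consumed by `helper2055.stmt_cechLevel_of_dict` /
`helper2055.stmt_orderJ_of_dictE_family`: for `p` prime, `p ∤ M`, the three chart rings of the
GeomSpec at level `p M` (Atkin–Lehner twin `wAL h`) are the `𝒪_E`-spans of the `ℤ_(p)`-charts,
at every level `E` (the `IsLevel` hypothesis of the `Prop` is not used).
-/

set_option autoImplicit false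

namespace Fermat.Agent.S33.helper5528

/-- **DICT-E** at level `p M`, `p ∤ M` (sub-leaf (b) of the GeomSpec; unconditional). -/
theorem stmt_dictE {p M : ℕ} [NeZero p] [NeZero M] [Fact p.Prime] (h : Nat.Coprime p M) :
    Fermat.Agent.S33.helper2055.Stmt_DictE p (p * M) (Fermat.Agent.S33.helper1085.wAL h) :=
  fun P hP E _ _ _ =>
    ⟨fun f => mem_chart_cFin_iff_span h P hP E f, fun f => mem_chart_cInf_iff_span h P hP E f,
      fun f => mem_chart_cMid_iff_span h P hP E f⟩

end Fermat.Agent.S33.helper5528
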