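import Fermat.Agent.S33.helper7274_MidSplitInst
import Fermat.Agent.S33.helper2582_FibCountGauss

/-!
# S33-HFG (helper7274): `helper2582.StmtFG` — the (FG) input of FIBCOUNT at the Gauss pair

`stmtFG : helper2582.StmtFG ℓ M hℓM A` for every prime `ℓ`, every `M` prime to `ℓ` and every
valuation subring `A` of `ℚ̄` over `ℓ`: no hypothesis left.  Also the threshold form `hfg` for
`helper2582.gB0 / gB1 / gB01`.
-/

set_option autoImplicit false

noncomputable section

open ModularCurve ModularCurve.IgusaScheme AlgebraicCurve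

namespace Fermat.Agent.S33.helper7274

open Fermat.Agent.S19.helper5454
open Fermat.Agent.S24.helper24
open Fermat.Agent.S35.helper1928
open Fermat.Agent.S35.helper882

local notation "Kbar" => AlgebraicClosure ℚ

variable (ℓ M : ℕ) [Fact ℓ.Prime] [NeZero M] (hℓM : ¬ ℓ ∣ M)
variable (A : ValuationSubring Kbar) (hA : A.LiesOverPrime ℓ)

include hA in
/-- **(FG) at the Gauss pair**, in the vocabulary of `helper2582_FibCountGauss`. -/
theorem stmtFG : Fermat.Agent.S33.helper2582.StmtFG ℓ M hℓM A :=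
  exists_fg_span_gpVal ℓ M hℓM A hA (Fermat.Agent.S33.helper2582.gO ℓ M hℓM A)
    (fun _ => Iff.rfl)

include hA in
/-- The threshold form `hfg` for the chart rings `gB0`, `gB1`, `gB01` of
`helper2582_FibCountGauss`. -/
theorem exists_hfg_gB :
    ∃ c0 : ℕ, ∀ p q : ℕ, c0 ≤ p + q →
      ∀ z ∈ Fermat.Agent.S33.helper2582.gB01 ℓ M hℓM A,
        ∃ a ∈ Fermat.Agent.S33.helper2582.gB0 ℓ M hℓM A,
          ∃ b ∈ Fermat.Agent.S33.helper2582.gB1 ℓ M hℓM A,
            z = (jBar (ℓ * M))⁻¹ ^ q * a + jBar (ℓ * M) ^ p * b :=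
  exists_hfg_gpVal ℓ M hℓM A hA (Fermat.Agent.S33.helper2582.gO ℓ M hℓM A)
    (fun _ => Iff.rfl)

end Fermat.Agent.S33.helper7274
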