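/-
# S33, root v3 (captain helper2784): the frozen statement from `Stmt_Family` alone

With CECH-E closed on main (`helper2055.stmt_orderJ_of_dictE_family`, `helper5528.stmt_dictE`,
`helper8997.stmt_H1Free`), the frozen statement S33 follows from the ONE geometric leaf

* `helper1085.Stmt_Family p M h` at the even levels `p * M`  (`result_of_family`),

and `Stmt_Family`'s long pole `helper5683.Stmt_SeedsJ p M h` follows from the root closure
`helper2582.StmtRoot` alone (`stmt_seedsJ_of_root`; `StmtFG` is `helper7274.stmtFG`).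
-/
import Fermat.Agent.S33.helper2784_Leaves
import Fermat.Agent.S33.helper2055_OrderJ
import Fermat.Agent.S33.helper5528_StmtDictE
import Fermat.Agent.S33.helper2582_SeedsJ
import Fermat.Agent.S33.helper7274_StmtFG

set_option autoImplicit false

namespace Fermat.Agent.S33.helper2784

open AlgebraicCurve ModularCurve

local notation "Qb" => AlgebraicClosure ℚ

section Leaves

variable {p M : ℕ} [NeZero p] [NeZero M] (h : Nat.Coprime p M)

/-- **(C) from FAMILY alone** (CECH-E is closed on main). -/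
theorem stmt_orderJ_of_family (hp : p.Prime)
    (hfam : Fermat.Agent.S33.helper1085.Stmt_Family p M h) : Stmt_OrderJ p M h := by
  haveI : Fact p.Prime := ⟨hp⟩
  exact Fermat.Agent.S33.helper2055.stmt_orderJ_of_dictE_family M h
    (Fermat.Agent.S33.helper5528.stmt_dictE h) hfam

/-- **The seeds from the root closure alone** (`StmtFG` is on main). -/
theorem stmt_seedsJ_of_root (hp : p.Prime) (hpM : ¬ p ∣ M)
    (hRoot : haveI : Fact p.Prime := ⟨hp⟩
      ∀ P : ValuationSubring Qb, P.LiesOverPrime p →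
        ∀ m : ℕ, Fermat.Agent.S33.helper2582.StmtRoot p M hpM P (p ^ m)) :
    Fermat.Agent.S33.helper5683.Stmt_SeedsJ p M h := by
  haveI : Fact p.Prime := ⟨hp⟩
  exact Fermat.Agent.S33.helper2582.stmt_SeedsJ_of_fg_root p M h hpM
    (fun P hP => Fermat.Agent.S33.helper7274.stmtFG p M hpM P hP) hRoot

end Leaves

section Root

variable {p : ℕ} {N : ℕ} [NeZero N] {S : Finset ℕ}
  {𝒪 : Type} [CommRing 𝒪] [IsDomain 𝒪] [IsDiscreteValuationRing 𝒪]
  [IsAdicComplete (IsLocalRing.maximalIdeal 𝒪) 𝒪]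
  {θ : CuspForm.heckeAlgebra N 2 (↑S : Set ℕ) →+* IsLocalRing.ResidueField 𝒪}
  {T : Type} [CommRing T] [IsLocalRing T] [IsNoetherianRing T]
  [IsAdicComplete (IsLocalRing.maximalIdeal T) T] [Algebra 𝒪 T] [IsLocalHom (algebraMap 𝒪 T)]
  [Module.Finite 𝒪 T] [Module.Free 𝒪 T]

/-- **S33 from the FAMILY leaf alone.**  The frozen S33 statement from `Stmt_Family p M h` at the
even levels `p * M`. -/
theorem result_of_family [Finite (IsLocalRing.ResidueField 𝒪)] [CharZero 𝒪] [NeZero p]
    (hp : p.Prime) (hp2 : p ≠ 2) (hp𝒪 : (p : 𝒪) ∈ IsLocalRing.maximalIdeal 𝒪)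
    (hN : p ∣ N ∧ ¬ p ^ 2 ∣ N)
    (hNS : ∀ q : ℕ, q.Prime → q ∣ N → q ∈ S)
    (H : CuspForm.HeckeGaloisRepDatum N (↑S : Set ℕ) 𝒪 θ T)
    (hres : (GaloisRepAdic.ofResidualGaloisRep H.ρ.residual).IsOrdinaryAt p)
    (hfam : ∀ (M : ℕ) [NeZero M] (h : Nat.Coprime p M), 2 ∣ M →
      Fermat.Agent.S33.helper1085.Stmt_Family p M h) :
    H.ρ.IsOrdinaryAt p :=
  result_of_orderJ hp hp2 hp𝒪 hN hNS H hres
    (fun M _ h h2 => stmt_orderJ_of_family h hp (hfam M h h2))

end Root

end Fermat.Agent.S33.helper2784
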