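import Mathlib

/-!
# S33: the level ring `P ∩ E` is a discrete valuation ring (helper1326), Mathlib only

For a valuation ring `P` of `ℚ̄` over a prime `p` (only `(p : ℚ̄) ∈ P.nonunits` is used) and a
subfield `E`, the ring `𝒪 = P ∩ E` with an element `π` such that
* every nonunit of `P` lying in `𝒪` is a multiple of `π` in `𝒪`  (`unif`),
* `π` is a nonunit of `P` (`nonunit`) and `π ^ e = p * z` with `z ∈ P` (`pow`)
is a discrete valuation ring with uniformiser `π`; in particular it is noetherian, `π ≠ 0`,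
every nonzero `d` divides a power of `π`, and `π` is not a unit in any subring contained in `P`.

These are the fields `nonunit`, `unif`, `pow` of `helper1085.IsLevel` in unfolded form (the
carrier is `P.toSubring ⊓ E.toSubring = helper1085.lvlRing P E` verbatim), so the statements
apply to an `IsLevel` by `exact`.
-/

set_option autoImplicit false

noncomputable section

namespace Fermat.Agent.S33.helper1326

local notation "Qb" => AlgebraicClosure ℚ

/-! ## Uniformisers -/

/-- In a domain in which one element `π ≠ 0` divides every nonunit and which is `π`-adically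
separated, every nonzero element is a unit times a power of `π`. -/
theorem exists_eq_pow_mul_unit_of_unif {O : Type*} [CommRing O] [IsDomain O] (π : O)
    (hunif : ∀ a : O, ¬ IsUnit a → π ∣ a)
    (hsep : ∀ a : O, a ≠ 0 → ∃ k : ℕ, ¬ π ^ k ∣ a) (x : O) (hx : x ≠ 0) :
    ∃ (n : ℕ) (b : O), IsUnit b ∧ x = π ^ n * b := by
  obtain ⟨k, hk⟩ := hsep x hx
  have hex : ∃ n : ℕ, π ^ n ∣ x ∧ ¬ π ^ (n + 1) ∣ x := by
    induction k with
    | zero => exact absurd (by simp) hk
    | succ k ih =>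
      by_cases hk' : π ^ k ∣ x
      · exact ⟨k, hk', hk⟩
      · exact ih hk'
  obtain ⟨n, ⟨b, hb⟩, hn'⟩ := hex
  refine ⟨n, b, ?_, hb⟩
  by_contra hbn
  obtain ⟨b', rfl⟩ := hunif b hbn
  exact hn' ⟨b', by rw [hb, pow_succ]; ring⟩

/-- A domain in which one element `π ≠ 0` divides every nonunit, and which is `π`-adically
separated, is a discrete valuation ring. -/
theorem isDiscreteValuationRing_of_unif {O : Type*} [CommRing O] [IsDomain O] (π : O)
    (hπ0 : π ≠ 0) (hπ : ¬ IsUnit π) (hunif : ∀ a : O, ¬ IsUnit a → π ∣ a)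
    (hsep : ∀ a : O, a ≠ 0 → ∃ k : ℕ, ¬ π ^ k ∣ a) : IsDiscreteValuationRing O := by
  have hirr : Irreducible π := by
    refine ⟨hπ, fun a b hab => ?_⟩
    by_contra hcon
    rw [not_or] at hcon
    obtain ⟨a', rfl⟩ := hunif a hcon.1
    obtain ⟨b', rfl⟩ := hunif b hcon.2
    have h1 : π * 1 = π * (π * (a' * b')) := by
      rw [mul_one]
      calc π = π * a' * (π * b') := hab
        _ = π * (π * (a' * b')) := by ring
    have h2 : 1 = π * (a' * b') := mul_left_cancel₀ hπ0 h1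
    exact hπ (IsUnit.of_mul_eq_one _ h2.symm)
  refine IsDiscreteValuationRing.ofHasUnitMulPowIrreducibleFactorization ⟨π, hirr, ?_⟩
  intro x hx
  obtain ⟨n, b, hbu, hb⟩ := exists_eq_pow_mul_unit_of_unif π hunif hsep x hx
  exact ⟨n, by
    rw [hb]
    exact (associated_mul_unit_right (π ^ n) b hbu)⟩

/-- The archimedean clause: every nonzero element divides a power of `π`. -/
theorem exists_dvd_pow_of_unif {O : Type*} [CommRing O] [IsDomain O] (π : O)
    (hunif : ∀ a : O, ¬ IsUnit a → π ∣ a)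
    (hsep : ∀ a : O, a ≠ 0 → ∃ k : ℕ, ¬ π ^ k ∣ a) (d : O) (hd : d ≠ 0) :
    ∃ r : ℕ, d ∣ π ^ r := by
  obtain ⟨n, b, hbu, hb⟩ := exists_eq_pow_mul_unit_of_unif π hunif hsep d hd
  obtain ⟨c, hc⟩ := hbu.exists_right_inv
  exact ⟨n, c, by rw [hb, mul_assoc, hc, mul_one]⟩

section Valuation

variable (P : ValuationSubring Qb)

/-- Integers lie in every valuation ring of `ℚ̄`. -/
theorem intCast_mem_valuationSubring (m : ℤ) : (m : Qb) ∈ P := by
  have h : ((m : ℤ) : Qb) ∈ P.toSubring := intCast_mem P.toSubring m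
  exact h

/-- An integer prime to `p` is a unit of `P`. -/
theorem valuation_intCast_eq_one_of_not_dvd {p : ℕ} (hp : p.Prime)
    (hP : (p : Qb) ∈ P.nonunits) (u : ℤ) (hu : ¬ (p : ℤ) ∣ u) : P.valuation (u : Qb) = 1 := by
  have hcop : IsCoprime u (p : ℤ) := by
    rw [isCoprime_comm]
    exact (Int.isCoprime_iff_gcd_eq_one).mpr
      ((Nat.Prime.coprime_iff_not_dvd hp).mpr (by
        intro h
        exact hu (Int.natCast_dvd.mpr h)))
  obtain ⟨x, y, hxy⟩ := hcop
  have h1 : (x : Qb) * (u : Qb) + (y : Qb) * (p : Qb) = 1 := by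
    have := congrArg (fun z : ℤ => (z : Qb)) hxy
    simpa using this
  have hpv : P.valuation (p : Qb) < 1 := (P.mem_nonunits_iff).mp hP
  have hyv : P.valuation ((y : Qb) * (p : Qb)) < 1 := by
    rw [map_mul]
    have hy1 : P.valuation (y : Qb) ≤ 1 :=
      (P.valuation_le_one_iff _).mpr (intCast_mem_valuationSubring P y)
    calc P.valuation (y : Qb) * P.valuation (p : Qb) ≤ 1 * P.valuation (p : Qb) :=
          mul_le_mul' hy1 le_rfl
      _ = P.valuation (p : Qb) := one_mul _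
      _ < 1 := hpv
  have hxu : P.valuation ((x : Qb) * (u : Qb)) = 1 := by
    have h2 : (x : Qb) * (u : Qb) = 1 - (y : Qb) * (p : Qb) := by linear_combination h1
    rw [h2]
    have h3 : P.valuation (1 - (y : Qb) * (p : Qb)) = P.valuation (1 : Qb) := by
      rw [sub_eq_add_neg]
      apply Valuation.map_add_eq_of_lt_left
      rw [Valuation.map_neg, map_one]
      exact hyv
    rw [h3, map_one]
  have hx1 : P.valuation (x : Qb) ≤ 1 :=
    (P.valuation_le_one_iff _).mpr (intCast_mem_valuationSubring P x)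
  have hu1 : P.valuation (u : Qb) ≤ 1 :=
    (P.valuation_le_one_iff _).mpr (intCast_mem_valuationSubring P u)
  rw [map_mul] at hxu
  refine le_antisymm hu1 ?_
  calc (1 : P.ValueGroup) = P.valuation (x : Qb) * P.valuation (u : Qb) := hxu.symm
    _ ≤ 1 * P.valuation (u : Qb) := mul_le_mul' hx1 le_rfl
    _ = P.valuation (u : Qb) := one_mul _

/-- **Archimedean property over `p`**: a nonzero element of `ℚ̄` is not divisible in `P` by
arbitrarily high powers of `p`. -/
theorem exists_pow_lt_valuation {p : ℕ} (hp : p.Prime) (hP : (p : Qb) ∈ P.nonunits)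
    (a : Qb) (ha : a ≠ 0) : ∃ k : ℕ, P.valuation (p : Qb) ^ k < P.valuation a := by
  -- a nonzero integer `d` with `d * a⁻¹` integral over `ℤ`, hence in `P`
  have halg : IsAlgebraic ℤ a⁻¹ :=
    (IsFractionRing.isAlgebraic_iff ℤ ℚ Qb).mpr ((AlgebraicClosure.isAlgebraic ℚ).isAlgebraic a⁻¹)
  obtain ⟨d, hd, hint⟩ := halg.exists_integral_multiple
  obtain ⟨w, hw⟩ : ∃ w : Qb, w = d • a⁻¹ := ⟨_, rfl⟩
  rw [← hw] at hint
  have hwP : w ∈ P := by
    have hint' : IsIntegral P w := hint.tower_top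
    obtain ⟨y, hy⟩ := IsIntegrallyClosed.isIntegral_iff.mp hint'
    rw [← hy]
    exact y.2
  have hda : (d : Qb) = w * a := by
    rw [hw, zsmul_eq_mul, mul_assoc, inv_mul_cancel₀ ha, mul_one]
  -- `d = p ^ s * u`, `p ∤ u`
  have hpv : P.valuation (p : Qb) < 1 := (P.mem_nonunits_iff).mp hP
  have hp0 : (p : Qb) ≠ 0 := by exact_mod_cast hp.ne_zero
  have hpv0 : P.valuation (p : Qb) ≠ 0 := (Valuation.ne_zero_iff _).mpr hp0
  obtain ⟨s, u, hu, hdu⟩ : ∃ (s : ℕ) (u : ℤ), ¬ (p : ℤ) ∣ u ∧ d = (p : ℤ) ^ s * u := by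
    have hfin : FiniteMultiplicity (p : ℤ) d :=
      Int.finiteMultiplicity_iff.mpr ⟨by
        rw [Int.natAbs_natCast]; exact hp.ne_one, hd⟩
    obtain ⟨u, hu1, hu2⟩ := hfin.exists_eq_pow_mul_and_not_dvd
    exact ⟨_, u, hu2, hu1⟩
  have hdv : P.valuation (d : Qb) = P.valuation (p : Qb) ^ s := by
    rw [hdu]
    push_cast
    rw [map_mul, map_pow, valuation_intCast_eq_one_of_not_dvd P hp hP u hu, mul_one]
  refine ⟨s + 1, ?_⟩
  have hle : P.valuation (d : Qb) ≤ P.valuation a := by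
    rw [hda, map_mul]
    calc P.valuation w * P.valuation a ≤ 1 * P.valuation a :=
          mul_le_mul' ((P.valuation_le_one_iff _).mpr hwP) le_rfl
      _ = P.valuation a := one_mul _
  refine lt_of_lt_of_le ?_ hle
  rw [hdv, pow_succ]
  calc P.valuation (p : Qb) ^ s * P.valuation (p : Qb)
      < P.valuation (p : Qb) ^ s * 1 :=
        mul_lt_mul_of_pos_left hpv (zero_lt_iff.mpr (pow_ne_zero s hpv0))
    _ = P.valuation (p : Qb) ^ s := mul_one _

end Valuation

/-! ## The level ring -/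

section Level

variable (P : ValuationSubring Qb) (E : IntermediateField ℚ Qb)

/-- The three basic facts about the level ring `𝒪 = P ∩ E` with a uniformiser `π`
(hypotheses = the fields `nonunit`, `unif`, `pow` of `helper1085.IsLevel`, unfolded):
`π ≠ 0`, `π` is not a unit, every nonunit is a multiple of `π`, and `𝒪` is `π`-adically
separated. -/
theorem lvl_unif_sep {p : ℕ} (hp : p.Prime) (hP : (p : Qb) ∈ P.nonunits)
    (π : ↥(P.toSubring ⊓ E.toSubring)) (e : ℕ)
    (hnonunit : (π : Qb) ∈ P.nonunits)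
    (hunif : ∀ a : ↥(P.toSubring ⊓ E.toSubring), (a : Qb) ∈ P.nonunits → a ∈ Ideal.span {π})
    (hpow : ∃ z ∈ P, (π : Qb) ^ e = (p : Qb) * z) :
    π ≠ 0 ∧ ¬ IsUnit π ∧ (∀ a : ↥(P.toSubring ⊓ E.toSubring), ¬ IsUnit a → π ∣ a) ∧
      ∀ a : ↥(P.toSubring ⊓ E.toSubring), a ≠ 0 → ∃ k : ℕ, ¬ π ^ k ∣ a := by
  have hmemP : ∀ a : ↥(P.toSubring ⊓ E.toSubring), (a : Qb) ∈ P := fun a =>
    (Subring.mem_inf.mp a.2).1
  have hmemE : ∀ a : ↥(P.toSubring ⊓ E.toSubring), (a : Qb) ∈ E := fun a =>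
    (Subring.mem_inf.mp a.2).2
  have hp0 : (p : Qb) ≠ 0 := by exact_mod_cast hp.ne_zero
  have hπv : P.valuation (π : Qb) < 1 := (P.mem_nonunits_iff).mp hnonunit
  refine ⟨?_, ?_, ?_, ?_⟩
  · -- `π ≠ 0`: `p` is a nonunit of `P` in `𝒪`, hence a multiple of `π`
    intro h0
    have hpmem : (p : Qb) ∈ P.toSubring ⊓ E.toSubring :=
      Subring.mem_inf.mpr ⟨natCast_mem P.toSubring p, natCast_mem E.toSubring p⟩
    have h1 := hunif ⟨(p : Qb), hpmem⟩ hP
    rw [Ideal.mem_span_singleton, h0] at h1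
    have h2 : (⟨(p : Qb), hpmem⟩ : ↥(P.toSubring ⊓ E.toSubring)) = 0 := zero_dvd_iff.mp h1
    exact hp0 (congrArg Subtype.val h2)
  · -- `π` is not a unit
    rintro ⟨u, hu⟩
    have h1 : (π : Qb) * ((↑u⁻¹ : ↥(P.toSubring ⊓ E.toSubring)) : Qb) = 1 := by
      have h2 : π * (↑u⁻¹ : ↥(P.toSubring ⊓ E.toSubring)) = 1 := by
        rw [← hu]
        exact u.mul_inv
      exact congrArg Subtype.val h2
    have h3 : P.valuation ((π : Qb) * ((↑u⁻¹ : ↥(P.toSubring ⊓ E.toSubring)) : Qb)) < 1 := by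
      rw [map_mul]
      calc P.valuation (π : Qb) * P.valuation ((↑u⁻¹ : ↥(P.toSubring ⊓ E.toSubring)) : Qb)
          ≤ P.valuation (π : Qb) * 1 :=
            mul_le_mul' le_rfl ((P.valuation_le_one_iff _).mpr (hmemP _))
        _ = P.valuation (π : Qb) := mul_one _
        _ < 1 := hπv
    rw [h1, map_one] at h3
    exact lt_irrefl _ h3
  · -- every nonunit is a multiple of `π`
    intro a ha
    by_cases hna : (a : Qb) ∈ P.nonunits
    · exact Ideal.mem_span_singleton.mp (hunif a hna)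
    · exfalso
      apply ha
      have hv1 : P.valuation (a : Qb) = 1 := by
        rw [P.mem_nonunits_iff, not_lt] at hna
        exact le_antisymm ((P.valuation_le_one_iff _).mpr (hmemP a)) hna
      have ha0 : (a : Qb) ≠ 0 := by
        intro h0
        rw [h0, map_zero] at hv1
        exact zero_ne_one hv1
      have hinvP : (a : Qb)⁻¹ ∈ P := by
        rw [← P.valuation_le_one_iff, map_inv₀, hv1, inv_one]
      have hinvE : (a : Qb)⁻¹ ∈ E := inv_mem (hmemE a)
      refine IsUnit.of_mul_eq_one (⟨(a : Qb)⁻¹, Subring.mem_inf.mpr ⟨hinvP, hinvE⟩⟩ :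
        ↥(P.toSubring ⊓ E.toSubring)) ?_
      apply Subtype.ext
      exact mul_inv_cancel₀ ha0
  · -- separation
    intro a ha
    have ha0 : (a : Qb) ≠ 0 := fun h0 => ha (Subtype.ext h0)
    obtain ⟨k, hk⟩ := exists_pow_lt_valuation P hp hP (a : Qb) ha0
    refine ⟨e * k, ?_⟩
    rintro ⟨b, hb⟩
    obtain ⟨z, hz, hπe⟩ := hpow
    have h1 : (a : Qb) = ((p : Qb) * z) ^ k * (b : Qb) := by
      have h2 := congrArg Subtype.val hb
      rw [h2]
      push_cast
      rw [pow_mul, hπe]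
    have h3 : P.valuation (a : Qb) ≤ P.valuation (p : Qb) ^ k := by
      rw [h1, map_mul, map_pow, map_mul]
      have hz1 : P.valuation z ≤ 1 := (P.valuation_le_one_iff _).mpr hz
      have hb1 : P.valuation (b : Qb) ≤ 1 := (P.valuation_le_one_iff _).mpr (hmemP b)
      calc (P.valuation (p : Qb) * P.valuation z) ^ k * P.valuation (b : Qb)
          ≤ (P.valuation (p : Qb) * 1) ^ k * 1 :=
            mul_le_mul' (pow_le_pow_left' (mul_le_mul' le_rfl hz1) k) hb1
        _ = P.valuation (p : Qb) ^ k := by rw [mul_one, mul_one]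
    exact lt_irrefl _ (lt_of_lt_of_le hk h3)

/-- **The level ring `P ∩ E` with a uniformiser is a discrete valuation ring.** -/
theorem lvl_isDiscreteValuationRing {p : ℕ} (hp : p.Prime) (hP : (p : Qb) ∈ P.nonunits)
    (π : ↥(P.toSubring ⊓ E.toSubring)) (e : ℕ)
    (hnonunit : (π : Qb) ∈ P.nonunits)
    (hunif : ∀ a : ↥(P.toSubring ⊓ E.toSubring), (a : Qb) ∈ P.nonunits → a ∈ Ideal.span {π})
    (hpow : ∃ z ∈ P, (π : Qb) ^ e = (p : Qb) * z) :
    IsDiscreteValuationRing ↥(P.toSubring ⊓ E.toSubring) := by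
  obtain ⟨h0, hu, hdiv, hsep⟩ := lvl_unif_sep P E hp hP π e hnonunit hunif hpow
  exact isDiscreteValuationRing_of_unif π h0 hu hdiv hsep

/-- The level ring is noetherian. -/
theorem lvl_isNoetherianRing {p : ℕ} (hp : p.Prime) (hP : (p : Qb) ∈ P.nonunits)
    (π : ↥(P.toSubring ⊓ E.toSubring)) (e : ℕ)
    (hnonunit : (π : Qb) ∈ P.nonunits)
    (hunif : ∀ a : ↥(P.toSubring ⊓ E.toSubring), (a : Qb) ∈ P.nonunits → a ∈ Ideal.span {π})
    (hpow : ∃ z ∈ P, (π : Qb) ^ e = (p : Qb) * z) :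
    IsNoetherianRing ↥(P.toSubring ⊓ E.toSubring) := by
  have := lvl_isDiscreteValuationRing P E hp hP π e hnonunit hunif hpow
  infer_instance

/-- The archimedean clause of the level ring: every nonzero element divides a power of `π`. -/
theorem lvl_exists_dvd_pow {p : ℕ} (hp : p.Prime) (hP : (p : Qb) ∈ P.nonunits)
    (π : ↥(P.toSubring ⊓ E.toSubring)) (e : ℕ)
    (hnonunit : (π : Qb) ∈ P.nonunits)
    (hunif : ∀ a : ↥(P.toSubring ⊓ E.toSubring), (a : Qb) ∈ P.nonunits → a ∈ Ideal.span {π})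
    (hpow : ∃ z ∈ P, (π : Qb) ^ e = (p : Qb) * z)
    (d : ↥(P.toSubring ⊓ E.toSubring)) (hd : d ≠ 0) : ∃ r : ℕ, d ∣ π ^ r := by
  obtain ⟨-, -, hdiv, hsep⟩ := lvl_unif_sep P E hp hP π e hnonunit hunif hpow
  exact exists_dvd_pow_of_unif π hdiv hsep d hd

end Level

end Fermat.Agent.S33.helper1326
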