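/-
S33, ROOTLEVEL (helper2287): one finite level for all the Kummer units of a family.

In `FK N = ℚ̄(X₀(N))` (vocabulary of the landed `S19.helper9190`: `levelField`, `gal`, `cst`):

* `finite_orbit` : every `f : FK N` has a finite orbit under the coefficientwise Galois action;
* `gal_mem_levelField` : `levelField N E` is stable under `gal N σ` when `E` is stable;
* `exists_level_of_finset` : finitely many functions live at one finite Galois-stable level
  containing a given finite level;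
* `exists_level_of_pow_mem` : for a finite set `T` of functions, ALL `n`-th roots of the
  elements of `T` live at one such level;
* `exists_level_of_kummer_units` : for a finite set `S`, all `u` with
  `u ^ n * gal N σ b = a` (`a, b ∈ S`, `σ` ANY element of `G_ℚ`) live at one such level.

The last statement is what the equivariance clause of a family of bundles at a finite level
needs: the units `u` with `D (σ x) = σ D x + div u` satisfy `u ^ n = h (σ x) / σ (h x)` for the
Kummer representatives `h`, for infinitely many `σ`, and they must all lie at one finite level.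
-/
import Fermat.Agent.S19.helper9190_CoreBasics

set_option autoImplicit false

namespace Fermat.Agent.S33.helper2287

open ModularCurve AlgebraicCurve
open Fermat.Agent.S19.helper9190

noncomputable section

local notation "Qb" => AlgebraicClosure ℚ
local notation "GQ" => (AlgebraicClosure ℚ ≃ₐ[ℚ] AlgebraicClosure ℚ)

variable (N : ℕ) [NeZero N]

/-- The Galois conjugates of an algebraic number form a finite set. -/
theorem finite_conjugates (c : Qb) : (Set.range fun σ : GQ => σ c).Finite := by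
  have hint : IsIntegral ℚ c := ((AlgebraicClosure.isAlgebraic ℚ).isAlgebraic c).isIntegral
  refine ((minpoly ℚ c).rootSet_finite Qb).subset ?_
  rintro _ ⟨σ, rfl⟩
  rw [Polynomial.mem_rootSet]
  refine ⟨minpoly.ne_zero hint, ?_⟩
  have h := Polynomial.aeval_algHom_apply (σ : Qb →ₐ[ℚ] Qb) c (minpoly ℚ c)
  rw [minpoly.aeval, map_zero] at h
  exact h

/-- **Finite orbits.** Every function of `FK N` has finitely many conjugates under the
coefficientwise action of `G_ℚ`. -/
theorem finite_orbit (f : FK N) : (Set.range fun σ : GQ => gal N σ f).Finite := by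
  have hf := mem_levelField_top N f
  unfold levelField at hf
  induction hf using Subfield.closure_induction with
  | mem y hy =>
    rcases hy with ⟨c, -, rfl⟩ | ⟨z, rfl⟩
    · refine ((finite_conjugates c).image (fun d : Qb => cst N d)).subset ?_
      rintro _ ⟨σ, rfl⟩
      exact ⟨σ c, ⟨σ, rfl⟩, (gal_cst N σ c).symm⟩
    · refine (Set.finite_singleton (emb N z)).subset ?_
      rintro _ ⟨σ, rfl⟩
      exact gal_emb N σ z
  | one =>
    refine (Set.finite_singleton (1 : FK N)).subset ?_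
    rintro _ ⟨σ, rfl⟩
    exact map_one (gal N σ)
  | add a b _ _ ha hb =>
    refine (Set.Finite.image2 (fun x y : FK N => x + y) ha hb).subset ?_
    rintro _ ⟨σ, rfl⟩
    exact ⟨_, ⟨σ, rfl⟩, _, ⟨σ, rfl⟩, (map_add (gal N σ) a b).symm⟩
  | neg a _ ha =>
    refine (ha.image (fun x : FK N => -x)).subset ?_
    rintro _ ⟨σ, rfl⟩
    exact ⟨_, ⟨σ, rfl⟩, (map_neg (gal N σ) a).symm⟩
  | inv a _ ha =>
    refine (ha.image (fun x : FK N => x⁻¹)).subset ?_
    rintro _ ⟨σ, rfl⟩
    exact ⟨_, ⟨σ, rfl⟩, (map_inv₀ (gal N σ) a).symm⟩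
  | mul a b _ _ ha hb =>
    refine (Set.Finite.image2 (fun x y : FK N => x * y) ha hb).subset ?_
    rintro _ ⟨σ, rfl⟩
    exact ⟨_, ⟨σ, rfl⟩, _, ⟨σ, rfl⟩, (map_mul (gal N σ) a b).symm⟩

/-- `levelField N E` is stable under the Galois action when `E` is. -/
theorem gal_mem_levelField {E : IntermediateField ℚ Qb} (hE : ∀ σ : GQ, ∀ x ∈ E, σ x ∈ E)
    (σ : GQ) {f : FK N} (hf : f ∈ levelField N E) : gal N σ f ∈ levelField N E := by
  unfold levelField at hf
  induction hf using Subfield.closure_induction with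
  | mem y hy =>
    rcases hy with ⟨c, hc, rfl⟩ | ⟨z, rfl⟩
    · rw [gal_cst]
      exact Subfield.subset_closure (Or.inl ⟨σ c, hE σ c hc, rfl⟩)
    · rw [gal_emb]
      exact Subfield.subset_closure (Or.inr ⟨z, rfl⟩)
  | one => rw [map_one]; exact Subfield.one_mem _
  | add a b _ _ ha hb => rw [map_add]; exact Subfield.add_mem _ ha hb
  | neg a _ ha => rw [map_neg]; exact Subfield.neg_mem _ ha
  | inv a _ ha => rw [map_inv₀]; exact Subfield.inv_mem _ ha
  | mul a b _ _ ha hb => rw [map_mul]; exact Subfield.mul_mem _ ha hb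

/-- Every finite level is contained in a finite level stable under `G_ℚ`. -/
theorem exists_stable_level (E1 : IntermediateField ℚ Qb) [FiniteDimensional ℚ E1] :
    ∃ E : IntermediateField ℚ Qb, FiniteDimensional ℚ E ∧ E1 ≤ E ∧
      ∀ σ : GQ, ∀ x ∈ E, σ x ∈ E := by
  refine ⟨IntermediateField.normalClosure ℚ E1 Qb, inferInstance,
    IntermediateField.le_normalClosure E1, fun σ x hx => ?_⟩
  have hle : (IntermediateField.normalClosure ℚ (↥E1) Qb).map (σ : Qb →ₐ[ℚ] Qb) ≤
      IntermediateField.normalClosure ℚ (↥E1) Qb := by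
    rw [normalClosure_def, IntermediateField.map_iSup, iSup_le_iff]
    intro f
    rw [AlgHom.map_fieldRange]
    exact le_iSup (fun g : (↥E1) →ₐ[ℚ] Qb => g.fieldRange) ((σ : Qb →ₐ[ℚ] Qb).comp f)
  exact hle ⟨x, hx, rfl⟩

/-- **Finitely many functions live at one finite `G_ℚ`-stable level** containing a given finite
level. -/
theorem exists_level_of_finset (U : Finset (FK N)) (E0 : IntermediateField ℚ Qb)
    [FiniteDimensional ℚ E0] :
    ∃ E : IntermediateField ℚ Qb, FiniteDimensional ℚ E ∧ E0 ≤ E ∧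
      (∀ σ : GQ, ∀ x ∈ E, σ x ∈ E) ∧ ∀ u ∈ U, u ∈ levelField N E := by
  classical
  have key : ∃ E1 : IntermediateField ℚ Qb, FiniteDimensional ℚ E1 ∧ E0 ≤ E1 ∧
      ∀ u ∈ U, u ∈ levelField N E1 := by
    induction U using Finset.induction_on with
    | empty => exact ⟨E0, inferInstance, le_rfl, fun u hu => absurd hu (Finset.notMem_empty u)⟩
    | insert a U _ ih =>
      obtain ⟨E1, h1, h01, hU⟩ := ih
      obtain ⟨Ea, ha, haE⟩ := exists_level_of_FK N a
      refine ⟨E1 ⊔ Ea, IntermediateField.finiteDimensional_sup E1 Ea,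
        h01.trans le_sup_left, fun u hu => ?_⟩
      rcases Finset.mem_insert.mp hu with rfl | hu
      · exact levelField_mono N le_sup_right haE
      · exact levelField_mono N le_sup_left (hU u hu)
  obtain ⟨E1, h1, h01, hU⟩ := key
  obtain ⟨E, hE, h1E, hst⟩ := exists_stable_level E1
  exact ⟨E, hE, h01.trans h1E, hst, fun u hu => levelField_mono N h1E (hU u hu)⟩

omit [NeZero N] in
/-- The `n`-th roots in `FK N` of the elements of a finite set form a finite set. -/
theorem finite_roots {n : ℕ} (hn : n ≠ 0) {T : Set (FK N)} (hT : T.Finite) :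
    {u : FK N | u ^ n ∈ T}.Finite := by
  classical
  have h : {u : FK N | u ^ n ∈ T} ⊆ ⋃ t ∈ T, (↑(Polynomial.nthRoots n t).toFinset : Set (FK N)) := by
    intro u hu
    refine Set.mem_biUnion hu ?_
    rw [Finset.mem_coe, Multiset.mem_toFinset, Polynomial.mem_nthRoots (Nat.pos_of_ne_zero hn)]
  exact (hT.biUnion fun t _ => Finset.finite_toSet _).subset h

/-- **All `n`-th roots of finitely many functions live at one finite level.** -/
theorem exists_level_of_pow_mem {n : ℕ} (hn : n ≠ 0) (T : Set (FK N)) (hT : T.Finite)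
    (S : Finset (FK N)) (E0 : IntermediateField ℚ Qb) [FiniteDimensional ℚ E0] :
    ∃ E : IntermediateField ℚ Qb, FiniteDimensional ℚ E ∧ E0 ≤ E ∧
      (∀ σ : GQ, ∀ x ∈ E, σ x ∈ E) ∧ (∀ a ∈ S, a ∈ levelField N E) ∧
      ∀ u : FK N, u ^ n ∈ T → u ∈ levelField N E := by
  classical
  obtain ⟨E, hE, h0, hst, hU⟩ :=
    exists_level_of_finset N ((finite_roots N hn hT).toFinset ∪ S) E0
  refine ⟨E, hE, h0, hst, fun a ha => hU a (Finset.mem_union_right _ ha), fun u hu => ?_⟩
  exact hU u (Finset.mem_union_left _ ((finite_roots N hn hT).mem_toFinset.2 hu))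

/-- **One finite level for all Kummer units.** For a finite set `S` of functions, every `u` with
`u ^ n * σ(b) = a` for some `a, b ∈ S`, `b ≠ 0`, and ANY `σ ∈ G_ℚ` lives at one finite
`G_ℚ`-stable level (which also contains `S` and a given finite level `E0`). -/
theorem exists_level_of_kummer_units {n : ℕ} (hn : n ≠ 0) (S : Finset (FK N))
    (E0 : IntermediateField ℚ Qb) [FiniteDimensional ℚ E0] :
    ∃ E : IntermediateField ℚ Qb, FiniteDimensional ℚ E ∧ E0 ≤ E ∧
      (∀ σ : GQ, ∀ x ∈ E, σ x ∈ E) ∧ (∀ a ∈ S, a ∈ levelField N E) ∧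
      ∀ u : FK N, (∃ a ∈ S, ∃ b ∈ S, b ≠ 0 ∧ ∃ σ : GQ, u ^ n * gal N σ b = a) →
        u ∈ levelField N E := by
  classical
  -- the finite set of targets `a / σ(b)`
  let T : Set (FK N) := ⋃ a ∈ (S : Set (FK N)), ⋃ b ∈ (S : Set (FK N)),
    (fun y : FK N => a * y⁻¹) '' (Set.range fun σ : GQ => gal N σ b)
  have hT : T.Finite :=
    S.finite_toSet.biUnion fun a _ => S.finite_toSet.biUnion fun b _ =>
      (finite_orbit N b).image _
  obtain ⟨E, hE, h0, hst, hS, hroot⟩ := exists_level_of_pow_mem N hn T hT S E0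
  refine ⟨E, hE, h0, hst, hS, ?_⟩
  rintro u ⟨a, ha, b, hb, hb0, σ, hu⟩
  have hσb : gal N σ b ≠ 0 := fun h0 => hb0 (by
    have := (gal N σ).injective (h0.trans (map_zero (gal N σ)).symm)
    exact this)
  refine hroot u ?_
  have hu' : u ^ n = a * (gal N σ b)⁻¹ := by
    rw [← hu, mul_assoc, mul_inv_cancel₀ hσb, mul_one]
  rw [hu']
  exact Set.mem_biUnion (Finset.mem_coe.2 ha)
    (Set.mem_biUnion (Finset.mem_coe.2 hb) ⟨gal N σ b, ⟨σ, rfl⟩, rfl⟩)

/-! ## Root-closedness of two-sided balls -/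

/-- A valuation subring is closed under `n`-th roots. -/
theorem mem_of_pow_mem_valuationSubring {F : Type*} [Field F] (V : ValuationSubring F) {n : ℕ}
    (hn : n ≠ 0) {x : F} (hx : x ^ n ∈ V) : x ∈ V := by
  rw [← ValuationSubring.valuation_le_one_iff] at hx ⊢
  rw [map_pow] at hx
  exact (pow_le_one_iff_of_nonneg zero_le hn).mp hx

/-- The two-sided ball `V ⊓ W⁻¹(V)` of a valuation subring and its twin under a ring
endomorphism is closed under `n`-th roots (this is the `hroot` of `exists_level_renorm` and of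
`exists_level_units_family` for `O' := V ⊓ V.comap W`). -/
theorem root_closed_inf_comap {F : Type*} [Field F] (V : ValuationSubring F) (W : F →+* F)
    {n : ℕ} (hn : n ≠ 0) (w : F) (hw : w ^ n ∈ V.toSubring ⊓ V.toSubring.comap W) :
    w ∈ V.toSubring ⊓ V.toSubring.comap W := by
  refine ⟨mem_of_pow_mem_valuationSubring V hn hw.1, ?_⟩
  have h2 : W (w ^ n) ∈ V := hw.2
  rw [map_pow] at h2
  exact mem_of_pow_mem_valuationSubring V hn h2

/-! ## Renormalising Kummer units into one finite level -/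

omit [NeZero N] in
/-- The order of a nonzero constant vanishes at every place. -/
theorem ord_cst_eq_zero (v : Place Qb (FK N)) {c : Qb} (hc : c ≠ 0) : v.ord (cst N c) = 0 := by
  let u : v.toValuationSubringˣ :=
    ⟨⟨cst N c, v.algebraMap_mem' c⟩, ⟨cst N c⁻¹, v.algebraMap_mem' c⁻¹⟩,
      Subtype.ext (by
        show algebraMap Qb (FK N) c * algebraMap Qb (FK N) c⁻¹ = 1
        rw [← map_mul, mul_inv_cancel₀ hc, map_one]),
      Subtype.ext (by
        show algebraMap Qb (FK N) c⁻¹ * algebraMap Qb (FK N) c = 1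
        rw [← map_mul, inv_mul_cancel₀ hc, map_one])⟩
  exact v.ord_coe_unit u

omit [NeZero N] in
/-- The order of a natural power. -/
theorem ord_pow_nat (v : Place Qb (FK N)) (f : FK N) (n : ℕ) :
    v.ord (f ^ n) = (n : ℤ) * v.ord f := by
  rw [← zpow_natCast, v.ord_zpow]

/-- **Renormalisation of Kummer units into one finite level.**  Let `O'` be a subring of `FK N`
closed under `n`-th roots (e.g. an intersection of valuation rings) and assume that the functions
without zeros and poles are the constants.  For a finite set `S` of functions there is ONE finite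
`G_ℚ`-stable level `E` (containing `S` and a given `E0`) such that: whenever `a, b ∈ S` and
`σ ∈ G_ℚ` are such that `a` and `σ b` are units of `O'`, and `u` is ANY function with
`n · div u = div a - div (σ b)`, then some constant multiple `u'` of `u` (same divisor) is a unit
of `O' ⊓ levelField N E`. -/
theorem exists_level_renorm {n : ℕ} (hn : n ≠ 0) (O' : Subring (FK N))
    (hroot : ∀ w : FK N, w ^ n ∈ O' → w ∈ O')
    (hconst : ∀ w : FK N, w ≠ 0 → (∀ v : Place Qb (FK N), v.ord w = 0) → ∃ c : Qb, w = cst N c)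
    (S : Finset (FK N)) (E0 : IntermediateField ℚ Qb) [FiniteDimensional ℚ E0] :
    ∃ E : IntermediateField ℚ Qb, FiniteDimensional ℚ E ∧ E0 ≤ E ∧
      (∀ σ : GQ, ∀ x ∈ E, σ x ∈ E) ∧ (∀ a ∈ S, a ∈ levelField N E) ∧
      ∀ a ∈ S, ∀ b ∈ S, ∀ (σ : GQ) (u : FK N), u ≠ 0 → a ≠ 0 → b ≠ 0 →
        a ∈ O' → a⁻¹ ∈ O' → gal N σ b ∈ O' → (gal N σ b)⁻¹ ∈ O' →
        (∀ v : Place Qb (FK N), (n : ℤ) * v.ord u = v.ord a - v.ord (gal N σ b)) →
        ∃ u' : FK N, u' ≠ 0 ∧ u' ∈ O' ⊓ (levelField N E).toSubring ∧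
          u'⁻¹ ∈ O' ⊓ (levelField N E).toSubring ∧ ∀ v : Place Qb (FK N), v.ord u' = v.ord u := by
  obtain ⟨E, hE, h0, hst, hS, hlev⟩ := exists_level_of_kummer_units N hn S E0
  refine ⟨E, hE, h0, hst, hS, ?_⟩
  intro a ha b hb σ u hu ha0 hb0 haO haO' hbO hbO' hord
  have hσb : gal N σ b ≠ 0 := fun h0 => hb0 ((gal N σ).injective (h0.trans (map_zero _).symm))
  -- the function `u ^ n * σ b / a` has no zeros and no poles
  have hw0 : u ^ n * gal N σ b * a⁻¹ ≠ 0 :=
    mul_ne_zero (mul_ne_zero (pow_ne_zero n hu) hσb) (inv_ne_zero ha0)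
  obtain ⟨c, hc⟩ := hconst _ hw0 (fun v => by
    rw [v.ord_mul (mul_ne_zero (pow_ne_zero n hu) hσb) (inv_ne_zero ha0),
      v.ord_mul (pow_ne_zero n hu) hσb, v.ord_inv, ord_pow_nat, hord v]
    ring)
  have hc0 : c ≠ 0 := by
    rintro rfl
    exact hw0 (hc.trans (map_zero (algebraMap Qb (FK N))))
  obtain ⟨d, hd⟩ := IsAlgClosed.exists_pow_nat_eq c (Nat.pos_of_ne_zero hn)
  have hd0 : d ≠ 0 := by
    rintro rfl
    rw [zero_pow hn] at hd
    exact hc0 hd.symm
  have hdF : cst N d ≠ 0 := (map_ne_zero (algebraMap Qb (FK N))).mpr hd0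
  -- the renormalised unit
  have hun : (u * (cst N d)⁻¹) ^ n = a * (gal N σ b)⁻¹ := by
    have h1 : cst N d ^ n = u ^ n * gal N σ b * a⁻¹ := by
      rw [hc, ← hd]
      exact (map_pow (algebraMap Qb (FK N)) d n).symm
    rw [mul_pow, inv_pow, h1]
    field_simp
  have hu'0 : u * (cst N d)⁻¹ ≠ 0 := mul_ne_zero hu (inv_ne_zero hdF)
  have hlev' : u * (cst N d)⁻¹ ∈ levelField N E := by
    refine hlev _ ⟨a, ha, b, hb, hb0, σ, ?_⟩
    rw [hun, mul_assoc, inv_mul_cancel₀ hσb, mul_one]
  refine ⟨u * (cst N d)⁻¹, hu'0, ⟨hroot _ ?_, hlev'⟩, ⟨hroot _ ?_, Subfield.inv_mem _ hlev'⟩,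
    fun v => ?_⟩
  · rw [hun]
    exact O'.mul_mem haO hbO'
  · rw [inv_pow, hun, mul_inv, inv_inv, mul_comm]
    exact O'.mul_mem hbO haO'
  · rw [v.ord_mul hu (inv_ne_zero hdF), v.ord_inv, ord_cst_eq_zero N v hd0, neg_zero, add_zero]

/-- **Units of a Kummer family at one finite level.**  `h x` are units of `O'` with
`n · D x = div (h x)`; the divisors `D x` are additive, and equivariant under a set `G` of
Galois elements, up to linear equivalence.  Then there is ONE finite `G_ℚ`-stable level `E`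
(containing all `h x` and a given `E0`) at which all the linear equivalences are realised by
units of `O' ⊓ levelField N E` — for ALL `σ ∈ G` at once. -/
theorem exists_level_units_family {X : Type*} [AddCommGroup X] [Finite X] {n : ℕ} (hn : n ≠ 0)
    (O' : Subring (FK N)) (hroot : ∀ w : FK N, w ^ n ∈ O' → w ∈ O')
    (hconst : ∀ w : FK N, w ≠ 0 → (∀ v : Place Qb (FK N), v.ord w = 0) → ∃ c : Qb, w = cst N c)
    (h : X → FK N) (D : X → Divisor Qb (FK N))
    (hh0 : ∀ x, h x ≠ 0) (hhO : ∀ x, h x ∈ O') (hhO' : ∀ x, (h x)⁻¹ ∈ O')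
    (hdiv : ∀ x (v : Place Qb (FK N)), (n : ℤ) * D x v = v.ord (h x))
    (hadd : ∀ x y, ∃ f : FK N, f ≠ 0 ∧
      ∀ v : Place Qb (FK N), D (x + y) v = D x v + D y v + v.ord f)
    (hzero : ∃ f : FK N, f ≠ 0 ∧ ∀ v : Place Qb (FK N), D 0 v = v.ord f)
    (G : Set GQ) (γ : GQ → X → X)
    (hG : ∀ σ ∈ G, ∀ x, gal N σ (h x) ∈ O' ∧ (gal N σ (h x))⁻¹ ∈ O')
    (hgal : ∀ σ ∈ G, ∀ x, ∃ f : FK N, f ≠ 0 ∧
      ∀ v : Place Qb (FK N), D (γ σ x) v = (sgal N σ • D x) v + v.ord f)
    (E0 : IntermediateField ℚ Qb) [FiniteDimensional ℚ E0] :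
    ∃ E : IntermediateField ℚ Qb, FiniteDimensional ℚ E ∧ E0 ≤ E ∧
      (∀ σ : GQ, ∀ x ∈ E, σ x ∈ E) ∧ (∀ x, h x ∈ levelField N E) ∧
      (∀ x y, ∃ u : FK N, u ≠ 0 ∧ u ∈ O' ⊓ (levelField N E).toSubring ∧
        u⁻¹ ∈ O' ⊓ (levelField N E).toSubring ∧
        ∀ v : Place Qb (FK N), D (x + y) v = D x v + D y v + v.ord u) ∧
      (∃ u : FK N, u ≠ 0 ∧ u ∈ O' ⊓ (levelField N E).toSubring ∧
        u⁻¹ ∈ O' ⊓ (levelField N E).toSubring ∧ ∀ v : Place Qb (FK N), D 0 v = v.ord u) ∧
      (∀ σ ∈ G, ∀ x, ∃ u : FK N, u ≠ 0 ∧ u ∈ O' ⊓ (levelField N E).toSubring ∧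
        u⁻¹ ∈ O' ⊓ (levelField N E).toSubring ∧
        ∀ v : Place Qb (FK N), D (γ σ x) v = (sgal N σ • D x) v + v.ord u) := by
  classical
  have : Fintype X := Fintype.ofFinite X
  let S : Finset (FK N) :=
    insert 1 (Finset.univ.image h ∪ (Finset.univ (α := X × X)).image fun q => h q.1 * h q.2)
  have hS1 : (1 : FK N) ∈ S := Finset.mem_insert_self _ _
  have hSh : ∀ x, h x ∈ S := fun x =>
    Finset.mem_insert_of_mem (Finset.mem_union_left _ (Finset.mem_image_of_mem h (Finset.mem_univ x)))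
  have hSm : ∀ x y, h x * h y ∈ S := fun x y =>
    Finset.mem_insert_of_mem (Finset.mem_union_right _
      (Finset.mem_image.mpr ⟨(x, y), Finset.mem_univ _, rfl⟩))
  have hgal1 : ∀ f : FK N, gal N 1 f = f := by
    intro f
    have h1 : sgal N 1 • f = f := by
      rw [show sgal N (1 : GQ) = 1 from map_one _, one_smul]
    exact h1
  obtain ⟨E, hE, h0, hst, hSE, hren⟩ := exists_level_renorm N hn O' hroot hconst S E0
  refine ⟨E, hE, h0, hst, fun x => hSE _ (hSh x), ?_, ?_, ?_⟩
  · -- additivity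
    intro x y
    obtain ⟨f, hf, hfD⟩ := hadd x y
    have hxy0 : h x * h y ≠ 0 := mul_ne_zero (hh0 x) (hh0 y)
    obtain ⟨u, hu, huO, huO', hord⟩ := hren (h (x + y)) (hSh _) (h x * h y) (hSm x y) 1 f hf
      (hh0 _) hxy0 (hhO _) (hhO' _)
      (by rw [hgal1]; exact O'.mul_mem (hhO x) (hhO y))
      (by rw [hgal1, mul_inv]; exact O'.mul_mem (hhO' x) (hhO' y))
      (fun v => by
        rw [hgal1, v.ord_mul (hh0 x) (hh0 y), ← hdiv, ← hdiv, ← hdiv, hfD v]
        ring)
    exact ⟨u, hu, huO, huO', fun v => by rw [hord v]; exact hfD v⟩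
  · -- zero
    obtain ⟨f, hf, hfD⟩ := hzero
    obtain ⟨u, hu, huO, huO', hord⟩ := hren (h 0) (hSh _) 1 hS1 1 f hf (hh0 _) one_ne_zero
      (hhO _) (hhO' _)
      (by rw [hgal1]; exact O'.one_mem)
      (by rw [hgal1, inv_one]; exact O'.one_mem)
      (fun v => by
        rw [hgal1, v.ord_one, ← hdiv, hfD v]
        ring)
    exact ⟨u, hu, huO, huO', fun v => by rw [hord v]; exact hfD v⟩
  · -- Galois
    intro σ hσ x
    obtain ⟨f, hf, hfD⟩ := hgal σ hσ x
    obtain ⟨u, hu, huO, huO', hord⟩ := hren (h (γ σ x)) (hSh _) (h x) (hSh x) σ f hf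
      (hh0 _) (hh0 x) (hhO _) (hhO' _) (hG σ hσ x).1 (hG σ hσ x).2
      (fun v => by
        have h1 : v.ord (gal N σ (h x)) = (n : ℤ) * (sgal N σ • D x) v := by
          rw [SemilinearAut.divisor_smul_apply, hdiv, ← sgal_smul]
          conv_lhs => rw [← smul_inv_smul (sgal N σ) v]
          exact SemilinearAut.ord_smul _ _ _
        rw [h1, ← hdiv, hfD v]
        ring)
    exact ⟨u, hu, huO, huO', fun v => by rw [hord v]; exact hfD v⟩

end

end Fermat.Agent.S33.helper2287
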