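import Fermat.Agent.S33.helper5528_DictEGeom
import Fermat.Agent.S19.helper2052_H1FreeAll
import Fermat.Agent.S19.helper2306_CechFG

/-!
# S33, leaf hG0 of (k) TORS (helper5528): one finite generating set for the chart `j` finite

For `N = p M`, `p` prime, `p ∤ M`: there is ONE finite set `G0 ⊆ ℚ̄(X₀(N))` (images of
`ℤ_(p)[j]`-module generators of the Prelude chart `chartAlgFin N p`) such that for EVERY valuation
subring `P` of `ℚ̄` over `p` and EVERY intermediate field `E`, the chart ring
`chartRing (OnFin j) (ball P N W E)` of the GeomSpec lies in the `(lvlRing P E)[j]`-module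
generated by `G0` (`exists_G0` = the binder `hG0` of `S19.helper5454.htors_of_isWitness`).

Proof: DICT-E in sum form (`mem_chart_cFin_iff`) + finite generation of the `ℤ_(p)`-chart over
`ℤ_(p)[j]` (`S19.helper2052.exists_generators_fin_all`).
-/

set_option autoImplicit false
set_option linter.unusedSectionVars false

noncomputable section

open ModularCurve ModularCurve.IgusaScheme AlgebraicCurve

namespace Fermat.Agent.S33.helper5528

open Fermat.Agent.S28 Fermat.Agent.S28.helper1588
open Fermat.Agent.S33.helper1085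
open Fermat.Agent.S19.helper9190 Fermat.Agent.S19.helper7154
open Fermat.Agent.S24.helper24

local notation "Qb" => AlgebraicClosure ℚ

theorem emb_algebraMap_zl (ℓ : ℕ) [Fact ℓ.Prime] (N : ℕ) [NeZero N] (r : Zl ℓ) :
    emb N (algebraMap (Zl ℓ) (FQ N) r) = cst N (algebraMap ℚ Qb (r : ℚ)) := by
  have h1 : algebraMap (Zl ℓ) (FQ N) r = ((r : ℚ) : FQ N) := by
    rw [← eq_ratCast (algebraMap ℚ (FQ N))]
    rfl
  rw [h1, map_ratCast, eq_ratCast]
  exact (map_ratCast (algebraMap Qb (FK N)) _).symm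

theorem emb_jFull_eq_jBar (N : ℕ) [NeZero N] : emb N (jFull N) = jBar N := jK_eq_jBar N

/-- A constant of `𝒪 ⊇ ℤ_(ℓ)` times (a `ℤ_(ℓ)`-polynomial in `j`) times an element of `G` lies in
the `𝒪[j]`-module generated by `G`. -/
theorem cst_mul_emb_aeval_mul_mem_jSpan (ℓ : ℕ) [Fact ℓ.Prime] (N : ℕ) [NeZero N]
    (𝒪 : Subring Qb) (h𝒪 : ∀ r : Zl ℓ, algebraMap ℚ Qb (r : ℚ) ∈ 𝒪) (G : Set (FK N)) {g : FK N}
    (hg : g ∈ G) {a : Qb} (ha : a ∈ 𝒪) (q : Polynomial (Zl ℓ)) :
    cst N a * (emb N (Polynomial.aeval (jFull N) q) * g) ∈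
      Fermat.Agent.S19.helper2306.jSpan 𝒪 (jBar N) G := by
  induction q using Polynomial.induction_on' with
  | add q1 q2 h1 h2 =>
      rw [map_add, map_add, add_mul, mul_add]
      exact add_mem h1 h2
  | monomial n r =>
      rw [Polynomial.aeval_monomial, map_mul, map_pow, emb_algebraMap_zl, emb_jFull_eq_jBar]
      have h2 : cst N a * (cst N (algebraMap ℚ Qb (r : ℚ)) * jBar N ^ n * g) =
          (⟨a * algebraMap ℚ Qb (r : ℚ), 𝒪.mul_mem ha (h𝒪 r)⟩ : 𝒪) • (jBar N ^ n * g) := by
        rw [Subring.smul_def, Algebra.smul_def, map_mul]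
        ring
      rw [h2]
      exact Submodule.smul_mem _ _ (Fermat.Agent.S19.helper2306.pow_mul_mem_jSpan (jBar N) hg n)

/-- **hG0 of (k) TORS**: one finite `G0`, uniform in `(P, E)`, generating the chart ring of the
chart `j` finite over `(lvlRing P E)[j]`. -/
theorem exists_G0 {p M : ℕ} [NeZero p] [NeZero M] [Fact p.Prime] (h : Nat.Coprime p M) :
    ∃ G0 : Finset (modularFunctionFieldBar (p * M)), ∀ (P : ValuationSubring Qb),
      P.LiesOverPrime p → ∀ (E : IntermediateField ℚ Qb),
        ∀ s ∈ Fermat.Agent.S19.helper5454.chartRing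
            (Fermat.Agent.S19.helper5454.OnFin (K := Qb) (jBar (p * M)))
            (ball P (p * M) (wAL h) E),
          s ∈ Fermat.Agent.S19.helper2306.jSpan (lvlRing P E) (jBar (p * M))
            (G0 : Set (modularFunctionFieldBar (p * M))) := by
  classical
  obtain ⟨m, ω, -, hgen⟩ := Fermat.Agent.S19.helper2052.exists_generators_fin_all p (p * M)
  refine ⟨Finset.univ.image (fun i => emb (p * M) (ω i)), fun P hP E s hs => ?_⟩
  obtain ⟨n, a, t, ha, ht, rfl⟩ := (mem_chart_cFin_iff h P hP E s).mp hs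
  refine Submodule.sum_mem _ fun k _ => ?_
  obtain ⟨q, hq⟩ := hgen (t k) (ht k)
  rw [hq, map_sum, Finset.mul_sum]
  refine Submodule.sum_mem _ fun i _ => ?_
  rw [map_mul]
  exact cst_mul_emb_aeval_mul_mem_jSpan p (p * M) (lvlRing P E)
    (fun r => ⟨algebraMap_mem_of_liesOverPrime P hP r.2, E.algebraMap_mem _⟩) _
    (Finset.mem_coe.mpr (Finset.mem_image_of_mem _ (Finset.mem_univ i))) (ha k) (q i)

end Fermat.Agent.S33.helper5528
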