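/-
S33-KUMMERDIV (helper7619): sub-leaf (i) of the S33 GeomSpec (helper1085): divisor representatives
of the classes of `K_n = kBoth A N n W` (FREEHALF, helper3511).

For every class `x ∈ K_n` we choose ONE `n`-Kummer function `hsel x` which is `≡ 1` at the Gauss
valuation of `A` and at its `W`-twin, with `hsel 0 = 1`, and put `Dsel x := (1/n) div (hsel x)`.

* (cls)  `mk_Dsel`        : the class of `Dsel x` is `x`;   `zsmul_Dsel` : `n • Dsel x = div (hsel x)`.
* (zero) `Dsel_zero`      : `Dsel 0 = 0`.
* (add)  `Dsel_add`       : `Dsel x + Dsel y = Dsel (x + y) + div t`, `t = corr (hsel x * hsel y)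
                            (hsel (x + y))` a TWO-SIDED Gauss unit, and `hsel x * hsel y =
                            hsel (x + y) * t ^ n` (an exact `n`-th power: constants are absorbed).
* (neg)  `Dsel_neg`       : `- Dsel x = Dsel (-x) + div t`.
* (gal)  `smul_Dsel`      : for `σ` in the decomposition group of `A` (and `W` commuting with the
                            arithmetic Galois action) `σ • Dsel x = Dsel (σ • x) + div t`,
                            `t = corr (σ • hsel x) (hsel (σ • x))` a two-sided Gauss unit.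
The correction unit is an explicit FUNCTION `corr` of the two Kummer functions, so that e.g. the
set of all corrections occurring for the (finite-level) Galois orbit of `hsel x` is finite.

The abstract core (`exists_root_unit`) is for two arbitrary valuation subrings of a function field
whose divisor-free elements are constants of a field with `n`-th roots.
-/
import Fermat.Agent.S33.helper3511_FreeHalf
import Fermat.Agent.S29.helper36_FunctionFieldL

set_option autoImplicit false

namespace Fermat.Agent.S33.helper7619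

open AlgebraicCurve ModularCurve
open Fermat.Agent.S29.helper8217
open Fermat.Agent.S34.helper584
open Fermat.Agent.S33.helper3511

noncomputable section

/-! ### Abstract core -/

section Abstract

variable {K F : Type*} [Field K] [Field F] [Algebra K F]

/-- In the value group of a valuation subring, `x ^ n = 1` forces `x = 1`. -/
theorem valuation_eq_one_of_pow {n : ℕ} (hn : n ≠ 0) (V : ValuationSubring F) {t : F}
    (h : V.valuation (t ^ n) = 1) : V.valuation t = 1 := by
  rw [map_pow] at h
  by_contra hne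
  rcases lt_or_gt_of_ne hne with h1 | h1
  · have h2 := pow_lt_one₀ zero_le h1 hn
    rw [h] at h2
    exact lt_irrefl _ h2
  · have h2 := one_lt_pow₀ h1 hn
    rw [h] at h2
    exact lt_irrefl _ h2

theorem valuation_inv_eq_one (V : ValuationSubring F) {t : F} (h : V.valuation t = 1) :
    V.valuation t⁻¹ = 1 := by
  rw [map_inv₀, h, inv_one]

variable [HasPrincipalDivisors K F]

/-- **Root lemma.** Two `n`-Kummer functions with the same class which are units at two valuation
subrings differ by the `n`-th power of a function which is a unit at both — provided the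
divisor-free functions are constants and the constants have `n`-th roots. -/
theorem exists_root_unit {n : ℕ} (hn : n ≠ 0)
    (hconst : ∀ c : F, (∀ v : Place K F, v.ord c = 0) → ∃ a : K, c = algebraMap K F a)
    (hroot : ∀ a : K, ∃ b : K, b ^ n = a)
    (V₁ V₂ : ValuationSubring F) {u u' : F} (hu : IsKummer K n u) (hu' : IsKummer K n u')
    (h1 : V₁.valuation u = 1) (h2 : V₂.valuation u = 1)
    (h1' : V₁.valuation u' = 1) (h2' : V₂.valuation u' = 1)
    (hcls : kummerClass K n u = kummerClass K n u') :
    ∃ t : F, t ≠ 0 ∧ u = u' * t ^ n ∧ V₁.valuation t = 1 ∧ V₂.valuation t = 1 := by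
  obtain ⟨w, c, hw, hc, hcv, he⟩ := (kummerClass_eq_iff hn hu hu').mp hcls
  obtain ⟨a, rfl⟩ := hconst c hcv
  obtain ⟨b, rfl⟩ := hroot a
  have hb : algebraMap K F b ≠ 0 := by
    intro hb0
    apply hc
    rw [map_pow, hb0, zero_pow hn]
  have hpow : (algebraMap K F b * w) ^ n = algebraMap K F (b ^ n) * w ^ n := by
    rw [mul_pow, map_pow]
  have hval : ∀ V : ValuationSubring F, V.valuation u = 1 → V.valuation u' = 1 →
      V.valuation (algebraMap K F b * w) = 1 := by
    intro V hV hV'
    apply valuation_eq_one_of_pow hn V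
    rw [hpow]
    have h3 : V.valuation u = V.valuation u' * V.valuation (algebraMap K F (b ^ n) * w ^ n) := by
      rw [← map_mul, ← he]
    rw [hV, hV', one_mul] at h3
    exact h3.symm
  exact ⟨algebraMap K F b * w, mul_ne_zero hb hw, by rw [hpow]; exact he, hval V₁ h1 h1',
    hval V₂ h2 h2'⟩

/-- The Kummer divisor of `u' * t ^ n`. -/
theorem kummerDivisor_mul_pow_self {n : ℕ} (hn : n ≠ 0) {u' t : F} (hu' : IsKummer K n u')
    (ht : t ≠ 0) :
    kummerDivisor K n (u' * t ^ n) = kummerDivisor K n u' + divOf K t := by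
  rw [kummerDivisor_mul hu' (isKummer_pow_self n ht), kummerDivisor_pow_self hn]

end Abstract

/-! ### The modular instance -/

section Modular

local notation "Qb" => AlgebraicClosure ℚ

variable (A : ValuationSubring Qb) (N n : ℕ)
  (W : modularFunctionFieldBar N ≃ₐ[Qb] modularFunctionFieldBar N)

/-- `h` is a representative of the class `x`: an `n`-Kummer function `≡ 1` at the Gauss valuation
of `A` and at its `W`-twin, with Kummer class `x`. -/
def IsRep [HasPrincipalDivisors Qb (modularFunctionFieldBar N)] (x : JZero N)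
    (h : modularFunctionFieldBar N) : Prop :=
  IsKummer Qb n h ∧ (gaussV A N).valuation (h - 1) < 1 ∧ (gaussV A N).valuation (W h - 1) < 1 ∧
    kummerClass Qb n h = x

/-- `t` is a two-sided Gauss unit. -/
def IsUnit2 (t : modularFunctionFieldBar N) : Prop :=
  (gaussV A N).valuation t = 1 ∧ (gaussV A N).valuation (W t) = 1

variable {A N n W}

theorem IsUnit2.ne_zero {t : modularFunctionFieldBar N} (h : IsUnit2 A N W t) : t ≠ 0 := by
  rintro rfl
  have h1 := h.1
  rw [map_zero] at h1
  exact zero_ne_one h1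

theorem IsUnit2.inv {t : modularFunctionFieldBar N} (h : IsUnit2 A N W t) :
    IsUnit2 A N W t⁻¹ :=
  ⟨valuation_inv_eq_one _ h.1, by rw [map_inv₀]; exact valuation_inv_eq_one _ h.2⟩

theorem IsUnit2.mul {t t' : modularFunctionFieldBar N} (h : IsUnit2 A N W t)
    (h' : IsUnit2 A N W t') : IsUnit2 A N W (t * t') :=
  ⟨by rw [map_mul, h.1, h'.1, one_mul], by rw [map_mul, map_mul, h.2, h'.2, one_mul]⟩

theorem isUnit2_one : IsUnit2 A N W (1 : modularFunctionFieldBar N) :=
  ⟨map_one _, by rw [map_one, map_one]⟩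

/-- A two-sided Gauss unit lies in the Gauss ring and in its `W`-twin, with its inverse. -/
theorem IsUnit2.mem {t : modularFunctionFieldBar N} (h : IsUnit2 A N W t) :
    t ∈ gaussV A N ∧ W t ∈ gaussV A N ∧ t⁻¹ ∈ gaussV A N ∧ W t⁻¹ ∈ gaussV A N :=
  ⟨(ValuationSubring.valuation_le_one_iff _ _).mp h.1.le,
    (ValuationSubring.valuation_le_one_iff _ _).mp h.2.le,
    (ValuationSubring.valuation_le_one_iff _ _).mp h.inv.1.le,
    (ValuationSubring.valuation_le_one_iff _ _).mp h.inv.2.le⟩

variable [HasPrincipalDivisors Qb (modularFunctionFieldBar N)]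

theorem mem_kBoth_iff_exists_isRep {x : JZero N} :
    x ∈ kBoth A N n W ↔ ∃ h, IsRep A N n W x h :=
  mem_kBoth_iff

theorem IsRep.mem_kBoth {x : JZero N} {h : modularFunctionFieldBar N} (hr : IsRep A N n W x h) :
    x ∈ kBoth A N n W :=
  mem_kBoth_iff.mpr ⟨h, hr⟩

theorem IsRep.isKummer {x : JZero N} {h : modularFunctionFieldBar N} (hr : IsRep A N n W x h) :
    IsKummer Qb n h := hr.1

theorem IsRep.kummerClass_eq {x : JZero N} {h : modularFunctionFieldBar N}
    (hr : IsRep A N n W x h) : kummerClass Qb n h = x := hr.2.2.2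

/-- A representative is a two-sided Gauss unit. -/
theorem IsRep.isUnit2 {x : JZero N} {h : modularFunctionFieldBar N} (hr : IsRep A N n W x h) :
    IsUnit2 A N W h :=
  ⟨valuation_eq_one_of_sub_one_lt _ hr.2.1, valuation_eq_one_of_sub_one_lt _ hr.2.2.1⟩

theorem isRep_zero_one : IsRep A N n W 0 1 :=
  ⟨isKummer_one n, valuation_one_sub_one_lt _, by rw [map_one]; exact valuation_one_sub_one_lt _,
    kummerClass_one n⟩

theorem IsRep.mul {x y : JZero N} {h h' : modularFunctionFieldBar N} (hr : IsRep A N n W x h)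
    (hr' : IsRep A N n W y h') : IsRep A N n W (x + y) (h * h') :=
  ⟨hr.1.mul hr'.1, valuation_mul_sub_one_lt _ hr.2.1 hr'.2.1,
    by rw [map_mul]; exact valuation_mul_sub_one_lt _ hr.2.2.1 hr'.2.2.1,
    by rw [kummerClass_mul hr.1 hr'.1, hr.2.2.2, hr'.2.2.2]⟩

theorem IsRep.inv {x : JZero N} {h : modularFunctionFieldBar N} (hr : IsRep A N n W x h) :
    IsRep A N n W (-x) h⁻¹ :=
  ⟨hr.1.inv, valuation_inv_sub_one_lt _ hr.2.1,
    by rw [map_inv₀]; exact valuation_inv_sub_one_lt _ hr.2.2.1,
    by rw [kummerClass_inv hr.1, hr.2.2.2]⟩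

/-- The arithmetic Galois action of the decomposition group of `A` maps representatives of `x` to
representatives of `σ • x` (for `W` commuting with the arithmetic Galois action). -/
theorem IsRep.smul {σ : Qb ≃ₐ[ℚ] Qb} (hσ : σ ∈ A.decompositionSubgroup ℚ)
    (hWσ : ∀ y : modularFunctionFieldBar N,
      W (arithmeticGalois (modularFunctionFieldFull N) σ • y) =
        arithmeticGalois (modularFunctionFieldFull N) σ • W y)
    {x : JZero N} {h : modularFunctionFieldBar N} (hr : IsRep A N n W x h) :
    IsRep A N n W (σ • x) (arithmeticGalois (modularFunctionFieldFull N) σ • h) := by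
  refine ⟨(isKummer_smul_iff _).mpr hr.1, gaussF_valuation_decomp_sub_one_lt A N hσ h hr.2.1, ?_,
    ?_⟩
  · rw [hWσ]
    exact gaussF_valuation_decomp_sub_one_lt A N hσ (W h) hr.2.2.1
  · rw [galois_smul_pic0_def, ← hr.2.2.2, smul_kummerClass]

/-- **Root lemma, modular form**: two representatives of the same class differ by the `n`-th power
of a two-sided Gauss unit. -/
theorem IsRep.exists_root [NeZero N] (hn : n ≠ 0) {x : JZero N}
    {u u' : modularFunctionFieldBar N} (hu : IsRep A N n W x u) (hu' : IsRep A N n W x u') :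
    ∃ t : modularFunctionFieldBar N, t ≠ 0 ∧ u = u' * t ^ n ∧ IsUnit2 A N W t := by
  have key := exists_root_unit (K := Qb) hn
    (fun c hcv => Fermat.Agent.S29.helper36.exists_algebraMap_eq_of_ord_eq_zero Qb N hcv)
    (fun a => IsAlgClosed.exists_pow_nat_eq a (Nat.pos_of_ne_zero hn))
    (gaussV A N) ((gaussV A N).comap (ringHomOf N W)) hu.1 hu'.1 hu.isUnit2.1
    ((valuation_comap_eq_one_iff _ _ _).mpr hu.isUnit2.2) hu'.isUnit2.1
    ((valuation_comap_eq_one_iff _ _ _).mpr hu'.isUnit2.2) (hu.2.2.2.trans hu'.2.2.2.symm)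
  obtain ⟨t, ht, he, h1, h2⟩ := key
  exact ⟨t, ht, he, h1, (valuation_comap_eq_one_iff _ _ _).mp h2⟩

variable (A N n W)

open Classical in
/-- The chosen representative of a class: `1` for `x = 0` (and outside `K_n`). -/
def hsel (x : JZero N) : modularFunctionFieldBar N :=
  if x = 0 then 1
  else if hx : x ∈ kBoth A N n W then Classical.choose (mem_kBoth_iff.mp hx) else 1

/-- The chosen divisor of a class: `(1/n) div (hsel x)`. -/
def Dsel (x : JZero N) : Divisor Qb (modularFunctionFieldBar N) :=
  kummerDivisor Qb n (hsel A N n W x)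

open Classical in
/-- The correction unit between two Kummer functions `u`, `u'` of the same class:
`u = u' * corr u u' ^ n` with `corr u u'` a two-sided Gauss unit (`1` if there is none). -/
def corr (u u' : modularFunctionFieldBar N) : modularFunctionFieldBar N :=
  if h : ∃ t : modularFunctionFieldBar N, t ≠ 0 ∧ u = u' * t ^ n ∧ IsUnit2 A N W t
  then Classical.choose h else 1

variable {A N n W}

@[simp]
theorem hsel_zero : hsel A N n W 0 = 1 := by
  unfold hsel
  rw [if_pos rfl]

theorem isRep_hsel {x : JZero N} (hx : x ∈ kBoth A N n W) : IsRep A N n W x (hsel A N n W x) := by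
  unfold hsel
  by_cases h0 : x = 0
  · rw [if_pos h0, h0]
    exact isRep_zero_one
  · rw [if_neg h0, dif_pos hx]
    exact Classical.choose_spec (mem_kBoth_iff.mp hx)

theorem isKummer_hsel (x : JZero N) : IsKummer Qb n (hsel A N n W x) := by
  unfold hsel
  by_cases h0 : x = 0
  · rw [if_pos h0]
    exact isKummer_one n
  · rw [if_neg h0]
    by_cases hx : x ∈ kBoth A N n W
    · rw [dif_pos hx]
      exact (Classical.choose_spec (mem_kBoth_iff.mp hx)).1
    · rw [dif_neg hx]
      exact isKummer_one n

theorem isUnit2_hsel {x : JZero N} (hx : x ∈ kBoth A N n W) : IsUnit2 A N W (hsel A N n W x) :=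
  (isRep_hsel hx).isUnit2

/-- (zero) `Dsel 0 = 0`. -/
@[simp]
theorem Dsel_zero : Dsel A N n W 0 = 0 := by
  unfold Dsel
  rw [hsel_zero]
  exact kummerDivisor_of_ord_eq_zero n fun v => v.ord_one

theorem Dsel_apply (x : JZero N) (v : Place Qb (modularFunctionFieldBar N)) :
    Dsel A N n W x v = v.ord (hsel A N n W x) / (n : ℤ) := rfl

/-- `n • Dsel x = div (hsel x)`. -/
theorem zsmul_Dsel (x : JZero N) :
    (n : ℤ) • Dsel A N n W x = divOf Qb (hsel A N n W x) :=
  zsmul_kummerDivisor (isKummer_hsel x)

theorem mul_Dsel_apply (x : JZero N) (v : Place Qb (modularFunctionFieldBar N)) :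
    (n : ℤ) * Dsel A N n W x v = v.ord (hsel A N n W x) :=
  (isKummer_hsel x).mul_ediv_cancel v

theorem Dsel_mem_degZero (x : JZero N) :
    Dsel A N n W x ∈ Divisor.degZero (K := Qb) (F := modularFunctionFieldBar N) :=
  kummerDivisor_mem_degZero (isKummer_hsel x)

/-- (cls) the class of `Dsel x` is `x`. -/
theorem mk_Dsel {x : JZero N} (hx : x ∈ kBoth A N n W) :
    Pic0.mk ⟨Dsel A N n W x, Dsel_mem_degZero x⟩ = x := by
  have h := (isRep_hsel hx).2.2.2
  rw [kummerClass_eq_mk (isKummer_hsel x)] at h
  exact h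

omit [HasPrincipalDivisors Qb (modularFunctionFieldBar N)] in
theorem corr_spec {u u' : modularFunctionFieldBar N}
    (h : ∃ t : modularFunctionFieldBar N, t ≠ 0 ∧ u = u' * t ^ n ∧ IsUnit2 A N W t) :
    corr A N n W u u' ≠ 0 ∧ u = u' * corr A N n W u u' ^ n ∧ IsUnit2 A N W (corr A N n W u u') := by
  unfold corr
  rw [dif_pos h]
  exact Classical.choose_spec h

/-- The correction between two representatives of one class. -/
theorem IsRep.corr_spec [NeZero N] (hn : n ≠ 0) {x : JZero N}
    {u u' : modularFunctionFieldBar N} (hu : IsRep A N n W x u) (hu' : IsRep A N n W x u') :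
    corr A N n W u u' ≠ 0 ∧ u = u' * corr A N n W u u' ^ n ∧ IsUnit2 A N W (corr A N n W u u') :=
  Fermat.Agent.S33.helper7619.corr_spec (hu.exists_root hn hu')

/-- The Kummer divisors of two representatives of one class differ by the divisor of `corr`. -/
theorem IsRep.kummerDivisor_eq [NeZero N] (hn : n ≠ 0) {x : JZero N}
    {u u' : modularFunctionFieldBar N} (hu : IsRep A N n W x u) (hu' : IsRep A N n W x u') :
    kummerDivisor Qb n u = kummerDivisor Qb n u' + divOf Qb (corr A N n W u u') := by
  obtain ⟨h0, he, -⟩ := hu.corr_spec hn hu'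
  conv_lhs => rw [he]
  exact kummerDivisor_mul_pow_self hn hu'.1 h0

variable [NeZero N]

/-- **(add)** `hsel x * hsel y = hsel (x + y) * t ^ n` and `Dsel x + Dsel y = Dsel (x + y) + div t`
with `t = corr (hsel x * hsel y) (hsel (x + y))` a two-sided Gauss unit. -/
theorem Dsel_add (hn : n ≠ 0) {x y : JZero N} (hx : x ∈ kBoth A N n W) (hy : y ∈ kBoth A N n W) :
    IsUnit2 A N W (corr A N n W (hsel A N n W x * hsel A N n W y) (hsel A N n W (x + y))) ∧
    hsel A N n W x * hsel A N n W y = hsel A N n W (x + y) *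
      corr A N n W (hsel A N n W x * hsel A N n W y) (hsel A N n W (x + y)) ^ n ∧
    Dsel A N n W x + Dsel A N n W y = Dsel A N n W (x + y) +
      divOf Qb (corr A N n W (hsel A N n W x * hsel A N n W y) (hsel A N n W (x + y))) := by
  have hxy : x + y ∈ kBoth A N n W := add_mem hx hy
  have h1 : IsRep A N n W (x + y) (hsel A N n W x * hsel A N n W y) :=
    (isRep_hsel hx).mul (isRep_hsel hy)
  have h2 := isRep_hsel hxy
  obtain ⟨-, he, hu⟩ := h1.corr_spec hn h2
  refine ⟨hu, he, ?_⟩
  have h3 := h1.kummerDivisor_eq hn h2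
  rw [kummerDivisor_mul (isKummer_hsel x) (isKummer_hsel y)] at h3
  exact h3

/-- **(neg)** `(hsel x)⁻¹ = hsel (-x) * t ^ n` and `- Dsel x = Dsel (-x) + div t` with
`t = corr (hsel x)⁻¹ (hsel (-x))` a two-sided Gauss unit. -/
theorem Dsel_neg (hn : n ≠ 0) {x : JZero N} (hx : x ∈ kBoth A N n W) :
    IsUnit2 A N W (corr A N n W (hsel A N n W x)⁻¹ (hsel A N n W (-x))) ∧
    (hsel A N n W x)⁻¹ = hsel A N n W (-x) *
      corr A N n W (hsel A N n W x)⁻¹ (hsel A N n W (-x)) ^ n ∧
    - Dsel A N n W x = Dsel A N n W (-x) +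
      divOf Qb (corr A N n W (hsel A N n W x)⁻¹ (hsel A N n W (-x))) := by
  have hx' : -x ∈ kBoth A N n W := neg_mem hx
  have h1 : IsRep A N n W (-x) (hsel A N n W x)⁻¹ := (isRep_hsel hx).inv
  have h2 := isRep_hsel hx'
  obtain ⟨-, he, hu⟩ := h1.corr_spec hn h2
  refine ⟨hu, he, ?_⟩
  have h3 := h1.kummerDivisor_eq hn h2
  rw [kummerDivisor_inv (isKummer_hsel x)] at h3
  exact h3

/-- **(gal)** for `σ` in the decomposition group of `A` (and `W` commuting with the arithmetic
Galois action): `σ • hsel x = hsel (σ • x) * t ^ n` and `σ • Dsel x = Dsel (σ • x) + div t` with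
`t = corr (σ • hsel x) (hsel (σ • x))` a two-sided Gauss unit. -/
theorem smul_Dsel (hn : n ≠ 0) {σ : Qb ≃ₐ[ℚ] Qb} (hσ : σ ∈ A.decompositionSubgroup ℚ)
    (hWσ : ∀ y : modularFunctionFieldBar N,
      W (arithmeticGalois (modularFunctionFieldFull N) σ • y) =
        arithmeticGalois (modularFunctionFieldFull N) σ • W y)
    {x : JZero N} (hx : x ∈ kBoth A N n W) :
    IsUnit2 A N W (corr A N n W (arithmeticGalois (modularFunctionFieldFull N) σ • hsel A N n W x)
      (hsel A N n W (σ • x))) ∧
    arithmeticGalois (modularFunctionFieldFull N) σ • hsel A N n W x = hsel A N n W (σ • x) *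
      corr A N n W (arithmeticGalois (modularFunctionFieldFull N) σ • hsel A N n W x)
        (hsel A N n W (σ • x)) ^ n ∧
    arithmeticGalois (modularFunctionFieldFull N) σ • Dsel A N n W x = Dsel A N n W (σ • x) +
      divOf Qb (corr A N n W (arithmeticGalois (modularFunctionFieldFull N) σ • hsel A N n W x)
        (hsel A N n W (σ • x))) := by
  have hx' : σ • x ∈ kBoth A N n W := smul_mem_kBoth hσ hWσ hx
  have h1 : IsRep A N n W (σ • x)
      (arithmeticGalois (modularFunctionFieldFull N) σ • hsel A N n W x) :=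
    (isRep_hsel hx).smul hσ hWσ
  have h2 := isRep_hsel hx'
  obtain ⟨-, he, hu⟩ := h1.corr_spec hn h2
  refine ⟨hu, he, ?_⟩
  have h3 := h1.kummerDivisor_eq hn h2
  rw [← smul_kummerDivisor] at h3
  exact h3

/-! ### Consumer shapes (GeomSpec (i) / helper2287 ROOTLEVEL): units WITH the exact identity
`u ^ n * (…) = hsel (…)` and the pointwise divisor relation `D (…) v = … + v.ord u`. -/

/-- (add), consumer shape: `u ^ n * (hsel x * hsel y) = hsel (x + y)`, `u` a two-sided Gauss unit,
`Dsel (x + y) v = Dsel x v + Dsel y v + v.ord u`. -/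
theorem exists_unit_add (hn : n ≠ 0) {x y : JZero N} (hx : x ∈ kBoth A N n W)
    (hy : y ∈ kBoth A N n W) :
    ∃ u : modularFunctionFieldBar N, u ≠ 0 ∧ IsUnit2 A N W u ∧
      u ^ n * (hsel A N n W x * hsel A N n W y) = hsel A N n W (x + y) ∧
      ∀ v : Place Qb (modularFunctionFieldBar N),
        Dsel A N n W (x + y) v = Dsel A N n W x v + Dsel A N n W y v + v.ord u := by
  obtain ⟨hu, he, hD⟩ := Dsel_add hn hx hy
  set t := corr A N n W (hsel A N n W x * hsel A N n W y) (hsel A N n W (x + y)) with ht
  have ht0 : t ≠ 0 := hu.ne_zero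
  refine ⟨t⁻¹, inv_ne_zero ht0, hu.inv, ?_, fun v => ?_⟩
  · rw [he, inv_pow, mul_comm (hsel A N n W (x + y)), inv_mul_cancel_left₀ (pow_ne_zero n ht0)]
  · have h1 := DFunLike.congr_fun hD v
    rw [Finsupp.add_apply, Finsupp.add_apply, divOf_apply] at h1
    rw [v.ord_inv]
    linarith

/-- (gal), consumer shape: for `σ` in the decomposition group of `A`,
`u ^ n * (σ • hsel x) = hsel (σ • x)`, `u` a two-sided Gauss unit,
`Dsel (σ • x) v = (σ • Dsel x) v + v.ord u`. -/
theorem exists_unit_smul (hn : n ≠ 0) {σ : Qb ≃ₐ[ℚ] Qb} (hσ : σ ∈ A.decompositionSubgroup ℚ)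
    (hWσ : ∀ y : modularFunctionFieldBar N,
      W (arithmeticGalois (modularFunctionFieldFull N) σ • y) =
        arithmeticGalois (modularFunctionFieldFull N) σ • W y)
    {x : JZero N} (hx : x ∈ kBoth A N n W) :
    ∃ u : modularFunctionFieldBar N, u ≠ 0 ∧ IsUnit2 A N W u ∧
      u ^ n * (arithmeticGalois (modularFunctionFieldFull N) σ • hsel A N n W x)
        = hsel A N n W (σ • x) ∧
      ∀ v : Place Qb (modularFunctionFieldBar N),
        Dsel A N n W (σ • x) v =
          (arithmeticGalois (modularFunctionFieldFull N) σ • Dsel A N n W x) v + v.ord u := by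
  obtain ⟨hu, he, hD⟩ := smul_Dsel hn hσ hWσ hx
  set t := corr A N n W (arithmeticGalois (modularFunctionFieldFull N) σ • hsel A N n W x)
    (hsel A N n W (σ • x)) with ht
  have ht0 : t ≠ 0 := hu.ne_zero
  refine ⟨t⁻¹, inv_ne_zero ht0, hu.inv, ?_, fun v => ?_⟩
  · rw [he, inv_pow, mul_comm (hsel A N n W (σ • x)), inv_mul_cancel_left₀ (pow_ne_zero n ht0)]
  · have h1 := DFunLike.congr_fun hD v
    rw [Finsupp.add_apply, divOf_apply] at h1
    rw [v.ord_inv]
    linarith

/-- (neg), consumer shape. -/
theorem exists_unit_neg (hn : n ≠ 0) {x : JZero N} (hx : x ∈ kBoth A N n W) :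
    ∃ u : modularFunctionFieldBar N, u ≠ 0 ∧ IsUnit2 A N W u ∧
      u ^ n * (hsel A N n W x)⁻¹ = hsel A N n W (-x) ∧
      ∀ v : Place Qb (modularFunctionFieldBar N),
        Dsel A N n W (-x) v = - Dsel A N n W x v + v.ord u := by
  obtain ⟨hu, he, hD⟩ := Dsel_neg hn hx
  set t := corr A N n W (hsel A N n W x)⁻¹ (hsel A N n W (-x)) with ht
  have ht0 : t ≠ 0 := hu.ne_zero
  refine ⟨t⁻¹, inv_ne_zero ht0, hu.inv, ?_, fun v => ?_⟩
  · rw [he, inv_pow, mul_comm (hsel A N n W (-x)), inv_mul_cancel_left₀ (pow_ne_zero n ht0)]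
  · have h1 := DFunLike.congr_fun hD v
    rw [Finsupp.neg_apply, Finsupp.add_apply, divOf_apply] at h1
    rw [v.ord_inv]
    linarith

end Modular

/-! ### The Atkin–Lehner instance at level `q * M` (`K_n = kBoth A (q * M) n W_q`, GeomSpec `Kn`) -/

section AtkinLehner

local notation "Qb" => AlgebraicClosure ℚ

open Fermat.Agent.S35.helper1219

variable {q M : ℕ} [NeZero q] [NeZero M] (h : Nat.Coprime q M)
  [HasPrincipalDivisors Qb (modularFunctionFieldBar (q * M))]
  {A : ValuationSubring Qb} {n : ℕ}

/-- (gal) at level `q * M` for the Atkin–Lehner involution: the commutation hypothesis is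
discharged. -/
theorem smul_Dsel_atkinLehner (hn : n ≠ 0) {σ : Qb ≃ₐ[ℚ] Qb}
    (hσ : σ ∈ A.decompositionSubgroup ℚ) {x : JZero (q * M)}
    (hx : x ∈ kBoth A (q * M) n (atkinLehnerBar q M h)) :
    IsUnit2 A (q * M) (atkinLehnerBar q M h)
        (corr A (q * M) n (atkinLehnerBar q M h)
          (arithmeticGalois (modularFunctionFieldFull (q * M)) σ •
            hsel A (q * M) n (atkinLehnerBar q M h) x)
          (hsel A (q * M) n (atkinLehnerBar q M h) (σ • x))) ∧
      arithmeticGalois (modularFunctionFieldFull (q * M)) σ •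
          hsel A (q * M) n (atkinLehnerBar q M h) x =
        hsel A (q * M) n (atkinLehnerBar q M h) (σ • x) *
          corr A (q * M) n (atkinLehnerBar q M h)
            (arithmeticGalois (modularFunctionFieldFull (q * M)) σ •
              hsel A (q * M) n (atkinLehnerBar q M h) x)
            (hsel A (q * M) n (atkinLehnerBar q M h) (σ • x)) ^ n ∧
      arithmeticGalois (modularFunctionFieldFull (q * M)) σ •
          Dsel A (q * M) n (atkinLehnerBar q M h) x =
        Dsel A (q * M) n (atkinLehnerBar q M h) (σ • x) +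
          divOf Qb (corr A (q * M) n (atkinLehnerBar q M h)
            (arithmeticGalois (modularFunctionFieldFull (q * M)) σ •
              hsel A (q * M) n (atkinLehnerBar q M h) x)
            (hsel A (q * M) n (atkinLehnerBar q M h) (σ • x))) :=
  smul_Dsel hn hσ (atkinLehnerBar_arithmeticGalois_smul q M h σ) hx

/-- (gal), consumer shape, at level `q * M` for the Atkin–Lehner involution. -/
theorem exists_unit_smul_atkinLehner (hn : n ≠ 0) {σ : Qb ≃ₐ[ℚ] Qb}
    (hσ : σ ∈ A.decompositionSubgroup ℚ) {x : JZero (q * M)}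
    (hx : x ∈ kBoth A (q * M) n (atkinLehnerBar q M h)) :
    ∃ u : modularFunctionFieldBar (q * M), u ≠ 0 ∧ IsUnit2 A (q * M) (atkinLehnerBar q M h) u ∧
      u ^ n * (arithmeticGalois (modularFunctionFieldFull (q * M)) σ •
          hsel A (q * M) n (atkinLehnerBar q M h) x)
        = hsel A (q * M) n (atkinLehnerBar q M h) (σ • x) ∧
      ∀ v : Place Qb (modularFunctionFieldBar (q * M)),
        Dsel A (q * M) n (atkinLehnerBar q M h) (σ • x) v =
          (arithmeticGalois (modularFunctionFieldFull (q * M)) σ •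
            Dsel A (q * M) n (atkinLehnerBar q M h) x) v + v.ord u :=
  exists_unit_smul hn hσ (atkinLehnerBar_arithmeticGalois_smul q M h σ) hx

/-- The representative of `σ • x` is a representative obtained by transport: `σ • hsel x` is a
representative of `σ • x` (decomposition group, Atkin–Lehner involution). -/
theorem isRep_smul_hsel_atkinLehner {σ : Qb ≃ₐ[ℚ] Qb}
    (hσ : σ ∈ A.decompositionSubgroup ℚ) {x : JZero (q * M)}
    (hx : x ∈ kBoth A (q * M) n (atkinLehnerBar q M h)) :
    IsRep A (q * M) n (atkinLehnerBar q M h) (σ • x)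
      (arithmeticGalois (modularFunctionFieldFull (q * M)) σ •
        hsel A (q * M) n (atkinLehnerBar q M h) x) :=
  (isRep_hsel hx).smul hσ (atkinLehnerBar_arithmeticGalois_smul q M h σ)

end AtkinLehner


end

end Fermat.Agent.S33.helper7619
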