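import Fermat.Agent.S35.helper1928_TwoValBasis
import Fermat.Agent.S35.helper882_TwoValKit
import Fermat.Agent.S28.helper1588_Core
import Fermat.Agent.S28.helper559_TowerFromPrime
import Fermat.Agent.Lib.helper1356_Gamma0Index
import Fermat.Agent.Lib.helper54_Frobenius
import Fermat.Agent.S19.helper9190_SpecC

/-!
# S33-SAT2 (helper8997): two-chart saturation of the Prelude charts at a prime `ℓ ∥ ℓ M`

WIP
-/

set_option autoImplicit false

noncomputable section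

namespace Fermat.Agent.S33.helper8997

open ModularCurve ModularCurve.IgusaScheme Polynomial
open Fermat.Agent.S28
open Fermat.Agent.S24.helper24

local notation "Zl" => Fermat.Agent.S28.Spec.Zl

/-! ### The monomial generators -/

section Gen

open Fermat.Agent.S28.helper1595

/-- The prime-level relations hold at every prime (landed S28). -/
theorem primeRelZ_all (N : ℕ) :
    ∀ (p : ℕ) [NeZero p], p.Prime → p ∣ N → PrimeRelZ p := by
  intro p _ hp _
  haveI : Fact p.Prime := ⟨hp⟩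
  exact Fermat.Agent.S28.helper28.primeRel_int p (Fermat.Agent.S28.helper508.stmt_FormalPrime p)

theorem genZ_mono {N N' : ℕ} (h : N ∣ N') : genZ N ⊆ genZ N' := by
  rintro x ⟨d, hd, hdN, rfl⟩
  exact ⟨d, hd, hdN.trans h, rfl⟩

theorem closure_genZ_mono {N N' : ℕ} (h : N ∣ N') :
    Submonoid.closure (genZ N) ≤ Submonoid.closure (genZ N') :=
  Submonoid.closure_mono (genZ_mono h)

theorem qExpand_mem_closure_genZ (ℓ M : ℕ) [NeZero ℓ] {x : LaurentSeries ℤ}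
    (hx : x ∈ Submonoid.closure (genZ M)) :
    qExpand ℤ ℓ x ∈ Submonoid.closure (genZ (ℓ * M)) := by
  induction hx using Submonoid.closure_induction with
  | mem x hx =>
    obtain ⟨d, hd, hdM, rfl⟩ := hx
    haveI := hd
    rw [qExpand_qExpand]
    exact Submonoid.subset_closure ⟨ℓ * d, inferInstance, Nat.mul_dvd_mul_left ℓ hdM, rfl⟩
  | one => rw [map_one]; exact one_mem _
  | mul x y _ _ hx hy => rw [map_mul]; exact mul_mem hx hy

theorem jq_mem_closure_genZ (N : ℕ) : jqModC ℤ ∈ Submonoid.closure (genZ N) :=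
  Submonoid.subset_closure ⟨1, inferInstance, one_dvd N, (qExpand_one_apply _).symm⟩

theorem jqExp_mem_closure_genZ (ℓ M : ℕ) [NeZero ℓ] :
    qExpand ℤ ℓ (jqModC ℤ) ∈ Submonoid.closure (genZ (ℓ * M)) :=
  Submonoid.subset_closure ⟨ℓ, inferInstance, dvd_mul_right ℓ M, rfl⟩

end Gen

/-! ### The two-chart family over `ℚ` -/

section Family

open Fermat.Agent.S28.helper1595 Fermat.Agent.S35.helper1928

variable (ℓ M : ℕ) [NeZero ℓ] {n : ℕ} (b : Fin n → LaurentSeries ℤ)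

/-- The two-chart family consists of integer series integral over `ℤ[j]`. -/
theorem famInf_integral (hb : ∀ i, b i ∈ Submonoid.closure (genZ M)) (e : TwoIdx ℓ n) :
    Spec.IsIntegralOverZj (famInf ℓ b e) := by
  have hint : ∀ {x : LaurentSeries ℤ}, x ∈ Submonoid.closure (genZ (ℓ * M)) →
      ((Polynomial.aeval (jqModC ℤ) : Polynomial ℤ →ₐ[ℤ] LaurentSeries ℤ).toRingHom).IsIntegralElem
        x :=
    fun hx => (isIntegralOverZj_iff _).mp (isIntegral_of_mem_closure (ℓ * M) (primeRelZ_all _) hx)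
  rw [isIntegralOverZj_iff]
  rcases e with i | ⟨a, i⟩
  · exact hint (closure_genZ_mono (dvd_mul_left M ℓ) (hb i))
  · rw [famInf_inr, kronInf]
    refine RingHom.IsIntegralElem.mul _ (RingHom.IsIntegralElem.mul _
      (RingHom.IsIntegralElem.sub _ (hint (jqExp_mem_closure_genZ ℓ M))
        (hint (pow_mem (jq_mem_closure_genZ _) ℓ)))
      (hint (pow_mem (jqExp_mem_closure_genZ ℓ M) a)))
      (hint (qExpand_mem_closure_genZ ℓ M (hb i)))

/-- The two-chart family lies in the function field `ℚ(X₀(ℓ M))`. -/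
theorem toQ_famInf_mem (hb : ∀ i, b i ∈ Submonoid.closure (genZ M)) (e : TwoIdx ℓ n) :
    Spec.toQ (famInf ℓ b e) ∈ modularFunctionFieldFull (ℓ * M) := by
  have hmem : ∀ {x : LaurentSeries ℤ}, x ∈ Submonoid.closure (genZ (ℓ * M)) →
      Spec.toQ x ∈ modularFunctionFieldFull (ℓ * M) :=
    fun hx => toQ_mem_full_of_mem_closure (ℓ * M) hx
  rcases e with i | ⟨a, i⟩
  · exact hmem (closure_genZ_mono (dvd_mul_left M ℓ) (hb i))
  · rw [famInf_inr, kronInf, map_mul, map_mul, map_sub]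
    exact mul_mem (mul_mem (sub_mem (hmem (jqExp_mem_closure_genZ ℓ M))
      (hmem (pow_mem (jq_mem_closure_genZ _) ℓ)))
      (hmem (pow_mem (jqExp_mem_closure_genZ ℓ M) a)))
      (hmem (qExpand_mem_closure_genZ ℓ M (hb i)))

end Family

/-! ### The `ℤ[j]`-relation and its `ℓ`-adic descent -/

section Descent

open Fermat.Agent.S28.helper1588 Fermat.Agent.S35.helper1928 Fermat.Agent.S18.helper508

variable (ℓ M : ℕ) [Fact ℓ.Prime] [NeZero M] (hℓM : ¬ ℓ ∣ M)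

/-- The relation `c₀(j) · y + ∑ c_e(j) · b_e = 0` in `ℚ((q))`, `b_e` the two-chart family
(expansions at `∞`), coefficients `c₀, c_e ∈ ℤ[X]`. -/
def Rel (y : LaurentSeries ℚ) (C : Option (TwoIdx ℓ (dedekindPsi M)) → ℤ[X]) : Prop :=
  aeval jq (C none) * y +
    ∑ e, aeval jq (C (some e)) * Spec.toQ (famInf ℓ (gaussBasis M ℓ hℓM) e) = 0

variable {ℓ M hℓM}

/-- The relation, read in the function field `ℚ̄(X₀(ℓ M))`. -/
theorem rel_bar {y : LaurentSeries ℚ} {f : FN (ℓ * M)}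
    (hf : (f : LaurentSeries Kbar) = coeffEmb Kbar y)
    {C : Option (TwoIdx ℓ (dedekindPsi M)) → ℤ[X]} (h : Rel ℓ M hℓM y C) :
    aeval (jBar (ℓ * M)) ((C none).map (Int.castRingHom Kbar)) * f +
      ∑ e, aeval (jBar (ℓ * M)) ((C (some e)).map (Int.castRingHom Kbar)) *
        twoBasis ℓ M hℓM e = 0 := by
  have h' : aeval jq (C none) * y +
      ∑ e, aeval jq (C (some e)) * Spec.toQ (famInf ℓ (gaussBasis M ℓ hℓM) e) = 0 := h
  refine Subtype.ext ?_
  rw [IntermediateField.coe_add, IntermediateField.coe_mul, IntermediateField.coe_sum,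
    coe_aeval, coe_jBar_eq, hf, IntermediateField.coe_zero]
  rw [← map_zero (coeffEmb Kbar), ← h', map_add, map_mul, map_sum, coeffEmb_aeval_jq]
  congr 1
  refine Finset.sum_congr rfl fun e _ => ?_
  rw [IntermediateField.coe_mul, coe_aeval, coe_jBar_eq, coe_twoBasis, map_mul,
    coeffEmb_aeval_jq, coeffEmb_toQ]

variable (A : ValuationSubring Kbar) (hA : (ℓ : Kbar) ∈ A.nonunits)

theorem map_map_subtype (p : ℤ[X]) :
    (p.map (Int.castRingHom A)).map A.subtype = p.map (Int.castRingHom Kbar) := by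
  rw [Polynomial.map_map]
  congr 1

include hA in
/-- **Key step of the descent.**  If `y` is integral for both Gauss valuations and `c₀ ≡ 0`
mod `ℓ`, then all `c_e ≡ 0` mod `ℓ` (two-chart orthonormality, `helper1928.key_reduction`). -/
theorem map_eq_zero_of_none {y : LaurentSeries ℚ} {f : FN (ℓ * M)}
    (hf : (f : LaurentSeries Kbar) = coeffEmb Kbar y)
    (h1 : (vInf ℓ M A).valuation f ≤ 1)
    (h2 : (vInf ℓ M A).valuation (wAL ℓ M hℓM f) ≤ 1)
    {C : Option (TwoIdx ℓ (dedekindPsi M)) → ℤ[X]} (h : Rel ℓ M hℓM y C)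
    (h0 : (C none).map (Int.castRingHom (ZMod ℓ)) = 0) :
    ∀ e, (C (some e)).map (Int.castRingHom (ZMod ℓ)) = 0 := by
  obtain ⟨d₀, hd₀⟩ := exists_eq_C_mul ℓ (C none) h0
  have hbar := rel_bar hf h
  set g : FN (ℓ * M) := ∑ e, aeval (jBar (ℓ * M)) ((C (some e)).map (Int.castRingHom Kbar)) *
    twoBasis ℓ M hℓM e with hg
  have hg' : g = -((ℓ : FN (ℓ * M)) *
      aeval (jBar (ℓ * M)) ((d₀.map (Int.castRingHom A)).map A.subtype) * f) := by
    have e1 : (C none).map (Int.castRingHom Kbar) =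
        Polynomial.C (ℓ : Kbar) * (d₀.map (Int.castRingHom A)).map A.subtype := by
      rw [hd₀, Polynomial.map_mul, Polynomial.map_C, map_map_subtype]
      simp
    rw [e1, map_mul, aeval_C, map_natCast] at hbar
    linear_combination hbar
  have hℓlt : (vInf ℓ M A).valuation (ℓ : FN (ℓ * M)) < 1 := by
    have h3 := val_algebraMap_lt_one ℓ M A hA
    rwa [map_natCast] at h3
  have hv1 : (vInf ℓ M A).valuation g < 1 := by
    rw [hg', Valuation.map_neg, map_mul, map_mul]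
    exact lt_of_le_of_lt
      (mul_le_mul' (mul_le_mul' le_rfl (val_aeval_jBar ℓ M A _).1) h1)
      (by rwa [mul_one, mul_one])
  have hv2 : (vInf ℓ M A).valuation (wAL ℓ M hℓM g) < 1 := by
    rw [hg', map_neg, map_mul, map_mul, map_natCast, Valuation.map_neg, map_mul, map_mul]
    exact lt_of_le_of_lt
      (mul_le_mul' (mul_le_mul' le_rfl (val_wAL_aeval_jBar ℓ M hℓM A _).1) h2)
      (by rwa [mul_one, mul_one])
  have key := key_reduction ℓ M hℓM A hA (fun e => (C (some e)).map (Int.castRingHom A)) 1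
    (by rw [Polynomial.map_one]; exact one_ne_zero) g
    (by
      rw [Polynomial.map_one, map_one, mul_one, hg]
      refine Finset.sum_congr rfl fun e _ => ?_
      rw [map_map_subtype]) hv1 hv2
  have hchar := charP_residueField ℓ A hA
  intro e
  ext i
  have h3 := congrArg (fun p : (IsLocalRing.ResidueField A)[X] => p.coeff i) (key e)
  simp only [coeff_map, coeff_zero, eq_intCast, map_intCast] at h3 ⊢
  exact (ZMod.intCast_zmod_eq_zero_iff_dvd _ _).mpr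
    ((CharP.intCast_eq_zero_iff (IsLocalRing.ResidueField A) ℓ _).mp h3)

include hA in
/-- **Descent.**  A nonzero relation can be made primitive at `c₀`. -/
theorem exists_rel_ne_zero_mod {y : LaurentSeries ℚ} {f : FN (ℓ * M)}
    (hf : (f : LaurentSeries Kbar) = coeffEmb Kbar y)
    (h1 : (vInf ℓ M A).valuation f ≤ 1)
    (h2 : (vInf ℓ M A).valuation (wAL ℓ M hℓM f) ≤ 1) :
    ∀ (m : ℕ) (C : Option (TwoIdx ℓ (dedekindPsi M)) → ℤ[X])
      (i : Option (TwoIdx ℓ (dedekindPsi M))) (k : ℕ),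
      ((C i).coeff k).natAbs = m → m ≠ 0 → Rel ℓ M hℓM y C →
      ∃ C' : Option (TwoIdx ℓ (dedekindPsi M)) → ℤ[X],
        (C' none).map (Int.castRingHom (ZMod ℓ)) ≠ 0 ∧ Rel ℓ M hℓM y C' := by
  intro m
  induction m using Nat.strong_induction_on with
  | _ m ih =>
    intro C i k hm hm0 hrel
    by_cases h0 : (C none).map (Int.castRingHom (ZMod ℓ)) = 0
    swap
    · exact ⟨C, h0, hrel⟩
    have hall : ∀ i : Option (TwoIdx ℓ (dedekindPsi M)),
        (C i).map (Int.castRingHom (ZMod ℓ)) = 0 := by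
      intro i
      cases i with
      | none => exact h0
      | some e => exact map_eq_zero_of_none A hA hf h1 h2 hrel h0 e
    choose C₁ hC₁ using fun i => exists_eq_C_mul ℓ (C i) (hall i)
    have hrel' : aeval jq (C none) * y +
        ∑ e, aeval jq (C (some e)) * Spec.toQ (famInf ℓ (gaussBasis M ℓ hℓM) e) = 0 := hrel
    have hrel₁ : Rel ℓ M hℓM y C₁ := by
      have : (ℓ : LaurentSeries ℚ) * (aeval jq (C₁ none) * y +
          ∑ e, aeval jq (C₁ (some e)) * Spec.toQ (famInf ℓ (gaussBasis M ℓ hℓM) e)) = 0 := by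
        rw [mul_add, Finset.mul_sum]
        refine Eq.trans ?_ hrel'
        congr 1
        · rw [hC₁ none, aeval_C_natCast_mul]; ring
        · refine Finset.sum_congr rfl (fun e _ => ?_)
          rw [hC₁ (some e), aeval_C_natCast_mul]; ring
      exact (mul_eq_zero.mp this).resolve_left (natCast_ne_zero_LS ℓ)
    have hcoeff : (C i).coeff k = (ℓ : ℤ) * (C₁ i).coeff k := by
      conv_lhs => rw [hC₁ i]
      rw [Polynomial.coeff_C_mul]
    have hm' : ℓ * ((C₁ i).coeff k).natAbs = m := by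
      rw [← hm, hcoeff, Int.natAbs_mul, Int.natAbs_natCast]
    have h2' := (Fact.out : ℓ.Prime).two_le
    have ht0 : ((C₁ i).coeff k).natAbs ≠ 0 := by
      intro h; rw [h, mul_zero] at hm'; exact hm0 hm'.symm
    have hlt : ((C₁ i).coeff k).natAbs < m := by
      have := Nat.pos_of_ne_zero ht0
      nlinarith
    exact ih _ hlt C₁ i k rfl ht0 hrel₁

variable (ℓ M hℓM)

/-- A nonzero relation exists (degree bound `[ℚ(X₀(ℓ M)) : ℚ(j)] ≤ ψ(ℓ M) = (ℓ + 1) ψ(M)`). -/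
theorem exists_rel (y : LaurentSeries ℚ) (hy : y ∈ modularFunctionFieldFull (ℓ * M)) :
    ∃ C : Option (TwoIdx ℓ (dedekindPsi M)) → ℤ[X], C ≠ 0 ∧ Rel ℓ M hℓM y C := by
  classical
  have hdeg := helper559.degLE_of_formalPrime (ℓ * M)
    (fun p _ _ => Fermat.Agent.S28.helper508.stmt_FormalPrime p)
  have hcard : Fintype.card (TwoIdx ℓ (dedekindPsi M)) = dedekindPsi (ℓ * M) := by
    rw [mul_comm ℓ M, Fermat.Agent.Lib.helper1356.dedekindPsi_mul_prime_of_not_dvd Fact.out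
      (NeZero.ne M) hℓM]
    simp only [Fintype.card_sum, Fintype.card_fin, Fintype.card_prod]
    ring
  let φ : Fin (dedekindPsi (ℓ * M)) ≃ TwoIdx ℓ (dedekindPsi M) :=
    (Fintype.equivFinOfCardEq hcard).symm
  obtain ⟨c, hc0, hrel⟩ := hdeg
    (Fin.cons y (fun i => Spec.toQ (famInf ℓ (gaussBasis M ℓ hℓM) (φ i)))) (by
      intro i
      refine Fin.cases ?_ (fun i => ?_) i
      · simpa using hy
      · simpa using toQ_famInf_mem ℓ M _ (gaussBasis_mem M ℓ hℓM) (φ i))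
  rw [Fin.sum_univ_succ] at hrel
  simp only [Fin.cons_zero, Fin.cons_succ] at hrel
  refine ⟨fun o => Option.elim o (c 0) (fun e => c (φ.symm e).succ), ?_, ?_⟩
  · intro h
    apply hc0
    funext i
    refine Fin.cases ?_ (fun i => ?_) i
    · exact congrFun h none
    · have h3 := congrFun h (some (φ i))
      simpa using h3
  · show aeval jq (c 0) * y + ∑ e, aeval jq (c (φ.symm e).succ) *
      Spec.toQ (famInf ℓ (gaussBasis M ℓ hℓM) e) = 0
    rw [← hrel]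
    congr 1
    rw [← Equiv.sum_comp φ]
    simp only [Equiv.symm_apply_apply]

include hA in
/-- **Two-chart saturation, finite chart, series form.**  If `y ∈ ℚ(X₀(ℓ M))` is integral for
both Gauss valuations (`v_∞` and `v_0 = v_∞ ∘ W_ℓ`) of a valuation ring `A` of `ℚ̄` over `ℓ`, and
`ℓ y` is integral over `ℤ_(ℓ)[j]`, then so is `y`. -/
theorem sat2_fin_LS (y : LaurentSeries ℚ) (hyF : y ∈ modularFunctionFieldFull (ℓ * M))
    (f : FN (ℓ * M)) (hf : (f : LaurentSeries Kbar) = coeffEmb Kbar y)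
    (h1 : (vInf ℓ M A).valuation f ≤ 1)
    (h2 : (vInf ℓ M A).valuation (wAL ℓ M hℓM f) ≤ 1)
    (hy : (evalS ℓ jq).IsIntegralElem ((ℓ : LaurentSeries ℚ) * y)) :
    (evalS ℓ jq).IsIntegralElem y := by
  obtain ⟨C, hC0, hrel⟩ := exists_rel ℓ M hℓM y hyF
  obtain ⟨i, k, hik⟩ : ∃ i k, (C i).coeff k ≠ 0 := by
    by_contra hcon
    refine hC0 (funext fun i => Polynomial.ext fun k => ?_)
    by_contra hne
    exact hcon ⟨i, k, hne⟩
  obtain ⟨C', hC'0, hrel'⟩ := exists_rel_ne_zero_mod A hA hf h1 h2 _ C i k rfl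
    (Int.natAbs_ne_zero.mpr hik) hrel
  have hrel'' : aeval jq (C' none) * y +
      ∑ e, aeval jq (C' (some e)) * Spec.toQ (famInf ℓ (gaussBasis M ℓ hℓM) e) = 0 := hrel'
  refine isIntegralElem_of_scaled_Zl ℓ jq
    (by rw [← jqModC_rat]; exact helper3292.aeval_jqModC_injective ℚ) y
    ((C' none).map (Int.castRingHom (Zl ℓ))) ?_ hy ?_
  · rw [Polynomial.map_map]
    have : (resZl ℓ).comp (Int.castRingHom (Zl ℓ)) = Int.castRingHom (ZMod ℓ) :=
      RingHom.ext_int _ _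
    rw [this]; exact hC'0
  · rw [evalS_map_int]
    have : Polynomial.aeval jq (C' none) * y =
        -∑ e, Polynomial.aeval jq (C' (some e)) *
          Spec.toQ (famInf ℓ (gaussBasis M ℓ hℓM) e) := by
      linear_combination hrel''
    rw [this]
    refine RingHom.IsIntegralElem.neg _ (isIntegralElem_sum _ _ _ (fun e _ =>
      RingHom.IsIntegralElem.mul _ ?_ (isIntegralElem_toQ ℓ _
        (famInf_integral ℓ M _ (gaussBasis_mem M ℓ hℓM) e))))
    rw [← evalS_map_int ℓ]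
    exact RingHom.isIntegralElem_map _

end Descent

/-! ### The three Prelude charts -/

section Charts

open Fermat.Agent.S28.helper1588 Fermat.Agent.S35.helper1928 Fermat.Agent.S18.helper508

variable (ℓ M : ℕ) [Fact ℓ.Prime] [NeZero M] (hℓM : ¬ ℓ ∣ M)
variable (A : ValuationSubring Kbar) (hA : (ℓ : Kbar) ∈ A.nonunits)

omit [Fact ℓ.Prime] [NeZero M] in
theorem val_jBar_le_one : (vInf ℓ M A).valuation (jBar (ℓ * M)) ≤ 1 := by
  have h := (val_aeval_jBar ℓ M A (X : A[X])).1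
  rwa [Polynomial.map_X, aeval_X] at h

theorem val_wAL_jBar_le_one : (vInf ℓ M A).valuation (wAL ℓ M hℓM (jBar (ℓ * M))) ≤ 1 := by
  have h := (val_wAL_aeval_jBar ℓ M hℓM A (X : A[X])).1
  rwa [Polynomial.map_X, aeval_X] at h

include hA in
/-- **(SAT2), finite chart** `chartAlgFin (ℓ M) ℓ` (`ℓ ∤ M`): if `y ∈ ℚ(X₀(ℓ M))` is integral
for both Gauss valuations of `A ∣ ℓ` (`f` = the image of `y` in `ℚ̄(X₀(ℓ M))`) and `ℓ y` lies in
the chart, then `y` lies in the chart. -/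
theorem sat2_fin (y : ↥(modularFunctionFieldFull (ℓ * M))) (f : FN (ℓ * M))
    (hf : (f : LaurentSeries Kbar) = coeffEmb Kbar (y : LaurentSeries ℚ))
    (h1 : (vInf ℓ M A).valuation f ≤ 1)
    (h2 : (vInf ℓ M A).valuation (wAL ℓ M hℓM f) ≤ 1)
    (hy : (ℓ : ↥(modularFunctionFieldFull (ℓ * M))) * y ∈
      chartAlg (ℓ * M) ℓ {jFull (ℓ * M)}) :
    y ∈ chartAlg (ℓ * M) ℓ {jFull (ℓ * M)} := by
  apply mem_chartAlg_of_isIntegralElem ℓ (ℓ * M) (jFull (ℓ * M)) y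
  have h3 := isIntegralElem_of_mem_chartAlg ℓ (ℓ * M) (jFull (ℓ * M)) _ hy
  rw [coe_natCast_mul] at h3
  exact sat2_fin_LS ℓ M hℓM A hA (y : LaurentSeries ℚ) y.2 f hf h1 h2 h3

include hA in
/-- **(SAT2), overlap chart** `chartAlgMid (ℓ M) ℓ`. -/
theorem sat2_mid (y : ↥(modularFunctionFieldFull (ℓ * M))) (f : FN (ℓ * M))
    (hf : (f : LaurentSeries Kbar) = coeffEmb Kbar (y : LaurentSeries ℚ))
    (h1 : (vInf ℓ M A).valuation f ≤ 1)
    (h2 : (vInf ℓ M A).valuation (wAL ℓ M hℓM f) ≤ 1)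
    (hy : (ℓ : ↥(modularFunctionFieldFull (ℓ * M))) * y ∈
      chartAlg (ℓ * M) ℓ {jFull (ℓ * M), (jFull (ℓ * M))⁻¹}) :
    y ∈ chartAlg (ℓ * M) ℓ {jFull (ℓ * M), (jFull (ℓ * M))⁻¹} := by
  have hset : ({jFull (ℓ * M), (jFull (ℓ * M))⁻¹} : Set ↥(modularFunctionFieldFull (ℓ * M))) =
      insert (jFull (ℓ * M))⁻¹ {jFull (ℓ * M)} := Set.pair_comm _ _
  rw [hset] at hy ⊢
  obtain ⟨n, hn⟩ := exists_pow_mul_mem_chartAlg (Set.mem_singleton _) (jFull_ne_zero (ℓ * M)) hy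
  have h3 : jFull (ℓ * M) ^ n * y ∈ chartAlg (ℓ * M) ℓ {jFull (ℓ * M)} := by
    refine sat2_fin ℓ M hℓM A hA (jFull (ℓ * M) ^ n * y) (jBar (ℓ * M) ^ n * f) ?_ ?_ ?_ ?_
    · rw [IntermediateField.coe_mul, IntermediateField.coe_pow, coe_jBar, hf]
      show _ = coeffEmb Kbar (jq ^ n * (y : LaurentSeries ℚ))
      rw [map_mul, map_pow]
    · rw [map_mul, map_pow]
      exact mul_le_one' (pow_le_one' (val_jBar_le_one ℓ M A) n) h1
    · rw [map_mul, map_pow, map_mul, map_pow]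
      exact mul_le_one' (pow_le_one' (val_wAL_jBar_le_one ℓ M hℓM A) n) h2
    · have : (ℓ : ↥(modularFunctionFieldFull (ℓ * M))) * (jFull (ℓ * M) ^ n * y) =
          jFull (ℓ * M) ^ n * ((ℓ : ↥(modularFunctionFieldFull (ℓ * M))) * y) := by ring
      rw [this]; exact hn
  have h4 : (jFull (ℓ * M))⁻¹ ∈ chartAlg (ℓ * M) ℓ (insert (jFull (ℓ * M))⁻¹ {jFull (ℓ * M)}) :=
    subset_chartAlg (ℓ * M) ℓ _ (Set.mem_insert _ _)
  have h5 : jFull (ℓ * M) ^ n * y ∈
      chartAlg (ℓ * M) ℓ (insert (jFull (ℓ * M))⁻¹ {jFull (ℓ * M)}) :=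
    chartAlg_mono (ℓ * M) ℓ (Set.subset_insert _ _) h3
  have : y = (jFull (ℓ * M))⁻¹ ^ n * (jFull (ℓ * M) ^ n * y) := by
    rw [← mul_assoc, ← mul_pow, inv_mul_cancel₀ (jFull_ne_zero (ℓ * M)), one_pow, one_mul]
  rw [this]
  exact mul_mem (pow_mem h4 n) h5

include hA in
/-- **(SAT2), chart at infinity** `chartAlgInf (ℓ M) ℓ`. -/
theorem sat2_inf (y : ↥(modularFunctionFieldFull (ℓ * M))) (f : FN (ℓ * M))
    (hf : (f : LaurentSeries Kbar) = coeffEmb Kbar (y : LaurentSeries ℚ))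
    (h1 : (vInf ℓ M A).valuation f ≤ 1)
    (h2 : (vInf ℓ M A).valuation (wAL ℓ M hℓM f) ≤ 1)
    (hy : (ℓ : ↥(modularFunctionFieldFull (ℓ * M))) * y ∈
      chartAlg (ℓ * M) ℓ {(jFull (ℓ * M))⁻¹}) :
    y ∈ chartAlg (ℓ * M) ℓ {(jFull (ℓ * M))⁻¹} := by
  have hmid : y ∈ chartAlg (ℓ * M) ℓ {jFull (ℓ * M), (jFull (ℓ * M))⁻¹} :=
    sat2_mid ℓ M hℓM A hA y f hf h1 h2 (chartAlg_mono (ℓ * M) ℓ (fun x hx => Or.inr hx) hy)
  have hset : ({jFull (ℓ * M), (jFull (ℓ * M))⁻¹} : Set ↥(modularFunctionFieldFull (ℓ * M))) =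
      insert ((jFull (ℓ * M))⁻¹)⁻¹ {(jFull (ℓ * M))⁻¹} := by rw [inv_inv]
  rw [hset] at hmid
  obtain ⟨n, hn⟩ := exists_pow_mul_mem_chartAlg (Set.mem_singleton _)
    (inv_ne_zero (jFull_ne_zero (ℓ * M))) hmid
  apply mem_chartAlg_of_isIntegralElem ℓ (ℓ * M) (jFull (ℓ * M))⁻¹ y
  have h3 := isIntegralElem_of_mem_chartAlg ℓ (ℓ * M) (jFull (ℓ * M))⁻¹ _ hy
  have h4 := isIntegralElem_of_mem_chartAlg ℓ (ℓ * M) (jFull (ℓ * M))⁻¹ _ hn
  rw [coe_natCast_mul] at h3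
  have hcoe : (((jFull (ℓ * M))⁻¹ : ↥(modularFunctionFieldFull (ℓ * M))) : LaurentSeries ℚ) =
      jq⁻¹ := rfl
  rw [hcoe] at h3 h4 ⊢
  refine isIntegralElem_of_scaled_Zl ℓ jq⁻¹ helper3292.aeval_jq_inv_injective
    (y : LaurentSeries ℚ) (Polynomial.X ^ n) ?_ h3 ?_
  · simp
  · have he : evalS ℓ jq⁻¹ (Polynomial.X ^ n) = jq⁻¹ ^ n := by
      rw [map_pow, evalS, Polynomial.coe_eval₂RingHom, Polynomial.eval₂_X]
    rw [he]
    exact h4

end Charts

/-! ### The Atkin–Lehner involution preserves the rational functions -/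

section Rational

open Fermat.Agent.S35.helper1928

variable (ℓ M : ℕ) [Fact ℓ.Prime] [NeZero M] (hℓM : ¬ ℓ ∣ M)

/-- **`W_ℓ` is defined over `ℚ`, element form.**  For `x ∈ ℚ(X₀(ℓ M))` there is
`x' ∈ ℚ(X₀(ℓ M))` with `W_ℓ (emb x) = emb x'` (closure induction on the generators `j(q^d)`,
`d ∣ ℓ M`; no Galois descent). -/
theorem exists_wAL_rat (x : LaurentSeries ℚ) (hx : x ∈ modularFunctionFieldFull (ℓ * M)) :
    ∃ f : FN (ℓ * M), (f : LaurentSeries Kbar) = coeffEmb Kbar x ∧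
      ∃ x' ∈ modularFunctionFieldFull (ℓ * M),
        ((wAL ℓ M hℓM f : FN (ℓ * M)) : LaurentSeries Kbar) = coeffEmb Kbar x' := by
  have hℓ : ℓ.Prime := Fact.out
  unfold modularFunctionFieldFull at hx
  induction hx using IntermediateField.adjoin_induction with
  | mem x hx =>
    obtain ⟨d, hd, hdN, rfl⟩ := hx
    have := hd
    by_cases hℓd : ℓ ∣ d
    · obtain ⟨d', rfl⟩ := hℓd
      have hd'0 : d' ≠ 0 := fun h => (NeZero.ne (ℓ * d')) (by rw [h, mul_zero])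
      have : NeZero d' := ⟨hd'0⟩
      have hd'M : d' ∣ M := (Nat.mul_dvd_mul_iff_left hℓ.pos).mp hdN
      refine ⟨jBarD (ℓ * M) (ℓ * d') hdN, rfl, qExpand ℚ d' jq,
        jqd_mem_full (ℓ * M) (hd'M.mul_left ℓ), ?_⟩
      rw [show wAL ℓ M hℓM (jBarD (ℓ * M) (ℓ * d') hdN) = jBarD (ℓ * M) d' (hd'M.mul_left ℓ) from
        Fermat.Agent.S35.helper1219.atkinLehnerBar_jBarD_mul_cofactor ℓ M _ hd'M]
      rfl
    · have hdM : d ∣ M :=
        (Nat.Coprime.dvd_mul_left ((Nat.Prime.coprime_iff_not_dvd hℓ).mpr hℓd).symm).mp hdN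
      refine ⟨jBarD (ℓ * M) d hdN, rfl, qExpand ℚ (ℓ * d) jq,
        jqd_mem_full (ℓ * M) (Nat.mul_dvd_mul_left ℓ hdM), ?_⟩
      rw [show wAL ℓ M hℓM (jBarD (ℓ * M) d hdN) =
          jBarD (ℓ * M) (ℓ * d) (Nat.mul_dvd_mul_left ℓ hdM) from
        Fermat.Agent.S35.helper1219.atkinLehnerBar_jBarD_cofactor ℓ M _ hdM]
      rfl
  | algebraMap r =>
    refine ⟨algebraMap Kbar (FN (ℓ * M)) (algebraMap ℚ Kbar r), ?_, algebraMap ℚ _ r,
      IntermediateField.algebraMap_mem _ r, ?_⟩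
    · exact (helper3292.coeffMap_algebraMap' (algebraMap ℚ Kbar) r).symm
    · rw [AlgEquiv.commutes]
      exact (helper3292.coeffMap_algebraMap' (algebraMap ℚ Kbar) r).symm
  | add x y _ _ hx hy =>
    obtain ⟨f, hf, x', hx', hWf⟩ := hx
    obtain ⟨g, hg, y', hy', hWg⟩ := hy
    refine ⟨f + g, ?_, x' + y', add_mem hx' hy', ?_⟩
    · rw [IntermediateField.coe_add, hf, hg, map_add]
    · rw [map_add, IntermediateField.coe_add, hWf, hWg, map_add]
  | inv x _ hx =>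
    obtain ⟨f, hf, x', hx', hWf⟩ := hx
    refine ⟨f⁻¹, ?_, x'⁻¹, inv_mem hx', ?_⟩
    · rw [IntermediateField.coe_inv, hf, map_inv₀]
    · rw [map_inv₀, IntermediateField.coe_inv, hWf, map_inv₀]
  | mul x y _ _ hx hy =>
    obtain ⟨f, hf, x', hx', hWf⟩ := hx
    obtain ⟨g, hg, y', hy', hWg⟩ := hy
    refine ⟨f * g, ?_, x' * y', mul_mem hx' hy', ?_⟩
    · rw [IntermediateField.coe_mul, hf, hg, map_mul]
    · rw [map_mul, IntermediateField.coe_mul, hWf, hWg, map_mul]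

end Rational

/-! ### The `ℚ`-level Gauss ring `OSub ℓ` versus the Gauss valuation of `A` -/

section Bridge

open Fermat.Agent.S28.helper1588 Fermat.Agent.S35.helper1928 Fermat.Agent.S18.helper508

variable (ℓ M : ℕ) [Fact ℓ.Prime] [NeZero M]
variable (A : ValuationSubring Kbar) (hA : (ℓ : Kbar) ∈ A.nonunits)

include hA in
omit [NeZero M] in
/-- `ℤ_(ℓ) ⊆ A` for a valuation ring `A` of `ℚ̄` over `ℓ`. -/
theorem algebraMap_mem_of_mem_ratLocalizedAt {r : ℚ} (hr : r ∈ GaloisRep.ratLocalizedAt ℓ) :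
    algebraMap ℚ Kbar r ∈ A := by
  have hℓ : ℓ.Prime := Fact.out
  have hA' : A.valuation (ℓ : Kbar) < 1 := hA
  have hnd : ¬ ℓ ∣ r.den := (Nat.Prime.coprime_iff_not_dvd hℓ).mp (Nat.Coprime.symm hr)
  have hden : A.valuation ((r.den : ℕ) : Kbar) = 1 :=
    Fermat.Agent.S35.helper882.map_natCast_eq_one_of_not_dvd hℓ hA' hnd
  have hr' : algebraMap ℚ Kbar r = (r.num : Kbar) / (r.den : Kbar) := by
    rw [eq_ratCast]
    exact Rat.cast_def r
  rw [← A.valuation_le_one_iff, hr', map_div₀, hden, div_one]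
  exact Fermat.Agent.S35.helper882.map_intCast_le_one' _ _

/-- The canonical ring hom `ℤ_(ℓ) → A`. -/
def zlToA : Zl ℓ →+* A :=
  ((algebraMap ℚ Kbar).comp (GaloisRep.ratLocalizedAt ℓ).subtype).codRestrict A
    (fun r => algebraMap_mem_of_mem_ratLocalizedAt ℓ A hA r.2)

omit [NeZero M] in
theorem coeffEmb_incl (a : LZ ℓ) :
    coeffEmb Kbar (incl ℓ a) = coeffMap A.subtype (coeffMap (zlToA ℓ A hA) a) := by
  show coeffMap (algebraMap ℚ Kbar) (coeffMap (GaloisRep.ratLocalizedAt ℓ).subtype a) = _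
  rw [coeffMap_coeffMap, coeffMap_coeffMap]
  rfl

omit [NeZero M] in
theorem residue_zlToA (a : LZ ℓ) :
    have := charP_residueField ℓ A hA
    coeffMap (IsLocalRing.residue A) (coeffMap (zlToA ℓ A hA) a) =
      coeffMap (ZMod.castHom (dvd_refl ℓ) (IsLocalRing.ResidueField A)) (red ℓ a) := by
  haveI := charP_residueField ℓ A hA
  have hcomp : (IsLocalRing.residue A).comp (zlToA ℓ A hA) =
      (ZMod.castHom (dvd_refl ℓ) (IsLocalRing.ResidueField A)).comp (resZl ℓ) :=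
    IsLocalization.ringHom_ext (Ideal.span {(ℓ : ℤ)}).primeCompl (RingHom.ext_int _ _)
  show _ = coeffMap _ (coeffMap (resZl ℓ) a)
  rw [coeffMap_coeffMap, coeffMap_coeffMap, hcomp]

include hA in
omit [NeZero M] in
/-- **Bridge.**  An element of the `ℚ`-level Gauss ring `OSub ℓ` is integral for the Gauss
valuation of `A`, and it is in the maximal ideal iff its reduction mod `ℓ` vanishes. -/
theorem val_of_mem_OSub {z : LaurentSeries ℚ} (hz : z ∈ OSub ℓ) (g : FN (ℓ * M))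
    (hg : (g : LaurentSeries Kbar) = coeffEmb Kbar z) :
    (vInf ℓ M A).valuation g ≤ 1 ∧
      ((vInf ℓ M A).valuation g < 1 ↔ redS ℓ ⟨z, hz⟩ = 0) := by
  haveI := charP_residueField ℓ A hA
  have hinj : Function.Injective
      (coeffMap (ZMod.castHom (dvd_refl ℓ) (IsLocalRing.ResidueField A))) :=
    coeffMap_injective _ (RingHom.injective _)
  obtain ⟨a, s, hs, h⟩ := (mem_OSub_iff ℓ z).mp hz
  have hrel : (g : LaurentSeries Kbar) * coeffMap A.subtype (coeffMap (zlToA ℓ A hA) s) =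
      coeffMap A.subtype (coeffMap (zlToA ℓ A hA) a) := by
    rw [hg, ← coeffEmb_incl, ← coeffEmb_incl, ← map_mul, h]
  have hY : coeffMap (IsLocalRing.residue A) (coeffMap (zlToA ℓ A hA) s) ≠ 0 := by
    rw [residue_zlToA]
    exact fun h0 => hs (hinj (h0.trans (map_zero _).symm))
  have key := val_of_rel ℓ M A g _ _ hY hrel
  refine ⟨key.1, key.2.trans ?_⟩
  rw [residue_zlToA]
  have h3 := redS_mul_red ℓ ⟨z, hz⟩ a s h
  constructor
  · intro h0
    have h4 : red ℓ a = 0 := hinj (h0.trans (map_zero _).symm)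
    rw [h4] at h3
    exact (mul_eq_zero.mp h3).resolve_right hs
  · intro h0
    rw [← h3, h0, zero_mul, map_zero]

include hA in
omit [NeZero M] in
/-- **The Gauss valuation is unramified on rational functions.**  If `x ∈ ℚ(X₀(ℓ M))` is in the
maximal ideal of the Gauss valuation of `A`, then `x = ℓ w` with `w` in the Gauss ring
`OSub ℓ`. -/
theorem exists_eq_mul_of_val_lt_one {x : LaurentSeries ℚ}
    (hx : x ∈ modularFunctionFieldFull (ℓ * M)) (f : FN (ℓ * M))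
    (hf : (f : LaurentSeries Kbar) = coeffEmb Kbar x)
    (h : (vInf ℓ M A).valuation f < 1) :
    ∃ w ∈ OSub ℓ, x = (ℓ : LaurentSeries ℚ) * w := by
  have hQW : x ∈ QW ℓ := modularFunctionFieldFull_le_QWI ℓ _ hx
  have hxO : x ∈ OSub ℓ := by
    rcases mem_OSub_or_inv_mem ℓ x hQW with h1 | h1
    · exact h1
    · by_cases hf0 : f = 0
      · have hx0 : x = 0 := by
          have h2 : coeffEmb Kbar x = coeffEmb Kbar 0 := by
            rw [← hf, hf0, map_zero]; rfl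
          exact (coeffEmb Kbar).injective h2
        rw [hx0]; exact zero_mem _
      · exfalso
        have h2 := (val_of_mem_OSub ℓ M A hA h1 f⁻¹
          (by rw [IntermediateField.coe_inv, hf, map_inv₀])).1
        rw [map_inv₀] at h2
        have h3 : (vInf ℓ M A).valuation f ≠ 0 := (Valuation.ne_zero_iff _).mpr hf0
        have h4 : 1 < ((vInf ℓ M A).valuation f)⁻¹ := (one_lt_inv₀ (zero_lt_iff.mpr h3)).mpr h
        exact absurd h2 (not_le.mpr h4)
  have h0 := (val_of_mem_OSub ℓ M A hA hxO f hf).2.mp h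
  obtain ⟨y, hy⟩ := (redS_eq_zero_iff ℓ _).mp h0
  refine ⟨(y : LaurentSeries ℚ), y.2, ?_⟩
  have h5 := congrArg (Subtype.val : OSub ℓ → LaurentSeries ℚ) hy
  simpa using h5

end Bridge

/-! ### Kernel forms: an element of a chart that vanishes on the whole special fibre is
divisible by `ℓ` in the chart -/

section Kernel

open Fermat.Agent.S28.helper1588 Fermat.Agent.S35.helper1928 Fermat.Agent.S18.helper508

variable (ℓ M : ℕ) [Fact ℓ.Prime] [NeZero M] (hℓM : ¬ ℓ ∣ M)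
variable (A : ValuationSubring Kbar) (hA : (ℓ : Kbar) ∈ A.nonunits)

omit [Fact ℓ.Prime] [NeZero M] in
theorem natCast_ne_zero_LSK (hℓ0 : ℓ ≠ 0) : ((ℓ : ℕ) : LaurentSeries Kbar) ≠ 0 := by
  have h : ((ℓ : ℕ) : LaurentSeries Kbar) = algebraMap Kbar (LaurentSeries Kbar) (ℓ : Kbar) :=
    (map_natCast _ _).symm
  rw [h]
  intro h0
  have h1 : (ℓ : Kbar) = 0 :=
    (algebraMap Kbar (LaurentSeries Kbar)).injective (h0.trans (map_zero _).symm)
  exact hℓ0 (Nat.cast_eq_zero.mp h1)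

include hA in
/-- If `x ∈ ℚ(X₀(ℓ M))` lies in the maximal ideals of both Gauss valuations of `A ∣ ℓ`, then
`x = ℓ y` with `y` integral for both. -/
theorem exists_div_integral (x : ↥(modularFunctionFieldFull (ℓ * M))) (f : FN (ℓ * M))
    (hf : (f : LaurentSeries Kbar) = coeffEmb Kbar (x : LaurentSeries ℚ))
    (h1 : (vInf ℓ M A).valuation f < 1)
    (h2 : (vInf ℓ M A).valuation (wAL ℓ M hℓM f) < 1) :
    ∃ (y : ↥(modularFunctionFieldFull (ℓ * M))) (g : FN (ℓ * M)),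
      x = (ℓ : ↥(modularFunctionFieldFull (ℓ * M))) * y ∧
      (g : LaurentSeries Kbar) = coeffEmb Kbar (y : LaurentSeries ℚ) ∧
      (vInf ℓ M A).valuation g ≤ 1 ∧ (vInf ℓ M A).valuation (wAL ℓ M hℓM g) ≤ 1 := by
  have hℓ : ℓ.Prime := Fact.out
  have hℓQ : ((ℓ : ℕ) : LaurentSeries ℚ) ≠ 0 := natCast_ne_zero_LS ℓ
  have hℓK : ((ℓ : ℕ) : LaurentSeries Kbar) ≠ 0 := natCast_ne_zero_LSK ℓ hℓ.ne_zero
  obtain ⟨w, hwO, hxw⟩ := exists_eq_mul_of_val_lt_one ℓ M A hA x.2 f hf h1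
  obtain ⟨f', hf', x', hx', hWf'⟩ := exists_wAL_rat ℓ M hℓM (x : LaurentSeries ℚ) x.2
  obtain rfl : f' = f := Subtype.ext (hf'.trans hf.symm)
  obtain ⟨w', hw'O, hx'w'⟩ :=
    exists_eq_mul_of_val_lt_one ℓ M A hA hx' (wAL ℓ M hℓM f') hWf' h2
  have hwF : w ∈ modularFunctionFieldFull (ℓ * M) := by
    have h3 : w = ((ℓ : ℕ) : LaurentSeries ℚ)⁻¹ * (x : LaurentSeries ℚ) := by
      rw [hxw, inv_mul_cancel_left₀ hℓQ]
    rw [h3]
    exact mul_mem (inv_mem (natCast_mem _ ℓ)) x.2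
  have hcast : coeffEmb Kbar ((ℓ : ℕ) : LaurentSeries ℚ) = ((ℓ : ℕ) : LaurentSeries Kbar) :=
    map_natCast _ _
  have hg : ((((ℓ : ℕ) : FN (ℓ * M))⁻¹ * f' : FN (ℓ * M)) : LaurentSeries Kbar) =
      coeffEmb Kbar w := by
    have h3 : ((((ℓ : ℕ) : FN (ℓ * M))⁻¹ * f' : FN (ℓ * M)) : LaurentSeries Kbar) =
        ((ℓ : ℕ) : LaurentSeries Kbar)⁻¹ * (f' : LaurentSeries Kbar) := rfl
    rw [h3, hf, hxw, map_mul, hcast, inv_mul_cancel_left₀ hℓK]
  have hWg : ((wAL ℓ M hℓM (((ℓ : ℕ) : FN (ℓ * M))⁻¹ * f') : FN (ℓ * M)) :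
      LaurentSeries Kbar) = coeffEmb Kbar w' := by
    have h3 : wAL ℓ M hℓM (((ℓ : ℕ) : FN (ℓ * M))⁻¹ * f') =
        ((ℓ : ℕ) : FN (ℓ * M))⁻¹ * wAL ℓ M hℓM f' := by
      rw [map_mul, map_inv₀, map_natCast]
    have h4 : ((((ℓ : ℕ) : FN (ℓ * M))⁻¹ * wAL ℓ M hℓM f' : FN (ℓ * M)) :
        LaurentSeries Kbar) =
        ((ℓ : ℕ) : LaurentSeries Kbar)⁻¹ * ((wAL ℓ M hℓM f' : FN (ℓ * M)) :
          LaurentSeries Kbar) := rfl
    rw [h3, h4, hWf', hx'w', map_mul, hcast, inv_mul_cancel_left₀ hℓK]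
  refine ⟨⟨w, hwF⟩, ((ℓ : ℕ) : FN (ℓ * M))⁻¹ * f', Subtype.ext ?_, hg, ?_, ?_⟩
  · rw [coe_natCast_mul]
    exact hxw
  · exact (val_of_mem_OSub ℓ M A hA hwO _ hg).1
  · exact (val_of_mem_OSub ℓ M A hA hw'O _ hWg).1

include hA in
/-- Saturation (two-valuation form) implies the kernel form, for any chart. -/
theorem ker_of_sat (S : Set ↥(modularFunctionFieldFull (ℓ * M)))
    (hsat : ∀ (y : ↥(modularFunctionFieldFull (ℓ * M))) (g : FN (ℓ * M)),
      (g : LaurentSeries Kbar) = coeffEmb Kbar (y : LaurentSeries ℚ) →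
      (vInf ℓ M A).valuation g ≤ 1 → (vInf ℓ M A).valuation (wAL ℓ M hℓM g) ≤ 1 →
      (ℓ : ↥(modularFunctionFieldFull (ℓ * M))) * y ∈ chartAlg (ℓ * M) ℓ S →
      y ∈ chartAlg (ℓ * M) ℓ S)
    (x : ↥(modularFunctionFieldFull (ℓ * M))) (f : FN (ℓ * M))
    (hf : (f : LaurentSeries Kbar) = coeffEmb Kbar (x : LaurentSeries ℚ))
    (h1 : (vInf ℓ M A).valuation f < 1)
    (h2 : (vInf ℓ M A).valuation (wAL ℓ M hℓM f) < 1)
    (hx : x ∈ chartAlg (ℓ * M) ℓ S) :
    ∃ y ∈ chartAlg (ℓ * M) ℓ S, x = (ℓ : ↥(modularFunctionFieldFull (ℓ * M))) * y := by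
  obtain ⟨y, g, hxy, hg, hg1, hg2⟩ := exists_div_integral ℓ M hℓM A hA x f hf h1 h2
  exact ⟨y, hsat y g hg hg1 hg2 (hxy ▸ hx), hxy⟩

end Kernel

/-! ### Integrality of the charts at both Gauss valuations -/

section Integral

open Fermat.Agent.S28.helper1588 Fermat.Agent.S35.helper1928 Fermat.Agent.S18.helper508

/-- A ring hom out of `ℚ(X₀(N))` that sends `ℤ_(ℓ)` and the generators `S` into a valuation
ring sends the whole chart algebra of `S` into it. -/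
theorem map_mem_of_mem_chartAlg {K : Type*} [Field K] (N : ℕ) [NeZero N] (ℓ : ℕ)
    [Fact ℓ.Prime] (φ : ↥(modularFunctionFieldFull N) →+* K) (V : ValuationSubring K)
    (S : Set ↥(modularFunctionFieldFull N))
    (hZ : ∀ a : Zl ℓ, φ (algebraMap (Zl ℓ) ↥(modularFunctionFieldFull N) a) ∈ V)
    (hS : ∀ s ∈ S, φ s ∈ V)
    (x : ↥(modularFunctionFieldFull N)) (hx : x ∈ chartAlg N ℓ S) : φ x ∈ V := by
  rw [mem_chartAlg_iff] at hx
  obtain ⟨p, hp, hpx⟩ := hx
  let T : Subalgebra (Zl ℓ) ↥(modularFunctionFieldFull N) :=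
    { carrier := {y | φ y ∈ V}
      mul_mem' := fun {a b} ha hb => by
        show φ (a * b) ∈ V
        rw [map_mul]; exact V.mul_mem _ _ ha hb
      add_mem' := fun {a b} ha hb => by
        show φ (a + b) ∈ V
        rw [map_add]; exact V.add_mem _ _ ha hb
      algebraMap_mem' := hZ }
  have hle : Algebra.adjoin (Zl ℓ) S ≤ T := Algebra.adjoin_le hS
  let ψ : ↥(Algebra.adjoin (Zl ℓ) S) →+* ↥V :=
    RingHom.codRestrict (φ.comp (Algebra.adjoin (Zl ℓ) S).val.toRingHom) V (fun y => hle y.2)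
  have hint : IsIntegral ↥V (φ x) := by
    refine ⟨p.map ψ, hp.map ψ, ?_⟩
    rw [Polynomial.eval₂_map]
    have hcomp : (algebraMap ↥V K).comp ψ =
        φ.comp (algebraMap ↥(Algebra.adjoin (Zl ℓ) S) ↥(modularFunctionFieldFull N)) := by
      ext y; rfl
    rw [hcomp]
    have h2 := Polynomial.hom_eval₂ p
      (algebraMap ↥(Algebra.adjoin (Zl ℓ) S) ↥(modularFunctionFieldFull N)) φ x
    rw [hpx, map_zero] at h2
    exact h2.symm
  obtain ⟨y, hy⟩ := IsIntegrallyClosed.isIntegral_iff.mp hint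
  rw [← hy]
  exact y.2

end Integral

/-! ### The charts are integral at both Gauss valuations; reduced forms -/

section ChartIntegral

open Fermat.Agent.S28.helper1588 Fermat.Agent.S35.helper1928 Fermat.Agent.S18.helper508

theorem coe_emb (N : ℕ) [NeZero N] (x : ↥(modularFunctionFieldFull N)) :
    ((Fermat.Agent.S19.helper9190.emb N x : FN N) : LaurentSeries Kbar) =
      coeffEmb Kbar (x : LaurentSeries ℚ) := rfl

theorem emb_jFull (N : ℕ) [NeZero N] : Fermat.Agent.S19.helper9190.emb N (jFull N) = jBar N :=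
  Subtype.ext (by rw [coe_emb, coe_jBar]; rfl)

theorem emb_algebraMap_Zl (ℓ : ℕ) [Fact ℓ.Prime] (N : ℕ) [NeZero N] (a : Zl ℓ) :
    Fermat.Agent.S19.helper9190.emb N (algebraMap (Zl ℓ) ↥(modularFunctionFieldFull N) a) =
      algebraMap Kbar (FN N) (algebraMap ℚ Kbar (a : ℚ)) := by
  apply Subtype.ext
  rw [coe_emb, coe_algebraMap_Zl]
  show coeffMap (algebraMap ℚ Kbar) (algebraMap ℚ (LaurentSeries ℚ) (a : ℚ)) =
    algebraMap Kbar (LaurentSeries Kbar) _
  exact helper3292.coeffMap_algebraMap' _ _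

variable (ℓ M : ℕ) [Fact ℓ.Prime] [NeZero M] (hℓM : ¬ ℓ ∣ M)
variable (A : ValuationSubring Kbar) (hA : (ℓ : Kbar) ∈ A.nonunits)

omit [Fact ℓ.Prime] [NeZero M] in
theorem val_jBar_eq_one : (vInf ℓ M A).valuation (jBar (ℓ * M)) = 1 := by
  have h := val_aeval_jBar ℓ M A (X : A[X])
  rw [Polynomial.map_X, aeval_X, Polynomial.map_X] at h
  exact le_antisymm h.1 (not_lt.mp (fun h1 => X_ne_zero (h.2.mp h1)))

theorem val_wAL_jBar_eq_one : (vInf ℓ M A).valuation (wAL ℓ M hℓM (jBar (ℓ * M))) = 1 := by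
  have h := val_wAL_aeval_jBar ℓ M hℓM A (X : A[X])
  rw [Polynomial.map_X, aeval_X, Polynomial.map_X] at h
  exact le_antisymm h.1 (not_lt.mp (fun h1 => X_ne_zero (h.2.mp h1)))

include hA in
/-- **(I)** Every element of a `j`-chart of `X₀(ℓ M)` over `ℤ_(ℓ)` is integral for both Gauss
valuations of `A ∣ ℓ`. -/
theorem val_le_one_of_mem_chartAlg (S : Set ↥(modularFunctionFieldFull (ℓ * M)))
    (hS : S ⊆ {jFull (ℓ * M), (jFull (ℓ * M))⁻¹})
    (x : ↥(modularFunctionFieldFull (ℓ * M))) (hx : x ∈ chartAlg (ℓ * M) ℓ S) :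
    (vInf ℓ M A).valuation (Fermat.Agent.S19.helper9190.emb (ℓ * M) x) ≤ 1 ∧
      (vInf ℓ M A).valuation
        (wAL ℓ M hℓM (Fermat.Agent.S19.helper9190.emb (ℓ * M) x)) ≤ 1 := by
  have hZ : ∀ a : Zl ℓ, (vInf ℓ M A).valuation
      (Fermat.Agent.S19.helper9190.emb (ℓ * M)
        (algebraMap (Zl ℓ) ↥(modularFunctionFieldFull (ℓ * M)) a)) ≤ 1 := by
    intro a
    rw [emb_algebraMap_Zl]
    exact val_algebraMap_le_one ℓ M A (algebraMap_mem_of_mem_ratLocalizedAt ℓ A hA a.2)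
  constructor
  · rw [(vInf ℓ M A).valuation_le_one_iff]
    refine map_mem_of_mem_chartAlg (ℓ * M) ℓ (Fermat.Agent.S19.helper9190.emb (ℓ * M))
      (vInf ℓ M A) S ?_ ?_ x hx
    · intro a
      exact ((vInf ℓ M A).valuation_le_one_iff _).mp (hZ a)
    · intro s hs
      rw [← (vInf ℓ M A).valuation_le_one_iff]
      rcases hS hs with rfl | rfl
      · rw [emb_jFull, val_jBar_eq_one]
      · rw [map_inv₀, emb_jFull, map_inv₀, val_jBar_eq_one, inv_one]
  · rw [(vInf ℓ M A).valuation_le_one_iff]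
    refine map_mem_of_mem_chartAlg (ℓ * M) ℓ
      ((wAL ℓ M hℓM).toRingEquiv.toRingHom.comp (Fermat.Agent.S19.helper9190.emb (ℓ * M)))
      (vInf ℓ M A) S ?_ ?_ x hx
    · intro a
      rw [← (vInf ℓ M A).valuation_le_one_iff]
      show (vInf ℓ M A).valuation (wAL ℓ M hℓM (Fermat.Agent.S19.helper9190.emb (ℓ * M)
        (algebraMap (Zl ℓ) ↥(modularFunctionFieldFull (ℓ * M)) a))) ≤ 1
      rw [emb_algebraMap_Zl, AlgEquiv.commutes]
      exact val_algebraMap_le_one ℓ M A (algebraMap_mem_of_mem_ratLocalizedAt ℓ A hA a.2)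
    · intro s hs
      rw [← (vInf ℓ M A).valuation_le_one_iff]
      show (vInf ℓ M A).valuation (wAL ℓ M hℓM (Fermat.Agent.S19.helper9190.emb (ℓ * M) s)) ≤ 1
      rcases hS hs with rfl | rfl
      · rw [emb_jFull, val_wAL_jBar_eq_one]
      · rw [map_inv₀, emb_jFull, map_inv₀, map_inv₀, val_wAL_jBar_eq_one, inv_one]

include hA in
/-- Saturation (two-valuation form) implies the **reduced form**: the special fibre of the
chart is reduced (`x ^ n ∈ ℓ S ⟹ x ∈ ℓ S`). -/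
theorem reduced_of_sat (S : Set ↥(modularFunctionFieldFull (ℓ * M)))
    (hS : S ⊆ {jFull (ℓ * M), (jFull (ℓ * M))⁻¹})
    (hsat : ∀ (y : ↥(modularFunctionFieldFull (ℓ * M))) (g : FN (ℓ * M)),
      (g : LaurentSeries Kbar) = coeffEmb Kbar (y : LaurentSeries ℚ) →
      (vInf ℓ M A).valuation g ≤ 1 → (vInf ℓ M A).valuation (wAL ℓ M hℓM g) ≤ 1 →
      (ℓ : ↥(modularFunctionFieldFull (ℓ * M))) * y ∈ chartAlg (ℓ * M) ℓ S →
      y ∈ chartAlg (ℓ * M) ℓ S)
    (n : ℕ) (x : ↥(modularFunctionFieldFull (ℓ * M))) (hx : x ∈ chartAlg (ℓ * M) ℓ S)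
    (hxn : ∃ y ∈ chartAlg (ℓ * M) ℓ S,
      x ^ n = (ℓ : ↥(modularFunctionFieldFull (ℓ * M))) * y) :
    ∃ y ∈ chartAlg (ℓ * M) ℓ S, x = (ℓ : ↥(modularFunctionFieldFull (ℓ * M))) * y := by
  obtain ⟨y, hy, hxy⟩ := hxn
  have hy12 := val_le_one_of_mem_chartAlg ℓ M hℓM A hA S hS y hy
  have hℓv : (vInf ℓ M A).valuation ((ℓ : ℕ) : FN (ℓ * M)) < 1 := by
    have h : ((ℓ : ℕ) : FN (ℓ * M)) = algebraMap Kbar (FN (ℓ * M)) (ℓ : Kbar) :=
      (map_natCast _ _).symm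
    rw [h]
    exact val_algebraMap_lt_one ℓ M A hA
  have hlt : ∀ (v : Valuation (FN (ℓ * M)) (vInf ℓ M A).ValueGroup) (f g : FN (ℓ * M)),
      f ^ n = ((ℓ : ℕ) : FN (ℓ * M)) * g → v ((ℓ : ℕ) : FN (ℓ * M)) < 1 → v g ≤ 1 →
      v f < 1 := by
    intro v f g hfg h1 h2
    by_contra hcon
    have h3 : 1 ≤ v f ^ n := one_le_pow_of_one_le' (not_lt.mp hcon) n
    have h4 : v f ^ n = v ((ℓ : ℕ) : FN (ℓ * M)) * v g := by
      rw [← map_pow, hfg, map_mul]
    have h5 : v ((ℓ : ℕ) : FN (ℓ * M)) * v g ≤ v ((ℓ : ℕ) : FN (ℓ * M)) * 1 :=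
      mul_le_mul' le_rfl h2
    rw [mul_one] at h5
    exact absurd (h3.trans (h4.le.trans h5)) (not_le.mpr h1)
  have e1 : Fermat.Agent.S19.helper9190.emb (ℓ * M) x ^ n =
      ((ℓ : ℕ) : FN (ℓ * M)) * Fermat.Agent.S19.helper9190.emb (ℓ * M) y := by
    rw [← map_pow, hxy, map_mul, map_natCast]
  have e2 : wAL ℓ M hℓM (Fermat.Agent.S19.helper9190.emb (ℓ * M) x) ^ n =
      ((ℓ : ℕ) : FN (ℓ * M)) * wAL ℓ M hℓM (Fermat.Agent.S19.helper9190.emb (ℓ * M) y) := by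
    rw [← map_pow, e1, map_mul, map_natCast]
  exact ker_of_sat ℓ M hℓM A hA S hsat x (Fermat.Agent.S19.helper9190.emb (ℓ * M) x)
    (coe_emb _ x) (hlt _ _ _ e1 hℓv hy12.1) (hlt _ _ _ e2 hℓv hy12.2) hx

end ChartIntegral

/-! ### Final forms for the three charts -/

section Final

open Fermat.Agent.S28.helper1588 Fermat.Agent.S35.helper1928 Fermat.Agent.S18.helper508

variable (ℓ M : ℕ) [Fact ℓ.Prime] [NeZero M] (hℓM : ¬ ℓ ∣ M)

section WithA

variable (A : ValuationSubring Kbar) (hA : (ℓ : Kbar) ∈ A.nonunits)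

include hA in
/-- **Kernel form, finite chart.**  `x ∈ chartAlgFin (ℓ M) ℓ` vanishing on both components of
the special fibre is `ℓ` times an element of the chart. -/
theorem ker_fin (x : ↥(modularFunctionFieldFull (ℓ * M)))
    (h1 : (vInf ℓ M A).valuation (Fermat.Agent.S19.helper9190.emb (ℓ * M) x) < 1)
    (h2 : (vInf ℓ M A).valuation
      (wAL ℓ M hℓM (Fermat.Agent.S19.helper9190.emb (ℓ * M) x)) < 1)
    (hx : x ∈ chartAlg (ℓ * M) ℓ {jFull (ℓ * M)}) :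
    ∃ y ∈ chartAlg (ℓ * M) ℓ {jFull (ℓ * M)},
      x = (ℓ : ↥(modularFunctionFieldFull (ℓ * M))) * y :=
  ker_of_sat ℓ M hℓM A hA _ (sat2_fin ℓ M hℓM A hA) x _ (coe_emb _ x) h1 h2 hx

include hA in
/-- **Kernel form, overlap chart.** -/
theorem ker_mid (x : ↥(modularFunctionFieldFull (ℓ * M)))
    (h1 : (vInf ℓ M A).valuation (Fermat.Agent.S19.helper9190.emb (ℓ * M) x) < 1)
    (h2 : (vInf ℓ M A).valuation
      (wAL ℓ M hℓM (Fermat.Agent.S19.helper9190.emb (ℓ * M) x)) < 1)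
    (hx : x ∈ chartAlg (ℓ * M) ℓ {jFull (ℓ * M), (jFull (ℓ * M))⁻¹}) :
    ∃ y ∈ chartAlg (ℓ * M) ℓ {jFull (ℓ * M), (jFull (ℓ * M))⁻¹},
      x = (ℓ : ↥(modularFunctionFieldFull (ℓ * M))) * y :=
  ker_of_sat ℓ M hℓM A hA _ (sat2_mid ℓ M hℓM A hA) x _ (coe_emb _ x) h1 h2 hx

include hA in
/-- **Kernel form, chart at infinity.** -/
theorem ker_inf (x : ↥(modularFunctionFieldFull (ℓ * M)))
    (h1 : (vInf ℓ M A).valuation (Fermat.Agent.S19.helper9190.emb (ℓ * M) x) < 1)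
    (h2 : (vInf ℓ M A).valuation
      (wAL ℓ M hℓM (Fermat.Agent.S19.helper9190.emb (ℓ * M) x)) < 1)
    (hx : x ∈ chartAlg (ℓ * M) ℓ {(jFull (ℓ * M))⁻¹}) :
    ∃ y ∈ chartAlg (ℓ * M) ℓ {(jFull (ℓ * M))⁻¹},
      x = (ℓ : ↥(modularFunctionFieldFull (ℓ * M))) * y :=
  ker_of_sat ℓ M hℓM A hA _ (sat2_inf ℓ M hℓM A hA) x _ (coe_emb _ x) h1 h2 hx

end WithA

include hℓM in
/-- **Reduced special fibre, finite chart** (`ℓ ∥ ℓ M`): `x ^ n ∈ ℓ S ⟹ x ∈ ℓ S`. -/
theorem reduced_fin (n : ℕ) (x : ↥(modularFunctionFieldFull (ℓ * M)))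
    (hx : x ∈ chartAlg (ℓ * M) ℓ {jFull (ℓ * M)})
    (hxn : ∃ y ∈ chartAlg (ℓ * M) ℓ {jFull (ℓ * M)},
      x ^ n = (ℓ : ↥(modularFunctionFieldFull (ℓ * M))) * y) :
    ∃ y ∈ chartAlg (ℓ * M) ℓ {jFull (ℓ * M)},
      x = (ℓ : ↥(modularFunctionFieldFull (ℓ * M))) * y := by
  obtain ⟨A, hA⟩ := Fermat.Agent.Lib.helper54.exists_liesOverPrime (Fact.out : ℓ.Prime)
  exact reduced_of_sat ℓ M hℓM A hA _ (fun s hs => Or.inl hs) (sat2_fin ℓ M hℓM A hA) n x hx hxn

include hℓM in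
/-- **Reduced special fibre, overlap chart.** -/
theorem reduced_mid (n : ℕ) (x : ↥(modularFunctionFieldFull (ℓ * M)))
    (hx : x ∈ chartAlg (ℓ * M) ℓ {jFull (ℓ * M), (jFull (ℓ * M))⁻¹})
    (hxn : ∃ y ∈ chartAlg (ℓ * M) ℓ {jFull (ℓ * M), (jFull (ℓ * M))⁻¹},
      x ^ n = (ℓ : ↥(modularFunctionFieldFull (ℓ * M))) * y) :
    ∃ y ∈ chartAlg (ℓ * M) ℓ {jFull (ℓ * M), (jFull (ℓ * M))⁻¹},
      x = (ℓ : ↥(modularFunctionFieldFull (ℓ * M))) * y := by
  obtain ⟨A, hA⟩ := Fermat.Agent.Lib.helper54.exists_liesOverPrime (Fact.out : ℓ.Prime)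
  exact reduced_of_sat ℓ M hℓM A hA _ (fun s hs => hs) (sat2_mid ℓ M hℓM A hA) n x hx hxn

include hℓM in
/-- **Reduced special fibre, chart at infinity.** -/
theorem reduced_inf (n : ℕ) (x : ↥(modularFunctionFieldFull (ℓ * M)))
    (hx : x ∈ chartAlg (ℓ * M) ℓ {(jFull (ℓ * M))⁻¹})
    (hxn : ∃ y ∈ chartAlg (ℓ * M) ℓ {(jFull (ℓ * M))⁻¹},
      x ^ n = (ℓ : ↥(modularFunctionFieldFull (ℓ * M))) * y) :
    ∃ y ∈ chartAlg (ℓ * M) ℓ {(jFull (ℓ * M))⁻¹},
      x = (ℓ : ↥(modularFunctionFieldFull (ℓ * M))) * y := by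
  obtain ⟨A, hA⟩ := Fermat.Agent.Lib.helper54.exists_liesOverPrime (Fact.out : ℓ.Prime)
  exact reduced_of_sat ℓ M hℓM A hA _ (fun s hs => Or.inr hs) (sat2_inf ℓ M hℓM A hA) n x hx hxn

end Final

end Fermat.Agent.S33.helper8997
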