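import Fermat.Agent.S33.helper2055_CechOrd
import Fermat.Agent.S19.helper1243_Order
import Fermat.Agent.S19.helper2287_Trunc

/-!
# S33-CECHORD, stage 2: from truncated Čech coordinates to an order with (Loc)

* `IsTruncSys A I ℓ β` : a system of truncated coordinates `β r : M → κ → ℚ̄` on a group `M` with
  an action of `I ≤ G_ℚ` (nilpotent values, compatible, equivariant and with a polynomial law
  modulo `ℓ ^ r A`, separating, finite level).  This is the input of TRUNC (`helper2287`) with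
  one class.
* `IsTruncSys.pow` : truncated coordinates on `M` give truncated coordinates on `Fin d → M`.
* `IsTruncSys.exists_order` : (TRUNC + ORDER) for finite `M`, a system of truncated coordinates
  gives a subring `H0` of `M → ℚ̄` with `(hval) (hI) (hR0) (hsep) (hadd)` of S19-ORDER and
  **(Loc)** : `φ m - φ 0 ∈ 𝔪_A` for all `φ ∈ H0`.
* `IsCoordSys.isTruncSys` : the Čech coordinates of a family of bundles trivial mod `π`
  (stage 1, over a finite level `(𝒪, π)` with `ι : 𝒪 → A`) form a system of truncated coordinates.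
* `exists_order_of_family` : the assembly (S19-ORDER shape, `act : G_ℚ → M → M`).
* `exists_order_subgroup` : the same for an `I`-stable finite subgroup `K` of a `G_ℚ`-module, in
  the shape of the six clauses of `Stmt_OrderJ`.
-/

set_option autoImplicit false

namespace Fermat.Agent.S33.helper2055

open Fermat.Agent.S19.helper2055
open Fermat.Agent.S19

local notation "Qb" => AlgebraicClosure ℚ
local notation "GQ" => (AlgebraicClosure ℚ ≃ₐ[ℚ] AlgebraicClosure ℚ)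

/-! ### Nonunits of a valuation subring -/

section Nonunits

variable {K : Type*} [Field K] (A : ValuationSubring K)

theorem zero_mem_nonunits : (0 : K) ∈ A.nonunits := by
  rw [ValuationSubring.mem_nonunits_iff]
  simp

theorem mem_of_mem_nonunits {x : K} (hx : x ∈ A.nonunits) : x ∈ A :=
  (A.valuation_le_one_iff x).1 (le_of_lt ((A.mem_nonunits_iff).1 hx))

theorem add_mem_nonunits {x y : K} (hx : x ∈ A.nonunits) (hy : y ∈ A.nonunits) :
    x + y ∈ A.nonunits := by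
  rw [ValuationSubring.mem_nonunits_iff] at *
  exact lt_of_le_of_lt (A.valuation.map_add x y) (max_lt hx hy)

theorem neg_mem_nonunits {x : K} (hx : x ∈ A.nonunits) : -x ∈ A.nonunits := by
  rw [ValuationSubring.mem_nonunits_iff] at *
  rwa [Valuation.map_neg]

theorem sub_mem_nonunits {x y : K} (hx : x ∈ A.nonunits) (hy : y ∈ A.nonunits) :
    x - y ∈ A.nonunits := by
  rw [sub_eq_add_neg]
  exact add_mem_nonunits A hx (neg_mem_nonunits A hy)

theorem mul_mem_nonunits {a x : K} (ha : a ∈ A) (hx : x ∈ A.nonunits) : a * x ∈ A.nonunits := by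
  rw [ValuationSubring.mem_nonunits_iff] at *
  rw [map_mul]
  have h1 : A.valuation a ≤ 1 := (A.valuation_le_one_iff a).2 ha
  calc A.valuation a * A.valuation x ≤ 1 * A.valuation x := mul_le_mul_left h1 _
    _ = A.valuation x := one_mul _
    _ < 1 := hx

/-- The subring of `A`-valued functions `φ` with `φ m ≡ φ 0` modulo the maximal ideal. -/
def locSubring (M : Type*) [Zero M] : Subring (M → K) where
  carrier := {φ | (∀ m, φ m ∈ A) ∧ ∀ m, φ m - φ 0 ∈ A.nonunits}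
  mul_mem' := by
    rintro φ ψ ⟨hφ, hφ'⟩ ⟨hψ, hψ'⟩
    refine ⟨fun m => A.mul_mem _ _ (hφ m) (hψ m), fun m => ?_⟩
    have e : (φ * ψ) m - (φ * ψ) 0 = φ m * (ψ m - ψ 0) + ψ 0 * (φ m - φ 0) := by
      simp only [Pi.mul_apply]
      ring
    rw [e]
    exact add_mem_nonunits A (mul_mem_nonunits A (hφ m) (hψ' m))
      (mul_mem_nonunits A (hψ 0) (hφ' m))
  one_mem' := ⟨fun _ => A.one_mem, fun m => by simp⟩
  add_mem' := by
    rintro φ ψ ⟨hφ, hφ'⟩ ⟨hψ, hψ'⟩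
    refine ⟨fun m => A.add_mem _ _ (hφ m) (hψ m), fun m => ?_⟩
    have e : (φ + ψ) m - (φ + ψ) 0 = (φ m - φ 0) + (ψ m - ψ 0) := by
      simp only [Pi.add_apply]
      ring
    rw [e]
    exact add_mem_nonunits A (hφ' m) (hψ' m)
  zero_mem' := ⟨fun _ => A.zero_mem, fun m => by simp⟩
  neg_mem' := by
    rintro φ ⟨hφ, hφ'⟩
    refine ⟨fun m => A.neg_mem _ (hφ m), fun m => ?_⟩
    have e : (-φ) m - (-φ) 0 = -(φ m - φ 0) := by
      simp only [Pi.neg_apply]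
      ring
    rw [e]
    exact neg_mem_nonunits A (hφ' m)

theorem mem_locSubring {M : Type*} [Zero M] {φ : M → K} :
    φ ∈ locSubring A M ↔ (∀ m, φ m ∈ A) ∧ ∀ m, φ m - φ 0 ∈ A.nonunits :=
  Iff.rfl

end Nonunits

/-! ### Renaming the variables of a polynomial -/

theorem coeff_rename_ind {σ τ : Type*} {K : Type*} [CommSemiring K] (f : σ → τ)
    (hf : Function.Injective f) (p : K → Prop) (h0 : p 0) (P : MvPolynomial σ K)
    (hP : ∀ d, p (P.coeff d)) (d : τ →₀ ℕ) : p ((MvPolynomial.rename f P).coeff d) := by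
  classical
  by_cases h : ∃ u : σ →₀ ℕ, u.mapDomain f = d
  · obtain ⟨u, rfl⟩ := h
    rw [MvPolynomial.coeff_rename_mapDomain f hf]
    exact hP u
  · rw [MvPolynomial.coeff_rename_eq_zero]
    · exact h0
    · intro u hu
      exact absurd ⟨u, hu⟩ h

/-! ### Systems of truncated coordinates -/

/-- A system of truncated coordinates on `M` (one class, nilpotent values): `β r m i` is a
representative in `A` of the `i`-th coordinate of `m` modulo `ℓ ^ r`. -/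
structure IsTruncSys (A : ValuationSubring Qb) (I : Subgroup GQ) (ℓ : ℕ) {M : Type*}
    [AddCommGroup M] [DistribMulAction I M] {κ : Type*} (β : ℕ → M → κ → Qb) : Prop where
  nil : ∀ r m i, β r m i ∈ A.nonunits
  compat : ∀ r m i, helper2287.Cong A (ℓ : Qb) r (β (r + 1) m i) (β r m i)
  eqv : ∀ r (s : I) m i, helper2287.Cong A (ℓ : Qb) r (β r (s • m) i) (s.1 (β r m i))
  sep : ∀ m m', m ≠ m' → ∃ r i, ¬ helper2287.Cong A (ℓ : Qb) r (β r m i) (β r m' i)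
  fin : ∃ n : ℕ, ∀ r m i, (MulAction.orbit I (β r m i)).Finite ∧
    (MulAction.orbit I (β r m i)).ncard ≤ n
  law : ∀ (r : ℕ) (i : κ), ∃ P : MvPolynomial (κ ⊕ κ) Qb, (∀ d, P.coeff d ∈ A) ∧
    (∀ (s : I) d, s.1 (P.coeff d) = P.coeff d) ∧
    ∀ m m', helper2287.Cong A (ℓ : Qb) r (β r (m + m') i)
      (MvPolynomial.eval (Sum.elim (β r m) (β r m')) P)

section TruncSys

variable {A : ValuationSubring Qb} {I : Subgroup GQ} {ℓ : ℕ} {M : Type*} [AddCommGroup M]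
  [DistribMulAction I M] {κ : Type*} {β : ℕ → M → κ → Qb}

/-- Truncated coordinates on `M` give truncated coordinates on `Fin d → M`. -/
theorem IsTruncSys.pow (hβ : IsTruncSys A I ℓ β) (d : ℕ) :
    IsTruncSys A I ℓ (fun r (x : Fin d → M) (ji : Fin d × κ) => β r (x ji.1) ji.2) where
  nil := fun r x ji => hβ.nil r _ _
  compat := fun r x ji => hβ.compat r _ _
  eqv := fun r s x ji => hβ.eqv r s (x ji.1) ji.2
  sep := by
    intro x x' hne
    obtain ⟨j, hj⟩ := Function.ne_iff.1 hne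
    obtain ⟨r, i, hi⟩ := hβ.sep _ _ hj
    exact ⟨r, (j, i), hi⟩
  fin := by
    obtain ⟨n, hn⟩ := hβ.fin
    exact ⟨n, fun r x ji => hn r _ _⟩
  law := by
    rintro r ⟨j, i⟩
    obtain ⟨P, hPA, hPI, hP⟩ := hβ.law r i
    let f : κ ⊕ κ → (Fin d × κ) ⊕ (Fin d × κ) := Sum.map (fun k => (j, k)) (fun k => (j, k))
    have hf : Function.Injective f :=
      Sum.map_injective.2 ⟨fun a b h => (Prod.mk.inj h).2, fun a b h => (Prod.mk.inj h).2⟩
    refine ⟨MvPolynomial.rename f P, coeff_rename_ind f hf (· ∈ A) A.zero_mem P hPA,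
      fun s => coeff_rename_ind f hf (fun c => s.1 c = c) (map_zero _) P (hPI s), fun x x' => ?_⟩
    rw [MvPolynomial.eval_rename]
    have e : (Sum.elim (fun ji : Fin d × κ => β r (x ji.1) ji.2)
        (fun ji : Fin d × κ => β r (x' ji.1) ji.2)) ∘ f = Sum.elim (β r (x j)) (β r (x' j)) := by
      funext k
      cases k <;> rfl
    rw [e]
    exact hP (x j) (x' j)

/-- **TRUNC + ORDER**: for a finite group `M`, a system of truncated coordinates gives a subring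
`H0` of `M → ℚ̄` with the five properties of S19-ORDER and **(Loc)**. -/
theorem IsTruncSys.exists_order [Finite M] [Fintype κ] (hβ : IsTruncSys A I ℓ β)
    (hℓp : ℓ.Prime) (hℓ : (ℓ : Qb) ∈ A.nonunits) (hIA : ∀ s ∈ I, ∀ a ∈ A, s a ∈ A)
    (act : GQ → M → M) (hact : ∀ (s : I) (m : M), act s.1 m = s • m) :
    ∃ H0 : Subring (M → Qb),
      (∀ φ ∈ H0, ∀ m, φ m ∈ A) ∧
      (∀ φ ∈ H0, ∀ s ∈ I, ∀ m, φ (act s m) = s (φ m)) ∧
      (∀ c ∈ A, (∀ s ∈ I, s c = c) → ∀ φ ∈ H0, (fun m => c * φ m) ∈ H0) ∧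
      (∀ m m', m ≠ m' → ∃ φ ∈ H0, φ m ≠ φ m') ∧
      (∀ φ ∈ H0, ∃ (n : ℕ) (a b : Fin n → M → Qb), (∀ k, a k ∈ H0) ∧ (∀ k, b k ∈ H0) ∧
        ∀ m m', φ (m + m') = ∑ k, a k m * b k m') ∧
      (∀ φ ∈ H0, ∀ m, φ m - φ 0 ∈ A.nonunits) := by
  classical
  have hℓA : (ℓ : Qb) ∈ A := mem_of_mem_nonunits A hℓ
  have hℓ0 : (ℓ : Qb) ≠ 0 := Nat.cast_ne_zero.2 hℓp.ne_zero
  have hA : ∀ (σ : I) (a : Qb), a ∈ A → σ • a ∈ A := fun σ a ha => hIA σ.1 σ.2 a ha
  have hℓΓ : ∀ σ : I, σ • (ℓ : Qb) = ℓ := fun σ => map_natCast σ.1 ℓ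
  have hdiv : ∀ n : ℕ, ∃ c : ℕ, ∀ k : ℕ, 1 ≤ k → k ≤ n →
      ∃ z ∈ A, (k : Qb) * z = (ℓ : Qb) ^ c := by
    intro n
    have h : ∀ k : ℕ, ∃ j : ℕ, 1 ≤ k → (ℓ : Qb) ^ j * ((k : Qb))⁻¹ ∈ A := by
      intro k
      by_cases hk : 1 ≤ k
      · have hk0 : (k : Qb) ≠ 0 := Nat.cast_ne_zero.2 (by omega)
        obtain ⟨j, hj⟩ := helper1243.exists_pow_mul_inv_mem A hℓp hℓ hk0
        exact ⟨j, fun _ => hj⟩
      · exact ⟨0, fun h => absurd h hk⟩
    choose j hj using h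
    refine ⟨(Finset.range (n + 1)).sup j, fun k hk1 hkn => ?_⟩
    have hle : j k ≤ (Finset.range (n + 1)).sup j :=
      Finset.le_sup (Finset.mem_range.2 (by omega))
    have hk0 : (k : Qb) ≠ 0 := Nat.cast_ne_zero.2 (by omega)
    refine ⟨(ℓ : Qb) ^ ((Finset.range (n + 1)).sup j - j k) * ((ℓ : Qb) ^ j k * ((k : Qb))⁻¹),
      A.mul_mem _ _ (pow_mem hℓA _) (hj k hk1), ?_⟩
    have e : (ℓ : Qb) ^ (Finset.range (n + 1)).sup j
        = (ℓ : Qb) ^ ((Finset.range (n + 1)).sup j - j k) * (ℓ : Qb) ^ j k := by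
      rw [← pow_add, Nat.sub_add_cancel hle]
    rw [e]
    field_simp
  obtain ⟨r₁, r, Ξ, hr, hΞA, hΞσ, hΞβ, hΞsep, hΞlaw⟩ :=
    helper2287.exists_exact_coords (Γ := I) (A := A) (ℓ := (ℓ : Qb)) hA hℓA hℓ0 hℓΓ hdiv
      (⊤ : AddSubgroup M) (fun _ _ => AddSubgroup.mem_top _) β
      (fun r m i => mem_of_mem_nonunits A (hβ.nil r m i)) hβ.compat
      (fun r σ m i => hβ.eqv r σ m i) (fun m m' _ hne => hβ.sep m m' hne) hβ.fin
      (fun r _ _ i => by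
        obtain ⟨P, hPA, hPI, hP⟩ := hβ.law r i
        exact ⟨P, hPA, fun σ d => hPI σ d, fun m m' _ _ => hP m m'⟩) 1
  -- reindexing by `Fin`
  let e : κ ≃ Fin (Fintype.card κ) := Fintype.equivFin κ
  let Ξ' : Fin (Fintype.card κ) → M → Qb := fun k m => Ξ m (e.symm k)
  let cls : M →+ Unit := 0
  have hΞ'A : ∀ i m, Ξ' i m ∈ A := fun i m => hΞA m _
  have hΞ'I : ∀ s ∈ I, ∀ i m, Ξ' i (act s m) = s (Ξ' i m) := by
    intro s hs i m
    have h := hΞσ ⟨s, hs⟩ m (e.symm i)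
    rw [← hact ⟨s, hs⟩ m] at h
    exact h
  have hΞ'sep : ∀ m m', cls m = cls m' → (∀ i, Ξ' i m = Ξ' i m') → m = m' := by
    intro m m' _ h
    by_contra hne
    obtain ⟨i, hi⟩ := hΞsep m m' (AddSubgroup.mem_top _) hne
    apply hi
    have h' := h (e i)
    simp only [Ξ', Equiv.symm_apply_apply] at h'
    exact helper2287.Cong.of_eq h'
  have hlaw' : ∀ (c c' : Unit) (i : Fin (Fintype.card κ)),
      ∃ P : MvPolynomial (Fin (Fintype.card κ) ⊕ Fin (Fintype.card κ)) Qb,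
      (∀ d, P.coeff d ∈ A ∧ ∀ s ∈ I, s (P.coeff d) = P.coeff d) ∧
      ∀ m m', cls m = c → cls m' = c' →
        Ξ' i (m + m') = MvPolynomial.eval (Sum.elim (fun k => Ξ' k m) (fun k => Ξ' k m')) P := by
    intro _ _ i
    obtain ⟨P, hPA, hPI, hP⟩ := hΞlaw 0 0 (e.symm i)
    let f : κ ⊕ κ → Fin (Fintype.card κ) ⊕ Fin (Fintype.card κ) := Sum.map e e
    have hf : Function.Injective f := Sum.map_injective.2 ⟨e.injective, e.injective⟩
    refine ⟨MvPolynomial.rename f P, fun d =>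
      ⟨coeff_rename_ind f hf (· ∈ A) A.zero_mem P hPA d, fun s hs =>
        coeff_rename_ind f hf (fun c => s c = c) (map_zero s) P (fun d => hPI ⟨s, hs⟩ d) d⟩,
      fun m m' _ _ => ?_⟩
    rw [MvPolynomial.eval_rename]
    have e1 : (Sum.elim (fun k => Ξ' k m) (fun k => Ξ' k m')) ∘ f = Sum.elim (Ξ m) (Ξ m') := by
      funext k
      cases k <;> simp [f, Ξ']
    rw [e1]
    exact hP m m' (AddSubgroup.mem_top _) (AddSubgroup.mem_top _)
  have hcls : ∀ s ∈ I, ∀ m, cls (act s m) = cls m := fun _ _ _ => rfl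
  obtain ⟨h1, h2, h3, h4, h5⟩ := helper1243.order_spec A I act cls hcls Ξ' hΞ'A hΞ'I hΞ'sep
    (helper1243.addPull_coord_mem_of_exactLaw A I cls Ξ' hlaw')
  refine ⟨helper1243.order A I cls Ξ', h1, h2, h3, h4, h5, ?_⟩
  -- (Loc)
  have hΞnil : ∀ i m, Ξ' i m ∈ A.nonunits := by
    intro i m
    obtain ⟨z, hz, hzeq⟩ := hΞβ m (e.symm i)
    have e2 : Ξ' i m = β r m (e.symm i) + (ℓ : Qb) ^ r * z := by
      show Ξ m (e.symm i) = _
      rw [← hzeq]
      ring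
    rw [e2]
    refine add_mem_nonunits A (hβ.nil r m _) ?_
    obtain ⟨r', rfl⟩ : ∃ r', r = r' + 1 := ⟨r - 1, by omega⟩
    have e3 : (ℓ : Qb) ^ (r' + 1) * z = ((ℓ : Qb) ^ r' * z) * ℓ := by ring
    rw [e3]
    exact mul_mem_nonunits A (A.mul_mem _ _ (pow_mem hℓA _) hz) hℓ
  have hle : helper1243.order A I cls Ξ' ≤ locSubring A M := by
    refine Subring.closure_le.2 ?_
    rintro φ (⟨c, hc, -, rfl⟩ | ⟨c, rfl⟩ | ⟨i, rfl⟩)
    · exact ⟨fun _ => hc, fun m => by simp⟩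
    · have e4 : Set.indicator (cls ⁻¹' {c}) (1 : M → Qb) = 1 := by
        funext m
        have hm : m ∈ ((cls : M → Unit) ⁻¹' {c} : Set M) :=
          show cls m = c from Subsingleton.elim _ _
        rw [Set.indicator_of_mem hm]
      rw [e4]
      exact (locSubring A M).one_mem
    · exact ⟨hΞ'A i, fun m => sub_mem_nonunits A (hΞnil i m) (hΞnil i 0)⟩
  intro φ hφ m
  exact (hle hφ).2 m

end TruncSys

/-! ### From Čech coordinates to truncated coordinates -/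

section Adapter

variable {𝒪 F : Type*} [CommRing 𝒪] [CommRing F] [Algebra 𝒪 F]

/-- A congruence mod `π ^ (e * r)` in `𝒪` gives a congruence mod `ℓ ^ r A`. -/
theorem cong_of_mem_span (A : ValuationSubring Qb) {ℓ : ℕ} {π : 𝒪} (ι : 𝒪 →+* Qb)
    (hιA : ∀ a, ι a ∈ A) {e : ℕ} (hπℓ : ∃ z ∈ A, ι π ^ e = (ℓ : Qb) * z) {r : ℕ} {a b : 𝒪}
    (h : a - b ∈ Ideal.span {π ^ (e * r)}) : helper2287.Cong A (ℓ : Qb) r (ι a) (ι b) := by
  obtain ⟨z, hz, hzeq⟩ := hπℓ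
  obtain ⟨c, hc⟩ := Ideal.mem_span_singleton'.1 h
  refine ⟨z ^ r * ι c, A.mul_mem _ _ (pow_mem hz r) (hιA c), ?_⟩
  rw [← map_sub, ← hc, map_mul, map_pow, pow_mul, hzeq, mul_pow]
  ring

variable {M : Type*} [AddCommGroup M]

/-- **The Čech coordinates form a system of truncated coordinates.**

`(𝒪, π)` a finite level with `ι : 𝒪 → A`, `π ^ e ∈ ℓ A` and `𝒪 ∩ ℓ ^ r A ⊆ π ^ (e r) 𝒪`; the law
is given by polynomials over a base ring `R` whose image in `ℚ̄` is fixed by `I`; the `H^1` of the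
bundles have bounded torsion; a bundle with a global generator mod `π` is the bundle of `0`;
`I` acts semilinearly on the whole situation (bundles and trivialisations up to a scalar `f`
depending on the point). -/
theorem IsCoordSys.isTruncSys (A : ValuationSubring Qb) (I : Subgroup GQ) [DistribMulAction I M]
    {ℓ : ℕ} {π : 𝒪} {S0 S1 S01 : Subalgebra 𝒪 F} {g : ℕ} {η : Fin g → F}
    {bun : M → Bundle S0 S1 S01} {e0 e1 : M → F} {β : ℕ → M → Fin g → 𝒪}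
    (hβ : IsCoordSys π η bun e0 e1 β) (hη : ∀ i, η i ∈ S01) (hC : Charts π S0 S1 S01)
    (hfam : IsFamily π bun e0 e1) (hU : ∀ m, Uni π S0 S1 S01 η m)
    {R : Type*} [CommRing R] [Algebra R 𝒪] (P : ℕ → Fin g → MvPolynomial (Fin g ⊕ Fin g) R)
    (hL : ∀ m, Law π S0 S1 S01 η m
      (fun b b' i => MvPolynomial.aeval (Sum.elim b b') (P m i)))
    (ι : 𝒪 →+* Qb) (hιA : ∀ a, ι a ∈ A) (hπA : ι π ∈ A.nonunits)
    {e : ℕ} (he : 0 < e) (hπℓ : ∃ z ∈ A, ι π ^ e = (ℓ : Qb) * z)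
    (hℓπ : ∀ (r : ℕ) (a : 𝒪), (∃ z ∈ A, ι a = (ℓ : Qb) ^ r * z) →
      a ∈ Ideal.span {π ^ (e * r)})
    (hRI : ∀ (s : I) (c : R), s.1 (ι (algebraMap R 𝒪 c)) = ι (algebraMap R 𝒪 c))
    (hfin : ∃ n : ℕ, ∀ a : 𝒪, (MulAction.orbit I (ι a)).Finite ∧
      (MulAction.orbit I (ι a)).ncard ≤ n)
    (htors : ∀ x : M, ∃ c : ℕ, ∀ h ∈ (bun x).L01,
      π ^ (c + 1) • h ∈ (bun x).L0 ⊔ (bun x).L1 → π ^ c • h ∈ (bun x).L0 ⊔ (bun x).L1)
    (hglob : ∀ x : M, x ≠ 0 → ¬ ∃ s, Triv π (bun x) s s)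
    (hgal : ∀ s : I, ∃ (τ : 𝒪 →+* 𝒪) (σ : F →+* F) (c : 𝒪), (∀ a, ι (τ a) = s.1 (ι a)) ∧
      (∀ a, σ (algebraMap 𝒪 F a) = algebraMap 𝒪 F (τ a)) ∧ τ π = c * π ∧
      (∀ t ∈ S0, σ t ∈ S0) ∧ (∀ t ∈ S1, σ t ∈ S1) ∧ (∀ i, σ (η i) = η i) ∧
      ∀ x, ∃ f : F, (∀ a ∈ (bun x).L01, f * σ a ∈ (bun (s • x)).L01) ∧
        Triv π (bun (s • x)) (f * σ (e0 x)) (f * σ (e1 x))) :
    IsTruncSys A I ℓ (fun r x i => ι (β (e * r) x i)) where
  nil := by
    intro r x i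
    obtain ⟨c, hc⟩ := Ideal.mem_span_singleton'.1 (hβ.small (e * r) x i)
    rw [← hc, map_mul]
    exact mul_mem_nonunits A (hιA c) hπA
  compat := by
    intro r x i
    exact cong_of_mem_span A ι hιA hπℓ
      (hβ.compat hη hC hfam (Nat.mul_le_mul_left e (Nat.le_succ r)) (hU (e * r)) x i)
  eqv := by
    intro r s x i
    obtain ⟨τ, σ, c, hιτ, hστ, hτπ, h0, h1, hση, hx⟩ := hgal s
    obtain ⟨f, hbun, htriv⟩ := hx x
    have h := hβ.eqv_scalar hη hC hfam (hU (e * r)) τ σ (fun x => s • x) hστ hτπ h0 h1 hση x f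
      hbun htriv i
    have h' := cong_of_mem_span A ι hιA hπℓ h
    rw [hιτ] at h'
    exact h'
  sep := by
    intro x y hne
    have hxy : x - y ≠ 0 := sub_ne_zero.2 hne
    obtain ⟨c, hc⟩ := htors (x - y)
    obtain ⟨i, hi⟩ := hβ.exists_not_mem hη hC hfam (hU (c + 1)) (hL (c + 1)) hc (hglob _ hxy)
    refine ⟨c + 1, i, fun hcong => hi ?_⟩
    obtain ⟨z, hz, hzeq⟩ := hcong
    have h1 : β (e * (c + 1)) x i - β (e * (c + 1)) y i ∈ Ideal.span {π ^ (e * (c + 1))} :=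
      hℓπ (c + 1) _ ⟨z, hz, by rw [map_sub]; exact hzeq⟩
    have hle : c + 1 ≤ e * (c + 1) := Nat.le_mul_of_pos_left _ he
    have h2 : β (e * (c + 1)) x i - β (e * (c + 1)) y i ∈ Ideal.span {π ^ (c + 1)} :=
      (Ideal.span_singleton_le_span_singleton.2 (pow_dvd_pow π hle)) h1
    have h3 := hβ.compat hη hC hfam hle (hU (c + 1)) x i
    have h4 := hβ.compat hη hC hfam hle (hU (c + 1)) y i
    have e' : β (c + 1) x i - β (c + 1) y i
        = (β (e * (c + 1)) x i - β (e * (c + 1)) y i)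
          - (β (e * (c + 1)) x i - β (c + 1) x i)
          + (β (e * (c + 1)) y i - β (c + 1) y i) := by ring
    rw [e']
    exact Ideal.add_mem _ (Ideal.sub_mem _ h2 h3) h4
  fin := by
    obtain ⟨n, hn⟩ := hfin
    exact ⟨n, fun r x i => hn _⟩
  law := by
    intro r i
    refine ⟨MvPolynomial.map (ι.comp (algebraMap R 𝒪)) (P (e * r) i), fun d => ?_, fun s d => ?_,
      fun x y => ?_⟩
    · rw [MvPolynomial.coeff_map]
      exact hιA _
    · rw [MvPolynomial.coeff_map]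
      exact hRI s _
    · have h := hβ.law hη hC hfam (hU (e * r)) (hL (e * r)) x y i
      have h' := cong_of_mem_span A ι hιA hπℓ h
      have e1 : ι (MvPolynomial.aeval (Sum.elim (β (e * r) x) (β (e * r) y)) (P (e * r) i))
          = MvPolynomial.eval (Sum.elim (fun k => ι (β (e * r) x k)) (fun k => ι (β (e * r) y k)))
            (MvPolynomial.map (ι.comp (algebraMap R 𝒪)) (P (e * r) i)) := by
        rw [MvPolynomial.eval_map, MvPolynomial.aeval_def, MvPolynomial.hom_eval₂]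
        congr 1
        funext k
        cases k <;> rfl
      rw [e1] at h'
      exact h'

/-- **S33-CECHORD, assembly** (S19-ORDER shape).  A family of two-chart bundles over a finite
group `M` with an action of `I`, trivial mod `π`, in a Čech datum with unit factorisation (`Fac`,
`Uni`) and polynomial law at every level: there is a subring `H0` of `M → ℚ̄` of `A`-valued,
`I`-equivariant functions, stable under `A^I`, separating points, closed under the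
comultiplication, with **(Loc)** : `φ m - φ 0 ∈ 𝔪_A`. -/
theorem exists_order_of_family [Finite M] (A : ValuationSubring Qb) (I : Subgroup GQ)
    [DistribMulAction I M] {ℓ : ℕ} (hℓp : ℓ.Prime) (hℓ : (ℓ : Qb) ∈ A.nonunits)
    (hIA : ∀ s ∈ I, ∀ a ∈ A, s a ∈ A)
    {π : 𝒪} {S0 S1 S01 : Subalgebra 𝒪 F} {g : ℕ} {η : Fin g → F}
    {bun : M → Bundle S0 S1 S01} {e0 e1 : M → F}
    (hη : ∀ i, η i ∈ S01) (hC : Charts π S0 S1 S01)
    (hfam : IsFamily π bun e0 e1) (hF : ∀ m, Fac π S0 S1 S01 η m)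
    (hU : ∀ m, Uni π S0 S1 S01 η m)
    {R : Type*} [CommRing R] [Algebra R 𝒪] (P : ℕ → Fin g → MvPolynomial (Fin g ⊕ Fin g) R)
    (hL : ∀ m, Law π S0 S1 S01 η m
      (fun b b' i => MvPolynomial.aeval (Sum.elim b b') (P m i)))
    (ι : 𝒪 →+* Qb) (hιA : ∀ a, ι a ∈ A) (hπA : ι π ∈ A.nonunits)
    {e : ℕ} (he : 0 < e) (hπℓ : ∃ z ∈ A, ι π ^ e = (ℓ : Qb) * z)
    (hℓπ : ∀ (r : ℕ) (a : 𝒪), (∃ z ∈ A, ι a = (ℓ : Qb) ^ r * z) →
      a ∈ Ideal.span {π ^ (e * r)})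
    (hRI : ∀ (s : I) (c : R), s.1 (ι (algebraMap R 𝒪 c)) = ι (algebraMap R 𝒪 c))
    (hfin : ∃ n : ℕ, ∀ a : 𝒪, (MulAction.orbit I (ι a)).Finite ∧
      (MulAction.orbit I (ι a)).ncard ≤ n)
    (htors : ∀ x : M, ∃ c : ℕ, ∀ h ∈ (bun x).L01,
      π ^ (c + 1) • h ∈ (bun x).L0 ⊔ (bun x).L1 → π ^ c • h ∈ (bun x).L0 ⊔ (bun x).L1)
    (hglob : ∀ x : M, x ≠ 0 → ¬ ∃ s, Triv π (bun x) s s)
    (hgal : ∀ s : I, ∃ (τ : 𝒪 →+* 𝒪) (σ : F →+* F) (c : 𝒪), (∀ a, ι (τ a) = s.1 (ι a)) ∧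
      (∀ a, σ (algebraMap 𝒪 F a) = algebraMap 𝒪 F (τ a)) ∧ τ π = c * π ∧
      (∀ t ∈ S0, σ t ∈ S0) ∧ (∀ t ∈ S1, σ t ∈ S1) ∧ (∀ i, σ (η i) = η i) ∧
      ∀ x, ∃ f : F, (∀ a ∈ (bun x).L01, f * σ a ∈ (bun (s • x)).L01) ∧
        Triv π (bun (s • x)) (f * σ (e0 x)) (f * σ (e1 x)))
    (act : GQ → M → M) (hact : ∀ (s : I) (m : M), act s.1 m = s • m) :
    ∃ H0 : Subring (M → Qb),
      (∀ φ ∈ H0, ∀ m, φ m ∈ A) ∧
      (∀ φ ∈ H0, ∀ s ∈ I, ∀ m, φ (act s m) = s (φ m)) ∧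
      (∀ c ∈ A, (∀ s ∈ I, s c = c) → ∀ φ ∈ H0, (fun m => c * φ m) ∈ H0) ∧
      (∀ m m', m ≠ m' → ∃ φ ∈ H0, φ m ≠ φ m') ∧
      (∀ φ ∈ H0, ∃ (n : ℕ) (a b : Fin n → M → Qb), (∀ k, a k ∈ H0) ∧
        (∀ k, b k ∈ H0) ∧ ∀ m m', φ (m + m') = ∑ k, a k m * b k m') ∧
      (∀ φ ∈ H0, ∀ m, φ m - φ 0 ∈ A.nonunits) := by
  obtain ⟨β, hβ⟩ := exists_isCoordSys (M := M) (η := η) hfam hF
  have h1 := hβ.isTruncSys A I hη hC hfam hU P hL ι hιA hπA he hπℓ hℓπ hRI hfin htors hglob hgal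
    (ℓ := ℓ)
  exact h1.exists_order hℓp hℓ hIA act hact

end Adapter

/-! ### The order on an `I`-stable subgroup of a Galois module (shape of `Stmt_OrderJ`) -/

section Subgroup

variable {𝒪 F : Type*} [CommRing 𝒪] [CommRing F] [Algebra 𝒪 F]
variable {J : Type*} [AddCommGroup J] [DistribMulAction GQ J]

/-- The action of a subgroup `I ≤ G` on an `I`-stable additive subgroup of a `G`-module. -/
@[reducible] def stableAction {G J : Type*} [Group G] [AddCommGroup J] [DistribMulAction G J]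
    (I : Subgroup G) (K : AddSubgroup J) (hK : ∀ s ∈ I, ∀ x ∈ K, s • x ∈ K) :
    DistribMulAction I K where
  smul s x := ⟨(s : G) • (x : J), hK s s.2 x x.2⟩
  one_smul x := Subtype.ext (one_smul G (x : J))
  mul_smul s t x := Subtype.ext (mul_smul (s : G) (t : G) (x : J))
  smul_zero s := Subtype.ext (smul_zero (s : G))
  smul_add s x y := Subtype.ext (smul_add (s : G) (x : J) (y : J))

/-- **S33-CECHORD, final form** (the six clauses of `Stmt_OrderJ`).  `K` a finite subgroup of a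
`G_ℚ`-module `J`, stable under `I`; a family of bundles over `K` as in `exists_order_of_family`,
the Galois hypothesis being stated for pairs `x y : K` with `y = s • x` in `J`. -/
theorem exists_order_subgroup (K : AddSubgroup J) [Finite K] (A : ValuationSubring Qb)
    (I : Subgroup GQ) (hK : ∀ s ∈ I, ∀ x ∈ K, s • x ∈ K)
    {ℓ : ℕ} (hℓp : ℓ.Prime) (hℓ : (ℓ : Qb) ∈ A.nonunits)
    (hIA : ∀ s ∈ I, ∀ a ∈ A, s a ∈ A)
    {π : 𝒪} {S0 S1 S01 : Subalgebra 𝒪 F} {g : ℕ} {η : Fin g → F}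
    {bun : K → Bundle S0 S1 S01} {e0 e1 : K → F}
    (hη : ∀ i, η i ∈ S01) (hC : Charts π S0 S1 S01)
    (hfam : IsFamily π bun e0 e1) (hF : ∀ m, Fac π S0 S1 S01 η m)
    (hU : ∀ m, Uni π S0 S1 S01 η m)
    {R : Type*} [CommRing R] [Algebra R 𝒪] (P : ℕ → Fin g → MvPolynomial (Fin g ⊕ Fin g) R)
    (hL : ∀ m, Law π S0 S1 S01 η m
      (fun b b' i => MvPolynomial.aeval (Sum.elim b b') (P m i)))
    (ι : 𝒪 →+* Qb) (hιA : ∀ a, ι a ∈ A) (hπA : ι π ∈ A.nonunits)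
    {e : ℕ} (he : 0 < e) (hπℓ : ∃ z ∈ A, ι π ^ e = (ℓ : Qb) * z)
    (hℓπ : ∀ (r : ℕ) (a : 𝒪), (∃ z ∈ A, ι a = (ℓ : Qb) ^ r * z) →
      a ∈ Ideal.span {π ^ (e * r)})
    (hRI : ∀ s ∈ I, ∀ c : R, s (ι (algebraMap R 𝒪 c)) = ι (algebraMap R 𝒪 c))
    (hfin : ∃ n : ℕ, ∀ a : 𝒪, (MulAction.orbit I (ι a)).Finite ∧
      (MulAction.orbit I (ι a)).ncard ≤ n)
    (htors : ∀ x : K, ∃ c : ℕ, ∀ h ∈ (bun x).L01,
      π ^ (c + 1) • h ∈ (bun x).L0 ⊔ (bun x).L1 → π ^ c • h ∈ (bun x).L0 ⊔ (bun x).L1)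
    (hglob : ∀ x : K, x ≠ 0 → ¬ ∃ s, Triv π (bun x) s s)
    (hgal : ∀ s ∈ I, ∃ (τ : 𝒪 →+* 𝒪) (σ : F →+* F) (c : 𝒪), (∀ a, ι (τ a) = s (ι a)) ∧
      (∀ a, σ (algebraMap 𝒪 F a) = algebraMap 𝒪 F (τ a)) ∧ τ π = c * π ∧
      (∀ t ∈ S0, σ t ∈ S0) ∧ (∀ t ∈ S1, σ t ∈ S1) ∧ (∀ i, σ (η i) = η i) ∧
      ∀ x y : K, (y : J) = s • (x : J) → ∃ f : F, (∀ a ∈ (bun x).L01, f * σ a ∈ (bun y).L01) ∧
        Triv π (bun y) (f * σ (e0 x)) (f * σ (e1 x))) :
    ∃ H0 : Subring (K → Qb),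
      (∀ φ ∈ H0, ∀ x, φ x ∈ A) ∧
      (∀ φ ∈ H0, ∀ s ∈ I, ∀ x y : K, (y : J) = s • (x : J) → φ y = s (φ x)) ∧
      (∀ c ∈ A, (∀ s ∈ I, s c = c) → ∀ φ ∈ H0, (fun x => c * φ x) ∈ H0) ∧
      (∀ x y, x ≠ y → ∃ φ ∈ H0, φ x ≠ φ y) ∧
      (∀ φ ∈ H0, ∃ (n : ℕ) (a b : Fin n → K → Qb), (∀ k, a k ∈ H0) ∧ (∀ k, b k ∈ H0) ∧
        ∀ x y, φ (x + y) = ∑ k, a k x * b k y) ∧
      (∀ φ ∈ H0, ∀ x, φ x - φ 0 ∈ A.nonunits) := by
  classical
  let _ : DistribMulAction I K := stableAction I K hK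
  let act : GQ → K → K := fun s x => if h : s ∈ I then ⟨s • (x : J), hK s h x x.2⟩ else x
  have hact : ∀ (s : I) (m : K), act s.1 m = s • m := by
    intro s m
    simp only [act, dif_pos s.2]
    rfl
  obtain ⟨H0, h1, h2, h3, h4, h5, h6⟩ := exists_order_of_family (M := K) A I hℓp hℓ hIA hη hC
    hfam hF hU P hL ι hιA hπA he hπℓ hℓπ (fun s c => hRI s.1 s.2 c) hfin htors hglob
    (fun s => by
      obtain ⟨τ, σ, c, hιτ, hστ, hτπ, h0, h1, hση, hx⟩ := hgal s.1 s.2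
      exact ⟨τ, σ, c, hιτ, hστ, hτπ, h0, h1, hση, fun x => hx x (s • x) rfl⟩) act hact
  refine ⟨H0, h1, ?_, h3, h4, h5, h6⟩
  intro φ hφ s hs x y hxy
  have hy : y = act s x := by
    apply Subtype.ext
    simp only [act, dif_pos hs]
    exact hxy
  rw [hy]
  exact h2 φ hφ s hs x

end Subgroup

end Fermat.Agent.S33.helper2055
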