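/-
S33 GEOMETRY HALF, Spec (helper1085).

The seam between the geometry of `X₀(pM)` at `p ∥ pM` and the local lemma LOCAL-ORD is ONE
statement: for every valuation ring `P` of `ℚ̄` over `p`, every `m` and `d`, the finite group
`K_n ^ d` (`K_n = helper3511.kBoth`, `n = p ^ m`) carries an order `H0` of `P`-valued,
inertia-equivariant functions in the S19-ORDER shape with (Loc)  (`Stmt_OrdPow`).

This file
* fixes the modular objects at a finite level `E` (`lvlRing`, `ball`, `chart`, `sect`, `bundle`),
  in the chart language of `S19.helper5454` and the Čech language of `S19/S33.helper2055`;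
* states the TWO geometric leaves as `Prop`s: `Stmt_CechLevel` (the Čech datum of the
  two-component model at every finite level, with unit factorisation and polynomial law) and
  `Stmt_Family` (the classes of `K_n` are two-chart bundles trivial mod `π`, in a family);
* proves the assembly `stmt_OrdPow_of_leaves : Stmt_CechLevel → Stmt_Family → Stmt_OrdPow`
  from `helper2055.exists_order_of_family` (scalar form of the equivariance, after `helper2287`)
  and the Galois glue at a finite level (`smul_mem_gaussV`, `smul_mem_levelField`,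
  `smul_mem_ball`, `smul_mem_chart`, `smul_emb`, `smul_jBar`, `map_mem_decomp`,
  `map_mem_nonunits`, `orbit_bound`).
-/
import Fermat.Agent.S33.helper3511_FreeHalf
import Fermat.Agent.S33.helper2055_CechOrd2
import Fermat.Agent.S19.helper5454_ChartDiv
import Fermat.Agent.S19.helper9190_SpecC

set_option autoImplicit false
set_option linter.unusedSectionVars false

namespace Fermat.Agent.S33.helper1085

open AlgebraicCurve ModularCurve
open Fermat.Agent.S19.helper2055 Fermat.Agent.S33.helper2055
open Fermat.Agent.S19.helper5454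
open Fermat.Agent.S33.helper3511 Fermat.Agent.S34.helper584
open Fermat.Agent.S24.helper24

noncomputable section

local notation "Qb" => AlgebraicClosure ℚ
local notation "GQ" => (AlgebraicClosure ℚ ≃ₐ[ℚ] AlgebraicClosure ℚ)

/-! ## 1. The modular objects at a finite level `E` -/

section Objects

variable (P : ValuationSubring Qb) (N : ℕ) [NeZero N]
  (W : modularFunctionFieldBar N ≃ₐ[Qb] modularFunctionFieldBar N) (E : IntermediateField ℚ Qb)

/-- The constants at level `E`: `𝒪_E = P ∩ E`. -/
def lvlRing : Subring Qb := P.toSubring ⊓ E.toSubring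

theorem mem_lvlRing {a : Qb} : a ∈ lvlRing P E ↔ a ∈ P ∧ a ∈ E := Iff.rfl

/-- The two-sided unit ball at level `E`: functions rational over `E` which are integral at the
Gauss valuation of `P` and at its `W`-twin. -/
def ball : Subring (modularFunctionFieldBar N) :=
  ((gaussV P N).toSubring ⊓
      (gaussV P N).toSubring.comap (W : modularFunctionFieldBar N →+* modularFunctionFieldBar N)) ⊓
    (Fermat.Agent.S19.helper9190.levelField N E).toSubring

theorem mem_ball {f : modularFunctionFieldBar N} :
    f ∈ ball P N W E ↔ f ∈ gaussV P N ∧ W f ∈ gaussV P N ∧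
      f ∈ Fermat.Agent.S19.helper9190.levelField N E := by
  unfold ball
  simp only [Subring.mem_inf, Subring.mem_comap]
  exact and_assoc

theorem cst_mem_ball : ∀ a ∈ lvlRing P E,
    algebraMap Qb (modularFunctionFieldBar N) a ∈ ball P N W E := by
  intro a ha
  have h1 : algebraMap Qb (modularFunctionFieldBar N) a ∈ gaussV P N := by
    rw [← ValuationSubring.valuation_le_one_iff]
    exact (gaussF_valuation_algebraMap_le_one_iff P N a).2 ha.1
  refine (mem_ball P N W E).2 ⟨h1, ?_, ?_⟩
  · rw [AlgEquiv.commutes]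
    exact h1
  · exact Subfield.subset_closure (Or.inl ⟨a, ha.2, rfl⟩)

/-- The three charts of the `j`-line: `j` finite, `1/j` finite, overlap. -/
abbrev cFin : Place Qb (modularFunctionFieldBar N) → Prop := OnFin (jBar N)

/-- `1/j` finite. -/
abbrev cInf : Place Qb (modularFunctionFieldBar N) → Prop := OnInf (jBar N)

/-- The overlap. -/
abbrev cMid : Place Qb (modularFunctionFieldBar N) → Prop := OnMid (jBar N)

/-- The chart ring at level `E` as an `𝒪_E`-algebra. -/
def chart (c : Place Qb (modularFunctionFieldBar N) → Prop) :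
    Subalgebra (lvlRing P E) (modularFunctionFieldBar N) :=
  chartAlg (lvlRing P E) (ball P N W E) (cst_mem_ball P N W E) c

/-- The chart module `L_c(D)` at level `E` as an `𝒪_E`-module. -/
def sect (c : Place Qb (modularFunctionFieldBar N) → Prop)
    (D : Divisor Qb (modularFunctionFieldBar N)) :
    Submodule (lvlRing P E) (modularFunctionFieldBar N) :=
  chartSub (lvlRing P E) (ball P N W E) (cst_mem_ball P N W E) c D

/-- The two-chart bundle of a divisor at level `E`. -/
def bundle (D : Divisor Qb (modularFunctionFieldBar N)) :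
    Bundle (chart P N W E (cFin N)) (chart P N W E (cInf N)) (chart P N W E (cMid N)) where
  L0 := sect P N W E (cFin N) D
  L1 := sect P N W E (cInf N) D
  L01 := sect P N W E (cMid N) D
  le0 := chartSub_le_of_anti _ _ _ (fun _ hv => OnMid.onFin hv) D
  le1 := chartSub_le_of_anti _ _ _ (fun _ hv => OnMid.onInf hv) D
  mul0 := fun _ hs _ hx => chartAlg_mul_mem_chartSub _ _ _ hs hx
  mul1 := fun _ hs _ hx => chartAlg_mul_mem_chartSub _ _ _ hs hx
  mul01 := fun _ hs _ hx => chartAlg_mul_mem_chartSub _ _ _ hs hx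

end Objects

/-! ## 2. The group `K_n`, the inertia action, the target -/

section Group

variable {p M : ℕ} [NeZero p] [NeZero M] (h : Nat.Coprime p M)
  [HasPrincipalDivisors Qb (modularFunctionFieldBar (p * M))]
  (P : ValuationSubring Qb) (n : ℕ)

/-- The Atkin–Lehner involution `W_p` of `ℚ̄(X₀(pM))` (S35/helper1219). -/
abbrev wAL : modularFunctionFieldBar (p * M) ≃ₐ[Qb] modularFunctionFieldBar (p * M) :=
  Fermat.Agent.S35.helper1219.atkinLehnerBar p M h

/-- `K_n` at level `p * M` (FREEHALF, helper3511). -/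
abbrev Kn : AddSubgroup (JZero (p * M)) := kBoth P (p * M) n (wAL h)

theorem inertia_le_decomposition {s : GQ} (hs : s ∈ P.inertiaSubgroupIn ℚ) :
    s ∈ P.decompositionSubgroup ℚ := by
  obtain ⟨t, _, rfl⟩ := hs
  exact t.2

/-- The inertia group of `P` acts on `K_n`. -/
instance inertiaAction : DistribMulAction (P.inertiaSubgroupIn ℚ) (Kn h P n) where
  smul s x := ⟨(s : GQ) • (x : JZero (p * M)),
    smul_mem_kBoth_atkinLehner h (inertia_le_decomposition P s.2) x.2⟩
  one_smul x := Subtype.ext (one_smul GQ (x : JZero (p * M)))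
  mul_smul s t x := Subtype.ext (mul_smul (s : GQ) (t : GQ) (x : JZero (p * M)))
  smul_zero s := Subtype.ext (smul_zero (s : GQ))
  smul_add s x y := Subtype.ext (smul_add (s : GQ) (x : JZero (p * M)) (y : JZero (p * M)))

theorem coe_inertia_smul (s : P.inertiaSubgroupIn ℚ) (x : Kn h P n) :
    ((s • x : Kn h P n) : JZero (p * M)) = (s : GQ) • (x : JZero (p * M)) := rfl

/-- The action of `G_ℚ` on `K_n ^ d` used in the target (only its values on the inertia group
matter: there it is the componentwise Galois action). -/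
def actPow (d : ℕ) (s : GQ) (x : Fin d → Kn h P n) : Fin d → Kn h P n :=
  haveI := Classical.propDecidable (s ∈ P.inertiaSubgroupIn ℚ)
  if hs : s ∈ P.inertiaSubgroupIn ℚ then fun i => (⟨s, hs⟩ : P.inertiaSubgroupIn ℚ) • x i else x

theorem actPow_inertia (d : ℕ) (s : P.inertiaSubgroupIn ℚ) (x : Fin d → Kn h P n) :
    actPow h P n d (s : GQ) x = s • x := by
  unfold actPow
  rw [dif_pos s.2]
  rfl

theorem coe_actPow (d : ℕ) {s : GQ} (hs : s ∈ P.inertiaSubgroupIn ℚ) (x : Fin d → Kn h P n)
    (i : Fin d) : ((actPow h P n d s x i : Kn h P n) : JZero (p * M)) = s • (x i : JZero (p * M)) := by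
  unfold actPow
  rw [dif_pos hs]
  rfl

end Group

/-- **The S19-ORDER shape with (Loc)** for a subring `H0` of functions on a group `X` with an
action `act` of `G_ℚ` (hypotheses `(hval) (hI) (hR0) (hsep) (hadd) (hloc)` of the LOCAL-ORD /
NOFIX consumers, verbatim; conclusion of `helper2055.exists_order_of_family`). -/
def IsLocOrder (P : ValuationSubring Qb) {X : Type*} [AddCommGroup X] (act : GQ → X → X)
    (H0 : Subring (X → Qb)) : Prop :=
  (∀ φ ∈ H0, ∀ m, φ m ∈ P) ∧
  (∀ φ ∈ H0, ∀ s ∈ P.inertiaSubgroupIn ℚ, ∀ m, φ (act s m) = s (φ m)) ∧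
  (∀ c ∈ P, (∀ s ∈ P.inertiaSubgroupIn ℚ, s c = c) → ∀ φ ∈ H0, (fun m => c * φ m) ∈ H0) ∧
  (∀ m m', m ≠ m' → ∃ φ ∈ H0, φ m ≠ φ m') ∧
  (∀ φ ∈ H0, ∃ (n : ℕ) (a b : Fin n → X → Qb), (∀ k, a k ∈ H0) ∧ (∀ k, b k ∈ H0) ∧
    ∀ m m', φ (m + m') = ∑ k, a k m * b k m') ∧
  (∀ φ ∈ H0, ∀ m, φ m - φ 0 ∈ P.nonunits)

/-- **TARGET of the geometry half of S33** (input of LOCAL-ORD / NOFIX at `M = K_n ^ d`). -/
def Stmt_OrdPow (p M : ℕ) [NeZero p] [NeZero M] (h : Nat.Coprime p M)
    [HasPrincipalDivisors Qb (modularFunctionFieldBar (p * M))] : Prop :=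
  ∀ P : ValuationSubring Qb, P.LiesOverPrime p → ∀ m d : ℕ,
    ∃ H0 : Subring ((Fin d → Kn h P (p ^ m)) → Qb), IsLocOrder P (actPow h P (p ^ m) d) H0

/-! ## 3. Finite levels -/

/-- `(E, π, e)` is an admissible finite level for `P` over `p`: `E / ℚ` finite and stable under
`G_ℚ`, `π` a uniformiser of the discrete valuation ring `𝒪_E = P ∩ E`, `e` its ramification index
(`π ^ e = p · unit`). -/
structure IsLevel (p : ℕ) (P : ValuationSubring Qb) (E : IntermediateField ℚ Qb)
    (π : lvlRing P E) (e : ℕ) : Prop where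
  fin : FiniteDimensional ℚ E
  stable : ∀ σ : GQ, ∀ x ∈ E, σ x ∈ E
  pos : 0 < e
  nonunit : (π : Qb) ∈ P.nonunits
  unif : ∀ a : lvlRing P E, (a : Qb) ∈ P.nonunits → a ∈ Ideal.span {π}
  pow : ∃ z ∈ P, (π : Qb) ^ e = (p : Qb) * z
  sat : ∀ (r : ℕ) (a : lvlRing P E), (∃ z ∈ P, (a : Qb) = (p : Qb) ^ r * z) →
    a ∈ Ideal.span {π ^ (e * r)}

/-! ## 4. The two geometric leaves -/

/-- **LEAF CECH-E** (= H1FREE-SS over `ℤ_(p)` + DICTINT-SS + base change + CECHUNITS):
the Čech datum of the two-component model of `X₀(N)` at EVERY finite level `(E, π)`, in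
`helper2055`'s element form.  The coordinates `η` are rational (in `ℚ(X₀(N))`, hence fixed by
`G_ℚ`) and do not depend on the level; the law is polynomial over a ring `R` of inertia-fixed
constants (in practice `ℤ_(p)`). -/
def Stmt_CechLevel (p N : ℕ) [NeZero N]
    (W : modularFunctionFieldBar N ≃ₐ[Qb] modularFunctionFieldBar N) : Prop :=
  ∀ P : ValuationSubring Qb, P.LiesOverPrime p →
    ∃ (g : ℕ) (η : Fin g → Fermat.Agent.S19.helper9190.FQ N),
      ∀ (E : IntermediateField ℚ Qb) (π : lvlRing P E) (e : ℕ), IsLevel p P E π e →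
        (∀ i, Fermat.Agent.S19.helper9190.emb N (η i) ∈ chart P N W E (cMid N)) ∧
        Charts π (chart P N W E (cFin N)) (chart P N W E (cInf N)) (chart P N W E (cMid N)) ∧
        (∀ m, Fac π (chart P N W E (cFin N)) (chart P N W E (cInf N)) (chart P N W E (cMid N))
          (fun i => Fermat.Agent.S19.helper9190.emb N (η i)) m) ∧
        (∀ m, Uni π (chart P N W E (cFin N)) (chart P N W E (cInf N)) (chart P N W E (cMid N))
          (fun i => Fermat.Agent.S19.helper9190.emb N (η i)) m) ∧
        ∃ (R : Type) (_ : CommRing R) (_ : Algebra R (lvlRing P E))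
          (Φ : ℕ → Fin g → MvPolynomial (Fin g ⊕ Fin g) R),
          (∀ s ∈ P.inertiaSubgroupIn ℚ, ∀ c : R,
            s ((algebraMap R (lvlRing P E) c : lvlRing P E) : Qb)
              = ((algebraMap R (lvlRing P E) c : lvlRing P E) : Qb)) ∧
          ∀ m, Law π (chart P N W E (cFin N)) (chart P N W E (cInf N)) (chart P N W E (cMid N))
            (fun i => Fermat.Agent.S19.helper9190.emb N (η i)) m
            (fun b b' i => MvPolynomial.aeval (Sum.elim b b') (Φ m i))

section Family

variable {p M : ℕ} [NeZero p] [NeZero M] (h : Nat.Coprime p M)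
  [HasPrincipalDivisors Qb (modularFunctionFieldBar (p * M))]
  (P : ValuationSubring Qb) (n : ℕ)

/-- The family of two-chart bundles over `K_n` at the level `(E, π)`: divisors `D x`, sections
`e0 x`, `e1 x` of the chart modules `L_0(D x)`, `L_1(D x)` with
* `fam`  : `helper2055.IsFamily` (trivial mod `π`; additive up to a scalar; zero);
* `tors` : bounded `π`-torsion of the Čech `H¹` of each bundle;
* `glob` : a bundle with a global generator mod `π` is the bundle of `0` (injectivity);
* `gal`  : inertia-equivariance up to a scalar (`helper2287`'s form). -/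
structure IsGeomFamily (E : IntermediateField ℚ Qb) (π : lvlRing P E)
    (D : Kn h P n → Divisor Qb (modularFunctionFieldBar (p * M)))
    (e0 e1 : Kn h P n → modularFunctionFieldBar (p * M)) : Prop where
  fam : IsFamily π (fun x => bundle P (p * M) (wAL h) E (D x)) e0 e1
  tors : ∀ x, ∃ c : ℕ, ∀ f ∈ (bundle P (p * M) (wAL h) E (D x)).L01,
    π ^ (c + 1) • f ∈ (bundle P (p * M) (wAL h) E (D x)).L0 ⊔ (bundle P (p * M) (wAL h) E (D x)).L1 →
      π ^ c • f ∈ (bundle P (p * M) (wAL h) E (D x)).L0 ⊔ (bundle P (p * M) (wAL h) E (D x)).L1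
  glob : ∀ x, x ≠ 0 → ¬ ∃ s, Triv π (bundle P (p * M) (wAL h) E (D x)) s s
  gal : ∀ (s : P.inertiaSubgroupIn ℚ) (x : Kn h P n), ∃ f : modularFunctionFieldBar (p * M),
    (∀ a ∈ (bundle P (p * M) (wAL h) E (D x)).L01,
      f * (arithmeticGalois (modularFunctionFieldFull (p * M)) (s : GQ) • a)
        ∈ (bundle P (p * M) (wAL h) E (D (s • x))).L01) ∧
    Triv π (bundle P (p * M) (wAL h) E (D (s • x)))
      (f * (arithmeticGalois (modularFunctionFieldFull (p * M)) (s : GQ) • e0 x))
      (f * (arithmeticGalois (modularFunctionFieldFull (p * M)) (s : GQ) • e1 x))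

end Family

/-- **LEAF FAMILY** (= FORMTRIV-SS + Kummer divisors + H1FG + principality + equivariance):
at some admissible finite level the classes of `K_n`, `n = p ^ m`, form a family of two-chart
bundles trivial mod `π`. -/
def Stmt_Family (p M : ℕ) [NeZero p] [NeZero M] (h : Nat.Coprime p M)
    [HasPrincipalDivisors Qb (modularFunctionFieldBar (p * M))] : Prop :=
  ∀ P : ValuationSubring Qb, P.LiesOverPrime p → ∀ m : ℕ,
    ∃ (E : IntermediateField ℚ Qb) (π : lvlRing P E) (e : ℕ)
      (D : Kn h P (p ^ m) → Divisor Qb (modularFunctionFieldBar (p * M)))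
      (e0 e1 : Kn h P (p ^ m) → modularFunctionFieldBar (p * M)),
      IsLevel p P E π e ∧ IsGeomFamily h P (p ^ m) E π D e0 e1

/-! ## 5. Galois glue at a finite level -/

section Glue

variable (P : ValuationSubring Qb) (N : ℕ) [NeZero N]
  (W : modularFunctionFieldBar N ≃ₐ[Qb] modularFunctionFieldBar N) (E : IntermediateField ℚ Qb)

/-- The decomposition group of `P` preserves the Gauss ring. -/
theorem smul_mem_gaussV {s : GQ} (hs : s ∈ P.decompositionSubgroup ℚ)
    {f : modularFunctionFieldBar N} (hf : f ∈ gaussV P N) :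
    arithmeticGalois (modularFunctionFieldFull N) s • f ∈ gaussV P N := by
  by_contra hcon
  rw [← ValuationSubring.valuation_le_one_iff, not_le] at hcon
  have hy0 : arithmeticGalois (modularFunctionFieldFull N) s • f ≠ 0 := by
    intro h0
    rw [h0, map_zero] at hcon
    exact not_lt_zero hcon
  have hinv : (gaussV P N).valuation
      (arithmeticGalois (modularFunctionFieldFull N) s • f)⁻¹ < 1 := by
    rw [map_inv₀]
    exact inv_lt_one_of_one_lt₀ hcon
  have h1 := gaussF_valuation_decomp_lt P N (inv_mem hs) _ hinv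
  have e : arithmeticGalois (modularFunctionFieldFull N) s⁻¹ •
      (arithmeticGalois (modularFunctionFieldFull N) s • f)⁻¹ = f⁻¹ := by
    rw [smul_inv'', map_inv, inv_smul_smul]
  rw [e, map_inv₀] at h1
  have hf1 : (gaussV P N).valuation f ≤ 1 := (ValuationSubring.valuation_le_one_iff _ _).2 hf
  have hf0 : f ≠ 0 := by
    rintro rfl
    exact hy0 (smul_zero _)
  have hpos : 0 < (gaussV P N).valuation f := zero_lt_iff.2 ((Valuation.ne_zero_iff _).2 hf0)
  exact absurd ((inv_lt_one₀ hpos).1 h1) (not_lt.2 hf1)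

/-- Rational functions are fixed by the arithmetic Galois action. -/
theorem smul_emb (s : GQ) (f : Fermat.Agent.S19.helper9190.FQ N) :
    arithmeticGalois (modularFunctionFieldFull N) s • Fermat.Agent.S19.helper9190.emb N f
      = Fermat.Agent.S19.helper9190.emb N f := by
  apply Subtype.ext
  rw [coe_arithmeticGalois_smul]
  exact coeffMap_coeffEmb s _

theorem smul_jBar (s : GQ) :
    arithmeticGalois (modularFunctionFieldFull N) s • jBar N = jBar N := by
  apply Subtype.ext
  rw [coe_arithmeticGalois_smul, coe_jBar, coeffMap_coeffEmb]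

/-- A Galois-stable level field is stable under the arithmetic Galois action. -/
theorem smul_mem_levelField (hE : ∀ σ : GQ, ∀ x ∈ E, σ x ∈ E) (s : GQ)
    {f : modularFunctionFieldBar N} (hf : f ∈ Fermat.Agent.S19.helper9190.levelField N E) :
    arithmeticGalois (modularFunctionFieldFull N) s • f
      ∈ Fermat.Agent.S19.helper9190.levelField N E := by
  have hle : Fermat.Agent.S19.helper9190.levelField N E ≤
      (Fermat.Agent.S19.helper9190.levelField N E).comap
        (MulSemiringAction.toRingHom (SemilinearAut Qb (modularFunctionFieldBar N))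
          (modularFunctionFieldBar N) (arithmeticGalois (modularFunctionFieldFull N) s)) := by
    refine Subfield.closure_le.2 ?_
    rintro x (⟨c, hc, rfl⟩ | ⟨f, rfl⟩)
    · refine Subfield.mem_comap.2 ?_
      show arithmeticGalois (modularFunctionFieldFull N) s •
        algebraMap Qb (modularFunctionFieldBar N) c ∈ Fermat.Agent.S19.helper9190.levelField N E
      rw [SemilinearAut.smul_algebraMap]
      exact Subfield.subset_closure (Or.inl ⟨_, hE s c hc, rfl⟩)
    · refine Subfield.mem_comap.2 ?_
      show arithmeticGalois (modularFunctionFieldFull N) s •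
        Fermat.Agent.S19.helper9190.emb N f ∈ Fermat.Agent.S19.helper9190.levelField N E
      rw [smul_emb]
      exact Subfield.subset_closure (Or.inr ⟨f, rfl⟩)
  exact hle hf

theorem smul_mem_ball (hE : ∀ σ : GQ, ∀ x ∈ E, σ x ∈ E) {s : GQ}
    (hs : s ∈ P.decompositionSubgroup ℚ)
    (hW : ∀ x : modularFunctionFieldBar N,
      W (arithmeticGalois (modularFunctionFieldFull N) s • x) =
        arithmeticGalois (modularFunctionFieldFull N) s • W x)
    {f : modularFunctionFieldBar N} (hf : f ∈ ball P N W E) :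
    arithmeticGalois (modularFunctionFieldFull N) s • f ∈ ball P N W E := by
  obtain ⟨h1, h2, h3⟩ := (mem_ball P N W E).1 hf
  refine (mem_ball P N W E).2 ⟨smul_mem_gaussV P N hs h1, ?_, smul_mem_levelField N E hE s h3⟩
  rw [hW]
  exact smul_mem_gaussV P N hs h2

theorem smul_mem_chart (hE : ∀ σ : GQ, ∀ x ∈ E, σ x ∈ E) {s : GQ}
    (hs : s ∈ P.decompositionSubgroup ℚ)
    (hW : ∀ x : modularFunctionFieldBar N,
      W (arithmeticGalois (modularFunctionFieldFull N) s • x) =
        arithmeticGalois (modularFunctionFieldFull N) s • W x)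
    {c : Place Qb (modularFunctionFieldBar N) → Prop}
    (hc : ∀ v : Place Qb (modularFunctionFieldBar N),
      c (arithmeticGalois (modularFunctionFieldFull N) s • v) → c v)
    {f : modularFunctionFieldBar N} (hf : f ∈ chart P N W E c) :
    arithmeticGalois (modularFunctionFieldFull N) s • f ∈ chart P N W E c := by
  have h1 : f ∈ chartMod c (ball P N W E) 0 := mem_chartRing_iff_mem_chartMod_zero.1 hf
  have h2 := smul_mem_chartMod (arithmeticGalois (modularFunctionFieldFull N) s)
    (fun f hf => smul_mem_ball P N W E hE hs hW hf) hc h1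
  rw [smul_zero] at h2
  exact mem_chartRing_iff_mem_chartMod_zero.2 h2

/-- An element of the decomposition group maps `P` into itself. -/
theorem map_mem_decomp {s : GQ} (hs : s ∈ P.decompositionSubgroup ℚ) {x : Qb} (hx : x ∈ P) :
    s x ∈ P := by
  open scoped Pointwise in
  have h1 : s • P = P := hs
  open scoped Pointwise in
  have h2 : s x ∈ s • P := by
    rw [ValuationSubring.mem_pointwise_smul_iff_inv_smul_mem]
    simpa using hx
  rwa [h1] at h2

/-- The decomposition group preserves the maximal ideal of `P`. -/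
theorem map_mem_nonunits {s : GQ} (hs : s ∈ P.decompositionSubgroup ℚ) {x : Qb}
    (hx : x ∈ P.nonunits) : s x ∈ P.nonunits := by
  rw [ValuationSubring.mem_nonunits_iff] at hx ⊢
  have hxP : x ∈ P := (P.valuation_le_one_iff x).1 hx.le
  have h1 : s x ∈ P := map_mem_decomp P hs hxP
  refine lt_of_le_of_ne ((P.valuation_le_one_iff _).2 h1) fun h => ?_
  have hx0 : s x ≠ 0 := by
    intro h0
    rw [h0, map_zero] at h
    exact zero_ne_one h
  have h2 : (s x)⁻¹ ∈ P := by
    rw [← P.valuation_le_one_iff, map_inv₀, h, inv_one]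
  have h3 := map_mem_decomp P (inv_mem hs) h2
  have e : s⁻¹ (s x)⁻¹ = x⁻¹ := by
    rw [map_inv₀]
    congr 1
    exact s.symm_apply_apply x
  rw [e, ← P.valuation_le_one_iff, map_inv₀] at h3
  have hx0' : x ≠ 0 := by
    rintro rfl
    exact hx0 (map_zero _)
  have hpos : 0 < P.valuation x := zero_lt_iff.2 ((Valuation.ne_zero_iff _).2 hx0')
  exact absurd hx (not_lt.2 ((inv_le_one₀ hpos).1 h3))

/-- The orbit of an element of a finite level under any subgroup of `G_ℚ` is bounded by the
degree. -/
theorem orbit_bound (I : Subgroup GQ) [FiniteDimensional ℚ E] {a : Qb} (ha : a ∈ E) :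
    (MulAction.orbit I a).Finite ∧ (MulAction.orbit I a).ncard ≤ Module.finrank ℚ E := by
  have hsub : MulAction.orbit I a ⊆ (minpoly ℚ a).rootSet Qb := by
    rintro _ ⟨s, rfl⟩
    have hQ : Algebra.IsAlgebraic ℚ Qb := AlgebraicClosure.isAlgebraic ℚ
    have hint : IsIntegral ℚ a := (Algebra.IsAlgebraic.isAlgebraic a).isIntegral
    rw [Polynomial.mem_rootSet]
    refine ⟨minpoly.ne_zero hint, ?_⟩
    show Polynomial.aeval ((s : GQ) a) (minpoly ℚ a) = 0
    rw [Polynomial.aeval_algHom_apply, minpoly.aeval, map_zero]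
  have hfin : ((minpoly ℚ a).rootSet Qb).Finite := Polynomial.rootSet_finite _ _
  refine ⟨hfin.subset hsub, ?_⟩
  calc (MulAction.orbit I a).ncard ≤ ((minpoly ℚ a).rootSet Qb).ncard :=
        Set.ncard_le_ncard hsub hfin
    _ ≤ (minpoly ℚ a).natDegree := Polynomial.ncard_rootSet_le _ _
    _ = (minpoly ℚ (⟨a, ha⟩ : E)).natDegree := by
        rw [← minpoly.algebraMap_eq (algebraMap E Qb).injective (⟨a, ha⟩ : E)]
        rfl
    _ ≤ Module.finrank ℚ E := minpoly.natDegree_le _

end Glue

/-! ## 6. The assembly -/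

section Assembly

variable {p M : ℕ} [NeZero p] [NeZero M] (h : Nat.Coprime p M)
  [HasPrincipalDivisors Qb (modularFunctionFieldBar (p * M))]

/-- **ASSEMBLY of the geometry half of S33**: the two leaves `Stmt_CechLevel` (Čech datum at
every finite level) and `Stmt_Family` (the classes of `K_n` are a family of bundles trivial
mod `π`) give the order on every power of `K_n`, `n = p ^ m`, in the S19-ORDER shape with
(Loc). -/
theorem stmt_OrdPow_of_leaves (hp : p.Prime)
    (hfinK : ∀ (P : ValuationSubring Qb) (m : ℕ), Finite (Kn h P (p ^ m)))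
    (hcech : Stmt_CechLevel p (p * M) (wAL h)) (hfam : Stmt_Family p M h) :
    Stmt_OrdPow p M h := by
  intro P hP m d
  obtain ⟨E, π, e, D, e0, e1, hlvl, hgf⟩ := hfam P hP m
  obtain ⟨g, η, hη⟩ := hcech P hP
  obtain ⟨hηmem, hC, hF, hU, R, instR, instA, Φ, hRI, hL⟩ := hη E π e hlvl
  have := hfinK P m
  have := hlvl.fin
  have hdec : ∀ s : P.inertiaSubgroupIn ℚ, (s : GQ) ∈ P.decompositionSubgroup ℚ :=
    fun s => inertia_le_decomposition P s.2
  obtain ⟨β, hβ⟩ := exists_isCoordSys (M := Kn h P (p ^ m))
    (η := fun i => Fermat.Agent.S19.helper9190.emb (p * M) (η i)) hgf.fam hF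
  have h1 := hβ.isTruncSys P (P.inertiaSubgroupIn ℚ) hηmem hC hgf.fam hU Φ hL
    (lvlRing P E).subtype (fun a => a.2.1) hlvl.nonunit hlvl.pos hlvl.pow hlvl.sat
    (fun s c => hRI s.1 s.2 c)
    ⟨Module.finrank ℚ E, fun a => orbit_bound E (P.inertiaSubgroupIn ℚ) a.2.2⟩
    hgf.tors hgf.glob ?_ (ℓ := p)
  · exact (h1.pow d).exists_order hp hP
      (fun s hs a ha => map_mem_decomp P (inertia_le_decomposition P hs) ha)
      (actPow h P (p ^ m) d) (fun s x => actPow_inertia h P (p ^ m) d s x)
  intro s
  let τ : lvlRing P E →+* lvlRing P E :=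
    RingHom.restrict (((s : GQ) : Qb ≃+* Qb) : Qb →+* Qb) (lvlRing P E) (lvlRing P E)
      (fun x hx => ⟨map_mem_decomp P (hdec s) hx.1, hlvl.stable s x hx.2⟩)
  have hτπ : τ π ∈ Ideal.span {π} :=
    hlvl.unif (τ π) (map_mem_nonunits P (hdec s) hlvl.nonunit)
  obtain ⟨c, hc⟩ := Ideal.mem_span_singleton'.1 hτπ
  have hW := Fermat.Agent.S35.helper1219.atkinLehnerBar_arithmeticGalois_smul p M h (s : GQ)
  refine ⟨τ, MulSemiringAction.toRingHom (SemilinearAut Qb (modularFunctionFieldBar (p * M)))
    (modularFunctionFieldBar (p * M)) (arithmeticGalois (modularFunctionFieldFull (p * M)) (s : GQ)),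
    c, fun a => rfl, fun a => ?_, hc.symm, ?_, ?_, fun i => smul_emb (p * M) (s : GQ) (η i),
    fun x => hgf.gal s x⟩
  · show arithmeticGalois (modularFunctionFieldFull (p * M)) (s : GQ) •
        algebraMap Qb (modularFunctionFieldBar (p * M)) (a : Qb)
      = algebraMap Qb (modularFunctionFieldBar (p * M)) ((s : GQ) (a : Qb))
    exact SemilinearAut.smul_algebraMap _ _
  · intro t ht
    exact smul_mem_chart P (p * M) (wAL h) E hlvl.stable (hdec s) hW
      (fun v hv => (onFin_smul _ (smul_jBar (p * M) (s : GQ)) v).1 hv) ht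
  · intro t ht
    exact smul_mem_chart P (p * M) (wAL h) E hlvl.stable (hdec s) hW
      (fun v hv => (onInf_smul _ (smul_jBar (p * M) (s : GQ)) v).1 hv) ht

end Assembly

end

end Fermat.Agent.S33.helper1085
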