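/-
S33 geometry half, sub-leaf (f) LEVEL of the GeomSpec (helper1085, team_s33_chat #116).

Existence of an admissible finite level: for a prime `p`, a valuation subring `P` of `ℚ̄` over `p`
and a finite extension `E0 / ℚ` inside `ℚ̄` there is a finite, `G_ℚ`-stable `E ⊇ E0`, a
uniformiser `π` of the discrete valuation ring `P ∩ E` and `e > 0` with `π ^ e = p · unit`.

The conclusion is stated with the fields of `helper1085.IsLevel` unfolded (so that this file does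
not import the GeomSpec); the adapter `helper9238_LevelGeom.lean` packages it as `IsLevel`.

Inputs (both on main): `S18.helper8351.isDiscreteValuationRing_comap` (`P ∩ E` is a DVR) and
`S55.helper4039` (`⨆ τ, τ(E0)` is finite and `G_ℚ`-stable).
-/
import Mathlib
import Fermat.Agent.S18.helper8351_NFDescent
import Fermat.Agent.S55.helper4039_SField

set_option autoImplicit false

namespace Fermat.Agent.S33.helper9238

noncomputable section

local notation "Qb" => AlgebraicClosure ℚ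
local notation "GQ" => (AlgebraicClosure ℚ ≃ₐ[ℚ] AlgebraicClosure ℚ)

/-- Non-units of `P ∩ E` (as a valuation subring of `E`) are the non-units of `P` lying in `E`. -/
theorem mem_nonunits_comap_iff (P : ValuationSubring Qb) (E : IntermediateField ℚ Qb) (x : E) :
    x ∈ (P.comap (algebraMap E Qb)).nonunits ↔ (x : Qb) ∈ P.nonunits := by
  rw [ValuationSubring.mem_nonunits_iff_or, ValuationSubring.mem_nonunits_iff_or,
    ValuationSubring.mem_comap, map_inv₀]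
  constructor
  · rintro (h | h)
    · left; rw [h]; rfl
    · right; exact h
  · rintro (h | h)
    · left; exact Subtype.ext h
    · right; exact h

/-- **Uniformiser data of `P ∩ E`** for ANY finite extension `E / ℚ` inside `ℚ̄` (no stability
needed): the fields `pos nonunit unif pow sat` of `helper1085.IsLevel p P E π e`, with
`lvlRing P E` unfolded as `P.toSubring ⊓ E.toSubring`; in addition `π ≠ 0` and
`p = u * π ^ e` with `u` a unit of `P ∩ E`. -/
theorem exists_uniformizer_data {p : ℕ} (hp : p.Prime) (P : ValuationSubring Qb)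
    (hP : P.LiesOverPrime p) (E : IntermediateField ℚ Qb) [FiniteDimensional ℚ E] :
    ∃ (π : (P.toSubring ⊓ E.toSubring : Subring Qb)) (e : ℕ), 0 < e ∧
      (π : Qb) ∈ P.nonunits ∧
      (∀ a : (P.toSubring ⊓ E.toSubring : Subring Qb), (a : Qb) ∈ P.nonunits →
        a ∈ Ideal.span {π}) ∧
      (∃ z ∈ P, (π : Qb) ^ e = (p : Qb) * z) ∧
      (∀ (r : ℕ) (a : (P.toSubring ⊓ E.toSubring : Subring Qb)),
        (∃ z ∈ P, (a : Qb) = (p : Qb) ^ r * z) → a ∈ Ideal.span {π ^ (e * r)}) ∧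
      (π : Qb) ≠ 0 ∧
      ∃ u : Qb, u ∈ E ∧ u ∈ P ∧ u⁻¹ ∈ P ∧ (p : Qb) = u * (π : Qb) ^ e := by
  classical
  -- the DVR `D = P ∩ E`
  let D : ValuationSubring E := P.comap (algebraMap E Qb)
  have hDVR : IsDiscreteValuationRing D :=
    Fermat.Agent.S18.helper8351.isDiscreteValuationRing_comap P E hp hP
  obtain ⟨ϖ, hϖ⟩ := IsDiscreteValuationRing.exists_irreducible D
  have hpD : ((p : ℕ) : E) ∈ D.nonunits :=
    Fermat.Agent.S18.helper8351.natCast_mem_nonunits_comap P E hP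
  have hpE0 : ((p : ℕ) : E) ≠ 0 := Nat.cast_ne_zero.mpr hp.ne_zero
  have hpDmem : ((p : ℕ) : E) ∈ D := natCast_mem D p
  let pD : D := ⟨((p : ℕ) : E), hpDmem⟩
  have hpD0 : pD ≠ 0 := fun h => hpE0 (congrArg Subtype.val h)
  obtain ⟨e, u, hu⟩ := IsDiscreteValuationRing.eq_unit_mul_pow_irreducible hpD0 hϖ
  -- coercions to `Qb`
  have hϖP : ((ϖ : E) : Qb) ∈ P := ValuationSubring.mem_comap.mp ϖ.2
  have hϖE : ((ϖ : E) : Qb) ∈ E := (ϖ : E).2
  have hϖ0 : ((ϖ : E) : Qb) ≠ 0 := by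
    intro h
    apply hϖ.ne_zero
    apply Subtype.ext
    apply Subtype.ext
    exact h
  have huP : (((u : D) : E) : Qb) ∈ P := ValuationSubring.mem_comap.mp (u : D).2
  have huE : (((u : D) : E) : Qb) ∈ E := ((u : D) : E).2
  have huinvP : ((((u⁻¹ : Dˣ) : D) : E) : Qb) ∈ P :=
    ValuationSubring.mem_comap.mp ((u⁻¹ : Dˣ) : D).2
  have huinv : (((u : D) : E) : Qb) * ((((u⁻¹ : Dˣ) : D) : E) : Qb) = 1 := by
    have h1 : (u : D) * ((u⁻¹ : Dˣ) : D) = 1 := Units.mul_inv u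
    have h2 := congrArg (fun x : D => ((x : E) : Qb)) h1
    exact h2
  have hpeq : (p : Qb) = (((u : D) : E) : Qb) * ((ϖ : E) : Qb) ^ e := by
    have h2 := congrArg (fun x : D => ((x : E) : Qb)) hu
    simpa [pD] using h2
  have hπnon : ((ϖ : E) : Qb) ∈ P.nonunits := by
    rw [← mem_nonunits_comap_iff P E (ϖ : E)]
    exact ValuationSubring.coe_mem_nonunits_iff.mpr
      ((IsLocalRing.mem_maximalIdeal _).mpr hϖ.not_isUnit)
  have hepos : 0 < e := by
    rcases Nat.eq_zero_or_pos e with h0 | h0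
    · exfalso
      rw [h0, pow_zero, mul_one] at hu
      have hunit : IsUnit pD := hu ▸ u.isUnit
      have hmax : pD ∈ IsLocalRing.maximalIdeal D :=
        ValuationSubring.coe_mem_nonunits_iff.mp hpD
      exact (IsLocalRing.mem_maximalIdeal _).mp hmax hunit
    · exact h0
  let π : (P.toSubring ⊓ E.toSubring : Subring Qb) := ⟨((ϖ : E) : Qb), ⟨hϖP, hϖE⟩⟩
  refine ⟨π, e, hepos, hπnon, ?_, ?_, ?_, hϖ0, ?_⟩
  · -- unif
    intro a ha
    let aE : E := ⟨(a : Qb), a.2.2⟩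
    have haD : aE ∈ D := ValuationSubring.mem_comap.mpr a.2.1
    let aD : D := ⟨aE, haD⟩
    have hmax : aD ∈ IsLocalRing.maximalIdeal D := by
      apply ValuationSubring.coe_mem_nonunits_iff.mp
      exact (mem_nonunits_comap_iff P E aE).mpr ha
    rw [hϖ.maximalIdeal_eq, Ideal.mem_span_singleton'] at hmax
    obtain ⟨b, hb⟩ := hmax
    rw [Ideal.mem_span_singleton']
    refine ⟨⟨((b : E) : Qb), ⟨ValuationSubring.mem_comap.mp b.2, (b : E).2⟩⟩, ?_⟩
    apply Subtype.ext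
    have h2 := congrArg (fun x : D => ((x : E) : Qb)) hb
    simpa [aD, aE, π] using h2
  · -- pow
    refine ⟨((((u⁻¹ : Dˣ) : D) : E) : Qb), huinvP, ?_⟩
    rw [hpeq]
    calc ((ϖ : E) : Qb) ^ e
        = ((((u : D) : E) : Qb) * ((((u⁻¹ : Dˣ) : D) : E) : Qb)) * ((ϖ : E) : Qb) ^ e := by
          rw [huinv, one_mul]
      _ = (((u : D) : E) : Qb) * ((ϖ : E) : Qb) ^ e * ((((u⁻¹ : Dˣ) : D) : E) : Qb) := by ring
  · -- sat
    intro r a ⟨z, hz, haz⟩
    rw [Ideal.mem_span_singleton']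
    have hπr0 : ((ϖ : E) : Qb) ^ (e * r) ≠ 0 := pow_ne_zero _ hϖ0
    have hb : (a : Qb) / ((ϖ : E) : Qb) ^ (e * r) = (((u : D) : E) : Qb) ^ r * z := by
      rw [div_eq_iff hπr0, haz, hpeq, mul_pow, ← pow_mul]
      ring
    have hbP : (a : Qb) / ((ϖ : E) : Qb) ^ (e * r) ∈ P := by
      rw [hb]
      exact P.mul_mem _ _ (P.pow_mem huP r) hz
    have hbE : (a : Qb) / ((ϖ : E) : Qb) ^ (e * r) ∈ E :=
      E.div_mem a.2.2 (pow_mem hϖE _)
    refine ⟨⟨(a : Qb) / ((ϖ : E) : Qb) ^ (e * r), ⟨hbP, hbE⟩⟩, ?_⟩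
    apply Subtype.ext
    show (a : Qb) / ((ϖ : E) : Qb) ^ (e * r) *
      ((π ^ (e * r) : (P.toSubring ⊓ E.toSubring : Subring Qb)) : Qb) = (a : Qb)
    rw [Subring.coe_pow]
    exact div_mul_cancel₀ _ hπr0
  · -- the unit form
    refine ⟨(((u : D) : E) : Qb), huE, huP, ?_, hpeq⟩
    have : (((u : D) : E) : Qb)⁻¹ = ((((u⁻¹ : Dˣ) : D) : E) : Qb) :=
      inv_eq_of_mul_eq_one_right huinv
    rw [this]
    exact huinvP

/-- The Galois closure `⨆ τ, τ(E0)` of a finite `E0`: finite, `G_ℚ`-stable, contains `E0`. -/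
theorem exists_stable_ge (E0 : IntermediateField ℚ Qb) [FiniteDimensional ℚ E0] :
    ∃ E : IntermediateField ℚ Qb, E0 ≤ E ∧ FiniteDimensional ℚ E ∧
      ∀ σ : GQ, ∀ x ∈ E, σ x ∈ E := by
  refine ⟨⨆ τ : GQ, E0.map (τ : Qb →ₐ[ℚ] Qb), Fermat.Agent.S55.helper4039.le_iSup_map E0,
    Fermat.Agent.S55.helper4039.finiteDimensional_iSup_map E0, ?_⟩
  intro σ x hx
  have hmap := Fermat.Agent.S55.helper4039.map_iSup_map E0 σ
  have : (σ : Qb →ₐ[ℚ] Qb) x ∈
      (⨆ τ : GQ, E0.map (τ : Qb →ₐ[ℚ] Qb)).map (σ : Qb →ₐ[ℚ] Qb) :=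
    (IntermediateField.mem_map (f := (σ : Qb →ₐ[ℚ] Qb))
      (S := ⨆ τ : GQ, E0.map (τ : Qb →ₐ[ℚ] Qb))).mpr ⟨x, hx, rfl⟩
  rw [hmap] at this
  exact this

/-- **(f) LEVEL, core.**  The fields of `helper1085.IsLevel p P E π e` for a suitable finite
`G_ℚ`-stable level `E ⊇ E0`, with `lvlRing P E` unfolded as `P.toSubring ⊓ E.toSubring`.
In addition: `π ≠ 0`, and `p = u * π ^ e` with `u` a unit of `P ∩ E`. -/
theorem exists_level_core {p : ℕ} (hp : p.Prime) (P : ValuationSubring Qb)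
    (hP : P.LiesOverPrime p) (E0 : IntermediateField ℚ Qb) [FiniteDimensional ℚ E0] :
    ∃ (E : IntermediateField ℚ Qb) (π : (P.toSubring ⊓ E.toSubring : Subring Qb)) (e : ℕ),
      E0 ≤ E ∧ FiniteDimensional ℚ E ∧ (∀ σ : GQ, ∀ x ∈ E, σ x ∈ E) ∧ 0 < e ∧
      (π : Qb) ∈ P.nonunits ∧
      (∀ a : (P.toSubring ⊓ E.toSubring : Subring Qb), (a : Qb) ∈ P.nonunits →
        a ∈ Ideal.span {π}) ∧
      (∃ z ∈ P, (π : Qb) ^ e = (p : Qb) * z) ∧
      (∀ (r : ℕ) (a : (P.toSubring ⊓ E.toSubring : Subring Qb)),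
        (∃ z ∈ P, (a : Qb) = (p : Qb) ^ r * z) → a ∈ Ideal.span {π ^ (e * r)}) ∧
      (π : Qb) ≠ 0 ∧
      ∃ u : Qb, u ∈ E ∧ u ∈ P ∧ u⁻¹ ∈ P ∧ (p : Qb) = u * (π : Qb) ^ e := by
  obtain ⟨E, hE0, hfin, hstab⟩ := exists_stable_ge E0
  obtain ⟨π, e, h⟩ := exists_uniformizer_data hp P hP E
  exact ⟨E, π, e, hE0, hfin, hstab, h⟩

end

end Fermat.Agent.S33.helper9238
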