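/-
S33 geometry half, sub-leaf (f) LEVEL of the GeomSpec (helper1085, team_s33_chat #116):
adapter of `helper9238.exists_level_core` to the structure `helper1085.IsLevel`, and the basic
consequences of `IsLevel` (`π ≠ 0`, `p = u · π ^ e` with `u` a unit, locality of `lvlRing P E`).
-/
import Fermat.Agent.S33.helper9238_Level
import Fermat.Agent.S33.helper1085_GeomSpec

set_option autoImplicit false

namespace Fermat.Agent.S33.helper9238

open Fermat.Agent.S33.helper1085

local notation "Qb" => AlgebraicClosure ℚ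
local notation "GQ" => (AlgebraicClosure ℚ ≃ₐ[ℚ] AlgebraicClosure ℚ)

/-- **(f) LEVEL at a given stable field.**  Every finite `G_ℚ`-stable `E` is an admissible level
for `P` over `p` (for a suitable uniformiser `π` and `e`); with `π ≠ 0` and the unit form
`p = u · π ^ e`. -/
theorem exists_isLevel_of_stable {p : ℕ} (hp : p.Prime) (P : ValuationSubring Qb)
    (hP : P.LiesOverPrime p) (E : IntermediateField ℚ Qb) [hfin : FiniteDimensional ℚ E]
    (hstab : ∀ σ : GQ, ∀ x ∈ E, σ x ∈ E) :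
    ∃ (π : lvlRing P E) (e : ℕ), IsLevel p P E π e ∧ (π : Qb) ≠ 0 ∧
      ∃ u : Qb, u ∈ E ∧ u ∈ P ∧ u⁻¹ ∈ P ∧ (p : Qb) = u * (π : Qb) ^ e := by
  obtain ⟨π, e, hepos, hπnon, hunif, hpow, hsat, hπ0, hu⟩ := exists_uniformizer_data hp P hP E
  exact ⟨π, e, ⟨hfin, hstab, hepos, hπnon, hunif, hpow, hsat⟩, hπ0, hu⟩

/-- **(f) LEVEL.**  Every finite extension `E0 / ℚ` inside `ℚ̄` is contained in an admissible
finite level `(E, π, e)` for `P` over `p`. -/
theorem exists_isLevel {p : ℕ} (hp : p.Prime) (P : ValuationSubring Qb) (hP : P.LiesOverPrime p)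
    (E0 : IntermediateField ℚ Qb) [FiniteDimensional ℚ E0] :
    ∃ (E : IntermediateField ℚ Qb) (π : lvlRing P E) (e : ℕ), E0 ≤ E ∧ IsLevel p P E π e := by
  obtain ⟨E, π, e, hE0, hfin, hstab, hepos, hπnon, hunif, hpow, hsat, -, -⟩ :=
    exists_level_core hp P hP E0
  exact ⟨E, π, e, hE0, ⟨hfin, hstab, hepos, hπnon, hunif, hpow, hsat⟩⟩

/-- **(f) LEVEL, finite-set form.**  An admissible finite level containing a given finite set of
algebraic numbers. -/
theorem exists_isLevel_of_finset {p : ℕ} (hp : p.Prime) (P : ValuationSubring Qb)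
    (hP : P.LiesOverPrime p) (T : Finset Qb) :
    ∃ (E : IntermediateField ℚ Qb) (π : lvlRing P E) (e : ℕ),
      (∀ t ∈ T, t ∈ E) ∧ IsLevel p P E π e := by
  have : FiniteDimensional ℚ (IntermediateField.adjoin ℚ (T : Set Qb)) :=
    IntermediateField.finiteDimensional_adjoin
      (fun x _ => Fermat.Agent.S55.helper4039.isIntegral_Qbar x)
  obtain ⟨E, π, e, hE0, hL⟩ := exists_isLevel hp P hP (IntermediateField.adjoin ℚ (T : Set Qb))
  exact ⟨E, π, e, fun t ht => hE0 (IntermediateField.subset_adjoin ℚ _ ht), hL⟩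

/-- **(f) LEVEL, unit form.**  As `exists_isLevel`, with `π ≠ 0` and `p = u · π ^ e`,
`u` a unit of `P ∩ E`. -/
theorem exists_isLevel_unit {p : ℕ} (hp : p.Prime) (P : ValuationSubring Qb)
    (hP : P.LiesOverPrime p) (E0 : IntermediateField ℚ Qb) [FiniteDimensional ℚ E0] :
    ∃ (E : IntermediateField ℚ Qb) (π : lvlRing P E) (e : ℕ), E0 ≤ E ∧ IsLevel p P E π e ∧
      (π : Qb) ≠ 0 ∧ ∃ u : Qb, u ∈ E ∧ u ∈ P ∧ u⁻¹ ∈ P ∧ (p : Qb) = u * (π : Qb) ^ e := by
  obtain ⟨E, π, e, hE0, hfin, hstab, hepos, hπnon, hunif, hpow, hsat, hπ0, hu⟩ :=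
    exists_level_core hp P hP E0
  exact ⟨E, π, e, hE0, ⟨hfin, hstab, hepos, hπnon, hunif, hpow, hsat⟩, hπ0, hu⟩

/-! ## Consequences of `IsLevel` alone -/

section Consequences

variable {p : ℕ} {P : ValuationSubring Qb} {E : IntermediateField ℚ Qb} {π : lvlRing P E} {e : ℕ}

/-- `p = b · π ^ e` with `b ∈ P ∩ E` (the clause `sat` at `r = 1`). -/
theorem isLevel_exists_mul_pow (h : IsLevel p P E π e) :
    ∃ b : lvlRing P E, (p : Qb) = (b : Qb) * (π : Qb) ^ e := by
  have hpmem : (p : Qb) ∈ lvlRing P E := natCast_mem _ p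
  have hsat := h.sat 1 ⟨(p : Qb), hpmem⟩ ⟨1, P.one_mem, by simp⟩
  rw [Ideal.mem_span_singleton'] at hsat
  obtain ⟨b, hb⟩ := hsat
  refine ⟨b, ?_⟩
  have h2 := congrArg (fun x : lvlRing P E => (x : Qb)) hb
  simp only [mul_one, Subring.coe_mul, Subring.coe_pow] at h2
  exact h2.symm

/-- The uniformiser of a level is nonzero. -/
theorem isLevel_ne_zero (hp : p.Prime) (h : IsLevel p P E π e) : (π : Qb) ≠ 0 := by
  intro h0
  obtain ⟨b, hb⟩ := isLevel_exists_mul_pow h
  rw [h0, zero_pow (Nat.pos_iff_ne_zero.mp h.pos), mul_zero] at hb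
  exact (Nat.cast_ne_zero (R := Qb)).mpr hp.ne_zero hb

/-- **Unit form**: `p = u · π ^ e` with `u` a unit of `P ∩ E`. -/
theorem isLevel_exists_unit (hp : p.Prime) (h : IsLevel p P E π e) :
    ∃ u : Qb, u ∈ E ∧ u ∈ P ∧ u⁻¹ ∈ P ∧ (p : Qb) = u * (π : Qb) ^ e := by
  obtain ⟨b, hb⟩ := isLevel_exists_mul_pow h
  obtain ⟨z, hz, hpow⟩ := h.pow
  have hp0 : (p : Qb) ≠ 0 := (Nat.cast_ne_zero (R := Qb)).mpr hp.ne_zero
  have hbz : (b : Qb) * z = 1 := by
    have h1 : (p : Qb) * ((b : Qb) * z) = (p : Qb) * 1 := by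
      rw [mul_one]
      calc (p : Qb) * ((b : Qb) * z) = (b : Qb) * ((p : Qb) * z) := by ring
        _ = (b : Qb) * (π : Qb) ^ e := by rw [hpow]
        _ = (p : Qb) := hb.symm
    exact mul_left_cancel₀ hp0 h1
  refine ⟨(b : Qb), b.2.2, b.2.1, ?_, hb⟩
  rw [inv_eq_of_mul_eq_one_right hbz]
  exact hz

/-- `lvlRing P E` is local with maximal ideal `(π)`: every element is a multiple of `π` or a
unit. -/
theorem isLevel_loc (h : IsLevel p P E π e) (a : lvlRing P E) :
    a ∈ Ideal.span {π} ∨ IsUnit a := by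
  by_cases ha : (a : Qb) ∈ P.nonunits
  · exact Or.inl (h.unif a ha)
  · right
    rw [ValuationSubring.mem_nonunits_iff_or, not_or, not_not] at ha
    obtain ⟨ha0, hainv⟩ := ha
    refine IsUnit.of_mul_eq_one (⟨(a : Qb)⁻¹, ⟨hainv, E.inv_mem a.2.2⟩⟩ : lvlRing P E) ?_
    apply Subtype.ext
    show (a : Qb) * (a : Qb)⁻¹ = 1
    exact mul_inv_cancel₀ ha0

/-- A unit of `lvlRing P E` is not a multiple of `π`. -/
theorem isLevel_not_mem_span_of_isUnit (h : IsLevel p P E π e) {a : lvlRing P E}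
    (ha : IsUnit a) : a ∉ Ideal.span {π} := by
  intro hmem
  rw [Ideal.mem_span_singleton'] at hmem
  obtain ⟨b, hb⟩ := hmem
  obtain ⟨c, hc⟩ := ha.exists_right_inv
  -- `π` would be a unit of `P`
  have h1 : (π : Qb) * ((b : Qb) * (c : Qb)) = 1 := by
    have h2 := congrArg (fun x : lvlRing P E => (x : Qb)) hc
    have h3 := congrArg (fun x : lvlRing P E => (x : Qb)) hb
    simp only [Subring.coe_mul, Subring.coe_one] at h2 h3
    calc (π : Qb) * ((b : Qb) * (c : Qb)) = ((b : Qb) * (π : Qb)) * (c : Qb) := by ring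
      _ = (a : Qb) * (c : Qb) := by rw [h3]
      _ = 1 := h2
  have hπ := h.nonunit
  rw [ValuationSubring.mem_nonunits_iff_or] at hπ
  rcases hπ with h0 | hinv
  · rw [h0, zero_mul] at h1
    exact zero_ne_one h1
  · apply hinv
    rw [inv_eq_of_mul_eq_one_right h1]
    exact P.mul_mem _ _ b.2.1 c.2.1

end Consequences

end Fermat.Agent.S33.helper9238
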