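import Fermat.Agent.S33.helper5454_FamilyAsm
import Fermat.Agent.S33.helper7619_KummerDiv
import Fermat.Agent.S33.helper2287_RootLevel
import Fermat.Agent.S33.helper9238_LevelGeom
import Fermat.Agent.S33.helper1326_LvlDvr
import Fermat.Agent.S33.helper5683_FormTriv
import Fermat.Agent.S33.helper8997_Sat2
import Fermat.Agent.S33.helper5528_G0
import Fermat.Agent.S29.helper288_FinTorsion

/-!
# S33-FAMILY-ASM, final call (helper5454): the leaf `Stmt_Family` of the geometry Spec

`helper1085.Stmt_Family p M h` (the classes of `K_{p^m}` form a family of two-chart bundles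
trivial mod `π` at some admissible finite level) is proved from ONE named input:

* `helper5683.Stmt_SeedsJ p M h`  (FORMTRIV-SS: the seeds of formal triviality over `ℚ̄`).

Everything else is discharged from landed leaves: KUMMER-DIV (`helper7619`), ROOTLEVEL
(`helper2287`), LEVEL (`helper9238`), the level ring is a DVR (`helper1326`), witnesses at every
level (`helper5683.exists_witness`), finite generation of the finite chart over `𝒪_E[j]`
(`helper5528.exists_G0`, from DICT-E), `j` is a two-sided Gauss unit (`helper8997`), finiteness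
of torsion (`helper288`), and the place-level assembly of `helper5454_FamilyAsm`.
-/

set_option autoImplicit false
set_option linter.unusedSectionVars false

namespace Fermat.Agent.S33.helper5454

open AlgebraicCurve ModularCurve
open Fermat.Agent.S19.helper2055 Fermat.Agent.S33.helper2055
open Fermat.Agent.S19.helper5454
open Fermat.Agent.S33.helper3511 Fermat.Agent.S34.helper584
open Fermat.Agent.S24.helper24
open Fermat.Agent.S33.helper1085

noncomputable section

local notation "Qb" => AlgebraicClosure ℚ
local notation "GQ" => (AlgebraicClosure ℚ ≃ₐ[ℚ] AlgebraicClosure ℚ)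

section Final

variable {p M : ℕ} [NeZero p] [NeZero M] (h : Nat.Coprime p M)
  [HasPrincipalDivisors Qb (modularFunctionFieldBar (p * M))]
  (P : ValuationSubring Qb) (n : ℕ)

/-- `K_n` is finite. -/
theorem finite_Kn (hn : n ≠ 0) : Finite (Kn h P n) := by
  have hfin := Fermat.Agent.S29.helper288.finite_torsion_JZero (p * M) hn
  have : Finite ↥{x : JZero (p * M) | n • x = 0} := hfin.to_subtype
  refine Finite.of_injective
    (fun k : Kn h P n =>
      (⟨(k : JZero (p * M)), nsmul_eq_zero_of_mem_kBoth k.2⟩ :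
        ↥{x : JZero (p * M) | n • x = 0})) ?_
  intro k k' hkk'
  have h1 : (k : JZero (p * M)) = (k' : JZero (p * M)) :=
    congrArg (fun z : ↥{x : JZero (p * M) | n • x = 0} => (z : JZero (p * M))) hkk'
  exact Subtype.ext h1

/-- **KUMMER-DIV in the shape of the assembly**: the selected Kummer functions and divisors of
`helper7619` form a Kummer family. -/
theorem isKummerFamily_sel (hn : n ≠ 0) :
    IsKummerFamily h P n
      (fun x => Fermat.Agent.S33.helper7619.Dsel P (p * M) n (wAL h) (x : JZero (p * M)))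
      (fun x => Fermat.Agent.S33.helper7619.hsel P (p * M) n (wAL h) (x : JZero (p * M))) where
  ne := fun x => (Fermat.Agent.S33.helper7619.isUnit2_hsel x.2).ne_zero
  div := fun x v => Fermat.Agent.S33.helper7619.mul_Dsel_apply (x : JZero (p * M)) v
  unit := fun x =>
    have hm := (Fermat.Agent.S33.helper7619.isUnit2_hsel x.2).mem
    (mem_ballTop P (p * M) (wAL h)).2 ⟨hm.1, hm.2.1⟩
  unit' := fun x =>
    have hm := (Fermat.Agent.S33.helper7619.isUnit2_hsel x.2).mem
    (mem_ballTop P (p * M) (wAL h)).2 ⟨hm.2.2.1, hm.2.2.2⟩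
  deg := fun x => Fermat.Agent.S33.helper7619.Dsel_mem_degZero (x : JZero (p * M))
  np := fun x hx0 hpr => by
    apply hx0
    have h1 := Fermat.Agent.S33.helper7619.mk_Dsel x.2
    have h2 := (Fermat.Agent.S29.helper8217.mk_eq_zero_iff
      (⟨Fermat.Agent.S33.helper7619.Dsel P (p * M) n (wAL h) (x : JZero (p * M)),
        Fermat.Agent.S33.helper7619.Dsel_mem_degZero (x : JZero (p * M))⟩ :
        Divisor.degZero (K := Qb) (F := modularFunctionFieldBar (p * M)))).2 hpr
    exact Subtype.ext (h1.symm.trans h2)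
  add := fun x y => by
    obtain ⟨u, -, -, hu, -⟩ := Fermat.Agent.S33.helper7619.exists_unit_add hn x.2 y.2
    exact ⟨u, hu⟩
  zero := ⟨1, by
    rw [one_pow]
    exact (Fermat.Agent.S33.helper7619.hsel_zero (A := P) (N := p * M) (n := n)
      (W := wAL h)).symm⟩
  gal := fun s x => by
    obtain ⟨u, -, -, hu, -⟩ := Fermat.Agent.S33.helper7619.exists_unit_smul_atkinLehner h hn
      (inertia_le_decomposition P s.2) x.2
    exact ⟨u, hu⟩

/-- `j` and `1/j` are two-sided Gauss units. -/
theorem jBar_mem_ballTop (hp : p.Prime) :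
    jBar (p * M) ∈ ballTop P (p * M) (wAL h) ∧ (jBar (p * M))⁻¹ ∈ ballTop P (p * M) (wAL h) := by
  haveI : Fact p.Prime := ⟨hp⟩
  have hpM : ¬ p ∣ M := (Nat.Prime.coprime_iff_not_dvd hp).mp h
  have h1 : (gaussV P (p * M)).valuation (jBar (p * M)) = 1 :=
    Fermat.Agent.S33.helper8997.val_jBar_eq_one p M P
  have h2 : (gaussV P (p * M)).valuation (wAL h (jBar (p * M))) = 1 :=
    Fermat.Agent.S33.helper8997.val_wAL_jBar_eq_one p M hpM P
  refine ⟨(mem_ballTop P (p * M) (wAL h)).2 ⟨?_, ?_⟩, (mem_ballTop P (p * M) (wAL h)).2 ⟨?_, ?_⟩⟩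
  · exact ((gaussV P (p * M)).valuation_le_one_iff _).1 h1.le
  · exact ((gaussV P (p * M)).valuation_le_one_iff _).1 h2.le
  · rw [← (gaussV P (p * M)).valuation_le_one_iff, map_inv₀, h1, inv_one]
  · rw [← (gaussV P (p * M)).valuation_le_one_iff, map_inv₀, map_inv₀, h2, inv_one]

/-- **LEAF FAMILY of the geometry Spec from SEEDS-J.**
At some admissible finite level the classes of `K_{p^m}` form a family of two-chart bundles
trivial mod `π`: `D x := Dsel x` (KUMMER-DIV), seeds from FORMTRIV-SS, the level from ROOTLEVEL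
and LEVEL, finite generation of the finite chart from DICT-E (`helper5528.exists_G0`). -/
theorem stmt_Family_of_seeds [Fact p.Prime]
    (hS : Fermat.Agent.S33.helper5683.Stmt_SeedsJ p M h) : Stmt_Family p M h := by
  classical
  have hp : p.Prime := Fact.out
  obtain ⟨G0, hG0⟩ := Fermat.Agent.S33.helper5528.exists_G0 h
  intro P hP m
  have hn : p ^ m ≠ 0 := pow_ne_zero m hp.ne_zero
  haveI : Finite (Kn h P (p ^ m)) := finite_Kn h P (p ^ m) hn
  have HK := isKummerFamily_sel h P (p ^ m) hn
  -- the seeds of formal triviality and the constant bounding their distance to `1`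
  obtain ⟨e0, e0', e1, e1', c, hc0, hcP, hwit⟩ :=
    Fermat.Agent.S33.helper5683.exists_witness h hS P hP m
      (fun x : Kn h P (p ^ m) =>
        Fermat.Agent.S33.helper7619.Dsel P (p * M) (p ^ m) (wAL h) (x : JZero (p * M)))
      (fun x : Kn h P (p ^ m) =>
        Fermat.Agent.S33.helper7619.hsel P (p * M) (p ^ m) (wAL h) (x : JZero (p * M)))
      HK.ne HK.div
      (fun x => (Fermat.Agent.S33.helper7619.isRep_hsel x.2).2.1)
      (fun x => (Fermat.Agent.S33.helper7619.isRep_hsel x.2).2.2.1)
  haveI : Fintype (Kn h P (p ^ m)) := Fintype.ofFinite _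
  obtain ⟨E0, hE0fin, hcE0⟩ := Fermat.Agent.S19.helper9190.exists_level_of_mem c
  haveI := hE0fin
  have hmain : ∃ (E : IntermediateField ℚ Qb) (π : lvlRing P E) (e : ℕ), IsLevel p P E π e ∧
      IsGeomFamily h P (p ^ m) E π
        (fun x : Kn h P (p ^ m) =>
          Fermat.Agent.S33.helper7619.Dsel P (p * M) (p ^ m) (wAL h) (x : JZero (p * M)))
        e0 e1 := by
    refine exists_isGeomFamily_of_kummerFamily h P (p ^ m) hn hP (e0' := e0') (e1' := e1') HK
      (Finset.univ.image e0 ∪ Finset.univ.image e0' ∪ Finset.univ.image e1 ∪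
        Finset.univ.image e1')
      E0 ?_ ?_ ?_ ?_ ?_ ?_ (jBar_mem_ballTop h P hp).1 (jBar_mem_ballTop h P hp).2
    · -- witnesses at every large level
      intro E π e hL hE0E hT x
      have hπ0 : (π : Qb) ≠ 0 := Fermat.Agent.S33.helper9238.isLevel_ne_zero hp hL
      have hcmem : (⟨c, ⟨P.nonunits_subset hcP, hE0E hcE0⟩⟩ : lvlRing P E) ∈ Ideal.span {π} :=
        hL.unif _ hcP
      obtain ⟨κ, hκ⟩ := Ideal.mem_span_singleton'.1 hcmem
      have hcπ : c * (π : Qb)⁻¹ ∈ P := by
        have h1 : c = (κ : Qb) * (π : Qb) :=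
          (congrArg (fun a : lvlRing P E => (a : Qb)) hκ).symm
        rw [h1, mul_assoc, mul_inv_cancel₀ hπ0, mul_one]
        exact κ.2.1
      refine hwit (Fermat.Agent.S19.helper9190.levelField (p * M) E) (ball P (p * M) (wAL h) E)
        (fun f => mem_ball P (p * M) (wAL h) E) (π : Qb) hπ0 hcπ
        (Subfield.subset_closure (Or.inl ⟨_, π.2.2, rfl⟩)) (fun y => ⟨?_, ?_, ?_, ?_⟩) x
      · exact hT _ (Finset.mem_union_left _ (Finset.mem_union_left _ (Finset.mem_union_left _
          (Finset.mem_image_of_mem _ (Finset.mem_univ y)))))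
      · exact hT _ (Finset.mem_union_left _ (Finset.mem_union_left _ (Finset.mem_union_right _
          (Finset.mem_image_of_mem _ (Finset.mem_univ y)))))
      · exact hT _ (Finset.mem_union_left _ (Finset.mem_union_right _
          (Finset.mem_image_of_mem _ (Finset.mem_univ y))))
      · exact hT _ (Finset.mem_union_right _ (Finset.mem_image_of_mem _ (Finset.mem_univ y)))
    · -- ROOTLEVEL
      intro S
      exact Fermat.Agent.S33.helper2287.exists_level_of_kummer_units (p * M) hn S E0
    · -- LEVEL
      intro E hE hst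
      haveI := hE
      obtain ⟨π, e, hL, -, -⟩ :=
        Fermat.Agent.S33.helper9238.exists_isLevel_of_stable hp P hP E hst
      exact ⟨π, e, hL⟩
    · intro E π e hL
      exact Fermat.Agent.S33.helper1326.lvl_isNoetherianRing P E hp hP π e hL.nonunit hL.unif
        hL.pow
    · intro E π e hL d hd
      exact Fermat.Agent.S33.helper1326.lvl_exists_dvd_pow P E hp hP π e hL.nonunit hL.unif
        hL.pow d hd
    · intro E π e hL
      exact ⟨G0, hG0 P hP E⟩
  obtain ⟨E, π, e, hL, hG⟩ := hmain
  exact ⟨E, π, e, _, e0, e1, hL, hG⟩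

/-- **(F) FAMILY-ASM in the captain's binders**: `p` prime given as a hypothesis. -/
theorem stmt_family (hp : p.Prime) (hS : Fermat.Agent.S33.helper5683.Stmt_SeedsJ p M h) :
    Stmt_Family p M h :=
  haveI : Fact p.Prime := ⟨hp⟩
  stmt_Family_of_seeds h hS

end Final

end

end Fermat.Agent.S33.helper5454
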