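import Fermat.Agent.S33.helper2055_OrderJ
import Fermat.Agent.S33.helper5528_DictEGeom

/-!
# S33, leaf (L1) CLOSED: `Stmt_CechLevel p (p * M) (wAL h)` unconditionally

`Stmt_CechLevel` = H1FREE-SS (`helper8997.stmt_H1Free`) + DICT-E (`helper5528.dictE`) through the
element-form assembly `stmt_cechLevel_of_dict`.  Consequently step (C), `Stmt_OrderJ p M h`, needs
only the leaf `helper1085.Stmt_Family p M h`.
-/

set_option autoImplicit false

namespace Fermat.Agent.S33.helper2055

open AlgebraicCurve ModularCurve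
open Fermat.Agent.S33.helper1085

local notation "Qb" => AlgebraicClosure ℚ

/-- **DICT-E** in the shape consumed by `stmt_cechLevel_of_dict` (from `helper5528.dictE`). -/
theorem stmt_dictE {p M : ℕ} [NeZero p] [NeZero M] [Fact p.Prime] (h : Nat.Coprime p M) :
    Stmt_DictE p (p * M) (wAL h) :=
  fun P hP E _ _ _ =>
    ⟨fun f => (Fermat.Agent.S33.helper5528.dictE h P hP E f).1,
     fun f => (Fermat.Agent.S33.helper5528.dictE h P hP E f).2.1,
     fun f => (Fermat.Agent.S33.helper5528.dictE h P hP E f).2.2⟩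

/-- **LEAF (L1) = CECH-E, unconditional**: the Čech datum of the two-component model of
`X₀(pM)` at every finite level, for every prime `p` and every `M` prime to `p`. -/
theorem stmt_cechLevel {p : ℕ} [NeZero p] (hp : p.Prime) (M : ℕ) [NeZero M]
    (h : Nat.Coprime p M) : Stmt_CechLevel p (p * M) (wAL h) := by
  haveI : Fact p.Prime := ⟨hp⟩
  have hpM : ¬ p ∣ M := fun hdvd => hp.one_lt.ne' (Nat.Coprime.eq_one_of_dvd h hdvd)
  exact stmt_cechLevel_of_dictE M hpM (wAL h) (stmt_dictE h)

/-- **Step (C) modulo the single leaf FAMILY.** -/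
theorem stmt_orderJ_of_family {p : ℕ} [NeZero p] (hp : p.Prime) (M : ℕ) [NeZero M]
    (h : Nat.Coprime p M) (hfam : Stmt_Family p M h) :
    Fermat.Agent.S33.helper2784.Stmt_OrderJ p M h :=
  Fermat.Agent.S33.helper7050.stmt_orderJ_of_leaves h hp (stmt_cechLevel hp M h) hfam

end Fermat.Agent.S33.helper2055
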