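/-
S33-QUADINPUT (helper2284), Mathlib-only part: the INPUT SIDE of the JH-chain leaf of S33
(findings #2990 (4)).

`B` a finite local commutative ring with `p ∈ 𝔪_B`, `M` a `B`-module, and a family of `B`-linear
endomorphisms `f g` of `M` satisfying per-element quadratic relations
`(f g)² - t (f g) + d = 0` with `t ≡ 1 + e g`, `d ≡ e g` modulo `𝔪_B`.
Then the `𝔪_B`-adic filtration `C i := 𝔪_B^(r - i) M` is a finite chain from `⊥` to `⊤`, stable
under every `B`-linear endomorphism, with steps killed by `p` (indeed by `𝔪_B`) on which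
`(f g - 1)(f g - e g) = 0`.

This is `HasQuadChain p e` in the shape announced by helper4662 (team_s33_chat #4), written
unfolded.  Versions: linear maps (`exists_quadChain_linear`), a `DistribMulAction` commuting with
`B` (`exists_quadChain_smul`), a monoid hom `ρM : G →* Module.End B M` restricted to a subgroup
(`exists_quadChain_hom`), and the FinCarayol-shaped input with a ring hom `π' : B →+* T'` to a
local ring (`exists_quadChain_finCarayol`).
-/
import Mathlib

set_option autoImplicit false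

namespace Fermat.Agent.S33.helper2284

open IsLocalRing

section Core

variable {B : Type*} [CommRing B] [IsLocalRing B]
  {M : Type*} [AddCommGroup M] [Module B M]

/-- The maximal ideal of a finite local ring is nilpotent. -/
theorem exists_maximalIdeal_pow_eq_bot (B : Type*) [CommRing B] [IsLocalRing B] [Finite B] :
    ∃ r : ℕ, maximalIdeal B ^ r = ⊥ := by
  have h := IsArtinianRing.isNilpotent_jacobson_bot (R := B)
  rw [IsLocalRing.jacobson_eq_maximalIdeal ⊥ bot_ne_top] at h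
  exact h

/-- The `𝔪`-adic filtration of a module over a local ring, indexed increasingly:
`mFilt B M r i = 𝔪^(r - i) M`. -/
def mFilt (B : Type*) [CommRing B] [IsLocalRing B] (M : Type*) [AddCommGroup M] [Module B M]
    (r i : ℕ) : Submodule B M :=
  (maximalIdeal B ^ (r - i)) • (⊤ : Submodule B M)

theorem mFilt_zero {r : ℕ} (hr : maximalIdeal B ^ r = ⊥) : mFilt B M r 0 = ⊥ := by
  rw [mFilt, Nat.sub_zero, hr, Submodule.bot_smul]

theorem mFilt_self (r : ℕ) : mFilt B M r r = ⊤ := by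
  rw [mFilt, Nat.sub_self, pow_zero, Ideal.one_eq_top, Submodule.top_smul]

theorem mFilt_le_succ (r i : ℕ) : mFilt B M r i ≤ mFilt B M r (i + 1) :=
  Submodule.smul_mono_left (Ideal.pow_le_pow_right (by omega))

/-- The maximal ideal maps each step of the filtration into the previous one. -/
theorem smul_mem_mFilt {r i : ℕ} (hi : i < r) {a : B} (ha : a ∈ maximalIdeal B) {c : M}
    (hc : c ∈ mFilt B M r (i + 1)) : a • c ∈ mFilt B M r i := by
  have h1 : r - i = (r - (i + 1)) + 1 := by omega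
  rw [mFilt, h1, pow_succ', Submodule.mul_smul]
  exact Submodule.smul_mem_smul ha hc

/-- Every `B`-linear endomorphism preserves the filtration. -/
theorem map_mem_mFilt (φ : M →ₗ[B] M) {r i : ℕ} {c : M} (hc : c ∈ mFilt B M r i) :
    φ c ∈ mFilt B M r i := by
  refine Submodule.smul_induction_on (p := fun x => φ x ∈ mFilt B M r i) hc ?_ ?_
  · intro a ha m _
    rw [map_smul]
    exact Submodule.smul_mem_smul ha Submodule.mem_top
  · intro x y hx hy
    rw [map_add]
    exact Submodule.add_mem _ hx hy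

/-- The quadratic relation `φ² - t φ + d = 0` with `t ≡ 1 + n`, `d ≡ n` modulo `𝔪` gives
`(φ - 1)(φ - n) = 0` on the graded pieces of the filtration. -/
theorem quad_mem_mFilt (φ : M →ₗ[B] M) {t d : B} (n : ℕ)
    (hq : ∀ y : M, φ (φ y) - t • φ y + d • y = 0)
    (ht : t - (1 + (n : B)) ∈ maximalIdeal B) (hd : d - (n : B) ∈ maximalIdeal B)
    {r i : ℕ} (hi : i < r) {c : M} (hc : c ∈ mFilt B M r (i + 1)) :
    φ (φ c) - (1 + n) • φ c + n • c ∈ mFilt B M r i := by
  have h1 : φ (φ c) - (1 + n) • φ c + n • c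
      = (t - (1 + (n : B))) • φ c - (d - (n : B)) • c := by
    rw [← Nat.cast_smul_eq_nsmul B (1 + n) (φ c), ← Nat.cast_smul_eq_nsmul B n c,
      ← sub_eq_zero]
    have h2 := hq c
    push_cast
    rw [← h2]
    module
  rw [h1]
  exact Submodule.sub_mem _ (smul_mem_mFilt hi ht (map_mem_mFilt φ hc)) (smul_mem_mFilt hi hd hc)

/-- **(Q1), linear-map form.**  A family of `B`-linear endomorphisms with quadratic relations
whose coefficients are `1 + e g`, `e g` modulo `𝔪_B` has a quadratic chain: the `𝔪_B`-adic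
filtration. -/
theorem exists_quadChain_linear [Finite B] {ι : Type*} (f : ι → M →ₗ[B] M) (p : ℕ)
    (hp : (p : B) ∈ maximalIdeal B) (e : ι → ℕ)
    (hquad : ∀ g : ι, ∃ t d : B, (∀ y : M, f g (f g y) - t • f g y + d • y = 0) ∧
      t - (1 + (e g : B)) ∈ maximalIdeal B ∧ d - (e g : B) ∈ maximalIdeal B) :
    ∃ (r : ℕ) (C : ℕ → Submodule B M), C 0 = ⊥ ∧ C r = ⊤ ∧
      (∀ (i : ℕ) (φ : M →ₗ[B] M), ∀ c ∈ C i, φ c ∈ C i) ∧
      ∀ i < r, C i ≤ C (i + 1) ∧ (∀ c ∈ C (i + 1), p • c ∈ C i) ∧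
        ∀ g : ι, ∀ c ∈ C (i + 1), f g (f g c) - (1 + e g) • f g c + e g • c ∈ C i := by
  obtain ⟨r, hr⟩ := exists_maximalIdeal_pow_eq_bot B
  refine ⟨r, mFilt B M r, mFilt_zero hr, mFilt_self r, fun i φ c hc => map_mem_mFilt φ hc,
    fun i hi => ⟨mFilt_le_succ r i, fun c hc => ?_, fun g c hc => ?_⟩⟩
  · rw [← Nat.cast_smul_eq_nsmul B p c]
    exact smul_mem_mFilt hi hp hc
  · obtain ⟨t, d, hq, ht, hd⟩ := hquad g
    exact quad_mem_mFilt (f g) (e g) hq ht hd hi hc

end Core

section Actions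

variable {B : Type*} [CommRing B] [IsLocalRing B] [Finite B]
  {M : Type*} [AddCommGroup M] [Module B M]

/-- **(Q1), `DistribMulAction` form** (the shape of `HasQuadChain p e` of helper4662, unfolded):
`G` acts on `M` commuting with `B`, with per-element quadratic relations congruent to
`(g - 1)(g - e g)` modulo `𝔪_B`. -/
theorem exists_quadChain_smul {G : Type*} [Monoid G] [DistribMulAction G M]
    [SMulCommClass G B M] (p : ℕ) (hp : (p : B) ∈ maximalIdeal B) (e : G → ℕ)
    (hquad : ∀ g : G, ∃ t d : B, (∀ y : M, g • g • y - t • g • y + d • y = 0) ∧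
      t - (1 + (e g : B)) ∈ maximalIdeal B ∧ d - (e g : B) ∈ maximalIdeal B) :
    ∃ (r : ℕ) (C : ℕ → AddSubgroup M), C 0 = ⊥ ∧ C r = ⊤ ∧
      (∀ (i : ℕ) (g : G), ∀ c ∈ C i, g • c ∈ C i) ∧
      ∀ i < r, C i ≤ C (i + 1) ∧ (∀ c ∈ C (i + 1), p • c ∈ C i) ∧
        ∀ g : G, ∀ c ∈ C (i + 1), g • g • c - (1 + e g) • g • c + e g • c ∈ C i := by
  obtain ⟨r, C, h0, hr, hst, hstep⟩ := exists_quadChain_linear
    (fun g : G => DistribSMul.toLinearMap B M g) p hp e hquad
  refine ⟨r, fun i => (C i).toAddSubgroup, ?_, ?_, ?_, ?_⟩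
  · show (C 0).toAddSubgroup = ⊥
    rw [h0, Submodule.bot_toAddSubgroup]
  · show (C r).toAddSubgroup = ⊤
    rw [hr, Submodule.top_toAddSubgroup]
  · intro i g c hc
    exact hst i (DistribSMul.toLinearMap B M g) c hc
  · intro i hi
    obtain ⟨h1, h2, h3⟩ := hstep i hi
    exact ⟨fun c hc => h1 hc, h2, h3⟩

/-- **(Q1'), hom form** (the FinCarayol / `LocM` shape of S32): `ρM : G →* Module.End B M`, the
quadratic relations being required only on a subset `I` of `G` (e.g. an inertia subgroup).  The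
chain is stable under ALL of `G`. -/
theorem exists_quadChain_hom {G : Type*} [Monoid G] (ρM : G →* Module.End B M) (I : Set G)
    (p : ℕ) (hp : (p : B) ∈ maximalIdeal B) (e : G → ℕ)
    (hquad : ∀ g ∈ I, ∃ t d : B, (∀ y : M, ρM g (ρM g y) - t • ρM g y + d • y = 0) ∧
      t - (1 + (e g : B)) ∈ maximalIdeal B ∧ d - (e g : B) ∈ maximalIdeal B) :
    ∃ (r : ℕ) (C : ℕ → AddSubgroup M), C 0 = ⊥ ∧ C r = ⊤ ∧
      (∀ (i : ℕ) (g : G), ∀ c ∈ C i, ρM g c ∈ C i) ∧
      ∀ i < r, C i ≤ C (i + 1) ∧ (∀ c ∈ C (i + 1), p • c ∈ C i) ∧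
        ∀ g ∈ I, ∀ c ∈ C (i + 1), ρM g (ρM g c) - (1 + e g) • ρM g c + e g • c ∈ C i := by
  obtain ⟨r, C, h0, hr, hst, hstep⟩ := exists_quadChain_linear
    (fun g : I => (ρM g : M →ₗ[B] M)) p hp (fun g : I => e g) (fun g => hquad g g.2)
  refine ⟨r, fun i => (C i).toAddSubgroup, ?_, ?_, ?_, ?_⟩
  · show (C 0).toAddSubgroup = ⊥
    rw [h0, Submodule.bot_toAddSubgroup]
  · show (C r).toAddSubgroup = ⊤
    rw [hr, Submodule.top_toAddSubgroup]
  · intro i g c hc
    exact hst i (ρM g) c hc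
  · intro i hi
    obtain ⟨h1, h2, h3⟩ := hstep i hi
    exact ⟨fun c hc => h1 hc, h2, fun g hg c hc => h3 ⟨g, hg⟩ c hc⟩

omit [Finite B] in
/-- A ring hom to a local (hence nontrivial) ring reflects membership of the maximal ideal. -/
theorem mem_maximalIdeal_of_map_mem {T' : Type*} [CommRing T'] [IsLocalRing T'] (π' : B →+* T')
    {b : B} (hb : π' b ∈ maximalIdeal T') : b ∈ maximalIdeal B := by
  rw [mem_maximalIdeal, mem_nonunits_iff] at hb ⊢
  exact fun h => hb (h.map π')

/-- **(Q2), FinCarayol-shaped input.**  `π' : B →+* T'` with `T'` local,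
`ρ' : G →* Matrix (Fin 2) (Fin 2) T'`; for every `g` there are `t, d ∈ B` with
`g² - t g + d = 0` on `M`, `π' t = tr ρ' g`, `π' d = det ρ' g` (the hypothesis of FIN-CARAYOL),
and for `g ∈ I` the trace and determinant of `ρ' g` are `1 + e g` and `e g` modulo `𝔪_{T'}`.
Then `M` has a `G`-stable chain with steps killed by `p` on which `(g - 1)(g - e g) = 0` for
`g ∈ I`. -/
theorem exists_quadChain_finCarayol {G : Type*} [Monoid G] (ρM : G →* Module.End B M)
    {T' : Type*} [CommRing T'] [IsLocalRing T'] (π' : B →+* T')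
    (ρ' : G →* Matrix (Fin 2) (Fin 2) T')
    (hquad : ∀ g, ∃ t d : B, (∀ y : M, ρM g (ρM g y) - t • ρM g y + d • y = 0) ∧
      π' t = (ρ' g).trace ∧ π' d = (ρ' g).det)
    (I : Set G) (p : ℕ) (hp : (p : T') ∈ maximalIdeal T') (e : G → ℕ)
    (he : ∀ g ∈ I, (ρ' g).trace - (1 + (e g : T')) ∈ maximalIdeal T' ∧
      (ρ' g).det - (e g : T') ∈ maximalIdeal T') :
    ∃ (r : ℕ) (C : ℕ → AddSubgroup M), C 0 = ⊥ ∧ C r = ⊤ ∧
      (∀ (i : ℕ) (g : G), ∀ c ∈ C i, ρM g c ∈ C i) ∧
      ∀ i < r, C i ≤ C (i + 1) ∧ (∀ c ∈ C (i + 1), p • c ∈ C i) ∧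
        ∀ g ∈ I, ∀ c ∈ C (i + 1), ρM g (ρM g c) - (1 + e g) • ρM g c + e g • c ∈ C i := by
  refine exists_quadChain_hom ρM I p ?_ e ?_
  · refine mem_maximalIdeal_of_map_mem π' ?_
    rw [map_natCast]
    exact hp
  · intro g hg
    obtain ⟨t, d, hq, ht, hd⟩ := hquad g
    refine ⟨t, d, hq, mem_maximalIdeal_of_map_mem π' ?_, mem_maximalIdeal_of_map_mem π' ?_⟩
    · rw [map_sub, map_add, map_one, map_natCast, ht]
      exact (he g hg).1
    · rw [map_sub, map_natCast, hd]
      exact (he g hg).2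

end Actions

end Fermat.Agent.S33.helper2284
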