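/-
S33-QUADINPUT (helper2284), Galois part: the INPUT SIDE of the JH-chain leaf of S33
(findings #2990 (4)).

* `trace_eq_one_add_det_of_sub_mem` : linear algebra, `f v - v ∈ span {b 0}` for a basis `b` of a
  rank 2 module gives `tr f = 1 + det f`.
* `trace_sub_one_sub_det_mem` (Q3) : if the residual representation of `ρ : GaloisRepAdic T` is
  ordinary at `p`, then `tr ρ(x) - 1 - det ρ(x) ∈ 𝔪_T` for every `x` in an inertia group over
  `p`.
* `trace_det_lvl_mem` : with `ρ.DetIsCyclotomic p`, the level representation `lvl ρ I` of S32 has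
  `tr ≡ 1 + a`, `det ≡ a` modulo the maximal ideal at every `x` of inertia acting as `μ ↦ μ ^ a`
  on the `p`-th roots of unity.
* `exists_quadChain_of_hres` (Q4) : the FinCarayol data of S32 for `ρ' = lvl ρ I` carry a
  Galois-stable chain with steps killed by `p` on which `(x - 1)(x - e x) = 0` for `x` in the
  inertia group.  `exists_quadChain_of_hres_smul` : the same for any `DistribMulAction` of a
  monoid `Γ` mapping to the inertia group (the unfolded `HasQuadChain p e` of helper4662).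
-/
import Mathlib
import Fermat.Prelude.Def_GaloisRep_LocalConditions
import Fermat.Agent.S32.helper2804_LevelRep
import Fermat.Agent.S33.helper2284_QuadInput

set_option autoImplicit false

namespace Fermat.Agent.S33.helper2284

open IsLocalRing
open scoped TensorProduct

/-- Linear algebra: an endomorphism `f` of a module with basis `b 0, b 1` such that
`f v - v ∈ span {b 0}` for all `v` has `tr f = 1 + det f`. -/
theorem trace_eq_one_add_det_of_sub_mem {k V : Type*} [CommRing k] [AddCommGroup V] [Module k V]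
    (b : Module.Basis (Fin 2) k V) (f : V →ₗ[k] V)
    (hf : ∀ v : V, f v - v ∈ Submodule.span k {b 0}) :
    LinearMap.trace k V f = 1 + LinearMap.det f := by
  obtain ⟨c₀, h₀⟩ := Submodule.mem_span_singleton.mp (hf (b 0))
  obtain ⟨c₁, h₁⟩ := Submodule.mem_span_singleton.mp (hf (b 1))
  have e0 : f (b 0) = (1 + c₀) • b 0 := by rw [add_smul, one_smul, h₀]; abel
  have e1 : f (b 1) = b 1 + c₁ • b 0 := by rw [h₁]; abel
  rw [LinearMap.trace_eq_matrix_trace k b f, ← LinearMap.det_toMatrix b f, Matrix.trace_fin_two,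
    Matrix.det_fin_two]
  simp only [LinearMap.toMatrix_apply, e0, e1, map_add, map_smul, Module.Basis.repr_self,
    Finsupp.add_apply, Finsupp.smul_apply, Finsupp.single_eq_same, smul_eq_mul, mul_one]
  have h01 : (Finsupp.single (0 : Fin 2) (1 : k)) 1 = 0 := by
    rw [Finsupp.single_apply]; simp
  have h10 : (Finsupp.single (1 : Fin 2) (1 : k)) 0 = 0 := by
    rw [Finsupp.single_apply]; simp
  rw [h01, h10]
  ring

section Galois

variable {T : Type} [CommRing T] [IsLocalRing T]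

/-- **(Q3)** If the residual representation of `ρ` is ordinary at `p`, then
`tr ρ(x) ≡ 1 + det ρ(x)` modulo `𝔪_T` for every `x` in an inertia group over `p`. -/
theorem trace_sub_one_sub_det_mem (ρ : GaloisRepAdic T) {p : ℕ}
    (hres : (GaloisRepAdic.ofResidualGaloisRep ρ.residual).IsOrdinaryAt p)
    (P : ValuationSubring (AlgebraicClosure ℚ)) (hP : P.LiesOverPrime p)
    (x : AlgebraicClosure ℚ ≃ₐ[ℚ] AlgebraicClosure ℚ) (hx : x ∈ P.inertiaSubgroupIn ℚ) :
    LinearMap.trace T ρ.V (ρ.ρ x) - 1 - LinearMap.det (ρ.ρ x) ∈ maximalIdeal T := by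
  obtain ⟨L, ⟨b, rfl⟩, -, hI⟩ := hres P hP
  have h1 : LinearMap.trace (ResidueField T) (ResidueField T ⊗[T] ρ.V)
      ((ρ.ρ x).baseChange (ResidueField T))
      = 1 + LinearMap.det ((ρ.ρ x).baseChange (ResidueField T)) :=
    trace_eq_one_add_det_of_sub_mem b ((ρ.ρ x).baseChange (ResidueField T))
      (fun v => hI x hx v)
  rw [LinearMap.trace_baseChange, LinearMap.det_baseChange,
    IsLocalRing.ResidueField.algebraMap_eq] at h1
  rw [← IsLocalRing.residue_eq_zero_iff, map_sub, map_sub, map_one, h1]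
  ring

/-- With `ρ.DetIsCyclotomic p`: `det ρ(x) ≡ a` modulo `𝔪_T` when `x` acts as `μ ↦ μ ^ a` on the
`p`-th roots of unity. -/
theorem det_sub_natCast_mem (ρ : GaloisRepAdic T) {p : ℕ} (hdet : ρ.DetIsCyclotomic p)
    (x : AlgebraicClosure ℚ ≃ₐ[ℚ] AlgebraicClosure ℚ) (a : ℕ)
    (ha : ∀ μ : AlgebraicClosure ℚ, μ ^ p = 1 → x μ = μ ^ a) :
    LinearMap.det (ρ.ρ x) - (a : T) ∈ maximalIdeal T := by
  have h1 := hdet.2 1 x a (fun μ hμ => ha μ (by rwa [pow_one] at hμ))
  rw [pow_one] at h1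
  obtain ⟨c, hc⟩ := Ideal.mem_span_singleton'.mp h1
  rw [← hc]
  exact Ideal.mul_mem_left _ _ hdet.1

/-- The level representation `lvl ρ I` (S32) at an element `x` of an inertia group over `p`
acting as `μ ↦ μ ^ a` on the `p`-th roots of unity: `tr ≡ 1 + a`, `det ≡ a` modulo the maximal
ideal of `T ⧸ I`. -/
theorem trace_det_lvl_mem (ρ : GaloisRepAdic T) {p : ℕ} (hdet : ρ.DetIsCyclotomic p)
    (hres : (GaloisRepAdic.ofResidualGaloisRep ρ.residual).IsOrdinaryAt p)
    (I : Ideal T) [IsLocalRing (T ⧸ I)]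
    (P : ValuationSubring (AlgebraicClosure ℚ)) (hP : P.LiesOverPrime p)
    (x : AlgebraicClosure ℚ ≃ₐ[ℚ] AlgebraicClosure ℚ) (hx : x ∈ P.inertiaSubgroupIn ℚ)
    (a : ℕ) (ha : ∀ μ : AlgebraicClosure ℚ, μ ^ p = 1 → x μ = μ ^ a) :
    (Fermat.Agent.S32.helper2804.lvl ρ I x).trace - (1 + (a : T ⧸ I)) ∈ maximalIdeal (T ⧸ I) ∧
      (Fermat.Agent.S32.helper2804.lvl ρ I x).det - (a : T ⧸ I) ∈ maximalIdeal (T ⧸ I) := by
  have hloc : IsLocalHom (Ideal.Quotient.mk I) :=
    IsLocalHom.of_surjective (Ideal.Quotient.mk I) Ideal.Quotient.mk_surjective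
  have h1 := trace_sub_one_sub_det_mem ρ hres P hP x hx
  have h2 := det_sub_natCast_mem ρ hdet x a ha
  have h3 : LinearMap.trace T ρ.V (ρ.ρ x) - (1 + (a : T)) ∈ maximalIdeal T := by
    have := Ideal.add_mem _ h1 h2
    convert this using 1
    ring
  rw [Fermat.Agent.S32.helper2804.trace_lvl, Fermat.Agent.S32.helper2804.det_lvl]
  constructor
  · have := map_nonunit (Ideal.Quotient.mk I) _ h3
    rwa [map_sub, map_add, map_one, map_natCast] at this
  · have := map_nonunit (Ideal.Quotient.mk I) _ h2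
    rwa [map_sub, map_natCast] at this

variable {B : Type*} [CommRing B] [IsLocalRing B] [Finite B]
  {M : Type*} [AddCommGroup M] [Module B M]

/-- **(Q4)** The quadratic chain on a FinCarayol module for the level representation
`ρ' = lvl ρ I` of a `GaloisRepAdic` with cyclotomic determinant whose residual representation is
ordinary at `p`: `M` has a Galois-stable chain of subgroups from `⊥` to `⊤` with steps killed by
`p` on which `(x - 1)(x - e x) = 0` for every `x` of the inertia group at `P`; `e x` is any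
exponent with `x μ = μ ^ e x` on the `p`-th roots of unity. -/
theorem exists_quadChain_of_hres (ρ : GaloisRepAdic T) {p : ℕ} (hdet : ρ.DetIsCyclotomic p)
    (hres : (GaloisRepAdic.ofResidualGaloisRep ρ.residual).IsOrdinaryAt p)
    (I : Ideal T) [IsLocalRing (T ⧸ I)]
    (ρM : (AlgebraicClosure ℚ ≃ₐ[ℚ] AlgebraicClosure ℚ) →* Module.End B M) (π' : B →+* T ⧸ I)
    (hquad : ∀ g, ∃ t d : B, (∀ y : M, ρM g (ρM g y) - t • ρM g y + d • y = 0) ∧
      π' t = (Fermat.Agent.S32.helper2804.lvl ρ I g).trace ∧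
      π' d = (Fermat.Agent.S32.helper2804.lvl ρ I g).det)
    (P : ValuationSubring (AlgebraicClosure ℚ)) (hP : P.LiesOverPrime p)
    (e : (AlgebraicClosure ℚ ≃ₐ[ℚ] AlgebraicClosure ℚ) → ℕ)
    (he : ∀ x ∈ P.inertiaSubgroupIn ℚ, ∀ μ : AlgebraicClosure ℚ, μ ^ p = 1 → x μ = μ ^ e x) :
    ∃ (r : ℕ) (C : ℕ → AddSubgroup M), C 0 = ⊥ ∧ C r = ⊤ ∧
      (∀ (i : ℕ) (g : AlgebraicClosure ℚ ≃ₐ[ℚ] AlgebraicClosure ℚ), ∀ c ∈ C i, ρM g c ∈ C i) ∧
      ∀ i < r, C i ≤ C (i + 1) ∧ (∀ c ∈ C (i + 1), p • c ∈ C i) ∧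
        ∀ g ∈ P.inertiaSubgroupIn ℚ, ∀ c ∈ C (i + 1),
          ρM g (ρM g c) - (1 + e g) • ρM g c + e g • c ∈ C i := by
  have hloc : IsLocalHom (Ideal.Quotient.mk I) :=
    IsLocalHom.of_surjective (Ideal.Quotient.mk I) Ideal.Quotient.mk_surjective
  have hpI : ((p : ℕ) : T ⧸ I) ∈ maximalIdeal (T ⧸ I) := by
    have := map_nonunit (Ideal.Quotient.mk I) _ hdet.1
    rwa [map_natCast] at this
  exact exists_quadChain_finCarayol ρM π' (Fermat.Agent.S32.helper2804.lvl ρ I) hquad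
    (↑(P.inertiaSubgroupIn ℚ) : Set (AlgebraicClosure ℚ ≃ₐ[ℚ] AlgebraicClosure ℚ)) p hpI e
    (fun g hg => trace_det_lvl_mem ρ hdet hres I P hP g hg (e g) (he g hg))

/-- **(Q4), `DistribMulAction` form** — the unfolded `HasQuadChain p (e ∘ j)` of helper4662 for
a monoid `Γ` acting on `M` through `j : Γ → G_ℚ` with values in the inertia group at `P`
(e.g. `Γ = ↥(P.inertiaSubgroupIn ℚ)`, `j = Subtype.val`). -/
theorem exists_quadChain_of_hres_smul (ρ : GaloisRepAdic T) {p : ℕ} (hdet : ρ.DetIsCyclotomic p)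
    (hres : (GaloisRepAdic.ofResidualGaloisRep ρ.residual).IsOrdinaryAt p)
    (I : Ideal T) [IsLocalRing (T ⧸ I)]
    (ρM : (AlgebraicClosure ℚ ≃ₐ[ℚ] AlgebraicClosure ℚ) →* Module.End B M) (π' : B →+* T ⧸ I)
    (hquad : ∀ g, ∃ t d : B, (∀ y : M, ρM g (ρM g y) - t • ρM g y + d • y = 0) ∧
      π' t = (Fermat.Agent.S32.helper2804.lvl ρ I g).trace ∧
      π' d = (Fermat.Agent.S32.helper2804.lvl ρ I g).det)
    (P : ValuationSubring (AlgebraicClosure ℚ)) (hP : P.LiesOverPrime p)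
    {Γ : Type*} [Monoid Γ] [DistribMulAction Γ M]
    (j : Γ → (AlgebraicClosure ℚ ≃ₐ[ℚ] AlgebraicClosure ℚ))
    (hj : ∀ (γ : Γ) (y : M), γ • y = ρM (j γ) y) (hjI : ∀ γ : Γ, j γ ∈ P.inertiaSubgroupIn ℚ)
    (e : Γ → ℕ)
    (he : ∀ (γ : Γ) (μ : AlgebraicClosure ℚ), μ ^ p = 1 → j γ μ = μ ^ e γ) :
    ∃ (r : ℕ) (C : ℕ → AddSubgroup M), C 0 = ⊥ ∧ C r = ⊤ ∧
      (∀ (i : ℕ) (γ : Γ), ∀ c ∈ C i, γ • c ∈ C i) ∧
      ∀ i < r, C i ≤ C (i + 1) ∧ (∀ c ∈ C (i + 1), p • c ∈ C i) ∧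
        ∀ γ : Γ, ∀ c ∈ C (i + 1), γ • γ • c - (1 + e γ) • γ • c + e γ • c ∈ C i := by
  have hloc : IsLocalHom (Ideal.Quotient.mk I) :=
    IsLocalHom.of_surjective (Ideal.Quotient.mk I) Ideal.Quotient.mk_surjective
  have hpB : ((p : ℕ) : B) ∈ maximalIdeal B := by
    refine mem_maximalIdeal_of_map_mem π' ?_
    have := map_nonunit (Ideal.Quotient.mk I) _ hdet.1
    rwa [map_natCast, ← map_natCast π'] at this
  obtain ⟨r, C, h0, hr, hst, hstep⟩ := exists_quadChain_linear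
    (fun γ : Γ => (ρM (j γ) : M →ₗ[B] M)) p hpB e (fun γ => by
      obtain ⟨t, d, hq, ht, hd⟩ := hquad (j γ)
      obtain ⟨h1, h2⟩ := trace_det_lvl_mem ρ hdet hres I P hP (j γ) (hjI γ) (e γ) (he γ)
      refine ⟨t, d, hq, mem_maximalIdeal_of_map_mem π' ?_, mem_maximalIdeal_of_map_mem π' ?_⟩
      · rw [map_sub, map_add, map_one, map_natCast, ht]
        exact h1
      · rw [map_sub, map_natCast, hd]
        exact h2)
  refine ⟨r, fun i => (C i).toAddSubgroup, ?_, ?_, ?_, ?_⟩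
  · show (C 0).toAddSubgroup = ⊥
    rw [h0, Submodule.bot_toAddSubgroup]
  · show (C r).toAddSubgroup = ⊤
    rw [hr, Submodule.top_toAddSubgroup]
  · intro i γ c hc
    rw [hj]
    exact hst i (ρM (j γ)) c hc
  · intro i hi
    obtain ⟨h1, h2, h3⟩ := hstep i hi
    refine ⟨fun c hc => h1 hc, h2, fun γ c hc => ?_⟩
    rw [hj, hj]
    exact h3 γ c hc

end Galois

end Fermat.Agent.S33.helper2284
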