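import Mathlib
import Fermat.Agent.S32.helper2559_TransferAsm

/-!
# S33-MIDXFER-EXPORT (helper2559): the S32 transfer, stopped at the local Hecke factor

The S32 transfer (`S32.helper2559.isSubquotOfPow_of_transfer`, `stmt_subquot`) ends with a
pull-back from the local factor `LocM` of `𝒪 ⊗ J₀(N)[p^m]` to `J₀(N)[p^m]` itself.  Relations
which only hold on the local factor (S33: `(x - ε(x))(y - 1) = 0` for `x, y` in an inertia group
at `p`) need the statement one step earlier.  This file exports it: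

* `HT 𝒪 τ hτ` : `𝒪 ⊗ U` as a module over the polynomial ring `𝒪[X_i]`, `X_i ↦ τ_i ⊗ 1`
  (a type synonym, so that `S32.helper2036.LocM`, `LocB`, ... apply), `rho0` the action of the
  group on it;
* `MidData Γ U gU T' ρ'` : the FIN-CARAYOL input package at the local factor (`B` finite local
  acting faithfully on `M`, `ρM`, `π' : B → T'` onto, the quadratic relations lifting the
  characteristic polynomials of `ρ'`), an equivariant additive surjection `q : U^r → M`, and the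
  FIN-CARAYOL output `subquot` (`T'²` is an equivariant subquotient of a finite power of `M`);
* `midData`, `nonempty_midData` : the package from the hypotheses of
  `S32.helper2559.isSubquotOfPow_of_transfer`, verbatim;
* `stmt_mid` : the instance for a Hecke–Galois datum `H` and `J₀(N)[p^m]` (no hypothesis
  `¬ p ∣ N`).
-/

set_option autoImplicit false

namespace Fermat.Agent.S33.helper2559

open scoped TensorProduct
open ModularCurve

/-! ### The Hecke module `𝒪 ⊗ U` over the polynomial ring -/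

section HeckeModule

/-- `𝒪 ⊗ U` as a module over the polynomial ring `𝒪[X_i]`, with `X_i` acting as `τ_i ⊗ 1`
(type synonym of `𝒪 ⊗[ℤ] U`). -/
def HT (𝒪 : Type) [CommRing 𝒪] {U : Type} [AddCommGroup U] {ι : Type}
    (τ : ι → Module.End ℤ U) (_hτ : ∀ i j, τ i * τ j = τ j * τ i) : Type :=
  𝒪 ⊗[ℤ] U

variable (𝒪 : Type) [CommRing 𝒪] {U : Type} [AddCommGroup U] {ι : Type}
  (τ : ι → Module.End ℤ U) (hτ : ∀ i j, τ i * τ j = τ j * τ i)

noncomputable instance : AddCommGroup (HT 𝒪 τ hτ) :=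
  inferInstanceAs (AddCommGroup (𝒪 ⊗[ℤ] U))

noncomputable instance : Module (MvPolynomial ι 𝒪) (HT 𝒪 τ hτ) :=
  Module.compHom (𝒪 ⊗[ℤ] U) (S32.helper2559.evHom 𝒪 τ hτ).toRingHom

instance [Finite (𝒪 ⊗[ℤ] U)] : Finite (HT 𝒪 τ hτ) :=
  inferInstanceAs (Finite (𝒪 ⊗[ℤ] U))

/-- The identification `𝒪 ⊗ U ≃+ HT 𝒪 τ hτ`. -/
noncomputable def toHT : 𝒪 ⊗[ℤ] U ≃+ HT 𝒪 τ hτ := AddEquiv.refl _

theorem smul_toHT (P : MvPolynomial ι 𝒪) (z : 𝒪 ⊗[ℤ] U) :
    P • toHT 𝒪 τ hτ z = toHT 𝒪 τ hτ (S32.helper2559.evHom 𝒪 τ hτ P z) := rfl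

theorem smul_HT (P : MvPolynomial ι 𝒪) (z : HT 𝒪 τ hτ) :
    P • z = toHT 𝒪 τ hτ (S32.helper2559.evHom 𝒪 τ hτ P ((toHT 𝒪 τ hτ).symm z)) := rfl

variable {Γ : Type} [Group Γ] (gU : Γ →* Module.End ℤ U)

/-- The action of `Γ` on `HT 𝒪 τ hτ` (`g ↦ gU g ⊗ 1`), linear over the polynomial ring as soon
as the `τ i` commute with `Γ`. -/
noncomputable def rho0 (hτg : ∀ i g, τ i * gU g = gU g * τ i) :
    Γ →* Module.End (MvPolynomial ι 𝒪) (HT 𝒪 τ hτ) where
  toFun g :=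
    { toFun := fun x => toHT 𝒪 τ hτ ((gU g).baseChange 𝒪 ((toHT 𝒪 τ hτ).symm x))
      map_add' := fun x y => by
        rw [map_add, map_add, map_add]
      map_smul' := fun P x => by
        rw [RingHom.id_apply, smul_HT, smul_HT, AddEquiv.symm_apply_apply,
          AddEquiv.symm_apply_apply]
        have hcommg : (gU g).baseChange 𝒪 * S32.helper2559.evHom 𝒪 τ hτ P =
            S32.helper2559.evHom 𝒪 τ hτ P * (gU g).baseChange 𝒪 :=
          S32.helper2559.evHom_commute 𝒪 τ hτ _ (fun i => by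
            rw [← LinearMap.baseChange_mul, ← LinearMap.baseChange_mul, hτg]) P
        exact congrArg (toHT 𝒪 τ hτ)
          (congrArg (fun f : Module.End 𝒪 (𝒪 ⊗[ℤ] U) => f ((toHT 𝒪 τ hτ).symm x)) hcommg) }
  map_one' := by
    refine LinearMap.ext fun x => ?_
    show toHT 𝒪 τ hτ ((gU 1).baseChange 𝒪 ((toHT 𝒪 τ hτ).symm x)) = x
    rw [map_one, LinearMap.baseChange_one, Module.End.one_apply, AddEquiv.apply_symm_apply]
  map_mul' g h := by
    refine LinearMap.ext fun x => ?_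
    show toHT 𝒪 τ hτ ((gU (g * h)).baseChange 𝒪 ((toHT 𝒪 τ hτ).symm x)) =
      toHT 𝒪 τ hτ ((gU g).baseChange 𝒪 ((toHT 𝒪 τ hτ).symm
        (toHT 𝒪 τ hτ ((gU h).baseChange 𝒪 ((toHT 𝒪 τ hτ).symm x)))))
    rw [AddEquiv.symm_apply_apply, map_mul, LinearMap.baseChange_mul, Module.End.mul_apply]

theorem rho0_toHT (hτg : ∀ i g, τ i * gU g = gU g * τ i) (g : Γ) (z : 𝒪 ⊗[ℤ] U) :
    rho0 𝒪 τ hτ gU hτg g (toHT 𝒪 τ hτ z) = toHT 𝒪 τ hτ ((gU g).baseChange 𝒪 z) := rfl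

end HeckeModule

/-! ### The package at the local factor -/

/-- **The FIN-CARAYOL package at the local Hecke factor.**  `B` is a finite local commutative
ring acting faithfully on the finite module `M`, with a `B`-linear action `ρM` of `Γ`;
`π' : B → T'` is onto; every `g` satisfies a quadratic relation on `M` lifting the characteristic
polynomial of `ρ' g`; `q : U^r → M` is an equivariant additive surjection; and `T'²` (with `ρ'`)
is an equivariant additive quotient of a `Γ`-stable subgroup of a finite power of `M`. -/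
structure MidData (Γ : Type) [Group Γ] (U : Type) [AddCommGroup U] (gU : Γ →* Module.End ℤ U)
    (T' : Type) [CommRing T'] (ρ' : Γ →* Matrix (Fin 2) (Fin 2) T') where
  /-- the image ring of the Hecke polynomials on the local factor -/
  B : Type
  [commRing : CommRing B]
  [isLocalRing : IsLocalRing B]
  [finiteB : Finite B]
  /-- the local factor of `𝒪 ⊗ U` -/
  M : Type
  [addCommGroup : AddCommGroup M]
  [module : Module B M]
  [finiteM : Finite M]
  /-- the action of `Γ` on the local factor -/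
  ρM : Γ →* Module.End B M
  /-- the surjection onto the coefficient ring -/
  π' : B →+* T'
  /-- the number of copies of `U` -/
  r : ℕ
  /-- the equivariant surjection `U^r → M` -/
  q : (Fin r → U) →+ M
  faithful : ∀ b : B, (∀ y : M, b • y = 0) → b = 0
  π'_surjective : Function.Surjective π'
  q_surjective : Function.Surjective q
  q_equivariant : ∀ (g : Γ) (x : Fin r → U), q (fun i => gU g (x i)) = ρM g (q x)
  quad : ∀ g : Γ, ∃ t d : B, (∀ y : M, ρM g (ρM g y) - t • ρM g y + d • y = 0) ∧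
    π' t = (ρ' g).trace ∧ π' d = (ρ' g).det
  subquot : S32.helper2036.IsSubquotOfPow M (Fin 2 → T') (fun g y => ρM g y)
    (fun g v => (ρ' g).mulVec v)

attribute [instance] MidData.commRing MidData.isLocalRing MidData.finiteB MidData.addCommGroup
  MidData.module MidData.finiteM

namespace MidData

variable {Γ : Type} [Group Γ] {U : Type} [AddCommGroup U] {gU : Γ →* Module.End ℤ U}
  {T' : Type} [CommRing T'] {ρ' : Γ →* Matrix (Fin 2) (Fin 2) T'}

/-- Whatever kills `U` kills the local factor. -/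
theorem smul_eq_zero (D : MidData Γ U gU T' ρ') (n : ℤ) (hU : ∀ x : U, n • x = 0) (y : D.M) :
    n • y = 0 := by
  obtain ⟨x, rfl⟩ := D.q_surjective y
  rw [← map_zsmul]
  have : n • x = 0 := funext fun i => hU (x i)
  rw [this, map_zero]

/-- Transport of the output along an equivariant additive surjection `T'² → V`. -/
theorem subquot_comp (D : MidData Γ U gU T' ρ') {V : Type*} [AddCommGroup V]
    (actV : Γ → V → V) (e : (Fin 2 → T') →+ V) (he : Function.Surjective e)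
    (hee : ∀ g v, e ((ρ' g).mulVec v) = actV g (e v)) :
    S32.helper2036.IsSubquotOfPow D.M V (fun g y => D.ρM g y) actV :=
  S32.helper2036.IsSubquotOfPow.comp_surjective e he hee D.subquot

end MidData

/-! ### The package from the hypotheses of the abstract transfer -/

section Abstract

variable {Γ : Type} [Group Γ] {U : Type} [AddCommGroup U]
  (𝒪 : Type) [CommRing 𝒪] (gU : Γ →* Module.End ℤ U)
  {ι : Type} (τ : ι → Module.End ℤ U) (c : ι → ℤ)
  (hτ : ∀ i j, τ i * τ j = τ j * τ i)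

/-- The evaluation `𝒪[X_i] → T'`, `X_i ↦ a i`, as a ring homomorphism. -/
noncomputable def piHT {T' : Type} [CommRing T'] [Algebra 𝒪 T'] (a : ι → T') :
    MvPolynomial ι 𝒪 →+* T' :=
  (MvPolynomial.aeval a : MvPolynomial ι 𝒪 →ₐ[𝒪] T').toRingHom

theorem piHT_apply {T' : Type} [CommRing T'] [Algebra 𝒪 T'] (a : ι → T')
    (P : MvPolynomial ι 𝒪) : piHT 𝒪 a P = MvPolynomial.aeval a P := rfl

/-- Faithfulness up to `π`, in the shape of `S32.helper2036`. -/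
theorem faith_HT {T' : Type} [CommRing T'] [Algebra 𝒪 T'] (a : ι → T')
    (hfaith : ∀ P : MvPolynomial ι 𝒪, S32.helper2559.evHom 𝒪 τ hτ P = 0 →
      MvPolynomial.aeval a P = 0)
    (r : MvPolynomial ι 𝒪) (hr : ∀ x : HT 𝒪 τ hτ, r • x = 0) : piHT 𝒪 a r = 0 :=
  hfaith r (LinearMap.ext fun z => hr (toHT 𝒪 τ hτ z))

/-- The quadratic relations on `HT 𝒪 τ hτ`, with coefficients in the polynomial ring. -/
theorem quad_HT (hτg : ∀ i g, τ i * gU g = gU g * τ i)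
    (Frob : ι → Γ → Prop)
    (hES : ∀ i s, Frob i s → gU s * gU s - τ i * gU s + ((c i : ℤ) : Module.End ℤ U) = 0)
    {T' : Type} [CommRing T'] [Algebra 𝒪 T'] (a : ι → T')
    (ρ' : Γ →* Matrix (Fin 2) (Fin 2) T')
    (hg : ∀ g, ∃ i s k, Frob i s ∧ gU g = gU s ^ k ∧
      (ρ' g).trace = (Polynomial.dickson 1 ((c i : ℤ) : T') k).eval (a i) ∧
      (ρ' g).det = ((c i : ℤ) : T') ^ k) (g : Γ) :
    ∃ t d : MvPolynomial ι 𝒪,
      (∀ x : HT 𝒪 τ hτ, rho0 𝒪 τ hτ gU hτg g (rho0 𝒪 τ hτ gU hτg g x)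
        - t • rho0 𝒪 τ hτ gU hτg g x + d • x = 0) ∧
        piHT 𝒪 a t = (ρ' g).trace ∧ piHT 𝒪 a d = (ρ' g).det := by
  have hcommg : ∀ (g : Γ) (i : ι),
      (gU g).baseChange 𝒪 * (τ i).baseChange 𝒪 = (τ i).baseChange 𝒪 * (gU g).baseChange 𝒪 := by
    intro g i
    rw [← LinearMap.baseChange_mul, ← LinearMap.baseChange_mul, hτg]
  obtain ⟨i, s, k, hF, hgs, htr, hdet⟩ := hg g
  refine ⟨(Polynomial.dickson 1 ((c i : ℤ) : MvPolynomial ι 𝒪) k).eval (MvPolynomial.X i),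
    ((c i : ℤ) : MvPolynomial ι 𝒪) ^ k, ?_, ?_, ?_⟩
  · intro x
    obtain ⟨z, rfl⟩ := (toHT 𝒪 τ hτ).surjective x
    have hrel : (gU s).baseChange 𝒪 * (gU s).baseChange 𝒪
        - (S32.helper2559.evHom 𝒪 τ hτ).toRingHom (MvPolynomial.X i) * (gU s).baseChange 𝒪
        + ((c i : ℤ) : Module.End 𝒪 (𝒪 ⊗[ℤ] U)) = 0 := by
      have h1 := congrArg (Module.End.baseChangeHom ℤ 𝒪 U) (hES i s hF)
      rw [map_add, map_sub, map_mul, map_mul, map_intCast, map_zero] at h1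
      rw [AlgHom.toRingHom_eq_coe, RingHom.coe_coe, S32.helper2559.evHom_X]
      exact h1
    have hcomm : (S32.helper2559.evHom 𝒪 τ hτ).toRingHom (MvPolynomial.X i) * (gU s).baseChange 𝒪
        = (gU s).baseChange 𝒪 * (S32.helper2559.evHom 𝒪 τ hτ).toRingHom (MvPolynomial.X i) := by
      rw [AlgHom.toRingHom_eq_coe, RingHom.coe_coe, S32.helper2559.evHom_X]
      exact (hcommg s i).symm
    have key := S32.helper2559.dickson_quad (S32.helper2559.evHom 𝒪 τ hτ).toRingHom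
      (MvPolynomial.X i) ((gU s).baseChange 𝒪) (c i) hcomm hrel k
    have hpow : (gU g).baseChange 𝒪 = (gU s).baseChange 𝒪 ^ k := by
      rw [hgs]
      exact map_pow (Module.End.baseChangeHom ℤ 𝒪 U) (gU s) k
    have hd : S32.helper2559.evHom 𝒪 τ hτ (((c i : ℤ) : MvPolynomial ι 𝒪) ^ k)
        = ((c i : ℤ) : Module.End 𝒪 (𝒪 ⊗[ℤ] U)) ^ k := by
      rw [map_pow, map_intCast]
    rw [rho0_toHT, rho0_toHT, smul_toHT, smul_toHT, hd, hpow, ← map_sub, ← map_add]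
    have key' := congrArg (fun f : Module.End 𝒪 (𝒪 ⊗[ℤ] U) => f z) key
    have key'' : ((gU s).baseChange 𝒪 ^ k) (((gU s).baseChange 𝒪 ^ k) z)
        - (S32.helper2559.evHom 𝒪 τ hτ)
            ((Polynomial.dickson 1 ((c i : ℤ) : MvPolynomial ι 𝒪) k).eval (MvPolynomial.X i))
          (((gU s).baseChange 𝒪 ^ k) z)
        + (((c i : ℤ) : Module.End 𝒪 (𝒪 ⊗[ℤ] U)) ^ k) z = 0 := by
      simpa using key'
    rw [key'', map_zero]
  · have h1 : piHT 𝒪 a (MvPolynomial.X i) = a i := MvPolynomial.aeval_X a i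
    rw [htr, S32.helper2559.map_eval_dickson_comm (piHT 𝒪 a), h1, map_intCast]
  · rw [hdet, piHT_apply, map_pow, map_intCast]

/-- **The package from the hypotheses of the abstract transfer**
(`S32.helper2559.isSubquotOfPow_of_transfer`, verbatim, with the presentation `q₀ : U^r ↠ 𝒪 ⊗ U`
given explicitly): `B = LocB π (HT 𝒪 τ hτ)`, `M = LocM π (HT 𝒪 τ hτ)` for `π = piHT 𝒪 a`. -/
noncomputable def midData (hFC : S32.helper2559.FinCarayol)
    (hτg : ∀ i g, τ i * gU g = gU g * τ i)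
    (Frob : ι → Γ → Prop)
    (hES : ∀ i s, Frob i s → gU s * gU s - τ i * gU s + ((c i : ℤ) : Module.End ℤ U) = 0)
    (r : ℕ) (q₀ : (Fin r → U) →+ 𝒪 ⊗[ℤ] U) (hq₀ : Function.Surjective q₀)
    (hq₀e : ∀ (f : Module.End ℤ U) (x : Fin r → U),
      q₀ (fun i => f (x i)) = f.baseChange 𝒪 (q₀ x))
    [Finite U]
    {T' : Type} [CommRing T'] [IsLocalRing T'] [Algebra 𝒪 T'] (a : ι → T')
    (hsurjπ : Function.Surjective (MvPolynomial.aeval a : MvPolynomial ι 𝒪 →ₐ[𝒪] T'))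
    (hfaith : ∀ P : MvPolynomial ι 𝒪, S32.helper2559.evHom 𝒪 τ hτ P = 0 →
      MvPolynomial.aeval a P = 0)
    (ρ' : Γ →* Matrix (Fin 2) (Fin 2) T')
    (hsurj : Function.Surjective (MonoidAlgebra.lift T' (Matrix (Fin 2) (Fin 2) T') Γ ρ'))
    (hg : ∀ g, ∃ i s k, Frob i s ∧ gU g = gU s ^ k ∧
      (ρ' g).trace = (Polynomial.dickson 1 ((c i : ℤ) : T') k).eval (a i) ∧
      (ρ' g).det = ((c i : ℤ) : T') ^ k) :
    MidData Γ U gU T' ρ' :=
  haveI : Finite (𝒪 ⊗[ℤ] U) := Finite.of_surjective q₀ hq₀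
  haveI : IsLocalRing (S32.helper2036.LocB (piHT 𝒪 a) (HT 𝒪 τ hτ)) :=
    S32.helper2036.locB_isLocalRing (piHT 𝒪 a) (HT 𝒪 τ hτ) (faith_HT 𝒪 τ hτ a hfaith)
  { B := S32.helper2036.LocB (piHT 𝒪 a) (HT 𝒪 τ hτ)
    M := S32.helper2036.LocM (piHT 𝒪 a) (HT 𝒪 τ hτ)
    ρM := S32.helper2036.locRho (piHT 𝒪 a) (HT 𝒪 τ hτ) (rho0 𝒪 τ hτ gU hτg)
    π' := S32.helper2036.piB (piHT 𝒪 a) (HT 𝒪 τ hτ) (faith_HT 𝒪 τ hτ a hfaith)
    r := r
    q := ((S32.helper2036.locMk (piHT 𝒪 a) (HT 𝒪 τ hτ)).toAddMonoidHom.comp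
      (toHT 𝒪 τ hτ).toAddMonoidHom).comp q₀
    faithful := S32.helper2036.locB_faithful (piHT 𝒪 a) (HT 𝒪 τ hτ)
    π'_surjective := S32.helper2036.piB_surjective (piHT 𝒪 a) (HT 𝒪 τ hτ)
      (faith_HT 𝒪 τ hτ a hfaith) hsurjπ
    q_surjective := ((S32.helper2036.locMk_surjective (piHT 𝒪 a) (HT 𝒪 τ hτ)).comp
      (toHT 𝒪 τ hτ).surjective).comp hq₀
    q_equivariant := fun g x => by
      show S32.helper2036.locMk (piHT 𝒪 a) (HT 𝒪 τ hτ)
          (toHT 𝒪 τ hτ (q₀ (fun i => gU g (x i)))) =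
        S32.helper2036.locRho (piHT 𝒪 a) (HT 𝒪 τ hτ) (rho0 𝒪 τ hτ gU hτg) g
          (S32.helper2036.locMk (piHT 𝒪 a) (HT 𝒪 τ hτ) (toHT 𝒪 τ hτ (q₀ x)))
      rw [S32.helper2036.locRho_locMk, rho0_toHT, hq₀e]
    quad := fun g => S32.helper2036.exists_quad_descend (piHT 𝒪 a) (HT 𝒪 τ hτ)
      (rho0 𝒪 τ hτ gU hτg) (faith_HT 𝒪 τ hτ a hfaith) g _ _
      (quad_HT 𝒪 gU τ c hτ hτg Frob hES a ρ' hg g)
    subquot := hFC Γ (S32.helper2036.LocB (piHT 𝒪 a) (HT 𝒪 τ hτ))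
      (S32.helper2036.LocM (piHT 𝒪 a) (HT 𝒪 τ hτ))
      (S32.helper2036.locB_faithful (piHT 𝒪 a) (HT 𝒪 τ hτ))
      (S32.helper2036.locRho (piHT 𝒪 a) (HT 𝒪 τ hτ) (rho0 𝒪 τ hτ gU hτg)) T'
      (S32.helper2036.piB (piHT 𝒪 a) (HT 𝒪 τ hτ) (faith_HT 𝒪 τ hτ a hfaith))
      (S32.helper2036.piB_surjective (piHT 𝒪 a) (HT 𝒪 τ hτ) (faith_HT 𝒪 τ hτ a hfaith) hsurjπ)
      ρ' hsurj
      (fun g => S32.helper2036.exists_quad_descend (piHT 𝒪 a) (HT 𝒪 τ hτ)
        (rho0 𝒪 τ hτ gU hτg) (faith_HT 𝒪 τ hτ a hfaith) g _ _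
        (quad_HT 𝒪 gU τ c hτ hτg Frob hES a ρ' hg g)) }

/-- The kernel of `q : U^r → M` for `midData`: the classes killed, inside `𝒪 ⊗ U`, by a Hecke
polynomial whose value in `T'` is a unit. -/
theorem midData_q_eq_zero_iff (hFC : S32.helper2559.FinCarayol)
    (hτg : ∀ i g, τ i * gU g = gU g * τ i)
    (Frob : ι → Γ → Prop)
    (hES : ∀ i s, Frob i s → gU s * gU s - τ i * gU s + ((c i : ℤ) : Module.End ℤ U) = 0)
    (r : ℕ) (q₀ : (Fin r → U) →+ 𝒪 ⊗[ℤ] U) (hq₀ : Function.Surjective q₀)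
    (hq₀e : ∀ (f : Module.End ℤ U) (x : Fin r → U),
      q₀ (fun i => f (x i)) = f.baseChange 𝒪 (q₀ x))
    [Finite U]
    {T' : Type} [CommRing T'] [IsLocalRing T'] [Algebra 𝒪 T'] (a : ι → T')
    (hsurjπ : Function.Surjective (MvPolynomial.aeval a : MvPolynomial ι 𝒪 →ₐ[𝒪] T'))
    (hfaith : ∀ P : MvPolynomial ι 𝒪, S32.helper2559.evHom 𝒪 τ hτ P = 0 →
      MvPolynomial.aeval a P = 0)
    (ρ' : Γ →* Matrix (Fin 2) (Fin 2) T')
    (hsurj : Function.Surjective (MonoidAlgebra.lift T' (Matrix (Fin 2) (Fin 2) T') Γ ρ'))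
    (hg : ∀ g, ∃ i s k, Frob i s ∧ gU g = gU s ^ k ∧
      (ρ' g).trace = (Polynomial.dickson 1 ((c i : ℤ) : T') k).eval (a i) ∧
      (ρ' g).det = ((c i : ℤ) : T') ^ k) (x : Fin r → U) :
    (midData 𝒪 gU τ c hτ hFC hτg Frob hES r q₀ hq₀ hq₀e a hsurjπ hfaith ρ' hsurj hg).q x = 0 ↔
      ∃ s : MvPolynomial ι 𝒪, IsUnit (MvPolynomial.aeval a s) ∧
        S32.helper2559.evHom 𝒪 τ hτ s (q₀ x) = 0 := by
  show S32.helper2036.locMk (piHT 𝒪 a) (HT 𝒪 τ hτ) (toHT 𝒪 τ hτ (q₀ x)) = 0 ↔ _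
  rw [S32.helper2036.locMk_eq_zero_iff, S32.helper2036.mem_K]
  constructor
  · rintro ⟨s, hs, hsx⟩
    exact ⟨s, (S32.helper2036.not_mem_nIdeal_iff (piHT 𝒪 a)).mp hs, hsx⟩
  · rintro ⟨s, hs, hsx⟩
    exact ⟨s, (S32.helper2036.not_mem_nIdeal_iff (piHT 𝒪 a)).mpr hs, hsx⟩

/-- **Existence of the package**, from the hypotheses of
`S32.helper2559.isSubquotOfPow_of_transfer` verbatim. -/
theorem nonempty_midData [Finite U] (hFC : S32.helper2559.FinCarayol)
    (hτg : ∀ i g, τ i * gU g = gU g * τ i)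
    (Frob : ι → Γ → Prop)
    (hES : ∀ i s, Frob i s → gU s * gU s - τ i * gU s + ((c i : ℤ) : Module.End ℤ U) = 0)
    (hD3 : ∃ (d : ℕ) (q : (Fin d → U) →+ 𝒪 ⊗[ℤ] U), Function.Surjective q ∧
      ∀ (f : Module.End ℤ U) (x : Fin d → U), q (fun i => f (x i)) = f.baseChange 𝒪 (q x))
    {T' : Type} [CommRing T'] [IsLocalRing T'] [Algebra 𝒪 T'] (a : ι → T')
    (hsurjπ : Function.Surjective (MvPolynomial.aeval a : MvPolynomial ι 𝒪 →ₐ[𝒪] T'))
    (hfaith : ∀ P : MvPolynomial ι 𝒪, S32.helper2559.evHom 𝒪 τ hτ P = 0 →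
      MvPolynomial.aeval a P = 0)
    (ρ' : Γ →* Matrix (Fin 2) (Fin 2) T')
    (hsurj : Function.Surjective (MonoidAlgebra.lift T' (Matrix (Fin 2) (Fin 2) T') Γ ρ'))
    (hg : ∀ g, ∃ i s k, Frob i s ∧ gU g = gU s ^ k ∧
      (ρ' g).trace = (Polynomial.dickson 1 ((c i : ℤ) : T') k).eval (a i) ∧
      (ρ' g).det = ((c i : ℤ) : T') ^ k) :
    Nonempty (MidData Γ U gU T' ρ') := by
  obtain ⟨d, q, hq, hqe⟩ := hD3
  exact ⟨midData 𝒪 gU τ c hτ hFC hτg Frob hES d q hq hqe a hsurjπ hfaith ρ' hsurj hg⟩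

end Abstract

/-! ### The instance for `J₀(N)` -/

section Main

variable {p : ℕ} {N : ℕ} [NeZero N] {S : Finset ℕ}
  {𝒪 : Type} [CommRing 𝒪] [IsDomain 𝒪] [IsDiscreteValuationRing 𝒪]
  [IsAdicComplete (IsLocalRing.maximalIdeal 𝒪) 𝒪]
  {θ : CuspForm.heckeAlgebra N 2 (↑S : Set ℕ) →+* IsLocalRing.ResidueField 𝒪}
  {T : Type} [CommRing T] [IsLocalRing T] [IsNoetherianRing T]
  [IsAdicComplete (IsLocalRing.maximalIdeal T) T] [Algebra 𝒪 T] [IsLocalHom (algebraMap 𝒪 T)]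
  [Module.Finite 𝒪 T] [Module.Free 𝒪 T]

set_option maxHeartbeats 1600000 in
/-- **The package at a fixed level `m`**: if every polynomial in the `T_ℓ ⊗ 1` killing
`𝒪 ⊗ J₀(N)[p^m]` has its value at the `π T_ℓ` in `I`, the local factor of `𝒪 ⊗ J₀(N)[p^m]` at
the level-`I` quotient of the datum carries the FIN-CARAYOL package for the level-`I`
representation. -/
theorem nonempty_midData_lvl [Finite (IsLocalRing.ResidueField 𝒪)] [CharZero 𝒪]
    (hp : p.Prime) (hpS : p ∈ S)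
    (hNS : ∀ q : ℕ, q.Prime → q ∣ N → q ∈ S)
    (H : CuspForm.HeckeGaloisRepDatum N (↑S : Set ℕ) 𝒪 θ T)
    (hFQ : S32.helper2559.Stmt_FQ N p) (I : Ideal T) [Finite (T ⧸ I)] (hI : I ≠ ⊤) (m : ℕ)
    (hfaith : ∀ (hτ : ∀ i j : S32.helper2559.GoodPrime N S,
        S32.helper2559.tauJ N S ((p : ℤ) ^ m) i * S32.helper2559.tauJ N S ((p : ℤ) ^ m) j =
        S32.helper2559.tauJ N S ((p : ℤ) ^ m) j * S32.helper2559.tauJ N S ((p : ℤ) ^ m) i)
      (P : MvPolynomial (S32.helper2559.GoodPrime N S) 𝒪),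
        S32.helper2559.evHom 𝒪 (S32.helper2559.tauJ N S ((p : ℤ) ^ m)) hτ P = 0 →
        MvPolynomial.aeval (fun i : S32.helper2559.GoodPrime N S =>
          H.π (S32.helper2559.heckeT i)) P ∈ I) :
    Nonempty (MidData (AlgebraicClosure ℚ ≃ₐ[ℚ] AlgebraicClosure ℚ)
      ↥(Submodule.torsionBy ℤ (JZero N) ((p : ℤ) ^ m))
      (S32.helper2559.galTors (AlgebraicClosure ℚ ≃ₐ[ℚ] AlgebraicClosure ℚ) (JZero N)
        ((p : ℤ) ^ m))
      (T ⧸ I) (S32.helper2804.lvl H.ρ I)) := by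
  have hGH : ∀ (ℓ : Nat.Primes) (σ : AlgebraicClosure ℚ ≃ₐ[ℚ] AlgebraicClosure ℚ) (x : JZero N),
      σ • heckeOperatorBar N ℓ x = heckeOperatorBar N ℓ (σ • x) :=
    fun ℓ σ x => Fermat.Agent.S29.helper5500.galois_smul_heckeOperatorBar N ℓ σ x
  have hFrobEx : ∀ ℓ : ℕ, ℓ.Prime → ∃ (A : ValuationSubring (AlgebraicClosure ℚ))
      (σ : AlgebraicClosure ℚ ≃ₐ[ℚ] AlgebraicClosure ℚ), A.LiesOverPrime ℓ ∧ A.IsFrobeniusAt σ ℓ :=
    fun ℓ hℓ => Fermat.Agent.Lib.helper54.exists_liesOverPrime_isFrobeniusAt hℓ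
  have hτ := S32.helper2559.tauJ_comm hp hpS hFQ hGH hFrobEx m
  have hfinU : Finite ↥(Submodule.torsionBy ℤ (JZero N) ((p : ℤ) ^ m)) := by
    have h := S32.helper2559.finite_torsionBy_of_finite (J := JZero N) (n := p ^ m)
      (Fermat.Agent.S29.helper288.finite_torsion_JZero N (pow_ne_zero m hp.ne_zero))
    rwa [Nat.cast_pow] at h
  have hnt : Nontrivial (T ⧸ I) := Ideal.Quotient.nontrivial_iff.mpr hI
  have hloc : IsLocalRing (T ⧸ I) :=
    IsLocalRing.of_surjective' (Ideal.Quotient.mk I) Ideal.Quotient.mk_surjective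
  obtain ⟨L₀, hL₀, hL₀g⟩ := S32.helper2559.exists_level_galTors (J := JZero N) ((p : ℤ) ^ m)
    (fun x => Fermat.Agent.S29.helper8527.exists_finiteLevel_point N x)
  have hcomp : (Ideal.Quotient.mkₐ 𝒪 I).comp
      (MvPolynomial.aeval fun i : S32.helper2559.GoodPrime N S =>
        H.π (S32.helper2559.heckeT i)) =
      MvPolynomial.aeval fun i : S32.helper2559.GoodPrime N S =>
        Ideal.Quotient.mk I (H.π (S32.helper2559.heckeT i)) :=
    MvPolynomial.comp_aeval _ _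
  have hD3 : ∃ (d : ℕ) (q : (Fin d → ↥(Submodule.torsionBy ℤ (JZero N) ((p : ℤ) ^ m))) →+
      𝒪 ⊗[ℤ] ↥(Submodule.torsionBy ℤ (JZero N) ((p : ℤ) ^ m))), Function.Surjective q ∧
      ∀ (f : Module.End ℤ ↥(Submodule.torsionBy ℤ (JZero N) ((p : ℤ) ^ m)))
        (x : Fin d → ↥(Submodule.torsionBy ℤ (JZero N) ((p : ℤ) ^ m))),
        q (fun i => f (x i)) = f.baseChange 𝒪 (q x) := by
    have hne : (((p : ℤ) ^ m : ℤ) : 𝒪) ≠ 0 := by
      rw [Int.cast_pow, Int.cast_natCast]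
      exact pow_ne_zero m (Nat.cast_ne_zero.mpr hp.ne_zero)
    have hfinq : Finite (𝒪 ⧸ Ideal.span {(((p : ℤ) ^ m : ℤ) : 𝒪)}) :=
      S32.helper2559.finite_quotient_span_singleton hne
    exact S32.helper2559.exists_pow_surjective_tensor 𝒪 ((p : ℤ) ^ m) _
      (fun x => Subtype.ext ((Submodule.mem_torsionBy_iff _ _).1 x.2))
  refine nonempty_midData 𝒪
    (S32.helper2559.galTors (AlgebraicClosure ℚ ≃ₐ[ℚ] AlgebraicClosure ℚ) (JZero N) ((p : ℤ) ^ m))
    (S32.helper2559.tauJ N S ((p : ℤ) ^ m)) (fun i => (i.1 : ℤ)) hτ S32.helper2559.finCarayol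
    (fun i g => S32.helper2559.tauJ_mul_galTors _ hGH i g)
    (fun i s => ∃ A : ValuationSubring (AlgebraicClosure ℚ),
      A.LiesOverPrime i.1 ∧ A.IsFrobeniusAt s i.1)
    (fun i s hF => ?_) hD3
    (fun i => Ideal.Quotient.mk I (H.π (S32.helper2559.heckeT i))) ?_ ?_
    (S32.helper2804.lvl H.ρ I)
    (S32.helper2804.lvl_lift_surjective H.ρ H.residual_absIrr I) ?_
  · obtain ⟨A, hA, hs⟩ := hF
    exact S32.helper2559.frob_quad_tors hp hpS hFQ m i A hA s hs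
  · rw [← hcomp]
    exact (Ideal.Quotient.mkₐ_surjective 𝒪 I).comp
      (S32.helper2559.aeval_heckeT_surjective hNS H.π H.adjoin_range_π)
  · intro P hP
    rw [← hcomp]
    exact Ideal.Quotient.eq_zero_iff_mem.mpr (hfaith hτ P hP)
  · intro g
    obtain ⟨ℓ, hℓ, hℓN, hℓS, A, s, a, hA, hs, hgs, htr, hdet⟩ :=
      S32.helper2804.exists_frob_pow_lvl H I L₀ hL₀ g
    refine ⟨⟨ℓ, hℓ, hℓN, hℓS⟩, s, a, ⟨A, hA, hs⟩, ?_, ?_, ?_⟩
    · rw [hL₀g g (s ^ a) hgs, map_pow]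
    · rw [htr]
      have h1 := S32.helper2559.map_eval_dickson_comm ((Ideal.Quotient.mk I).comp H.π)
        (CuspForm.heckeAlgebra.T hℓ hℓN hℓS : CuspForm.heckeAlgebra N 2 (↑S : Set ℕ))
        ((ℓ : ℕ) : CuspForm.heckeAlgebra N 2 (↑S : Set ℕ)) a
      rw [RingHom.comp_apply, RingHom.comp_apply, RingHom.comp_apply, map_natCast,
        map_natCast] at h1
      rw [Int.cast_natCast]
      exact h1
    · rw [hdet, Int.cast_natCast]

set_option maxHeartbeats 1600000 in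
/-- **S33-MIDXFER-EXPORT.**  For a Hecke–Galois datum `H` over `T` and a proper ideal `I` of
finite index there is `m` with `p^m ∈ I` such that the local factor `D.M` of `𝒪 ⊗ J₀(N)[p^m]`
at the level-`I` quotient carries the FIN-CARAYOL package for the level-`I` representation
(`D : MidData ..`: finite local `D.B` acting faithfully, quadratic relations lifting the
characteristic polynomials, equivariant surjection `J₀(N)[p^m]^r → D.M`), and `V ⧸ I V` with the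
frozen level action is an equivariant additive quotient of a Galois-stable subgroup of a finite
power of `D.M`.  Inputs: the Eichler–Shimura relation on `p`-power torsion (`Stmt_FQ`) and Hecke
faithfulness with `𝒪`-coefficients (`Stmt_HF`).  No hypothesis `¬ p ∣ N`, none on `p = 2`. -/
theorem stmt_mid [Finite (IsLocalRing.ResidueField 𝒪)] [CharZero 𝒪]
    (hp : p.Prime) (hp𝒪 : (p : 𝒪) ∈ IsLocalRing.maximalIdeal 𝒪)
    (hpS : p ∈ S) (hNS : ∀ q : ℕ, q.Prime → q ∣ N → q ∈ S)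
    (H : CuspForm.HeckeGaloisRepDatum N (↑S : Set ℕ) 𝒪 θ T)
    (hFQ : S32.helper2559.Stmt_FQ N p) (hHF : S32.helper2559.Stmt_HF p N S 𝒪 T H.π)
    (I : Ideal T) [Finite (T ⧸ I)] (hI : I ≠ ⊤) :
    ∃ m : ℕ, (p : T) ^ m ∈ I ∧
      ∃ D : MidData (AlgebraicClosure ℚ ≃ₐ[ℚ] AlgebraicClosure ℚ)
          ↥(Submodule.torsionBy ℤ (JZero N) ((p : ℤ) ^ m))
          (S32.helper2559.galTors (AlgebraicClosure ℚ ≃ₐ[ℚ] AlgebraicClosure ℚ) (JZero N)
            ((p : ℤ) ^ m))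
          (T ⧸ I) (S32.helper2804.lvl H.ρ I),
        S32.helper2036.IsSubquotOfPow D.M (H.ρ.V ⧸ (I • (⊤ : Submodule T H.ρ.V)))
          (fun g y => D.ρM g y) (fun g v => H.ρ.levelAction I g v) := by
  obtain ⟨c, hc⟩ := hHF
  have hpT : (p : T) ∈ IsLocalRing.maximalIdeal T :=
    Fermat.Agent.S31.helper8024.natCast_mem_maximalIdeal hp𝒪
  obtain ⟨j, hj⟩ := S32.helper2804.exists_natCast_pow_mem hpT I
  obtain ⟨D⟩ := nonempty_midData_lvl hp hpS hNS H hFQ I hI (c + j) (fun hτ P hP => by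
    have h := hc (c + j) (S32.helper2559.tauJ N S ((p : ℤ) ^ (c + j))) (fun i x => rfl)
      (S32.helper2559.evHom 𝒪 (S32.helper2559.tauJ N S ((p : ℤ) ^ (c + j))) hτ)
      (fun i => S32.helper2559.evHom_X 𝒪 _ hτ i) P hP
    rw [Nat.add_sub_cancel_left] at h
    exact (Ideal.span_singleton_le_iff_mem I).mpr hj h)
  refine ⟨c + j, ?_, D, ?_⟩
  · rw [pow_add]
    exact I.mul_mem_left _ hj
  · refine D.subquot_comp (fun g v => H.ρ.levelAction I g v)
      (S32.helper2804.coord H.ρ I).symm.toAddMonoidHom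
      (S32.helper2804.coord H.ρ I).symm.surjective (fun g v => ?_)
    show (S32.helper2804.coord H.ρ I).symm ((S32.helper2804.lvl H.ρ I g).mulVec v) =
      H.ρ.levelAction I g ((S32.helper2804.coord H.ρ I).symm v)
    rw [AddEquiv.symm_apply_eq, S32.helper2804.coord_levelAction, AddEquiv.apply_symm_apply]

end Main

end Fermat.Agent.S33.helper2559
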