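/-
S33-FIBCOUNT, ROUTE J end (helper2582): `helper5683.Stmt_SeedsJ p M h` from the root-closure
statement `StmtRoot p M hpM P (p ^ m)` ALONE — the finite-generation input `StmtFG` is
`helper7274.stmtFG` (landed).
-/
import Mathlib
import Fermat.Agent.S33.helper2582_SeedsJ
import Fermat.Agent.S33.helper7274_StmtFG

set_option autoImplicit false

open ModularCurve AlgebraicCurve

noncomputable section

namespace Fermat.Agent.S33.helper2582

open Fermat.Agent.S24.helper24 Fermat.Agent.S35.helper882 Fermat.Agent.S19.helper5454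
open Fermat.Agent.S35

/-- **ROUTE J**: `Stmt_SeedsJ` from `StmtRoot` at the powers of `p` (explicit `hpM`). -/
theorem stmt_SeedsJ_of_root (p M : ℕ) [NeZero p] [NeZero M] (h : Nat.Coprime p M)
    [Fact p.Prime] (hpM : ¬ p ∣ M)
    (hRoot : ∀ P : ValuationSubring Kbar, P.LiesOverPrime p →
      ∀ m : ℕ, StmtRoot p M hpM P (p ^ m)) :
    Fermat.Agent.S33.helper5683.Stmt_SeedsJ p M h :=
  stmt_SeedsJ_of_fg_root p M h hpM
    (fun P hP => Fermat.Agent.S33.helper7274.stmtFG p M hpM P hP) hRoot

/-- **ROUTE J**, with `¬ p ∣ M` read off the coprimality hypothesis. -/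
theorem stmt_SeedsJ_of_root_coprime (p M : ℕ) [NeZero p] [NeZero M] (h : Nat.Coprime p M)
    [Fact p.Prime]
    (hRoot : ∀ P : ValuationSubring Kbar, P.LiesOverPrime p →
      ∀ m : ℕ, StmtRoot p M (not_dvd_of_coprime_prime h) P (p ^ m)) :
    Fermat.Agent.S33.helper5683.Stmt_SeedsJ p M h :=
  stmt_SeedsJ_of_root p M h (not_dvd_of_coprime_prime h) hRoot

end Fermat.Agent.S33.helper2582
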