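/-
S33-ROOTT (helper265), part (RT1): transfer of ROOT CLOSURE of reduced chart rings from the
two charts of a coordinate `t` to the two charts of a coordinate `j` with

    `j * t ^ 2 = T ^ 3`,   `T = t + c`  (`c` a nonzero constant).

(Modular instance: `t = t_2` the Hauptmodul of level `2`, `c = 256`, `j` the `j`-invariant.)

Place bookkeeping: poles of `j` = zeros and poles of `t`; zeros of `j` = zeros of `T`; hence
`{j ≠ ∞} = {t ≠ 0, ∞}` and `{j ≠ 0} = {T ≠ 0}` contains both the zeros and the poles of `t`.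

Setting: `K ⊆ F` with Prelude places, a family of valuations `val i` of `F` with common unit ball
`O`, a reduction `red` (`S35.helper2459.RedDataW`, weights `1`), `t`, `T` units of the ball.
If the reductions of the chart rings `chartRing (OnFin t) O`, `chartRing (OnInf t) O` are
`n`-th-root closed inside the reduction of the ball, then so are the reductions of
`chartRing (OnFin j) O` and `chartRing (OnInf j) O`:

* `root_fin_of_tLine` : chart `{j ≠ ∞}`: multiply by `t ^ K`, take the root in the chart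
  `{t ≠ ∞}`, divide;
* `root_inf_of_tLine` : chart `{j ≠ 0}`: `T ^ K x` and `(T / t) ^ K x` have roots `a0`, `a1` in
  the two `t`-charts; glue `T⁻ᴷ a0` and `(t / T) ^ K a1` with the partition of unity
  `φ = (1 - g ^ k) ^ k`, `ψ = 1 - φ`, `g = t / T` (`φ` vanishes to order `k` at the poles of `t`,
  `ψ` at the zeros of `t`, both are regular on `{T ≠ 0}`).

The conclusions are the two halves of `helper2582.StmtRoot` (shape of `hroot0` / `hroot1` of
`helper2582.exists_seeds_of_charts`) verbatim.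
-/
import Mathlib
import Fermat.Prelude.Def_AlgebraicCurve_Repartitions
import Fermat.Agent.S19.helper5454_ChartDiv
import Fermat.Agent.S18.helper981_FundEq
import Fermat.Agent.S35.helper2459_KummerMultiSF

set_option autoImplicit false

noncomputable section

open AlgebraicCurve WithZero

namespace Fermat.Agent.S33.helper265

open Fermat.Agent.S19.helper5454 Fermat.Agent.S18 Fermat.Agent.S35.helper2459

variable {K F : Type*} [Field K] [Field F] [Algebra K F]

/-! ## Orders and valuations at a place -/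

theorem val_lt_one_iff_ord (v : Place K F) {x : F} (hx : x ≠ 0) :
    v.adicValuation x < 1 ↔ 0 < v.ord x := by
  rw [v.adicValuation_eq_exp_neg_ord hx, ← exp_zero, exp_lt_exp]; omega

theorem one_lt_val_iff_ord (v : Place K F) {x : F} (hx : x ≠ 0) :
    1 < v.adicValuation x ↔ v.ord x < 0 := by
  rw [v.adicValuation_eq_exp_neg_ord hx, ← exp_zero, exp_lt_exp]; omega

theorem val_le_one_iff_ord (v : Place K F) {x : F} (hx : x ≠ 0) :
    v.adicValuation x ≤ 1 ↔ 0 ≤ v.ord x := by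
  rw [v.adicValuation_le_one_iff, or_iff_right hx]

theorem val_eq_one_iff_ord (v : Place K F) {x : F} (hx : x ≠ 0) :
    v.adicValuation x = 1 ↔ v.ord x = 0 := by
  rw [v.adicValuation_eq_exp_neg_ord hx, ← exp_zero, exp_inj]; omega

theorem ord_eq_of_val_eq (v : Place K F) {x y : F} (hx : x ≠ 0) (hy : y ≠ 0)
    (h : v.adicValuation x = v.adicValuation y) : v.ord x = v.ord y := by
  rw [v.adicValuation_eq_exp_neg_ord hx, v.adicValuation_eq_exp_neg_ord hy, exp_inj] at h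
  omega

theorem ord_npow (v : Place K F) (x : F) (n : ℕ) : v.ord (x ^ n) = (n : ℤ) * v.ord x := by
  rw [← zpow_natCast, v.ord_zpow]

/-! ## The `t`-line under the `j`-line -/

/-- The relation between the coordinates `t`, `T = t + c` and `j`: `j t² = T³`. -/
structure TLine (t T j : F) : Prop where
  t_ne : t ≠ 0
  T_ne : T ≠ 0
  rel : j * t ^ 2 = T ^ 3
  const : ∃ c : K, c ≠ 0 ∧ T = t + algebraMap K F c

namespace TLine

variable {t T j : F} (h : TLine (K := K) t T j)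
include h

theorem j_ne : j ≠ 0 := by
  rintro rfl
  have := h.rel
  rw [zero_mul] at this
  exact h.T_ne (pow_eq_zero_iff (by norm_num) |>.mp this.symm)

theorem ord_j (v : Place K F) : v.ord j = 3 * v.ord T - 2 * v.ord t := by
  have h1 := congrArg v.ord h.rel
  rw [v.ord_mul h.j_ne (pow_ne_zero 2 h.t_ne), ord_npow, ord_npow] at h1
  push_cast at h1
  omega

/-- The three kinds of places: poles of `t` (= poles of `T`, same order), places where `t` is a
unit (`T` regular), zeros of `t` (`T` a unit). -/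
theorem cases (v : Place K F) :
    (v.ord t < 0 ∧ v.ord T = v.ord t) ∨ (v.ord t = 0 ∧ 0 ≤ v.ord T) ∨
      (0 < v.ord t ∧ v.ord T = 0) := by
  obtain ⟨c, hc, hT⟩ := h.const
  have hc1 : v.adicValuation (algebraMap K F c) = 1 := helper981.val_algebraMap_eq_one v hc
  rcases lt_trichotomy (v.ord t) 0 with hlt | heq | hgt
  · left
    refine ⟨hlt, ?_⟩
    have h1 : 1 < v.adicValuation t := (one_lt_val_iff_ord v h.t_ne).mpr hlt
    have h2 : v.adicValuation T = v.adicValuation t := by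
      rw [hT]
      exact Valuation.map_add_eq_of_lt_left _ (by rw [hc1]; exact h1)
    exact ord_eq_of_val_eq v h.T_ne h.t_ne h2
  · right; left
    refine ⟨heq, ?_⟩
    have h1 : v.adicValuation t ≤ 1 := (val_le_one_iff_ord v h.t_ne).mpr heq.ge
    have h2 : v.adicValuation T ≤ 1 := by
      rw [hT]
      exact (Valuation.map_add _ _ _).trans (max_le h1 hc1.le)
    exact (val_le_one_iff_ord v h.T_ne).mp h2
  · right; right
    refine ⟨hgt, ?_⟩
    have h1 : v.adicValuation t < 1 := (val_lt_one_iff_ord v h.t_ne).mpr hgt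
    have h2 : v.adicValuation T = 1 := by
      rw [hT, ← hc1]
      exact Valuation.map_add_eq_of_lt_right _ (by rw [hc1]; exact h1)
    exact (val_eq_one_iff_ord v h.T_ne).mp h2

theorem s_ne : T * t⁻¹ ≠ 0 := mul_ne_zero h.T_ne (inv_ne_zero h.t_ne)

theorem ord_s (v : Place K F) : v.ord (T * t⁻¹) = v.ord T - v.ord t := by
  rw [v.ord_mul h.T_ne (inv_ne_zero h.t_ne), v.ord_inv]; ring

/-- `{j ≠ ∞} = {t ≠ 0, ∞}`. -/
theorem onFin_j_iff (v : Place K F) : OnFin j v ↔ OnMid t v := by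
  rw [onFin_iff_ord h.j_ne, onMid_iff_ord h.t_ne, h.ord_j v]
  rcases h.cases v with ⟨h1, h2⟩ | ⟨h1, h2⟩ | ⟨h1, h2⟩ <;> omega

/-- `{j ≠ 0} = {T ≠ 0}`. -/
theorem onInf_j_iff (v : Place K F) : OnInf j v ↔ OnInf T v := by
  rw [onInf_iff_ord h.j_ne, onInf_iff_ord h.T_ne, h.ord_j v]
  rcases h.cases v with ⟨h1, h2⟩ | ⟨h1, h2⟩ | ⟨h1, h2⟩ <;> omega

/-- `{T ≠ ∞} = {t ≠ ∞}`. -/
theorem onFin_T_iff (v : Place K F) : OnFin T v ↔ OnFin t v := by
  rw [onFin_iff_ord h.T_ne, onFin_iff_ord h.t_ne]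
  rcases h.cases v with ⟨h1, h2⟩ | ⟨h1, h2⟩ | ⟨h1, h2⟩ <;> omega

/-- `{T / t ≠ ∞} = {t ≠ 0}`. -/
theorem onFin_s_iff (v : Place K F) : OnFin (T * t⁻¹) v ↔ OnInf t v := by
  rw [onFin_iff_ord h.s_ne, onInf_iff_ord h.t_ne, h.ord_s v]
  rcases h.cases v with ⟨h1, h2⟩ | ⟨h1, h2⟩ | ⟨h1, h2⟩ <;> omega

/-- `{T / t ≠ 0} = {T ≠ 0} = {j ≠ 0}`. -/
theorem onInf_s_iff (v : Place K F) : OnInf (T * t⁻¹) v ↔ OnInf j v := by
  rw [onInf_iff_ord h.s_ne, onInf_iff_ord h.j_ne, h.ord_s v, h.ord_j v]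
  rcases h.cases v with ⟨h1, h2⟩ | ⟨h1, h2⟩ | ⟨h1, h2⟩ <;> omega

end TLine

/-! ## Reduction of products with units of the ball -/

section Red

variable {Γ₀ : Type*} [LinearOrderedCommGroupWithZero Γ₀] {ι : Type*}
  {kk : Type*} [Field kk] {Fk : Type*} [CommRing Fk] [Algebra kk Fk] {red : F → Fk}
  {val : ι → Valuation F Γ₀} {vK : Valuation K Γ₀}

theorem ball_pow {a : F} (ha : ∀ i, val i a ≤ 1) (n : ℕ) (i : ι) : val i (a ^ n) ≤ 1 := by
  rw [map_pow]; exact pow_le_one₀ zero_le (ha i)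

theorem ball_mul {a b : F} (ha : ∀ i, val i a ≤ 1) (hb : ∀ i, val i b ≤ 1) (i : ι) :
    val i (a * b) ≤ 1 := by
  rw [map_mul]; exact mul_le_one' (ha i) (hb i)

theorem ball_inv_of_unit {u : F} (hu : ∀ i, val i u = 1) (i : ι) : val i u⁻¹ ≤ 1 := by
  rw [map_inv₀, hu i, inv_one]

theorem red_pow_ball (hred : RedDataW val (fun _ => (1 : Γ₀)) vK kk red red) {a : F}
    (ha : ∀ i, val i a ≤ 1) (n : ℕ) : red (a ^ n) = red a ^ n := by
  induction n with
  | zero => rw [pow_zero, pow_zero]; exact hred.map_one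
  | succ n ih => rw [pow_succ, pow_succ, hred.map_mul _ _ (ball_pow ha n) ha, ih]

/-- `red (u⁻ᴷ a) = red y` if `red (uᴷ y) = red a`, for a unit `u` of the ball. -/
theorem red_unit_cancel (hred : RedDataW val (fun _ => (1 : Γ₀)) vK kk red red) {u : F}
    (hu0 : u ≠ 0) (hu : ∀ i, val i u = 1) (k : ℕ) {a y : F} (ha : ∀ i, val i a ≤ 1)
    (hy : ∀ i, val i y ≤ 1) (hya : red (u ^ k * y) = red a) : red (u⁻¹ ^ k * a) = red y := by
  have hub : ∀ i, val i u ≤ 1 := fun i => (hu i).le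
  have huib : ∀ i, val i u⁻¹ ≤ 1 := ball_inv_of_unit hu
  rw [hred.map_mul _ _ (ball_pow huib k) ha, ← hya, hred.map_mul _ _ (ball_pow hub k) hy,
    ← mul_assoc, ← hred.map_mul _ _ (ball_pow huib k) (ball_pow hub k), ← mul_pow,
    inv_mul_cancel₀ hu0, one_pow, hred.map_one, one_mul]

/-- `red (uᴷ x) ^ n = red (u^(n K) b)` if `red x ^ n = red b`. -/
theorem red_pow_mul_eq (hred : RedDataW val (fun _ => (1 : Γ₀)) vK kk red red) {u x b : F}
    (hub : ∀ i, val i u ≤ 1) (hx : ∀ i, val i x ≤ 1) (hb : ∀ i, val i b ≤ 1) (n k : ℕ)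
    (hxb : red x ^ n = red b) : red (u ^ k * x) ^ n = red (u ^ (n * k) * b) := by
  rw [hred.map_mul _ _ (ball_pow hub k) hx, mul_pow, hxb,
    hred.map_mul _ _ (ball_pow hub (n * k)) hb, red_pow_ball hred hub k,
    red_pow_ball hred hub (n * k), ← pow_mul, mul_comm k n]

/-! ## The transfer -/

variable [HasPrincipalDivisors K F] {t T j : F}

/-- **Root closure on the chart `{j ≠ ∞}`** from root closure on the chart `{t ≠ ∞}`. -/
theorem root_fin_of_tLine (h : TLine (K := K) t T j)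
    (hred : RedDataW val (fun _ => (1 : Γ₀)) vK kk red red)
    {O : Subring F} (hO : ∀ f : F, f ∈ O ↔ ∀ i, val i f ≤ 1)
    (hvt : ∀ i, val i t = 1) {n : ℕ} (hn : n ≠ 0)
    (hfin : ∀ x : F, (∀ i, val i x ≤ 1) →
      (∃ a ∈ chartRing (OnFin (K := K) t) O, red x ^ n = red a) →
        ∃ a ∈ chartRing (OnFin (K := K) t) O, red x = red a) :
    ∀ x : F, (∀ i, val i x ≤ 1) →
      (∃ a ∈ chartRing (OnFin (K := K) j) O, red x ^ n = red a) →
        ∃ a ∈ chartRing (OnFin (K := K) j) O, red x = red a := by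
  rintro x hx ⟨a, ha, hxa⟩
  have htb : ∀ i, val i t ≤ 1 := fun i => (hvt i).le
  have htO : t ∈ O := (hO t).mpr htb
  have htiO : t⁻¹ ∈ O := (hO _).mpr (ball_inv_of_unit hvt)
  have hab : ∀ i, val i a ≤ 1 := (hO a).mp ha.1
  -- `a` is regular where `t` is a unit
  have ha' : a ∈ chartMod (OnMid t) O (0 : Divisor K F) :=
    mem_chartRing_iff_mem_chartMod_zero.mp
      (chartRing_anti (fun v hv => (h.onFin_j_iff v).mpr hv) ha)
  obtain ⟨N₀, hN₀⟩ := exists_pow_mul_mem_chartMod_fin h.t_ne htO ha'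
  have h1 : t ^ (n * N₀) * a ∈ chartRing (OnFin (K := K) t) O :=
    mem_chartRing_iff_mem_chartMod_zero.mpr
      (hN₀ (n * N₀) (Nat.le_mul_of_pos_left _ (Nat.pos_of_ne_zero hn)))
  obtain ⟨a1, ha1, hr⟩ := hfin (t ^ N₀ * x) (ball_mul (ball_pow htb N₀) hx)
    ⟨_, h1, red_pow_mul_eq hred htb hx hab n N₀ hxa⟩
  have ha1b : ∀ i, val i a1 ≤ 1 := (hO a1).mp ha1.1
  refine ⟨t⁻¹ ^ N₀ * a1, ⟨O.mul_mem (O.pow_mem htiO N₀) ha1.1, fun v hv => ?_⟩,
    (red_unit_cancel hred h.t_ne hvt N₀ ha1b hx hr).symm⟩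
  have hmid : OnMid t v := (h.onFin_j_iff v).mp hv
  have hti : v.adicValuation t⁻¹ = 1 := by
    rw [map_inv₀, show v.adicValuation t = 1 from hmid, inv_one]
  rw [map_mul, map_pow, hti, one_pow, one_mul]
  exact ha1.2 v hmid.onFin

/-- **Root closure on the chart `{j ≠ 0}`** from root closure on the two charts of `t`. -/
theorem root_inf_of_tLine (h : TLine (K := K) t T j)
    (hred : RedDataW val (fun _ => (1 : Γ₀)) vK kk red red)
    {O : Subring F} (hO : ∀ f : F, f ∈ O ↔ ∀ i, val i f ≤ 1)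
    (hvt : ∀ i, val i t = 1) (hvT : ∀ i, val i T = 1) {n : ℕ} (hn : n ≠ 0)
    (hfin : ∀ x : F, (∀ i, val i x ≤ 1) →
      (∃ a ∈ chartRing (OnFin (K := K) t) O, red x ^ n = red a) →
        ∃ a ∈ chartRing (OnFin (K := K) t) O, red x = red a)
    (hinf : ∀ x : F, (∀ i, val i x ≤ 1) →
      (∃ b ∈ chartRing (OnInf (K := K) t) O, red x ^ n = red b) →
        ∃ b ∈ chartRing (OnInf (K := K) t) O, red x = red b) :
    ∀ x : F, (∀ i, val i x ≤ 1) →
      (∃ b ∈ chartRing (OnInf (K := K) j) O, red x ^ n = red b) →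
        ∃ b ∈ chartRing (OnInf (K := K) j) O, red x = red b := by
  rintro x hx ⟨b, hb, hxb⟩
  obtain ⟨c, hc, hTc⟩ := h.const
  set s : F := T * t⁻¹ with hs
  have hs0 : s ≠ 0 := h.s_ne
  have hnpos : 0 < n := Nat.pos_of_ne_zero hn
  -- unit-ball facts
  have htb : ∀ i, val i t ≤ 1 := fun i => (hvt i).le
  have hTb : ∀ i, val i T ≤ 1 := fun i => (hvT i).le
  have hvs : ∀ i, val i s = 1 := fun i => by
    rw [hs, map_mul, map_inv₀, hvt i, hvT i, inv_one, mul_one]
  have hsb : ∀ i, val i s ≤ 1 := fun i => (hvs i).le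
  have hTO : T ∈ O := (hO T).mpr hTb
  have hTiO : T⁻¹ ∈ O := (hO _).mpr (ball_inv_of_unit hvT)
  have hsO : s ∈ O := (hO s).mpr hsb
  have hsiO : s⁻¹ ∈ O := (hO _).mpr (ball_inv_of_unit hvs)
  have hbb : ∀ i, val i b ≤ 1 := (hO b).mp hb.1
  have hcO : algebraMap K F c ∈ O := by
    have : algebraMap K F c = T - t := by rw [hTc]; ring
    rw [this]
    exact O.sub_mem hTO ((hO t).mpr htb)
  -- Step A: `T ^ m * b` is regular on `{t ≠ ∞}` for large `m`
  have hbT : b ∈ chartMod (OnMid T) O (0 : Divisor K F) :=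
    mem_chartRing_iff_mem_chartMod_zero.mp
      (chartRing_anti (fun v hv => (h.onInf_j_iff v).mpr hv.onInf) hb)
  obtain ⟨N₁, hN₁⟩ := exists_pow_mul_mem_chartMod_fin h.T_ne hTO hbT
  -- Step B: `s ^ m * b` is regular on `{t ≠ 0}` for large `m`
  have hbs : b ∈ chartMod (OnMid s) O (0 : Divisor K F) :=
    mem_chartRing_iff_mem_chartMod_zero.mp
      (chartRing_anti (fun v hv => (h.onInf_s_iff v).mp hv.onInf) hb)
  obtain ⟨N₂, hN₂⟩ := exists_pow_mul_mem_chartMod_fin hs0 hsO hbs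
  set k₁ : ℕ := max N₁ N₂ with hk₁
  have hk₁n : k₁ ≤ n * k₁ := Nat.le_mul_of_pos_left _ hnpos
  have hA : T ^ (n * k₁) * b ∈ chartRing (OnFin (K := K) t) O :=
    chartRing_anti (fun v hv => (h.onFin_T_iff v).mpr hv)
      (mem_chartRing_iff_mem_chartMod_zero.mpr
        (hN₁ (n * k₁) ((le_max_left _ _).trans hk₁n)))
  have hB : s ^ (n * k₁) * b ∈ chartRing (OnInf (K := K) t) O :=
    chartRing_anti (fun v hv => (h.onFin_s_iff v).mpr hv)
      (mem_chartRing_iff_mem_chartMod_zero.mpr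
        (hN₂ (n * k₁) ((le_max_right _ _).trans hk₁n)))
  -- the two roots in the `t`-charts
  obtain ⟨a0, ha0, hr0⟩ := hfin (T ^ k₁ * x) (ball_mul (ball_pow hTb k₁) hx)
    ⟨_, hA, red_pow_mul_eq hred hTb hx hbb n k₁ hxb⟩
  obtain ⟨a1, ha1, hr1⟩ := hinf (s ^ k₁ * x) (ball_mul (ball_pow hsb k₁) hx)
    ⟨_, hB, red_pow_mul_eq hred hsb hx hbb n k₁ hxb⟩
  have ha0b : ∀ i, val i a0 ≤ 1 := (hO a0).mp ha0.1
  have ha1b : ∀ i, val i a1 ≤ 1 := (hO a1).mp ha1.1
  -- clearing the poles of `a0` at the poles of `t`, of `a1` at the zeros of `t`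
  have ha0T : a0 ∈ chartMod (OnMid T) O (0 : Divisor K F) :=
    mem_chartRing_iff_mem_chartMod_zero.mp
      (chartRing_anti (fun v hv => (h.onFin_T_iff v).mp hv.onFin) ha0)
  obtain ⟨n₀, hn₀⟩ := exists_pow_mul_mem_chartMod_inf h.T_ne hTiO ha0T
  have ha1s : a1 ∈ chartMod (OnMid s) O (0 : Divisor K F) :=
    mem_chartRing_iff_mem_chartMod_zero.mp
      (chartRing_anti (fun v hv => (h.onFin_s_iff v).mp hv.onFin) ha1)
  obtain ⟨n₁, hn₁⟩ := exists_pow_mul_mem_chartMod_inf hs0 hsiO ha1s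
  set k : ℕ := max n₀ n₁ with hk
  have hC0 : T⁻¹ ^ (k + k₁) * a0 ∈ chartRing (OnInf (K := K) j) O :=
    chartRing_anti (fun v hv => (h.onInf_j_iff v).mp hv)
      (mem_chartRing_iff_mem_chartMod_zero.mpr
        (hn₀ (k + k₁) ((le_max_left _ _).trans (Nat.le_add_right _ _))))
  have hC1 : s⁻¹ ^ (k + k₁) * a1 ∈ chartRing (OnInf (K := K) j) O :=
    chartRing_anti (fun v hv => (h.onInf_s_iff v).mpr hv)
      (mem_chartRing_iff_mem_chartMod_zero.mpr
        (hn₁ (k + k₁) ((le_max_right _ _).trans (Nat.le_add_right _ _))))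
  -- the partition of unity in `g = s⁻¹ = t / T`
  set g : F := s⁻¹ with hg
  have hgC : g ∈ chartRing (OnInf (K := K) j) O :=
    ⟨hsiO, fun v hv => (h.onInf_s_iff v).mpr hv⟩
  have hcC : algebraMap K F c ∈ chartRing (OnInf (K := K) j) O := algebraMap_mem_chartRing hcO
  have hfg : 1 - g = algebraMap K F c * T⁻¹ := by
    have hg' : g = t * T⁻¹ := by rw [hg, hs, mul_inv_rev, inv_inv]
    rw [hg', hTc]
    have hT' : t + algebraMap K F c ≠ 0 := hTc ▸ h.T_ne
    field_simp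
    ring
  set P : F := (∑ i ∈ Finset.range k, g ^ i) ^ k with hP
  set Q : F := ∑ i ∈ Finset.range k, (1 - g ^ k) ^ i with hQ
  have hPC : P ∈ chartRing (OnInf (K := K) j) O :=
    Subring.pow_mem _ (Subring.sum_mem _ fun i _ => Subring.pow_mem _ hgC i) k
  have hQC : Q ∈ chartRing (OnInf (K := K) j) O :=
    Subring.sum_mem _ fun i _ => Subring.pow_mem _
      (Subring.sub_mem _ (Subring.one_mem _) (Subring.pow_mem _ hgC k)) i
  have hφ : (1 - g) ^ k * P = (1 - g ^ k) ^ k := by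
    rw [hP, ← mul_pow, mul_neg_geom_sum]
  have hψ : g ^ k * Q = 1 - (1 - g ^ k) ^ k := by
    have := mul_neg_geom_sum (1 - g ^ k) k
    rw [sub_sub_cancel] at this
    rw [hQ, this]
  -- the glued element
  set y0 : F := T⁻¹ ^ k₁ * a0 with hy0
  set y1 : F := s⁻¹ ^ k₁ * a1 with hy1
  have hy0b : ∀ i, val i y0 ≤ 1 := ball_mul (ball_pow (ball_inv_of_unit hvT) k₁) ha0b
  have hy1b : ∀ i, val i y1 ≤ 1 := ball_mul (ball_pow (ball_inv_of_unit hvs) k₁) ha1b
  have hry0 : red y0 = red x := red_unit_cancel hred h.T_ne hvT k₁ ha0b hx hr0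
  have hry1 : red y1 = red x := red_unit_cancel hred hs0 hvs k₁ ha1b hx hr1
  set φ : F := (1 - g) ^ k * P with hφdef
  set ψ : F := g ^ k * Q with hψdef
  have hsum : φ + ψ = 1 := by rw [hφ, hψ]; ring
  have hφb : ∀ i, val i φ ≤ 1 := (hO φ).mp
    (O.mul_mem (O.pow_mem (O.sub_mem O.one_mem hgC.1) k) hPC.1)
  have hψb : ∀ i, val i ψ ≤ 1 := (hO ψ).mp (O.mul_mem (O.pow_mem hgC.1 k) hQC.1)
  refine ⟨φ * y0 + ψ * y1, ?_, ?_⟩
  · -- membership: rewrite the two summands through `hC0`, `hC1`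
    have e0 : φ * y0 = P * (algebraMap K F c ^ k * (T⁻¹ ^ (k + k₁) * a0)) := by
      rw [hφdef, hy0, hfg, mul_pow, pow_add]; ring
    have e1 : ψ * y1 = Q * (s⁻¹ ^ (k + k₁) * a1) := by
      rw [hψdef, hy1, hg, pow_add]; ring
    rw [e0, e1]
    exact Subring.add_mem _
      (Subring.mul_mem _ hPC (Subring.mul_mem _ (Subring.pow_mem _ hcC k) hC0))
      (Subring.mul_mem _ hQC hC1)
  · rw [hred.map_add _ _ (ball_mul hφb hy0b) (ball_mul hψb hy1b),
      hred.map_mul _ _ hφb hy0b, hred.map_mul _ _ hψb hy1b, hry0, hry1, ← add_mul,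
      ← hred.map_add _ _ hφb hψb, hsum, hred.map_one, one_mul]

end Red

end Fermat.Agent.S33.helper265
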