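/-
S33-ROOTT (helper265), part (RT2): ROOT CLOSURE of the reduction of a `W`-stable chart ring from
the conclusion of the Kronecker conductor `S35.helper2736.kron_chart`.

Setting: literal level `q * M`, `A` a valuation subring of `ℚ̄` above `q`,
`W = helper1219.atkinLehnerBar q M h`, `k` the residue field of `A`, a chart coordinate `t` of
level `q * M` with reduced coordinate `tb` of level `M` over `k`, and

* `kronB A q M h t`  : the chart ring `V_∞ ∩ V_0 ∩ icl ℚ̄[t]`,
* `kronBbar k M tb`  : the reduced chart ring `icl k[tb]` in `F_k(M)`,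
* `kronR A q M h t tb` : the double reduction of `kronB` inside `kronBbar × kronBbar`.

`root_kronB` : if both reductions of `kronB` lie in `kronBbar` and `kronR` contains every pair of
functions vanishing on a finite set `S` of `k`-points (the conclusion of `kron_chart`), then the
double reduction of `kronB` is `q ^ m`-th-root closed in the double reduction of the whole
level-`q M` function field.

`mem_chartRing_onFin_iff_kronB`, `mem_chartRing_onInf_iff_kronB` : the dictionary between the
place-defined chart rings `chartRing (OnFin t) O`, `chartRing (OnInf t) O` of the common unit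
ball `O` and `kronB A q M h t`, `kronB A q M h t⁻¹`.

`root_fin_of_kron`, `root_inf_of_kron` : the two hypotheses `hfin`, `hinf` of
`helper265.root_fin_of_tLine` / `root_inf_of_tLine` (part (RT1)).
-/
import Mathlib
import Fermat.Agent.S35.helper2736_KronW
import Fermat.Agent.S35.helper7984_ChartPoints
import Fermat.Agent.S19.helper5454_ChartDiv

set_option autoImplicit false

noncomputable section

open ModularCurve AlgebraicCurve IntermediateField

namespace Fermat.Agent.S33.helper265

open Fermat.Agent.S24.helper24 Fermat.Agent.S35 Fermat.Agent.S35.helper2736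
  Fermat.Agent.S19.helper5454

/-! ## Root closure of a subalgebra containing the kernel of a map to a finite reduced algebra

(The abstract step (R1) of the ROOT owner helper5517 — his `helper5517_RootClosed.lean`,
`mem_of_pow_char_pow_mem_of_algHom` — restated here so that this backup line depends on landed
files only.) -/

section RootCore

variable {k : Type*} [Field k] [PerfectField k] {p : ℕ}

/-- Frobenius is surjective on a finite-dimensional reduced commutative algebra over a perfect
field of characteristic `p`. -/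
theorem exists_pow_char_eq_of_finite_reduced (hp : p.Prime) [CharP k p] {C : Type*} [CommRing C]
    [Algebra k C] [Module.Finite k C] [IsReduced C] (a : C) : ∃ z : C, z ^ p = a := by
  classical
  rcases subsingleton_or_nontrivial C with hC | hC
  · exact ⟨0, Subsingleton.elim _ _⟩
  have : Fact p.Prime := ⟨hp⟩
  have : CharP C p := charP_of_injective_algebraMap (algebraMap k C).injective p
  have : PerfectRing k p := PerfectField.toPerfectRing p
  have hsurj : Function.Surjective (frobenius k p) := surjective_frobenius k p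
  let b : Module.Basis (Fin (Module.finrank k C)) k C := Module.finBasis k C
  have hli : LinearIndependent k (fun i => b i ^ p) := by
    rw [Fintype.linearIndependent_iff]
    intro g hg i
    choose d hd using fun i => hsurj (g i)
    have h1 : (∑ i, d i • b i) ^ p = 0 := by
      rw [sum_pow_char, ← hg]
      refine Finset.sum_congr rfl fun j _ => ?_
      rw [smul_pow, ← hd j, frobenius_def]
    have h2 : ∑ i, d i • b i = 0 := (pow_eq_zero_iff hp.ne_zero).mp h1
    have h3 : d i = 0 := Fintype.linearIndependent_iff.mp b.linearIndependent d h2 i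
    rw [← hd i, h3, frobenius_def, zero_pow hp.ne_zero]
  have hspan : Submodule.span k (Set.range fun i => b i ^ p) = ⊤ :=
    hli.span_eq_top_of_card_eq_finrank' (by rw [Fintype.card_fin])
  have ha : a ∈ Submodule.span k (Set.range fun i => b i ^ p) := by
    rw [hspan]; exact Submodule.mem_top
  obtain ⟨c, rfl⟩ := (Submodule.mem_span_range_iff_exists_fun k).mp ha
  choose d hd using fun i => hsurj (c i)
  refine ⟨∑ i, d i • b i, ?_⟩
  rw [sum_pow_char]
  refine Finset.sum_congr rfl fun j _ => ?_
  rw [smul_pow, ← hd j, frobenius_def]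

variable {B : Type*} [CommRing B] [Algebra k B]

/-- `R ≤ B` a subalgebra containing the kernel of an algebra map `π` from `B` to a
finite-dimensional reduced `k`-algebra, `k` perfect of characteristic `p`: `y ^ p ∈ R → y ∈ R`. -/
theorem mem_of_pow_char_mem_of_ker_le (hp : p.Prime) [CharP k p] (R : Subalgebra k B)
    {C : Type*} [CommRing C] [Algebra k C] [Module.Finite k C] [IsReduced C] (π : B →ₐ[k] C)
    (hker : ∀ x : B, π x = 0 → x ∈ R) {y : B} (hy : y ^ p ∈ R) : y ∈ R := by
  classical
  rcases subsingleton_or_nontrivial C with hC | hC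
  · exact hker y (Subsingleton.elim _ _)
  have : Fact p.Prime := ⟨hp⟩
  have : CharP C p := charP_of_injective_algebraMap (algebraMap k C).injective p
  have : Module.Finite k ↥(R.map π) :=
    Module.Finite.of_injective (R.map π).val.toLinearMap Subtype.val_injective
  have : IsReduced ↥(R.map π) := isReduced_of_injective (R.map π).val Subtype.val_injective
  have hmem : π y ^ p ∈ R.map π := Subalgebra.mem_map.mpr ⟨y ^ p, hy, map_pow π y p⟩
  obtain ⟨z, hz⟩ := exists_pow_char_eq_of_finite_reduced (k := k) hp (⟨π y ^ p, hmem⟩ : ↥(R.map π))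
  have hz' : (z : C) ^ p = π y ^ p := by
    have h0 := congrArg Subtype.val hz
    rw [SubmonoidClass.coe_pow] at h0
    exact h0
  have h1 : ((z : C) - π y) ^ p = 0 := by rw [sub_pow_char, hz', sub_self]
  have h2 : (z : C) = π y := sub_eq_zero.mp ((pow_eq_zero_iff hp.ne_zero).mp h1)
  obtain ⟨w, hw, hwz⟩ := Subalgebra.mem_map.mp z.2
  have h3 : π (y - w) = 0 := by rw [map_sub, hwz, h2, sub_self]
  have h4 : y = (y - w) + w := by ring
  rw [h4]
  exact R.add_mem (hker _ h3) hw

/-- The same for `p ^ m`-th roots. -/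
theorem mem_of_pow_char_pow_mem_of_ker_le (hp : p.Prime) [CharP k p] (R : Subalgebra k B)
    {C : Type*} [CommRing C] [Algebra k C] [Module.Finite k C] [IsReduced C] (π : B →ₐ[k] C)
    (hker : ∀ x : B, π x = 0 → x ∈ R) (m : ℕ) {y : B} (hy : y ^ p ^ m ∈ R) : y ∈ R := by
  induction m generalizing y with
  | zero => simpa using hy
  | succ m ih =>
    apply ih
    apply mem_of_pow_char_mem_of_ker_le hp R π hker
    rw [← pow_mul, ← pow_succ]
    exact hy

end RootCore

section KronRoot

variable (A : ValuationSubring Kbar) (q M : ℕ) [NeZero q] [NeZero M] (h : Nat.Coprime q M)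

/-- **Root closure from the Kronecker conductor.** -/
theorem root_kronB (hq : q.Prime) (hA : (q : Kbar) ∈ A.nonunits) (t : FN (q * M))
    (tb : modularFunctionFieldFullC (IsLocalRing.ResidueField A) M)
    (hredB : ∀ x ∈ kronB A q M h t,
      helper882.gpRho A (q * M) x ∈ kronBbar (IsLocalRing.ResidueField A) M tb ∧
      helper882.gpRho A (q * M) (helper1219.atkinLehnerBar q M h x) ∈
        kronBbar (IsLocalRing.ResidueField A) M tb)
    (S : Finset (kronBbar (IsLocalRing.ResidueField A) M tb →ₐ[IsLocalRing.ResidueField A]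
      IsLocalRing.ResidueField A))
    (hS : ∀ x : kronBbar (IsLocalRing.ResidueField A) M tb ×
        kronBbar (IsLocalRing.ResidueField A) M tb,
      (∀ φ ∈ S, φ x.1 = 0) → (∀ ψ ∈ S, ψ x.2 = 0) → x ∈ kronR A q M h t tb)
    (m : ℕ) (x : FN (q * M))
    (hpow : ∃ a ∈ kronB A q M h t,
      helper882.gpRed A (q * M) (helper1219.atkinLehnerBar q M h) x ^ q ^ m =
        helper882.gpRed A (q * M) (helper1219.atkinLehnerBar q M h) a) :
    ∃ a ∈ kronB A q M h t,
      helper882.gpRed A (q * M) (helper1219.atkinLehnerBar q M h) x =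
        helper882.gpRed A (q * M) (helper1219.atkinLehnerBar q M h) a := by
  classical
  obtain ⟨a, ha, hxa⟩ := hpow
  have hqM : ¬ q ∣ M := fun hd => hq.one_lt.ne' (Nat.Coprime.eq_one_of_dvd h hd)
  have : Fact q.Prime := ⟨hq⟩
  have : CharP (IsLocalRing.ResidueField A) q :=
    Fermat.Agent.S18.helper508.charP_residueField q A hA
  have : IsAlgClosed (IsLocalRing.ResidueField A) :=
    Fermat.Agent.Lib.helper6879.isAlgClosed_residueField A
  obtain ⟨m1, m2⟩ :=
    helper1928.gpRed_mem_fullC q M hqM A hA (helper1219.atkinLehnerBar q M h) x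
  obtain ⟨ha1, ha2⟩ := hredB a ha
  have e1 : helper882.gpRho A (q * M) x ^ q ^ m = helper882.gpRho A (q * M) a :=
    congrArg Prod.fst hxa
  have e2 : helper882.gpRho A (q * M) (helper1219.atkinLehnerBar q M h x) ^ q ^ m =
      helper882.gpRho A (q * M) (helper1219.atkinLehnerBar q M h a) := congrArg Prod.snd hxa
  -- the reduced chart ring is root closed in the residue function field
  have key : ∀ u : LaurentSeries (IsLocalRing.ResidueField A),
      u ∈ modularFunctionFieldFullC (IsLocalRing.ResidueField A) M →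
      u ^ q ^ m ∈ kronBbar (IsLocalRing.ResidueField A) M tb →
      u ∈ kronBbar (IsLocalRing.ResidueField A) M tb := by
    intro u hu hun
    obtain ⟨f, hf, hfint⟩ := mem_kronBbar_iff.mp hun
    refine mem_kronBbar_iff.mpr ⟨⟨u, hu⟩, rfl, ?_⟩
    have hpw : (⟨u, hu⟩ : modularFunctionFieldFullC (IsLocalRing.ResidueField A) M) ^ q ^ m = f :=
      Subtype.ext (by rw [SubmonoidClass.coe_pow]; exact hf.symm)
    exact IsIntegral.of_pow (pow_pos hq.pos m) (hpw ▸ hfint)
  have hy1 : helper882.gpRho A (q * M) x ∈ kronBbar (IsLocalRing.ResidueField A) M tb :=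
    key _ m1 (e1 ▸ ha1)
  have hy2 : helper882.gpRho A (q * M) (helper1219.atkinLehnerBar q M h x) ∈
      kronBbar (IsLocalRing.ResidueField A) M tb := key _ m2 (e2 ▸ ha2)
  set y : kronBbar (IsLocalRing.ResidueField A) M tb ×
      kronBbar (IsLocalRing.ResidueField A) M tb := (⟨_, hy1⟩, ⟨_, hy2⟩) with hy
  have hyR : y ^ q ^ m ∈ kronR A q M h t tb := by
    refine (mem_kronR_iff A q M h).mpr ⟨a, ha, ?_⟩
    refine Prod.ext ?_ ?_
    · show helper882.gpRho A (q * M) a = _
      rw [← e1]
      rfl
    · show helper882.gpRho A (q * M) (helper1219.atkinLehnerBar q M h a) = _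
      rw [← e2]
      rfl
  -- evaluation at the points of `S`
  let π : (kronBbar (IsLocalRing.ResidueField A) M tb ×
      kronBbar (IsLocalRing.ResidueField A) M tb) →ₐ[IsLocalRing.ResidueField A]
      ((↥S ⊕ ↥S) → IsLocalRing.ResidueField A) :=
    AlgHom.pi (fun i => Sum.elim
      (fun φ : ↥S => (φ : kronBbar (IsLocalRing.ResidueField A) M tb →ₐ[IsLocalRing.ResidueField A]
        IsLocalRing.ResidueField A).comp (AlgHom.fst _ _ _))
      (fun ψ : ↥S => (ψ : kronBbar (IsLocalRing.ResidueField A) M tb →ₐ[IsLocalRing.ResidueField A]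
        IsLocalRing.ResidueField A).comp (AlgHom.snd _ _ _)) i)
  have hker : ∀ z, π z = 0 → z ∈ kronR A q M h t tb := by
    intro z hz
    refine hS z (fun φ hφ => ?_) (fun ψ hψ => ?_)
    · exact congrFun hz (Sum.inl ⟨φ, hφ⟩)
    · exact congrFun hz (Sum.inr ⟨ψ, hψ⟩)
  have hyin : y ∈ kronR A q M h t tb :=
    mem_of_pow_char_pow_mem_of_ker_le hq (kronR A q M h t tb) π hker m hyR
  obtain ⟨f, hf, hfy⟩ := (mem_kronR_iff A q M h).mp hyin
  exact ⟨f, hf, hfy.symm⟩

end KronRoot

/-! ## The dictionary `chartRing (OnFin t) O = kronB t` and root closure in chart form -/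

section Dict

variable (A : ValuationSubring Kbar) (q M : ℕ) [NeZero q] [NeZero M] (h : Nat.Coprime q M)

/-- The place-defined chart ring of the common unit ball is the Kronecker chart ring. -/
theorem mem_chartRing_onFin_iff_kronB {O : Subring (FN (q * M))}
    (hO : ∀ f : FN (q * M), f ∈ O ↔
      ∀ i, helper882.gpVal A (q * M) (helper1219.atkinLehnerBar q M h) i f ≤ 1)
    (t a : FN (q * M)) :
    a ∈ chartRing (OnFin (K := Kbar) t) O ↔ a ∈ kronB A q M h t := by
  have : NeZero (q * M) := ⟨Nat.mul_ne_zero (NeZero.ne q) (NeZero.ne M)⟩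
  have : FiniteDimensional Kbar⟮jBar (q * M)⟯ (FN (q * M)) :=
    (Fermat.Agent.S24.helper504.stmt_JFinrank (q * M)).1
  rw [mem_chartRing, hO, helper882.gpVal_le_one_iff, mem_kronB_iff,
    helper7984.isIntegral_adjoin_iff_forall_place (jBar (q * M)) t a]
  exact and_assoc

/-- The chart `t⁻¹` regular. -/
theorem mem_chartRing_onInf_iff_kronB {O : Subring (FN (q * M))}
    (hO : ∀ f : FN (q * M), f ∈ O ↔
      ∀ i, helper882.gpVal A (q * M) (helper1219.atkinLehnerBar q M h) i f ≤ 1)
    (t a : FN (q * M)) :
    a ∈ chartRing (OnInf (K := Kbar) t) O ↔ a ∈ kronB A q M h t⁻¹ :=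
  mem_chartRing_onFin_iff_kronB A q M h hO t⁻¹ a

/-- **ROOT on the chart `{t ≠ ∞}`** from the conclusion of `kron_chart` at `(t, tb)`. -/
theorem root_fin_of_kron (hq : q.Prime) (hA : (q : Kbar) ∈ A.nonunits) (t : FN (q * M))
    (tb : modularFunctionFieldFullC (IsLocalRing.ResidueField A) M)
    (hredB : ∀ x ∈ kronB A q M h t,
      helper882.gpRho A (q * M) x ∈ kronBbar (IsLocalRing.ResidueField A) M tb ∧
      helper882.gpRho A (q * M) (helper1219.atkinLehnerBar q M h x) ∈
        kronBbar (IsLocalRing.ResidueField A) M tb)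
    (S : Finset (kronBbar (IsLocalRing.ResidueField A) M tb →ₐ[IsLocalRing.ResidueField A]
      IsLocalRing.ResidueField A))
    (hS : ∀ x : kronBbar (IsLocalRing.ResidueField A) M tb ×
        kronBbar (IsLocalRing.ResidueField A) M tb,
      (∀ φ ∈ S, φ x.1 = 0) → (∀ ψ ∈ S, ψ x.2 = 0) → x ∈ kronR A q M h t tb)
    {O : Subring (FN (q * M))}
    (hO : ∀ f : FN (q * M), f ∈ O ↔
      ∀ i, helper882.gpVal A (q * M) (helper1219.atkinLehnerBar q M h) i f ≤ 1)
    (m : ℕ) :
    ∀ x : FN (q * M),
      (∀ i, helper882.gpVal A (q * M) (helper1219.atkinLehnerBar q M h) i x ≤ 1) →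
      (∃ a ∈ chartRing (OnFin (K := Kbar) t) O,
        helper882.gpRed A (q * M) (helper1219.atkinLehnerBar q M h) x ^ q ^ m =
          helper882.gpRed A (q * M) (helper1219.atkinLehnerBar q M h) a) →
      ∃ a ∈ chartRing (OnFin (K := Kbar) t) O,
        helper882.gpRed A (q * M) (helper1219.atkinLehnerBar q M h) x =
          helper882.gpRed A (q * M) (helper1219.atkinLehnerBar q M h) a := by
  rintro x - ⟨a, ha, hxa⟩
  obtain ⟨b, hb, hxb⟩ := root_kronB A q M h hq hA t tb hredB S hS m x
    ⟨a, (mem_chartRing_onFin_iff_kronB A q M h hO t a).mp ha, hxa⟩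
  exact ⟨b, (mem_chartRing_onFin_iff_kronB A q M h hO t b).mpr hb, hxb⟩

/-- **ROOT on the chart `{t ≠ 0}`** from the conclusion of `kron_chart` at `(t⁻¹, tb')`. -/
theorem root_inf_of_kron (hq : q.Prime) (hA : (q : Kbar) ∈ A.nonunits) (t : FN (q * M))
    (tb' : modularFunctionFieldFullC (IsLocalRing.ResidueField A) M)
    (hredB : ∀ x ∈ kronB A q M h t⁻¹,
      helper882.gpRho A (q * M) x ∈ kronBbar (IsLocalRing.ResidueField A) M tb' ∧
      helper882.gpRho A (q * M) (helper1219.atkinLehnerBar q M h x) ∈
        kronBbar (IsLocalRing.ResidueField A) M tb')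
    (S : Finset (kronBbar (IsLocalRing.ResidueField A) M tb' →ₐ[IsLocalRing.ResidueField A]
      IsLocalRing.ResidueField A))
    (hS : ∀ x : kronBbar (IsLocalRing.ResidueField A) M tb' ×
        kronBbar (IsLocalRing.ResidueField A) M tb',
      (∀ φ ∈ S, φ x.1 = 0) → (∀ ψ ∈ S, ψ x.2 = 0) → x ∈ kronR A q M h t⁻¹ tb')
    {O : Subring (FN (q * M))}
    (hO : ∀ f : FN (q * M), f ∈ O ↔
      ∀ i, helper882.gpVal A (q * M) (helper1219.atkinLehnerBar q M h) i f ≤ 1)
    (m : ℕ) :
    ∀ x : FN (q * M),
      (∀ i, helper882.gpVal A (q * M) (helper1219.atkinLehnerBar q M h) i x ≤ 1) →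
      (∃ b ∈ chartRing (OnInf (K := Kbar) t) O,
        helper882.gpRed A (q * M) (helper1219.atkinLehnerBar q M h) x ^ q ^ m =
          helper882.gpRed A (q * M) (helper1219.atkinLehnerBar q M h) b) →
      ∃ b ∈ chartRing (OnInf (K := Kbar) t) O,
        helper882.gpRed A (q * M) (helper1219.atkinLehnerBar q M h) x =
          helper882.gpRed A (q * M) (helper1219.atkinLehnerBar q M h) b :=
  root_fin_of_kron A q M h hq hA t⁻¹ tb' hredB S hS hO m

end Dict

end Fermat.Agent.S33.helper265
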