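/-
S33-ROOTT (helper265), part (RT3): **`helper2582.StmtRoot ℓ M hℓM A (ℓ ^ m)` for every even
`M`** (`ℓ ∤ M`, `A` above `ℓ`), with no hypothesis left.

Route (different from the `j`-chart route of (R4)): the two chart rings of the Hauptmodul `t₂`
(`2 ∣ M`) at level `ℓ M` are `W_ℓ`-stable, so the landed Kronecker conductor
`S35.helper2736.kron_chart` applies to both of them with landed suppliers only
(`helper6381.gp_lift_t2(_inv)`, `helper2459.gp_chart_monic(_inv)`, `helper2974.cuspOrd_integral_t2`,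
`helper4640` Gauss-unit facts); root closure of their reductions follows (`helper265_RootTKron`,
part (RT2)), and is transferred to the two `j`-charts through `j t₂² = (t₂ + 256)³` by place
bookkeeping and a partition of unity (`helper265_RootT`, part (RT1)).
-/
import Mathlib
import Fermat.Agent.S33.helper265_RootT
import Fermat.Agent.S33.helper265_RootTKron
import Fermat.Agent.S33.helper2582_FibCountGauss
import Fermat.Agent.S35.helper6381_SqueezeGP
import Fermat.Agent.S35.helper2459_KCGauss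
import Fermat.Agent.S35.helper2974_CuspOrd
import Fermat.Agent.S35.helper4640_CuspChartGP

set_option autoImplicit false

noncomputable section

open ModularCurve AlgebraicCurve IntermediateField HahnSeries

namespace Fermat.Agent.S33.helper265

open Fermat.Agent.S24.helper24 Fermat.Agent.S35 Fermat.Agent.S35.helper2736
  Fermat.Agent.S19.helper5454 Fermat.Agent.S18.helper6381

section T2

variable (ℓ M : ℕ) [Fact ℓ.Prime] [NeZero M] (hℓM : ¬ ℓ ∣ M) (h2 : 2 ∣ M)
  (A : ValuationSubring Kbar) (hA : (ℓ : Kbar) ∈ A.nonunits)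

/-- `gpRho` of the inverse of a unit of the Gauss ring. -/
theorem gpRho_inv_of_mem (N : ℕ) {x : FN N} (hx0 : x ≠ 0) (hx : x ∈ helper882.gpRing A N)
    (hxi : x⁻¹ ∈ helper882.gpRing A N) :
    helper882.gpRho A N x⁻¹ = (helper882.gpRho A N x)⁻¹ := by
  have h1 : helper882.gpRho A N x * helper882.gpRho A N x⁻¹ = 1 := by
    rw [← helper882.gpRho_mul A N hx hxi, mul_inv_cancel₀ hx0, helper882.gpRho_one]
  exact eq_inv_of_mul_eq_one_right h1

include hA in
/-- **ROOT on the chart `{t₂ ≠ ∞}`** at level `ℓ M`. -/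
theorem root_fin_t2 (m : ℕ) :
    ∀ x : FN (ℓ * M),
      (∀ i, helper882.gpVal A (ℓ * M) (helper1928.wAL ℓ M hℓM) i x ≤ 1) →
      (∃ a ∈ chartRing (OnFin (K := Kbar) (t2L Kbar (ℓ * M) (h2.mul_left ℓ)))
          (helper2582.gO ℓ M hℓM A),
        helper882.gpRed A (ℓ * M) (helper1928.wAL ℓ M hℓM) x ^ ℓ ^ m =
          helper882.gpRed A (ℓ * M) (helper1928.wAL ℓ M hℓM) a) →
      ∃ a ∈ chartRing (OnFin (K := Kbar) (t2L Kbar (ℓ * M) (h2.mul_left ℓ)))
          (helper2582.gO ℓ M hℓM A),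
        helper882.gpRed A (ℓ * M) (helper1928.wAL ℓ M hℓM) x =
          helper882.gpRed A (ℓ * M) (helper1928.wAL ℓ M hℓM) a := by
  have hq : ℓ.Prime := Fact.out
  have hc : Nat.Coprime ℓ M := helper1928.coprime_of_not_dvd ℓ M hℓM
  have hNk := helper4640.natCast_residue_ne_zero ℓ M hℓM A hA
  have hℓ2 : ℓ ≠ 2 := fun h => hℓM (h ▸ h2)
  have : CharP (IsLocalRing.ResidueField A) ℓ :=
    Fermat.Agent.S18.helper508.charP_residueField ℓ A hA
  have : ExpChar (IsLocalRing.ResidueField A) ℓ := ExpChar.prime hq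
  have hπ : ∀ a : A, IsLocalRing.residue A a = 0 → a ∈ IsLocalRing.maximalIdeal A :=
    fun a ha => (IsLocalRing.residue_eq_zero_iff a).mp ha
  have htq : ((helper1219.atkinLehnerBar ℓ M hc (t2L Kbar (ℓ * M) (h2.mul_left ℓ)) :
      FN (ℓ * M)) : LaurentSeries Kbar) = qExpand Kbar ℓ (t2K Kbar) :=
    helper4640.coe_atkinLehnerBar_t2L ℓ M hc h2
  have ht'V : t2L Kbar M h2 ∈ helper882.gpRing A M := by
    rw [← ValuationSubring.valuation_le_one_iff]
    exact (helper4640.valuation_t2L_eq_one Kbar M A (IsLocalRing.residue A) h2).le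
  have htb : ((t2F (IsLocalRing.ResidueField A) M h2 hNk :
      modularFunctionFieldFullC (IsLocalRing.ResidueField A) M) :
        LaurentSeries (IsLocalRing.ResidueField A)) = helper882.gpRho A M (t2L Kbar M h2) :=
    (Fermat.Agent.S35.helper6381.gpRho_t2 M ℓ hℓM A hA h2 rfl).symm
  have htbq : qExpand (IsLocalRing.ResidueField A) ℓ
      ((t2F (IsLocalRing.ResidueField A) M h2 hNk :
        modularFunctionFieldFullC (IsLocalRing.ResidueField A) M) :
          LaurentSeries (IsLocalRing.ResidueField A)) =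
      ((t2F (IsLocalRing.ResidueField A) M h2 hNk :
        modularFunctionFieldFullC (IsLocalRing.ResidueField A) M) :
          LaurentSeries (IsLocalRing.ResidueField A)) ^ ℓ := by
    have h1 := Fermat.Agent.Lib.helper7516.qExpand_coeffMap_frobenius ℓ
      (t2K (IsLocalRing.ResidueField A))
    rw [coeffMap_t2K] at h1
    exact h1
  have htr : Transcendental (IsLocalRing.ResidueField A)
      (t2F (IsLocalRing.ResidueField A) M h2 hNk) :=
    (t2F_spec (IsLocalRing.ResidueField A) M h2 hNk).1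
  have hsurj := Fermat.Agent.S35.helper6381.gp_lift_t2 M ℓ hℓM A hA h2 (t := t2L Kbar M h2) rfl
    (tb := t2F (IsLocalRing.ResidueField A) M h2 hNk) rfl
  have hInt := helper2459.gp_chart_monic ℓ M hℓM A hA (t2L Kbar (ℓ * M) (h2.mul_left ℓ))
    (helper4640.gaussElt_t2L Kbar (ℓ * M) A (IsLocalRing.residue A) hπ (h2.mul_left ℓ))
    (helper4640.jBar_mem_adjoin_t2L (ℓ * M) (h2.mul_left ℓ))
  have hβ := (helper2974.cuspOrd_integral_t2 (ℓ * M) ℓ hq hℓ2
    (by rw [mul_comm 2 ℓ]; exact Nat.mul_dvd_mul_left ℓ h2)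
    (t := t2L Kbar (ℓ * M) (h2.mul_left ℓ))
    (tq := helper1219.atkinLehnerBar ℓ M hc (t2L Kbar (ℓ * M) (h2.mul_left ℓ))) rfl htq).1.1
  obtain ⟨hredB, F, S, -, -, -, -, -, -, -, hS, -⟩ :=
    kron_chart A ℓ M hc hq hA (t2L Kbar M h2) ht'V (t2L Kbar (ℓ * M) (h2.mul_left ℓ))
      (helper1219.atkinLehnerBar ℓ M hc (t2L Kbar (ℓ * M) (h2.mul_left ℓ))) rfl htq
      (t2F (IsLocalRing.ResidueField A) M h2 hNk) htb htbq htr hsurj hInt hβ
  exact root_fin_of_kron A ℓ M hc hq hA (t2L Kbar (ℓ * M) (h2.mul_left ℓ))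
    (t2F (IsLocalRing.ResidueField A) M h2 hNk) hredB S hS (fun _ => Iff.rfl) m

include hA in
/-- **ROOT on the chart `{t₂ ≠ 0}`** at level `ℓ M`. -/
theorem root_inf_t2 (m : ℕ) :
    ∀ x : FN (ℓ * M),
      (∀ i, helper882.gpVal A (ℓ * M) (helper1928.wAL ℓ M hℓM) i x ≤ 1) →
      (∃ b ∈ chartRing (OnInf (K := Kbar) (t2L Kbar (ℓ * M) (h2.mul_left ℓ)))
          (helper2582.gO ℓ M hℓM A),
        helper882.gpRed A (ℓ * M) (helper1928.wAL ℓ M hℓM) x ^ ℓ ^ m =
          helper882.gpRed A (ℓ * M) (helper1928.wAL ℓ M hℓM) b) →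
      ∃ b ∈ chartRing (OnInf (K := Kbar) (t2L Kbar (ℓ * M) (h2.mul_left ℓ)))
          (helper2582.gO ℓ M hℓM A),
        helper882.gpRed A (ℓ * M) (helper1928.wAL ℓ M hℓM) x =
          helper882.gpRed A (ℓ * M) (helper1928.wAL ℓ M hℓM) b := by
  have hq : ℓ.Prime := Fact.out
  have hc : Nat.Coprime ℓ M := helper1928.coprime_of_not_dvd ℓ M hℓM
  have hNk := helper4640.natCast_residue_ne_zero ℓ M hℓM A hA
  have hℓ2 : ℓ ≠ 2 := fun h => hℓM (h ▸ h2)
  have : CharP (IsLocalRing.ResidueField A) ℓ :=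
    Fermat.Agent.S18.helper508.charP_residueField ℓ A hA
  have : ExpChar (IsLocalRing.ResidueField A) ℓ := ExpChar.prime hq
  have hπ : ∀ a : A, IsLocalRing.residue A a = 0 → a ∈ IsLocalRing.maximalIdeal A :=
    fun a ha => (IsLocalRing.residue_eq_zero_iff a).mp ha
  have htq : ((helper1219.atkinLehnerBar ℓ M hc (t2L Kbar (ℓ * M) (h2.mul_left ℓ)) :
      FN (ℓ * M)) : LaurentSeries Kbar) = qExpand Kbar ℓ (t2K Kbar) :=
    helper4640.coe_atkinLehnerBar_t2L ℓ M hc h2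
  have hv1 := helper4640.valuation_t2L_eq_one Kbar M A (IsLocalRing.residue A) h2
  have ht'0 : t2L Kbar M h2 ≠ 0 := by
    intro h0
    rw [h0, map_zero] at hv1
    exact zero_ne_one hv1
  have ht'V : t2L Kbar M h2 ∈ helper882.gpRing A M := by
    rw [← ValuationSubring.valuation_le_one_iff]
    exact hv1.le
  have ht'Vi : (t2L Kbar M h2)⁻¹ ∈ helper882.gpRing A M := by
    rw [← ValuationSubring.valuation_le_one_iff, map_inv₀, hv1, inv_one]
  have htb0 : ((t2F (IsLocalRing.ResidueField A) M h2 hNk :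
      modularFunctionFieldFullC (IsLocalRing.ResidueField A) M) :
        LaurentSeries (IsLocalRing.ResidueField A)) = helper882.gpRho A M (t2L Kbar M h2) :=
    (Fermat.Agent.S35.helper6381.gpRho_t2 M ℓ hℓM A hA h2 rfl).symm
  have htb : (((t2F (IsLocalRing.ResidueField A) M h2 hNk)⁻¹ :
      modularFunctionFieldFullC (IsLocalRing.ResidueField A) M) :
        LaurentSeries (IsLocalRing.ResidueField A)) =
      helper882.gpRho A M (t2L Kbar M h2)⁻¹ := by
    rw [gpRho_inv_of_mem A M ht'0 ht'V ht'Vi, ← htb0]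
    rfl
  have htbq0 : qExpand (IsLocalRing.ResidueField A) ℓ (t2K (IsLocalRing.ResidueField A)) =
      t2K (IsLocalRing.ResidueField A) ^ ℓ := by
    have h1 := Fermat.Agent.Lib.helper7516.qExpand_coeffMap_frobenius ℓ
      (t2K (IsLocalRing.ResidueField A))
    rw [coeffMap_t2K] at h1
    exact h1
  have htbq : qExpand (IsLocalRing.ResidueField A) ℓ
      (((t2F (IsLocalRing.ResidueField A) M h2 hNk)⁻¹ :
        modularFunctionFieldFullC (IsLocalRing.ResidueField A) M) :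
          LaurentSeries (IsLocalRing.ResidueField A)) =
      (((t2F (IsLocalRing.ResidueField A) M h2 hNk)⁻¹ :
        modularFunctionFieldFullC (IsLocalRing.ResidueField A) M) :
          LaurentSeries (IsLocalRing.ResidueField A)) ^ ℓ := by
    show qExpand (IsLocalRing.ResidueField A) ℓ (t2K (IsLocalRing.ResidueField A))⁻¹ =
      (t2K (IsLocalRing.ResidueField A))⁻¹ ^ ℓ
    rw [map_inv₀, htbq0, inv_pow]
  have htr : Transcendental (IsLocalRing.ResidueField A)
      (t2F (IsLocalRing.ResidueField A) M h2 hNk)⁻¹ := by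
    intro halg
    have h1 := halg.inv
    rw [inv_inv] at h1
    exact (t2F_spec (IsLocalRing.ResidueField A) M h2 hNk).1 h1
  have hsurj := Fermat.Agent.S35.helper6381.gp_lift_t2_inv M ℓ hℓM A hA h2 (t := t2L Kbar M h2)
    rfl (tb := t2F (IsLocalRing.ResidueField A) M h2 hNk) rfl
  have hInt := helper2459.gp_chart_monic_inv ℓ M hℓM A hA (t2L Kbar (ℓ * M) (h2.mul_left ℓ))
    (helper4640.gaussElt_t2L Kbar (ℓ * M) A (IsLocalRing.residue A) hπ (h2.mul_left ℓ))
    (helper4640.jBar_mem_adjoin_t2L (ℓ * M) (h2.mul_left ℓ))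
  have hβ := (helper2974.cuspOrd_integral_t2 (ℓ * M) ℓ hq hℓ2
    (by rw [mul_comm 2 ℓ]; exact Nat.mul_dvd_mul_left ℓ h2)
    (t := t2L Kbar (ℓ * M) (h2.mul_left ℓ))
    (tq := helper1219.atkinLehnerBar ℓ M hc (t2L Kbar (ℓ * M) (h2.mul_left ℓ))) rfl htq).2.1
  have htqi : (((helper1219.atkinLehnerBar ℓ M hc (t2L Kbar (ℓ * M) (h2.mul_left ℓ)))⁻¹ :
      FN (ℓ * M)) : LaurentSeries Kbar) =
      qExpand Kbar ℓ (((t2L Kbar M h2)⁻¹ : FN M) : LaurentSeries Kbar) := by
    show ((helper1219.atkinLehnerBar ℓ M hc (t2L Kbar (ℓ * M) (h2.mul_left ℓ)) :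
      FN (ℓ * M)) : LaurentSeries Kbar)⁻¹ = qExpand Kbar ℓ (t2K Kbar)⁻¹
    rw [htq, map_inv₀]
  obtain ⟨hredB, F, S, -, -, -, -, -, -, -, hS, -⟩ :=
    kron_chart A ℓ M hc hq hA (t2L Kbar M h2)⁻¹ ht'Vi (t2L Kbar (ℓ * M) (h2.mul_left ℓ))⁻¹
      (helper1219.atkinLehnerBar ℓ M hc (t2L Kbar (ℓ * M) (h2.mul_left ℓ)))⁻¹ rfl htqi
      (t2F (IsLocalRing.ResidueField A) M h2 hNk)⁻¹ htb htbq htr hsurj hInt hβ
  exact root_inf_of_kron A ℓ M hc hq hA (t2L Kbar (ℓ * M) (h2.mul_left ℓ))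
    (t2F (IsLocalRing.ResidueField A) M h2 hNk)⁻¹ hredB S hS (fun _ => Iff.rfl) m

/-- The relation `j t₂² = (t₂ + 256)³` at level `ℓ M`. -/
theorem tLine_t2L :
    TLine (K := Kbar) (t2L Kbar (ℓ * M) (h2.mul_left ℓ))
      (t2L Kbar (ℓ * M) (h2.mul_left ℓ) + 256) (jBar (ℓ * M)) := by
  have ht0 : t2L Kbar (ℓ * M) (h2.mul_left ℓ) ≠ 0 := helper4640.t2L_ne_zero ℓ M h2
  have hrel : jBar (ℓ * M) * t2L Kbar (ℓ * M) (h2.mul_left ℓ) ^ 2 =
      (t2L Kbar (ℓ * M) (h2.mul_left ℓ) + 256) ^ 3 := by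
    apply Subtype.ext
    show ((jBar (ℓ * M) : FN (ℓ * M)) : LaurentSeries Kbar) * t2K Kbar ^ 2 = (t2K Kbar + 256) ^ 3
    rw [helper1928.coe_jBar_eq]
    exact t2K_sq Kbar
  refine ⟨ht0, ?_, hrel, ⟨256, by norm_num, by rw [map_ofNat]⟩⟩
  intro hT
  rw [hT, zero_pow (by norm_num)] at hrel
  rcases mul_eq_zero.mp hrel with h | h
  · exact helper2974.jBar_ne_zero (ℓ * M) h
  · exact ht0 (pow_eq_zero_iff (by norm_num) |>.mp h)

include h2 hA in
/-- **(ROOT) for every even `M`**: `helper2582.StmtRoot ℓ M hℓM A (ℓ ^ m)`. -/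
theorem stmtRoot_of_two_dvd (m : ℕ) : helper2582.StmtRoot ℓ M hℓM A (ℓ ^ m) := by
  have hq : ℓ.Prime := Fact.out
  have hT := tLine_t2L ℓ M h2
  have hred := helper882.gpRedData A (ℓ * M) (helper1928.wAL ℓ M hℓM)
  have hvt := helper4640.gpVal_t2L ℓ M hℓM A h2
  have hvj := helper2582.gpVal_jBar ℓ M hℓM A
  have hvT : ∀ i, helper882.gpVal A (ℓ * M) (helper1928.wAL ℓ M hℓM) i
      (t2L Kbar (ℓ * M) (h2.mul_left ℓ) + 256) = 1 := by
    intro i
    have h3 := congrArg (helper882.gpVal A (ℓ * M) (helper1928.wAL ℓ M hℓM) i) hT.rel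
    rw [map_mul, map_pow, map_pow, hvj i, hvt i, one_pow, one_mul] at h3
    exact (pow_eq_one_iff.mp h3.symm).resolve_right (by norm_num)
  have hn : ℓ ^ m ≠ 0 := pow_ne_zero m hq.ne_zero
  have hfin := root_fin_t2 ℓ M hℓM h2 A hA m
  have hinf := root_inf_t2 ℓ M hℓM h2 A hA m
  exact ⟨root_fin_of_tLine hT hred (fun _ => Iff.rfl) hvt hn hfin,
    root_inf_of_tLine hT hred (fun _ => Iff.rfl) hvt hvT hn hfin hinf⟩

end T2

end Fermat.Agent.S33.helper265
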