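/-
S33, leaf (j) for even `M` (helper265): **`helper5683.Stmt_SeedsJ p M h` for every even `M`**
coprime to the prime `p`, with no hypothesis left:

  `Stmt_SeedsJ`  ⟸  `helper2582.stmt_SeedsJ_of_fg_root_coprime`
                 ⟸  (J1) `helper7274.stmtFG`  ∧  (J2) `helper265.stmtRoot_of_two_dvd`.
-/
import Mathlib
import Fermat.Agent.S33.helper2582_SeedsJ
import Fermat.Agent.S33.helper7274_StmtFG
import Fermat.Agent.S33.helper265_RootTInst

set_option autoImplicit false

namespace Fermat.Agent.S33.helper265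

open Fermat.Agent.S24.helper24

/-- **(j) `Stmt_SeedsJ` for even `M`.** -/
theorem stmt_SeedsJ_of_two_dvd (p M : ℕ) [NeZero p] [NeZero M] (h : Nat.Coprime p M)
    [Fact p.Prime] (h2 : 2 ∣ M) : Fermat.Agent.S33.helper5683.Stmt_SeedsJ p M h :=
  Fermat.Agent.S33.helper2582.stmt_SeedsJ_of_fg_root_coprime p M h
    (fun P hP => Fermat.Agent.S33.helper7274.stmtFG p M _ P hP)
    (fun P hP m => stmtRoot_of_two_dvd p M _ h2 P hP m)

end Fermat.Agent.S33.helper265
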