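/-
S33, sub-leaf (h) SAT-E of the geometry Spec (helper1085, team_s33_chat #116), core file.

For a finite level `E ⊆ ℚ̄` the functions of `ℚ̄(X₀(N))` which are rational over `E`
(`S19.helper9190.levelField N E`) have Gauss valuation in `|E^×|`:

* `exists_const_of_mem_levelField` : a nonzero `f ∈ levelField N E` is a constant `c ∈ E^×` times
  a unit of the Gauss valuation ring of ANY valuation subring `A` of `ℚ̄`;
* `valuation_div_cst_le_one` : if the nonunits of `A ∩ E` are multiples of `π ∈ E`, a function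
  `f ∈ levelField N E` with Gauss valuation `< 1` is `π` times a Gauss-integral function;
* `atkinLehnerBar_mem_levelField` : the Atkin–Lehner involution `W_q` preserves `levelField`;
* `sat_levelField` : the two-sided saturation statement (SAT-E) for an abstract `W` preserving
  `levelField`, and `sat_levelField_atkinLehner` for `W = W_q`.

Only landed files are imported; the adapter to the vocabulary of `helper1085_GeomSpec`
(`lvlRing`, `ball`, `IsLevel`) is `helper274_SatEGeom.lean`.
-/
import Fermat.Agent.S34.helper584_UniInst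
import Fermat.Agent.S19.helper9190_SpecC

set_option autoImplicit false

namespace Fermat.Agent.S33.helper274

open AlgebraicCurve ModularCurve
open Fermat.Agent.S18
open Fermat.Agent.S19.helper9190
open Fermat.Agent.S34.helper584
open Fermat.Agent.S35.helper1219
open Fermat.Agent.S24.helper24

noncomputable section

/-! ## 1. Series with coefficients in a subfield -/

section Formal

variable {L : Type*} [Field L] (E : Subfield L)

/-- Series with finitely generated coefficients all lying in the subfield `E`. -/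
def ratCoeff : Subring (LaurentSeries L) where
  carrier := {P | P ∈ helper8991.fgCoeff L ∧ ∀ n, P.coeff n ∈ E}
  mul_mem' := by
    rintro P Q ⟨hP, hPE⟩ ⟨hQ, hQE⟩
    refine ⟨mul_mem hP hQ, fun n => ?_⟩
    rw [HahnSeries.coeff_mul]
    exact Subfield.sum_mem _ fun ij _ => mul_mem (hPE _) (hQE _)
  one_mem' := by
    refine ⟨one_mem _, fun n => ?_⟩
    rw [HahnSeries.coeff_one]
    split_ifs
    · exact one_mem _
    · exact zero_mem _
  add_mem' := by
    rintro P Q ⟨hP, hPE⟩ ⟨hQ, hQE⟩
    refine ⟨add_mem hP hQ, fun n => ?_⟩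
    rw [HahnSeries.coeff_add]
    exact add_mem (hPE n) (hQE n)
  zero_mem' := ⟨zero_mem _, fun n => by rw [HahnSeries.coeff_zero]; exact zero_mem _⟩
  neg_mem' := by
    rintro P ⟨hP, hPE⟩
    refine ⟨neg_mem hP, fun n => ?_⟩
    rw [HahnSeries.coeff_neg]
    exact neg_mem (hPE n)

theorem mem_ratCoeff {P : LaurentSeries L} :
    P ∈ ratCoeff E ↔ P ∈ helper8991.fgCoeff L ∧ ∀ n, P.coeff n ∈ E := Iff.rfl

/-- Constants of `E` are in `ratCoeff E`. -/
theorem C_mem_ratCoeff {c : L} (hc : c ∈ E) : (HahnSeries.C c : LaurentSeries L) ∈ ratCoeff E := by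
  refine ⟨?_, fun n => ?_⟩
  · rw [helper8991.C_eq_algebraMap]
    exact Subalgebra.algebraMap_mem _ _
  · rw [HahnSeries.C_apply]
    by_cases hn : n = 0
    · subst hn
      rw [HahnSeries.coeff_single_same]
      exact hc
    · rw [HahnSeries.coeff_single_of_ne hn]
      exact zero_mem _

/-- (G0) with the constant in `E`: a nonzero series of `ratCoeff E` is `C c * ι X` with
`c ∈ E^×` and `red X ≠ 0`. -/
theorem exists_normalize_mem (A : ValuationSubring L) {k : Type*} [Field k] (π : A →+* k)
    {P : LaurentSeries L} (hP : P ∈ ratCoeff E) (hP0 : P ≠ 0) :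
    ∃ (c : L) (X : LaurentSeries A), c ∈ E ∧ c ≠ 0 ∧ helper8991.red A π X ≠ 0 ∧
      P = HahnSeries.C c * helper8991.inc A X := by
  obtain ⟨n₀, hne, hall⟩ := helper8991.exists_max_coeff A hP.1 hP0
  refine ⟨P.coeff n₀, helper8991.liftDiv A P (P.coeff n₀) hall, hP.2 n₀, hne, ?_,
    (helper8991.C_mul_inc_liftDiv A P _ hne hall).symm⟩
  intro h0
  have h1 := congrArg (fun Z : LaurentSeries k => Z.coeff n₀) h0
  simp only [helper8991.red_coeff, HahnSeries.coeff_zero] at h1
  have h2 : (helper8991.liftDiv A P (P.coeff n₀) hall).coeff n₀ = 1 := by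
    apply Subtype.ext
    rw [helper8991.liftDiv_coeff, div_self hne]
    rfl
  rw [h2, map_one] at h1
  exact one_ne_zero h1

/-- Fractions of series of `ratCoeff E`. -/
def ratFrac : Subfield (LaurentSeries L) where
  carrier := {f | ∃ a b : LaurentSeries L, a ∈ ratCoeff E ∧ b ∈ ratCoeff E ∧ b ≠ 0 ∧ f * b = a}
  mul_mem' := by
    rintro f g ⟨a, b, ha, hb, hb0, h⟩ ⟨a', b', ha', hb', hb0', h'⟩
    refine ⟨a * a', b * b', mul_mem ha ha', mul_mem hb hb', mul_ne_zero hb0 hb0', ?_⟩
    rw [← h, ← h']
    ring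
  one_mem' := ⟨1, 1, one_mem _, one_mem _, one_ne_zero, one_mul 1⟩
  add_mem' := by
    rintro f g ⟨a, b, ha, hb, hb0, h⟩ ⟨a', b', ha', hb', hb0', h'⟩
    refine ⟨a * b' + a' * b, b * b', add_mem (mul_mem ha hb') (mul_mem ha' hb),
      mul_mem hb hb', mul_ne_zero hb0 hb0', ?_⟩
    rw [← h, ← h']
    ring
  zero_mem' := ⟨0, 1, zero_mem _, one_mem _, one_ne_zero, zero_mul 1⟩
  neg_mem' := by
    rintro f ⟨a, b, ha, hb, hb0, h⟩
    exact ⟨-a, b, neg_mem ha, hb, hb0, by rw [← h]; ring⟩
  inv_mem' := by
    rintro f ⟨a, b, ha, hb, hb0, h⟩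
    by_cases ha0 : a = 0
    · have hf : f = 0 := by
        rw [ha0] at h
        exact (mul_eq_zero.mp h).resolve_right hb0
      refine ⟨0, 1, zero_mem _, one_mem _, one_ne_zero, ?_⟩
      rw [hf, inv_zero, zero_mul]
    · have hf : f ≠ 0 := by
        rintro rfl
        exact ha0 (by rw [← h, zero_mul])
      refine ⟨b, a, hb, ha, ha0, ?_⟩
      rw [← h, ← mul_assoc, inv_mul_cancel₀ hf, one_mul]

theorem mem_ratFrac {f : LaurentSeries L} :
    f ∈ ratFrac E ↔
      ∃ a b : LaurentSeries L, a ∈ ratCoeff E ∧ b ∈ ratCoeff E ∧ b ≠ 0 ∧ f * b = a := Iff.rfl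

theorem ratCoeff_le_ratFrac {P : LaurentSeries L} (hP : P ∈ ratCoeff E) : P ∈ ratFrac E :=
  ⟨P, 1, hP, one_mem _, one_ne_zero, mul_one P⟩

/-- A nonzero element of `ratFrac E` is `C c * ι X / ι Y` with `c ∈ E^×`, `red X, red Y ≠ 0`. -/
theorem exists_normal_form_of_mem_ratFrac (A : ValuationSubring L) {k : Type*} [Field k]
    (π : A →+* k) {f : LaurentSeries L} (hf : f ∈ ratFrac E) (hf0 : f ≠ 0) :
    ∃ (c : L) (X Y : LaurentSeries A), c ∈ E ∧ c ≠ 0 ∧ helper8991.red A π X ≠ 0 ∧
      helper8991.red A π Y ≠ 0 ∧ f * helper8991.inc A Y = HahnSeries.C c * helper8991.inc A X := by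
  obtain ⟨a, b, ha, hb, hb0, h⟩ := hf
  have ha0 : a ≠ 0 := by
    rw [← h]
    exact mul_ne_zero hf0 hb0
  obtain ⟨c₁, X, hc₁E, hc₁, hX, haX⟩ := exists_normalize_mem E A π ha ha0
  obtain ⟨c₂, Y, hc₂E, hc₂, hY, hbY⟩ := exists_normalize_mem E A π hb hb0
  refine ⟨c₂⁻¹ * c₁, X, Y, mul_mem (inv_mem hc₂E) hc₁E, mul_ne_zero (inv_ne_zero hc₂) hc₁,
    hX, hY, ?_⟩
  have hY1 : helper8991.inc A Y = HahnSeries.C c₂⁻¹ * b := by
    rw [hbY, helper8991.C_inv_mul_C_mul hc₂]
  rw [hY1, map_mul, mul_assoc, ← haX, ← h]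
  ring

end Formal

/-! ## 2. The level field inside `ratFrac` -/

section Level

local notation "Qb" => AlgebraicClosure ℚ

variable (N : ℕ) (E : IntermediateField ℚ Qb)

/-- The coefficientwise image of the `ℚ`-algebra generated by the `j(q^d)` has finitely generated
coefficients. -/
theorem coeffEmb_mem_fgCoeff_of_mem_adjoin {r : LaurentSeries ℚ}
    (hr : r ∈ Algebra.adjoin ℚ (divisorExpansions N)) :
    coeffEmb Qb r ∈ helper8991.fgCoeff Qb := by
  induction hr using Algebra.adjoin_induction with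
  | mem x hx =>
    obtain ⟨d, hd, -, rfl⟩ := hx
    have := hd
    rw [helper8991.coeffEmb_qExpand_jq]
    exact helper8991.jqNModC_mem_fgCoeff d
  | algebraMap c =>
    have h : coeffEmb Qb (algebraMap ℚ (LaurentSeries ℚ) c)
        = algebraMap Qb (LaurentSeries Qb) (algebraMap ℚ Qb c) := by
      rw [algebraMap_laurentSeries_eq_single, algebraMap_laurentSeries_eq_single, coeffEmb,
        coeffMap_single]
    rw [h]
    exact Subalgebra.algebraMap_mem _ _
  | add x y _ _ hx hy =>
    rw [map_add]
    exact add_mem hx hy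
  | mul x y _ _ hx hy =>
    rw [map_mul]
    exact mul_mem hx hy

/-- The coefficientwise image of the `ℚ`-algebra generated by the `j(q^d)` lies in
`ratCoeff E`. -/
theorem coeffEmb_mem_ratCoeff_of_mem_adjoin {r : LaurentSeries ℚ}
    (hr : r ∈ Algebra.adjoin ℚ (divisorExpansions N)) :
    coeffEmb Qb r ∈ ratCoeff E.toSubfield :=
  ⟨coeffEmb_mem_fgCoeff_of_mem_adjoin N hr, fun n => by
    rw [coeffEmb_coeff]
    exact E.algebraMap_mem _⟩

/-- The series of a function of `ℚ(X₀(N))` is a fraction of series of `ratCoeff E`. -/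
theorem coe_emb_mem_ratFrac (x : FQ N) :
    ((emb N x : FK N) : LaurentSeries Qb) ∈ ratFrac E.toSubfield := by
  have hx : (x : LaurentSeries ℚ) ∈ IntermediateField.adjoin ℚ (divisorExpansions N) := x.2
  obtain ⟨r, hr, s, hs, hxrs⟩ := IntermediateField.mem_adjoin_iff_div.mp hx
  have h1 : ((emb N x : FK N) : LaurentSeries Qb) = coeffEmb Qb r / coeffEmb Qb s := by
    show coeffEmb Qb (x : LaurentSeries ℚ) = _
    rw [hxrs, map_div₀]
  rw [h1]
  exact div_mem (ratCoeff_le_ratFrac _ (coeffEmb_mem_ratCoeff_of_mem_adjoin N E hr))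
    (ratCoeff_le_ratFrac _ (coeffEmb_mem_ratCoeff_of_mem_adjoin N E hs))

/-- **The level field consists of fractions of `E`-rational series with finitely generated
coefficients.** -/
theorem coe_mem_ratFrac_of_mem_levelField {f : FK N} (hf : f ∈ levelField N E) :
    (f : LaurentSeries Qb) ∈ ratFrac E.toSubfield := by
  have hle : levelField N E ≤ (ratFrac E.toSubfield).comap
      (algebraMap (FK N) (LaurentSeries Qb)) := by
    unfold levelField
    rw [Subfield.closure_le]
    rintro _ (⟨c, hc, rfl⟩ | ⟨x, rfl⟩)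
    · show ((algebraMap Qb (FK N) c : FK N) : LaurentSeries Qb) ∈ ratFrac E.toSubfield
      have h1 : ((algebraMap Qb (FK N) c : FK N) : LaurentSeries Qb) = HahnSeries.C c := by
        rw [helper8991.C_eq_algebraMap]
        rfl
      rw [h1]
      exact ratCoeff_le_ratFrac _ (C_mem_ratCoeff _ hc)
    · exact coe_emb_mem_ratFrac N E x
  exact hle hf

end Level

/-! ## 3. The Gauss valuation on the level field -/

section Gauss

local notation "Qb" => AlgebraicClosure ℚ

variable (A : ValuationSubring Qb) (N : ℕ) (E : IntermediateField ℚ Qb)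

/-- **Value group at level `E`**: a nonzero function rational over `E` is a constant of `E^×`
times a unit of the Gauss valuation ring of `A` (any valuation subring `A` of `ℚ̄`). -/
theorem exists_const_of_mem_levelField {f : FK N} (hf : f ∈ levelField N E) (hf0 : f ≠ 0) :
    ∃ c : Qb, c ∈ E ∧ c ≠ 0 ∧ (gaussV A N).valuation (f / cst N c) = 1 := by
  have hf0' : (f : LaurentSeries Qb) ≠ 0 := fun h0 => hf0 (Subtype.ext h0)
  obtain ⟨c, X, Y, hcE, hc, hX, hY, h⟩ :=
    exists_normal_form_of_mem_ratFrac E.toSubfield A (IsLocalRing.residue A)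
      (coe_mem_ratFrac_of_mem_levelField N E hf) hf0'
  refine ⟨c, hcE, hc, ?_⟩
  have hcF : cst N c ≠ 0 := (map_ne_zero _).mpr hc
  have hcoe : ((f / cst N c : FK N) : LaurentSeries Qb)
      = HahnSeries.C c⁻¹ * (f : LaurentSeries Qb) := by
    have h1 : ((cst N c : FK N) : LaurentSeries Qb) = HahnSeries.C c := by
      rw [helper8991.C_eq_algebraMap]
      rfl
    have h2 : ((f / cst N c : FK N) : LaurentSeries Qb)
        = (f : LaurentSeries Qb) / ((cst N c : FK N) : LaurentSeries Qb) := rfl
    rw [h2, h1, div_eq_mul_inv, ← map_inv₀, mul_comm]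
  -- `u := f / c` satisfies `u * ι Y = ι X`
  have hu : ((f / cst N c : FK N) : LaurentSeries Qb) * helper8991.inc A Y
      = helper8991.inc A X := by
    rw [hcoe, mul_assoc, h, helper8991.C_inv_mul_C_mul hc]
  have hmem : (f / cst N c : FK N) ∈ gaussV A N := ⟨X, Y, hY, hu⟩
  have hu0 : (f / cst N c : FK N) ≠ 0 := div_ne_zero hf0 hcF
  have huinv : ((f / cst N c : FK N)⁻¹ : FK N) ∈ gaussV A N := by
    refine ⟨Y, X, hX, ?_⟩
    have h3 : (((f / cst N c : FK N)⁻¹ : FK N) : LaurentSeries Qb)
        = ((f / cst N c : FK N) : LaurentSeries Qb)⁻¹ := rfl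
    have hu0' : ((f / cst N c : FK N) : LaurentSeries Qb) ≠ 0 := fun h0 => hu0 (Subtype.ext h0)
    show (((f / cst N c : FK N)⁻¹ : FK N) : LaurentSeries Qb) * helper8991.inc A X
      = helper8991.inc A Y
    rw [h3, ← hu, ← mul_assoc, inv_mul_cancel₀ hu0', one_mul]
  have h1 : (gaussV A N).valuation (f / cst N c) ≤ 1 :=
    (ValuationSubring.valuation_le_one_iff _ _).mpr hmem
  have h2 : (gaussV A N).valuation (f / cst N c)⁻¹ ≤ 1 :=
    (ValuationSubring.valuation_le_one_iff _ _).mpr huinv
  rw [map_inv₀] at h2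
  have h4 : (gaussV A N).valuation (f / cst N c) ≠ 0 := (Valuation.ne_zero_iff _).mpr hu0
  exact le_antisymm h1 ((inv_le_one₀ (zero_lt_iff.mpr h4)).mp h2)

/-- A constant has Gauss valuation `< 1` iff it is a nonunit of `A`. -/
theorem valuation_cst_lt_one_iff (c : Qb) :
    (gaussV A N).valuation (cst N c) < 1 ↔ c ∈ A.nonunits := by
  rw [ValuationSubring.mem_nonunits_iff_or]
  by_cases hc0 : c = 0
  · subst hc0
    constructor
    · intro _
      exact Or.inl rfl
    · intro _
      have h0 : cst N (0 : Qb) = 0 := map_zero (algebraMap Qb (FK N))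
      rw [h0, map_zero]
      exact zero_lt_one
  · have hinv : (gaussV A N).valuation (cst N c⁻¹) = ((gaussV A N).valuation (cst N c))⁻¹ := by
      have h0 : cst N c⁻¹ = (cst N c)⁻¹ := map_inv₀ (algebraMap Qb (FK N)) c
      rw [h0, map_inv₀]
    have hne : (gaussV A N).valuation (cst N c) ≠ 0 :=
      (Valuation.ne_zero_iff _).mpr ((map_ne_zero _).mpr hc0)
    have key := gaussF_valuation_algebraMap_le_one_iff A N c⁻¹
    constructor
    · intro h
      right
      intro hci
      have h1 : (gaussV A N).valuation (cst N c⁻¹) ≤ 1 := key.mpr hci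
      rw [hinv] at h1
      exact absurd ((inv_le_one₀ (zero_lt_iff.mpr hne)).mp h1) (not_le.mpr h)
    · rintro (h | h)
      · exact absurd h hc0
      · by_contra hlt
        apply h
        apply key.mp
        show (gaussV A N).valuation (cst N c⁻¹) ≤ 1
        rw [hinv]
        exact (inv_le_one₀ (zero_lt_iff.mpr hne)).mpr (not_lt.mp hlt)

/-- **One-sided saturation at level `E`**: if every nonunit of `A` lying in `E` is a multiple
of `π`, then a function rational over `E` with Gauss valuation `< 1` is `π` times a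
Gauss-integral function. -/
theorem valuation_div_cst_le_one {π : Qb}
    (hunif : ∀ a : Qb, a ∈ E → a ∈ A.nonunits → ∃ b ∈ A, a = π * b)
    {f : FK N} (hf : f ∈ levelField N E) (hlt : (gaussV A N).valuation f < 1) :
    (gaussV A N).valuation (f / cst N π) ≤ 1 := by
  by_cases hf0 : f = 0
  · rw [hf0, zero_div, map_zero]
    exact zero_le_one
  obtain ⟨c, hcE, hc, hv⟩ := exists_const_of_mem_levelField A N E hf hf0
  have hcF : cst N c ≠ 0 := (map_ne_zero _).mpr hc
  have hvc : (gaussV A N).valuation (cst N c) ≠ 0 := (Valuation.ne_zero_iff _).mpr hcF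
  have hfc : (gaussV A N).valuation f = (gaussV A N).valuation (cst N c) := by
    rw [map_div₀] at hv
    exact (div_eq_one_iff_eq hvc).mp hv
  have hcn : c ∈ A.nonunits := by
    rw [← valuation_cst_lt_one_iff A N, ← hfc]
    exact hlt
  obtain ⟨b, hbA, hcb⟩ := hunif c hcE hcn
  have hπ0 : π ≠ 0 := by
    rintro rfl
    exact hc (by rw [hcb, zero_mul])
  have hπF : cst N π ≠ 0 := (map_ne_zero _).mpr hπ0
  have e1 : f / cst N π = (f / cst N c) * cst N b := by
    have h1 : cst N c = cst N π * cst N b := by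
      show algebraMap Qb (FK N) c = algebraMap Qb (FK N) π * algebraMap Qb (FK N) b
      rw [← map_mul, hcb]
    rw [h1]
    have hbF : cst N b ≠ 0 := by
      intro h0
      rw [h0, mul_zero] at h1
      exact hcF h1
    field_simp
  rw [e1, map_mul, hv, one_mul]
  exact (gaussF_valuation_algebraMap_le_one_iff A N b).mpr hbA

/-- **(SAT-E), abstract `W`**: two-sided saturation at level `E` for an automorphism `W` of the
function field preserving the level field. -/
theorem sat_levelField (W : FK N ≃ₐ[Qb] FK N)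
    (hW : ∀ f : FK N, f ∈ levelField N E → W f ∈ levelField N E) {π : Qb} (hπE : π ∈ E)
    (hunif : ∀ a : Qb, a ∈ E → a ∈ A.nonunits → ∃ b ∈ A, a = π * b)
    {f : FK N} (hf : f ∈ levelField N E) (h1 : (gaussV A N).valuation f < 1)
    (h2 : (gaussV A N).valuation (W f) < 1) :
    ∃ g : FK N, g ∈ gaussV A N ∧ W g ∈ gaussV A N ∧ g ∈ levelField N E ∧ f = cst N π * g := by
  by_cases hπ0 : π = 0
  · -- then `f = 0`
    have hf0 : f = 0 := by
      by_contra hf0
      obtain ⟨c, hcE, hc, hv⟩ := exists_const_of_mem_levelField A N E hf hf0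
      have hcF : cst N c ≠ 0 := (map_ne_zero _).mpr hc
      have hvc : (gaussV A N).valuation (cst N c) ≠ 0 := (Valuation.ne_zero_iff _).mpr hcF
      have hfc : (gaussV A N).valuation f = (gaussV A N).valuation (cst N c) := by
        rw [map_div₀] at hv
        exact (div_eq_one_iff_eq hvc).mp hv
      have hcn : c ∈ A.nonunits := by
        rw [← valuation_cst_lt_one_iff A N, ← hfc]
        exact h1
      obtain ⟨b, -, hcb⟩ := hunif c hcE hcn
      exact hc (by rw [hcb, hπ0, zero_mul])
    refine ⟨0, zero_mem _, ?_, zero_mem _, ?_⟩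
    · rw [map_zero]
      exact zero_mem _
    · rw [hf0, mul_zero]
  · have hπF : cst N π ≠ 0 := (map_ne_zero _).mpr hπ0
    have hπL : cst N π ∈ levelField N E := Subfield.subset_closure (Or.inl ⟨π, hπE, rfl⟩)
    refine ⟨f / cst N π, ?_, ?_, div_mem hf hπL, (mul_div_cancel₀ f hπF).symm⟩
    · exact (ValuationSubring.valuation_le_one_iff _ _).mp
        (valuation_div_cst_le_one A N E hunif hf h1)
    · have e : W (f / cst N π) = W f / cst N π := by
        rw [map_div₀]
        congr 1
        exact W.commutes π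
      rw [e]
      exact (ValuationSubring.valuation_le_one_iff _ _).mp
        (valuation_div_cst_le_one A N E hunif (hW f hf) h2)

end Gauss

/-! ## 4. The Atkin–Lehner involution preserves the level field -/

section AtkinLehner

local notation "Qb" => AlgebraicClosure ℚ

variable (q M : ℕ) [NeZero q] [NeZero M] (h : Nat.Coprime q M) (E : IntermediateField ℚ Qb)

/-- `j(q^d)` is the image of the rational `j(q^d)`. -/
theorem jBarD_eq_emb (N d : ℕ) [NeZero d] (hd : d ∣ N) :
    jBarD N d hd = emb N ⟨qExpand ℚ d jq, jqd_mem_full N hd⟩ :=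
  Subtype.ext rfl

theorem jBarD_mem_levelField (N d : ℕ) [NeZero d] (hd : d ∣ N) : jBarD N d hd ∈ levelField N E := by
  rw [jBarD_eq_emb]
  exact Subfield.subset_closure (Or.inr ⟨_, rfl⟩)

/-- `W_q` maps the rational function field into the level field (in fact into the rational
function field). -/
theorem atkinLehnerBar_emb_mem_levelField (x : FQ (q * M)) :
    atkinLehnerBar q M h (emb (q * M) x) ∈ levelField (q * M) E := by
  have key : ∀ y : LaurentSeries ℚ, y ∈ IntermediateField.adjoin ℚ (divisorExpansions (q * M)) →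
      ∃ g : FK (q * M), (g : LaurentSeries Qb) = coeffEmb Qb y ∧
        atkinLehnerBar q M h g ∈ levelField (q * M) E := by
    intro y hy
    induction hy using IntermediateField.adjoin_induction with
    | mem y hy =>
      obtain ⟨d, hd, hdN, rfl⟩ := hy
      have := hd
      refine ⟨jBarD (q * M) d hdN, rfl, ?_⟩
      obtain ⟨e, f, d', m, rfl, hq, hM⟩ := exists_factor h hdN
      have : NeZero (f * d') := (neZero_mul_of_eq hq hM).2
      rw [atkinLehnerBar_jBarD q M h hq hM hdN (dvd_of_eq hq hM).2]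
      exact jBarD_mem_levelField E _ _ _
    | algebraMap r =>
      refine ⟨cst (q * M) (algebraMap ℚ Qb r), ?_, ?_⟩
      · show algebraMap Qb (LaurentSeries Qb) (algebraMap ℚ Qb r)
          = coeffEmb Qb (algebraMap ℚ (LaurentSeries ℚ) r)
        rw [algebraMap_laurentSeries_eq_single, algebraMap_laurentSeries_eq_single, coeffEmb,
          coeffMap_single]
      · rw [AlgEquiv.commutes]
        exact Subfield.subset_closure (Or.inl ⟨_, E.algebraMap_mem r, rfl⟩)
    | add y z _ _ hy hz =>
      obtain ⟨g, hg, hgW⟩ := hy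
      obtain ⟨g', hg', hgW'⟩ := hz
      refine ⟨g + g', ?_, ?_⟩
      · show (g : LaurentSeries Qb) + (g' : LaurentSeries Qb) = _
        rw [hg, hg', map_add]
      · rw [map_add]
        exact add_mem hgW hgW'
    | inv y _ hy =>
      obtain ⟨g, hg, hgW⟩ := hy
      refine ⟨g⁻¹, ?_, ?_⟩
      · show (g : LaurentSeries Qb)⁻¹ = _
        rw [hg, map_inv₀]
      · rw [map_inv₀]
        exact inv_mem hgW
    | mul y z _ _ hy hz =>
      obtain ⟨g, hg, hgW⟩ := hy
      obtain ⟨g', hg', hgW'⟩ := hz
      refine ⟨g * g', ?_, ?_⟩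
      · show (g : LaurentSeries Qb) * (g' : LaurentSeries Qb) = _
        rw [hg, hg', map_mul]
      · rw [map_mul]
        exact mul_mem hgW hgW'
  obtain ⟨g, hg, hgW⟩ := key (x : LaurentSeries ℚ) x.2
  have hgx : g = emb (q * M) x := Subtype.ext hg
  rw [← hgx]
  exact hgW

/-- **`W_q` preserves the level field.** -/
theorem atkinLehnerBar_mem_levelField {f : FK (q * M)} (hf : f ∈ levelField (q * M) E) :
    atkinLehnerBar q M h f ∈ levelField (q * M) E := by
  have hle : levelField (q * M) E ≤ (levelField (q * M) E).comap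
      ((atkinLehnerBar q M h : FK (q * M) ≃+* FK (q * M)) : FK (q * M) →+* FK (q * M)) := by
    conv_lhs => unfold levelField
    rw [Subfield.closure_le]
    rintro _ (⟨c, hc, rfl⟩ | ⟨x, rfl⟩)
    · show atkinLehnerBar q M h (algebraMap Qb (FK (q * M)) c) ∈ levelField (q * M) E
      rw [AlgEquiv.commutes]
      exact Subfield.subset_closure (Or.inl ⟨c, hc, rfl⟩)
    · exact atkinLehnerBar_emb_mem_levelField q M h E x
  exact hle hf

/-- **(SAT-E) for the Atkin–Lehner pair** at level `q * M`: a function rational over `E` which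
is small at the Gauss valuation of `A` and at its `W_q`-twin is `π` times a function rational
over `E` and integral at both. -/
theorem sat_levelField_atkinLehner (A : ValuationSubring Qb) {π : Qb} (hπE : π ∈ E)
    (hunif : ∀ a : Qb, a ∈ E → a ∈ A.nonunits → ∃ b ∈ A, a = π * b)
    {f : FK (q * M)} (hf : f ∈ levelField (q * M) E)
    (h1 : (gaussV A (q * M)).valuation f < 1)
    (h2 : (gaussV A (q * M)).valuation (atkinLehnerBar q M h f) < 1) :
    ∃ g : FK (q * M), g ∈ gaussV A (q * M) ∧ atkinLehnerBar q M h g ∈ gaussV A (q * M) ∧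
      g ∈ levelField (q * M) E ∧ f = cst (q * M) π * g :=
  sat_levelField A (q * M) E (atkinLehnerBar q M h)
    (fun _ hf => atkinLehnerBar_mem_levelField q M h E hf) hπE hunif hf h1 h2

end AtkinLehner

end

end Fermat.Agent.S33.helper274
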