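/-
S33, sub-leaf (h) SAT-E of the geometry Spec (helper1085, team_s33_chat #116), in the vocabulary
of `helper1085_GeomSpec` (`lvlRing`, `ball`, `IsLevel`, `wAL`):

  `IsLevel p P E π e`, `f ∈ levelField N E`, `|f| < 1` at the Gauss valuation of `P` and at its
  `W`-twin  ⟹  `f = cst π * g` with `g ∈ ball P N W E`.

The proof is in `helper274_SatE.lean` (value group of the Gauss valuation on `E`-rational
functions is `|E^×|`; `W_p` preserves the level field).
-/
import Fermat.Agent.S33.helper1085_GeomSpec
import Fermat.Agent.S33.helper274_SatE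

set_option autoImplicit false

namespace Fermat.Agent.S33.helper274

open AlgebraicCurve ModularCurve
open Fermat.Agent.S19.helper9190
open Fermat.Agent.S34.helper584
open Fermat.Agent.S35.helper1219
open Fermat.Agent.S33.helper1085

local notation "Qb" => AlgebraicClosure ℚ

/-- The uniformiser property of `IsLevel` in element form. -/
theorem exists_mul_of_unif (P : ValuationSubring Qb) (E : IntermediateField ℚ Qb)
    (π : lvlRing P E)
    (hunif : ∀ a : lvlRing P E, (a : Qb) ∈ P.nonunits → a ∈ Ideal.span {π}) :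
    ∀ a : Qb, a ∈ E → a ∈ P.nonunits → ∃ b ∈ P, a = (π : Qb) * b := by
  intro a haE han
  have haP : a ∈ P := ValuationSubring.nonunits_subset han
  obtain ⟨b, hb⟩ := Ideal.mem_span_singleton'.mp (hunif ⟨a, haP, haE⟩ han)
  refine ⟨(b : Qb), b.2.1, ?_⟩
  have h1 : ((b * π : lvlRing P E) : Qb) = a := congrArg Subtype.val hb
  rw [← h1]
  show (b : Qb) * (π : Qb) = (π : Qb) * (b : Qb)
  exact mul_comm _ _

/-- **(SAT-E), abstract `W`.**  For an automorphism `W` preserving the level field and `π` such
that every nonunit of `P` in `𝒪_E = P ∩ E` is a multiple of `π`: a function rational over `E`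
which is small at the Gauss valuation of `P` and at its `W`-twin is `π` times an element of the
two-sided unit ball at level `E`. -/
theorem satE_of_preserves (P : ValuationSubring Qb) (N : ℕ) [NeZero N]
    (W : modularFunctionFieldBar N ≃ₐ[Qb] modularFunctionFieldBar N)
    (E : IntermediateField ℚ Qb)
    (hW : ∀ f : modularFunctionFieldBar N, f ∈ levelField N E → W f ∈ levelField N E)
    (π : lvlRing P E)
    (hunif : ∀ a : lvlRing P E, (a : Qb) ∈ P.nonunits → a ∈ Ideal.span {π})
    (f : modularFunctionFieldBar N) (hf : f ∈ levelField N E)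
    (h1 : (gaussV P N).valuation f < 1) (h2 : (gaussV P N).valuation (W f) < 1) :
    ∃ g ∈ ball P N W E, f = algebraMap Qb (modularFunctionFieldBar N) (π : Qb) * g := by
  obtain ⟨g, hg1, hg2, hg3, hfg⟩ :=
    sat_levelField P N E W hW π.2.2 (exists_mul_of_unif P E π hunif) hf h1 h2
  exact ⟨g, (mem_ball P N W E).2 ⟨hg1, hg2, hg3⟩, hfg⟩

/-- **(SAT-E)** = sub-leaf (h) of the geometry Spec, at level `p * M` for the Atkin–Lehner
involution `wAL h`. -/
theorem satE {p M : ℕ} [NeZero p] [NeZero M] (h : Nat.Coprime p M)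
    (P : ValuationSubring Qb) (E : IntermediateField ℚ Qb) (π : lvlRing P E) (e : ℕ)
    (hL : IsLevel p P E π e)
    (f : modularFunctionFieldBar (p * M)) (hf : f ∈ levelField (p * M) E)
    (h1 : (gaussV P (p * M)).valuation f < 1)
    (h2 : (gaussV P (p * M)).valuation (wAL h f) < 1) :
    ∃ g ∈ ball P (p * M) (wAL h) E,
      f = algebraMap Qb (modularFunctionFieldBar (p * M)) (π : Qb) * g :=
  satE_of_preserves P (p * M) (wAL h) E
    (fun _ hf => atkinLehnerBar_mem_levelField p M h E hf) π hL.unif f hf h1 h2

/-- `wAL h` preserves the level field (for the consumers of `ball`). -/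
theorem wAL_mem_levelField {p M : ℕ} [NeZero p] [NeZero M] (h : Nat.Coprime p M)
    (E : IntermediateField ℚ Qb) {f : modularFunctionFieldBar (p * M)}
    (hf : f ∈ levelField (p * M) E) : wAL h f ∈ levelField (p * M) E :=
  atkinLehnerBar_mem_levelField p M h E hf

/-- `wAL h` preserves the two-sided unit ball at every level (it is an involution). -/
theorem wAL_mem_ball {p M : ℕ} [NeZero p] [NeZero M] (h : Nat.Coprime p M)
    (P : ValuationSubring Qb) (E : IntermediateField ℚ Qb) {f : modularFunctionFieldBar (p * M)}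
    (hf : f ∈ ball P (p * M) (wAL h) E) : wAL h f ∈ ball P (p * M) (wAL h) E := by
  obtain ⟨h1, h2, h3⟩ := (mem_ball P (p * M) (wAL h) E).1 hf
  refine (mem_ball P (p * M) (wAL h) E).2 ⟨h2, ?_, wAL_mem_levelField h E h3⟩
  rw [atkinLehnerBar_atkinLehnerBar]
  exact h1

end Fermat.Agent.S33.helper274
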