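/-
S33 / LOCAL-ORD (findings #2990 (3)), seat helper2784.  Mathlib only.

An abstract local lemma: a finite group `M` with an action of an "inertia" group `G`,
carrying an order `H` of `G`-equivariant integral functions which is closed under the
addition law of `M` and all of whose points are congruent to the origin, is of
multiplicative type as soon as its Jordan-Hoelder steps are trivial or cyclotomic.
-/
import Mathlib

namespace Fermat.Agent.S33.helper2784

open scoped BigOperators

set_option linter.unusedSectionVars false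

section Base

variable {Ω : Type*} [Field Ω] (G : Type*) [Group G] [MulSemiringAction G Ω]

/-- `x` is fixed by the whole group. -/
def Fixed (x : Ω) : Prop := ∀ g : G, g • x = x

variable {G}

theorem smul_natCast' (g : G) (k : ℕ) : g • (k : Ω) = (k : Ω) :=
  map_natCast (MulSemiringAction.toRingHom G Ω g) k

theorem Fixed.zero : Fixed G (0 : Ω) := fun g => smul_zero g

theorem Fixed.one : Fixed G (1 : Ω) := fun g => smul_one g

theorem Fixed.natCast (k : ℕ) : Fixed G (k : Ω) := fun g => smul_natCast' g k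

theorem Fixed.add {x y : Ω} (hx : Fixed G x) (hy : Fixed G y) : Fixed G (x + y) :=
  fun g => by rw [smul_add, hx g, hy g]

theorem Fixed.neg {x : Ω} (hx : Fixed G x) : Fixed G (-x) :=
  fun g => by rw [smul_neg, hx g]

theorem Fixed.sub {x y : Ω} (hx : Fixed G x) (hy : Fixed G y) : Fixed G (x - y) :=
  fun g => by rw [smul_sub, hx g, hy g]

theorem Fixed.mul {x y : Ω} (hx : Fixed G x) (hy : Fixed G y) : Fixed G (x * y) :=
  fun g => by rw [smul_mul', hx g, hy g]

theorem Fixed.pow {x : Ω} (hx : Fixed G x) (k : ℕ) : Fixed G (x ^ k) :=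
  fun g => by rw [smul_pow', hx g]

theorem Fixed.sum {κ : Type*} (s : Finset κ) {f : κ → Ω} (hf : ∀ i ∈ s, Fixed G (f i)) :
    Fixed G (∑ i ∈ s, f i) :=
  fun g => by
    rw [Finset.smul_sum]
    exact Finset.sum_congr rfl fun i hi => hf i hi g

theorem Fixed.prod {κ : Type*} (s : Finset κ) {f : κ → Ω} (hf : ∀ i ∈ s, Fixed G (f i)) :
    Fixed G (∏ i ∈ s, f i) :=
  fun g => by
    classical
    induction s using Finset.induction_on with
    | empty => simp
    | insert a s ha ih =>
      rw [Finset.prod_insert ha, smul_mul', hf a (Finset.mem_insert_self a s),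
        ih fun i hi => hf i (Finset.mem_insert_of_mem hi)]

theorem Fixed.of_mul_left {c x : Ω} (hc : Fixed G c) (hc0 : c ≠ 0) (hx : Fixed G (c * x)) :
    Fixed G x := fun g => by
  have h1 := hx g
  rw [smul_mul', hc g] at h1
  exact mul_left_cancel₀ hc0 h1

variable (G)

/-- Hypotheses on the base ring `A` (the valuation ring), its maximal ideal `mA`, and the
inertia group `G`: inertia acts trivially modulo `mA`, the fixed ring is unramified with
uniformiser `p`, `A` is `p`-adically separated and integrally closed, and fixed elements of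
the field are fractions of fixed elements of `A`. -/
structure BaseHyp (p : ℕ) (A : Subring Ω) (mA : AddSubgroup Ω) : Prop where
  p_ne_zero : (p : Ω) ≠ 0
  mA_le : ∀ x ∈ mA, x ∈ A
  mA_mul : ∀ a ∈ A, ∀ x ∈ mA, a * x ∈ mA
  inert : ∀ (g : G), ∀ a ∈ A, g • a - a ∈ mA
  unr : ∀ a ∈ mA, Fixed G a → ∃ b ∈ A, a = (p : Ω) * b
  psep : ∀ a ∈ A, (∀ k : ℕ, ∃ b ∈ A, a = (p : Ω) ^ k * b) → a = 0
  intcl : ∀ x : Ω, (∃ f : Polynomial Ω, f.Monic ∧ (∀ i, f.coeff i ∈ A) ∧ f.eval x = 0) → x ∈ A
  frac : ∀ c : Ω, Fixed G c →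
    ∃ a ∈ A, ∃ b ∈ A, Fixed G a ∧ Fixed G b ∧ b ≠ 0 ∧ c * b = a

variable {G}

theorem BaseHyp.smul_mem {p : ℕ} {A : Subring Ω} {mA : AddSubgroup Ω} (hb : BaseHyp G p A mA)
    (g : G) {a : Ω} (ha : a ∈ A) : g • a ∈ A := by
  have h1 : g • a - a ∈ A := hb.mA_le _ (hb.inert g a ha)
  have h2 : g • a = (g • a - a) + a := by ring
  rw [h2]
  exact A.add_mem h1 ha

/-- A fixed element of `mA` is `p` times a fixed element of `A`. -/
theorem BaseHyp.unr' {p : ℕ} {A : Subring Ω} {mA : AddSubgroup Ω} (hb : BaseHyp G p A mA)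
    {a : Ω} (ha : a ∈ mA) (hfix : Fixed G a) : ∃ b ∈ A, Fixed G b ∧ a = (p : Ω) * b := by
  obtain ⟨b, hbA, rfl⟩ := hb.unr a ha hfix
  exact ⟨b, hbA, Fixed.of_mul_left (Fixed.natCast p) hb.p_ne_zero hfix, rfl⟩

end Base

section Descent

variable {Ω : Type*} [Field Ω] {G : Type*} [Group G] [MulSemiringAction G Ω]
  {M : Type*} [AddCommGroup M] [DistribMulAction G M]
  {p : ℕ} {A : Subring Ω} {mA : AddSubgroup Ω}
  {ι : Type*} [Fintype ι]

/-- Galois descent of linear independence: equivariant functions which are independent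
over the fixed elements of `A` are independent over the whole field. -/
theorem indep_of_fixed_indep (hb : BaseHyp G p A mA) (h : ι → M → Ω)
    (heqv : ∀ j (g : G) m, h j (g • m) = g • h j m)
    (hind : ∀ c : ι → Ω, (∀ j, c j ∈ A) → (∀ j, Fixed G (c j)) →
      (∀ m, ∑ j, c j * h j m = 0) → ∀ j, c j = 0) :
    ∀ c : ι → Ω, (∀ m, ∑ j, c j * h j m = 0) → ∀ j, c j = 0 := by
  classical
  -- strong induction on the size of the support
  have key : ∀ k : ℕ, ∀ c : ι → Ω, (Finset.univ.filter fun j => c j ≠ 0).card = k →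
      (∀ m, ∑ j, c j * h j m = 0) → ∀ j, c j = 0 := by
    intro k
    induction k using Nat.strong_induction_on with
    | _ k ih =>
      intro c hk hrel
      by_contra hne
      obtain ⟨j₀, hj₀⟩ := not_forall.mp hne
      -- normalise
      set c' : ι → Ω := fun j => c j / c j₀ with hc'
      have hrel' : ∀ m, ∑ j, c' j * h j m = 0 := by
        intro m
        have : ∑ j, c' j * h j m = (∑ j, c j * h j m) / c j₀ := by
          rw [Finset.sum_div]
          refine Finset.sum_congr rfl fun j _ => ?_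
          simp only [hc']
          ring
        rw [this, hrel m, zero_div]
      have hc'j₀ : c' j₀ = 1 := by simp only [hc']; exact div_self hj₀
      have hsupp' : ∀ j, c' j ≠ 0 → c j ≠ 0 := by
        intro j hj hcj
        apply hj
        simp only [hc', hcj, zero_div]
      -- the coefficients are fixed
      have hfix : ∀ j, Fixed G (c' j) := by
        intro j g
        set d : ι → Ω := fun j => g • c' j - c' j with hd
        have hreld : ∀ m, ∑ j, d j * h j m = 0 := by
          intro m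
          have h1 : ∑ j, (g • c' j) * h j m = g • ∑ j, c' j * h j (g⁻¹ • m) := by
            rw [Finset.smul_sum]
            refine Finset.sum_congr rfl fun j _ => ?_
            rw [smul_mul', ← heqv j g (g⁻¹ • m), smul_inv_smul]
          have h2 : ∑ j, d j * h j m = ∑ j, (g • c' j) * h j m - ∑ j, c' j * h j m := by
            rw [← Finset.sum_sub_distrib]
            refine Finset.sum_congr rfl fun j _ => ?_
            simp only [hd]
            ring
          rw [h2, h1, hrel' (g⁻¹ • m), hrel' m, smul_zero, sub_zero]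
        have hcard : (Finset.univ.filter fun j => d j ≠ 0).card < k := by
          rw [← hk]
          apply Finset.card_lt_card
          rw [Finset.ssubset_iff_of_subset]
          · refine ⟨j₀, by simp [hj₀], ?_⟩
            simp only [Finset.mem_filter, Finset.mem_univ, true_and, not_not, hd, hc'j₀,
              smul_one, sub_self]
          · intro j hj
            simp only [Finset.mem_filter, Finset.mem_univ, true_and] at hj ⊢
            apply hsupp' j
            intro h0
            apply hj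
            simp only [hd, h0, smul_zero, sub_self]
        have hd0 := ih _ hcard d rfl hreld j
        simp only [hd] at hd0
        exact sub_eq_zero.mp hd0
      -- clear denominators
      choose a haA b hbA _ hbfix hb0 hab using fun j => hb.frac (c' j) (hfix j)
      set d₀ : Ω := ∏ j, b j with hd₀
      have hd₀0 : d₀ ≠ 0 := Finset.prod_ne_zero_iff.mpr fun j _ => hb0 j
      have hd₀fix : Fixed G d₀ := Fixed.prod _ fun j _ => hbfix j
      have hmem : ∀ j, d₀ * c' j ∈ A := by
        intro j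
        have h1 : d₀ * c' j = (∏ i ∈ Finset.univ.erase j, b i) * a j := by
          rw [hd₀, ← Finset.prod_erase_mul Finset.univ b (Finset.mem_univ j), ← hab j]
          ring
        rw [h1]
        exact A.mul_mem (A.prod_mem fun i _ => hbA i) (haA j)
      have hz := hind (fun j => d₀ * c' j) hmem (fun j => hd₀fix.mul (hfix j))
        (fun m => by
          have : ∑ j, d₀ * c' j * h j m = d₀ * ∑ j, c' j * h j m := by
            rw [Finset.mul_sum]
            exact Finset.sum_congr rfl fun j _ => by ring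
          rw [this, hrel' m, mul_zero]) j₀
      rw [hc'j₀, mul_one] at hz
      exact hd₀0 hz
  intro c hrel
  exact key _ c rfl hrel

end Descent

section Span

variable {Ω : Type*} [Field Ω] {M : Type*} [Finite M]

/-- A point-separating subring of functions on a finite set spans all functions. -/
theorem mem_span_of_sep (H : Subring (M → Ω))
    (hsep : ∀ m m' : M, m ≠ m' → ∃ φ ∈ H, φ m ≠ φ m') (f : M → Ω) :
    f ∈ Submodule.span Ω (H : Set (M → Ω)) := by
  classical
  have := Fintype.ofFinite M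
  have hspan : Subalgebra.toSubmodule (Algebra.adjoin Ω (H : Set (M → Ω))) =
      Submodule.span Ω (H : Set (M → Ω)) := by
    rw [Algebra.adjoin_eq_span]
    congr 1
    rw [show ((H : Set (M → Ω))) = (H.toSubmonoid : Set (M → Ω)) from rfl, Submonoid.closure_eq]
  rw [← hspan, Subalgebra.mem_toSubmodule]
  set 𝒜 := Algebra.adjoin Ω (H : Set (M → Ω)) with h𝒜
  -- indicator functions
  have hδ : ∀ m₀ : M, (Pi.single m₀ (1 : Ω) : M → Ω) ∈ 𝒜 := by
    intro m₀
    choose φ hφH hφ using fun m : {m : M // m₀ ≠ m} => hsep m₀ m.1 m.2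
    have hprod : (Pi.single m₀ (1 : Ω) : M → Ω) =
        ∏ m : {m : M // m₀ ≠ m}, ((φ m m₀ - φ m m.1)⁻¹ • (φ m - algebraMap Ω (M → Ω) (φ m m.1))) := by
      funext x
      rw [Finset.prod_apply]
      by_cases hx : x = m₀
      · subst hx
        rw [Pi.single_eq_same]
        symm
        apply Finset.prod_eq_one
        intro m _
        have hne : φ m x - φ m m.1 ≠ 0 := sub_ne_zero.mpr (hφ m)
        simp only [Pi.smul_apply, Pi.sub_apply, Pi.algebraMap_apply, Algebra.algebraMap_self,
          RingHom.id_apply, smul_eq_mul]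
        exact inv_mul_cancel₀ hne
      · rw [Pi.single_eq_of_ne hx]
        symm
        apply Finset.prod_eq_zero (Finset.mem_univ (⟨x, fun h => hx h.symm⟩ : {m : M // m₀ ≠ m}))
        simp only [Pi.smul_apply, Pi.sub_apply, Pi.algebraMap_apply, Algebra.algebraMap_self,
          RingHom.id_apply, smul_eq_mul, sub_self, mul_zero]
    rw [hprod]
    refine Subalgebra.prod_mem _ fun m _ => ?_
    refine Subalgebra.smul_mem _ ?_ _
    exact Subalgebra.sub_mem _ (Algebra.subset_adjoin (hφH m)) (Subalgebra.algebraMap_mem _ _)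
  have hf : f = ∑ m₀ : M, f m₀ • (Pi.single m₀ (1 : Ω) : M → Ω) := by
    funext x
    rw [Finset.sum_apply]
    simp only [Pi.smul_apply, smul_eq_mul]
    rw [Finset.sum_eq_single x]
    · rw [Pi.single_eq_same, mul_one]
    · intro b _ hb
      rw [Pi.single_eq_of_ne (Ne.symm hb), mul_zero]
    · intro hx
      exact absurd (Finset.mem_univ x) hx
  rw [hf]
  exact Subalgebra.sum_mem _ fun m₀ _ => Subalgebra.smul_mem _ (hδ m₀) _

end Span

section Order

variable {Ω : Type*} [Field Ω] (G : Type*) [Group G] [MulSemiringAction G Ω]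
  {M : Type*} [AddCommGroup M] [DistribMulAction G M]

/-- Hypotheses on the order `H` of functions on `M`: integral values, equivariance, stability
under fixed integral scalars, separation of points, closure under the addition law, and all
points congruent to the origin. -/
structure OrderHyp (A : Subring Ω) (mA : AddSubgroup Ω) (H : Subring (M → Ω)) : Prop where
  val : ∀ φ ∈ H, ∀ m, φ m ∈ A
  eqv : ∀ φ ∈ H, ∀ (g : G) (m : M), φ (g • m) = g • φ m
  smul : ∀ c ∈ A, Fixed G c → ∀ φ ∈ H, (fun m => c * φ m) ∈ H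
  sep : ∀ m m' : M, m ≠ m' → ∃ φ ∈ H, φ m ≠ φ m'
  law : ∀ φ ∈ H, ∃ (n : ℕ) (a b : Fin n → M → Ω), (∀ i, a i ∈ H) ∧ (∀ i, b i ∈ H) ∧
    ∀ m m', φ (m + m') = ∑ i, a i m * b i m'
  loc : ∀ φ ∈ H, ∀ m, φ m - φ 0 ∈ mA

/-- `h` is a basis of `H` over the fixed elements of `A`. -/
structure IsFixedBasis (A : Subring Ω) (H : Subring (M → Ω)) {ι : Type*} [Fintype ι]
    (h : ι → M → Ω) : Prop where
  mem : ∀ j, h j ∈ H
  span : ∀ φ ∈ H, ∃ c : ι → Ω, (∀ j, c j ∈ A) ∧ (∀ j, Fixed G (c j)) ∧
    ∀ m, φ m = ∑ j, c j * h j m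
  indep : ∀ c : ι → Ω, (∀ j, c j ∈ A) → (∀ j, Fixed G (c j)) →
    (∀ m, ∑ j, c j * h j m = 0) → ∀ j, c j = 0

end Order

section Coord

variable {Ω : Type*} [Field Ω] {G : Type*} [Group G] [MulSemiringAction G Ω]
  {M : Type*} [AddCommGroup M] [Finite M] [DistribMulAction G M]
  {p : ℕ} {A : Subring Ω} {mA : AddSubgroup Ω} {H : Subring (M → Ω)}
  {ι : Type*} [Fintype ι] {h : ι → M → Ω}

/-- Independence over the whole field. -/
theorem coord_zero (hb : BaseHyp G p A mA) (hH : OrderHyp G A mA H) (hB : IsFixedBasis G A H h)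
    (c : ι → Ω) (hc : ∀ m, ∑ j, c j * h j m = 0) : ∀ j, c j = 0 :=
  indep_of_fixed_indep hb h (fun j g m => hH.eqv (h j) (hB.mem j) g m) hB.indep c hc

theorem coord_unique (hb : BaseHyp G p A mA) (hH : OrderHyp G A mA H) (hB : IsFixedBasis G A H h)
    (c c' : ι → Ω) (hc : ∀ m, ∑ j, c j * h j m = ∑ j, c' j * h j m) : ∀ j, c j = c' j := by
  intro j
  have := coord_zero hb hH hB (fun j => c j - c' j) (fun m => by
    have : ∑ j, (c j - c' j) * h j m = ∑ j, c j * h j m - ∑ j, c' j * h j m := by
      rw [← Finset.sum_sub_distrib]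
      exact Finset.sum_congr rfl fun j _ => by ring
    rw [this, hc m, sub_self]) j
  exact sub_eq_zero.mp this

/-- Every function is a combination of the basis. -/
theorem exists_coord (hH : OrderHyp G A mA H) (hB : IsFixedBasis G A H h) (f : M → Ω) :
    ∃ c : ι → Ω, ∀ m, f m = ∑ j, c j * h j m := by
  have h1 : f ∈ Submodule.span Ω (H : Set (M → Ω)) := mem_span_of_sep H hH.sep f
  have h2 : Submodule.span Ω (H : Set (M → Ω)) ≤ Submodule.span Ω (Set.range h) := by
    rw [Submodule.span_le]
    intro φ hφ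
    obtain ⟨c, -, -, hc⟩ := hB.span φ hφ
    rw [SetLike.mem_coe, Submodule.mem_span_range_iff_exists_fun]
    refine ⟨c, ?_⟩
    funext m
    rw [Finset.sum_apply, hc m]
    exact Finset.sum_congr rfl fun j _ => by simp [Pi.smul_apply, smul_eq_mul]
  obtain ⟨c, hc⟩ := (Submodule.mem_span_range_iff_exists_fun Ω).mp (h2 h1)
  refine ⟨c, fun m => ?_⟩
  rw [← hc, Finset.sum_apply]
  exact Finset.sum_congr rfl fun j _ => by simp [Pi.smul_apply, smul_eq_mul]

/-- Coordinates of an equivariant function are fixed. -/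
theorem coord_fixed_of_eqv (hb : BaseHyp G p A mA) (hH : OrderHyp G A mA H)
    (hB : IsFixedBasis G A H h) (f : M → Ω) (hf : ∀ (g : G) m, f (g • m) = g • f m)
    (c : ι → Ω) (hc : ∀ m, f m = ∑ j, c j * h j m) : ∀ j, Fixed G (c j) := by
  intro j g
  refine coord_unique hb hH hB (fun j => g • c j) c (fun m => ?_) j
  have h1 : ∑ j, (g • c j) * h j m = g • ∑ j, c j * h j (g⁻¹ • m) := by
    rw [Finset.smul_sum]
    refine Finset.sum_congr rfl fun j _ => ?_
    rw [smul_mul', ← hH.eqv (h j) (hB.mem j) g (g⁻¹ • m), smul_inv_smul]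
  rw [h1, ← hc, ← hf, smul_inv_smul, hc m]

/-- Functions with fixed integral coordinates belong to `H`. -/
theorem mem_of_coord (hH : OrderHyp G A mA H) (hB : IsFixedBasis G A H h)
    (c : ι → Ω) (hcA : ∀ j, c j ∈ A) (hcf : ∀ j, Fixed G (c j)) :
    (fun m => ∑ j, c j * h j m) ∈ H := by
  have : (fun m => ∑ j, c j * h j m) = ∑ j, (fun m => c j * h j m) := by
    funext m
    rw [Finset.sum_apply]
  rw [this]
  exact H.sum_mem fun j _ => hH.smul (c j) (hcA j) (hcf j) (h j) (hB.mem j)

/-- Coordinates of elements of `H` are fixed and integral. -/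
theorem coord_mem_of_mem (hb : BaseHyp G p A mA) (hH : OrderHyp G A mA H)
    (hB : IsFixedBasis G A H h) (φ : M → Ω) (hφ : φ ∈ H)
    (c : ι → Ω) (hc : ∀ m, φ m = ∑ j, c j * h j m) : ∀ j, c j ∈ A ∧ Fixed G (c j) := by
  obtain ⟨c', hc'A, hc'f, hc'⟩ := hB.span φ hφ
  have := coord_unique hb hH hB c c' (fun m => by rw [← hc m, ← hc' m])
  intro j
  rw [this j]
  exact ⟨hc'A j, hc'f j⟩

/-- One-sided form of the law: the first factors are the basis. -/
theorem law_left (hH : OrderHyp G A mA H) (hB : IsFixedBasis G A H h) (φ : M → Ω) (hφ : φ ∈ H) :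
    ∃ u : ι → M → Ω, (∀ j, u j ∈ H) ∧ ∀ m m', φ (m + m') = ∑ j, h j m * u j m' := by
  obtain ⟨n, a, b, haH, hbH, hlaw⟩ := hH.law φ hφ
  choose α hαA hαf hα using fun i => hB.span (a i) (haH i)
  refine ⟨fun j m' => ∑ i, α i j * b i m', fun j => ?_, fun m m' => ?_⟩
  · have : (fun m' => ∑ i, α i j * b i m') = ∑ i, (fun m' => α i j * b i m') := by
      funext m
      rw [Finset.sum_apply]
    show (fun m' => ∑ i, α i j * b i m') ∈ H
    rw [this]
    exact H.sum_mem fun i _ => hH.smul _ (hαA i j) (hαf i j) (b i) (hbH i)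
  · rw [hlaw m m']
    have h1 : ∀ i, a i m * b i m' = ∑ j, h j m * (α i j * b i m') := by
      intro i
      rw [hα i m, Finset.sum_mul]
      exact Finset.sum_congr rfl fun j _ => by ring
    simp_rw [h1]
    rw [Finset.sum_comm]
    exact Finset.sum_congr rfl fun j _ => by rw [Finset.mul_sum]

/-- Two-sided form of the law with integral structure constants. -/
theorem law_both (hH : OrderHyp G A mA H) (hB : IsFixedBasis G A H h) (φ : M → Ω) (hφ : φ ∈ H) :
    ∃ Γ : ι → ι → Ω, (∀ j l, Γ j l ∈ A) ∧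
      ∀ m m', φ (m + m') = ∑ j, ∑ l, Γ j l * (h j m * h l m') := by
  obtain ⟨u, huH, hu⟩ := law_left hH hB φ hφ
  choose γ hγA _ hγ using fun j => hB.span (u j) (huH j)
  refine ⟨γ, hγA, fun m m' => ?_⟩
  rw [hu m m']
  refine Finset.sum_congr rfl fun j _ => ?_
  rw [hγ j m', Finset.mul_sum]
  exact Finset.sum_congr rfl fun l _ => by ring

/-- Products of basis elements have integral coordinates. -/
theorem mul_coord (hB : IsFixedBasis G A H h) (k l : ι) :
    ∃ μ : ι → Ω, (∀ j, μ j ∈ A) ∧ ∀ m, h k m * h l m = ∑ j, μ j * h j m := by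
  obtain ⟨μ, hμA, -, hμ⟩ := hB.span (h k * h l) (H.mul_mem (hB.mem k) (hB.mem l))
  exact ⟨μ, hμA, fun m => hμ m⟩

/-- Independence of the products `h j m * h l m'`. -/
theorem coord_zero₂ (hb : BaseHyp G p A mA) (hH : OrderHyp G A mA H) (hB : IsFixedBasis G A H h)
    (c : ι → ι → Ω) (hc : ∀ m m', ∑ j, ∑ l, c j l * (h j m * h l m') = 0) : ∀ j l, c j l = 0 := by
  intro j l
  have h1 : ∀ m' j, ∑ l, c j l * h l m' = 0 := by
    intro m'
    refine coord_zero hb hH hB (fun j => ∑ l, c j l * h l m') (fun m => ?_)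
    rw [← hc m m']
    refine Finset.sum_congr rfl fun j _ => ?_
    rw [Finset.sum_mul]
    exact Finset.sum_congr rfl fun l _ => by ring
  exact coord_zero hb hH hB (fun l => c j l) (fun m' => h1 m' j) l

end Coord

section Binom

variable {V : Type*} [AddCommGroup V]

/-- The binomial estimate: an endomorphism `Δ` with `(Δ + 1) ^ p = 1` on a subgroup `K` and
`Δ K ⊆ p K` satisfies `Δ K ⊆ p ^ a K` for every `a` (`p` odd, no `p`-torsion). -/
theorem binom_step (p : ℕ) (hp : p.Prime) (hp2 : p ≠ 2)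
    (htf : ∀ x y : V, p • x = p • y → x = y)
    (Δ : Module.End ℤ V) (K : AddSubgroup V)
    (hΔ : ∀ ψ ∈ K, ∃ k ∈ K, Δ ψ = p • k)
    (hτ : ∀ ψ ∈ K, ((Δ + 1) ^ p) ψ = ψ) :
    ∀ a : ℕ, ∀ ψ ∈ K, ∃ k ∈ K, Δ ψ = p ^ a • k := by
  classical
  have hp3 : 3 ≤ p := by
    have := hp.two_le
    omega
  intro a
  induction a with
  | zero =>
    intro ψ hψ
    obtain ⟨k, hk, hk'⟩ := hΔ ψ hψ
    exact ⟨p • k, K.nsmul_mem hk p, by rw [hk', pow_zero, one_smul]⟩
  | succ a ih =>
    rcases Nat.eq_zero_or_pos a with rfl | ha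
    · intro ψ hψ
      obtain ⟨k, hk, hk'⟩ := hΔ ψ hψ
      exact ⟨k, hk, by rw [hk', zero_add, pow_one]⟩
    · intro ψ hψ
      have hiter : ∀ j : ℕ, ∀ ψ ∈ K, ∃ k ∈ K, (Δ ^ j) ψ = p ^ (j * a) • k := by
        intro j
        induction j with
        | zero =>
          intro ψ hψ
          exact ⟨ψ, hψ, by simp⟩
        | succ j ihj =>
          intro ψ hψ
          obtain ⟨k, hk, hk'⟩ := ihj ψ hψ
          obtain ⟨k₂, hk₂, hk₂'⟩ := ih k hk
          refine ⟨k₂, hk₂, ?_⟩
          rw [pow_succ', Module.End.mul_apply, hk', map_nsmul, hk₂', smul_smul, ← pow_add,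
            Nat.succ_mul]
      have hexp := Commute.add_pow (Commute.one_right Δ) p
      have h1 := hτ ψ hψ
      rw [hexp, LinearMap.sum_apply] at h1
      have hT : ∀ m, (Δ ^ m * 1 ^ (p - m) * (p.choose m : Module.End ℤ V)) ψ =
          p.choose m • (Δ ^ m) ψ := by
        intro m
        rw [one_pow, mul_one, Module.End.mul_apply, Module.End.natCast_apply, map_nsmul]
      simp_rw [hT] at h1
      have h0mem : 0 ∈ Finset.range (p + 1) := Finset.mem_range.mpr (by omega)
      have h1mem : 1 ∈ (Finset.range (p + 1)).erase 0 :=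
        Finset.mem_erase.mpr ⟨by omega, Finset.mem_range.mpr (by omega)⟩
      rw [← Finset.add_sum_erase _ _ h0mem, ← Finset.add_sum_erase _ _ h1mem] at h1
      simp only [Nat.choose_zero_right, pow_zero, Module.End.one_apply, one_smul,
        Nat.choose_one_right, pow_one] at h1
      set rest := ((Finset.range (p + 1)).erase 0).erase 1 with hrest
      have hR : ∀ m, ∃ k ∈ K, m ∈ rest → p.choose m • (Δ ^ m) ψ = p ^ (a + 2) • k := by
        intro m
        by_cases hm : m ∈ rest
        · have hm1 : m ≠ 1 := (Finset.mem_erase.mp hm).1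
          have hm' := (Finset.mem_erase.mp hm).2
          have hm0 : m ≠ 0 := (Finset.mem_erase.mp hm').1
          have hmp : m < p + 1 := Finset.mem_range.mp (Finset.mem_erase.mp hm').2
          obtain ⟨k, hk, hk'⟩ := hiter m ψ hψ
          rcases Nat.lt_or_ge m p with hlt | hge
          · obtain ⟨c, hc⟩ := hp.dvd_choose_self hm0 hlt
            have hle : a + 1 ≤ m * a := by
              have : 2 * a ≤ m * a := Nat.mul_le_mul_right a (by omega)
              omega
            refine ⟨(c * p ^ (m * a - (a + 1))) • k, K.nsmul_mem hk _, fun _ => ?_⟩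
            rw [hk', hc, smul_smul, smul_smul]
            congr 1
            have e1 : p ^ (m * a) = p ^ (a + 1) * p ^ (m * a - (a + 1)) := by
              rw [← pow_add]
              congr 1
              omega
            rw [e1, pow_succ (p) (a + 1)]
            ring
          · have hmeq : m = p := by omega
            rw [hmeq] at hk'
            have hle : a + 2 ≤ p * a := by
              have : 3 * a ≤ p * a := Nat.mul_le_mul_right a hp3
              omega
            refine ⟨p ^ (p * a - (a + 2)) • k, K.nsmul_mem hk _, fun _ => ?_⟩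
            rw [hmeq, hk', Nat.choose_self, one_smul, smul_smul, ← pow_add]
            congr 2
            omega
        · exact ⟨0, K.zero_mem, fun h => absurd h hm⟩
      choose k hkK hk using hR
      have hsum : ∑ m ∈ rest, p.choose m • (Δ ^ m) ψ = p ^ (a + 2) • ∑ m ∈ rest, k m := by
        rw [Finset.smul_sum]
        exact Finset.sum_congr rfl fun m hm => hk m hm
      rw [hsum] at h1
      refine ⟨-∑ m ∈ rest, k m, K.neg_mem (K.sum_mem fun m _ => hkK m), ?_⟩
      apply htf
      have h2 : p • Δ ψ = -(p ^ (a + 2) • ∑ m ∈ rest, k m) := by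
        have h3 : p • Δ ψ + p ^ (a + 2) • ∑ m ∈ rest, k m = 0 := by
          have h4 : ψ + (p • Δ ψ + p ^ (a + 2) • ∑ m ∈ rest, k m) = ψ + 0 := by
            rw [add_zero]
            exact h1
          exact add_left_cancel h4
        exact eq_neg_of_add_eq_zero_left h3
      rw [h2, smul_smul, ← pow_succ', smul_neg]
end Binom

section Step

variable {Ω : Type*} [Field Ω] {G : Type*} [Group G] [MulSemiringAction G Ω]
  {M : Type*} [AddCommGroup M] [Finite M] [DistribMulAction G M]
  {p : ℕ} {A : Subring Ω} {mA : AddSubgroup Ω} {H : Subring (M → Ω)}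
  {ι : Type*} [Fintype ι] {h : ι → M → Ω}

/-- A common fixed denominator for finitely many fixed elements of the field. -/
theorem exists_denominator (hb : BaseHyp G p A mA) (c : ι → Ω) (hc : ∀ j, Fixed G (c j)) :
    ∃ d ∈ A, Fixed G d ∧ d ≠ 0 ∧ ∀ j, d * c j ∈ A := by
  classical
  choose a haA b hbA _ hbfix hb0 hab using fun j => hb.frac (c j) (hc j)
  refine ⟨∏ j, b j, A.prod_mem fun j _ => hbA j, Fixed.prod _ fun j _ => hbfix j,
    Finset.prod_ne_zero_iff.mpr fun j _ => hb0 j, fun j => ?_⟩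
  have h1 : (∏ i, b i) * c j = (∏ i ∈ Finset.univ.erase j, b i) * a j := by
    rw [← Finset.prod_erase_mul Finset.univ b (Finset.mem_univ j), ← hab j]
    ring
  rw [h1]
  exact A.mul_mem (A.prod_mem fun i _ => hbA i) (haA j)

/-- Translation by `m₁` on functions. -/
def transl (m₁ : M) : Module.End ℤ (M → Ω) where
  toFun f := fun m => f (m + m₁)
  map_add' _ _ := rfl
  map_smul' _ _ := rfl

theorem transl_apply (m₁ : M) (f : M → Ω) (m : M) :
    (transl m₁ : Module.End ℤ (M → Ω)) f m = f (m + m₁) := rfl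

theorem transl_pow_apply (m₁ : M) (k : ℕ) (f : M → Ω) (m : M) :
    ((transl m₁ : Module.End ℤ (M → Ω)) ^ k) f m = f (m + k • m₁) := by
  induction k generalizing f m with
  | zero => simp
  | succ k ih => rw [pow_succ, Module.End.mul_apply, ih, transl_apply, succ_nsmul, add_assoc]

/-- No step with trivial inertia action: if `m₁` is fixed modulo a stable subgroup `M'` and
`p • m₁ ∈ M'`, then `m₁ ∈ M'`. -/
theorem mem_of_trivial_step (hp : p.Prime) (hp2 : p ≠ 2)
    (hb : BaseHyp G p A mA) (hH : OrderHyp G A mA H) (hB : IsFixedBasis G A H h)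
    (M' : AddSubgroup M) (hM' : ∀ (g : G), ∀ x ∈ M', g • x ∈ M')
    (m₁ : M) (hpm : p • m₁ ∈ M') (hg : ∀ g : G, g • m₁ - m₁ ∈ M') : m₁ ∈ M' := by
  classical
  -- the translation-invariant part of `H`
  let K : AddSubgroup (M → Ω) :=
    { carrier := {ψ | ψ ∈ H ∧ ∀ m, ∀ n ∈ M', ψ (m + n) = ψ m}
      add_mem' := fun {a b} ha hb' => ⟨H.add_mem ha.1 hb'.1, fun m n hn => by
        simp only [Pi.add_apply, ha.2 m n hn, hb'.2 m n hn]⟩
      zero_mem' := ⟨H.zero_mem, fun _ _ _ => rfl⟩
      neg_mem' := fun {a} ha => ⟨H.neg_mem ha.1, fun m n hn => by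
        simp only [Pi.neg_apply, ha.2 m n hn]⟩ }
  set τ : Module.End ℤ (M → Ω) := transl m₁ with hτdef
  set Δ : Module.End ℤ (M → Ω) := τ - 1 with hΔdef
  have hΔapp : ∀ (ψ : M → Ω) (m : M), Δ ψ m = ψ (m + m₁) - ψ m := fun ψ m => rfl
  have htf : ∀ x y : M → Ω, p • x = p • y → x = y := by
    intro x y hxy
    funext m
    have := congrFun hxy m
    simp only [Pi.smul_apply, nsmul_eq_mul] at this
    exact mul_left_cancel₀ hb.p_ne_zero this
  have hΔ : ∀ ψ ∈ K, ∃ k ∈ K, Δ ψ = p • k := by
    intro ψ hψ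
    obtain ⟨hψH, hψinv⟩ := hψ
    obtain ⟨u, huH, hu⟩ := law_left hH hB ψ hψH
    have huinv : ∀ j m', ∀ n ∈ M', u j (m' + n) = u j m' := by
      intro j m' n hn
      have := coord_zero hb hH hB (fun j => u j (m' + n) - u j m') (fun m => by
        have e1 : ∑ j, (u j (m' + n) - u j m') * h j m =
            ∑ j, h j m * u j (m' + n) - ∑ j, h j m * u j m' := by
          rw [← Finset.sum_sub_distrib]
          exact Finset.sum_congr rfl fun j _ => by ring
        rw [e1, ← hu m (m' + n), ← hu m m', ← add_assoc, hψinv (m + m') n hn, sub_self]) j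
      exact sub_eq_zero.mp this
    have hufix : ∀ j, Fixed G (u j m₁) := by
      intro j g
      rw [← hH.eqv (u j) (huH j) g m₁]
      have : g • m₁ = m₁ + (g • m₁ - m₁) := by abel
      rw [this, huinv j m₁ _ (hg g)]
    have hu0fix : ∀ j, Fixed G (u j 0) := by
      intro j g
      rw [← hH.eqv (u j) (huH j) g 0, smul_zero]
    choose w hwA hwf hw using fun j =>
      hb.unr' (hH.loc (u j) (huH j) m₁) ((hufix j).sub (hu0fix j))
    have hform : ∀ m, ψ (m + m₁) - ψ m = (p : Ω) * ∑ j, w j * h j m := by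
      intro m
      have e0 : ψ m = ∑ j, h j m * u j 0 := by
        have := hu m 0
        rwa [add_zero] at this
      rw [hu m m₁, e0, ← Finset.sum_sub_distrib, Finset.mul_sum]
      refine Finset.sum_congr rfl fun j _ => ?_
      rw [← mul_sub, hw j]
      ring
    refine ⟨fun m => ∑ j, w j * h j m, ⟨mem_of_coord hH hB w hwA hwf, ?_⟩, ?_⟩
    · intro m n hn
      apply mul_left_cancel₀ hb.p_ne_zero
      rw [← hform (m + n), ← hform m]
      have e2 : m + n + m₁ = (m + m₁) + n := by abel
      rw [e2, hψinv (m + m₁) n hn, hψinv m n hn]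
    · funext m
      rw [hΔapp, hform m]
      simp only [Pi.smul_apply, nsmul_eq_mul]
  have hτp : ∀ ψ ∈ K, ((Δ + 1) ^ p) ψ = ψ := by
    intro ψ hψ
    have : Δ + 1 = τ := sub_add_cancel τ 1
    rw [this]
    funext m
    rw [hτdef, transl_pow_apply]
    exact hψ.2 m _ hpm
  have hall := binom_step p hp hp2 htf Δ K hΔ hτp
  have hinv : ∀ ψ ∈ K, ∀ m, ψ (m + m₁) = ψ m := by
    intro ψ hψ m
    have hz : ψ (m + m₁) - ψ m = 0 := by
      apply hb.psep _ (A.sub_mem (hH.val ψ hψ.1 _) (hH.val ψ hψ.1 _))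
      intro a
      obtain ⟨k, hk, hk'⟩ := hall a ψ hψ
      refine ⟨k m, hH.val k hk.1 m, ?_⟩
      have := congrFun hk' m
      rw [hΔapp] at this
      rw [this]
      simp only [Pi.smul_apply, nsmul_eq_mul, Nat.cast_pow]
    exact sub_eq_zero.mp hz
  -- a multiple of the indicator function of `M'` lies in `K`
  set f₀ : M → Ω := fun m => if m ∈ M' then 1 else 0 with hf₀
  have hf₀eqv : ∀ (g : G) (m : M), f₀ (g • m) = g • f₀ m := by
    intro g m
    have hiff : g • m ∈ M' ↔ m ∈ M' :=
      ⟨fun hgm => by simpa using hM' g⁻¹ _ hgm, fun hm => hM' g m hm⟩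
    simp only [hf₀, hiff]
    split_ifs
    · rw [smul_one]
    · rw [smul_zero]
  obtain ⟨c, hc⟩ := exists_coord hH hB f₀
  have hcfix := coord_fixed_of_eqv hb hH hB f₀ hf₀eqv c hc
  obtain ⟨d, hdA, hdfix, hd0, hdc⟩ := exists_denominator hb c hcfix
  have e : ∀ m, ∑ j, (d * c j) * h j m = d * f₀ m := by
    intro m
    rw [hc m, Finset.mul_sum]
    exact Finset.sum_congr rfl fun j _ => by ring
  have hψ₀ : (fun m => ∑ j, (d * c j) * h j m) ∈ K := by
    refine ⟨mem_of_coord hH hB (fun j => d * c j) hdc (fun j => hdfix.mul (hcfix j)), ?_⟩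
    intro m n hn
    show ∑ j, (d * c j) * h j (m + n) = ∑ j, (d * c j) * h j m
    rw [e, e]
    have : m + n ∈ M' ↔ m ∈ M' :=
      ⟨fun hmn => by simpa using M'.sub_mem hmn hn, fun hm => M'.add_mem hm hn⟩
    simp only [hf₀, this]
  have hfin := hinv _ hψ₀ 0
  have hfin' : ∑ j, (d * c j) * h j (0 + m₁) = ∑ j, (d * c j) * h j 0 := hfin
  rw [e, e, zero_add] at hfin'
  have h1 : f₀ m₁ = f₀ 0 := mul_left_cancel₀ hd0 hfin'
  simp only [hf₀, M'.zero_mem, if_true] at h1
  by_contra hm₁
  rw [if_neg hm₁] at h1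
  exact zero_ne_one h1

end Step

section Char

variable {Ω : Type*} [Field Ω] {G : Type*} [Group G] [MulSemiringAction G Ω]
  {M : Type*} [AddCommGroup M] [Finite M] [DistribMulAction G M]
  {p : ℕ} {A : Subring Ω} {mA : AddSubgroup Ω} {H : Subring (M → Ω)}
  {ι : Type*} [Fintype ι] {h : ι → M → Ω}

/-- Multiplicative characters of `M`, as functions. -/
def IsChar (χ : M → Ω) : Prop := χ 0 = 1 ∧ ∀ m m', χ (m + m') = χ m * χ m'

theorem IsChar.mul_neg {χ : M → Ω} (hχ : IsChar χ) (m : M) : χ m * χ (-m) = 1 := by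
  rw [← hχ.2, add_neg_cancel, hχ.1]

theorem IsChar.ne_zero {χ : M → Ω} (hχ : IsChar χ) (m : M) : χ m ≠ 0 := by
  intro h0
  have := hχ.mul_neg m
  rw [h0, zero_mul] at this
  exact zero_ne_one this

theorem IsChar.nsmul {χ : M → Ω} (hχ : IsChar χ) (k : ℕ) (m : M) : χ (k • m) = χ m ^ k := by
  induction k with
  | zero => rw [zero_smul, pow_zero, hχ.1]
  | succ k ih => rw [succ_nsmul, hχ.2, ih, pow_succ]

theorem IsChar.pow {χ : M → Ω} (hχ : IsChar χ) (k : ℕ) : IsChar fun m => χ m ^ k :=
  ⟨by simp only [hχ.1, one_pow], fun m m' => by simp only [hχ.2, mul_pow]⟩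

theorem IsChar.inv {χ : M → Ω} (hχ : IsChar χ) : IsChar fun m => χ (-m) :=
  ⟨by simp only [neg_zero, hχ.1], fun m m' => by simp only [neg_add, hχ.2]⟩

theorem IsChar.mul {χ χ' : M → Ω} (hχ : IsChar χ) (hχ' : IsChar χ') :
    IsChar fun m => χ m * χ' m :=
  ⟨by simp only [hχ.1, hχ'.1, mul_one], fun m m' => by simp only [hχ.2, hχ'.2]; ring⟩

theorem IsChar.conj {χ : M → Ω} (hχ : IsChar χ) (s : G) : IsChar fun m => s • χ (s⁻¹ • m) :=
  ⟨by simp only [smul_zero, hχ.1, smul_one], fun m m' => by
    simp only [smul_add, hχ.2, smul_mul']⟩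

/-- The coordinates of a character are integral. -/
theorem char_coord_mem (hb : BaseHyp G p A mA) (hH : OrderHyp G A mA H)
    (hB : IsFixedBasis G A H h) (χ : M → Ω) (hχ : IsChar χ) (x : ι → Ω)
    (hx : ∀ m, χ m = ∑ j, x j * h j m) : ∀ l, x l ∈ A := by
  classical
  choose Γ hΓA hΓ using fun k => law_both hH hB (h k) (hB.mem k)
  have hrel : ∀ j l, ∑ k, x k * Γ k j l = x j * x l := by
    intro j l
    have := coord_zero₂ hb hH hB (fun j l => ∑ k, x k * Γ k j l - x j * x l) (fun m m' => by
      have e1 : ∑ j, ∑ l, (∑ k, x k * Γ k j l - x j * x l) * (h j m * h l m') =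
          χ (m + m') - χ m * χ m' := by
        have e2 : χ (m + m') = ∑ j, ∑ l, (∑ k, x k * Γ k j l) * (h j m * h l m') := by
          rw [hx (m + m')]
          have e3 : ∀ k, x k * h k (m + m') = ∑ j, ∑ l, x k * Γ k j l * (h j m * h l m') := by
            intro k
            rw [hΓ k m m', Finset.mul_sum]
            refine Finset.sum_congr rfl fun j _ => ?_
            rw [Finset.mul_sum]
            exact Finset.sum_congr rfl fun l _ => by ring
          simp_rw [e3]
          rw [Finset.sum_comm]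
          refine Finset.sum_congr rfl fun j _ => ?_
          rw [Finset.sum_comm]
          refine Finset.sum_congr rfl fun l _ => ?_
          rw [Finset.sum_mul]
        have e4 : χ m * χ m' = ∑ j, ∑ l, (x j * x l) * (h j m * h l m') := by
          rw [hx m, hx m', Finset.sum_mul_sum]
          refine Finset.sum_congr rfl fun j _ => ?_
          exact Finset.sum_congr rfl fun l _ => by ring
        rw [e2, e4, ← Finset.sum_sub_distrib]
        refine Finset.sum_congr rfl fun j _ => ?_
        rw [← Finset.sum_sub_distrib]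
        exact Finset.sum_congr rfl fun l _ => by ring
      rw [e1, hχ.2, sub_self]) j l
    exact sub_eq_zero.mp this
  intro l
  -- `x l` is an eigenvalue of an integral matrix
  set B : Matrix ι ι Ω := fun j k => Γ k j l with hBdef
  have hxne : x ≠ 0 := by
    intro hx0
    have := hx 0
    rw [hχ.1] at this
    simp only [hx0, Pi.zero_apply, zero_mul, Finset.sum_const_zero] at this
    exact one_ne_zero this
  have hmv : (Matrix.scalar ι (x l) - B).mulVec x = 0 := by
    funext j
    rw [Matrix.sub_mulVec]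
    simp only [Pi.sub_apply, Pi.zero_apply]
    have e5 : (Matrix.scalar ι (x l)).mulVec x j = x l * x j := by
      simp [Matrix.scalar_apply, Matrix.mulVec, dotProduct, Matrix.diagonal_apply]
    have e6 : B.mulVec x j = x j * x l := by
      rw [← hrel j l]
      simp only [Matrix.mulVec, dotProduct, hBdef]
      exact Finset.sum_congr rfl fun k _ => by ring
    rw [e5, e6]
    ring
  have hdet : (Matrix.scalar ι (x l) - B).det = 0 :=
    Matrix.exists_mulVec_eq_zero_iff.mp ⟨x, hxne, hmv⟩
  set B' : Matrix ι ι A := fun j k => ⟨Γ k j l, hΓA k j l⟩ with hB'def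
  have hBB' : B = B'.map A.subtype := by
    ext j k
    rfl
  refine hb.intcl (x l) ⟨B.charpoly, Matrix.charpoly_monic B, fun i => ?_, ?_⟩
  · rw [hBB', Matrix.charpoly_map, Polynomial.coeff_map]
    exact (B'.charpoly.coeff i).2
  · rw [Matrix.eval_charpoly]
    exact hdet

/-- An equivariant character belongs to the order. -/
theorem char_mem_of_eqv (hb : BaseHyp G p A mA) (hH : OrderHyp G A mA H)
    (hB : IsFixedBasis G A H h) (η : M → Ω) (hη : IsChar η)
    (hηeqv : ∀ (g : G) m, η (g • m) = g • η m) : η ∈ H := by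
  obtain ⟨x, hx⟩ := exists_coord hH hB η
  have hxf := coord_fixed_of_eqv hb hH hB η hηeqv x hx
  have hxA := char_coord_mem hb hH hB η hη x hx
  have : η = fun m => ∑ j, x j * h j m := funext hx
  rw [this]
  exact mem_of_coord hH hB x hxA hxf

theorem mulLeft_pow_apply (η ψ : M → Ω) (k : ℕ) :
    ((LinearMap.mulLeft ℤ η) ^ k) ψ = η ^ k * ψ := by
  induction k generalizing ψ with
  | zero => simp
  | succ k ih => rw [pow_succ, Module.End.mul_apply, ih, LinearMap.mulLeft_apply, pow_succ, mul_assoc]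

/-- The key step: an equivariant character of order `p` of the form `s(χ)/χ` is trivial. -/
theorem char_eq_one_of_conj (hp : p.Prime) (hp2 : p ≠ 2)
    (hb : BaseHyp G p A mA) (hH : OrderHyp G A mA H) (hB : IsFixedBasis G A H h)
    (χ η : M → Ω) (hχ : IsChar χ) (hη : IsChar η) (s : G)
    (hconj : ∀ m, η m * χ m = s • χ (s⁻¹ • m))
    (hηeqv : ∀ (g : G) m, η (g • m) = g • η m) (hηp : ∀ m, η m ^ p = 1) : ∀ m, η m = 1 := by
  classical
  have hηH : η ∈ H := char_mem_of_eqv hb hH hB η hη hηeqv
  obtain ⟨x, hx⟩ := exists_coord hH hB χ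
  have hxA := char_coord_mem hb hH hB χ hχ x hx
  obtain ⟨y, hy⟩ := exists_coord hH hB (fun m => χ (-m))
  have hyA := char_coord_mem hb hH hB _ hχ.inv y hy
  choose μ hμA hμ using fun k l => mul_coord hB (h := h) (G := G) (A := A) (H := H) k l
  -- coordinates of `η - 1`
  set z : ι → Ω := fun j => ∑ k, ∑ l, (s • x k - x k) * (y l * μ k l j) with hz
  have hzm : ∀ j, z j ∈ mA := by
    intro j
    refine mA.sum_mem fun k _ => mA.sum_mem fun l _ => ?_
    rw [mul_comm]
    exact hb.mA_mul _ (A.mul_mem (hyA l) (hμA k l j)) _ (hb.inert s (x k) (hxA k))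
  have hsχ : ∀ m, s • χ (s⁻¹ • m) = ∑ k, (s • x k) * h k m := by
    intro m
    rw [hx (s⁻¹ • m), Finset.smul_sum]
    refine Finset.sum_congr rfl fun k _ => ?_
    rw [smul_mul', ← hH.eqv (h k) (hB.mem k) s (s⁻¹ • m), smul_inv_smul]
  have hη1 : ∀ m, η m - 1 = ∑ j, z j * h j m := by
    intro m
    have e1 : η m - 1 = (s • χ (s⁻¹ • m) - χ m) * χ (-m) := by
      have e2 : η m = s • χ (s⁻¹ • m) * χ (-m) := by
        rw [← hconj m, mul_assoc, hχ.mul_neg, mul_one]
      rw [e2, sub_mul, hχ.mul_neg]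
    rw [e1, hsχ m, hx m, ← Finset.sum_sub_distrib, hy m, Finset.sum_mul_sum]
    have e3 : ∀ k l, ((s • x k) * h k m - x k * h k m) * (y l * h l m) =
        ∑ j, ((s • x k - x k) * (y l * μ k l j)) * h j m := by
      intro k l
      have : ((s • x k) * h k m - x k * h k m) * (y l * h l m) =
          (s • x k - x k) * y l * (h k m * h l m) := by ring
      rw [this, hμ k l m, Finset.mul_sum]
      exact Finset.sum_congr rfl fun j _ => by ring
    calc ∑ k, ∑ l, ((s • x k) * h k m - x k * h k m) * (y l * h l m)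
        = ∑ k, ∑ l, ∑ j, ((s • x k - x k) * (y l * μ k l j)) * h j m :=
          Finset.sum_congr rfl fun k _ => Finset.sum_congr rfl fun l _ => e3 k l
      _ = ∑ k, ∑ j, ∑ l, ((s • x k - x k) * (y l * μ k l j)) * h j m :=
          Finset.sum_congr rfl fun k _ => Finset.sum_comm
      _ = ∑ j, ∑ k, ∑ l, ((s • x k - x k) * (y l * μ k l j)) * h j m := Finset.sum_comm
      _ = ∑ j, z j * h j m := by
          refine Finset.sum_congr rfl fun j _ => ?_
          simp only [hz]
          rw [Finset.sum_mul]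
          exact Finset.sum_congr rfl fun k _ => by rw [Finset.sum_mul]
  have hη1H : (fun m => η m - 1) ∈ H := by
    have : (fun m => η m - 1) = η - 1 := rfl
    rw [this]
    exact H.sub_mem hηH H.one_mem
  have hzAf := coord_mem_of_mem hb hH hB _ hη1H z hη1
  choose w hwA hwf hw using fun j => hb.unr' (hzm j) (hzAf j).2
  set h₁ : M → Ω := fun m => ∑ j, w j * h j m with hh₁
  have hh₁H : h₁ ∈ H := mem_of_coord hH hB w hwA hwf
  have hη1' : ∀ m, η m - 1 = (p : Ω) * h₁ m := by
    intro m
    rw [hη1 m, hh₁, Finset.mul_sum]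
    refine Finset.sum_congr rfl fun j _ => ?_
    rw [hw j]
    ring
  -- the binomial estimate in the ring `H`
  have htf : ∀ x y : M → Ω, p • x = p • y → x = y := by
    intro x y hxy
    funext m
    have := congrFun hxy m
    simp only [Pi.smul_apply, nsmul_eq_mul] at this
    exact mul_left_cancel₀ hb.p_ne_zero this
  set Δ : Module.End ℤ (M → Ω) := LinearMap.mulLeft ℤ (η - 1) with hΔdef
  have hΔ : ∀ ψ ∈ H.toAddSubgroup, ∃ k ∈ H.toAddSubgroup, Δ ψ = p • k := by
    intro ψ hψ
    refine ⟨h₁ * ψ, H.mul_mem hh₁H hψ, ?_⟩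
    funext m
    simp only [hΔdef, LinearMap.mulLeft_apply, Pi.mul_apply, Pi.sub_apply, Pi.one_apply,
      Pi.smul_apply, nsmul_eq_mul]
    rw [hη1' m]
    ring
  have hτ : ∀ ψ ∈ H.toAddSubgroup, ((Δ + 1) ^ p) ψ = ψ := by
    intro ψ _
    have e : Δ + 1 = LinearMap.mulLeft ℤ η := by
      apply LinearMap.ext
      intro φ
      simp only [hΔdef, LinearMap.add_apply, LinearMap.mulLeft_apply, Module.End.one_apply]
      ring
    rw [e, mulLeft_pow_apply]
    funext m
    simp only [Pi.mul_apply, Pi.pow_apply, hηp m, one_mul]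
  have hall := binom_step p hp hp2 htf Δ H.toAddSubgroup hΔ hτ
  intro m
  have hz0 : η m - 1 = 0 := by
    apply hb.psep _ (A.sub_mem (hH.val η hηH m) A.one_mem)
    intro a
    obtain ⟨k, hk, hk'⟩ := hall a 1 H.one_mem
    refine ⟨k m, hH.val k hk m, ?_⟩
    have := congrFun hk' m
    simp only [hΔdef, LinearMap.mulLeft_apply, Pi.mul_apply, Pi.sub_apply, Pi.one_apply,
      mul_one, Pi.smul_apply, nsmul_eq_mul, Nat.cast_pow] at this
    exact this
  exact sub_eq_zero.mp hz0

end Char

section Main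

variable {Ω : Type*} [Field Ω] {G : Type*} [Group G] [MulSemiringAction G Ω]
  {M : Type*} [AddCommGroup M] [Finite M] [DistribMulAction G M]
  {p : ℕ} {A : Subring Ω} {mA : AddSubgroup Ω} {H : Subring (M → Ω)}
  {ι : Type*} [Fintype ι] {h : ι → M → Ω}

/-- **LOCAL-ORD.**  Let `H` be an order of equivariant integral functions on the finite
`p`-group `M`, closed under the addition law, all of whose points are congruent to the
origin, over an unramified base with `p` odd.  If `M` has a stable chain whose steps are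
killed by `p` and on which the group acts trivially or through the cyclotomic exponent `ε`,
then the group acts on all of `M` through `ε`. -/
theorem smul_eq_of_chain (hp : p.Prime) (hp2 : p ≠ 2)
    (hb : BaseHyp G p A mA) (hH : OrderHyp G A mA H) (hB : IsFixedBasis G A H h)
    (n : ℕ) (hMn : ∀ m : M, (p ^ n) • m = 0)
    (ε : G → ℕ) (hε : ∀ (g : G) (ζ : Ω), ζ ^ (p ^ n) = 1 → g • ζ = ζ ^ ε g)
    (hsepχ : ∀ d : M, d ≠ 0 → ∃ χ : M → Ω, IsChar χ ∧ χ d ≠ 1)
    (r : ℕ) (C : ℕ → AddSubgroup M) (hC0 : C 0 = ⊥) (hCr : C r = ⊤)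
    (hCstab : ∀ i (g : G), ∀ x ∈ C i, g • x ∈ C i)
    (hCstep : ∀ i, i < r → (∀ x ∈ C (i + 1), p • x ∈ C i) ∧
      ((∀ (g : G), ∀ x ∈ C (i + 1), g • x - x ∈ C i) ∨
       (∀ (g : G), ∀ x ∈ C (i + 1), g • x - ε g • x ∈ C i))) :
    ∀ (g : G) (m : M), g • m = ε g • m := by
  classical
  have hroot : ∀ χ : M → Ω, IsChar χ → ∀ m, χ m ^ (p ^ n) = 1 := by
    intro χ hχ m
    rw [← hχ.nsmul, hMn, hχ.1]
  -- all characters trivial on `C i` are equivariant
  have hP : ∀ k, k ≤ r → ∀ χ : M → Ω, IsChar χ → (∀ x ∈ C (r - k), χ x = 1) →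
      ∀ (g : G) (m : M), χ (g • m) = g • χ m := by
    intro k
    induction k with
    | zero =>
      intro _ χ _ hχC g m
      rw [Nat.sub_zero, hCr] at hχC
      rw [hχC _ (AddSubgroup.mem_top _), hχC _ (AddSubgroup.mem_top _), smul_one]
    | succ k ih =>
      intro hk χ hχ hχC
      have hi : r - (k + 1) < r := by omega
      have hi1 : r - (k + 1) + 1 = r - k := by omega
      have ih' := ih (by omega)
      rw [← hi1] at ih'
      set i := r - (k + 1) with hidef
      obtain ⟨hpstep, htriv | hcyc⟩ := hCstep i hi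
      · -- a trivial step is no step at all
        have hle : ∀ x ∈ C (i + 1), x ∈ C i := fun x hx =>
          mem_of_trivial_step hp hp2 hb hH hB (C i) (hCstab i) x (hpstep x hx)
            (fun g => htriv g x hx)
        exact ih' χ hχ fun x hx => hχC x (hle x hx)
      · intro s m'
        set η : M → Ω := fun m => (s • χ (s⁻¹ • m)) * χ (-m) with hηdef
        have hηchar : IsChar η := (hχ.conj s).mul hχ.inv
        have hηC : ∀ x ∈ C (i + 1), η x = 1 := by
          intro x hx
          have hy : s⁻¹ • x - ε s⁻¹ • x ∈ C i := hcyc s⁻¹ x hx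
          have e1 : s⁻¹ • x = (s⁻¹ • x - ε s⁻¹ • x) + ε s⁻¹ • x := by abel
          have e2 : χ (s⁻¹ • x) = χ x ^ ε s⁻¹ := by
            rw [e1, hχ.2, hχC _ hy, one_mul, hχ.nsmul]
          have e3 : s • (χ x ^ ε s⁻¹) = χ x := by
            have h1 : s⁻¹ • χ x = χ x ^ ε s⁻¹ := hε s⁻¹ (χ x) (hroot χ hχ x)
            rw [← h1, smul_inv_smul]
          simp only [hηdef]
          rw [e2, e3, hχ.mul_neg]
        have hηeqv : ∀ (g : G) (m : M), η (g • m) = g • η m := ih' η hηchar hηC
        have hconj : ∀ m, η m * χ m = s • χ (s⁻¹ • m) := by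
          intro m
          simp only [hηdef]
          rw [mul_assoc, mul_comm (χ (-m)), hχ.mul_neg, mul_one]
        have hQ : ∀ j, j ≤ n → ∀ m, η m ^ (p ^ (n - j)) = 1 := by
          intro j
          induction j with
          | zero =>
            intro _ m
            exact hroot η hηchar m
          | succ j ihj =>
            intro hj
            have hQj := ihj (by omega)
            have e4 : n - j = (n - (j + 1)) + 1 := by omega
            refine char_eq_one_of_conj hp hp2 hb hH hB (fun m => χ m ^ (p ^ (n - (j + 1))))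
              (fun m => η m ^ (p ^ (n - (j + 1)))) (hχ.pow _) (hηchar.pow _) s ?_ ?_ ?_
            · intro m
              show η m ^ (p ^ (n - (j + 1))) * χ m ^ (p ^ (n - (j + 1))) = _
              rw [← mul_pow, hconj m, smul_pow']
            · intro g m
              show η (g • m) ^ (p ^ (n - (j + 1))) = _
              rw [hηeqv g m, smul_pow']
            · intro m
              show (η m ^ (p ^ (n - (j + 1)))) ^ p = 1
              rw [← pow_mul, ← pow_succ, ← e4]
              exact hQj m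
        have hη1 : ∀ m, η m = 1 := by
          intro m
          have := hQ n le_rfl m
          rwa [Nat.sub_self, pow_zero, pow_one] at this
        have h2 := hconj (s • m')
        rw [hη1, one_mul, inv_smul_smul] at h2
        exact h2
  have hP0 : ∀ χ : M → Ω, IsChar χ → ∀ (g : G) (m : M), χ (g • m) = g • χ m := by
    intro χ hχ
    refine hP r le_rfl χ hχ ?_
    intro x hx
    rw [Nat.sub_self, hC0, AddSubgroup.mem_bot] at hx
    rw [hx, hχ.1]
  intro g m
  by_contra hne
  have hd : g • m - ε g • m ≠ 0 := sub_ne_zero.mpr hne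
  obtain ⟨χ, hχ, hχd⟩ := hsepχ _ hd
  apply hχd
  have e1 : χ (g • m) = χ (ε g • m) := by
    rw [hP0 χ hχ g m, hε g (χ m) (hroot χ hχ m), hχ.nsmul]
  have e2 : g • m = (g • m - ε g • m) + ε g • m := by abel
  rw [e2, hχ.2] at e1
  have e3 : χ (g • m - ε g • m) * χ (ε g • m) = 1 * χ (ε g • m) := by rw [one_mul]; exact e1
  exact mul_right_cancel₀ (hχ.ne_zero _) e3

end Main

section Wrappers

variable {Ω : Type*} [Field Ω] {G : Type*} [Group G] [MulSemiringAction G Ω]
  {M : Type*} [AddCommGroup M] [Finite M] [DistribMulAction G M]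
  {p : ℕ} {A : Subring Ω} {mA : AddSubgroup Ω} {H : Subring (M → Ω)}

/-- Characters separate the points of a finite abelian group when the field has enough roots
of unity. -/
theorem exists_char_ne_one [HasEnoughRootsOfUnity Ω (Monoid.exponent (Multiplicative M))]
    (d : M) (hd : d ≠ 0) : ∃ χ : M → Ω, IsChar χ ∧ χ d ≠ 1 := by
  obtain ⟨φ, hφ⟩ := CommGroup.exists_apply_ne_one_of_hasEnoughRootsOfUnity (Multiplicative M) Ω
    (a := Multiplicative.ofAdd d) (fun h0 => hd (by simpa using h0))
  refine ⟨fun m => ((φ (Multiplicative.ofAdd m) : Ωˣ) : Ω), ⟨?_, fun m m' => ?_⟩, ?_⟩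
  · show ((φ (Multiplicative.ofAdd (0 : M)) : Ωˣ) : Ω) = 1
    rw [ofAdd_zero, map_one, Units.val_one]
  · show ((φ (Multiplicative.ofAdd (m + m')) : Ωˣ) : Ω) = _
    rw [ofAdd_add, map_mul, Units.val_mul]
  · intro h1
    exact hφ (Units.ext h1)

/-- Same with a primitive `p ^ n`-th root of unity, `M` being killed by `p ^ n`. -/
theorem exists_char_ne_one_of_primitiveRoot {N : ℕ} [NeZero N] {ζ : Ω} (hζ : IsPrimitiveRoot ζ N)
    (hMN : ∀ m : M, N • m = 0) (d : M) (hd : d ≠ 0) : ∃ χ : M → Ω, IsChar χ ∧ χ d ≠ 1 := by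
  have : HasEnoughRootsOfUnity Ω N := ⟨⟨ζ, hζ⟩, rootsOfUnity.isCyclic Ω N⟩
  have hdvd : Monoid.exponent (Multiplicative M) ∣ N :=
    Monoid.exponent_dvd_of_forall_pow_eq_one fun g => by
      have := hMN (Multiplicative.toAdd g)
      exact congrArg Multiplicative.ofAdd this
  have : HasEnoughRootsOfUnity Ω (Monoid.exponent (Multiplicative M)) :=
    HasEnoughRootsOfUnity.of_dvd Ω hdvd
  exact exists_char_ne_one d hd

variable (G) in
/-- The ring of fixed elements of `A`. -/
def fixedSubring (A : Subring Ω) : Subring Ω where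
  carrier := {x | x ∈ A ∧ Fixed G x}
  mul_mem' ha hb := ⟨A.mul_mem ha.1 hb.1, ha.2.mul hb.2⟩
  one_mem' := ⟨A.one_mem, Fixed.one⟩
  add_mem' ha hb := ⟨A.add_mem ha.1 hb.1, ha.2.add hb.2⟩
  zero_mem' := ⟨A.zero_mem, Fixed.zero⟩
  neg_mem' ha := ⟨A.neg_mem ha.1, ha.2.neg⟩

theorem mem_fixedSubring {A : Subring Ω} {x : Ω} :
    x ∈ fixedSubring G A ↔ x ∈ A ∧ Fixed G x := Iff.rfl

/-- The order `H` as a module over the fixed ring. -/
def orderSubmodule (hH : OrderHyp G A mA H) : Submodule (fixedSubring G A) (M → Ω) where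
  carrier := H
  add_mem' ha hb := H.add_mem ha hb
  zero_mem' := H.zero_mem
  smul_mem' c φ hφ := hH.smul c.1 c.2.1 c.2.2 φ hφ

theorem mem_orderSubmodule (hH : OrderHyp G A mA H) {φ : M → Ω} :
    φ ∈ orderSubmodule hH ↔ φ ∈ H := Iff.rfl

/-- Over a principal fixed ring, a finitely generated order has a fixed basis. -/
theorem exists_fixedBasis (hH : OrderHyp G A mA H) [IsPrincipalIdealRing (fixedSubring G A)]
    (hfin : (orderSubmodule hH).FG) :
    ∃ (k : ℕ) (h : Fin k → M → Ω), IsFixedBasis G A H h := by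
  classical
  have : Module.Finite (fixedSubring G A) (orderSubmodule hH) :=
    Module.Finite.iff_fg.mpr hfin
  have : Module.Free (fixedSubring G A) (orderSubmodule hH) :=
    Module.free_of_finite_type_torsion_free'
  set b := Module.finBasis (fixedSubring G A) (orderSubmodule hH) with hbdef
  refine ⟨_, fun j => (b j : M → Ω), ⟨fun j => (b j).2, fun φ hφ => ?_, fun c hcA hcf hc => ?_⟩⟩
  · refine ⟨fun j => ((b.repr ⟨φ, hφ⟩ j : fixedSubring G A) : Ω), fun j => (b.repr ⟨φ, hφ⟩ j).2.1,
      fun j => (b.repr ⟨φ, hφ⟩ j).2.2, fun m => ?_⟩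
    have h1 := b.sum_repr ⟨φ, hφ⟩
    have h2 := congrArg (fun ψ : orderSubmodule hH => (ψ : M → Ω) m) h1
    simp only at h2
    rw [← h2, Submodule.coe_sum, Finset.sum_apply]
    rfl
  · have h1 : ∑ j, (⟨c j, hcA j, hcf j⟩ : fixedSubring G A) • b j = 0 := by
      apply Subtype.ext
      funext m
      rw [Submodule.coe_sum, Finset.sum_apply]
      exact hc m
    have h2 := Fintype.linearIndependent_iff.mp b.linearIndependent _ h1
    intro j
    exact congrArg Subtype.val (h2 j)

end Wrappers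

section Valuation

variable {Ω : Type*} [Field Ω] {G : Type*} [Group G] [MulSemiringAction G Ω]

/-- The maximal ideal of a valuation subring, as an additive subgroup of the field. -/
def nonunitsAddSubgroup (A : ValuationSubring Ω) : AddSubgroup Ω where
  carrier := {x | A.valuation x < 1}
  add_mem' ha hb := A.valuation.map_add_lt ha hb
  zero_mem' := by
    show A.valuation 0 < 1
    rw [map_zero]
    exact zero_lt_one
  neg_mem' ha := by
    show A.valuation (-_) < 1
    rw [Valuation.map_neg]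
    exact ha

theorem mem_nonunitsAddSubgroup (A : ValuationSubring Ω) (x : Ω) :
    x ∈ nonunitsAddSubgroup A ↔ A.valuation x < 1 := Iff.rfl

/-- The base hypotheses for a valuation subring: only inertia, unramifiedness and `p`-adic
separatedness have to be supplied. -/
theorem baseHyp_of_valuationSubring (A : ValuationSubring Ω) (p : ℕ) (hp0 : (p : Ω) ≠ 0)
    (hinert : ∀ (g : G), ∀ a ∈ A, A.valuation (g • a - a) < 1)
    (hunr : ∀ a : Ω, A.valuation a < 1 → Fixed G a → ∃ b ∈ A, a = (p : Ω) * b)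
    (hpsep : ∀ a ∈ A, (∀ k : ℕ, ∃ b ∈ A, a = (p : Ω) ^ k * b) → a = 0) :
    BaseHyp G p A.toSubring (nonunitsAddSubgroup A) where
  p_ne_zero := hp0
  mA_le x hx := (A.valuation_le_one_iff x).mp (le_of_lt hx)
  mA_mul a ha x hx := by
    show A.valuation (a * x) < 1
    rw [map_mul]
    have h1 : A.valuation a ≤ 1 := (A.valuation_le_one_iff a).mpr ha
    exact Right.mul_lt_one_of_le_of_lt h1 hx
  inert := hinert
  unr := hunr
  psep := hpsep
  intcl x := by
    rintro ⟨f, hmonic, hcoeff, hroot⟩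
    have hlift : f ∈ Polynomial.lifts (algebraMap A Ω) :=
      (Polynomial.lifts_iff_coeff_lifts f).mpr fun i => ⟨⟨f.coeff i, hcoeff i⟩, rfl⟩
    obtain ⟨q, hq, -, hqmonic⟩ := Polynomial.lifts_and_natDegree_eq_and_monic hlift hmonic
    have hint : IsIntegral A x :=
      ⟨q, hqmonic, by rw [Polynomial.eval₂_eq_eval_map, hq, hroot]⟩
    obtain ⟨y, hy⟩ := IsIntegrallyClosed.isIntegral_iff.mp hint
    rw [← hy]
    exact y.2
  frac c hc := by
    by_cases hcA : c ∈ A
    · exact ⟨c, hcA, 1, A.one_mem, hc, Fixed.one, one_ne_zero, mul_one c⟩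
    · have hc0 : c ≠ 0 := fun h0 => hcA (h0 ▸ A.zero_mem)
      have hinv : c⁻¹ ∈ A := (A.mem_or_inv_mem c).resolve_left hcA
      exact ⟨1, A.one_mem, c⁻¹, hinv, Fixed.one, fun g => by rw [smul_inv'', hc g],
        inv_ne_zero hc0, mul_inv_cancel₀ hc0⟩

end Valuation

section Packaged

variable {Ω : Type*} [Field Ω] {G : Type*} [Group G] [MulSemiringAction G Ω]
  {M : Type*} [AddCommGroup M] [Finite M] [DistribMulAction G M]
  {p : ℕ} {A : Subring Ω} {mA : AddSubgroup Ω} {H : Subring (M → Ω)}

/-- **LOCAL-ORD, packaged form**: the basis comes from a principal fixed ring and a finitely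
generated order, the characters from a primitive `p ^ n`-th root of unity. -/
theorem smul_eq_of_chain_of_fg (hp : p.Prime) (hp2 : p ≠ 2)
    (hb : BaseHyp G p A mA) (hH : OrderHyp G A mA H)
    [IsPrincipalIdealRing (fixedSubring G A)] (hfin : (orderSubmodule hH).FG)
    (n : ℕ) (hMn : ∀ m : M, (p ^ n) • m = 0)
    (ε : G → ℕ) (hε : ∀ (g : G) (ζ : Ω), ζ ^ (p ^ n) = 1 → g • ζ = ζ ^ ε g)
    {ζ : Ω} (hζ : IsPrimitiveRoot ζ (p ^ n))
    (r : ℕ) (C : ℕ → AddSubgroup M) (hC0 : C 0 = ⊥) (hCr : C r = ⊤)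
    (hCstab : ∀ i (g : G), ∀ x ∈ C i, g • x ∈ C i)
    (hCstep : ∀ i, i < r → (∀ x ∈ C (i + 1), p • x ∈ C i) ∧
      ((∀ (g : G), ∀ x ∈ C (i + 1), g • x - x ∈ C i) ∨
       (∀ (g : G), ∀ x ∈ C (i + 1), g • x - ε g • x ∈ C i))) :
    ∀ (g : G) (m : M), g • m = ε g • m := by
  obtain ⟨k, h, hB⟩ := exists_fixedBasis hH hfin
  have : NeZero (p ^ n) := ⟨pow_ne_zero n hp.ne_zero⟩
  exact smul_eq_of_chain hp hp2 hb hH hB n hMn ε hε
    (fun d hd => exists_char_ne_one_of_primitiveRoot hζ hMn d hd) r C hC0 hCr hCstab hCstep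

end Packaged

end Fermat.Agent.S33.helper2784
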