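/-
S33-IT, BACKUP copy (helper5660; owner copy = helper4244, board 2629; named by the ROOT owner
helper5517 in team_s33_chat #248): INTEGRALITY TRANSFER on the two `j`-charts at the Gauss pair
of level `ℓ M` (`ℓ ∤ M`, `A` a valuation subring of `ℚ̄` above `ℓ`, `W = W_ℓ`).

* `it_fin` : a function `a` in the common unit ball of the two Gauss valuations which is regular
  at every place where `j` is regular has both reductions `ρ a`, `ρ (W a)` integral over `k[j̄]`;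
* `it_inf` : the same on the chart `j⁻¹`, with `k[j̄⁻¹]`.

Route (all inputs landed): place form ⟹ integral over `ℚ̄[j^{±1}]`
(`S35.helper7984.isIntegral_adjoin_iff_forall_place`); CHARTINT at the Gauss pair
(`S35.helper2459.gp_chart_monic(_inv)` at `x = j`) gives a monic polynomial killing `a` whose
coefficients are `p_i(j^{±1})`, `p_i ∈ A[X]`; its reduction (`S35.helper2736.
gpRho_isIntegral_of_monic`) shows `ρ a` integral over `k[ρ(j^{±1})] = k[j̄^{±1}]`; applying `W` to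
the polynomial, `ρ (W a)` is integral over `k[ρ((W j)^{±1})] = k[(j̄^{±1})^ℓ] ⊆ k[j̄^{±1}]`.
-/
import Fermat.Agent.S35.helper2459_KCGauss
import Fermat.Agent.S35.helper2736_KronW
import Fermat.Agent.S35.helper7984_ChartPoints
import Fermat.Agent.S19.helper5454_ChartDiv
import Fermat.Agent.S18.helper6180_PlaceFacts

set_option autoImplicit false

open ModularCurve AlgebraicCurve Polynomial IntermediateField

noncomputable section

namespace Fermat.Agent.S33.helper5660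

open Fermat.Agent.S24.helper24 Fermat.Agent.S35 Fermat.Agent.S35.helper882

section GaussJ

variable (A : ValuationSubring Kbar) (N : ℕ)

/-- `j` is a Gauss element of the Gauss ring, at every level. -/
theorem gaussElt_jBar : helper1024.GaussElt A (gpRing A N) (jBar N) := by
  have hres := gpRing_resTranscendental A N
  refine ⟨?_, fun p hp hnon i => ?_⟩
  · rw [← ValuationSubring.valuation_le_one_iff, hres.map_eq_one]
  · have h1 := hres.coeff_le p i
    have h2 : (gpRing A N).valuation (aeval (jBar N) p) < 1 := hnon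
    rw [← gpBase_lt_one_iff A N, gpBase_apply]
    exact lt_of_le_of_lt h1 h2

/-- `j` is a unit of the Gauss ring. -/
theorem valuation_jBar : (gpRing A N).valuation (jBar N) = 1 :=
  (gpRing_resTranscendental A N).map_eq_one

end GaussJ

section IT

variable (ℓ M : ℕ) [Fact ℓ.Prime] [NeZero M] (hℓM : ¬ ℓ ∣ M) (A : ValuationSubring Kbar)

omit [Fact ℓ.Prime] [NeZero M] in
/-- `ρ j = j̄`. -/
theorem gpRho_jBar :
    gpRho A (ℓ * M) (jBar (ℓ * M)) = jqModC (IsLocalRing.ResidueField A) := by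
  have h := helper1928.gpRho_aeval_jBar ℓ M A (X : A[X])
  rwa [Polynomial.map_X, aeval_X, Polynomial.map_X, aeval_X] at h

/-- `ρ (W j) = j̄(t^ℓ)`. -/
theorem gpRho_wAL_jBar :
    gpRho A (ℓ * M) (helper1928.wAL ℓ M hℓM (jBar (ℓ * M))) =
      qExpand (IsLocalRing.ResidueField A) ℓ (jqModC (IsLocalRing.ResidueField A)) := by
  have h := helper1928.gpRho_wAL_aeval_jBar ℓ M hℓM A (X : A[X])
  rwa [Polynomial.map_X, aeval_X, Polynomial.map_X, aeval_X] at h

/-- In characteristic `ℓ`, `j̄(t^ℓ) = j̄^ℓ` (the coefficients of `j̄` lie in the prime field). -/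
theorem qExpand_jqModC_residue (hA : (ℓ : Kbar) ∈ A.nonunits) :
    qExpand (IsLocalRing.ResidueField A) ℓ (jqModC (IsLocalRing.ResidueField A)) =
      jqModC (IsLocalRing.ResidueField A) ^ ℓ := by
  have : NeZero ℓ := ⟨(Fact.out : ℓ.Prime).ne_zero⟩
  have : CharP (IsLocalRing.ResidueField A) ℓ :=
    Fermat.Agent.S18.helper508.charP_residueField ℓ A hA
  have : ExpChar (IsLocalRing.ResidueField A) ℓ := ExpChar.prime Fact.out
  have h := Fermat.Agent.Lib.helper7516.qExpand_coeffMap_frobenius ℓ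
    (jqModC (IsLocalRing.ResidueField A))
  rwa [coeffMap_jqModC] at h

omit [Fact ℓ.Prime] [NeZero M] in
/-- The reduction of the inverse of a unit of the Gauss ring. -/
theorem gpRho_inv_of_mem {u : FN (ℓ * M)} (hu : u ∈ gpRing A (ℓ * M))
    (hu' : u⁻¹ ∈ gpRing A (ℓ * M)) (hu0 : u ≠ 0) :
    gpRho A (ℓ * M) u⁻¹ = (gpRho A (ℓ * M) u)⁻¹ := by
  have h := gpRho_mul A (ℓ * M) hu hu'
  rw [mul_inv_cancel₀ hu0, gpRho_one] at h
  exact eq_inv_of_mul_eq_one_right h.symm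

/-- **Core of (IT)**: a chart coordinate `x` with `x, W x` in the Gauss ring, `ρ x = x̄`,
`ρ (W x) = x̄ ^ ℓ`; then for every `a` in both Gauss rings killed by a monic polynomial with
coefficients `p_i(x)`, `p_i ∈ A[X]`, both reductions `ρ a`, `ρ (W a)` are integral over
`k[x̄]`. -/
theorem it_core (x : FN (ℓ * M)) (xb : LaurentSeries (IsLocalRing.ResidueField A))
    (hx1 : x ∈ gpRing A (ℓ * M)) (hx2 : helper1928.wAL ℓ M hℓM x ∈ gpRing A (ℓ * M))
    (hρx : gpRho A (ℓ * M) x = xb)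
    (hρWx : gpRho A (ℓ * M) (helper1928.wAL ℓ M hℓM x) = xb ^ ℓ)
    (a : FN (ℓ * M)) (ha1 : a ∈ gpRing A (ℓ * M))
    (ha2 : helper1928.wAL ℓ M hℓM a ∈ gpRing A (ℓ * M))
    (m : (FN (ℓ * M))[X]) (hm : m.Monic)
    (hc : ∀ i, ∃ p : Kbar[X], (∀ j, p.coeff j ∈ A) ∧ m.coeff i = aeval x p)
    (hma : aeval a m = 0) :
    IsIntegral (Algebra.adjoin (IsLocalRing.ResidueField A) {xb}) (gpRho A (ℓ * M) a) ∧
      IsIntegral (Algebra.adjoin (IsLocalRing.ResidueField A) {xb})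
        (gpRho A (ℓ * M) (helper1928.wAL ℓ M hℓM a)) := by
  have i1 := helper2736.gpRho_isIntegral_of_monic A hx1 ha1 m hm hc hma
  rw [hρx] at i1
  refine ⟨i1, ?_⟩
  set Wr : FN (ℓ * M) →+* FN (ℓ * M) :=
    ((helper1928.wAL ℓ M hℓM : FN (ℓ * M) ≃ₐ[Kbar] FN (ℓ * M)) : FN (ℓ * M) →+* FN (ℓ * M))
    with hWr
  have hmW : aeval (helper1928.wAL ℓ M hℓM a) (m.map Wr) = 0 := by
    rw [coe_aeval_eq_eval, eval_map]
    have h3 := eval₂_at_apply (p := m) Wr a
    rw [coe_aeval_eq_eval] at hma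
    rw [hma, map_zero] at h3
    exact h3
  have hcW : ∀ i, ∃ p : Kbar[X], (∀ j, p.coeff j ∈ A) ∧
      (m.map Wr).coeff i = aeval (helper1928.wAL ℓ M hℓM x) p := by
    intro i
    obtain ⟨p, hp, e⟩ := hc i
    refine ⟨p, hp, ?_⟩
    rw [coeff_map, e]
    exact (aeval_algHom_apply
      ((helper1928.wAL ℓ M hℓM : FN (ℓ * M) ≃ₐ[Kbar] FN (ℓ * M)) :
        FN (ℓ * M) →ₐ[Kbar] FN (ℓ * M)) x p).symm
  have i2 := helper2736.gpRho_isIntegral_of_monic A hx2 ha2 _ (hm.map _) hcW hmW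
  rw [hρWx] at i2
  have i3 : IsIntegral (Algebra.adjoin (IsLocalRing.ResidueField A) {xb}) (xb ^ ℓ) :=
    IsIntegral.pow (isIntegral_algebraMap (R := Algebra.adjoin (IsLocalRing.ResidueField A) {xb})
      (x := ⟨xb, Algebra.self_mem_adjoin_singleton _ _⟩)) ℓ
  exact helper2736.isIntegral_adjoin_trans i3 i2

/-- `W j` is a unit of the Gauss ring. -/
theorem valuation_wAL_jBar :
    (gpRing A (ℓ * M)).valuation (helper1928.wAL ℓ M hℓM (jBar (ℓ * M))) = 1 :=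
  (helper1928.val_wAL_of_mem_adjoin ℓ M hℓM A
    (mem_adjoin_simple_self Kbar (jBar (ℓ * M)))).trans (valuation_jBar A (ℓ * M))

/-- **(IT), chart `j`** (text of team_s33_chat #248, `it_fin`). -/
theorem it_fin (hA : (ℓ : Kbar) ∈ A.nonunits) :
    ∀ a : FN (ℓ * M), (∀ i, gpVal A (ℓ * M) (helper1928.wAL ℓ M hℓM) i a ≤ 1) →
      (∀ v : Place Kbar (FN (ℓ * M)),
        Fermat.Agent.S19.helper5454.OnFin (jBar (ℓ * M)) v → v.adicValuation a ≤ 1) →
      IsIntegral (Algebra.adjoin (IsLocalRing.ResidueField A)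
          {jqModC (IsLocalRing.ResidueField A)}) (gpRho A (ℓ * M) a) ∧
        IsIntegral (Algebra.adjoin (IsLocalRing.ResidueField A)
          {jqModC (IsLocalRing.ResidueField A)})
          (gpRho A (ℓ * M) (helper1928.wAL ℓ M hℓM a)) := by
  intro a hball hpl
  have : NeZero ℓ := ⟨(Fact.out : ℓ.Prime).ne_zero⟩
  have : FiniteDimensional Kbar⟮jBar (ℓ * M)⟯ (FN (ℓ * M)) :=
    Fermat.Agent.S18.helper6180.finiteDimensional_jBar (ℓ * M)
  obtain ⟨ha1, ha2⟩ := gpVal_le_one_mem A (ℓ * M) (helper1928.wAL ℓ M hℓM) hball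
  have hint : IsIntegral (Algebra.adjoin Kbar {jBar (ℓ * M)}) a := by
    rw [helper7984.isIntegral_adjoin_iff_forall_place (jBar (ℓ * M)) (jBar (ℓ * M)) a]
    exact hpl
  have hmon : ∃ m : (FN (ℓ * M))[X], m.Monic ∧
      (∀ i, ∃ p : Kbar[X], (∀ j, p.coeff j ∈ A) ∧ m.coeff i = aeval (jBar (ℓ * M)) p) ∧
      aeval a m = 0 :=
    helper2459.gp_chart_monic ℓ M hℓM A hA (jBar (ℓ * M))
      (gaussElt_jBar A (ℓ * M)) (mem_adjoin_simple_self Kbar (jBar (ℓ * M))) a ha1 ha2 hint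
  obtain ⟨m, hm, hc, hma⟩ := hmon
  have hx1 : jBar (ℓ * M) ∈ gpRing A (ℓ * M) := (gaussElt_jBar A (ℓ * M)).1
  have hx2 : helper1928.wAL ℓ M hℓM (jBar (ℓ * M)) ∈ gpRing A (ℓ * M) := by
    rw [← ValuationSubring.valuation_le_one_iff, valuation_wAL_jBar]
  have hρx : gpRho A (ℓ * M) (jBar (ℓ * M)) = jqModC (IsLocalRing.ResidueField A) :=
    gpRho_jBar ℓ M A
  have hρWx : gpRho A (ℓ * M) (helper1928.wAL ℓ M hℓM (jBar (ℓ * M))) =
      jqModC (IsLocalRing.ResidueField A) ^ ℓ := by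
    rw [gpRho_wAL_jBar, qExpand_jqModC_residue ℓ A hA]
  exact it_core ℓ M hℓM A (jBar (ℓ * M)) (jqModC (IsLocalRing.ResidueField A)) hx1 hx2
    hρx hρWx a ha1 ha2 m hm hc hma

/-- **(IT), chart `j⁻¹`** (text of team_s33_chat #248, `it_inf`). -/
theorem it_inf (hA : (ℓ : Kbar) ∈ A.nonunits) :
    ∀ a : FN (ℓ * M), (∀ i, gpVal A (ℓ * M) (helper1928.wAL ℓ M hℓM) i a ≤ 1) →
      (∀ v : Place Kbar (FN (ℓ * M)),
        Fermat.Agent.S19.helper5454.OnInf (jBar (ℓ * M)) v → v.adicValuation a ≤ 1) →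
      IsIntegral (Algebra.adjoin (IsLocalRing.ResidueField A)
          {(jqModC (IsLocalRing.ResidueField A))⁻¹}) (gpRho A (ℓ * M) a) ∧
        IsIntegral (Algebra.adjoin (IsLocalRing.ResidueField A)
          {(jqModC (IsLocalRing.ResidueField A))⁻¹})
          (gpRho A (ℓ * M) (helper1928.wAL ℓ M hℓM a)) := by
  intro a hball hpl
  have : NeZero ℓ := ⟨(Fact.out : ℓ.Prime).ne_zero⟩
  have : FiniteDimensional Kbar⟮jBar (ℓ * M)⟯ (FN (ℓ * M)) :=
    Fermat.Agent.S18.helper6180.finiteDimensional_jBar (ℓ * M)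
  obtain ⟨ha1, ha2⟩ := gpVal_le_one_mem A (ℓ * M) (helper1928.wAL ℓ M hℓM) hball
  have hint : IsIntegral (Algebra.adjoin Kbar {(jBar (ℓ * M))⁻¹}) a := by
    rw [helper7984.isIntegral_adjoin_iff_forall_place (jBar (ℓ * M)) (jBar (ℓ * M))⁻¹ a]
    exact hpl
  have hmon : ∃ m : (FN (ℓ * M))[X], m.Monic ∧
      (∀ i, ∃ p : Kbar[X], (∀ j, p.coeff j ∈ A) ∧ m.coeff i = aeval (jBar (ℓ * M))⁻¹ p) ∧
      aeval a m = 0 :=
    helper2459.gp_chart_monic_inv ℓ M hℓM A hA (jBar (ℓ * M))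
      (gaussElt_jBar A (ℓ * M)) (mem_adjoin_simple_self Kbar (jBar (ℓ * M))) a ha1 ha2 hint
  obtain ⟨m, hm, hc, hma⟩ := hmon
  have hj0 : jBar (ℓ * M) ≠ 0 := by
    intro h0
    have h1 := valuation_jBar A (ℓ * M)
    rw [h0, map_zero] at h1
    exact zero_ne_one h1
  have hWj0 : helper1928.wAL ℓ M hℓM (jBar (ℓ * M)) ≠ 0 := by
    rw [Ne, EmbeddingLike.map_eq_zero_iff]
    exact hj0
  have hj1 : jBar (ℓ * M) ∈ gpRing A (ℓ * M) := (gaussElt_jBar A (ℓ * M)).1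
  have hWj1 : helper1928.wAL ℓ M hℓM (jBar (ℓ * M)) ∈ gpRing A (ℓ * M) := by
    rw [← ValuationSubring.valuation_le_one_iff, valuation_wAL_jBar]
  have hx1 : (jBar (ℓ * M))⁻¹ ∈ gpRing A (ℓ * M) := by
    rw [← ValuationSubring.valuation_le_one_iff, map_inv₀, valuation_jBar, inv_one]
  have hx2' : (helper1928.wAL ℓ M hℓM (jBar (ℓ * M)))⁻¹ ∈ gpRing A (ℓ * M) := by
    rw [← ValuationSubring.valuation_le_one_iff, map_inv₀, valuation_wAL_jBar, inv_one]
  have hWinv : helper1928.wAL ℓ M hℓM (jBar (ℓ * M))⁻¹ =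
      (helper1928.wAL ℓ M hℓM (jBar (ℓ * M)))⁻¹ := map_inv₀ _ _
  have hx2 : helper1928.wAL ℓ M hℓM (jBar (ℓ * M))⁻¹ ∈ gpRing A (ℓ * M) := by
    rw [hWinv]; exact hx2'
  have hρx : gpRho A (ℓ * M) (jBar (ℓ * M))⁻¹ = (jqModC (IsLocalRing.ResidueField A))⁻¹ := by
    rw [gpRho_inv_of_mem ℓ M A hj1 hx1 hj0, gpRho_jBar]
  have hρWx : gpRho A (ℓ * M) (helper1928.wAL ℓ M hℓM (jBar (ℓ * M))⁻¹) =
      (jqModC (IsLocalRing.ResidueField A))⁻¹ ^ ℓ := by
    rw [hWinv, gpRho_inv_of_mem ℓ M A hWj1 hx2' hWj0, gpRho_wAL_jBar,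
      qExpand_jqModC_residue ℓ A hA, inv_pow]
  exact it_core ℓ M hℓM A (jBar (ℓ * M))⁻¹ (jqModC (IsLocalRing.ResidueField A))⁻¹ hx1 hx2
    hρx hρWx a ha1 ha2 m hm hc hma

end IT

end Fermat.Agent.S33.helper5660
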