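/-
S33-ROOT (R4) BACKUP, closed form (helper2889).

`helper2582.StmtRoot ℓ M hℓM A (ℓ ^ m)` for `2 ∣ M`, `ℓ ∤ M`, `A` above `ℓ`, with NO hypothesis
left: `stmtRoot_of_it` (helper2889_RootJL: graph-form root closure + JLIFT + INFADMIT + RESFIELD)
fed with the compiled integrality transfer (IT) `helper5660.it_fin` / `it_inf`; and the seeds
statement `helper5683.Stmt_SeedsJ p M h` through the landed `helper2582.stmt_SeedsJ_of_root`.
-/
import Fermat.Agent.S33.helper2889_RootJL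
import Fermat.Agent.S33.helper5660_IntTransfer
import Fermat.Agent.S33.helper2582_SeedsJRoot

set_option autoImplicit false

open ModularCurve

namespace Fermat.Agent.S33.helper2889

open Fermat.Agent.S24.helper24

/-- **(R4) = (J2): `StmtRoot` at `n = ℓ ^ m`, both `j`-charts** (`2 ∣ M`). -/
theorem stmtRoot (ℓ M : ℕ) [Fact ℓ.Prime] [NeZero M] (hℓM : ¬ ℓ ∣ M)
    (A : ValuationSubring Kbar) (hA : (ℓ : Kbar) ∈ A.nonunits) (h2M : 2 ∣ M) (m : ℕ) :
    Fermat.Agent.S33.helper2582.StmtRoot ℓ M hℓM A (ℓ ^ m) :=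
  stmtRoot_of_it ℓ M hℓM A hA h2M
    (Fermat.Agent.S33.helper5660.it_fin ℓ M hℓM A hA)
    (Fermat.Agent.S33.helper5660.it_inf ℓ M hℓM A hA) m

/-- **`Stmt_SeedsJ`** (route J) for every even level `M` prime to `p`. -/
theorem stmt_SeedsJ (p M : ℕ) [NeZero p] [NeZero M] (h : Nat.Coprime p M) [Fact p.Prime]
    (hpM : ¬ p ∣ M) (h2M : 2 ∣ M) : Fermat.Agent.S33.helper5683.Stmt_SeedsJ p M h :=
  Fermat.Agent.S33.helper2582.stmt_SeedsJ_of_root p M h hpM
    (fun P hP m => stmtRoot p M hpM P hP h2M m)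

end Fermat.Agent.S33.helper2889
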