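/-
S33-ROOT (helper5517): root closure of the reduction of a two-valuation chart ring, from the
Kronecker conductor alone.  `import Mathlib` only.

Setting (abstract special fibre): `k` a perfect field of characteristic `p`, `B` a commutative
`k`-algebra (application: `B = B̄ × B̄`, pairs of functions on the two components of the fibre),
`R ≤ B` a `k`-subalgebra (the reduction of the two-valuation chart ring) containing the kernel of
a `k`-algebra map `π : B → C` onto... into a finite-dimensional reduced `k`-algebra `C`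
(application: `C = B̄ / J × B̄ / J`, `J` the radical ideal of finite codimension with `J × J ⊆ R`
given by the Kronecker conductor `S35.helper2736.kron_conductor_modular`).

* `exists_pow_eq_of_finite_reduced` : Frobenius is surjective on a finite-dimensional reduced
  algebra over a perfect field.
* `mem_of_pow_char_mem_of_algHom`, `mem_of_pow_char_pow_mem_of_algHom` : `y ^ p ^ m ∈ R → y ∈ R`.
* `mem_of_pow_char_pow_mem` : the same for an ideal `J ⊆ R`, radical, of finite codimension.
* `prod_mem_of_pow_char_pow_mem` : the product form, with the conclusion of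
  `kron_conductor_modular` as hypotheses.
* `mem_map_of_pow_char_pow_mem_map` : the form inside a bigger algebra `E` (the product of the
  two residue function fields) in which `B` is root closed.

No node count, no pairing of the branches, no place vocabulary is used.
-/
import Mathlib

set_option autoImplicit false

namespace Fermat.Agent.S33.helper5517

section Frobenius

variable {k : Type*} [Field k] [PerfectField k] {p : ℕ}

/-- **Frobenius is surjective** on a finite-dimensional reduced commutative algebra over a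
perfect field of characteristic `p`. -/
theorem exists_pow_eq_of_finite_reduced (hp : p.Prime) [CharP k p] {A : Type*} [CommRing A]
    [Algebra k A] [Module.Finite k A] [IsReduced A] (a : A) : ∃ z : A, z ^ p = a := by
  classical
  rcases subsingleton_or_nontrivial A with hA | hA
  · exact ⟨0, Subsingleton.elim _ _⟩
  have : Fact p.Prime := ⟨hp⟩
  have : CharP A p := charP_of_injective_algebraMap (algebraMap k A).injective p
  have : PerfectRing k p := PerfectField.toPerfectRing p
  have hsurj : Function.Surjective (frobenius k p) := surjective_frobenius k p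
  set n := Module.finrank k A with hn
  let b : Module.Basis (Fin n) k A := Module.finBasis k A
  -- `p`-th powers of a basis are linearly independent
  have hli : LinearIndependent k (fun i => b i ^ p) := by
    rw [Fintype.linearIndependent_iff]
    intro g hg i
    choose d hd using fun i => hsurj (g i)
    have h1 : (∑ i, d i • b i) ^ p = 0 := by
      rw [sum_pow_char]
      rw [← hg]
      refine Finset.sum_congr rfl fun j _ => ?_
      rw [smul_pow, ← hd j, frobenius_def]
    have h2 : ∑ i, d i • b i = 0 := pow_eq_zero_iff hp.ne_zero |>.mp h1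
    have h3 : d i = 0 := by
      have := Fintype.linearIndependent_iff.mp b.linearIndependent d h2 i
      exact this
    rw [← hd i, h3, frobenius_def, zero_pow hp.ne_zero]
  have hspan : Submodule.span k (Set.range fun i => b i ^ p) = ⊤ :=
    hli.span_eq_top_of_card_eq_finrank' (by rw [Fintype.card_fin])
  have ha : a ∈ Submodule.span k (Set.range fun i => b i ^ p) := by
    rw [hspan]; exact Submodule.mem_top
  obtain ⟨c, rfl⟩ := (Submodule.mem_span_range_iff_exists_fun k).mp ha
  choose d hd using fun i => hsurj (c i)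
  refine ⟨∑ i, d i • b i, ?_⟩
  rw [sum_pow_char]
  refine Finset.sum_congr rfl fun j _ => ?_
  rw [smul_pow, ← hd j, frobenius_def]

end Frobenius

section RootClosed

variable {k : Type*} [Field k] [PerfectField k] {p : ℕ}
variable {B : Type*} [CommRing B] [Algebra k B]

/-- **Root closure, one step.**  `R ≤ B` a subalgebra containing the kernel of an algebra map
`π` from `B` to a finite-dimensional reduced `k`-algebra, `k` perfect of characteristic `p`:
`y ^ p ∈ R → y ∈ R`. -/
theorem mem_of_pow_char_mem_of_algHom (hp : p.Prime) [CharP k p] (R : Subalgebra k B)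
    {C : Type*} [CommRing C] [Algebra k C] [Module.Finite k C] [IsReduced C] (π : B →ₐ[k] C)
    (hker : ∀ x : B, π x = 0 → x ∈ R) {y : B} (hy : y ^ p ∈ R) : y ∈ R := by
  classical
  rcases subsingleton_or_nontrivial C with hC | hC
  · exact hker y (Subsingleton.elim _ _)
  have : Fact p.Prime := ⟨hp⟩
  have : CharP C p := charP_of_injective_algebraMap (algebraMap k C).injective p
  -- the image of `R`
  set A' : Subalgebra k C := R.map π with hA'
  have : Module.Finite k ↥A' :=
    Module.Finite.of_injective A'.val.toLinearMap Subtype.val_injective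
  have : IsReduced ↥A' := isReduced_of_injective A'.val Subtype.val_injective
  have hmem : π y ^ p ∈ A' := Subalgebra.mem_map.mpr ⟨y ^ p, hy, map_pow π y p⟩
  obtain ⟨z, hz⟩ := exists_pow_eq_of_finite_reduced (k := k) hp (⟨π y ^ p, hmem⟩ : ↥A')
  have hz' : (z : C) ^ p = π y ^ p := by
    have h0 := congrArg Subtype.val hz
    rw [SubmonoidClass.coe_pow] at h0
    exact h0
  have h1 : ((z : C) - π y) ^ p = 0 := by
    rw [sub_pow_char, hz', sub_self]
  have h2 : (z : C) = π y := sub_eq_zero.mp (pow_eq_zero_iff hp.ne_zero |>.mp h1)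
  obtain ⟨w, hw, hwz⟩ := Subalgebra.mem_map.mp z.2
  have h3 : π (y - w) = 0 := by rw [map_sub, hwz, h2, sub_self]
  have h4 : y = (y - w) + w := by ring
  rw [h4]
  exact R.add_mem (hker _ h3) hw

/-- **Root closure.**  `y ^ p ^ m ∈ R → y ∈ R`. -/
theorem mem_of_pow_char_pow_mem_of_algHom (hp : p.Prime) [CharP k p] (R : Subalgebra k B)
    {C : Type*} [CommRing C] [Algebra k C] [Module.Finite k C] [IsReduced C] (π : B →ₐ[k] C)
    (hker : ∀ x : B, π x = 0 → x ∈ R) (m : ℕ) {y : B} (hy : y ^ p ^ m ∈ R) : y ∈ R := by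
  induction m generalizing y with
  | zero => simpa using hy
  | succ m ih =>
    apply ih
    apply mem_of_pow_char_mem_of_algHom hp R π hker
    rw [← pow_mul, ← pow_succ]
    exact hy

/-- **Root closure, ideal form.**  `R ≤ B` a subalgebra containing an ideal `J` of `B` which is
radical and of finite codimension: `y ^ p ^ m ∈ R → y ∈ R`. -/
theorem mem_of_pow_char_pow_mem (hp : p.Prime) [CharP k p] (R : Subalgebra k B) (J : Ideal B)
    (hJR : ∀ x ∈ J, x ∈ R) (hrad : J.IsRadical) [Module.Finite k (B ⧸ J)] (m : ℕ) {y : B}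
    (hy : y ^ p ^ m ∈ R) : y ∈ R := by
  have : IsReduced (B ⧸ J) := (Ideal.isRadical_iff_quotient_reduced J).mp hrad
  refine mem_of_pow_char_pow_mem_of_algHom hp R (Ideal.Quotient.mkₐ k J) (fun x hx => hJR x ?_) m hy
  rwa [Ideal.Quotient.mkₐ_eq_mk, Ideal.Quotient.eq_zero_iff_mem] at hx

end RootClosed

section Product

variable {k : Type*} [Field k] [PerfectField k] {p : ℕ}
variable {Bbar : Type*} [CommRing Bbar] [Algebra k Bbar]

/-- **Root closure of a glued ring** (the conclusion of `S35.helper2736.kron_conductor_modular`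
as hypotheses): `R ≤ B̄ × B̄` a subalgebra containing `J × J`, `J` a radical ideal of finite
codimension of `B̄`.  Then `y ^ p ^ m ∈ R → y ∈ R` for all `y : B̄ × B̄`. -/
theorem prod_mem_of_pow_char_pow_mem (hp : p.Prime) [CharP k p] (R : Subalgebra k (Bbar × Bbar))
    (J : Ideal Bbar) (hrad : J.IsRadical) [Module.Finite k (Bbar ⧸ J)]
    (hJ : ∀ a ∈ J, ∀ b ∈ J, ((a, b) : Bbar × Bbar) ∈ R) (m : ℕ) {y : Bbar × Bbar}
    (hy : y ^ p ^ m ∈ R) : y ∈ R := by
  have : IsReduced (Bbar ⧸ J) := (Ideal.isRadical_iff_quotient_reduced J).mp hrad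
  have : IsReduced ((Bbar ⧸ J) × (Bbar ⧸ J)) := by
    constructor
    rintro ⟨a, b⟩ ⟨n, hn⟩
    have h1 : a ^ n = 0 := congrArg Prod.fst hn
    have h2 : b ^ n = 0 := congrArg Prod.snd hn
    have ha : a = 0 := IsReduced.eq_zero a ⟨n, h1⟩
    have hb : b = 0 := IsReduced.eq_zero b ⟨n, h2⟩
    rw [ha, hb]
    rfl
  refine mem_of_pow_char_pow_mem_of_algHom hp R
    (AlgHom.prodMap (Ideal.Quotient.mkₐ k J) (Ideal.Quotient.mkₐ k J)) (fun x hx => ?_) m hy
  have h1 : Ideal.Quotient.mk J x.1 = 0 := congrArg Prod.fst hx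
  have h2 : Ideal.Quotient.mk J x.2 = 0 := congrArg Prod.snd hx
  rw [Ideal.Quotient.eq_zero_iff_mem] at h1 h2
  exact hJ x.1 h1 x.2 h2

/-- The same for two different factors: `R ≤ B̄₁ × B̄₂` containing `J₁ × J₂`. -/
theorem prod_mem_of_pow_char_pow_mem' {B₁ B₂ : Type*} [CommRing B₁] [CommRing B₂] [Algebra k B₁]
    [Algebra k B₂] (hp : p.Prime) [CharP k p] (R : Subalgebra k (B₁ × B₂))
    (J₁ : Ideal B₁) (J₂ : Ideal B₂) (hrad₁ : J₁.IsRadical) (hrad₂ : J₂.IsRadical)
    [Module.Finite k (B₁ ⧸ J₁)] [Module.Finite k (B₂ ⧸ J₂)]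
    (hJ : ∀ a ∈ J₁, ∀ b ∈ J₂, ((a, b) : B₁ × B₂) ∈ R) (m : ℕ) {y : B₁ × B₂}
    (hy : y ^ p ^ m ∈ R) : y ∈ R := by
  have : IsReduced (B₁ ⧸ J₁) := (Ideal.isRadical_iff_quotient_reduced J₁).mp hrad₁
  have : IsReduced (B₂ ⧸ J₂) := (Ideal.isRadical_iff_quotient_reduced J₂).mp hrad₂
  have : IsReduced ((B₁ ⧸ J₁) × (B₂ ⧸ J₂)) := by
    constructor
    rintro ⟨a, b⟩ ⟨n, hn⟩
    have h1 : a ^ n = 0 := congrArg Prod.fst hn
    have h2 : b ^ n = 0 := congrArg Prod.snd hn
    have ha : a = 0 := IsReduced.eq_zero a ⟨n, h1⟩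
    have hb : b = 0 := IsReduced.eq_zero b ⟨n, h2⟩
    rw [ha, hb]
    rfl
  refine mem_of_pow_char_pow_mem_of_algHom hp R
    (AlgHom.prodMap (Ideal.Quotient.mkₐ k J₁) (Ideal.Quotient.mkₐ k J₂)) (fun x hx => ?_) m hy
  have h1 : Ideal.Quotient.mk J₁ x.1 = 0 := congrArg Prod.fst hx
  have h2 : Ideal.Quotient.mk J₂ x.2 = 0 := congrArg Prod.snd hx
  rw [Ideal.Quotient.eq_zero_iff_mem] at h1 h2
  exact hJ x.1 h1 x.2 h2

end Product

section Ambient

variable {k : Type*} [Field k] [PerfectField k] {p : ℕ}
variable {B : Type*} [CommRing B] [Algebra k B]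

/-- **Root closure inside a bigger algebra.**  `ι : B → E` injective (application: `B = B̄ × B̄`,
`E` the product of the two residue function fields) with `B` root closed in `E`
(`e ^ n ∈ ι B → e ∈ ι B`, e.g. `B` integrally closed in `E`), and `R ≤ B` as in
`mem_of_pow_char_pow_mem_of_algHom`.  Then the image of `R` is `p ^ m`-th-root closed in `E`. -/
theorem mem_map_of_pow_char_pow_mem_map (hp : p.Prime) [CharP k p] (R : Subalgebra k B)
    {C : Type*} [CommRing C] [Algebra k C] [Module.Finite k C] [IsReduced C] (π : B →ₐ[k] C)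
    (hker : ∀ x : B, π x = 0 → x ∈ R)
    {E : Type*} [CommRing E] [Algebra k E] (ι : B →ₐ[k] E) (hι : Function.Injective ι)
    (hroot : ∀ (e : E) (n : ℕ), n ≠ 0 → (∃ b : B, ι b = e ^ n) → ∃ b : B, ι b = e)
    (m : ℕ) {e : E} (he : e ^ p ^ m ∈ R.map ι) : e ∈ R.map ι := by
  obtain ⟨r, hr, hre⟩ := Subalgebra.mem_map.mp he
  obtain ⟨y, rfl⟩ := hroot e (p ^ m) (pow_ne_zero m hp.ne_zero) ⟨r, hre⟩
  have h1 : y ^ p ^ m = r := hι (by rw [map_pow, hre])
  exact Subalgebra.mem_map.mpr
    ⟨y, mem_of_pow_char_pow_mem_of_algHom hp R π hker m (by rw [h1]; exact hr), rfl⟩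

omit [PerfectField k] in
/-- The hypothesis `hroot` of `mem_map_of_pow_char_pow_mem_map` from integral closedness:
if every element of `E` integral over `B` (through `ι`) lies in the image of `ι`, then `B` is
root closed in `E`. -/
theorem hroot_of_integrallyClosed {E : Type*} [CommRing E] [Algebra k E] (ι : B →ₐ[k] E)
    (hic : ∀ e : E, ι.toRingHom.IsIntegralElem e → ∃ b : B, ι b = e) :
    ∀ (e : E) (n : ℕ), n ≠ 0 → (∃ b : B, ι b = e ^ n) → ∃ b : B, ι b = e := by
  intro e n hn ⟨b, hb⟩
  apply hic
  refine ⟨Polynomial.X ^ n - Polynomial.C b, Polynomial.monic_X_pow_sub_C b hn, ?_⟩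
  rw [Polynomial.eval₂_sub, Polynomial.eval₂_pow, Polynomial.eval₂_X, Polynomial.eval₂_C]
  show e ^ n - ι b = 0
  rw [hb, sub_self]

end Ambient

end Fermat.Agent.S33.helper5517
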