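/-
S33-ROOT (helper5517), graph form.  Root closure of a glued ring `R ⊆ B̄ × B̄` from the two graph
memberships `(u, F u) ∈ R`, `(F u, u) ∈ R` alone (`F` the `k`-linear Frobenius of `B̄`):
`helper2736.kron_conductor_graph` + `prod_mem_of_pow_char_pow_mem`.  No stability of a lifted
chart ring under the Atkin–Lehner involution is used, so the form applies to BOTH `j`-charts
(the chart `j ≠ 0` is not `W_p`-stable on the generic fibre).

* `mem_of_pow_mem_of_graph`          : inside `B̄ × B̄`;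
* `mem_of_pow_mem_of_graph_carrier`  : inside a carrier `E × E` (`E = k((t))`), for a subring
  `T ⊆ E × E` (no containment `T ⊆ B̄ × B̄` is needed).
-/
import Fermat.Agent.S33.helper5517_RootClosed
import Fermat.Agent.S35.helper2736_KronConductor

set_option autoImplicit false

namespace Fermat.Agent.S33.helper5517

open Fermat.Agent.S35.helper2736

section Graph

variable {k : Type*} [Field k] [PerfectField k] {q : ℕ}

/-- **Root closure from the two graphs.**  `F : B̄ → B̄` a `k`-algebra endomorphism with values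
in `q`-th powers, `R ⊆ B̄ × B̄` a `k`-subalgebra containing the graph and the transposed graph of
`F`.  Then `R` is `q ^ m`-th-root closed in `B̄ × B̄`. -/
theorem mem_of_pow_mem_of_graph (hq : q.Prime) [CharP k q] {Bb : Type*} [CommRing Bb]
    [Algebra k Bb] (F : Bb →ₐ[k] Bb) [Algebra.EssFiniteType k (Bb ⧸ fixedIdeal (F.comp F))]
    (hF : ∀ u, ∃ v, F u = v ^ q) (R : Subalgebra k (Bb × Bb))
    (h₁ : ∀ u, (u, F u) ∈ R) (h₂ : ∀ u, (F u, u) ∈ R) (m : ℕ) {y : Bb × Bb}
    (hy : y ^ q ^ m ∈ R) : y ∈ R := by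
  obtain ⟨-, -, hrad, -, hfin, -, -, -, hJ⟩ := kron_conductor_graph q F F hF hF R h₁ h₂
  exact prod_mem_of_pow_char_pow_mem hq R (fixedIdeal (F.comp F)) hrad hJ m hy

/-- **Root closure from the two graphs, carrier form.**  `B̄ ⊆ E` a `k`-subalgebra, `V : E → E`
a ring endomorphism fixing the constants with `V u = v ^ q`, `v ∈ B̄`, for `u ∈ B̄`; `T ⊆ E × E`
a subring containing the diagonal constants, the graph `{(u, V u) | u ∈ B̄}` and its transpose.
Then a pair `y ∈ B̄ × B̄` with `y ^ q ^ m ∈ T` lies in `T`. -/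
theorem mem_of_pow_mem_of_graph_carrier (hq : q.Prime) [CharP k q] {E : Type*} [CommRing E]
    [Algebra k E] (Bbar : Subalgebra k E) (V : E →+* E)
    (hVk : ∀ c : k, V (algebraMap k E c) = algebraMap k E c)
    (hV : ∀ u ∈ Bbar, ∃ v ∈ Bbar, V u = v ^ q)
    (hfin : ∀ F : Bbar →ₐ[k] Bbar, (∀ u : Bbar, ((F u : Bbar) : E) = V (u : E)) →
      Algebra.EssFiniteType k (Bbar ⧸ fixedIdeal (F.comp F)))
    (T : Subring (E × E)) (hTk : ∀ c : k, (algebraMap k E c, algebraMap k E c) ∈ T)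
    (h₁ : ∀ u ∈ Bbar, (u, V u) ∈ T) (h₂ : ∀ u ∈ Bbar, (V u, u) ∈ T) (m : ℕ)
    (y : E × E) (hy1 : y.1 ∈ Bbar) (hy2 : y.2 ∈ Bbar) (hy : y ^ q ^ m ∈ T) : y ∈ T := by
  have hVmem : ∀ u ∈ Bbar, V u ∈ Bbar := by
    intro u hu
    obtain ⟨v, hv, e⟩ := hV u hu
    rw [e]
    exact pow_mem hv q
  let F : Bbar →ₐ[k] Bbar :=
    { toFun := fun u => ⟨V u, hVmem u u.2⟩
      map_one' := Subtype.ext (map_one V)
      map_mul' := fun a b => Subtype.ext (map_mul V (a : E) (b : E))
      map_zero' := Subtype.ext (map_zero V)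
      map_add' := fun a b => Subtype.ext (map_add V (a : E) (b : E))
      commutes' := fun c => Subtype.ext (hVk c) }
  have hFcoe : ∀ u : Bbar, ((F u : Bbar) : E) = V (u : E) := fun _ => rfl
  have := hfin F hFcoe
  have hF : ∀ u, ∃ v, F u = v ^ q := by
    intro u
    obtain ⟨v, hv, e⟩ := hV u u.2
    exact ⟨⟨v, hv⟩, Subtype.ext e⟩
  let R : Subalgebra k (Bbar × Bbar) :=
    { carrier := {r | ((r.1 : E), (r.2 : E)) ∈ T}
      mul_mem' := fun {a b} ha hb => T.mul_mem ha hb
      add_mem' := fun {a b} ha hb => T.add_mem ha hb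
      algebraMap_mem' := fun c => hTk c }
  have hR : ∀ r : Bbar × Bbar, r ∈ R ↔ ((r.1 : E), (r.2 : E)) ∈ T := fun _ => Iff.rfl
  have key : ((⟨y.1, hy1⟩ : Bbar), (⟨y.2, hy2⟩ : Bbar)) ∈ R := by
    refine mem_of_pow_mem_of_graph hq F hF R (fun u => ?_) (fun u => ?_) m ?_
    · exact (hR _).mpr (h₁ u u.2)
    · exact (hR _).mpr (h₂ u u.2)
    · exact (hR _).mpr hy
  exact (hR _).mp key

end Graph

end Fermat.Agent.S33.helper5517
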