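/-
S33-ROOT (R4) BACKUP, top assembly (helper2889).

`helper2582.StmtRoot ℓ M hℓM A (ℓ ^ m)` from the graph form of root closure
(`helper5517.mem_of_pow_mem_of_graph_carrier`), written from the `StmtRoot` end.  Everything is
discharged from landed files except the two supplier surfaces, which enter as hypotheses:

* (IT)  the reductions of a chart-ring element are integral over `k[j̄]` (resp. `k[j̄⁻¹]`);
* (JL)  every element `u` of the reduced chart ring has two lifts in the chart ring with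
        reductions `(u, u(t^ℓ))` and `(u(t^ℓ), u)`.
-/
import Mathlib
import Fermat.Agent.S33.helper2582_FibCountGauss
import Fermat.Agent.S33.helper5517_RootGraph
import Fermat.Agent.S35.helper1928_ResField
import Fermat.Agent.S35.helper1549_ChartFin
import Fermat.Agent.S35.helper4658_Squeeze
import Fermat.Agent.Lib.helper7516_LaurentFrob
import Fermat.Agent.Lib.helper6879_ResidueQbar
import Fermat.Agent.S37.helper6879_GaussGalois
import Fermat.Agent.S37.helper1588_FFKDegree

set_option autoImplicit false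
set_option synthInstance.maxHeartbeats 400000

open ModularCurve

noncomputable section

namespace Fermat.Agent.S33.helper2889

open Fermat.Agent.S24.helper24 Fermat.Agent.S35.helper882
open Fermat.Agent.S35 Fermat.Agent.S33.helper2582

/-! ### Generic algebra -/

section Generic

/-- Integrality over `k[x]` descends from an ambient field to an intermediate field containing
`x` and the element. -/
theorem isIntegral_of_isIntegral_coe {k E : Type*} [Field k] [Field E] [Algebra k E]
    (S : IntermediateField k E) (x u : S)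
    (h : IsIntegral (Algebra.adjoin k {(x : E)}) (u : E)) :
    IsIntegral (Algebra.adjoin k {x}) u := by
  have hmap : (Algebra.adjoin k {x}).map S.val = Algebra.adjoin k {(x : E)} := by
    rw [AlgHom.map_adjoin, Set.image_singleton]
    rfl
  let e := (Algebra.adjoin k {x}).equivMapOfInjective S.val Subtype.val_injective
  let φ : Algebra.adjoin k {(x : E)} →ₐ[k] Algebra.adjoin k {x} :=
    (e.symm : _ →ₐ[k] _).comp (Subalgebra.inclusion hmap.ge)
  have hφ : ∀ c : Algebra.adjoin k {(x : E)}, (((φ c : Algebra.adjoin k {x}) : S) : E) = c := by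
    intro c
    have h1 : e (φ c) = Subalgebra.inclusion hmap.ge c := by
      show e (e.symm (Subalgebra.inclusion hmap.ge c)) = _
      rw [AlgEquiv.apply_symm_apply]
    have h2 := congrArg (fun z : (Algebra.adjoin k {x}).map S.val => (z : E)) h1
    exact h2
  obtain ⟨p, hp, hpu⟩ := h
  refine ⟨p.map (φ : Algebra.adjoin k {(x : E)} →+* Algebra.adjoin k {x}), hp.map _, ?_⟩
  apply Subtype.val_injective
  have h3 : (S.val : S →+* E) (Polynomial.eval₂ (algebraMap (Algebra.adjoin k {x}) S) u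
      (p.map (φ : Algebra.adjoin k {(x : E)} →+* Algebra.adjoin k {x}))) =
      Polynomial.eval₂ (algebraMap (Algebra.adjoin k {(x : E)}) E) (u : E) p := by
    rw [Polynomial.eval₂_map, Polynomial.hom_eval₂]
    congr 1
    exact RingHom.ext fun c => hφ c
  exact h3.trans hpu

end Generic


/-! ### Frobenius on the reduced chart ring -/

section Frob

variable {k : Type*} [Field k]

/-- Semilinear transport of integrality: a ring endomorphism that maps constants to constants
and fixes `x` preserves integrality over `k[x]`. -/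
theorem isIntegral_adjoin_of_semilinear {S : Type*} [CommRing S] [Algebra k S]
    (Φ : S →+* S) (hk : ∀ c : k, ∃ c' : k, Φ (algebraMap k S c) = algebraMap k S c')
    {x : S} (hx : Φ x = x) {u : S} (hu : IsIntegral (Algebra.adjoin k {x}) u) :
    IsIntegral (Algebra.adjoin k {x}) (Φ u) := by
  have hmem : ∀ r : S, r ∈ Algebra.adjoin k {x} → Φ r ∈ Algebra.adjoin k {x} := by
    intro r hr
    induction hr using Algebra.adjoin_induction with
    | mem y hy =>
      rw [Set.mem_singleton_iff] at hy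
      rw [hy, hx]
      exact Algebra.subset_adjoin rfl
    | algebraMap c =>
      obtain ⟨c', hc'⟩ := hk c
      rw [hc']
      exact Subalgebra.algebraMap_mem _ _
    | add a b _ _ ha hb => rw [map_add]; exact add_mem ha hb
    | mul a b _ _ ha hb => rw [map_mul]; exact mul_mem ha hb
  let φR : Algebra.adjoin k {x} →+* Algebra.adjoin k {x} :=
    { toFun := fun r => ⟨Φ r, hmem r r.2⟩
      map_one' := Subtype.ext (map_one Φ)
      map_mul' := fun a b => Subtype.ext (map_mul Φ (a : S) (b : S))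
      map_zero' := Subtype.ext (map_zero Φ)
      map_add' := fun a b => Subtype.ext (map_add Φ (a : S) (b : S)) }
  exact hu.map_of_comp_eq φR Φ (RingHom.ext fun r => rfl)

/-- The coefficientwise ring endomorphism of `F_{k,N}` attached to a ring endomorphism of `k`. -/
def coeffHomFull (N : ℕ) (φ : k →+* k) :
    modularFunctionFieldFullC k N →+* modularFunctionFieldFullC k N where
  toFun x := ⟨coeffMap φ (x : LaurentSeries k),
    Fermat.Agent.S37.helper6879.coeffMap_mem_fullC φ N x.2⟩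
  map_one' := Subtype.ext (map_one (coeffMap φ))
  map_mul' x y := Subtype.ext (map_mul (coeffMap φ) (x : LaurentSeries k) (y : LaurentSeries k))
  map_zero' := Subtype.ext (map_zero (coeffMap φ))
  map_add' x y := Subtype.ext (map_add (coeffMap φ) (x : LaurentSeries k) (y : LaurentSeries k))

/-- (`hfrob`) the reduced chart ring `chartRingBar k N x̄` is stable under every coefficientwise
ring endomorphism fixing the chart function. -/
theorem coeffMap_mem_chartRingBar (N : ℕ) (φ : k →+* k) {xb : modularFunctionFieldFullC k N}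
    (hx : coeffMap φ (xb : LaurentSeries k) = xb) :
    ∀ u ∈ helper4658.chartRingBar k N xb, coeffMap φ u ∈ helper4658.chartRingBar k N xb := by
  intro u hu
  obtain ⟨g, hg, rfl⟩ := helper4658.mem_chartRingBar.mp hu
  refine helper4658.mem_chartRingBar.mpr ⟨coeffHomFull N φ g, ?_, rfl⟩
  refine isIntegral_adjoin_of_semilinear (coeffHomFull N φ) (fun c => ⟨φ c, Subtype.ext ?_⟩)
    (Subtype.ext hx) hg
  show coeffMap φ (algebraMap k (LaurentSeries k) c) = algebraMap k (LaurentSeries k) (φ c)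
  rw [coeffMap_algebraMap]

/-- A series of `F_k` with a positive power in the reduced chart ring lies in it. -/
theorem mem_chartRingBar_of_pow {N : ℕ} {xb : modularFunctionFieldFullC k N}
    {u : LaurentSeries k} (hu : u ∈ modularFunctionFieldFullC k N) {n : ℕ} (hn : 0 < n)
    (h : u ^ n ∈ helper4658.chartRingBar k N xb) : u ∈ helper4658.chartRingBar k N xb := by
  obtain ⟨g, hg, hgu⟩ := helper4658.mem_chartRingBar.mp h
  have h1 : (⟨u, hu⟩ : modularFunctionFieldFullC k N) ^ n = g := Subtype.ext hgu.symm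
  have h2 : IsIntegral (Algebra.adjoin k {xb}) ((⟨u, hu⟩ : modularFunctionFieldFullC k N) ^ n) := by
    rw [h1]; exact hg
  exact helper4658.mem_chartRingBar.mpr ⟨⟨u, hu⟩, IsIntegral.of_pow hn h2, rfl⟩

/-- In characteristic `ℓ` over a perfect field, `u(t^ℓ)` is the `ℓ`-th power of the series with
the inverse Frobenius applied to the coefficients. -/
theorem qExpand_eq_pow (ℓ : ℕ) [Fact ℓ.Prime] [CharP k ℓ] [PerfectField k]
    (u : LaurentSeries k) :
    qExpand k ℓ u = coeffMap ((frobeniusEquiv k ℓ).symm : k →+* k) u ^ ℓ := by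
  have h := Fermat.Agent.Lib.helper7516.qExpand_coeffMap_frobenius ℓ
    (coeffMap ((frobeniusEquiv k ℓ).symm : k →+* k) u)
  rw [coeffMap_coeffMap] at h
  have hid : (frobenius k ℓ).comp ((frobeniusEquiv k ℓ).symm : k →+* k) = RingHom.id k := by
    ext c
    show frobenius k ℓ ((frobeniusEquiv k ℓ).symm c) = c
    exact frobenius_apply_frobeniusEquiv_symm k ℓ c
  rw [hid, coeffMap_id] at h
  exact h

end Frob


/-! ### The image of a chart ring under the pair reduction -/

section Top

variable (ℓ M : ℕ) [Fact ℓ.Prime] [NeZero M] (hℓM : ¬ ℓ ∣ M) (A : ValuationSubring Kbar)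

/-- The image of a subring of the common unit ball under the pair reduction `gpRed`, as a subring
of `k((t)) × k((t))`. -/
def redImage (B : Subring (FN (ℓ * M))) (hB : B ≤ gO ℓ M hℓM A) :
    Subring (LaurentSeries (IsLocalRing.ResidueField A) ×
      LaurentSeries (IsLocalRing.ResidueField A)) where
  carrier := {y | ∃ a ∈ B, gpRed A (ℓ * M) (helper1928.wAL ℓ M hℓM) a = y}
  mul_mem' := by
    rintro y y' ⟨a, ha, rfl⟩ ⟨a', ha', rfl⟩
    exact ⟨a * a', B.mul_mem ha ha',
      (gpRedData A (ℓ * M) (helper1928.wAL ℓ M hℓM)).map_mul a a' (hB ha) (hB ha')⟩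
  one_mem' := ⟨1, B.one_mem, (gpRedData A (ℓ * M) (helper1928.wAL ℓ M hℓM)).map_one⟩
  add_mem' := by
    rintro y y' ⟨a, ha, rfl⟩ ⟨a', ha', rfl⟩
    exact ⟨a + a', B.add_mem ha ha',
      (gpRedData A (ℓ * M) (helper1928.wAL ℓ M hℓM)).map_add a a' (hB ha) (hB ha')⟩
  zero_mem' := ⟨0, B.zero_mem, (gpRedData A (ℓ * M) (helper1928.wAL ℓ M hℓM)).map_zero⟩
  neg_mem' := by
    rintro y ⟨a, ha, rfl⟩
    exact ⟨-a, B.neg_mem ha,
      (gpRedData A (ℓ * M) (helper1928.wAL ℓ M hℓM)).map_neg a (hB ha)⟩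

theorem mem_redImage {B : Subring (FN (ℓ * M))} {hB : B ≤ gO ℓ M hℓM A}
    {y : LaurentSeries (IsLocalRing.ResidueField A) × LaurentSeries (IsLocalRing.ResidueField A)} :
    y ∈ redImage ℓ M hℓM A B hB ↔
      ∃ a ∈ B, gpRed A (ℓ * M) (helper1928.wAL ℓ M hℓM) a = y := Iff.rfl

/-- **Root closure of the reduction of a chart ring** (generic chart `x̄` of the special fibre
`F_k(M)`).  `B` a subring of the common unit ball containing the constants of `A`, such that
(IT) both reductions of its elements lie in the reduced chart ring `B̄ = chartRingBar k M x̄`, and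
(JL) every `u ∈ B̄` has lifts in `B` with reductions `(u, u(t^ℓ))` and `(u(t^ℓ), u)`.  Then
`gpRed(B)` is `ℓ^m`-th-root closed inside the reduction of the ball. -/
theorem root_chart (hA : (ℓ : Kbar) ∈ A.nonunits)
    (xb : modularFunctionFieldFullC (IsLocalRing.ResidueField A) M) (hxb : xb ≠ 0)
    (hxφ : ∀ φ : IsLocalRing.ResidueField A →+* IsLocalRing.ResidueField A,
      coeffMap φ (xb : LaurentSeries (IsLocalRing.ResidueField A)) = xb)
    (hnc : ∃ u₀ ∈ helper4658.chartRingBar (IsLocalRing.ResidueField A) M xb,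
      ∃ n : ℤ, n ≠ 0 ∧ u₀.coeff n ≠ 0)
    (B : Subring (FN (ℓ * M))) (hB : B ≤ gO ℓ M hℓM A)
    (hBk : ∀ c : Kbar, c ∈ A → algebraMap Kbar (FN (ℓ * M)) c ∈ B)
    (hIT : ∀ a ∈ B,
      gpRho A (ℓ * M) a ∈ helper4658.chartRingBar (IsLocalRing.ResidueField A) M xb ∧
      gpRho A (ℓ * M) (helper1928.wAL ℓ M hℓM a) ∈
        helper4658.chartRingBar (IsLocalRing.ResidueField A) M xb)
    (h₁ : ∀ u ∈ helper4658.chartRingBar (IsLocalRing.ResidueField A) M xb, ∃ a ∈ B,
      gpRed A (ℓ * M) (helper1928.wAL ℓ M hℓM) a =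
        (u, qExpand (IsLocalRing.ResidueField A) ℓ u))
    (h₂ : ∀ u ∈ helper4658.chartRingBar (IsLocalRing.ResidueField A) M xb, ∃ a ∈ B,
      gpRed A (ℓ * M) (helper1928.wAL ℓ M hℓM) a =
        (qExpand (IsLocalRing.ResidueField A) ℓ u, u))
    (m : ℕ) (x : FN (ℓ * M))
    (h : ∃ a ∈ B, gpRed A (ℓ * M) (helper1928.wAL ℓ M hℓM) x ^ ℓ ^ m =
      gpRed A (ℓ * M) (helper1928.wAL ℓ M hℓM) a) :
    ∃ a ∈ B, gpRed A (ℓ * M) (helper1928.wAL ℓ M hℓM) x =
      gpRed A (ℓ * M) (helper1928.wAL ℓ M hℓM) a := by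
  have hℓ : ℓ.Prime := Fact.out
  have : CharP (IsLocalRing.ResidueField A) ℓ :=
    Fermat.Agent.S18.helper508.charP_residueField ℓ A hA
  have : IsAlgClosed (IsLocalRing.ResidueField A) :=
    Fermat.Agent.Lib.helper6879.isAlgClosed_residueField A
  obtain ⟨u₀, hu₀, n, hn, hcoeff⟩ := hnc
  obtain ⟨a, ha, hxa⟩ := h
  have hpos : 0 < ℓ ^ m := pos_of_ne_zero (pow_ne_zero m hℓ.ne_zero)
  -- the pair `y = gpRed x` has both components in the reduced chart ring
  have hy1 : (gpRed A (ℓ * M) (helper1928.wAL ℓ M hℓM) x).1 ∈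
      helper4658.chartRingBar (IsLocalRing.ResidueField A) M xb := by
    refine mem_chartRingBar_of_pow (helper1928.gpRho_mem_fullC ℓ M hℓM A hA x) hpos ?_
    have e : gpRho A (ℓ * M) x ^ ℓ ^ m = gpRho A (ℓ * M) a := congrArg Prod.fst hxa
    rw [gpRed_fst, e]
    exact (hIT a ha).1
  have hy2 : (gpRed A (ℓ * M) (helper1928.wAL ℓ M hℓM) x).2 ∈
      helper4658.chartRingBar (IsLocalRing.ResidueField A) M xb := by
    refine mem_chartRingBar_of_pow (helper1928.gpRho_mem_fullC ℓ M hℓM A hA _) hpos ?_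
    have e : gpRho A (ℓ * M) (helper1928.wAL ℓ M hℓM x) ^ ℓ ^ m =
        gpRho A (ℓ * M) (helper1928.wAL ℓ M hℓM a) := congrArg Prod.snd hxa
    rw [gpRed_snd, e]
    exact (hIT a ha).2
  have key := Fermat.Agent.S33.helper5517.mem_of_pow_mem_of_graph_carrier (q := ℓ) hℓ
    (helper4658.chartRingBar (IsLocalRing.ResidueField A) M xb)
    (qExpand (IsLocalRing.ResidueField A) ℓ)
    (fun c => (qExpandAlgHomC (IsLocalRing.ResidueField A) ℓ).commutes c)
    (fun u hu => ⟨coeffMap ((frobeniusEquiv (IsLocalRing.ResidueField A) ℓ).symm :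
        IsLocalRing.ResidueField A →+* IsLocalRing.ResidueField A) u,
      coeffMap_mem_chartRingBar M _ (hxφ _) u hu, qExpand_eq_pow ℓ u⟩)
    (helper1549.essFiniteType_fixedIdeal_residue M hℓ hℓM A hA hxb
      (helper4658.chartRingBar (IsLocalRing.ResidueField A) M xb)
      (fun u hu => by
        obtain ⟨g, hg, hgu⟩ := helper4658.mem_chartRingBar.mp hu
        exact ⟨g, hgu, hg⟩) hu₀ hn hcoeff)
    (redImage ℓ M hℓM A B hB)
    (fun c => by
      obtain ⟨c', rfl⟩ := IsLocalRing.residue_surjective c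
      refine ⟨algebraMap Kbar (FN (ℓ * M)) (c' : Kbar), hBk _ c'.2, Prod.ext ?_ ?_⟩
      · exact gpRho_algebraMap A (ℓ * M) c'.2
      · show gpRho A (ℓ * M) (helper1928.wAL ℓ M hℓM (algebraMap Kbar (FN (ℓ * M)) (c' : Kbar))) = _
        rw [AlgEquiv.commutes]
        exact gpRho_algebraMap A (ℓ * M) c'.2)
    h₁ h₂ m (gpRed A (ℓ * M) (helper1928.wAL ℓ M hℓM) x) hy1 hy2 ⟨a, ha, hxa.symm⟩
  obtain ⟨b, hb, hbx⟩ := key
  exact ⟨b, hb, hbx.symm⟩

end Top


/-! ### The two `j`-charts: `StmtRoot` from (IT) and (JL) -/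

section Inst

open AlgebraicCurve

/-- A non-constant Laurent series has a non-constant inverse. -/
theorem exists_coeff_ne_zero_inv {k : Type*} [Field k] (u : LaurentSeries k)
    (hu : ∃ n : ℤ, n ≠ 0 ∧ u.coeff n ≠ 0) : ∃ n : ℤ, n ≠ 0 ∧ (u⁻¹).coeff n ≠ 0 := by
  by_contra hcon
  push Not at hcon
  have h1 : u⁻¹ = HahnSeries.C ((u⁻¹).coeff 0) := by
    ext n
    by_cases hn : n = 0
    · subst hn
      rw [HahnSeries.C_apply, HahnSeries.coeff_single_same]
    · rw [hcon n hn, HahnSeries.C_apply, HahnSeries.coeff_single_of_ne hn]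
  have h2 : u = HahnSeries.C ((u⁻¹).coeff 0)⁻¹ := by
    rw [map_inv₀, ← h1, inv_inv]
  obtain ⟨n, hn, hne⟩ := hu
  apply hne
  rw [h2, HahnSeries.C_apply, HahnSeries.coeff_single_of_ne hn]

variable (ℓ M : ℕ) [Fact ℓ.Prime] [NeZero M] (hℓM : ¬ ℓ ∣ M) (A : ValuationSubring Kbar)

/-- **(IT), chart `j ≠ ∞`** (text of the ROOT owner, team_s33_chat #248): both reductions of an
element of the ball regular on the chart are integral over `k[j̄]`. -/
def StmtITFin : Prop :=
  ∀ a : FN (ℓ * M), (∀ i, gpVal A (ℓ * M) (helper1928.wAL ℓ M hℓM) i a ≤ 1) →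
    (∀ v : Place Kbar (FN (ℓ * M)),
      Fermat.Agent.S19.helper5454.OnFin (jBar (ℓ * M)) v → v.adicValuation a ≤ 1) →
    IsIntegral (Algebra.adjoin (IsLocalRing.ResidueField A)
        {jqModC (IsLocalRing.ResidueField A)}) (gpRho A (ℓ * M) a) ∧
      IsIntegral (Algebra.adjoin (IsLocalRing.ResidueField A)
        {jqModC (IsLocalRing.ResidueField A)}) (gpRho A (ℓ * M) (helper1928.wAL ℓ M hℓM a))

/-- **(IT), chart `j ≠ 0`**: the same over `k[j̄⁻¹]`. -/
def StmtITInf : Prop :=
  ∀ a : FN (ℓ * M), (∀ i, gpVal A (ℓ * M) (helper1928.wAL ℓ M hℓM) i a ≤ 1) →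
    (∀ v : Place Kbar (FN (ℓ * M)),
      Fermat.Agent.S19.helper5454.OnInf (jBar (ℓ * M)) v → v.adicValuation a ≤ 1) →
    IsIntegral (Algebra.adjoin (IsLocalRing.ResidueField A)
        {(jqModC (IsLocalRing.ResidueField A))⁻¹}) (gpRho A (ℓ * M) a) ∧
      IsIntegral (Algebra.adjoin (IsLocalRing.ResidueField A)
        {(jqModC (IsLocalRing.ResidueField A))⁻¹}) (gpRho A (ℓ * M) (helper1928.wAL ℓ M hℓM a))

/-- **(JL), chart `j ≠ ∞`**: every element `g` of `F_k(M)` integral over `k[j̄]` has two lifts in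
the chart ring `gB0`, with pair reductions `(g, g(t^ℓ))` and `(g(t^ℓ), g)`. -/
def StmtJLFin : Prop :=
  ∀ g : modularFunctionFieldFullC (IsLocalRing.ResidueField A) M,
    IsIntegral (Algebra.adjoin (IsLocalRing.ResidueField A)
      {Fermat.Agent.S37.helper1588.jC (IsLocalRing.ResidueField A) M}) g →
    (∃ a ∈ gB0 ℓ M hℓM A, gpRed A (ℓ * M) (helper1928.wAL ℓ M hℓM) a =
      ((g : LaurentSeries (IsLocalRing.ResidueField A)),
        qExpand (IsLocalRing.ResidueField A) ℓ (g : LaurentSeries (IsLocalRing.ResidueField A)))) ∧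
    (∃ a ∈ gB0 ℓ M hℓM A, gpRed A (ℓ * M) (helper1928.wAL ℓ M hℓM) a =
      (qExpand (IsLocalRing.ResidueField A) ℓ (g : LaurentSeries (IsLocalRing.ResidueField A)),
        (g : LaurentSeries (IsLocalRing.ResidueField A))))

/-- **(JL), chart `j ≠ 0`**: the same for `k[j̄⁻¹]` and `gB1`. -/
def StmtJLInf : Prop :=
  ∀ g : modularFunctionFieldFullC (IsLocalRing.ResidueField A) M,
    IsIntegral (Algebra.adjoin (IsLocalRing.ResidueField A)
      {(Fermat.Agent.S37.helper1588.jC (IsLocalRing.ResidueField A) M)⁻¹}) g →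
    (∃ a ∈ gB1 ℓ M hℓM A, gpRed A (ℓ * M) (helper1928.wAL ℓ M hℓM) a =
      ((g : LaurentSeries (IsLocalRing.ResidueField A)),
        qExpand (IsLocalRing.ResidueField A) ℓ (g : LaurentSeries (IsLocalRing.ResidueField A)))) ∧
    (∃ a ∈ gB1 ℓ M hℓM A, gpRed A (ℓ * M) (helper1928.wAL ℓ M hℓM) a =
      (qExpand (IsLocalRing.ResidueField A) ℓ (g : LaurentSeries (IsLocalRing.ResidueField A)),
        (g : LaurentSeries (IsLocalRing.ResidueField A))))

/-- The constants of `A` lie in every chart ring of the ball. -/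
theorem const_mem_chartRing (c : Place Kbar (FN (ℓ * M)) → Prop) (a : Kbar) (ha : a ∈ A) :
    algebraMap Kbar (FN (ℓ * M)) a ∈
      Fermat.Agent.S19.helper5454.chartRing c (gO ℓ M hℓM A) := by
  refine Fermat.Agent.S19.helper5454.algebraMap_mem_chartRing ?_
  intro i
  rw [gpVal_algebraMap]
  exact (gpBase_le_one_iff A (ℓ * M) a).mpr ha

/-- Membership in the reduced chart ring from integrality in `k((t))` and RESFIELD. -/
theorem mem_chartRingBar_of_isIntegral {k : Type*} [Field k] {N : ℕ}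
    (xb : modularFunctionFieldFullC k N) {u : LaurentSeries k}
    (hu : u ∈ modularFunctionFieldFullC k N)
    (h : IsIntegral (Algebra.adjoin k {(xb : LaurentSeries k)}) u) :
    u ∈ helper4658.chartRingBar k N xb :=
  helper4658.mem_chartRingBar.mpr
    ⟨⟨u, hu⟩, isIntegral_of_isIntegral_coe (modularFunctionFieldFullC k N) xb ⟨u, hu⟩ h, rfl⟩

/-- **(R4), assembled from the `StmtRoot` end.**  `StmtRoot ℓ M hℓM A (ℓ ^ m)` from the two
supplier surfaces (IT) and (JL) on the two `j`-charts. -/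
theorem stmtRoot_of_it_jl (hA : (ℓ : Kbar) ∈ A.nonunits)
    (hitF : StmtITFin ℓ M hℓM A) (hitI : StmtITInf ℓ M hℓM A)
    (hjlF : StmtJLFin ℓ M hℓM A) (hjlI : StmtJLInf ℓ M hℓM A) (m : ℕ) :
    StmtRoot ℓ M hℓM A (ℓ ^ m) := by
  have hjne : (Fermat.Agent.S37.helper1588.jC (IsLocalRing.ResidueField A) M) ≠ 0 := by
    intro h0
    have h1 := ModularCurve.coeff_jqModC_neg_one (IsLocalRing.ResidueField A)
    have h2 : jqModC (IsLocalRing.ResidueField A) = 0 := congrArg Subtype.val h0
    rw [h2] at h1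
    exact zero_ne_one h1
  have hncF : ∃ n : ℤ, n ≠ 0 ∧ (jqModC (IsLocalRing.ResidueField A)).coeff n ≠ 0 :=
    ⟨-1, by norm_num, by
      rw [ModularCurve.coeff_jqModC_neg_one]; exact one_ne_zero⟩
  refine ⟨fun x _ h => ?_, fun x _ h => ?_⟩
  · refine root_chart ℓ M hℓM A hA (Fermat.Agent.S37.helper1588.jC (IsLocalRing.ResidueField A) M)
      hjne (fun φ => coeffMap_jqModC φ)
      ⟨_, helper4658.self_mem_chartRingBar _ M _, hncF⟩
      (gB0 ℓ M hℓM A) (Fermat.Agent.S19.helper5454.chartRing_le _ _)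
      (fun c hc => const_mem_chartRing ℓ M hℓM A _ c hc)
      (fun a ha => ?_) (fun u hu => ?_) (fun u hu => ?_) m x h
    · obtain ⟨h1, h2⟩ := hitF a ha.1 ha.2
      exact ⟨mem_chartRingBar_of_isIntegral _ (helper1928.gpRho_mem_fullC ℓ M hℓM A hA a) h1,
        mem_chartRingBar_of_isIntegral _ (helper1928.gpRho_mem_fullC ℓ M hℓM A hA _) h2⟩
    · obtain ⟨g, hg, rfl⟩ := helper4658.mem_chartRingBar.mp hu
      exact (hjlF g hg).1
    · obtain ⟨g, hg, rfl⟩ := helper4658.mem_chartRingBar.mp hu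
      exact (hjlF g hg).2
  · refine root_chart ℓ M hℓM A hA
      (Fermat.Agent.S37.helper1588.jC (IsLocalRing.ResidueField A) M)⁻¹
      (inv_ne_zero hjne) (fun φ => ?_)
      ⟨_, helper4658.self_mem_chartRingBar _ M _, exists_coeff_ne_zero_inv _ hncF⟩
      (gB1 ℓ M hℓM A) (Fermat.Agent.S19.helper5454.chartRing_le _ _)
      (fun c hc => const_mem_chartRing ℓ M hℓM A _ c hc)
      (fun a ha => ?_) (fun u hu => ?_) (fun u hu => ?_) m x h
    · show coeffMap φ (jqModC (IsLocalRing.ResidueField A))⁻¹ = (jqModC (IsLocalRing.ResidueField A))⁻¹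
      rw [map_inv₀, coeffMap_jqModC]
    · obtain ⟨h1, h2⟩ := hitI a ha.1 ha.2
      exact ⟨mem_chartRingBar_of_isIntegral _ (helper1928.gpRho_mem_fullC ℓ M hℓM A hA a) h1,
        mem_chartRingBar_of_isIntegral _ (helper1928.gpRho_mem_fullC ℓ M hℓM A hA _) h2⟩
    · obtain ⟨g, hg, rfl⟩ := helper4658.mem_chartRingBar.mp hu
      exact (hjlI g hg).1
    · obtain ⟨g, hg, rfl⟩ := helper4658.mem_chartRingBar.mp hu
      exact (hjlI g hg).2

end Inst

end Fermat.Agent.S33.helper2889
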