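/-
S33-INFADMIT, Mathlib-only core (helper6564).

* `isIntegral_coeff_zero_smul_inv` : if `a ≠ 0` is a root of `G ∈ R[X]` then `G(0) • a⁻¹` is
  integral over `R` (reverse polynomial).
* `isIntegral_mul_of_monic_of_coeff` : if `y` is a root of a monic `p ∈ F[X]` and `c`, `c * pᵢ`
  are integral over `R` for all coefficients, then `c * y` is integral over `R`.
* `exists_pow_mul_isIntegral_of_adjoin` : `f`, `f * t` integral over `K[s]` and `y` integral over
  `K[t]` imply `f ^ n * y` integral over `K[s]` for some `n`.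
* `coeff_zero_eq_zero_of_sums` : the constant terms `cₘ(0)`, `m ≤ p`, vanish when
  `∑ cₖ(X) X^(pk) = 0` and `∑ cₖ(X^p) X^k = 0` (sums over `k ≤ p + 1`).
-/
import Mathlib

set_option autoImplicit false

namespace Fermat.Agent.S33.helper6564

open Polynomial

/-- If `a ≠ 0` is a root of `G`, then `G(0) • a⁻¹` is integral over the coefficient ring. -/
theorem isIntegral_coeff_zero_smul_inv {R F : Type*} [CommRing R] [Field F] [Algebra R F]
    (G : R[X]) (a : F) (ha : a ≠ 0) (h : aeval a G = 0) : IsIntegral R (G.coeff 0 • a⁻¹) := by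
  by_cases h0 : G.coeff 0 = 0
  · rw [h0, zero_smul]; exact isIntegral_zero
  · let _ : Invertible a := invertibleOfNonzero ha
    have hrev : aeval a⁻¹ G.reverse = 0 := by
      rw [aeval_def] at h ⊢
      have := (eval₂_reverse_eq_zero_iff (algebraMap R F) a G).mpr h
      rwa [invOf_eq_inv] at this
    have key := isIntegral_leadingCoeff_smul (R := R) (p := G.reverse) (x := a⁻¹) hrev
    have hlc : G.reverse.leadingCoeff = G.coeff 0 := by
      rw [reverse_leadingCoeff, trailingCoeff,
        (natTrailingDegree_eq_zero (p := G)).mpr (Or.inr h0)]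
    rwa [hlc] at key

/-- If `y` is a root of the monic polynomial `p` over `F`, and `c` as well as all `c * pᵢ`
(`i < deg p`) are integral over `R`, then `c * y` is integral over `R`. -/
theorem isIntegral_mul_of_monic_of_coeff {R F : Type*} [CommRing R] [CommRing F] [Algebra R F]
    (p : F[X]) (hp : p.Monic) (y : F) (hy : p.eval y = 0) (c : F) (hc : IsIntegral R c)
    (hcoeff : ∀ i, i < p.natDegree → IsIntegral R (c * p.coeff i)) : IsIntegral R (c * y) := by
  classical
  rcases subsingleton_or_nontrivial F with hsub | hnt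
  · rw [Subsingleton.elim (c * y) 0]; exact isIntegral_zero
  -- the polynomial with roots scaled by `c`
  set S := integralClosure R F with hS
  have hmono : (scaleRoots p c).Monic := (monic_scaleRoots_iff c).mpr hp
  have hlift : scaleRoots p c ∈ Polynomial.lifts (algebraMap S F) := by
    rw [lifts_iff_coeff_lifts]
    intro n
    rw [coeff_scaleRoots]
    rcases lt_trichotomy n p.natDegree with hn | hn | hn
    · have h1 : p.coeff n * c ^ (p.natDegree - n) =
          (c * p.coeff n) * c ^ (p.natDegree - n - 1) := by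
        have : p.natDegree - n = (p.natDegree - n - 1) + 1 := by omega
        rw [this, pow_succ]; simp only [Nat.add_sub_cancel]; ring
      rw [h1]
      exact ⟨⟨_, (hcoeff n hn).mul (hc.pow _)⟩, rfl⟩
    · rw [hn, Nat.sub_self, pow_zero, mul_one]
      have : p.coeff p.natDegree = 1 := hp
      rw [this]
      exact ⟨1, map_one _⟩
    · rw [coeff_eq_zero_of_natDegree_lt hn, zero_mul]
      exact ⟨0, map_zero _⟩
  obtain ⟨q, hq, -, hqm⟩ := lifts_and_degree_eq_and_monic hlift hmono
  have hroot : eval₂ (algebraMap S F) (c * y) q = 0 := by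
    rw [← eval_map, hq]
    have := scaleRoots_eval₂_mul (p := p) (RingHom.id F) y c
    simp only [eval₂_id, RingHom.id_apply] at this
    rw [this, hy, mul_zero]
  have hint : IsIntegral S (c * y) := ⟨q, hqm, hroot⟩
  exact isIntegral_trans (R := R) (A := S) (c * y) hint

/-- Elements of `K[t]` become integral over `K[s]` after multiplication by a large power of `f`,
when `f` and `f * t` are integral over `K[s]`. -/
theorem exists_forall_pow_mul_isIntegral {K F : Type*} [CommRing K] [CommRing F] [Algebra K F]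
    (s t f : F) (hf : IsIntegral (Algebra.adjoin K {s}) f)
    (hft : IsIntegral (Algebra.adjoin K {s}) (f * t))
    (c : F) (hc : c ∈ Algebra.adjoin K {t}) :
    ∃ m : ℕ, ∀ n, m ≤ n → IsIntegral (Algebra.adjoin K {s}) (f ^ n * c) := by
  induction hc using Algebra.adjoin_induction with
  | mem x hx =>
    rw [Set.mem_singleton_iff] at hx
    subst hx
    refine ⟨1, fun n hn => ?_⟩
    obtain ⟨k, rfl⟩ : ∃ k, n = k + 1 := ⟨n - 1, by omega⟩
    rw [pow_succ, mul_assoc]
    exact (hf.pow k).mul hft
  | algebraMap r =>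
    refine ⟨0, fun n _ => ?_⟩
    have h1 : IsIntegral (Algebra.adjoin K {s}) (algebraMap K F r) := by
      have : algebraMap K F r =
          algebraMap (Algebra.adjoin K {s}) F (algebraMap K (Algebra.adjoin K {s}) r) := rfl
      rw [this]
      exact isIntegral_algebraMap
    exact (hf.pow n).mul h1
  | add x y _ _ hx hy =>
    obtain ⟨m1, h1⟩ := hx
    obtain ⟨m2, h2⟩ := hy
    refine ⟨max m1 m2, fun n hn => ?_⟩
    rw [mul_add]
    exact (h1 n (le_trans (le_max_left _ _) hn)).add (h2 n (le_trans (le_max_right _ _) hn))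
  | mul x y _ _ hx hy =>
    obtain ⟨m1, h1⟩ := hx
    obtain ⟨m2, h2⟩ := hy
    refine ⟨m1 + m2, fun n hn => ?_⟩
    obtain ⟨k, rfl⟩ : ∃ k, n = m1 + k := ⟨n - m1, by omega⟩
    have : f ^ (m1 + k) * (x * y) = (f ^ m1 * x) * (f ^ k * y) := by ring
    rw [this]
    exact (h1 m1 le_rfl).mul (h2 k (by omega))

/-- **Clearing lemma.** If `f` and `f * t` are integral over `K[s]` and `y` is integral over
`K[t]`, then `f ^ n * y` is integral over `K[s]` for some `n`. -/
theorem exists_pow_mul_isIntegral_of_adjoin {K F : Type*} [CommRing K] [CommRing F] [Algebra K F]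
    (s t f : F) (hf : IsIntegral (Algebra.adjoin K {s}) f)
    (hft : IsIntegral (Algebra.adjoin K {s}) (f * t))
    (y : F) (hy : IsIntegral (Algebra.adjoin K {t}) y) :
    ∃ n : ℕ, IsIntegral (Algebra.adjoin K {s}) (f ^ n * y) := by
  classical
  obtain ⟨P, hPm, hPy⟩ := hy
  set p : F[X] := P.map (algebraMap (Algebra.adjoin K {t}) F) with hp
  have hpm : p.Monic := hPm.map _
  have hpy : p.eval y = 0 := by rw [hp, eval_map]; exact hPy
  have hcoeff : ∀ i, ∃ m : ℕ, ∀ n, m ≤ n →
      IsIntegral (Algebra.adjoin K {s}) (f ^ n * p.coeff i) := by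
    intro i
    refine exists_forall_pow_mul_isIntegral s t f hf hft (p.coeff i) ?_
    rw [hp, coeff_map]
    exact (P.coeff i).2
  choose m hm using hcoeff
  set N := (Finset.range p.natDegree).sup m with hN
  refine ⟨N, isIntegral_mul_of_monic_of_coeff p hpm y hpy (f ^ N) (hf.pow N) (fun i hi => ?_)⟩
  exact hm i N (Finset.le_sup (f := m) (Finset.mem_range.mpr hi))

/-- **Constant terms from the two Kronecker relations** (no characteristic assumption): if
`∑ cₖ(X) X^(pk) = 0` and `∑ cₖ(X^p) X^k = 0` (`k ≤ p + 1`), then `cₘ(0) = 0` for all `m ≤ p`. -/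
theorem coeff_zero_eq_zero_of_sums {𝔽 : Type*} [CommRing 𝔽] (p : ℕ) (hp : 2 ≤ p) (c : ℕ → 𝔽[X])
    (hA : ∑ k ∈ Finset.range (p + 2), c k * X ^ (p * k) = 0)
    (hB : ∑ k ∈ Finset.range (p + 2), expand 𝔽 p (c k) * X ^ k = 0) :
    ∀ m, m ≤ p → (c m).coeff 0 = 0 := by
  have hp0 : 0 < p := by omega
  -- coefficient of `X ^ 1` in `A`
  have h10 : (c 0).coeff 1 = 0 := by
    have h := congrArg (fun P : 𝔽[X] => P.coeff 1) hA
    simp only [finsetSum_coeff, coeff_zero, coeff_mul_X_pow'] at h
    rw [Finset.sum_eq_single 0] at h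
    · simpa using h
    · intro k _ hk
      have : ¬ p * k ≤ 1 := by
        have : 1 ≤ k := Nat.one_le_iff_ne_zero.mpr hk
        nlinarith
      rw [if_neg this]
    · intro h0; exact absurd (Finset.mem_range.mpr (by omega)) h0
  -- coefficient of `X ^ m` in `B`
  have hBm : ∀ m, (∑ k ∈ Finset.range (p + 2),
      if k ≤ m then (if p ∣ m - k then (c k).coeff ((m - k) / p) else 0) else 0) = 0 := by
    intro m
    have h := congrArg (fun P : 𝔽[X] => P.coeff m) hB
    simp only [finsetSum_coeff, coeff_zero, coeff_mul_X_pow', coeff_expand hp0] at h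
    exact h
  intro m hm
  rcases Nat.lt_or_eq_of_le hm with hlt | rfl
  · have h := hBm m
    rw [Finset.sum_eq_single m] at h
    · simpa using h
    · intro k _ hk
      split_ifs with h1 h2
      · exfalso
        have hk' : k < m := lt_of_le_of_ne h1 hk
        have : m - k = 0 := Nat.eq_zero_of_dvd_of_lt h2 (by omega)
        omega
      · rfl
      · rfl
    · intro h0; exact absurd (Finset.mem_range.mpr (by omega)) h0
  · have h := hBm m
    rw [Finset.sum_eq_add (0 : ℕ) m (by omega)] at h
    · simp only [Nat.zero_le, if_true, Nat.sub_zero, dvd_refl, Nat.div_self hp0, le_refl,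
        Nat.sub_self, dvd_zero, Nat.zero_div] at h
      rw [h10, zero_add] at h
      exact h
    · rintro k _ ⟨hk0, hkm⟩
      split_ifs with h1 h2
      · exfalso
        have hk' : k < m := lt_of_le_of_ne h1 hkm
        have h3 : m ≤ m - k := Nat.le_of_dvd (by omega) h2
        omega
      · rfl
      · rfl
    · intro h0; exact absurd (Finset.mem_range.mpr (by omega)) h0
    · intro h0; exact absurd (Finset.mem_range.mpr (by omega)) h0

/-- Integrality over `ℤ[s]` implies integrality over `K[s]`. -/
theorem isIntegral_adjoin_of_int {K F : Type*} [CommRing K] [CommRing F] [Algebra K F] (s x : F)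
    (h : IsIntegral (Algebra.adjoin ℤ {s}) x) : IsIntegral (Algebra.adjoin K {s}) x := by
  have hle : ∀ z ∈ Algebra.adjoin ℤ {s}, z ∈ Algebra.adjoin K {s} := by
    intro z hz
    induction hz using Algebra.adjoin_induction with
    | mem z hz => exact Algebra.subset_adjoin hz
    | algebraMap r => rw [eq_intCast]; exact intCast_mem _ r
    | add a b _ _ ha hb => exact add_mem ha hb
    | mul a b _ _ ha hb => exact mul_mem ha hb
  let φ : Algebra.adjoin ℤ {s} →+* Algebra.adjoin K {s} :=
    { toFun := fun z => ⟨z.1, hle z.1 z.2⟩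
      map_one' := rfl
      map_mul' := fun _ _ => rfl
      map_zero' := rfl
      map_add' := fun _ _ => rfl }
  have := IsIntegral.map_of_comp_eq (R := Algebra.adjoin ℤ {s}) (S := F)
    (T := Algebra.adjoin K {s}) (U := F) φ (RingHom.id F) (by ext z; rfl) h
  simpa using this

/-- Transport of integrality over `K[x]` along an algebra homomorphism. -/
theorem isIntegral_adjoin_map {K F F' : Type*} [CommRing K] [CommRing F] [CommRing F']
    [Algebra K F] [Algebra K F'] (φ : F →ₐ[K] F') (x y : F)
    (h : IsIntegral (Algebra.adjoin K {x}) y) : IsIntegral (Algebra.adjoin K {φ x}) (φ y) := by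
  have hle : ∀ z ∈ Algebra.adjoin K {x}, φ z ∈ Algebra.adjoin K {φ x} := by
    intro z hz
    have h1 : φ z ∈ (Algebra.adjoin K {x}).map φ := ⟨z, hz, rfl⟩
    rwa [AlgHom.map_adjoin, Set.image_singleton] at h1
  let ψ : Algebra.adjoin K {x} →+* Algebra.adjoin K {φ x} :=
    { toFun := fun z => ⟨φ z.1, hle z.1 z.2⟩
      map_one' := Subtype.ext (map_one φ)
      map_mul' := fun _ _ => Subtype.ext (map_mul φ _ _)
      map_zero' := Subtype.ext (map_zero φ)
      map_add' := fun _ _ => Subtype.ext (map_add φ _ _) }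
  exact IsIntegral.map_of_comp_eq (R := Algebra.adjoin K {x}) (S := F)
    (T := Algebra.adjoin K {φ x}) (U := F') ψ (φ : F →+* F') (by ext z; rfl) h

/-- `1 + q * P(x)` lies in every subring containing `x`, and every ring homomorphism on that
subring killing `q` sends it to `1`. -/
theorem one_add_mul_aeval_mem {T : Type*} [CommRing T] (V : Subring T) (q : ℕ) (P : ℤ[X])
    (x : T) (hx : x ∈ V) : 1 + (q : T) * aeval x P ∈ V := by
  refine add_mem (one_mem _) (mul_mem (natCast_mem _ q) ?_)
  rw [aeval_eq_sum_range]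
  refine sum_mem (fun i _ => ?_)
  rw [zsmul_eq_mul]
  exact mul_mem (intCast_mem _ _) (pow_mem hx i)

theorem map_one_add_mul_aeval {T S : Type*} [CommRing T] [CommRing S] (V : Subring T)
    (red : V →+* S) (q : ℕ) (hq : (q : S) = 0) (P : ℤ[X]) (x : T) (hx : x ∈ V) :
    red ⟨1 + (q : T) * aeval x P, one_add_mul_aeval_mem V q P x hx⟩ = 1 := by
  have h1 : (⟨1 + (q : T) * aeval x P, one_add_mul_aeval_mem V q P x hx⟩ : V) =
      1 + (q : V) * ⟨aeval x P, by
        rw [aeval_eq_sum_range]
        refine sum_mem (fun i _ => ?_)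
        rw [zsmul_eq_mul]
        exact mul_mem (intCast_mem _ _) (pow_mem hx i)⟩ := Subtype.ext (by simp)
  rw [h1, map_add, map_one, map_mul, map_natCast, hq, zero_mul, add_zero]

/-- Valuation form: `v (1 + q * P(x) - 1) < 1` as soon as `v x ≤ 1` and `v q < 1`. -/
theorem valuation_one_add_mul_aeval_sub_one_lt {T Γ₀ : Type*} [CommRing T]
    [LinearOrderedCommGroupWithZero Γ₀] (v : Valuation T Γ₀) (q : ℕ) (hq : v (q : T) < 1)
    (P : ℤ[X]) (x : T) (hx : v x ≤ 1) : v (1 + (q : T) * aeval x P - 1) < 1 := by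
  have hP : v (aeval x P) ≤ 1 := by
    have hmem : aeval x P ∈ v.integer := by
      rw [aeval_eq_sum_range]
      refine sum_mem (fun i _ => ?_)
      rw [zsmul_eq_mul]
      exact mul_mem (intCast_mem _ _) (pow_mem (show x ∈ v.integer from hx) i)
    exact hmem
  rw [add_sub_cancel_left, map_mul]
  calc v (q : T) * v (aeval x P) ≤ v (q : T) * 1 := by gcongr
    _ = v (q : T) := mul_one _
    _ < 1 := hq

end Fermat.Agent.S33.helper6564
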