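/-
S33-INFADMIT (helper6564): the admissible multiplier for the INF `j`-chart at level `M * q`.

`kron_conductor_atkinLehner` needs `β y ∈ B` for `y` in the level-`M` chart ring.  For the chart
`{j ≠ 0}` (functions integral over `ℚ̄[j⁻¹]`) this fails: `β (j⁻¹) = j_q⁻¹` has poles where
`j_q = 0 ≠ j`.  The repair: with `Φ` the modular relation of `Lib.helper28.primeRelZ`
(`Φ(j, j_q) = 0 = Φ(j_q, j)`, monic of degree `q + 1` in the second variable),

  `f := Φ(0, j) / j^(q+1) = 1 + q * P(j⁻¹)`,  `P ∈ ℤ[X]`,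

is congruent to `1` modulo `q` and `f * j_q⁻¹` is integral over `ℤ[j⁻¹]`.
-/
import Fermat.Agent.S33.helper6564_InfCore
import Fermat.Agent.Lib.helper28_IgusaModular
import Fermat.Agent.S24.helper24_Spec
import Fermat.Agent.S37.helper6826_KroneckerSeries
import Fermat.Agent.S28.helper3292_JqFacts
import Fermat.Prelude.Def_ModularCurve_HeckeOperator

set_option autoImplicit false

open Polynomial ModularCurve

namespace Fermat.Agent.S33.helper6564

open Fermat.Agent.S24.helper24 Fermat.Agent.S28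

/-- **Kronecker, constant terms.** For a relation `Φ` as in `PrimeRelZ p`, the constant terms
(in `J`) of the coefficients of `Y^m`, `m ≤ p`, are divisible by `p`:
`Φ(0, Y) ≡ Y^(p+1) mod p`. -/
theorem dvd_coeff_zero_of_primeRel (p : ℕ) [NeZero p] (hp : p.Prime)
    (Φ : Polynomial (Polynomial ℤ)) (hdeg : Φ.natDegree = p + 1)
    (h1 : (Φ.map (helper328.evalJ (jqModC ℤ))).eval (qExpand ℤ p (jqModC ℤ)) = 0)
    (h2 : (Φ.map (helper328.evalJ (qExpand ℤ p (jqModC ℤ)))).eval (jqModC ℤ) = 0) :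
    ∀ m, m ≤ p → (p : ℤ) ∣ (Φ.coeff m).coeff 0 := by
  classical
  have : Fact p.Prime := ⟨hp⟩
  have hgj : coeffMap (Int.castRingHom (ZMod p)) (jqModC ℤ) = jqModC (ZMod p) :=
    coeffMap_jqModC _
  have hgV : coeffMap (Int.castRingHom (ZMod p)) (qExpand ℤ p (jqModC ℤ)) =
      jqModC (ZMod p) ^ p := by
    rw [Fermat.Agent.Lib.helper28.castZ_qExpand (ZMod p) p,
      Fermat.Agent.S37.helper6826.laurent_pow_char (ZMod p) p (jqModC (ZMod p)),
      coeffMap_jqModC]
  have r1 := congrArg (coeffMap (Int.castRingHom (ZMod p))) h1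
  rw [map_zero, helper1595.map_eval_evalJ, hgj, hgV] at r1
  have r2 := congrArg (coeffMap (Int.castRingHom (ZMod p))) h2
  rw [map_zero, helper1595.map_eval_evalJ, hgj, hgV] at r2
  have hev : ∀ (y : LaurentSeries (ZMod p)) (P : ℤ[X]),
      helper328.evalJ y P = aeval y (P.map (Int.castRingHom (ZMod p))) := by
    intro y P
    rw [helper328.evalJ, coe_eval₂RingHom, aeval_def, eval₂_map]
    congr 1
    exact RingHom.ext_int _ _
  have hA : ∑ k ∈ Finset.range (p + 2),
      (Φ.coeff k).map (Int.castRingHom (ZMod p)) * X ^ (p * k) = 0 := by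
    apply helper3292.aeval_jqModC_injective (ZMod p)
    rw [map_zero, map_sum]
    rw [eval_map, eval₂_eq_sum_range, hdeg] at r1
    rw [← r1]
    refine Finset.sum_congr rfl (fun k _ => ?_)
    rw [map_mul, map_pow, aeval_X, hev, pow_mul]
  have hB : ∑ k ∈ Finset.range (p + 2),
      expand (ZMod p) p ((Φ.coeff k).map (Int.castRingHom (ZMod p))) * X ^ k = 0 := by
    apply helper3292.aeval_jqModC_injective (ZMod p)
    rw [map_zero, map_sum]
    rw [eval_map, eval₂_eq_sum_range, hdeg] at r2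
    rw [← r2]
    refine Finset.sum_congr rfl (fun k _ => ?_)
    rw [map_mul, map_pow, aeval_X, expand_aeval, hev]
  intro m hm
  have h0 := coeff_zero_eq_zero_of_sums p hp.two_le
    (fun k => (Φ.coeff k).map (Int.castRingHom (ZMod p))) hA hB m hm
  rw [coeff_map, eq_intCast] at h0
  exact (ZMod.intCast_zmod_eq_zero_iff_dvd _ p).mp h0

/-! ### The function field of level `M * q` -/

theorem coe_jBar_eq (N : ℕ) : ((jBar N : FN N) : LaurentSeries Kbar) = jqModC Kbar := by
  rw [coe_jBar, ← jqModC_rat]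
  exact coeffMap_jqModC (algebraMap ℚ Kbar)

theorem jBar_ne_zero (N : ℕ) : jBar N ≠ 0 := by
  intro h
  have h1 : jqModC Kbar = 0 := by rw [← coe_jBar_eq N, h]; rfl
  have h2 : aeval (jqModC Kbar) (X : Kbar[X]) = aeval (jqModC Kbar) (0 : Kbar[X]) := by
    rw [aeval_X, map_zero, h1]
  exact X_ne_zero (helper3292.aeval_jqModC_injective Kbar h2)

variable (M q : ℕ) [NeZero M] [NeZero q]

omit [NeZero M] in
theorem coe_heckeBetaBar_jBar :
    ((heckeBetaBar Kbar M q (jBar M) : FN (M * q)) : LaurentSeries Kbar) =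
      qExpand Kbar q (jqModC Kbar) := by
  rw [coe_heckeBetaBar, coe_jBar_eq]

omit [NeZero M] in
theorem heckeBetaBar_jBar_ne_zero : heckeBetaBar Kbar M q (jBar M) ≠ 0 :=
  (map_ne_zero_iff _ (heckeBetaBar Kbar M q).injective).mpr (jBar_ne_zero M)

omit [NeZero M] in
/-- The relation `Φ(j_q, j) = 0` inside the function field of level `M * q`. -/
theorem sum_aeval_heckeBetaBar_mul_pow (Φ : Polynomial (Polynomial ℤ))
    (h2 : (Φ.map (helper328.evalJ (qExpand ℤ q (jqModC ℤ)))).eval (jqModC ℤ) = 0) :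
    ∑ k ∈ Finset.range (Φ.natDegree + 1),
      aeval (heckeBetaBar Kbar M q (jBar M)) (Φ.coeff k) * jBar (M * q) ^ k = 0 := by
  have r2 := congrArg (coeffMap (Int.castRingHom Kbar)) h2
  rw [map_zero, helper1595.map_eval_evalJ, coeffMap_jqModC,
    Fermat.Agent.Lib.helper28.castZ_qExpand Kbar q, eval_map, eval₂_eq_sum_range] at r2
  apply Subtype.ext
  have hval : ∀ x : FN (M * q), ((modularFunctionFieldBar (M * q)).val x : LaurentSeries Kbar) =
      (x : LaurentSeries Kbar) := fun _ => rfl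
  show (modularFunctionFieldBar (M * q)).val _ = 0
  rw [map_sum, ← r2]
  refine Finset.sum_congr rfl (fun k _ => ?_)
  have e1 : (modularFunctionFieldBar (M * q)).val (jBar (M * q)) = jqModC Kbar :=
    coe_jBar_eq (M * q)
  have e2 : (modularFunctionFieldBar (M * q)).val
      (aeval (heckeBetaBar Kbar M q (jBar M)) (Φ.coeff k)) =
      helper328.evalJ (qExpand Kbar q (jqModC Kbar)) (Φ.coeff k) := by
    rw [aeval_def, ← AlgHom.coe_toRingHom, hom_eval₂, helper328.evalJ, coe_eval₂RingHom]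
    congr 1
    exact coe_heckeBetaBar_jBar M q
  rw [map_mul, map_pow, e1, e2]

/-- **The admissible multiplier** (level-free polynomial): there is `P ∈ ℤ[X]` such that, at every
level `M * q`, the function `f = 1 + q * P(j⁻¹)` makes `f * j_q⁻¹` integral over `ℤ[j⁻¹]`
(`j_q = β j = j(q^q)`). -/
theorem exists_admPoly (q : ℕ) [NeZero q] (hq : q.Prime) :
    ∃ P : ℤ[X], ∀ (M : ℕ) [NeZero M],
      IsIntegral (Algebra.adjoin ℤ {(jBar (M * q))⁻¹})
        ((1 + (q : FN (M * q)) * aeval (jBar (M * q))⁻¹ P) *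
          (heckeBetaBar Kbar M q (jBar M))⁻¹) := by
  classical
  obtain ⟨Φ, hmon, hdeg, h1, h2⟩ := Fermat.Agent.Lib.helper28.primeRelZ q hq
  have hdvd := dvd_coeff_zero_of_primeRel q hq Φ hdeg h1 h2
  refine ⟨∑ k ∈ Finset.range (q + 1), C ((Φ.coeff k).coeff 0 / (q : ℤ)) * X ^ (q + 1 - k), ?_⟩
  intro M _
  have hJ : jBar (M * q) ≠ 0 := jBar_ne_zero _
  set s : FN (M * q) := (jBar (M * q))⁻¹ with hs
  have hsJ : ∀ k, s ^ k * jBar (M * q) ^ k = 1 := by
    intro k
    rw [← mul_pow, hs, inv_mul_cancel₀ hJ, one_pow]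
  set σ : Algebra.adjoin ℤ {s} := ⟨s, Algebra.subset_adjoin (Set.mem_singleton s)⟩ with hσ
  set G : (Algebra.adjoin ℤ {s})[X] := ∑ k ∈ Finset.range (q + 2),
    C (σ ^ (q + 1 - k)) * (Φ.coeff k).map (algebraMap ℤ (Algebra.adjoin ℤ {s})) with hG
  have hrel := sum_aeval_heckeBetaBar_mul_pow M q Φ h2
  rw [hdeg] at hrel
  have hGroot : aeval (heckeBetaBar Kbar M q (jBar M)) G = 0 := by
    rw [hG, map_sum]
    have : ∀ k ∈ Finset.range (q + 2),
        aeval (heckeBetaBar Kbar M q (jBar M))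
          (C (σ ^ (q + 1 - k)) * (Φ.coeff k).map (algebraMap ℤ (Algebra.adjoin ℤ {s}))) =
        s ^ (q + 1) * (aeval (heckeBetaBar Kbar M q (jBar M)) (Φ.coeff k) *
          jBar (M * q) ^ k) := by
      intro k hk
      have hk' : k ≤ q + 1 := by have := Finset.mem_range.mp hk; omega
      rw [map_mul, aeval_C, aeval_map_algebraMap]
      have e1 : algebraMap (Algebra.adjoin ℤ {s}) (FN (M * q)) (σ ^ (q + 1 - k)) =
          s ^ (q + 1 - k) := by rw [map_pow]; rfl
      have e2 : s ^ (q + 1) = s ^ (q + 1 - k) * s ^ k := by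
        rw [← pow_add]; congr 1; omega
      rw [e1, e2]
      calc s ^ (q + 1 - k) * aeval (heckeBetaBar Kbar M q (jBar M)) (Φ.coeff k)
          = s ^ (q + 1 - k) * aeval (heckeBetaBar Kbar M q (jBar M)) (Φ.coeff k) *
              (s ^ k * jBar (M * q) ^ k) := by rw [hsJ, mul_one]
        _ = _ := by ring
    rw [Finset.sum_congr rfl this, ← Finset.mul_sum, hrel, mul_zero]
  have key := isIntegral_coeff_zero_smul_inv G (heckeBetaBar Kbar M q (jBar M))
    (heckeBetaBar_jBar_ne_zero M q) hGroot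
  have hc0 : algebraMap (Algebra.adjoin ℤ {s}) (FN (M * q)) (G.coeff 0) =
      1 + (q : FN (M * q)) * aeval s
        (∑ k ∈ Finset.range (q + 1), C ((Φ.coeff k).coeff 0 / (q : ℤ)) * X ^ (q + 1 - k)) := by
    have hlead : (Φ.coeff (q + 1)).coeff 0 = 1 := by
      have : Φ.coeff (q + 1) = 1 := by rw [← hdeg]; exact hmon
      rw [this, coeff_one_zero]
    rw [hG, finsetSum_coeff, map_sum, Finset.sum_range_succ, map_sum, Finset.mul_sum, add_comm]
    congr 1
    · rw [coeff_C_mul, coeff_map, hlead, Nat.sub_self, pow_zero, map_one, mul_one, map_one]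
    · refine Finset.sum_congr rfl (fun k hk => ?_)
      have hk' : k ≤ q := by have := Finset.mem_range.mp hk; omega
      obtain ⟨b, hb⟩ := hdvd k hk'
      rw [coeff_C_mul, coeff_map, map_mul, map_mul, aeval_C, aeval_X_pow, map_pow]
      have e1 : algebraMap (Algebra.adjoin ℤ {s}) (FN (M * q)) σ = s := rfl
      have e3 : ∀ a : ℤ, algebraMap (Algebra.adjoin ℤ {s}) (FN (M * q))
          (algebraMap ℤ (Algebra.adjoin ℤ {s}) a) = (a : FN (M * q)) := by
        intro a
        rw [← IsScalarTower.algebraMap_apply, eq_intCast]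
      rw [e1, e3, hb, Int.mul_ediv_cancel_left b (by exact_mod_cast hq.ne_zero : (q : ℤ) ≠ 0),
        eq_intCast]
      push_cast
      ring
  rw [Algebra.smul_def, hc0] at key
  exact key

/-- The level-free admissible polynomial `P ∈ ℤ[X]` at the prime `q`
(`0` when `q` is not prime). -/
noncomputable def admPoly (q : ℕ) [NeZero q] : ℤ[X] := by
  classical
  exact if hq : q.Prime then Classical.choose (exists_admPoly q hq) else 0

/-- **The admissible multiplier** `f = 1 + q * P(j⁻¹)` at level `M * q`. -/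
noncomputable def admF : FN (M * q) :=
  1 + (q : FN (M * q)) * aeval (jBar (M * q))⁻¹ (admPoly q)

omit [NeZero M] in
theorem admF_eq : admF M q = 1 + (q : FN (M * q)) * aeval (jBar (M * q))⁻¹ (admPoly q) := rfl

omit [NeZero M] in
/-- `f ∈ ℤ[j⁻¹]`. -/
theorem admF_mem_adjoin : admF M q ∈ Algebra.adjoin ℤ {(jBar (M * q))⁻¹} :=
  one_add_mul_aeval_mem (Algebra.adjoin ℤ {(jBar (M * q))⁻¹}).toSubring q (admPoly q) _
    (Algebra.subset_adjoin (Set.mem_singleton _))

/-- (IA1) `f * j_q⁻¹` is integral over `ℤ[j⁻¹]`. -/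
theorem isIntegral_admF_mul_inv (hq : q.Prime) :
    IsIntegral (Algebra.adjoin ℤ {(jBar (M * q))⁻¹})
      (admF M q * (heckeBetaBar Kbar M q (jBar M))⁻¹) := by
  have h := Classical.choose_spec (exists_admPoly q hq) M
  rw [admF, admPoly, dif_pos hq]
  exact h

omit [NeZero M] in
/-- `f` is integral over `ℚ̄[j⁻¹]` (it lies in `ℤ[j⁻¹]`). -/
theorem isIntegral_admF :
    IsIntegral (Algebra.adjoin Kbar {(jBar (M * q))⁻¹}) (admF M q) := by
  refine isIntegral_adjoin_of_int (K := Kbar) _ _ ?_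
  have : admF M q = algebraMap (Algebra.adjoin ℤ {(jBar (M * q))⁻¹}) (FN (M * q))
      ⟨admF M q, admF_mem_adjoin M q⟩ := rfl
  rw [this]
  exact isIntegral_algebraMap

/-- `f * j_q⁻¹` is integral over `ℚ̄[j⁻¹]`. -/
theorem isIntegral_admF_mul_inv_bar (hq : q.Prime) :
    IsIntegral (Algebra.adjoin Kbar {(jBar (M * q))⁻¹})
      (admF M q * (heckeBetaBar Kbar M q (jBar M))⁻¹) :=
  isIntegral_adjoin_of_int (K := Kbar) _ _ (isIntegral_admF_mul_inv M q hq)

theorem heckeAlphaBar_jBar : heckeAlphaBar Kbar M q (jBar M) = jBar (M * q) := by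
  apply Subtype.ext
  rw [coe_heckeAlphaBar, coe_jBar_eq, coe_jBar_eq]

/-- `α` maps the INF chart of level `M` into the INF chart of level `M * q`. -/
theorem isIntegral_heckeAlphaBar (y : FN M)
    (hy : IsIntegral (Algebra.adjoin Kbar {(jBar M)⁻¹}) y) :
    IsIntegral (Algebra.adjoin Kbar {(jBar (M * q))⁻¹}) (heckeAlphaBar Kbar M q y) := by
  have h := isIntegral_adjoin_map (heckeAlphaBar Kbar M q) _ _ hy
  rwa [map_inv₀, heckeAlphaBar_jBar] at h

omit [NeZero M] in
/-- `β` maps the INF chart of level `M` into the chart `{j_q ≠ 0}` of level `M * q`. -/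
theorem isIntegral_heckeBetaBar (y : FN M)
    (hy : IsIntegral (Algebra.adjoin Kbar {(jBar M)⁻¹}) y) :
    IsIntegral (Algebra.adjoin Kbar {(heckeBetaBar Kbar M q (jBar M))⁻¹})
      (heckeBetaBar Kbar M q y) := by
  have h := isIntegral_adjoin_map (heckeBetaBar Kbar M q) _ _ hy
  rwa [map_inv₀] at h

/-- (IA2) **Clearing.** For `y` in the INF chart of level `M` (integral over `ℚ̄[j⁻¹]`), a power of
the admissible multiplier moves `β y` into the INF chart of level `M * q`. -/
theorem exists_pow_mul_isIntegral (hq : q.Prime) (y : FN M)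
    (hy : IsIntegral (Algebra.adjoin Kbar {(jBar M)⁻¹}) y) :
    ∃ n : ℕ, IsIntegral (Algebra.adjoin Kbar {(jBar (M * q))⁻¹})
      (admF M q ^ n * heckeBetaBar Kbar M q y) :=
  exists_pow_mul_isIntegral_of_adjoin (jBar (M * q))⁻¹ (heckeBetaBar Kbar M q (jBar M))⁻¹
    (admF M q) (isIntegral_admF M q) (isIntegral_admF_mul_inv_bar M q hq) _
    (isIntegral_heckeBetaBar M q y hy)

/-- (IA1), existential bundle of #170. -/
theorem exists_admissible (hq : q.Prime) :
    ∃ (P : ℤ[X]) (f : FN (M * q)),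
      f = 1 + (q : FN (M * q)) * aeval (jBar (M * q))⁻¹ P ∧
      IsIntegral (Algebra.adjoin ℤ {(jBar (M * q))⁻¹})
        (f * (heckeBetaBar Kbar M q (jBar M))⁻¹) ∧
      ∀ y : FN M, IsIntegral (Algebra.adjoin Kbar {(jBar M)⁻¹}) y →
        ∃ n : ℕ, IsIntegral (Algebra.adjoin Kbar {(jBar (M * q))⁻¹})
          (f ^ n * heckeBetaBar Kbar M q y) :=
  ⟨admPoly q, admF M q, rfl, isIntegral_admF_mul_inv M q hq,
    exists_pow_mul_isIntegral M q hq⟩

omit [NeZero M] in
/-- Image of the admissible multiplier under a ring homomorphism. -/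
theorem map_admF {T : Type*} [CommRing T] (φ : FN (M * q) →+* T) :
    φ (admF M q) = 1 + (q : T) * aeval (φ (jBar (M * q))⁻¹) (admPoly q) := by
  rw [admF, map_add, map_one, map_mul, map_natCast, aeval_def, hom_eval₂, aeval_def]
  congr 3
  exact RingHom.ext_int _ _

omit [NeZero M] in
/-- The admissible multiplier lies in every subring containing `j⁻¹`. -/
theorem admF_mem (V : Subring (FN (M * q))) (hJ : (jBar (M * q))⁻¹ ∈ V) : admF M q ∈ V :=
  one_add_mul_aeval_mem V q (admPoly q) _ hJ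

omit [NeZero M] in
/-- Every ring homomorphism on a subring containing `j⁻¹` that kills `q` sends the admissible
multiplier to `1` ("`f ≡ 1` modulo `q`"). -/
theorem red_admF {S : Type*} [CommRing S] (V : Subring (FN (M * q))) (red : V →+* S)
    (hq0 : (q : S) = 0) (hJ : (jBar (M * q))⁻¹ ∈ V) :
    red ⟨admF M q, admF_mem M q V hJ⟩ = 1 :=
  map_one_add_mul_aeval V red q hq0 (admPoly q) _ hJ

omit [NeZero M] in
/-- Valuation form of `f ≡ 1`: `v (f - 1) < 1` when `v (j⁻¹) ≤ 1` and `v q < 1`. -/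
theorem valuation_admF_sub_one_lt {Γ₀ : Type*} [LinearOrderedCommGroupWithZero Γ₀]
    (v : Valuation (FN (M * q)) Γ₀) (hq0 : v (q : FN (M * q)) < 1)
    (hJ : v (jBar (M * q))⁻¹ ≤ 1) : v (admF M q - 1) < 1 :=
  valuation_one_add_mul_aeval_sub_one_lt v q hq0 (admPoly q) _ hJ

omit [NeZero M] in
/-- Valuation form for a twisted valuation `v ∘ W`: `v (W f - 1) < 1` when `v (W j⁻¹) ≤ 1`. -/
theorem valuation_map_admF_sub_one_lt {T Γ₀ : Type*} [CommRing T]
    [LinearOrderedCommGroupWithZero Γ₀] (W : FN (M * q) →+* T)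
    (v : Valuation T Γ₀) (hq0 : v (q : T) < 1)
    (hJ : v (W (jBar (M * q))⁻¹) ≤ 1) : v (W (admF M q) - 1) < 1 := by
  rw [map_admF]
  exact valuation_one_add_mul_aeval_sub_one_lt v q hq0 (admPoly q) _ hJ

/-! ### FIN companion: `β` preserves integrality over `ℚ̄[j]` -/

omit [NeZero M] in
/-- The relation `Φ(j, j_q) = 0` inside the function field of level `M * q`. -/
theorem sum_aeval_jBar_mul_pow (Φ : Polynomial (Polynomial ℤ))
    (h1 : (Φ.map (helper328.evalJ (jqModC ℤ))).eval (qExpand ℤ q (jqModC ℤ)) = 0) :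
    ∑ k ∈ Finset.range (Φ.natDegree + 1),
      aeval (jBar (M * q)) (Φ.coeff k) * heckeBetaBar Kbar M q (jBar M) ^ k = 0 := by
  have r1 := congrArg (coeffMap (Int.castRingHom Kbar)) h1
  rw [map_zero, helper1595.map_eval_evalJ, coeffMap_jqModC,
    Fermat.Agent.Lib.helper28.castZ_qExpand Kbar q, eval_map, eval₂_eq_sum_range] at r1
  apply Subtype.ext
  show (modularFunctionFieldBar (M * q)).val _ = 0
  rw [map_sum, ← r1]
  refine Finset.sum_congr rfl (fun k _ => ?_)
  have e1 : (modularFunctionFieldBar (M * q)).val (heckeBetaBar Kbar M q (jBar M)) =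
      qExpand Kbar q (jqModC Kbar) := coe_heckeBetaBar_jBar M q
  have e2 : (modularFunctionFieldBar (M * q)).val (aeval (jBar (M * q)) (Φ.coeff k)) =
      helper328.evalJ (jqModC Kbar) (Φ.coeff k) := by
    rw [aeval_def, ← AlgHom.coe_toRingHom, hom_eval₂, helper328.evalJ, coe_eval₂RingHom]
    congr 1
    exact coe_jBar_eq (M * q)
  rw [map_mul, map_pow, e1, e2]

omit [NeZero M] in
/-- `j_q = β j` is integral over `ℤ[j]` at level `M * q`. -/
theorem isIntegral_heckeBetaBar_jBar (hq : q.Prime) :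
    IsIntegral (Algebra.adjoin ℤ {jBar (M * q)}) (heckeBetaBar Kbar M q (jBar M)) := by
  obtain ⟨Φ, hmon, -, h1, -⟩ := Fermat.Agent.Lib.helper28.primeRelZ q hq
  set σ : Algebra.adjoin ℤ {jBar (M * q)} :=
    ⟨jBar (M * q), Algebra.subset_adjoin (Set.mem_singleton _)⟩ with hσ
  refine ⟨Φ.map (aeval σ : ℤ[X] →ₐ[ℤ] Algebra.adjoin ℤ {jBar (M * q)}).toRingHom,
    hmon.map _, ?_⟩
  rw [eval₂_map, eval₂_eq_sum_range, ← sum_aeval_jBar_mul_pow M q Φ h1]
  refine Finset.sum_congr rfl (fun k _ => ?_)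
  congr 1
  show algebraMap (Algebra.adjoin ℤ {jBar (M * q)}) (FN (M * q)) (aeval σ (Φ.coeff k)) = _
  rw [← aeval_algebraMap_apply]
  rfl

omit [NeZero M] in
/-- `β` maps the FIN chart of level `M` (integral over `ℚ̄[j]`) into the FIN chart of level
`M * q`. -/
theorem isIntegral_heckeBetaBar_fin (hq : q.Prime) (y : FN M)
    (hy : IsIntegral (Algebra.adjoin Kbar {jBar M}) y) :
    IsIntegral (Algebra.adjoin Kbar {jBar (M * q)}) (heckeBetaBar Kbar M q y) := by
  have h1 : IsIntegral (Algebra.adjoin Kbar {heckeBetaBar Kbar M q (jBar M)})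
      (heckeBetaBar Kbar M q y) := isIntegral_adjoin_map (heckeBetaBar Kbar M q) _ _ hy
  have h2 : IsIntegral (Algebra.adjoin Kbar {jBar (M * q)}) (heckeBetaBar Kbar M q (jBar M)) :=
    isIntegral_adjoin_of_int (K := Kbar) _ _ (isIntegral_heckeBetaBar_jBar M q hq)
  obtain ⟨n, hn⟩ := exists_pow_mul_isIntegral_of_adjoin (K := Kbar) (jBar (M * q))
    (heckeBetaBar Kbar M q (jBar M)) 1 isIntegral_one (by rwa [one_mul]) _ h1
  rwa [one_pow, one_mul] at hn

/-- `α` maps the FIN chart of level `M` into the FIN chart of level `M * q`. -/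
theorem isIntegral_heckeAlphaBar_fin (y : FN M)
    (hy : IsIntegral (Algebra.adjoin Kbar {jBar M}) y) :
    IsIntegral (Algebra.adjoin Kbar {jBar (M * q)}) (heckeAlphaBar Kbar M q y) := by
  have h := isIntegral_adjoin_map (heckeAlphaBar Kbar M q) _ _ hy
  rwa [heckeAlphaBar_jBar] at h

end Fermat.Agent.S33.helper6564
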