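/-
S33-JLIFT, Mathlib-only core (helper7687; board row 2363).

Chart-ring lifting along a reduction `red : O →+* Fk` of a valuation ring `O` of a function field
`F / L`, transported from a base line `x` (where the two-chart squeeze is known) to the `j`-line,
where `j x² = (x + c)³` (`x = t_2`, `c = 256`):

* `exists_forall_isIntegral_pow_mul` (CLEAR): if `v ∈ T` clears the denominators of `T'`, an
  element integral over `T'` becomes integral over `T` after multiplication by a power of `v`;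
* `isIntegral_of_add_eq_one` (PATCH): integrality over `T` can be checked after multiplication by
  powers of two comaximal elements of `T`;
* `exists_lift_shift`: the chart ring of `(x + c)⁻¹` (the chart `x ≠ -c` of the `x`-line) lifts,
  from the one-sided squeeze on the chart spaces of `x`;
* `exists_lift_jFin`, `exists_lift_jInf`: the chart rings of `j` and `j⁻¹` lift.
-/
import Mathlib

set_option autoImplicit false

namespace Fermat.Agent.S33.helper7687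

open Polynomial

section Clear

variable {k F : Type*} [Field k] [Field F] [Algebra k F]

/-- **(CLEAR)** If `v ∈ T` and every element of `T'` is moved into `T` by all large powers of `v`,
then every element integral over `T'` becomes integral over `T` after multiplication by all large
powers of `v`. -/
theorem exists_forall_isIntegral_pow_mul (T T' : Subalgebra k F) (v : F)
    (hclear : ∀ z ∈ T', ∃ e : ℕ, ∀ n : ℕ, e ≤ n → v ^ n * z ∈ T)
    (g : F) (hg : IsIntegral T' g) :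
    ∃ n₀ : ℕ, ∀ n : ℕ, n₀ ≤ n → IsIntegral T (v ^ n * g) := by
  obtain ⟨p, hpm, hp⟩ := hg
  choose e he using fun i : ℕ => hclear ((p.coeff i : T') : F) (p.coeff i).2
  refine ⟨(Finset.range (p.natDegree + 1)).sup e, fun n hn => ?_⟩
  have hK1 : ∀ i : ℕ, i ≤ p.natDegree → ∀ m : ℕ, n ≤ m → v ^ m * ((p.coeff i : T') : F) ∈ T := by
    intro i hi m hm
    exact he i m (le_trans (le_trans (Finset.le_sup (f := e)
      (Finset.mem_range.mpr (Nat.lt_succ_of_le hi))) hn) hm)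
  set P : F[X] := scaleRoots (p.map (algebraMap T' F)) (v ^ n) with hP
  have hmapm : (p.map (algebraMap T' F)).Monic := hpm.map _
  have hPm : P.Monic := (monic_scaleRoots_iff _).mpr hmapm
  have hroot : eval (v ^ n * g) P = 0 := by
    have h0 : eval₂ (RingHom.id F) g (p.map (algebraMap T' F)) = 0 := by
      rw [eval₂_id, eval_map]; exact hp
    have := scaleRoots_eval₂_eq_zero (p := p.map (algebraMap T' F)) (RingHom.id F) (r := g)
      (s := v ^ n) h0
    rwa [eval₂_id, RingHom.id_apply] at this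
  have hnat : (p.map (algebraMap T' F)).natDegree = p.natDegree := hpm.natDegree_map _
  have hlift : P ∈ lifts (algebraMap T F) := by
    rw [lifts_iff_coeff_lifts]
    intro i
    have hmem : P.coeff i ∈ T := by
      rw [hP, coeff_scaleRoots, hnat, coeff_map]
      by_cases hi : i ≤ p.natDegree
      · rcases Nat.eq_or_lt_of_le hi with h | h
        · rw [h, Nat.sub_self, pow_zero, mul_one, hpm.coeff_natDegree, map_one]
          exact T.one_mem
        · rw [← pow_mul, mul_comm]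
          exact hK1 i hi _ (Nat.le_mul_of_pos_right n (by omega))
      · rw [coeff_eq_zero_of_natDegree_lt (not_le.mp hi), map_zero, zero_mul]
        exact T.zero_mem
    exact ⟨⟨P.coeff i, hmem⟩, rfl⟩
  obtain ⟨Q, hQ, -, hQm⟩ := lifts_and_degree_eq_and_monic hlift hPm
  refine ⟨Q, hQm, ?_⟩
  rw [← eval_map, hQ]
  exact hroot

/-- The clearing hypothesis of `exists_forall_isIntegral_pow_mul` for `T' = k[S]`, from the
generators. -/
theorem clear_adjoin (T : Subalgebra k F) (v : F) (hv : v ∈ T) (S : Set F)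
    (hS : ∀ s ∈ S, ∃ e : ℕ, v ^ e * s ∈ T) :
    ∀ z ∈ Algebra.adjoin k S, ∃ e : ℕ, ∀ n : ℕ, e ≤ n → v ^ n * z ∈ T := by
  intro z hz
  induction hz using Algebra.adjoin_induction with
  | mem s hs =>
    obtain ⟨e, he⟩ := hS s hs
    refine ⟨e, fun n hn => ?_⟩
    obtain ⟨r, rfl⟩ := Nat.exists_eq_add_of_le hn
    have h1 : v ^ (e + r) * s = v ^ r * (v ^ e * s) := by ring
    rw [h1]
    exact T.mul_mem (T.pow_mem hv r) he
  | algebraMap c => exact ⟨0, fun n _ => T.mul_mem (T.pow_mem hv n) (T.algebraMap_mem c)⟩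
  | add x y _ _ ihx ihy =>
    obtain ⟨e1, h1⟩ := ihx
    obtain ⟨e2, h2⟩ := ihy
    refine ⟨max e1 e2, fun n hn => ?_⟩
    rw [mul_add]
    exact T.add_mem (h1 n (le_trans (le_max_left _ _) hn)) (h2 n (le_trans (le_max_right _ _) hn))
  | mul x y _ _ ihx ihy =>
    obtain ⟨e1, h1⟩ := ihx
    obtain ⟨e2, h2⟩ := ihy
    refine ⟨e1 + e2, fun n hn => ?_⟩
    obtain ⟨r, rfl⟩ := Nat.exists_eq_add_of_le hn
    have h3 : v ^ (e1 + e2 + r) * (x * y) = (v ^ e1 * x) * (v ^ (e2 + r) * y) := by ring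
    rw [h3]
    exact T.mul_mem (h1 e1 le_rfl) (h2 (e2 + r) (Nat.le_add_right _ _))

/-- (CLEAR) for `T' = k[S]`. -/
theorem exists_forall_isIntegral_pow_mul_adjoin (T : Subalgebra k F) (v : F) (hv : v ∈ T)
    (S : Set F) (hS : ∀ s ∈ S, ∃ e : ℕ, v ^ e * s ∈ T)
    (g : F) (hg : IsIntegral (Algebra.adjoin k S) g) :
    ∃ n₀ : ℕ, ∀ n : ℕ, n₀ ≤ n → IsIntegral T (v ^ n * g) :=
  exists_forall_isIntegral_pow_mul T (Algebra.adjoin k S) v (clear_adjoin T v hv S hS) g hg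

/-- Integrality over a subalgebra is monotone in the subalgebra. -/
theorem isIntegral_of_subalgebra_le {T T' : Subalgebra k F} (h : T ≤ T') {g : F}
    (hg : IsIntegral T g) : IsIntegral T' g := by
  obtain ⟨p, hpm, hp⟩ := hg
  refine ⟨p.map (Subalgebra.inclusion h : T →+* T'), hpm.map _, ?_⟩
  rw [eval₂_map]
  exact hp

/-- Elements of a subalgebra are integral over it. -/
theorem isIntegral_of_mem_subalgebra {T : Subalgebra k F} {g : F} (hg : g ∈ T) :
    IsIntegral T g :=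
  (isIntegral_algebraMap (R := T) (A := F) (x := ⟨g, hg⟩))

/-- All elements of `k[S]` are integral over `T` as soon as the generators are. -/
theorem isIntegral_of_mem_adjoin (T : Subalgebra k F) (S : Set F)
    (hS : ∀ s ∈ S, IsIntegral T s) : ∀ z ∈ Algebra.adjoin k S, IsIntegral T z := by
  intro z hz
  induction hz using Algebra.adjoin_induction with
  | mem s hs => exact hS s hs
  | algebraMap c => exact isIntegral_of_mem_subalgebra (T.algebraMap_mem c)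
  | add x y _ _ ihx ihy => exact ihx.add ihy
  | mul x y _ _ ihx ihy => exact ihx.mul ihy

/-- Transitivity of integrality for subalgebras. -/
theorem isIntegral_trans_subalgebra (T T' : Subalgebra k F) (hT' : ∀ z ∈ T', IsIntegral T z)
    {g : F} (hg : IsIntegral T' g) : IsIntegral T g := by
  have hgC : IsIntegral (integralClosure T F) g := by
    obtain ⟨p, hpm, hp⟩ := hg
    let φ : T' →+* integralClosure T F :=
      (T'.val : T' →+* F).codRestrict (integralClosure T F) (fun b => hT' b b.2)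
    refine ⟨p.map φ, hpm.map _, ?_⟩
    rw [eval₂_map]
    exact hp
  exact isIntegral_trans g hgC

/-- Integrality over `k[S]` implies integrality over `T` when the generators are integral over
`T`. -/
theorem isIntegral_of_isIntegral_adjoin (T : Subalgebra k F) (S : Set F)
    (hS : ∀ s ∈ S, IsIntegral T s) {g : F} (hg : IsIntegral (Algebra.adjoin k S) g) :
    IsIntegral T g :=
  isIntegral_trans_subalgebra T (Algebra.adjoin k S) (isIntegral_of_mem_adjoin T S hS) hg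

/-- **(PATCH)** Integrality over `T` can be checked after multiplication by powers of two
comaximal elements of `T`. -/
theorem isIntegral_of_add_eq_one (T : Subalgebra k F) (a b : F) (ha : a ∈ T) (hb : b ∈ T)
    (hab : a + b = 1) (n₁ n₂ : ℕ) (f : F) (h₁ : IsIntegral T (a ^ n₁ * f))
    (h₂ : IsIntegral T (b ^ n₂ * f)) : IsIntegral T f := by
  have h1 : f = (a + b) ^ (n₁ + n₂) * f := by rw [hab, one_pow, one_mul]
  rw [h1, add_pow, Finset.sum_mul]
  refine IsIntegral.sum _ fun i _ => ?_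
  rcases le_or_gt n₁ i with h | h
  · obtain ⟨r, rfl⟩ := Nat.exists_eq_add_of_le h
    have h2 : a ^ (n₁ + r) * b ^ (n₁ + n₂ - (n₁ + r)) * ((n₁ + n₂).choose (n₁ + r) : F) * f =
        (a ^ r * b ^ (n₁ + n₂ - (n₁ + r)) * ((n₁ + n₂).choose (n₁ + r) : F)) * (a ^ n₁ * f) := by
      ring
    rw [h2]
    exact (isIntegral_of_mem_subalgebra (T.mul_mem (T.mul_mem (T.pow_mem ha _) (T.pow_mem hb _))
      (natCast_mem T _))).mul h₁
  · have h3 : n₁ + n₂ - i = n₂ + (n₁ - i) := by omega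
    have h2 : a ^ i * b ^ (n₁ + n₂ - i) * ((n₁ + n₂).choose i : F) * f =
        (a ^ i * b ^ (n₁ - i) * ((n₁ + n₂).choose i : F)) * (b ^ n₂ * f) := by
      rw [h3]; ring
    rw [h2]
    exact (isIntegral_of_mem_subalgebra (T.mul_mem (T.mul_mem (T.pow_mem ha _) (T.pow_mem hb _))
      (natCast_mem T _))).mul h₂

end Clear

section Lift

variable {L F k Fk : Type*} [Field L] [Field F] [Algebra L F] [Field k] [Field Fk] [Algebra k Fk]

/-- A ring hom from a valuation ring to a field sends the inverse of a unit to the inverse. -/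
theorem red_inv_eq (O : ValuationSubring F) (red : O →+* Fk) {x : F} (hx : x ∈ O)
    (hxi : x⁻¹ ∈ O) (hx0 : x ≠ 0) : red ⟨x⁻¹, hxi⟩ = (red ⟨x, hx⟩)⁻¹ := by
  have h1 : (⟨x, hx⟩ * ⟨x⁻¹, hxi⟩ : O) = 1 := Subtype.ext (mul_inv_cancel₀ hx0)
  have h2 : red ⟨x, hx⟩ * red ⟨x⁻¹, hxi⟩ = 1 := by rw [← map_mul, h1, map_one]
  exact eq_inv_of_mul_eq_one_right h2

/-- The reduction of a unit is nonzero. -/
theorem red_ne_zero_of_inv_mem (O : ValuationSubring F) (red : O →+* Fk) {x : F} (hx : x ∈ O)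
    (hxi : x⁻¹ ∈ O) (hx0 : x ≠ 0) : red ⟨x, hx⟩ ≠ 0 := by
  have h1 : (⟨x, hx⟩ * ⟨x⁻¹, hxi⟩ : O) = 1 := Subtype.ext (mul_inv_cancel₀ hx0)
  have h2 : red ⟨x, hx⟩ * red ⟨x⁻¹, hxi⟩ = 1 := by rw [← map_mul, h1, map_one]
  intro h0
  rw [h0, zero_mul] at h2
  exact zero_ne_one h2

/-- **Lifting on the shifted chart.**  Let `x` be a unit of the valuation ring `O` and `c` a
constant such that `x + c` is a unit of `O`.  If every element of the chart space
`{G | G integral over k[x̄], x̄⁻ᵃ G integral over k[x̄⁻¹]}` of the special fibre (`a` large) is the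
reduction of an element of `O` in the corresponding chart space of the generic fibre, then every
element of the special fibre integral over `k[(x̄ + c̄)⁻¹]` is the reduction of an element of `O`
integral over `L[(x + c)⁻¹]`. -/
theorem exists_lift_shift (O : ValuationSubring F) (red : O →+* Fk)
    (x : F) (hx : x ∈ O) (hxi : x⁻¹ ∈ O) (hx0 : x ≠ 0)
    (c : L) (hc : algebraMap L F c ∈ O) (cb : k)
    (hcb : red ⟨algebraMap L F c, hc⟩ = algebraMap k Fk cb)
    (hv0 : x + algebraMap L F c ≠ 0) (hvi : (x + algebraMap L F c)⁻¹ ∈ O)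
    (hsq : ∃ n₀ : ℕ, ∀ a : ℕ, n₀ ≤ a → ∀ G : Fk,
      IsIntegral (Algebra.adjoin k {red ⟨x, hx⟩}) G →
      IsIntegral (Algebra.adjoin k {(red ⟨x, hx⟩)⁻¹}) ((red ⟨x, hx⟩)⁻¹ ^ a * G) →
      ∃ (f : F) (hf : f ∈ O), IsIntegral (Algebra.adjoin L {x}) f ∧
        IsIntegral (Algebra.adjoin L {x⁻¹}) (x⁻¹ ^ a * f) ∧ red ⟨f, hf⟩ = G)
    (g : Fk) (hg : IsIntegral (Algebra.adjoin k {(red ⟨x, hx⟩ + algebraMap k Fk cb)⁻¹}) g) :
    ∃ (f : F) (hf : f ∈ O), IsIntegral (Algebra.adjoin L {(x + algebraMap L F c)⁻¹}) f ∧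
      red ⟨f, hf⟩ = g := by
  obtain ⟨n₀, hsq⟩ := hsq
  have hxb0 : red ⟨x, hx⟩ ≠ 0 := red_ne_zero_of_inv_mem O red hx hxi hx0
  have hvO : x + algebraMap L F c ∈ O := add_mem hx hc
  have hredv : red ⟨x + algebraMap L F c, hvO⟩ = red ⟨x, hx⟩ + algebraMap k Fk cb := by
    have h1 : (⟨x + algebraMap L F c, hvO⟩ : O) = ⟨x, hx⟩ + ⟨algebraMap L F c, hc⟩ := rfl
    rw [h1, map_add, hcb]
  have hvb0 : red ⟨x, hx⟩ + algebraMap k Fk cb ≠ 0 := by
    rw [← hredv]
    exact red_ne_zero_of_inv_mem O red hvO hvi hv0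
  have hredy : red ⟨(x + algebraMap L F c)⁻¹, hvi⟩ =
      (red ⟨x, hx⟩ + algebraMap k Fk cb)⁻¹ := by
    rw [← hredv]
    exact red_inv_eq O red hvO hvi hv0
  generalize red ⟨x, hx⟩ = xb at hsq hg hxb0 hvb0 hredy
  -- the special fibre
  have hxbT : xb ∈ Algebra.adjoin k {xb} := Algebra.self_mem_adjoin_singleton k xb
  have hvbT : xb + algebraMap k Fk cb ∈ Algebra.adjoin k {xb} :=
    Subalgebra.add_mem _ hxbT (Subalgebra.algebraMap_mem _ cb)
  obtain ⟨m₀, hm₀⟩ := exists_forall_isIntegral_pow_mul_adjoin (Algebra.adjoin k {xb})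
    (xb + algebraMap k Fk cb) hvbT {(xb + algebraMap k Fk cb)⁻¹}
    (fun s hs => ⟨1, by
      rw [Set.mem_singleton_iff.mp hs, pow_one, mul_inv_cancel₀ hvb0]
      exact Subalgebra.one_mem _⟩) g hg
  have hxibT : xb⁻¹ ∈ Algebra.adjoin k {xb⁻¹} := Algebra.self_mem_adjoin_singleton k xb⁻¹
  have hwbT : 1 + algebraMap k Fk cb * xb⁻¹ ∈ Algebra.adjoin k {xb⁻¹} :=
    Subalgebra.add_mem _ (Subalgebra.one_mem _)
      (Subalgebra.mul_mem _ (Subalgebra.algebraMap_mem _ cb) hxibT)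
  have hwb_eq : 1 + algebraMap k Fk cb * xb⁻¹ = (xb + algebraMap k Fk cb) * xb⁻¹ := by
    field_simp
  obtain ⟨e₀, he₀⟩ := exists_forall_isIntegral_pow_mul_adjoin (Algebra.adjoin k {xb⁻¹})
    (1 + algebraMap k Fk cb * xb⁻¹) hwbT {(xb + algebraMap k Fk cb)⁻¹}
    (fun s hs => ⟨1, by
      rw [Set.mem_singleton_iff.mp hs, pow_one, hwb_eq, mul_right_comm, mul_inv_cancel₀ hvb0,
        one_mul]
      exact hxibT⟩) g hg
  set m : ℕ := max (max m₀ e₀) n₀ with hm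
  have hG1 : IsIntegral (Algebra.adjoin k {xb}) ((xb + algebraMap k Fk cb) ^ m * g) :=
    hm₀ m (le_trans (le_max_left _ _) (le_max_left _ _))
  have hG2 : IsIntegral (Algebra.adjoin k {xb⁻¹})
      (xb⁻¹ ^ m * ((xb + algebraMap k Fk cb) ^ m * g)) := by
    have h1 : xb⁻¹ ^ m * ((xb + algebraMap k Fk cb) ^ m * g) =
        (1 + algebraMap k Fk cb * xb⁻¹) ^ m * g := by
      rw [hwb_eq, mul_pow]; ring
    rw [h1]
    exact he₀ m (le_trans (le_max_right _ _) (le_max_left _ _))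
  obtain ⟨f', hf', hf'1, hf'2, hf'red⟩ := hsq m (le_max_right _ _) _ hG1 hG2
  refine ⟨f' * (x + algebraMap L F c)⁻¹ ^ m, mul_mem hf' (pow_mem hvi m), ?_, ?_⟩
  · -- integrality over `L[y]`, `y = (x + c)⁻¹`
    generalize hyv : (x + algebraMap L F c)⁻¹ = y
    have hvy : (x + algebraMap L F c) * y = 1 := by rw [← hyv]; exact mul_inv_cancel₀ hv0
    have hyT : y ∈ Algebra.adjoin L {y} := Algebra.self_mem_adjoin_singleton L y
    have hwT : 1 - algebraMap L F c * y ∈ Algebra.adjoin L {y} :=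
      Subalgebra.sub_mem _ (Subalgebra.one_mem _)
        (Subalgebra.mul_mem _ (Subalgebra.algebraMap_mem _ c) hyT)
    have hxy : x * y = 1 - algebraMap L F c * y := by
      rw [← hvy]; ring
    obtain ⟨n₁, hn₁⟩ := exists_forall_isIntegral_pow_mul_adjoin (Algebra.adjoin L {y}) y hyT {x}
      (fun s hs => ⟨1, by
        rw [Set.mem_singleton_iff.mp hs, pow_one, mul_comm, hxy]
        exact hwT⟩) f' hf'1
    obtain ⟨n₂, hn₂⟩ := exists_forall_isIntegral_pow_mul_adjoin (Algebra.adjoin L {y})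
      (1 - algebraMap L F c * y) hwT {x⁻¹}
      (fun s hs => ⟨1, by
        rw [Set.mem_singleton_iff.mp hs, pow_one, ← hxy, mul_right_comm, mul_inv_cancel₀ hx0,
          one_mul]
        exact hyT⟩) (x⁻¹ ^ m * f') hf'2
    refine isIntegral_of_add_eq_one (Algebra.adjoin L {y}) (algebraMap L F c * y)
      (1 - algebraMap L F c * y) (Subalgebra.mul_mem _ (Subalgebra.algebraMap_mem _ c) hyT) hwT
      (by ring) n₁ n₂ _ ?_ ?_
    · have h1 : (algebraMap L F c * y) ^ n₁ * (f' * y ^ m) =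
          (algebraMap L F c ^ n₁ * y ^ m) * (y ^ n₁ * f') := by ring
      rw [h1]
      exact (isIntegral_of_mem_subalgebra (Subalgebra.mul_mem _
        (Subalgebra.pow_mem _ (Subalgebra.algebraMap_mem _ c) _)
        (Subalgebra.pow_mem _ hyT _))).mul (hn₁ n₁ le_rfl)
    · have h1 : (1 - algebraMap L F c * y) ^ n₂ * (f' * y ^ m) =
          (1 - algebraMap L F c * y) ^ m *
            ((1 - algebraMap L F c * y) ^ n₂ * (x⁻¹ ^ m * f')) := by
        have h2 : (1 - algebraMap L F c * y) ^ m * x⁻¹ ^ m = y ^ m := by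
          rw [← mul_pow, ← hxy, mul_right_comm, mul_inv_cancel₀ hx0, one_mul]
        calc (1 - algebraMap L F c * y) ^ n₂ * (f' * y ^ m)
            = (1 - algebraMap L F c * y) ^ n₂ * (f' * ((1 - algebraMap L F c * y) ^ m * x⁻¹ ^ m)) := by
              rw [h2]
          _ = _ := by ring
      rw [h1]
      exact (isIntegral_of_mem_subalgebra (Subalgebra.pow_mem _ hwT _)).mul (hn₂ n₂ le_rfl)
  · have h1 : (⟨f' * (x + algebraMap L F c)⁻¹ ^ m, mul_mem hf' (pow_mem hvi m)⟩ : O) =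
        ⟨f', hf'⟩ * ⟨(x + algebraMap L F c)⁻¹, hvi⟩ ^ m := rfl
    rw [h1, map_mul, map_pow, hf'red, hredy, mul_right_comm, ← mul_pow, mul_inv_cancel₀ hvb0,
      one_pow, one_mul]

end Lift

section JLine

variable {L F k Fk : Type*} [Field L] [Field F] [Algebra L F] [Field k] [Field Fk] [Algebra k Fk]

/-- A root of a monic cubic with coefficients in `T` is integral over `T`. -/
theorem isIntegral_of_cubic (T : Subalgebra L F) (y a2 a1 a0 : F) (h2 : a2 ∈ T) (h1 : a1 ∈ T)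
    (h0 : a0 ∈ T) (h : y ^ 3 + (a2 * y ^ 2 + a1 * y + a0) = 0) : IsIntegral T y := by
  refine ⟨X ^ 3 + (C (⟨a2, h2⟩ : T) * X ^ 2 + C (⟨a1, h1⟩ : T) * X + C (⟨a0, h0⟩ : T)),
    monic_X_pow_add (lt_of_le_of_lt degree_quadratic_le (by norm_num)), ?_⟩
  simp only [eval₂_add, eval₂_mul, eval₂_pow, eval₂_C, eval₂_X]
  exact h

/-- `j⁻¹ = y (1 - c y)²` for `y = (x + c)⁻¹` when `j x² = (x + c)³`. -/
theorem inv_eq_of_cubic_rel {E : Type*} [Field E] {x j cE : E} (hv0 : x + cE ≠ 0)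
    (hjx : j * x ^ 2 = (x + cE) ^ 3) :
    j⁻¹ = (x + cE)⁻¹ * (1 - cE * (x + cE)⁻¹) ^ 2 := by
  have hvi : (x + cE) * (x + cE)⁻¹ = 1 := mul_inv_cancel₀ hv0
  have h1 : 1 - cE * (x + cE)⁻¹ = x * (x + cE)⁻¹ := by linear_combination (-1 : E) * hvi
  refine inv_eq_of_mul_eq_one_right ?_
  rw [h1]
  calc j * ((x + cE)⁻¹ * (x * (x + cE)⁻¹) ^ 2) = (j * x ^ 2) * (x + cE)⁻¹ ^ 3 := by ring
    _ = 1 := by rw [hjx, ← mul_pow, hvi, one_pow]

/-- `x` is integral over `L[j]` when `j x² = (x + c)³`. -/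
theorem isIntegral_adjoin_of_cubic_rel {x j : F} (c : L)
    (hjx : j * x ^ 2 = (x + algebraMap L F c) ^ 3) : IsIntegral (Algebra.adjoin L {j}) x := by
  have hjT : j ∈ Algebra.adjoin L {j} := Algebra.self_mem_adjoin_singleton L j
  have hcT : algebraMap L F c ∈ Algebra.adjoin L {j} := Subalgebra.algebraMap_mem _ c
  have h3 : (3 : F) ∈ Algebra.adjoin L {j} := ofNat_mem _ 3
  refine isIntegral_of_cubic _ x (3 * algebraMap L F c - j) (3 * algebraMap L F c ^ 2)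
    (algebraMap L F c ^ 3) (Subalgebra.sub_mem _ (Subalgebra.mul_mem _ h3 hcT) hjT)
    (Subalgebra.mul_mem _ h3 (Subalgebra.pow_mem _ hcT _)) (Subalgebra.pow_mem _ hcT _) ?_
  linear_combination (-1 : F) * hjx

/-- `x⁻¹` is integral over `L[j]` when `j x² = (x + c)³`, `c ≠ 0`, `x ≠ 0`. -/
theorem isIntegral_adjoin_inv_of_cubic_rel {x j : F} (hx0 : x ≠ 0) (c : L) (hc0 : c ≠ 0)
    (hjx : j * x ^ 2 = (x + algebraMap L F c) ^ 3) : IsIntegral (Algebra.adjoin L {j}) x⁻¹ := by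
  have hjT : j ∈ Algebra.adjoin L {j} := Algebra.self_mem_adjoin_singleton L j
  have hcT : algebraMap L F c ∈ Algebra.adjoin L {j} := Subalgebra.algebraMap_mem _ c
  have hciT : (algebraMap L F c)⁻¹ ∈ Algebra.adjoin L {j} := by
    rw [← map_inv₀]
    exact Subalgebra.algebraMap_mem _ _
  have h3 : (3 : F) ∈ Algebra.adjoin L {j} := ofNat_mem _ 3
  have hcF0 : algebraMap L F c ≠ 0 := (_root_.map_ne_zero _).mpr hc0
  refine isIntegral_of_cubic _ x⁻¹ (3 * (algebraMap L F c)⁻¹)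
    ((algebraMap L F c)⁻¹ ^ 3 * (3 * algebraMap L F c - j)) ((algebraMap L F c)⁻¹ ^ 3)
    (Subalgebra.mul_mem _ h3 hciT)
    (Subalgebra.mul_mem _ (Subalgebra.pow_mem _ hciT _)
      (Subalgebra.sub_mem _ (Subalgebra.mul_mem _ h3 hcT) hjT))
    (Subalgebra.pow_mem _ hciT _) ?_
  have key : x⁻¹ ^ 3 + (3 * (algebraMap L F c)⁻¹ * x⁻¹ ^ 2 +
      (algebraMap L F c)⁻¹ ^ 3 * (3 * algebraMap L F c - j) * x⁻¹ + (algebraMap L F c)⁻¹ ^ 3) =
      (x⁻¹ * (algebraMap L F c)⁻¹) ^ 3 * ((x + algebraMap L F c) ^ 3 - j * x ^ 2) := by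
    field_simp
    ring
  rw [key, hjx, sub_self, mul_zero]

/-- `(x + c)⁻¹` is integral over `L[j⁻¹]` when `j x² = (x + c)³`, `c ≠ 0`. -/
theorem isIntegral_adjoin_shift_of_cubic_rel {x j : F} (c : L) (hc0 : c ≠ 0)
    (hv0 : x + algebraMap L F c ≠ 0) (hjx : j * x ^ 2 = (x + algebraMap L F c) ^ 3) :
    IsIntegral (Algebra.adjoin L {j⁻¹}) (x + algebraMap L F c)⁻¹ := by
  have hjT : j⁻¹ ∈ Algebra.adjoin L {j⁻¹} := Algebra.self_mem_adjoin_singleton L j⁻¹
  have hciT : (algebraMap L F c)⁻¹ ∈ Algebra.adjoin L {j⁻¹} := by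
    rw [← map_inv₀]
    exact Subalgebra.algebraMap_mem _ _
  have h2 : (2 : F) ∈ Algebra.adjoin L {j⁻¹} := ofNat_mem _ 2
  have hcF0 : algebraMap L F c ≠ 0 := (_root_.map_ne_zero _).mpr hc0
  have hjinv := inv_eq_of_cubic_rel hv0 hjx
  generalize (x + algebraMap L F c)⁻¹ = y at hjinv ⊢
  refine isIntegral_of_cubic _ y (-(2 * (algebraMap L F c)⁻¹)) ((algebraMap L F c)⁻¹ ^ 2)
    (-((algebraMap L F c)⁻¹ ^ 2 * j⁻¹)) (Subalgebra.neg_mem _ (Subalgebra.mul_mem _ h2 hciT))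
    (Subalgebra.pow_mem _ hciT _)
    (Subalgebra.neg_mem _ (Subalgebra.mul_mem _ (Subalgebra.pow_mem _ hciT _) hjT)) ?_
  rw [hjinv]
  field_simp
  ring

/-- **The chart ring of `j` lifts** (from the two-chart squeeze on the line `x`, where
`j x² = (x + c)³`): every element of the special fibre integral over `k[j̄]` is the reduction of
an element of `O` integral over `L[j]`. -/
theorem exists_lift_jFin (O : ValuationSubring F) (red : O →+* Fk)
    (x : F) (hx : x ∈ O) (hxi : x⁻¹ ∈ O) (hx0 : x ≠ 0)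
    (c : L) (hc0 : c ≠ 0) (hc : algebraMap L F c ∈ O) (cb : k)
    (hcb : red ⟨algebraMap L F c, hc⟩ = algebraMap k Fk cb)
    (j : F) (hj : j ∈ O) (hjx : j * x ^ 2 = (x + algebraMap L F c) ^ 3)
    (hsq : ∃ n₀ : ℕ, ∀ a b : ℕ, n₀ ≤ a + b → ∀ G : Fk,
      IsIntegral (Algebra.adjoin k {red ⟨x, hx⟩}) (red ⟨x, hx⟩ ^ b * G) →
      IsIntegral (Algebra.adjoin k {(red ⟨x, hx⟩)⁻¹}) ((red ⟨x, hx⟩)⁻¹ ^ a * G) →
      ∃ (f : F) (hf : f ∈ O), IsIntegral (Algebra.adjoin L {x}) (x ^ b * f) ∧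
        IsIntegral (Algebra.adjoin L {x⁻¹}) (x⁻¹ ^ a * f) ∧ red ⟨f, hf⟩ = G)
    (g : Fk) (hg : IsIntegral (Algebra.adjoin k {red ⟨j, hj⟩}) g) :
    ∃ (f : F) (hf : f ∈ O), IsIntegral (Algebra.adjoin L {j}) f ∧ red ⟨f, hf⟩ = g := by
  obtain ⟨n₀, hsq⟩ := hsq
  have hxb0 : red ⟨x, hx⟩ ≠ 0 := red_ne_zero_of_inv_mem O red hx hxi hx0
  have hjxb : red ⟨j, hj⟩ * red ⟨x, hx⟩ ^ 2 = (red ⟨x, hx⟩ + algebraMap k Fk cb) ^ 3 := by
    have h1 : (⟨j, hj⟩ * ⟨x, hx⟩ ^ 2 : O) = (⟨x, hx⟩ + ⟨algebraMap L F c, hc⟩) ^ 3 :=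
      Subtype.ext hjx
    have h2 := congrArg red h1
    rwa [map_mul, map_pow, map_pow, map_add, hcb] at h2
  generalize red ⟨x, hx⟩ = xb at hsq hxb0 hjxb
  generalize red ⟨j, hj⟩ = jb at hg hjxb
  have hjb : jb = (xb + algebraMap k Fk cb) ^ 3 * xb⁻¹ ^ 2 := by
    rw [← hjxb, mul_assoc, ← mul_pow, mul_inv_cancel₀ hxb0, one_pow, mul_one]
  have hxbS : xb ∈ Algebra.adjoin k {xb, xb⁻¹} := Algebra.subset_adjoin (Set.mem_insert _ _)
  have hxibS : xb⁻¹ ∈ Algebra.adjoin k {xb, xb⁻¹} :=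
    Algebra.subset_adjoin (Set.mem_insert_of_mem _ rfl)
  have hg' : IsIntegral (Algebra.adjoin k {xb, xb⁻¹}) g := by
    refine isIntegral_of_subalgebra_le (Algebra.adjoin_le ?_) hg
    rw [Set.singleton_subset_iff, hjb]
    exact Subalgebra.mul_mem _ (Subalgebra.pow_mem _
      (Subalgebra.add_mem _ hxbS (Subalgebra.algebraMap_mem _ cb)) _) (Subalgebra.pow_mem _ hxibS _)
  obtain ⟨b₀, hb₀⟩ := exists_forall_isIntegral_pow_mul_adjoin (Algebra.adjoin k {xb}) xb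
    (Algebra.self_mem_adjoin_singleton k xb) {xb, xb⁻¹}
    (fun s hs => by
      rcases hs with hs | hs
      · exact ⟨0, by rw [hs, pow_zero, one_mul]; exact Algebra.self_mem_adjoin_singleton k _⟩
      · exact ⟨1, by
          rw [Set.mem_singleton_iff.mp hs, pow_one, mul_inv_cancel₀ hxb0]
          exact Subalgebra.one_mem _⟩) g hg'
  obtain ⟨a₀, ha₀⟩ := exists_forall_isIntegral_pow_mul_adjoin (Algebra.adjoin k {xb⁻¹}) xb⁻¹
    (Algebra.self_mem_adjoin_singleton k xb⁻¹) {xb, xb⁻¹}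
    (fun s hs => by
      rcases hs with hs | hs
      · exact ⟨1, by rw [hs, pow_one, inv_mul_cancel₀ hxb0]; exact Subalgebra.one_mem _⟩
      · exact ⟨0, by
          rw [Set.mem_singleton_iff.mp hs, pow_zero, one_mul]
          exact Algebra.self_mem_adjoin_singleton k _⟩) g hg'
  obtain ⟨f, hf, hf1, -, hfred⟩ := hsq (max a₀ n₀) b₀
    (le_trans (le_max_right _ _) (Nat.le_add_right _ _)) g (hb₀ b₀ le_rfl)
    (ha₀ _ (le_max_left _ _))
  refine ⟨f, hf, ?_, hfred⟩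
  have hxint : IsIntegral (Algebra.adjoin L {j}) x := isIntegral_adjoin_of_cubic_rel c hjx
  have hxiint : IsIntegral (Algebra.adjoin L {j}) x⁻¹ :=
    isIntegral_adjoin_inv_of_cubic_rel hx0 c hc0 hjx
  have h1 : IsIntegral (Algebra.adjoin L {j}) (x ^ b₀ * f) :=
    isIntegral_of_isIntegral_adjoin _ {x}
      (fun s hs => by rw [Set.mem_singleton_iff.mp hs]; exact hxint) hf1
  have h2 : f = x⁻¹ ^ b₀ * (x ^ b₀ * f) := by
    rw [← mul_assoc, ← mul_pow, inv_mul_cancel₀ hx0, one_pow, one_mul]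
  rw [h2]
  exact (hxiint.pow _).mul h1

/-- **The chart ring of `j⁻¹` lifts** (from the two-chart squeeze on the line `x`, where
`j x² = (x + c)³` and `x + c` is a unit of `O`): every element of the special fibre integral over
`k[j̄⁻¹]` is the reduction of an element of `O` integral over `L[j⁻¹]`. -/
theorem exists_lift_jInf (O : ValuationSubring F) (red : O →+* Fk)
    (x : F) (hx : x ∈ O) (hxi : x⁻¹ ∈ O) (hx0 : x ≠ 0)
    (c : L) (hc0 : c ≠ 0) (hc : algebraMap L F c ∈ O) (cb : k)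
    (hcb : red ⟨algebraMap L F c, hc⟩ = algebraMap k Fk cb)
    (hv0 : x + algebraMap L F c ≠ 0) (hvi : (x + algebraMap L F c)⁻¹ ∈ O)
    (j : F) (hj : j ∈ O) (hjx : j * x ^ 2 = (x + algebraMap L F c) ^ 3)
    (hsq : ∃ n₀ : ℕ, ∀ a b : ℕ, n₀ ≤ a + b → ∀ G : Fk,
      IsIntegral (Algebra.adjoin k {red ⟨x, hx⟩}) (red ⟨x, hx⟩ ^ b * G) →
      IsIntegral (Algebra.adjoin k {(red ⟨x, hx⟩)⁻¹}) ((red ⟨x, hx⟩)⁻¹ ^ a * G) →
      ∃ (f : F) (hf : f ∈ O), IsIntegral (Algebra.adjoin L {x}) (x ^ b * f) ∧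
        IsIntegral (Algebra.adjoin L {x⁻¹}) (x⁻¹ ^ a * f) ∧ red ⟨f, hf⟩ = G)
    (g : Fk) (hg : IsIntegral (Algebra.adjoin k {(red ⟨j, hj⟩)⁻¹}) g) :
    ∃ (f : F) (hf : f ∈ O), IsIntegral (Algebra.adjoin L {j⁻¹}) f ∧ red ⟨f, hf⟩ = g := by
  obtain ⟨n₀, hsq⟩ := hsq
  have hjxb : red ⟨j, hj⟩ * red ⟨x, hx⟩ ^ 2 = (red ⟨x, hx⟩ + algebraMap k Fk cb) ^ 3 := by
    have h1 : (⟨j, hj⟩ * ⟨x, hx⟩ ^ 2 : O) = (⟨x, hx⟩ + ⟨algebraMap L F c, hc⟩) ^ 3 :=
      Subtype.ext hjx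
    have h2 := congrArg red h1
    rwa [map_mul, map_pow, map_pow, map_add, hcb] at h2
  have hvO : x + algebraMap L F c ∈ O := add_mem hx hc
  have hredv : red ⟨x + algebraMap L F c, hvO⟩ = red ⟨x, hx⟩ + algebraMap k Fk cb := by
    have h1 : (⟨x + algebraMap L F c, hvO⟩ : O) = ⟨x, hx⟩ + ⟨algebraMap L F c, hc⟩ := rfl
    rw [h1, map_add, hcb]
  have hvb0 : red ⟨x, hx⟩ + algebraMap k Fk cb ≠ 0 := by
    rw [← hredv]
    exact red_ne_zero_of_inv_mem O red hvO hvi hv0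
  have hjbinv := inv_eq_of_cubic_rel hvb0 hjxb
  have hg' : IsIntegral (Algebra.adjoin k {(red ⟨x, hx⟩ + algebraMap k Fk cb)⁻¹}) g := by
    refine isIntegral_of_subalgebra_le (Algebra.adjoin_le ?_) hg
    rw [Set.singleton_subset_iff, hjbinv]
    have hyT := Algebra.self_mem_adjoin_singleton k (red ⟨x, hx⟩ + algebraMap k Fk cb)⁻¹
    exact Subalgebra.mul_mem _ hyT (Subalgebra.pow_mem _ (Subalgebra.sub_mem _
      (Subalgebra.one_mem _) (Subalgebra.mul_mem _ (Subalgebra.algebraMap_mem _ cb) hyT)) _)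
  obtain ⟨f, hf, hfint, hfred⟩ := exists_lift_shift O red x hx hxi hx0 c hc cb hcb hv0 hvi
    ⟨n₀, fun a ha G hG1 hG2 => by
      obtain ⟨f, hf, h1, h2, h3⟩ := hsq a 0 (by omega) G (by rwa [pow_zero, one_mul]) hG2
      exact ⟨f, hf, by rwa [pow_zero, one_mul] at h1, h2, h3⟩⟩ g hg'
  refine ⟨f, hf, ?_, hfred⟩
  exact isIntegral_of_isIntegral_adjoin _ {(x + algebraMap L F c)⁻¹}
    (fun s hs => by
      rw [Set.mem_singleton_iff.mp hs]
      exact isIntegral_adjoin_shift_of_cubic_rel c hc0 hv0 hjx) hfint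

/-- **The chart ring of the overlap `j, j⁻¹` lifts.** -/
theorem exists_lift_jMid (O : ValuationSubring F) (red : O →+* Fk)
    (x : F) (hx : x ∈ O) (hxi : x⁻¹ ∈ O) (hx0 : x ≠ 0)
    (c : L) (hc0 : c ≠ 0) (hc : algebraMap L F c ∈ O) (cb : k)
    (hcb : red ⟨algebraMap L F c, hc⟩ = algebraMap k Fk cb)
    (hv0 : x + algebraMap L F c ≠ 0) (hvi : (x + algebraMap L F c)⁻¹ ∈ O)
    (j : F) (hj : j ∈ O) (hjx : j * x ^ 2 = (x + algebraMap L F c) ^ 3)
    (hsq : ∃ n₀ : ℕ, ∀ a b : ℕ, n₀ ≤ a + b → ∀ G : Fk,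
      IsIntegral (Algebra.adjoin k {red ⟨x, hx⟩}) (red ⟨x, hx⟩ ^ b * G) →
      IsIntegral (Algebra.adjoin k {(red ⟨x, hx⟩)⁻¹}) ((red ⟨x, hx⟩)⁻¹ ^ a * G) →
      ∃ (f : F) (hf : f ∈ O), IsIntegral (Algebra.adjoin L {x}) (x ^ b * f) ∧
        IsIntegral (Algebra.adjoin L {x⁻¹}) (x⁻¹ ^ a * f) ∧ red ⟨f, hf⟩ = G)
    (g : Fk) (hg : IsIntegral (Algebra.adjoin k {red ⟨j, hj⟩, (red ⟨j, hj⟩)⁻¹}) g) :
    ∃ (f : F) (hf : f ∈ O), IsIntegral (Algebra.adjoin L {j, j⁻¹}) f ∧ red ⟨f, hf⟩ = g := by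
  have hj0 : j ≠ 0 := by
    intro h0
    rw [h0, zero_mul] at hjx
    exact hv0 (pow_eq_zero_iff (n := 3) (by norm_num) |>.mp hjx.symm)
  have hji : j⁻¹ ∈ O := by
    rw [inv_eq_of_cubic_rel hv0 hjx]
    exact mul_mem hvi (pow_mem (sub_mem (one_mem O) (mul_mem hc hvi)) 2)
  have hjb0 : red ⟨j, hj⟩ ≠ 0 := red_ne_zero_of_inv_mem O red hj hji hj0
  have hredji : red ⟨j⁻¹, hji⟩ = (red ⟨j, hj⟩)⁻¹ := red_inv_eq O red hj hji hj0
  obtain ⟨n₁, hn₁⟩ := exists_forall_isIntegral_pow_mul_adjoin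
    (Algebra.adjoin k {red ⟨j, hj⟩}) (red ⟨j, hj⟩)
    (Algebra.self_mem_adjoin_singleton k _) {red ⟨j, hj⟩, (red ⟨j, hj⟩)⁻¹}
    (fun s hs => by
      rcases hs with hs | hs
      · exact ⟨0, by rw [hs, pow_zero, one_mul]; exact Algebra.self_mem_adjoin_singleton k _⟩
      · exact ⟨1, by
          rw [Set.mem_singleton_iff.mp hs, pow_one, mul_inv_cancel₀ hjb0]
          exact Subalgebra.one_mem _⟩) g hg
  obtain ⟨f', hf', hf'int, hf'red⟩ := exists_lift_jFin O red x hx hxi hx0 c hc0 hc cb hcb j hj hjx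
    hsq _ (hn₁ n₁ le_rfl)
  refine ⟨j⁻¹ ^ n₁ * f', mul_mem (pow_mem hji n₁) hf', ?_, ?_⟩
  · have hle : Algebra.adjoin L {j} ≤ Algebra.adjoin L {j, j⁻¹} :=
      Algebra.adjoin_mono (Set.singleton_subset_iff.mpr (Set.mem_insert _ _))
    have hjiS : j⁻¹ ∈ Algebra.adjoin L {j, j⁻¹} :=
      Algebra.subset_adjoin (Set.mem_insert_of_mem _ rfl)
    have h1 : IsIntegral (Algebra.adjoin L {j, j⁻¹}) (j⁻¹ ^ n₁) :=
      isIntegral_of_mem_subalgebra (Subalgebra.pow_mem _ hjiS n₁)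
    exact h1.mul (isIntegral_of_subalgebra_le hle hf'int)
  · have h1 : (⟨j⁻¹ ^ n₁ * f', mul_mem (pow_mem hji n₁) hf'⟩ : O) =
        ⟨j⁻¹, hji⟩ ^ n₁ * ⟨f', hf'⟩ := rfl
    rw [h1, map_mul, map_pow, hf'red, hredji, ← mul_assoc, ← mul_pow, inv_mul_cancel₀ hjb0,
      one_pow, one_mul]

end JLine

end Fermat.Agent.S33.helper7687
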