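/-
S33-JLIFT, modular instance (helper7687; board row 2363).

For a level `N` with `2 ∣ N`, a prime `ℓ ∤ N` and a place `A` of `ℚ̄` over `ℓ`:  the reduced
chart rings of the `j`-CHARTS of the special fibre `F_k = modularFunctionFieldFullC k N`
(`k = ResidueField A`) are the reductions of the integral chart rings of `F̄_N`:

* `exists_lift_of_isIntegral_gaussJ` / `_inv` / `_mid` : every element of `F_k` integral over
  `k[j̄]` (resp. `k[j̄⁻¹]`, `k[j̄, j̄⁻¹]`) is the Gauss reduction of a Gauss-integral element of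
  `F̄_N` integral over `ℚ̄[j]` (resp. `ℚ̄[j⁻¹]`, `ℚ̄[j, j⁻¹]`);
* `gaussFRed_mem_chartRingBar_jBar` / `exists_gaussFRed_eq_jBar` (and `_inv`) : the same in the
  E2 vocabulary of `S35.helper4658` (`chartRing A N x`, `chartRingBar k N x̄`), i.e. verbatim the
  hypotheses `hred` / `hsurj` of `helper2736.kron_conductor_modular` / `coeffMap_mem_of_stable`
  for `B' := chartRing A N (jBar N)`, `B̄ := chartRingBar k N j̄` (and for `j⁻¹`).

Proof: transfer of the landed two-chart squeeze on the Hauptmodul line `t_2`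
(`S35.helper4658.squeeze_chart_t2`) along `j t_2² = (t_2 + 256)³`, by the Mathlib-only core
`helper7687_JLiftCore` (the chart `j ≠ ∞` is the overlap of the two `t_2`-charts; the chart
`j ≠ 0` is the shifted chart `t_2 ≠ -256`).  The containments `hred` are the landed integrality
transfer on the `j`-line (`helper1733.gauss_integralityTransfer`, every level).
-/
import Fermat.Agent.S33.helper7687_JLiftCore
import Fermat.Agent.S35.helper4658_Squeeze

set_option autoImplicit false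
set_option synthInstance.maxHeartbeats 400000

noncomputable section

namespace Fermat.Agent.S33.helper7687

open ModularCurve
open Fermat.Agent.S18 Fermat.Agent.S18.helper2030 Fermat.Agent.S18.helper8566
open Fermat.Agent.S35.helper4658

local notation "Qb" => AlgebraicClosure ℚ

section Modular

variable (N : ℕ) [NeZero N] (ℓ : ℕ) [Fact ℓ.Prime] (hℓN : ¬ ℓ ∣ N)
  (A : ValuationSubring (AlgebraicClosure ℚ)) (hA : A.LiesOverPrime ℓ)

/-- The reduction `j̄ ∈ F_k` of `j` (as an element of the special fibre at level `N`). -/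
def jRed : modularFunctionFieldFullC (IsLocalRing.ResidueField A) N :=
  gaussRed N ℓ hℓN A hA ⟨helper1733.gaussJ Qb N, helper1733.gaussJ_mem N ℓ hℓN A hA⟩

/-- `j̄` is the `q`-series `j` over the residue field. -/
theorem coe_jRed :
    ((jRed N ℓ hℓN A hA : modularFunctionFieldFullC (IsLocalRing.ResidueField A) N) :
      LaurentSeries (IsLocalRing.ResidueField A)) = jqModC (IsLocalRing.ResidueField A) := by
  unfold jRed
  rw [helper1733.gaussResidue_of_eq N ℓ hℓN A hA _ (jqModC A) (coeffMap_jqModC _).symm]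
  exact coeffMap_jqModC _

/-- Any element of `F_k` whose `q`-series is `j` is `j̄`. -/
theorem jRed_eq_of_coe {jb : modularFunctionFieldFullC (IsLocalRing.ResidueField A) N}
    (h : (jb : LaurentSeries (IsLocalRing.ResidueField A)) =
      jqModC (IsLocalRing.ResidueField A)) : jRed N ℓ hℓN A hA = jb :=
  Subtype.ext ((coe_jRed N ℓ hℓN A hA).trans h.symm)

/-- An element of the Gauss ring with nonzero reduction is a unit of the Gauss ring. -/
theorem ne_zero_and_inv_mem_of_gaussRed_ne_zero {f : modularFunctionFieldBar N}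
    (hf : f ∈ gaussO N ℓ hℓN A hA) (h : gaussRed N ℓ hℓN A hA ⟨f, hf⟩ ≠ 0) :
    f ≠ 0 ∧ f⁻¹ ∈ gaussO N ℓ hℓN A hA := by
  have hu : IsUnit (⟨f, hf⟩ : gaussO N ℓ hℓN A hA) := by
    by_contra hcon
    exact h ((helper508.gaussResidue_eq_zero_iff N ℓ hℓN A hA ⟨f, hf⟩).mpr hcon)
  obtain ⟨v, hv⟩ := hu
  have h1 : f * (((v⁻¹ : (gaussO N ℓ hℓN A hA)ˣ) : gaussO N ℓ hℓN A hA) :
      modularFunctionFieldBar N) = 1 := by
    have := congrArg (fun z : gaussO N ℓ hℓN A hA => (z : modularFunctionFieldBar N)) v.mul_inv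
    rw [hv] at this
    exact this
  refine ⟨left_ne_zero_of_mul_eq_one h1, ?_⟩
  rw [inv_eq_of_mul_eq_one_right h1]
  exact ((v⁻¹ : (gaussO N ℓ hℓN A hA)ˣ) : gaussO N ℓ hℓN A hA).2

/-- The constant `256` lies in the Gauss ring. -/
theorem const256_mem :
    algebraMap Qb (modularFunctionFieldBar N) (256 : Qb) ∈ gaussO N ℓ hℓN A hA :=
  (gaussO_algebraMap_mem_iff N ℓ hℓN A hA 256).mpr (ofNat_mem A 256)

/-- The constant `256` reduces to the constant `256`. -/
theorem gaussRed_const256 :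
    gaussRed N ℓ hℓN A hA ⟨algebraMap Qb (modularFunctionFieldBar N) (256 : Qb),
        const256_mem N ℓ hℓN A hA⟩ =
      algebraMap (IsLocalRing.ResidueField A)
        (modularFunctionFieldFullC (IsLocalRing.ResidueField A) N) 256 := by
  have e : (⟨algebraMap Qb (modularFunctionFieldBar N) (256 : Qb), const256_mem N ℓ hℓN A hA⟩ :
      gaussO N ℓ hℓN A hA) = (256 : gaussO N ℓ hℓN A hA) :=
    Subtype.ext (show algebraMap Qb (modularFunctionFieldBar N) (256 : Qb) =
      ((256 : gaussO N ℓ hℓN A hA) : modularFunctionFieldBar N) by rw [map_ofNat]; rfl)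
  rw [e, map_ofNat, map_ofNat]

/-- The relation `j t_2² = (t_2 + 256)³` in the shape of the core. -/
theorem gaussJ_rel (h2N : 2 ∣ N) :
    helper1733.gaussJ Qb N * helper4665.gaussT2 Qb N h2N ^ 2 =
      (helper4665.gaussT2 Qb N h2N + algebraMap Qb (modularFunctionFieldBar N) (256 : Qb)) ^ 3 := by
  rw [map_ofNat]
  exact helper4665.gaussJ_mul_gaussT2_sq N h2N

/-- `t_2 + 256` is a unit of the Gauss ring. -/
theorem t2_shift_unit (h2N : 2 ∣ N) :
    helper4665.gaussT2 Qb N h2N + algebraMap Qb (modularFunctionFieldBar N) (256 : Qb) ≠ 0 ∧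
      (helper4665.gaussT2 Qb N h2N + algebraMap Qb (modularFunctionFieldBar N) (256 : Qb))⁻¹ ∈
        gaussO N ℓ hℓN A hA := by
  have htr := (helper4665.gaussResidue_gaussT2_degree (L := Qb) N ℓ hℓN A hA h2N).1
  have hx := helper4665.gaussT2_mem (L := Qb) N ℓ hℓN A hA h2N
  have hvO : helper4665.gaussT2 Qb N h2N + algebraMap Qb (modularFunctionFieldBar N) (256 : Qb) ∈
      gaussO N ℓ hℓN A hA := add_mem hx (const256_mem N ℓ hℓN A hA)
  refine ne_zero_and_inv_mem_of_gaussRed_ne_zero N ℓ hℓN A hA hvO ?_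
  have h1 : (⟨helper4665.gaussT2 Qb N h2N + algebraMap Qb (modularFunctionFieldBar N) (256 : Qb),
      hvO⟩ : gaussO N ℓ hℓN A hA) = ⟨helper4665.gaussT2 Qb N h2N, hx⟩ +
        ⟨algebraMap Qb (modularFunctionFieldBar N) (256 : Qb), const256_mem N ℓ hℓN A hA⟩ := rfl
  rw [h1, map_add, gaussRed_const256]
  intro h0
  apply htr
  have h2 : gaussRed N ℓ hℓN A hA ⟨helper4665.gaussT2 Qb N h2N, hx⟩ =
      algebraMap (IsLocalRing.ResidueField A)
        (modularFunctionFieldFullC (IsLocalRing.ResidueField A) N) (-256) := by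
    rw [map_neg]
    exact eq_neg_of_add_eq_zero_left h0
  rw [show helper508.gaussResidue N ℓ hℓN A hA ⟨helper4665.gaussT2 Qb N h2N, hx⟩ =
    gaussRed N ℓ hℓN A hA ⟨helper4665.gaussT2 Qb N h2N, hx⟩ from rfl, h2]
  exact isAlgebraic_algebraMap _

/-- The landed two-chart squeeze on the `t_2`-line, in the shape of the core. -/
theorem squeeze_t2_core (h2N : 2 ∣ N) :
    ∃ n₀ : ℕ, ∀ a b : ℕ, n₀ ≤ a + b →
      ∀ G : modularFunctionFieldFullC (IsLocalRing.ResidueField A) N,
      IsIntegral (Algebra.adjoin (IsLocalRing.ResidueField A)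
        {gaussRed N ℓ hℓN A hA ⟨helper4665.gaussT2 Qb N h2N,
          helper4665.gaussT2_mem N ℓ hℓN A hA h2N⟩})
        (gaussRed N ℓ hℓN A hA ⟨helper4665.gaussT2 Qb N h2N,
          helper4665.gaussT2_mem N ℓ hℓN A hA h2N⟩ ^ b * G) →
      IsIntegral (Algebra.adjoin (IsLocalRing.ResidueField A)
        {(gaussRed N ℓ hℓN A hA ⟨helper4665.gaussT2 Qb N h2N,
          helper4665.gaussT2_mem N ℓ hℓN A hA h2N⟩)⁻¹})
        ((gaussRed N ℓ hℓN A hA ⟨helper4665.gaussT2 Qb N h2N,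
          helper4665.gaussT2_mem N ℓ hℓN A hA h2N⟩)⁻¹ ^ a * G) →
      ∃ (f : modularFunctionFieldBar N) (hf : f ∈ gaussO N ℓ hℓN A hA),
        IsIntegral (Algebra.adjoin Qb {helper4665.gaussT2 Qb N h2N})
          (helper4665.gaussT2 Qb N h2N ^ b * f) ∧
        IsIntegral (Algebra.adjoin Qb {(helper4665.gaussT2 Qb N h2N)⁻¹})
          ((helper4665.gaussT2 Qb N h2N)⁻¹ ^ a * f) ∧
        gaussRed N ℓ hℓN A hA ⟨f, hf⟩ = G := by
  obtain ⟨d, γ, cK, hd, -, -, hsq⟩ := squeeze_chart_t2 N ℓ hℓN A hA h2N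
  refine ⟨cK.toNat, fun a b hab G hG1 hG2 => ?_⟩
  have hcK : cK ≤ ((a : ℤ) + b) * d := by
    have h1 : cK ≤ (cK.toNat : ℤ) := Int.self_le_toNat cK
    have h2 : (cK.toNat : ℤ) ≤ (a : ℤ) + b := by exact_mod_cast hab
    have h3 : (1 : ℤ) ≤ d := by exact_mod_cast hd
    have h4 : (0 : ℤ) ≤ (a : ℤ) + b := by positivity
    nlinarith
  obtain ⟨f, hfL, hf, hfred⟩ := (hsq a b hcK).2.2 G ⟨hG1, hG2⟩
  exact ⟨f, hf, hfL.1, hfL.2, hfred⟩

/-- **Chart `j`**: every element of `F_k` integral over `k[j̄]` is the reduction of a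
Gauss-integral element of `F̄_N` integral over `ℚ̄[j]` (`2 ∣ N`, `ℓ ∤ N`). -/
theorem exists_lift_of_isIntegral_gaussJ (h2N : 2 ∣ N)
    (g : modularFunctionFieldFullC (IsLocalRing.ResidueField A) N)
    (hg : IsIntegral (Algebra.adjoin (IsLocalRing.ResidueField A) {jRed N ℓ hℓN A hA}) g) :
    ∃ (f : modularFunctionFieldBar N) (hf : f ∈ gaussO N ℓ hℓN A hA),
      IsIntegral (Algebra.adjoin Qb {helper1733.gaussJ Qb N}) f ∧
        gaussRed N ℓ hℓN A hA ⟨f, hf⟩ = g := by
  have hL := helper789.lineData_t2 N ℓ hℓN A hA h2N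
  have hx0 : helper4665.gaussT2 Qb N h2N ≠ 0 := fun h => hL.htr (h ▸ isAlgebraic_zero)
  exact exists_lift_jFin (gaussO N ℓ hℓN A hA) (gaussRed N ℓ hℓN A hA)
    (helper4665.gaussT2 Qb N h2N) (helper4665.gaussT2_mem N ℓ hℓN A hA h2N) hL.hxi hx0
    (256 : Qb) (by norm_num) (const256_mem N ℓ hℓN A hA) 256 (gaussRed_const256 N ℓ hℓN A hA)
    (helper1733.gaussJ Qb N) (helper1733.gaussJ_mem N ℓ hℓN A hA) (gaussJ_rel N h2N)
    (squeeze_t2_core N ℓ hℓN A hA h2N) g hg

/-- **Chart `j⁻¹`**: every element of `F_k` integral over `k[j̄⁻¹]` is the reduction of a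
Gauss-integral element of `F̄_N` integral over `ℚ̄[j⁻¹]` (`2 ∣ N`, `ℓ ∤ N`). -/
theorem exists_lift_of_isIntegral_gaussJ_inv (h2N : 2 ∣ N)
    (g : modularFunctionFieldFullC (IsLocalRing.ResidueField A) N)
    (hg : IsIntegral (Algebra.adjoin (IsLocalRing.ResidueField A) {(jRed N ℓ hℓN A hA)⁻¹}) g) :
    ∃ (f : modularFunctionFieldBar N) (hf : f ∈ gaussO N ℓ hℓN A hA),
      IsIntegral (Algebra.adjoin Qb {(helper1733.gaussJ Qb N)⁻¹}) f ∧
        gaussRed N ℓ hℓN A hA ⟨f, hf⟩ = g := by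
  have hL := helper789.lineData_t2 N ℓ hℓN A hA h2N
  have hx0 : helper4665.gaussT2 Qb N h2N ≠ 0 := fun h => hL.htr (h ▸ isAlgebraic_zero)
  obtain ⟨hv0, hvi⟩ := t2_shift_unit N ℓ hℓN A hA h2N
  exact exists_lift_jInf (gaussO N ℓ hℓN A hA) (gaussRed N ℓ hℓN A hA)
    (helper4665.gaussT2 Qb N h2N) (helper4665.gaussT2_mem N ℓ hℓN A hA h2N) hL.hxi hx0
    (256 : Qb) (by norm_num) (const256_mem N ℓ hℓN A hA) 256 (gaussRed_const256 N ℓ hℓN A hA)
    hv0 hvi (helper1733.gaussJ Qb N) (helper1733.gaussJ_mem N ℓ hℓN A hA) (gaussJ_rel N h2N)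
    (squeeze_t2_core N ℓ hℓN A hA h2N) g hg

/-- **Overlap chart `j, j⁻¹`**: every element of `F_k` integral over `k[j̄, j̄⁻¹]` is the reduction
of a Gauss-integral element of `F̄_N` integral over `ℚ̄[j, j⁻¹]` (`2 ∣ N`, `ℓ ∤ N`). -/
theorem exists_lift_of_isIntegral_gaussJ_mid (h2N : 2 ∣ N)
    (g : modularFunctionFieldFullC (IsLocalRing.ResidueField A) N)
    (hg : IsIntegral (Algebra.adjoin (IsLocalRing.ResidueField A)
      {jRed N ℓ hℓN A hA, (jRed N ℓ hℓN A hA)⁻¹}) g) :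
    ∃ (f : modularFunctionFieldBar N) (hf : f ∈ gaussO N ℓ hℓN A hA),
      IsIntegral (Algebra.adjoin Qb {helper1733.gaussJ Qb N, (helper1733.gaussJ Qb N)⁻¹}) f ∧
        gaussRed N ℓ hℓN A hA ⟨f, hf⟩ = g := by
  have hL := helper789.lineData_t2 N ℓ hℓN A hA h2N
  have hx0 : helper4665.gaussT2 Qb N h2N ≠ 0 := fun h => hL.htr (h ▸ isAlgebraic_zero)
  obtain ⟨hv0, hvi⟩ := t2_shift_unit N ℓ hℓN A hA h2N
  exact exists_lift_jMid (gaussO N ℓ hℓN A hA) (gaussRed N ℓ hℓN A hA)
    (helper4665.gaussT2 Qb N h2N) (helper4665.gaussT2_mem N ℓ hℓN A hA h2N) hL.hxi hx0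
    (256 : Qb) (by norm_num) (const256_mem N ℓ hℓN A hA) 256 (gaussRed_const256 N ℓ hℓN A hA)
    hv0 hvi (helper1733.gaussJ Qb N) (helper1733.gaussJ_mem N ℓ hℓN A hA) (gaussJ_rel N h2N)
    (squeeze_t2_core N ℓ hℓN A hA h2N) g hg

/-! ### The E2 vocabulary of `S35.helper4658` (`chartRing`, `chartRingBar`) on the `j`-charts -/

/-- (`hred`, chart `j`, every level `N`, `ℓ ∤ N`) **Reductions of the integral `j`-chart ring lie
in the reduced `j`-chart ring.** -/
theorem gaussFRed_mem_chartRingBar_jBar (y : modularFunctionFieldBar N)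
    (hy : y ∈ chartRing A N (Fermat.Agent.S24.helper24.jBar N)) :
    helper8991.gaussFRed A (IsLocalRing.residue A) N ⟨y, chartRing_le_gaussF A N _ y hy⟩ ∈
      chartRingBar (IsLocalRing.ResidueField A) N (jRed N ℓ hℓN A hA) := by
  have hyO : y ∈ gaussO N ℓ hℓN A hA := by
    rw [← gaussF_eq_gaussO N ℓ hℓN A hA]; exact hy.1
  rw [gaussFRed_eq_gaussRed N ℓ hℓN A hA y hyO]
  have hint : IsIntegral (Algebra.adjoin Qb {helper1733.gaussJ Qb N}) y := by
    rw [← helper789.jBar_eq_gaussJ]; exact hy.2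
  exact coe_mem_chartRingBar ((helper1733.gauss_integralityTransfer N ℓ hℓN A hA).1 y hyO hint)

/-- (`hsurj`, chart `j`; `2 ∣ N`, `ℓ ∤ N`) **Every element of the reduced `j`-chart ring
`chartRingBar k N j̄` is the `helper8991.gaussFRed`-reduction of an element of the integral
`j`-chart ring `chartRing A N (jBar N)`.**  Verbatim the hypothesis `hsurj` of
`helper2736.kron_conductor_modular` for `B' := chartRing A N (jBar N)`,
`hB' := chartRing_le_gaussF A N _`, `B̄ := chartRingBar k N j̄`, `π := IsLocalRing.residue A`. -/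
theorem exists_gaussFRed_eq_jBar (h2N : 2 ∣ N) :
    ∀ u ∈ chartRingBar (IsLocalRing.ResidueField A) N (jRed N ℓ hℓN A hA),
      ∃ y, ∃ hy : y ∈ chartRing A N (Fermat.Agent.S24.helper24.jBar N),
        helper8991.gaussFRed A (IsLocalRing.residue A) N
          ⟨y, chartRing_le_gaussF A N _ y hy⟩ = u := by
  intro u hu
  obtain ⟨g, hg, rfl⟩ := mem_chartRingBar.mp hu
  obtain ⟨f, hf, hfint, hfred⟩ := exists_lift_of_isIntegral_gaussJ N ℓ hℓN A hA h2N g hg
  have hf' : f ∈ helper8991.gaussF A (IsLocalRing.residue A) N := by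
    rw [gaussF_eq_gaussO N ℓ hℓN A hA]; exact hf
  refine ⟨f, ⟨hf', by rw [helper789.jBar_eq_gaussJ]; exact hfint⟩, ?_⟩
  rw [gaussFRed_eq_gaussRed N ℓ hℓN A hA f hf, hfred]

/-- (`hred`, chart `j⁻¹`, every level `N`, `ℓ ∤ N`). -/
theorem gaussFRed_mem_chartRingBar_jBar_inv (y : modularFunctionFieldBar N)
    (hy : y ∈ chartRing A N (Fermat.Agent.S24.helper24.jBar N)⁻¹) :
    helper8991.gaussFRed A (IsLocalRing.residue A) N ⟨y, chartRing_le_gaussF A N _ y hy⟩ ∈
      chartRingBar (IsLocalRing.ResidueField A) N (jRed N ℓ hℓN A hA)⁻¹ := by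
  have hyO : y ∈ gaussO N ℓ hℓN A hA := by
    rw [← gaussF_eq_gaussO N ℓ hℓN A hA]; exact hy.1
  rw [gaussFRed_eq_gaussRed N ℓ hℓN A hA y hyO]
  have hint : IsIntegral (Algebra.adjoin Qb {(helper1733.gaussJ Qb N)⁻¹}) y := by
    rw [← helper789.jBar_eq_gaussJ]; exact hy.2
  exact coe_mem_chartRingBar ((helper1733.gauss_integralityTransfer N ℓ hℓN A hA).2 y hyO hint)

/-- (`hsurj`, chart `j⁻¹`; `2 ∣ N`, `ℓ ∤ N`) **Every element of the reduced `j⁻¹`-chart ring is
the reduction of an element of the integral `j⁻¹`-chart ring.** -/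
theorem exists_gaussFRed_eq_jBar_inv (h2N : 2 ∣ N) :
    ∀ u ∈ chartRingBar (IsLocalRing.ResidueField A) N (jRed N ℓ hℓN A hA)⁻¹,
      ∃ y, ∃ hy : y ∈ chartRing A N (Fermat.Agent.S24.helper24.jBar N)⁻¹,
        helper8991.gaussFRed A (IsLocalRing.residue A) N
          ⟨y, chartRing_le_gaussF A N _ y hy⟩ = u := by
  intro u hu
  obtain ⟨g, hg, rfl⟩ := mem_chartRingBar.mp hu
  obtain ⟨f, hf, hfint, hfred⟩ := exists_lift_of_isIntegral_gaussJ_inv N ℓ hℓN A hA h2N g hg
  have hf' : f ∈ helper8991.gaussF A (IsLocalRing.residue A) N := by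
    rw [gaussF_eq_gaussO N ℓ hℓN A hA]; exact hf
  refine ⟨f, ⟨hf', by rw [helper789.jBar_eq_gaussJ]; exact hfint⟩, ?_⟩
  rw [gaussFRed_eq_gaussRed N ℓ hℓN A hA f hf, hfred]

/-- The reduced `j`-chart ring contains `j̄` itself, a non-constant series (coefficient `1` in
degree `-1` is not used here; see `coe_jRed`). -/
theorem jRed_mem_chartRingBar :
    jqModC (IsLocalRing.ResidueField A) ∈
      chartRingBar (IsLocalRing.ResidueField A) N (jRed N ℓ hℓN A hA) := by
  rw [← coe_jRed N ℓ hℓN A hA]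
  exact self_mem_chartRingBar _ N _

end Modular

section KronKit

/-! ### The binders of a Kronecker-conductor call on the `j`-charts

Flat forms (`y ∈ gaussF`, `IsIntegral`) of `hIT` / `hsurj`, the stability `hφt` of `j̄`, `j̄⁻¹`
under coefficientwise endomorphisms, and a non-constant coefficient (`hcoeff`). -/

variable (N : ℕ) [NeZero N] (ℓ : ℕ) [Fact ℓ.Prime] (hℓN : ¬ ℓ ∣ N)
  (A : ValuationSubring (AlgebraicClosure ℚ)) (hA : A.LiesOverPrime ℓ)

/-- (`hIT`, chart `j`, flat form.) -/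
theorem gaussFRed_mem_chartRingBar_of_isIntegral_jBar (y : modularFunctionFieldBar N)
    (hy : y ∈ helper8991.gaussF A (IsLocalRing.residue A) N)
    (hint : IsIntegral (Algebra.adjoin Qb {Fermat.Agent.S24.helper24.jBar N}) y) :
    helper8991.gaussFRed A (IsLocalRing.residue A) N ⟨y, hy⟩ ∈
      chartRingBar (IsLocalRing.ResidueField A) N (jRed N ℓ hℓN A hA) :=
  gaussFRed_mem_chartRingBar_jBar N ℓ hℓN A hA y ⟨hy, hint⟩

/-- (`hIT`, chart `j⁻¹`, flat form.) -/
theorem gaussFRed_mem_chartRingBar_of_isIntegral_jBar_inv (y : modularFunctionFieldBar N)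
    (hy : y ∈ helper8991.gaussF A (IsLocalRing.residue A) N)
    (hint : IsIntegral (Algebra.adjoin Qb {(Fermat.Agent.S24.helper24.jBar N)⁻¹}) y) :
    helper8991.gaussFRed A (IsLocalRing.residue A) N ⟨y, hy⟩ ∈
      chartRingBar (IsLocalRing.ResidueField A) N (jRed N ℓ hℓN A hA)⁻¹ :=
  gaussFRed_mem_chartRingBar_jBar_inv N ℓ hℓN A hA y ⟨hy, hint⟩

/-- (`hsurj`, chart `j`, flat form; `2 ∣ N`.) -/
theorem exists_isIntegral_jBar_gaussFRed_eq (h2N : 2 ∣ N) :
    ∀ u ∈ chartRingBar (IsLocalRing.ResidueField A) N (jRed N ℓ hℓN A hA),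
      ∃ y, ∃ hy : y ∈ helper8991.gaussF A (IsLocalRing.residue A) N,
        IsIntegral (Algebra.adjoin Qb {Fermat.Agent.S24.helper24.jBar N}) y ∧
          helper8991.gaussFRed A (IsLocalRing.residue A) N ⟨y, hy⟩ = u := by
  intro u hu
  obtain ⟨y, hy, h⟩ := exists_gaussFRed_eq_jBar N ℓ hℓN A hA h2N u hu
  exact ⟨y, hy.1, hy.2, h⟩

/-- (`hsurj`, chart `j⁻¹`, flat form; `2 ∣ N`.) -/
theorem exists_isIntegral_jBar_inv_gaussFRed_eq (h2N : 2 ∣ N) :
    ∀ u ∈ chartRingBar (IsLocalRing.ResidueField A) N (jRed N ℓ hℓN A hA)⁻¹,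
      ∃ y, ∃ hy : y ∈ helper8991.gaussF A (IsLocalRing.residue A) N,
        IsIntegral (Algebra.adjoin Qb {(Fermat.Agent.S24.helper24.jBar N)⁻¹}) y ∧
          helper8991.gaussFRed A (IsLocalRing.residue A) N ⟨y, hy⟩ = u := by
  intro u hu
  obtain ⟨y, hy, h⟩ := exists_gaussFRed_eq_jBar_inv N ℓ hℓN A hA h2N u hu
  exact ⟨y, hy.1, hy.2, h⟩

/-- `j̄` is fixed by every coefficientwise endomorphism (`hφt`, chart `j`). -/
theorem coeffMap_jRed (φ : IsLocalRing.ResidueField A →+* IsLocalRing.ResidueField A) :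
    coeffMap φ ((jRed N ℓ hℓN A hA : modularFunctionFieldFullC (IsLocalRing.ResidueField A) N) :
      LaurentSeries (IsLocalRing.ResidueField A)) =
      ((jRed N ℓ hℓN A hA : modularFunctionFieldFullC (IsLocalRing.ResidueField A) N) :
        LaurentSeries (IsLocalRing.ResidueField A)) := by
  rw [coe_jRed]
  exact coeffMap_jqModC φ

/-- The series of `j̄⁻¹`. -/
theorem coe_jRed_inv :
    (((jRed N ℓ hℓN A hA)⁻¹ : modularFunctionFieldFullC (IsLocalRing.ResidueField A) N) :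
      LaurentSeries (IsLocalRing.ResidueField A)) = (jqModC (IsLocalRing.ResidueField A))⁻¹ := by
  rw [← coe_jRed N ℓ hℓN A hA]
  rfl

/-- `j̄⁻¹` is fixed by every coefficientwise endomorphism (`hφt`, chart `j⁻¹`). -/
theorem coeffMap_jRed_inv (φ : IsLocalRing.ResidueField A →+* IsLocalRing.ResidueField A) :
    coeffMap φ (((jRed N ℓ hℓN A hA)⁻¹ : modularFunctionFieldFullC (IsLocalRing.ResidueField A) N) :
      LaurentSeries (IsLocalRing.ResidueField A)) =
      (((jRed N ℓ hℓN A hA)⁻¹ : modularFunctionFieldFullC (IsLocalRing.ResidueField A) N) :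
        LaurentSeries (IsLocalRing.ResidueField A)) := by
  rw [coe_jRed_inv, map_inv₀]
  congr 1
  exact coeffMap_jqModC φ

/-- (`hcoeff`, chart `j`) the coefficient of `q⁻¹` in `j̄` is `1`. -/
theorem coeff_jRed_neg_one :
    ((jRed N ℓ hℓN A hA : modularFunctionFieldFullC (IsLocalRing.ResidueField A) N) :
      LaurentSeries (IsLocalRing.ResidueField A)).coeff (-1) ≠ 0 := by
  rw [coe_jRed, coeff_jqModC_neg_one]
  exact one_ne_zero

/-- (`hcoeff`, chart `j⁻¹`) the coefficient of `q` in `j̄⁻¹` is nonzero. -/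
theorem coeff_jRed_inv_one :
    (((jRed N ℓ hℓN A hA)⁻¹ : modularFunctionFieldFullC (IsLocalRing.ResidueField A) N) :
      LaurentSeries (IsLocalRing.ResidueField A)).coeff 1 ≠ 0 := by
  rw [coe_jRed_inv]
  have hJ0 : jqModC (IsLocalRing.ResidueField A) ≠ 0 :=
    jqModC_ne_zero_of_nontrivial (IsLocalRing.ResidueField A)
  have hJi0 : (jqModC (IsLocalRing.ResidueField A))⁻¹ ≠ 0 := inv_ne_zero hJ0
  have hord : (jqModC (IsLocalRing.ResidueField A)).order = -1 := by
    have h1 : (jqModC (IsLocalRing.ResidueField A)).coeff (-1) ≠ 0 := by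
      rw [coeff_jqModC_neg_one]; exact one_ne_zero
    refine le_antisymm (HahnSeries.order_le_of_coeff_ne_zero h1) ?_
    rw [HahnSeries.le_order_iff_forall hJ0]
    intro j hj
    exact coeff_jqModC_of_lt (IsLocalRing.ResidueField A) hj
  have hmul : (jqModC (IsLocalRing.ResidueField A) *
      (jqModC (IsLocalRing.ResidueField A))⁻¹).order =
      (jqModC (IsLocalRing.ResidueField A)).order +
        ((jqModC (IsLocalRing.ResidueField A))⁻¹).order := HahnSeries.order_mul hJ0 hJi0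
  rw [mul_inv_cancel₀ hJ0, HahnSeries.order_one, hord] at hmul
  have hordi : ((jqModC (IsLocalRing.ResidueField A))⁻¹).order = 1 := by omega
  rw [← hordi]
  exact fun h => hJi0 (HahnSeries.coeff_order_eq_zero.mp h)

end KronKit

section RootClosed

/-- **The reduced chart ring is root closed in the special fibre** (it is the integral closure of
`k[x̄]` in `F_k`): a series of `F_k ⊆ k((t))` with a positive power in `chartRingBar k N x̄` lies
in `chartRingBar k N x̄`.  This is the hypothesis `hS` of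
`helper5517.kron_rootClosed_atkinLehner_carrier` for `S := F_k`, any chart `x̄`. -/
theorem mem_chartRingBar_of_pow_mem {k : Type*} [Field k] {N : ℕ}
    {xb : modularFunctionFieldFullC k N} {u : LaurentSeries k}
    (hu : u ∈ modularFunctionFieldFullC k N) {n : ℕ} (hn : 0 < n)
    (h : u ^ n ∈ chartRingBar k N xb) : u ∈ chartRingBar k N xb := by
  obtain ⟨g, hg, hgu⟩ := mem_chartRingBar.mp h
  have h1 : (⟨u, hu⟩ : modularFunctionFieldFullC k N) ^ n = g := Subtype.ext hgu.symm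
  have h2 : IsIntegral (Algebra.adjoin k {xb}) ((⟨u, hu⟩ : modularFunctionFieldFullC k N) ^ n) := by
    rw [h1]; exact hg
  exact mem_chartRingBar.mpr ⟨⟨u, hu⟩, IsIntegral.of_pow hn h2, rfl⟩

end RootClosed

end Fermat.Agent.S33.helper7687
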