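/-
S33-ROOT (R4) BACKUP, (JL)-assembly (helper2889).

The two lifting statements `StmtJLFin`, `StmtJLInf` of `helper2889_RootTop` from the compiled
supplier surfaces

* JLIFT    (`helper7687.exists_gaussFRed_eq_jBar(_inv)`, level `M`, `2 ∣ M`),
* INFADMIT (`helper6564.admF`, `exists_pow_mul_isIntegral`, `valuation_map_admF_sub_one_lt`),

and landed files: for a level-`M` function `f` the two lifts to level `ℓ * M` are
`a₁ = cast (α f)` and `a₂ = cast (β f)` (chart `j ≠ 0`: `a₂ = cast (f_adm ^ K * β f)`), with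
`W a₁ = cast (β f)`, `W a₂ = a₁`, so `gpRed a₁ = (f̄, f̄(t^ℓ))`, `gpRed a₂ = (f̄(t^ℓ), f̄)`.
-/
import Mathlib
import Fermat.Agent.S33.helper2889_RootTop
import Fermat.Agent.S33.helper7687_JLift
import Fermat.Agent.S33.helper6564_InfAdmit
import Fermat.Agent.S35.helper584_ResFieldHom
import Fermat.Agent.S35.helper2736_KronModular
import Fermat.Agent.S35.helper7984_ChartPoints
import Fermat.Agent.S37.helper9343_JIntegral

set_option autoImplicit false
set_option synthInstance.maxHeartbeats 400000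
set_option linter.unusedSectionVars false

open ModularCurve

noncomputable section

namespace Fermat.Agent.S33.helper2889

open Fermat.Agent.S24.helper24 Fermat.Agent.S35.helper882
open Fermat.Agent.S35 Fermat.Agent.S33.helper2582
open Fermat.Agent.S35.helper1219

/-! ### Generic: transitivity of integrality over `K[t]` -/

section GenericJL

/-- If `s` is integral over `K[t]` and `y` is integral over `K[s]`, then `y` is integral over
`K[t]`. -/
theorem isIntegral_adjoin_trans {K F : Type*} [CommRing K] [CommRing F] [Algebra K F]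
    (s t y : F) (hs : IsIntegral (Algebra.adjoin K {t}) s)
    (hy : IsIntegral (Algebra.adjoin K {s}) y) : IsIntegral (Algebra.adjoin K {t}) y := by
  have hle : ∀ z ∈ Algebra.adjoin K {s}, IsIntegral (Algebra.adjoin K {t}) z := by
    intro z hz
    induction hz using Algebra.adjoin_induction with
    | mem z hz =>
      rw [Set.mem_singleton_iff] at hz
      rw [hz]; exact hs
    | algebraMap r =>
      rw [IsScalarTower.algebraMap_apply K (Algebra.adjoin K {t}) F]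
      exact isIntegral_algebraMap
    | add a b _ _ ha hb => exact ha.add hb
    | mul a b _ _ ha hb => exact ha.mul hb
  let φ : Algebra.adjoin K {s} →+* integralClosure (Algebra.adjoin K {t}) F :=
    { toFun := fun z => ⟨z, hle z z.2⟩
      map_one' := rfl
      map_mul' := fun _ _ => rfl
      map_zero' := rfl
      map_add' := fun _ _ => rfl }
  have h1 : IsIntegral (integralClosure (Algebra.adjoin K {t}) F) y :=
    hy.map_of_comp_eq φ (RingHom.id F) (RingHom.ext fun r => rfl)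
  exact isIntegral_trans y h1

end GenericJL


/-! ### The two lifts of a level-`M` function to level `ℓ * M` -/

section Lifts

variable (ℓ M : ℕ) [Fact ℓ.Prime] [NeZero M] (hℓM : ¬ ℓ ∣ M) (A : ValuationSubring Kbar)

/-- `cast (α f)`: the function `f` of level `M` viewed at level `ℓ * M`. -/
def liftA (f : FN M) : FN (ℓ * M) := castFN (mul_comm M ℓ) (heckeAlphaBar Kbar M ℓ f)

/-- `cast (β f)`: the function `f(ℓ z)` of level `ℓ * M`. -/
def liftB (f : FN M) : FN (ℓ * M) := castFN (mul_comm M ℓ) (heckeBetaBar Kbar M ℓ f)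

theorem coe_liftA (f : FN M) :
    ((liftA ℓ M f : FN (ℓ * M)) : LaurentSeries Kbar) = (f : LaurentSeries Kbar) := by
  unfold liftA
  rw [coe_castFN, coe_heckeAlphaBar]

omit [NeZero M] in
theorem coe_liftB (f : FN M) :
    ((liftB ℓ M f : FN (ℓ * M)) : LaurentSeries Kbar) =
      qExpand Kbar ℓ (f : LaurentSeries Kbar) := by
  unfold liftB
  rw [coe_castFN, coe_heckeBetaBar]

/-- `W_ℓ (cast (α f)) = cast (β f)`. -/
theorem wAL_liftA (f : FN M) : helper1928.wAL ℓ M hℓM (liftA ℓ M f) = liftB ℓ M f := by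
  have h := atkinLehnerBarR_heckeAlphaBar M ℓ (helper1928.coprime_of_not_dvd ℓ M hℓM) f
  rw [atkinLehnerBarR_apply] at h
  have h2 := congrArg (castFN (mul_comm M ℓ)) h
  rw [castFN_castFN] at h2
  exact h2

/-- `W_ℓ (cast (β f)) = cast (α f)`. -/
theorem wAL_liftB (f : FN M) : helper1928.wAL ℓ M hℓM (liftB ℓ M f) = liftA ℓ M f := by
  rw [← wAL_liftA ℓ M hℓM f]
  exact atkinLehnerBar_atkinLehnerBar ℓ M (helper1928.coprime_of_not_dvd ℓ M hℓM) _

variable {M} in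
/-- The reduction of `cast (α f)` is the reduction of `f`. -/
theorem gpRho_liftA {f : FN M}
    (hf : f ∈ Fermat.Agent.S18.helper8991.gaussF A (IsLocalRing.residue A) M) :
    gpRho A (ℓ * M) (liftA ℓ M f) =
      Fermat.Agent.S18.helper8991.gaussFRed A (IsLocalRing.residue A) M ⟨f, hf⟩ := by
  rw [helper584.gpRho_eq_of_coe_eq A (liftA ℓ M f) f (coe_liftA ℓ M f), gpRho_of_mem A M hf]

variable {M} in
/-- The reduction of `cast (β f)` is the reduction of `f` with `t ↦ t ^ ℓ` substituted. -/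
theorem gpRho_liftB {f : FN M}
    (hf : f ∈ Fermat.Agent.S18.helper8991.gaussF A (IsLocalRing.residue A) M) :
    gpRho A (ℓ * M) (liftB ℓ M f) =
      qExpand (IsLocalRing.ResidueField A) ℓ
        (Fermat.Agent.S18.helper8991.gaussFRed A (IsLocalRing.residue A) M ⟨f, hf⟩) := by
  have h1 : ((liftB ℓ M f : FN (ℓ * M)) : LaurentSeries Kbar) =
      ((heckeBetaBar Kbar M ℓ f : FN (M * ℓ)) : LaurentSeries Kbar) := by
    rw [coe_liftB, coe_heckeBetaBar]
  rw [helper584.gpRho_eq_of_coe_eq A (liftB ℓ M f) (heckeBetaBar Kbar M ℓ f) h1,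
    gpRho_of_mem A (M * ℓ) (helper2736.heckeBetaBar_mem_gaussF A (IsLocalRing.residue A) M ℓ hf)]
  exact helper2736.gaussFRed_heckeBetaBar A (IsLocalRing.residue A) M ℓ hf

variable {M} in
theorem liftA_mem_gpRing {f : FN M}
    (hf : f ∈ Fermat.Agent.S18.helper8991.gaussF A (IsLocalRing.residue A) M) :
    liftA ℓ M f ∈ gpRing A (ℓ * M) :=
  (helper584.mem_gaussF_iff_of_coe_eq A (liftA ℓ M f) f (coe_liftA ℓ M f)).mpr hf

variable {M} in
theorem liftB_mem_gpRing {f : FN M}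
    (hf : f ∈ Fermat.Agent.S18.helper8991.gaussF A (IsLocalRing.residue A) M) :
    liftB ℓ M f ∈ gpRing A (ℓ * M) := by
  have h1 : ((liftB ℓ M f : FN (ℓ * M)) : LaurentSeries Kbar) =
      ((heckeBetaBar Kbar M ℓ f : FN (M * ℓ)) : LaurentSeries Kbar) := by
    rw [coe_liftB, coe_heckeBetaBar]
  exact (helper584.mem_gaussF_iff_of_coe_eq A (liftB ℓ M f) (heckeBetaBar Kbar M ℓ f) h1).mpr
    (helper2736.heckeBetaBar_mem_gaussF A (IsLocalRing.residue A) M ℓ hf)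

variable {M} in
/-- `cast (α f)` lies in the common unit ball. -/
theorem liftA_mem_gO {f : FN M}
    (hf : f ∈ Fermat.Agent.S18.helper8991.gaussF A (IsLocalRing.residue A) M) :
    liftA ℓ M f ∈ gO ℓ M hℓM A := by
  refine (gpVal_le_one_iff A (ℓ * M) (helper1928.wAL ℓ M hℓM) _).mpr
    ⟨liftA_mem_gpRing ℓ A hf, ?_⟩
  show helper1928.wAL ℓ M hℓM (liftA ℓ M f) ∈ gpRing A (ℓ * M)
  rw [wAL_liftA]
  exact liftB_mem_gpRing ℓ A hf

variable {M} in
/-- `cast (β f)` lies in the common unit ball. -/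
theorem liftB_mem_gO {f : FN M}
    (hf : f ∈ Fermat.Agent.S18.helper8991.gaussF A (IsLocalRing.residue A) M) :
    liftB ℓ M f ∈ gO ℓ M hℓM A := by
  refine (gpVal_le_one_iff A (ℓ * M) (helper1928.wAL ℓ M hℓM) _).mpr
    ⟨liftB_mem_gpRing ℓ A hf, ?_⟩
  show helper1928.wAL ℓ M hℓM (liftB ℓ M f) ∈ gpRing A (ℓ * M)
  rw [wAL_liftB]
  exact liftA_mem_gpRing ℓ A hf

variable {M} in
/-- `gpRed (cast (α f)) = (f̄, f̄(t^ℓ))`. -/
theorem gpRed_liftA {f : FN M}
    (hf : f ∈ Fermat.Agent.S18.helper8991.gaussF A (IsLocalRing.residue A) M) :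
    gpRed A (ℓ * M) (helper1928.wAL ℓ M hℓM) (liftA ℓ M f) =
      (Fermat.Agent.S18.helper8991.gaussFRed A (IsLocalRing.residue A) M ⟨f, hf⟩,
        qExpand (IsLocalRing.ResidueField A) ℓ
          (Fermat.Agent.S18.helper8991.gaussFRed A (IsLocalRing.residue A) M ⟨f, hf⟩)) := by
  refine Prod.ext (gpRho_liftA ℓ A hf) ?_
  show gpRho A (ℓ * M) (helper1928.wAL ℓ M hℓM (liftA ℓ M f)) = _
  rw [wAL_liftA]
  exact gpRho_liftB ℓ A hf

variable {M} in
/-- `gpRed (cast (β f)) = (f̄(t^ℓ), f̄)`. -/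
theorem gpRed_liftB {f : FN M}
    (hf : f ∈ Fermat.Agent.S18.helper8991.gaussF A (IsLocalRing.residue A) M) :
    gpRed A (ℓ * M) (helper1928.wAL ℓ M hℓM) (liftB ℓ M f) =
      (qExpand (IsLocalRing.ResidueField A) ℓ
          (Fermat.Agent.S18.helper8991.gaussFRed A (IsLocalRing.residue A) M ⟨f, hf⟩),
        Fermat.Agent.S18.helper8991.gaussFRed A (IsLocalRing.residue A) M ⟨f, hf⟩) := by
  refine Prod.ext (gpRho_liftB ℓ A hf) ?_
  show gpRho A (ℓ * M) (helper1928.wAL ℓ M hℓM (liftB ℓ M f)) = _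
  rw [wAL_liftB]
  exact gpRho_liftA ℓ A hf

end Lifts


/-! ### Integrality of the lifts over `ℚ̄[j]`, `ℚ̄[j⁻¹]` at level `ℓ * M` -/

section Integrality

variable (ℓ M : ℕ) [Fact ℓ.Prime] [NeZero M]

theorem castFN_jBar : castFN (mul_comm M ℓ) (jBar (M * ℓ)) = jBar (ℓ * M) :=
  castFN_jBarD (mul_comm M ℓ) 1 (one_dvd _) (one_dvd _)

variable {M} in
/-- Transport of integrality over `ℚ̄[x]` along the level cast. -/
theorem isIntegral_castFN {x y : FN (M * ℓ)}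
    (h : IsIntegral (Algebra.adjoin Kbar {x}) y) :
    IsIntegral (Algebra.adjoin Kbar {castFN (mul_comm M ℓ) x}) (castFN (mul_comm M ℓ) y) :=
  Fermat.Agent.S33.helper6564.isIntegral_adjoin_map
    ((castFN (mul_comm M ℓ) : FN (M * ℓ) ≃ₐ[Kbar] FN (ℓ * M)) : FN (M * ℓ) →ₐ[Kbar] FN (ℓ * M))
    x y h

variable {M} in
/-- FIN chart: `cast (α f)` is integral over `ℚ̄[j]`. -/
theorem isIntegral_liftA_fin {f : FN M} (hf : IsIntegral (Algebra.adjoin Kbar {jBar M}) f) :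
    IsIntegral (Algebra.adjoin Kbar {jBar (ℓ * M)}) (liftA ℓ M f) := by
  have h1 := Fermat.Agent.S33.helper6564.isIntegral_adjoin_map (heckeAlphaBar Kbar M ℓ) _ _ hf
  rw [Fermat.Agent.S33.helper6564.heckeAlphaBar_jBar] at h1
  have h2 := isIntegral_castFN ℓ h1
  rw [castFN_jBar] at h2
  exact h2

variable {M} in
/-- FIN chart: `cast (β f)` is integral over `ℚ̄[j]` (modular equation). -/
theorem isIntegral_liftB_fin {f : FN M} (hf : IsIntegral (Algebra.adjoin Kbar {jBar M}) f) :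
    IsIntegral (Algebra.adjoin Kbar {jBar (ℓ * M)}) (liftB ℓ M f) := by
  have hℓ : ℓ.Prime := Fact.out
  have h1 := Fermat.Agent.S33.helper6564.isIntegral_adjoin_map (heckeBetaBar Kbar M ℓ) _ _ hf
  have hβj : IsIntegral (Algebra.adjoin Kbar {jBar (M * ℓ)}) (heckeBetaBar Kbar M ℓ (jBar M)) :=
    Fermat.Agent.S37.helper9343.isIntegral_heckeBetaBar_jBar_of_mem M ℓ ℓ hℓ (Or.inl rfl)
      (a := ⟨jBar (M * ℓ), Algebra.subset_adjoin rfl⟩) rfl
  have h2 := isIntegral_adjoin_trans _ _ _ hβj h1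
  have h3 := isIntegral_castFN ℓ h2
  rw [castFN_jBar] at h3
  exact h3

variable {M} in
/-- INF chart: `cast (α f)` is integral over `ℚ̄[j⁻¹]`. -/
theorem isIntegral_liftA_inf {f : FN M} (hf : IsIntegral (Algebra.adjoin Kbar {(jBar M)⁻¹}) f) :
    IsIntegral (Algebra.adjoin Kbar {(jBar (ℓ * M))⁻¹}) (liftA ℓ M f) := by
  have h1 := Fermat.Agent.S33.helper6564.isIntegral_heckeAlphaBar M ℓ f hf
  have h2 := isIntegral_castFN ℓ h1
  rw [map_inv₀, castFN_jBar] at h2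
  exact h2

/-- The admissible multiplier of INFADMIT at level `ℓ * M`. -/
def admL : FN (ℓ * M) := castFN (mul_comm M ℓ) (Fermat.Agent.S33.helper6564.admF M ℓ)

variable {M} in
/-- INF chart: a power of the admissible multiplier moves `cast (β f)` into the chart. -/
theorem exists_isIntegral_liftB_inf {f : FN M}
    (hf : IsIntegral (Algebra.adjoin Kbar {(jBar M)⁻¹}) f) :
    ∃ K : ℕ, IsIntegral (Algebra.adjoin Kbar {(jBar (ℓ * M))⁻¹})
      (admL ℓ M ^ K * liftB ℓ M f) := by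
  have hℓ : ℓ.Prime := Fact.out
  obtain ⟨K, hK⟩ := Fermat.Agent.S33.helper6564.exists_pow_mul_isIntegral M ℓ hℓ f hf
  refine ⟨K, ?_⟩
  have h2 := isIntegral_castFN ℓ hK
  rw [map_inv₀, castFN_jBar, map_mul, map_pow] at h2
  exact h2

end Integrality


/-! ### The admissible multiplier reduces to `(1, 1)` -/

section Adm

variable (ℓ M : ℕ) [Fact ℓ.Prime] [NeZero M] (hℓM : ¬ ℓ ∣ M) (A : ValuationSubring Kbar)

/-- The prime `ℓ` has both Gauss valuations `< 1`. -/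
theorem gpVal_natCast_lt_one (hA : (ℓ : Kbar) ∈ A.nonunits) (i : Fin 2) :
    gpVal A (ℓ * M) (helper1928.wAL ℓ M hℓM) i ((ℓ : ℕ) : FN (ℓ * M)) < 1 := by
  have h1 : ((ℓ : ℕ) : FN (ℓ * M)) = algebraMap Kbar (FN (ℓ * M)) (ℓ : Kbar) :=
    (map_natCast (algebraMap Kbar (FN (ℓ * M))) ℓ).symm
  rw [h1, gpVal_algebraMap]
  exact (gpBase_lt_one_iff A (ℓ * M) _).mpr hA

/-- `f_adm ≡ 1` at both Gauss valuations. -/
theorem gpVal_admL_sub_one_lt (hA : (ℓ : Kbar) ∈ A.nonunits) (i : Fin 2) :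
    gpVal A (ℓ * M) (helper1928.wAL ℓ M hℓM) i (admL ℓ M - 1) < 1 := by
  have hj := gpVal_jBar ℓ M hℓM A
  have hℓ0 := gpVal_natCast_lt_one ℓ M hℓM A hA
  fin_cases i
  · have h0 := hℓ0 0
    have hj0 := hj 0
    rw [gpVal_zero] at h0 hj0
    show gpVal A (ℓ * M) (helper1928.wAL ℓ M hℓM) 0 (admL ℓ M - 1) < 1
    rw [gpVal_zero]
    refine Fermat.Agent.S33.helper6564.valuation_map_admF_sub_one_lt M ℓ
      (((castFN (mul_comm M ℓ) : FN (M * ℓ) ≃ₐ[Kbar] FN (ℓ * M)) :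
        FN (M * ℓ) ≃+* FN (ℓ * M)) : FN (M * ℓ) →+* FN (ℓ * M))
      ((gpRing A (ℓ * M)).valuation) h0 ?_
    show (gpRing A (ℓ * M)).valuation (castFN (mul_comm M ℓ) (jBar (M * ℓ))⁻¹) ≤ 1
    rw [map_inv₀, castFN_jBar, map_inv₀, hj0, inv_one]
  · have h1 := hℓ0 1
    have hj1 := hj 1
    rw [gpVal_one] at h1 hj1
    show gpVal A (ℓ * M) (helper1928.wAL ℓ M hℓM) 1 (admL ℓ M - 1) < 1
    rw [gpVal_one]
    have h1' : (gpRing A (ℓ * M)).valuation ((ℓ : ℕ) : FN (ℓ * M)) < 1 := by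
      have e : helper1928.wAL ℓ M hℓM ((ℓ : ℕ) : FN (ℓ * M)) = ((ℓ : ℕ) : FN (ℓ * M)) :=
        map_natCast (helper1928.wAL ℓ M hℓM) ℓ
      rw [e] at h1
      exact h1
    have key := Fermat.Agent.S33.helper6564.valuation_map_admF_sub_one_lt M ℓ
      ((((helper1928.wAL ℓ M hℓM : FN (ℓ * M) ≃ₐ[Kbar] FN (ℓ * M)) :
          FN (ℓ * M) ≃+* FN (ℓ * M)) : FN (ℓ * M) →+* FN (ℓ * M)).comp
        (((castFN (mul_comm M ℓ) : FN (M * ℓ) ≃ₐ[Kbar] FN (ℓ * M)) :
          FN (M * ℓ) ≃+* FN (ℓ * M)) : FN (M * ℓ) →+* FN (ℓ * M)))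
      ((gpRing A (ℓ * M)).valuation) h1' (by
        show (gpRing A (ℓ * M)).valuation
          (helper1928.wAL ℓ M hℓM (castFN (mul_comm M ℓ) (jBar (M * ℓ))⁻¹)) ≤ 1
        rw [map_inv₀, castFN_jBar, map_inv₀, map_inv₀, hj1, inv_one])
    have e2 : helper1928.wAL ℓ M hℓM (admL ℓ M - 1) =
        helper1928.wAL ℓ M hℓM (admL ℓ M) - 1 := by
      rw [map_sub, map_one]
    rw [e2]
    exact key

/-- The admissible multiplier lies in the common unit ball. -/
theorem admL_mem_gO (hA : (ℓ : Kbar) ∈ A.nonunits) : admL ℓ M ∈ gO ℓ M hℓM A := by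
  intro i
  have h := gpVal_admL_sub_one_lt ℓ M hℓM A hA i
  have e : admL ℓ M = (admL ℓ M - 1) + 1 := by ring
  rw [e]
  refine (Valuation.map_add _ _ _).trans (max_le h.le ?_)
  rw [Valuation.map_one]

/-- `gpRed f_adm = 1`. -/
theorem gpRed_admL (hA : (ℓ : Kbar) ∈ A.nonunits) :
    gpRed A (ℓ * M) (helper1928.wAL ℓ M hℓM) (admL ℓ M) = 1 := by
  have hred := gpRedData A (ℓ * M) (helper1928.wAL ℓ M hℓM)
  have hsub : ∀ i, gpVal A (ℓ * M) (helper1928.wAL ℓ M hℓM) i (admL ℓ M - 1) ≤ 1 :=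
    fun i => (gpVal_admL_sub_one_lt ℓ M hℓM A hA i).le
  have h0 : gpRed A (ℓ * M) (helper1928.wAL ℓ M hℓM) (admL ℓ M - 1) = 0 :=
    (hred.eq_zero_iff _ hsub).mpr (gpVal_admL_sub_one_lt ℓ M hℓM A hA)
  have e : admL ℓ M = (admL ℓ M - 1) + 1 := by ring
  rw [e, hred.map_add _ _ hsub (fun i => by rw [Valuation.map_one]), h0, hred.map_one, zero_add]

/-- Multiplying by powers of the admissible multiplier does not change the pair reduction. -/
theorem gpRed_admL_pow_mul (hA : (ℓ : Kbar) ∈ A.nonunits) (K : ℕ) {b : FN (ℓ * M)}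
    (hb : b ∈ gO ℓ M hℓM A) :
    gpRed A (ℓ * M) (helper1928.wAL ℓ M hℓM) (admL ℓ M ^ K * b) =
      gpRed A (ℓ * M) (helper1928.wAL ℓ M hℓM) b := by
  have hred := gpRedData A (ℓ * M) (helper1928.wAL ℓ M hℓM)
  induction K with
  | zero => rw [pow_zero, one_mul]
  | succ K ih =>
    have e : admL ℓ M ^ (K + 1) * b = admL ℓ M * (admL ℓ M ^ K * b) := by ring
    have hmem : admL ℓ M ^ K * b ∈ gO ℓ M hℓM A :=
      mul_mem (pow_mem (admL_mem_gO ℓ M hℓM A hA) K) hb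
    rw [e, hred.map_mul _ _ (admL_mem_gO ℓ M hℓM A hA) hmem, gpRed_admL ℓ M hℓM A hA, one_mul, ih]

end Adm

/-! ### (JL) on the two `j`-charts -/

section JL

open AlgebraicCurve

variable (ℓ M : ℕ) [Fact ℓ.Prime] [NeZero M] (hℓM : ¬ ℓ ∣ M) (A : ValuationSubring Kbar)

/-- **(JL), chart `j ≠ ∞`** (`2 ∣ M`): every element of `F_k(M)` integral over `k[j̄]` has lifts
in `gB0` with pair reductions `(g, g(t^ℓ))` and `(g(t^ℓ), g)`. -/
theorem stmtJLFin (hA : (ℓ : Kbar) ∈ A.nonunits) (h2M : 2 ∣ M) : StmtJLFin ℓ M hℓM A := by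
  intro g hg
  have hu : (g : LaurentSeries (IsLocalRing.ResidueField A)) ∈
      helper4658.chartRingBar (IsLocalRing.ResidueField A) M
        (Fermat.Agent.S33.helper7687.jRed M ℓ hℓM A hA) := by
    rw [Fermat.Agent.S33.helper7687.jRed_eq_of_coe M ℓ hℓM A hA
      (jb := Fermat.Agent.S37.helper1588.jC (IsLocalRing.ResidueField A) M) rfl]
    exact helper4658.coe_mem_chartRingBar hg
  obtain ⟨y, hy, hyu⟩ :=
    Fermat.Agent.S33.helper7687.exists_gaussFRed_eq_jBar M ℓ hℓM A hA h2M _ hu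
  have hyF := helper4658.chartRing_le_gaussF A M _ y hy
  have hyI : IsIntegral (Algebra.adjoin Kbar {jBar M}) y := hy.2
  refine ⟨⟨liftA ℓ M y, ⟨liftA_mem_gO ℓ hℓM A hyF, fun v hv => ?_⟩, ?_⟩,
    ⟨liftB ℓ M y, ⟨liftB_mem_gO ℓ hℓM A hyF, fun v hv => ?_⟩, ?_⟩⟩
  · exact helper7984.adicValuation_le_one_of_isIntegral v hv (isIntegral_liftA_fin ℓ hyI)
  · rw [gpRed_liftA ℓ hℓM A hyF, hyu]
  · exact helper7984.adicValuation_le_one_of_isIntegral v hv (isIntegral_liftB_fin ℓ hyI)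
  · rw [gpRed_liftB ℓ hℓM A hyF, hyu]

/-- **(JL), chart `j ≠ 0`** (`2 ∣ M`): every element of `F_k(M)` integral over `k[j̄⁻¹]` has lifts
in `gB1` with pair reductions `(g, g(t^ℓ))` and `(g(t^ℓ), g)`. -/
theorem stmtJLInf (hA : (ℓ : Kbar) ∈ A.nonunits) (h2M : 2 ∣ M) : StmtJLInf ℓ M hℓM A := by
  intro g hg
  have hu : (g : LaurentSeries (IsLocalRing.ResidueField A)) ∈
      helper4658.chartRingBar (IsLocalRing.ResidueField A) M
        (Fermat.Agent.S33.helper7687.jRed M ℓ hℓM A hA)⁻¹ := by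
    rw [Fermat.Agent.S33.helper7687.jRed_eq_of_coe M ℓ hℓM A hA
      (jb := Fermat.Agent.S37.helper1588.jC (IsLocalRing.ResidueField A) M) rfl]
    exact helper4658.coe_mem_chartRingBar hg
  obtain ⟨y, hy, hyu⟩ :=
    Fermat.Agent.S33.helper7687.exists_gaussFRed_eq_jBar_inv M ℓ hℓM A hA h2M _ hu
  have hyF := helper4658.chartRing_le_gaussF A M _ y hy
  have hyI : IsIntegral (Algebra.adjoin Kbar {(jBar M)⁻¹}) y := hy.2
  obtain ⟨K, hK⟩ := exists_isIntegral_liftB_inf ℓ hyI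
  have hB := liftB_mem_gO ℓ hℓM A hyF
  refine ⟨⟨liftA ℓ M y, ⟨liftA_mem_gO ℓ hℓM A hyF, fun v hv => ?_⟩, ?_⟩,
    ⟨admL ℓ M ^ K * liftB ℓ M y,
      ⟨mul_mem (pow_mem (admL_mem_gO ℓ M hℓM A hA) K) hB, fun v hv => ?_⟩, ?_⟩⟩
  · exact helper7984.adicValuation_le_one_of_isIntegral v hv (isIntegral_liftA_inf ℓ hyI)
  · rw [gpRed_liftA ℓ hℓM A hyF, hyu]
  · exact helper7984.adicValuation_le_one_of_isIntegral v hv hK
  · rw [gpRed_admL_pow_mul ℓ M hℓM A hA K hB, gpRed_liftB ℓ hℓM A hyF, hyu]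

/-- **(R4) from (IT) alone** (`2 ∣ M`): `StmtRoot ℓ M hℓM A (ℓ ^ m)` from the integrality
transfer on the two `j`-charts; JLIFT, INFADMIT, RESFIELD, the level cast and the root-closure
engine are discharged. -/
theorem stmtRoot_of_it (hA : (ℓ : Kbar) ∈ A.nonunits) (h2M : 2 ∣ M)
    (hitF : StmtITFin ℓ M hℓM A) (hitI : StmtITInf ℓ M hℓM A) (m : ℕ) :
    StmtRoot ℓ M hℓM A (ℓ ^ m) :=
  stmtRoot_of_it_jl ℓ M hℓM A hA hitF hitI (stmtJLFin ℓ M hℓM A hA h2M)
    (stmtJLInf ℓ M hℓM A hA h2M) m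

end JL

end Fermat.Agent.S33.helper2889
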