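/-
S33-TSEED, part (T3) (helper33): the glue constants of the twisted lattice are trivial for a
`p`-power modulus in residue characteristic `p`, so the lifting half of the E3 statement
(`helper603.twisted_lattice_of_components`, last conjunct) yields a seed: an element of the
lattice which is `≡ 1` modulo the open unit ball.

Imports only the landed `S35/helper603_TwistedLattice` (`glued`) and
`S35/helper2459_KummerMultiSF` (`RedDataW`).
-/
import Mathlib
import Fermat.Agent.S35.helper603_TwistedLattice
import Fermat.Agent.S35.helper2459_KummerMultiSF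

set_option autoImplicit false

namespace Fermat.Agent.S33.helper33

open Fermat.Agent.S35.helper2459 Fermat.Agent.S35.helper603

section Glue

variable {K F : Type*} [Field K] [Field F] [Algebra K F]
  {Γ₀ : Type*} [LinearOrderedCommGroupWithZero Γ₀] {ι : Type*}
  {v : ι → Valuation F Γ₀} {vL : Valuation K Γ₀}
  {kk : Type*} [Field kk] {Fk : Type*} [CommRing Fk] [Algebra kk Fk] {red : F → Fk}

/-- A valuation is `≤ 1` on the natural numbers. -/
theorem val_natCast_le_one {R : Type*} [CommRing R] (u : Valuation R Γ₀) (n : ℕ) :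
    u (n : R) ≤ 1 := by
  induction n with
  | zero => simp
  | succ n ih =>
    rw [Nat.cast_succ]
    exact u.map_add_le ih (le_of_eq u.map_one)

/-- The reduction map sends natural numbers to natural numbers. -/
theorem red_natCast (hred : RedDataW v (fun _ => (1 : Γ₀)) vL kk red red) (n : ℕ) :
    red (n : F) = (n : Fk) := by
  induction n with
  | zero => simpa using hred.map_zero
  | succ n ih =>
    rw [Nat.cast_succ, Nat.cast_succ,
      hred.map_add _ _ (fun i => val_natCast_le_one (v i) n) (fun i => le_of_eq (v i).map_one),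
      ih, hred.map_one]

/-- The residue field of the reduction datum has characteristic `p` as soon as `p` lies in the
open unit ball of the base valuation. -/
theorem charP_of_redData [Nonempty ι] (hred : RedDataW v (fun _ => (1 : Γ₀)) vL kk red red)
    {p : ℕ} (hp : p.Prime) (hpv : vL (p : K) < 1) : CharP kk p := by
  have : Nontrivial Fk := hred.nontrivial
  refine (CharP.charP_iff_prime_eq_zero hp).mpr ?_
  have hv : ∀ i, v i (p : F) = vL (p : K) := fun i => by
    rw [← map_natCast (algebraMap K F) p, hred.val_algebraMap]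
  have h1 : red (p : F) = 0 :=
    (hred.eq_zero_iff _ (fun i => by rw [hv i]; exact hpv.le)).mpr (fun i => by
      rw [hv i]; exact hpv)
  have h2 : (p : Fk) = 0 := by rw [← red_natCast hred p]; exact h1
  have h3 : algebraMap kk Fk (p : kk) = 0 := by rw [map_natCast]; exact h2
  exact (map_eq_zero_iff _ (algebraMap kk Fk).injective).mp h3

/-- **(T3) A seed from the lifting half.**  If every element of the glued space
`glued p' q' c T` (glue constants `c i` with `c i ^ (p ^ m) = 1`, `1 ∈ T`) lifts to an element of
`L` in the closed unit ball, then `L` contains an element `≡ 1` modulo the open unit ball: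
in characteristic `p` the constants `c i` are `1`, so `1` is glued. -/
theorem exists_seed_of_glue [Nonempty ι] (hred : RedDataW v (fun _ => (1 : Γ₀)) vL kk red red)
    {p : ℕ} (hp : p.Prime) (hpv : vL (p : K) < 1)
    {Vn : Type*} [CommRing Vn] [Algebra kk Vn] {I : Type*}
    (ιV : Vn →ₐ[kk] Fk) (T : Submodule kk Vn) (hT1 : (1 : Vn) ∈ T)
    (p' q' : I → Vn →ₐ[kk] kk) (m : ℕ) (c : I → kk) (hc : ∀ i, c i ^ (p ^ m) = 1)
    (L : Submodule K F)
    (hlift : ∀ y ∈ glued p' q' c T, ∃ f ∈ L, (∀ i, v i f ≤ 1) ∧ red f = ιV y) :
    ∃ f ∈ L, ∀ i, v i (f - 1) < 1 := by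
  have : CharP kk p := charP_of_redData hred hp hpv
  have : Fact p.Prime := ⟨hp⟩
  have hc1 : ∀ i, c i = 1 := fun i => by
    have h : (c i - 1) ^ (p ^ m) = 0 := by
      rw [sub_pow_char_pow, hc i, one_pow, sub_self]
    exact sub_eq_zero.mp (pow_eq_zero_iff (pow_ne_zero m hp.ne_zero) |>.mp h)
  have h1 : (1 : Vn) ∈ glued p' q' c T :=
    ⟨hT1, fun i => by rw [map_one, map_one, hc1 i, mul_one]⟩
  obtain ⟨f, hfL, hfv, hfr⟩ := hlift 1 h1
  refine ⟨f, hfL, ?_⟩
  have h0 : red (f - 1) = 0 := by
    rw [hred.map_sub f 1 hfv (fun i => le_of_eq (v i).map_one), hfr, map_one, hred.map_one,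
      sub_self]
  exact (hred.eq_zero_iff (f - 1)
    (fun i => (v i).map_sub_le (hfv i) (le_of_eq (v i).map_one))).mp h0

end Glue

end Fermat.Agent.S33.helper33
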