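/-
S33-TSEED, parts (T1) + (T2) (helper33): from seeds on the charts of a coordinate `t` to seeds on
the charts of `j`, when `j * t ^ 2 = (t + c) ^ 3` (for `t = t_2`, `c = 256`).

Setting of (T2): `K ⊆ F` fields with Prelude places, `val i` a family of valuations of `F`
(the two Gauss valuations), `O` a subring containing the closed unit ball of the `val i`.
`a₀`, `b₀` are "seeds" of a divisor `D` on the two charts of `t`:

* `a₀ ≡ 1`, `b₀ ≡ 1` modulo the open unit ball of the `val i`;
* `a₀` has the poles allowed by `D` and poles of order at most `k` times the polar divisor of `t`;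
* `b₀` has the poles allowed by `D` and poles of order at most `k` times the zero divisor of `t`.

Then, with the explicit partition of unity `φ = (1 - (t / (t + c)) ^ k) ^ k`,

* `a₀` lies in the chart module `L_fin(D)` of the chart "`j` regular" (the poles of `t` are poles
  of `j`), and
* `a₀ * φ + b₀ * (1 - φ)` lies in the chart module `L_inf(D)` of the chart "`j⁻¹` regular" (`φ`
  vanishes to order `≥ k · ord` at the poles of `t`, `1 - φ` at the zeros of `t`, and `t + c` is a
  unit wherever `t` is a unit and `j⁻¹` is regular), and is again `≡ 1`.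

Mathlib + Prelude + the landed `S19/helper5454_ChartDiv` (vocabulary `chartMod`, `OnFin`, `OnInf`).
-/
import Mathlib
import Fermat.Agent.S19.helper5454_ChartDiv

set_option autoImplicit false

noncomputable section

open AlgebraicCurve WithZero

namespace Fermat.Agent.S33.helper33

/-! ## (T1) The partition of unity: valuation bounds -/

section Core

variable {F : Type*} [Field F] {Γ₀ : Type*} [LinearOrderedCommGroupWithZero Γ₀]
  (v : Valuation F Γ₀)

/-- The partition-of-unity function `φ = (1 - (t / (t + c)) ^ k) ^ k`. -/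
def cutoff (t c : F) (k : ℕ) : F := (1 - (t / (t + c)) ^ k) ^ k

theorem val_geom_le_one {x : F} (hx : v x ≤ 1) (k : ℕ) :
    v (∑ i ∈ Finset.range k, x ^ i) ≤ 1 :=
  v.map_sum_le fun i _ => by rw [map_pow]; exact pow_le_one' hx i

/-- `v (1 - x ^ k) ≤ v (1 - x)` for `v x ≤ 1`. -/
theorem val_one_sub_pow_le {x : F} (hx : v x ≤ 1) (k : ℕ) : v (1 - x ^ k) ≤ v (1 - x) := by
  rw [← mul_neg_geom_sum x k, map_mul]
  exact mul_le_of_le_one_right' (val_geom_le_one v hx k)

theorem val_one_sub_le_one {x : F} (hx : v x ≤ 1) : v (1 - x) ≤ 1 :=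
  v.map_sub_le (by rw [map_one]) hx

/-- `φ` is integral where `t / (t + c)` is. -/
theorem val_cutoff_le_one {t c : F} (hg : v (t / (t + c)) ≤ 1) (k : ℕ) :
    v (cutoff t c k) ≤ 1 := by
  unfold cutoff
  rw [map_pow]
  exact pow_le_one' (val_one_sub_le_one v (by rw [map_pow]; exact pow_le_one' hg k)) k

/-- `1 - φ` is integral where `t / (t + c)` is. -/
theorem val_one_sub_cutoff_le_one {t c : F} (hg : v (t / (t + c)) ≤ 1) (k : ℕ) :
    v (1 - cutoff t c k) ≤ 1 :=
  val_one_sub_le_one v (val_cutoff_le_one v hg k)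

/-- At a pole of `t` (and `v c = 1`), `t / (t + c)` is a unit. -/
theorem val_ratio_of_one_lt {t c : F} (hc : v c = 1) (ht : 1 < v t) :
    v (t / (t + c)) = 1 := by
  have hT : v (t + c) = v t := v.map_add_eq_of_lt_left (by rw [hc]; exact ht)
  have h0 : v t ≠ 0 := (lt_trans zero_lt_one ht).ne'
  rw [map_div₀, hT, div_self h0]

/-- **At a pole of `t`**: `v φ ≤ (v t)⁻¹ ^ k`. -/
theorem val_cutoff_le_of_one_lt {t c : F} (hc : v c = 1) (ht : 1 < v t) (k : ℕ) :
    v (cutoff t c k) ≤ (v t)⁻¹ ^ k := by
  have hT : v (t + c) = v t := v.map_add_eq_of_lt_left (by rw [hc]; exact ht)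
  have h0 : v t ≠ 0 := (lt_trans zero_lt_one ht).ne'
  have hT0 : t + c ≠ 0 := by
    intro h
    rw [h, map_zero] at hT
    exact h0 hT.symm
  have hg : v (t / (t + c)) = 1 := val_ratio_of_one_lt v hc ht
  have h1 : 1 - t / (t + c) = c / (t + c) := by
    field_simp
    ring
  have h2 : v (1 - t / (t + c)) = (v t)⁻¹ := by
    rw [h1, map_div₀, hc, hT, one_div]
  unfold cutoff
  rw [map_pow]
  exact pow_le_pow_left' ((val_one_sub_pow_le v hg.le k).trans h2.le) k

/-- At a zero of `t` (and `v c = 1`), `v (t / (t + c)) = v t`. -/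
theorem val_ratio_of_lt_one {t c : F} (hc : v c = 1) (ht : v t < 1) :
    v (t / (t + c)) = v t := by
  have hT : v (t + c) = 1 := by
    rw [v.map_add_eq_of_lt_right (by rw [hc]; exact ht), hc]
  rw [map_div₀, hT, div_one]

/-- **At a zero of `t`**: `v (1 - φ) ≤ (v t) ^ k`. -/
theorem val_one_sub_cutoff_le_of_lt_one {t c : F} (hc : v c = 1) (ht : v t < 1) (k : ℕ) :
    v (1 - cutoff t c k) ≤ v t ^ k := by
  have hg : v (t / (t + c)) = v t := val_ratio_of_lt_one v hc ht
  have hz : v (1 - (t / (t + c)) ^ k) ≤ 1 :=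
    val_one_sub_le_one v (by rw [map_pow]; exact pow_le_one' (hg.le.trans ht.le) k)
  unfold cutoff
  refine (val_one_sub_pow_le v hz k).trans ?_
  rw [sub_sub_cancel, map_pow, hg]

end Core

/-! ## (T2) From the charts of `t` to the charts of `j` -/

section Charts

variable {K F : Type*} [Field K] [Field F] [Algebra K F]

/-- A nonzero constant is a unit at every place. -/
theorem place_val_const (w : Place K F) {c : K} (hc : c ≠ 0) :
    w.adicValuation (algebraMap K F c) = 1 := by
  refine le_antisymm (w.adicValuation_algebraMap_le_one c) ?_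
  have h := w.adicValuation_algebraMap_le_one c⁻¹
  rw [map_inv₀, map_inv₀] at h
  have h0 : 0 < w.adicValuation (algebraMap K F c) :=
    zero_lt_iff.mpr (w.adicValuation_ne_zero ((map_ne_zero (algebraMap K F)).mpr hc))
  exact (inv_le_one₀ h0).mp h

variable {Γ₀ : Type*} [LinearOrderedCommGroupWithZero Γ₀] {ι : Type*}

/-- **(T2) Seeds on the `t`-charts give seeds on the `j`-charts.**  See the file header. -/
theorem seedsJ_of_seedsT (val : ι → Valuation F Γ₀) (O : Subring F)
    (hO : ∀ f : F, (∀ i, val i f ≤ 1) → f ∈ O)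
    (j t : F) (c : K) (hc : c ≠ 0) (hj : j ≠ 0)
    (hjt : j * t ^ 2 = (t + algebraMap K F c) ^ 3)
    (hvt : ∀ i, val i t = 1) (hvT : ∀ i, val i (t + algebraMap K F c) = 1)
    (D : Divisor K F) (k : ℕ) (a₀ b₀ : F)
    (ha : ∀ w : Place K F, w.adicValuation a₀ ≤ exp (D w) * max 1 (w.adicValuation t) ^ k)
    (hb : ∀ w : Place K F, w.adicValuation b₀ ≤ exp (D w) * max 1 (w.adicValuation t⁻¹) ^ k)
    (ha1 : ∀ i, val i (a₀ - 1) < 1) (hb1 : ∀ i, val i (b₀ - 1) < 1) :
    a₀ ∈ Fermat.Agent.S19.helper5454.chartMod (Fermat.Agent.S19.helper5454.OnFin j) O D ∧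
    a₀ * cutoff t (algebraMap K F c) k + b₀ * (1 - cutoff t (algebraMap K F c) k) ∈
      Fermat.Agent.S19.helper5454.chartMod (Fermat.Agent.S19.helper5454.OnInf j) O D ∧
    ∀ i, val i (a₀ * cutoff t (algebraMap K F c) k +
      b₀ * (1 - cutoff t (algebraMap K F c) k) - 1) < 1 := by
  set C : F := algebraMap K F c with hC
  set φ : F := cutoff t C k with hφ
  have hC0 : C ≠ 0 := (map_ne_zero (algebraMap K F)).mpr hc
  have ht0 : t ≠ 0 := by
    intro h
    rw [h, zero_pow (by norm_num), mul_zero, zero_add] at hjt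
    exact hC0 (pow_eq_zero_iff (by norm_num) |>.mp hjt.symm)
  -- the Gauss side
  have hgv : ∀ i, val i (t / (t + C)) ≤ 1 := fun i => by
    rw [map_div₀, hvt i, hvT i, div_one]
  have hφv : ∀ i, val i φ ≤ 1 := fun i => val_cutoff_le_one (val i) (hgv i) k
  have hφv' : ∀ i, val i (1 - φ) ≤ 1 := fun i => val_one_sub_cutoff_le_one (val i) (hgv i) k
  have hav : ∀ i, val i a₀ ≤ 1 := fun i => by
    have h := (val i).map_add_le (ha1 i).le (le_of_eq (val i).map_one)
    rwa [sub_add_cancel] at h
  have hbv : ∀ i, val i b₀ ≤ 1 := fun i => by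
    have h := (val i).map_add_le (hb1 i).le (le_of_eq (val i).map_one)
    rwa [sub_add_cancel] at h
  have hev : ∀ i, val i (a₀ * φ + b₀ * (1 - φ) - 1) < 1 := fun i => by
    have e : a₀ * φ + b₀ * (1 - φ) - 1 = (a₀ - 1) * φ + (b₀ - 1) * (1 - φ) := by ring
    rw [e]
    refine lt_of_le_of_lt (Valuation.map_add _ _ _) (max_lt ?_ ?_)
    · rw [map_mul]
      exact lt_of_le_of_lt (mul_le_of_le_one_right' (hφv i)) (ha1 i)
    · rw [map_mul]
      exact lt_of_le_of_lt (mul_le_of_le_one_right' (hφv' i)) (hb1 i)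
  have heO : a₀ * φ + b₀ * (1 - φ) ∈ O := hO _ fun i => by
    have h := (val i).map_add_le (hev i).le (le_of_eq (val i).map_one)
    rwa [sub_add_cancel] at h
  refine ⟨⟨hO _ hav, fun w hw => ?_⟩, ⟨heO, fun w hw => ?_⟩, hev⟩
  · -- `a₀` on the chart "`j` regular": `t` is regular there
    have hwC : w.adicValuation C = 1 := place_val_const w hc
    have htw : w.adicValuation t ≤ 1 := by
      by_contra hlt
      rw [not_le] at hlt
      have hT : w.adicValuation (t + C) = w.adicValuation t :=
        (w.adicValuation).map_add_eq_of_lt_left (by rw [hwC]; exact hlt)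
      have h3 := congrArg w.adicValuation hjt
      rw [map_mul, map_pow, map_pow, hT, pow_succ (w.adicValuation t) 2] at h3
      have h0 : w.adicValuation t ^ 2 ≠ 0 := pow_ne_zero 2 (w.adicValuation_ne_zero ht0)
      have h4 : w.adicValuation j = w.adicValuation t := by
        have h5 : w.adicValuation j * w.adicValuation t ^ 2 =
            w.adicValuation t * w.adicValuation t ^ 2 := by rw [h3, mul_comm]
        exact mul_right_cancel₀ h0 h5
      have hw' : w.adicValuation j ≤ 1 := hw
      rw [h4] at hw'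
      exact absurd hw' (not_le.mpr hlt)
    have h := ha w
    rwa [max_eq_left htw, one_pow, mul_one] at h
  · -- `a₀ φ + b₀ (1 - φ)` on the chart "`j⁻¹` regular"
    have hwC : w.adicValuation C = 1 := place_val_const w hc
    have hvt0 : w.adicValuation t ≠ 0 := w.adicValuation_ne_zero ht0
    rcases lt_trichotomy (w.adicValuation t) 1 with hlt | heq | hgt
    · -- a zero of `t`
      have hg : w.adicValuation (t / (t + C)) ≤ 1 :=
        ((val_ratio_of_lt_one w.adicValuation hwC hlt).le).trans hlt.le
      have h1 : w.adicValuation (a₀ * φ) ≤ exp (D w) := by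
        rw [map_mul]
        have h := ha w
        rw [max_eq_left hlt.le, one_pow, mul_one] at h
        exact (mul_le_of_le_one_right' (val_cutoff_le_one w.adicValuation hg k)).trans h
      have h2 : w.adicValuation (b₀ * (1 - φ)) ≤ exp (D w) := by
        rw [map_mul]
        have h := hb w
        have hinv : (1 : ℤᵐ⁰) ≤ w.adicValuation t⁻¹ := by
          rw [map_inv₀]
          exact (one_le_inv₀ (zero_lt_iff.mpr hvt0)).mpr hlt.le
        rw [max_eq_right hinv, map_inv₀] at h
        calc w.adicValuation b₀ * w.adicValuation (1 - φ)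
            ≤ (exp (D w) * (w.adicValuation t)⁻¹ ^ k) * w.adicValuation t ^ k :=
              mul_le_mul' h (val_one_sub_cutoff_le_of_lt_one w.adicValuation hwC hlt k)
          _ = exp (D w) := by
              rw [mul_assoc, ← mul_pow, inv_mul_cancel₀ hvt0, one_pow, mul_one]
      exact (Valuation.map_add _ _ _).trans (max_le h1 h2)
    · -- `t` a unit: `t + C` is a unit because `j⁻¹` is regular
      have hTle : w.adicValuation (t + C) ≤ 1 :=
        (w.adicValuation).map_add_le heq.le hwC.le
      have hT1 : w.adicValuation (t + C) = 1 := by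
        refine le_antisymm hTle ?_
        by_contra hlt
        rw [not_le] at hlt
        have h3 := congrArg w.adicValuation hjt
        rw [map_mul, map_pow, map_pow, heq, one_pow, mul_one] at h3
        have h4 : w.adicValuation j < 1 := by
          rw [h3]
          exact pow_lt_one' hlt (by norm_num)
        have hw' : w.adicValuation j⁻¹ ≤ 1 := hw
        rw [map_inv₀] at hw'
        have h5 : (1 : ℤᵐ⁰) ≤ w.adicValuation j :=
          (inv_le_one₀ (zero_lt_iff.mpr (w.adicValuation_ne_zero hj))).mp hw'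
        exact absurd h5 (not_le.mpr h4)
      have hg : w.adicValuation (t / (t + C)) ≤ 1 := by
        rw [map_div₀, heq, hT1, div_one]
      have h1 : w.adicValuation (a₀ * φ) ≤ exp (D w) := by
        rw [map_mul]
        have h := ha w
        rw [max_eq_left heq.le, one_pow, mul_one] at h
        exact (mul_le_of_le_one_right' (val_cutoff_le_one w.adicValuation hg k)).trans h
      have h2 : w.adicValuation (b₀ * (1 - φ)) ≤ exp (D w) := by
        rw [map_mul]
        have h := hb w
        rw [map_inv₀, heq, inv_one, max_self, one_pow, mul_one] at h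
        exact (mul_le_of_le_one_right' (val_one_sub_cutoff_le_one w.adicValuation hg k)).trans h
      exact (Valuation.map_add _ _ _).trans (max_le h1 h2)
    · -- a pole of `t`
      have hg : w.adicValuation (t / (t + C)) ≤ 1 :=
        (val_ratio_of_one_lt w.adicValuation hwC hgt).le
      have h1 : w.adicValuation (a₀ * φ) ≤ exp (D w) := by
        rw [map_mul]
        have h := ha w
        rw [max_eq_right hgt.le] at h
        calc w.adicValuation a₀ * w.adicValuation φ
            ≤ (exp (D w) * w.adicValuation t ^ k) * (w.adicValuation t)⁻¹ ^ k :=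
              mul_le_mul' h (val_cutoff_le_of_one_lt w.adicValuation hwC hgt k)
          _ = exp (D w) := by
              rw [mul_assoc, ← mul_pow, mul_inv_cancel₀ hvt0, one_pow, mul_one]
      have h2 : w.adicValuation (b₀ * (1 - φ)) ≤ exp (D w) := by
        rw [map_mul]
        have h := hb w
        have hinv : w.adicValuation t⁻¹ ≤ 1 := by
          rw [map_inv₀]
          exact (inv_le_one₀ (zero_lt_iff.mpr hvt0)).mpr hgt.le
        rw [max_eq_left hinv, one_pow, mul_one] at h
        exact (mul_le_of_le_one_right' (val_one_sub_cutoff_le_one w.adicValuation hg k)).trans h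
      exact (Valuation.map_add _ _ _).trans (max_le h1 h2)

/-! ## Riemann–Roch form of the hypotheses -/

theorem exp_max_zero (n : ℤ) : (exp (max 0 n) : ℤᵐ⁰) = max 1 (exp n) := by
  have hm : Monotone (exp : ℤ → ℤᵐ⁰) := fun a b h => exp_le_exp.mpr h
  rw [hm.map_max, exp_zero]

/-- The relation `j * t ^ 2 = (t + C) ^ 3` with `C ≠ 0` forces `t ≠ 0`. -/
theorem ne_zero_of_rel {j t C : F} (hC : C ≠ 0) (hjt : j * t ^ 2 = (t + C) ^ 3) : t ≠ 0 := by
  intro h
  rw [h, zero_pow (by norm_num), mul_zero, zero_add] at hjt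
  exact hC (pow_eq_zero_iff (by norm_num) |>.mp hjt.symm)

/-- Chart divisors `E1`, `E2 ≥ 0` with disjoint supports and `div t = E2 - E1` are bounded by the
polar and the zero divisor of `t`. -/
theorem chartDiv_le_of_ord (E1 E2 : Divisor K F) (t : F)
    (hxord : ∀ w : Place K F, w.ord t = E2 w - E1 w)
    (hdisj : ∀ w : Place K F, E1 w = 0 ∨ E2 w = 0) :
    (∀ w : Place K F, E1 w ≤ max 0 (-(w.ord t))) ∧ (∀ w : Place K F, E2 w ≤ max 0 (w.ord t)) := by
  refine ⟨fun w => ?_, fun w => ?_⟩
  · rcases hdisj w with h | h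
    · rw [h]; exact le_max_left _ _
    · have := hxord w
      rw [h] at this
      exact le_max_of_le_right (by omega)
  · rcases hdisj w with h | h
    · have := hxord w
      rw [h] at this
      exact le_max_of_le_right (by omega)
    · rw [h]; exact le_max_left _ _

/-- **(T2), Riemann–Roch form.**  Seeds `a₀ ∈ L(D + k • E1)`, `b₀ ∈ L(D + k • E2)`, both `≡ 1`,
where `E1` / `E2` are bounded by the polar / zero divisor of `t`, give seeds on the `j`-charts. -/
theorem seedsJ_of_riemannRoch (val : ι → Valuation F Γ₀) (O : Subring F)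
    (hO : ∀ f : F, (∀ i, val i f ≤ 1) → f ∈ O)
    (j t : F) (c : K) (hc : c ≠ 0) (hj : j ≠ 0)
    (hjt : j * t ^ 2 = (t + algebraMap K F c) ^ 3)
    (hvt : ∀ i, val i t = 1) (hvT : ∀ i, val i (t + algebraMap K F c) = 1)
    (D : Divisor K F) (k : ℕ) (a₀ b₀ : F) (E1 E2 : Divisor K F)
    (hE1 : ∀ w : Place K F, E1 w ≤ max 0 (-(w.ord t)))
    (hE2 : ∀ w : Place K F, E2 w ≤ max 0 (w.ord t))
    (ha : a₀ ∈ riemannRochSpace (D + k • E1)) (hb : b₀ ∈ riemannRochSpace (D + k • E2))
    (ha1 : ∀ i, val i (a₀ - 1) < 1) (hb1 : ∀ i, val i (b₀ - 1) < 1) :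
    a₀ ∈ Fermat.Agent.S19.helper5454.chartMod (Fermat.Agent.S19.helper5454.OnFin j) O D ∧
    a₀ * cutoff t (algebraMap K F c) k + b₀ * (1 - cutoff t (algebraMap K F c) k) ∈
      Fermat.Agent.S19.helper5454.chartMod (Fermat.Agent.S19.helper5454.OnInf j) O D ∧
    ∀ i, val i (a₀ * cutoff t (algebraMap K F c) k +
      b₀ * (1 - cutoff t (algebraMap K F c) k) - 1) < 1 := by
  have ht0 : t ≠ 0 := ne_zero_of_rel ((map_ne_zero (algebraMap K F)).mpr hc) hjt
  refine seedsJ_of_seedsT val O hO j t c hc hj hjt hvt hvT D k a₀ b₀ (fun w => ?_) (fun w => ?_)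
    ha1 hb1
  · have h : w.adicValuation a₀ ≤ exp ((D + k • E1) w) := ha w
    refine h.trans ?_
    rw [Finsupp.add_apply, Finsupp.smul_apply, exp_add, exp_nsmul]
    refine mul_le_mul' le_rfl (pow_le_pow_left' ?_ k)
    rw [w.adicValuation_eq_exp_neg_ord ht0, ← exp_max_zero]
    exact exp_le_exp.mpr (hE1 w)
  · have h : w.adicValuation b₀ ≤ exp ((D + k • E2) w) := hb w
    refine h.trans ?_
    rw [Finsupp.add_apply, Finsupp.smul_apply, exp_add, exp_nsmul]
    refine mul_le_mul' le_rfl (pow_le_pow_left' ?_ k)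
    rw [w.adicValuation_eq_exp_neg_ord (inv_ne_zero ht0), w.ord_inv, neg_neg, ← exp_max_zero]
    exact exp_le_exp.mpr (hE2 w)

end Charts

end Fermat.Agent.S33.helper33
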