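/-
S33-TSEED, part (T4) (helper33): the modular instance at level `p * M`, `2 ∣ M`.

`t := S18.helper6381.t2L ℚ̄ (p * M) _` (the Hauptmodul of `X₀(2)`), `j := jBar (p * M)`,
`j * t ^ 2 = (t + 256) ^ 3`; the two Gauss valuations `gpVal P (p * M) W` (`W = W_p`) are `1` at
`t` and at `t + 256` (landed S35 CUSPCHART: `t` is a Gauss element for both).

* `seedsJ_modular` : seeds `a₀ ∈ L(D + k • E1)`, `b₀ ∈ L(D + k • E2)` (`E1` / `E2` bounded by the
  polar / zero divisor of `t₂`), `≡ 1` at both Gauss valuations, give seeds on the two `j`-charts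
  (`helper5454.chartMod (OnFin j) O D`, `chartMod (OnInf j) O D`).
* `Stmt_LiftT2` : the lifting half of the E3 statement of the S35/S34 geometry module
  (`helper603.twisted_lattice_of_components`, last conjunct) on the `t₂`-charts at level `p * M`
  for the modulus `p ^ m`.
* `seedsJ_of_liftT2` : `Stmt_LiftT2 p M h h2` gives, for every `p ^ m`-Kummer pair `(u, D)` with
  `u ≡ 1` at both Gauss valuations, the two seeds on the `j`-charts
  (= `helper5683.Stmt_SeedsJ p M h` with `O := ballRing (gpVal ..)`).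
-/
import Mathlib
import Fermat.Agent.S33.helper33_SeedsT
import Fermat.Agent.S33.helper33_SeedsGlue
import Fermat.Agent.S35.helper4640_CuspChart
import Fermat.Agent.S35.helper882_GaussPair
import Fermat.Agent.S18.helper4665_TLineInst

set_option autoImplicit false

noncomputable section

open AlgebraicCurve ModularCurve WithZero Polynomial

namespace Fermat.Agent.S33.helper33

open Fermat.Agent.S24.helper24 Fermat.Agent.S35.helper1219 Fermat.Agent.S35.helper882
  Fermat.Agent.S35.helper4640 Fermat.Agent.S18.helper6381 Fermat.Agent.S18.helper8991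
  Fermat.Agent.S35.helper2459 Fermat.Agent.S35.helper603

local notation "Qb" => AlgebraicClosure ℚ

/-! ## Gauss elements plus constants -/

section GaussEltConst

variable {L E : Type*} [Field L] [Field E] [Algebra L E]
  {A : ValuationSubring L} {V₀ : ValuationSubring E} {x : E}

/-- A Gauss element plus an integral constant does not lie in the maximal ideal. -/
theorem gaussElt_add_const_not_mem (hx : Fermat.Agent.S35.helper1024.GaussElt A V₀ x) (c : L)
    (hc : c ∈ A) : x + algebraMap L E c ∉ V₀.nonunits := by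
  intro hnon
  have hp : ∀ i, ((X : L[X]) + C c).coeff i ∈ A := by
    intro i
    have h1 : (X : L[X]).coeff i ∈ A := by
      rw [coeff_X]
      split_ifs
      · exact A.one_mem
      · exact A.zero_mem
    have h2 : (C c : L[X]).coeff i ∈ A := by
      rw [coeff_C]
      split_ifs
      · exact hc
      · exact A.zero_mem
    rw [coeff_add]
    exact add_mem h1 h2
  have hev : aeval x ((X : L[X]) + C c) = x + algebraMap L E c := by
    rw [map_add, aeval_X, aeval_C]
  have h1 := hx.2 ((X : L[X]) + C c) hp (by rw [hev]; exact hnon) 1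
  have h2 : ((X : L[X]) + C c).coeff 1 = 1 := by
    rw [coeff_add, coeff_X_one, coeff_C, if_neg one_ne_zero, add_zero]
  rw [h2, ValuationSubring.mem_nonunits_iff, map_one] at h1
  exact lt_irrefl _ h1

/-- Valuation `1` for a pulled-back valuation subring. -/
theorem val_comap_eq_one {F : Type*} [Field F] (V : ValuationSubring F) (W : F →+* F) {x : F}
    (h : (V.comap W).valuation x = 1) : V.valuation (W x) = 1 := by
  have hx0 : x ≠ 0 := by
    rintro rfl
    rw [map_zero] at h
    exact zero_ne_one h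
  have h1 : x ∈ V.comap W := ((V.comap W).valuation_le_one_iff x).mp h.le
  have h2 : x⁻¹ ∈ V.comap W := ((V.comap W).valuation_le_one_iff _).mp (by
    rw [map_inv₀, h, inv_one])
  refine valuation_eq_one_of_mem_of_inv_mem V ((map_ne_zero W).mpr hx0) h1 ?_
  rw [← map_inv₀]
  exact h2

end GaussEltConst

/-! ## The degree of a Kummer divisor -/

section Degree

variable {K F : Type*} [Field K] [Field F] [Algebra K F]

theorem degree_eq_zero_of_mul_eq_ord [HasPrincipalDivisors K F] {n : ℕ} (hn : n ≠ 0)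
    {D : Divisor K F} {u : F} (hu : u ≠ 0) (h : ∀ w : Place K F, (n : ℤ) * D w = w.ord u) :
    Divisor.degree D = 0 := by
  obtain ⟨E, hE, hdeg⟩ := HasPrincipalDivisors.exists_divisor (K := K) u hu
  have h1 : (n : ℤ) • D = E := Finsupp.ext fun w => by
    rw [Finsupp.smul_apply, smul_eq_mul, h w, hE w]
  have h2 : (n : ℤ) • Divisor.degree D = 0 := by rw [← map_zsmul, h1, hdeg]
  rw [smul_eq_mul] at h2
  rcases mul_eq_zero.mp h2 with h3 | h3
  · exact absurd (Int.natCast_eq_zero.mp h3) hn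
  · exact h3

end Degree

/-! ## The modular instance -/

section Modular

variable (p M : ℕ) [NeZero p] [NeZero M] (h : Nat.Coprime p M)

/-- `j * t₂ ^ 2 = (t₂ + 256) ^ 3` in the function field of level `N`, `2 ∣ N`. -/
theorem jBar_mul_t2L_sq (N : ℕ) [NeZero N] (h2N : 2 ∣ N) :
    jBar N * t2L Qb N h2N ^ 2 = (t2L Qb N h2N + algebraMap Qb (FN N) 256) ^ 3 := by
  rw [map_ofNat]
  apply (modularFunctionFieldBar N).val.injective
  rw [map_mul, map_pow, map_pow, map_add, map_ofNat]
  show ((jBar N : FN N) : LaurentSeries Qb) * (t2K Qb) ^ 2 = (t2K Qb + 256) ^ 3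
  rw [coe_jBar_eq_jqModC]
  exact (Fermat.Agent.S18.helper4665.zSeries_t2_identities Qb).1

variable {p M}

/-- Both Gauss valuations are `1` at `t₂`. -/
theorem gpVal_t2L (hp : p.Prime) (h2 : 2 ∣ M) (P : ValuationSubring Qb) (i : Fin 2) :
    gpVal P (p * M) (atkinLehnerBar p M h) i (t2L Qb (p * M) (h2.mul_left p)) = 1 := by
  have : Fact p.Prime := ⟨hp⟩
  fin_cases i
  · exact valuation_t2L_eq_one Qb (p * M) P (IsLocalRing.residue P) (h2.mul_left p)
  · show (gpRing P (p * M)).valuation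
      (atkinLehnerBar p M h (t2L Qb (p * M) (h2.mul_left p))) = 1
    exact val_comap_eq_one _ _ (valuation_al_t2L_eq_one p M h P (IsLocalRing.residue P) h2)

/-- Both Gauss valuations are `1` at `t₂ + 256`. -/
theorem gpVal_t2L_add (hp : p.Prime) (h2 : 2 ∣ M) (P : ValuationSubring Qb)
    (hP : P.LiesOverPrime p) (i : Fin 2) :
    gpVal P (p * M) (atkinLehnerBar p M h) i
      (t2L Qb (p * M) (h2.mul_left p) + algebraMap Qb (FN (p * M)) 256) = 1 := by
  have : Fact p.Prime := ⟨hp⟩
  have hπ : ∀ a : P, IsLocalRing.residue P a = 0 → a ∈ IsLocalRing.maximalIdeal P :=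
    fun a ha => (IsLocalRing.residue_eq_zero_iff a).mp ha
  have : CharP (IsLocalRing.ResidueField P) p :=
    Fermat.Agent.S18.helper508.charP_residueField p P hP
  have h256 : (256 : Qb) ∈ P := by
    have h := natCast_mem P 256
    exact_mod_cast h
  have hle : gpVal P (p * M) (atkinLehnerBar p M h) i
      (t2L Qb (p * M) (h2.mul_left p) + algebraMap Qb (FN (p * M)) 256) ≤ 1 := by
    refine (gpVal P (p * M) (atkinLehnerBar p M h) i).map_add_le
      (gpVal_t2L h hp h2 P i).le ?_
    rw [gpVal_algebraMap]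
    exact (gpBase_le_one_iff P (p * M) 256).mpr h256
  refine le_antisymm hle ?_
  by_contra hlt
  rw [not_le] at hlt
  fin_cases i
  · have hG := gaussElt_t2L Qb (p * M) P (IsLocalRing.residue P) hπ (h2.mul_left p)
    exact gaussElt_add_const_not_mem hG 256 h256 ((ValuationSubring.mem_nonunits_iff _).mpr hlt)
  · have hG := gaussElt_al_t2L p M h P (IsLocalRing.residue P) hπ h2
    refine gaussElt_add_const_not_mem hG 256 h256 ?_
    rw [mem_nonunits_comap_iff]
    exact (ValuationSubring.mem_nonunits_iff _).mpr hlt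

/-- **(T4a) Seeds on the `t₂`-charts give seeds on the `j`-charts, level `p * M`, `2 ∣ M`.** -/
theorem seedsJ_modular (hp : p.Prime) (h2 : 2 ∣ M) (P : ValuationSubring Qb)
    (hP : P.LiesOverPrime p) (O : Subring (FN (p * M)))
    (hO : ∀ f : FN (p * M), (∀ i, gpVal P (p * M) (atkinLehnerBar p M h) i f ≤ 1) → f ∈ O)
    (D : Divisor Qb (FN (p * M))) (k : ℕ) (a₀ b₀ : FN (p * M))
    (E1 E2 : Divisor Qb (FN (p * M)))
    (hE1 : ∀ w : Place Qb (FN (p * M)),
      E1 w ≤ max 0 (-(w.ord (t2L Qb (p * M) (h2.mul_left p)))))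
    (hE2 : ∀ w : Place Qb (FN (p * M)), E2 w ≤ max 0 (w.ord (t2L Qb (p * M) (h2.mul_left p))))
    (ha : a₀ ∈ riemannRochSpace (D + k • E1)) (hb : b₀ ∈ riemannRochSpace (D + k • E2))
    (ha1 : ∀ i, gpVal P (p * M) (atkinLehnerBar p M h) i (a₀ - 1) < 1)
    (hb1 : ∀ i, gpVal P (p * M) (atkinLehnerBar p M h) i (b₀ - 1) < 1) :
    ∃ e0 ∈ Fermat.Agent.S19.helper5454.chartMod
        (Fermat.Agent.S19.helper5454.OnFin (jBar (p * M))) O D,
      ∃ e1 ∈ Fermat.Agent.S19.helper5454.chartMod
          (Fermat.Agent.S19.helper5454.OnInf (jBar (p * M))) O D,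
        (∀ i, gpVal P (p * M) (atkinLehnerBar p M h) i (e0 - 1) < 1) ∧
        ∀ i, gpVal P (p * M) (atkinLehnerBar p M h) i (e1 - 1) < 1 := by
  have hjt := jBar_mul_t2L_sq (p * M) (h2.mul_left p)
  have hvT := gpVal_t2L_add h hp h2 P hP
  have hT0 : t2L Qb (p * M) (h2.mul_left p) + algebraMap Qb (FN (p * M)) 256 ≠ 0 := by
    intro h0
    have := hvT 0
    rw [h0, map_zero] at this
    exact zero_ne_one this
  have hj : jBar (p * M) ≠ 0 := by
    intro h0
    rw [h0, zero_mul] at hjt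
    exact hT0 (pow_eq_zero_iff (by norm_num) |>.mp hjt.symm)
  obtain ⟨h1, h2', h3⟩ := seedsJ_of_riemannRoch (gpVal P (p * M) (atkinLehnerBar p M h)) O hO
    (jBar (p * M)) (t2L Qb (p * M) (h2.mul_left p)) (256 : Qb) (by norm_num) hj hjt
    (gpVal_t2L h hp h2 P) hvT D k a₀ b₀ E1 E2 hE1 hE2 ha hb ha1 hb1
  exact ⟨a₀, h1, _, h2', ha1, h3⟩

variable (p M)

/-- **The lifting half of the E3 statement on the `t₂`-charts** at level `p * M` (`2 ∣ M`) for the
moduli `p ^ m`: chart divisors `E1`, `E2` bounded by the polar / zero divisor of `t₂`, a reduction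
datum for the Gauss pair, a filtered family `T a b` (pairs of functions on the two components with
bounded poles) with node evaluations `p' i`, `q' i`, and for every `p ^ m`-Kummer pair `(u, D0)`
with `u ≡ 1` glue constants `c i` with `c i ^ (p ^ m) = 1` such that every element of
`glued p' q' c (T a b)` lifts to the unit ball of `L(D0 + a • E1 + b • E2)` (`n₀ ≤ a + b`).
This is the last conjunct of `S35.helper603.twisted_lattice_of_components` at the modular objects
(`n := p ^ m`), with `1 ∈ T 0 0` and monotonicity of `T`. -/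
def Stmt_LiftT2 (h2 : 2 ∣ M) : Prop :=
  ∀ P : ValuationSubring Qb, P.LiesOverPrime p → ∀ m : ℕ,
    ∃ (E1 E2 : Divisor Qb (FN (p * M))),
      (∀ w : Place Qb (FN (p * M)),
        E1 w ≤ max 0 (-(w.ord (t2L Qb (p * M) (h2.mul_left p))))) ∧
      (∀ w : Place Qb (FN (p * M)),
        E2 w ≤ max 0 (w.ord (t2L Qb (p * M) (h2.mul_left p)))) ∧
      ∃ (kk : Type) (_ : Field kk) (Fk : Type) (_ : CommRing Fk) (_ : Algebra kk Fk)
        (red : FN (p * M) → Fk),
        RedDataW (gpVal P (p * M) (atkinLehnerBar p M h))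
          (fun _ => (1 : (gpRing P (p * M)).ValueGroup)) (gpBase P (p * M)) kk red red ∧
        ∃ (Vn : Type) (_ : CommRing Vn) (_ : Algebra kk Vn) (I : Type)
          (ιV : Vn →ₐ[kk] Fk) (T : ℕ → ℕ → Submodule kk Vn) (p' q' : I → Vn →ₐ[kk] kk)
          (n₀ : ℕ),
          (1 : Vn) ∈ T 0 0 ∧ (∀ a a' b b', a ≤ a' → b ≤ b' → T a b ≤ T a' b') ∧
          ∀ (D0 : Divisor Qb (FN (p * M))), Divisor.degree D0 = 0 →
            ∀ u : FN (p * M), u ≠ 0 →
            (∀ w : Place Qb (FN (p * M)), ((p ^ m : ℕ) : ℤ) * D0 w ≤ w.ord u) →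
            (∀ i, gpVal P (p * M) (atkinLehnerBar p M h) i (u - 1) < 1) →
            ∃ c : I → kk, (∀ i, c i ^ (p ^ m) = 1) ∧ ∀ a b : ℕ, n₀ ≤ a + b →
              ∀ y ∈ glued p' q' c (T a b),
                ∃ x ∈ riemannRochSpace (D0 + a • E1 + b • E2),
                  (∀ i, gpVal P (p * M) (atkinLehnerBar p M h) i x ≤ 1) ∧ red x = ιV y

variable {p M}

/-- **(T4) Seeds on the `j`-charts from the lifting half of E3 on the `t₂`-charts.**
With `O := helper5683.ballRing (gpVal P (p * M) W)` the conclusion is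
`helper5683.Stmt_SeedsJ p M h` verbatim. -/
theorem seedsJ_of_liftT2 [HasPrincipalDivisors Qb (FN (p * M))] (hp : p.Prime) (h2 : 2 ∣ M)
    (hL : Stmt_LiftT2 p M h h2) (P : ValuationSubring Qb) (hP : P.LiesOverPrime p) (m : ℕ)
    (u : FN (p * M)) (D : Divisor Qb (FN (p * M))) (hu : u ≠ 0)
    (hdiv : ∀ v : Place Qb (FN (p * M)), ((p ^ m : ℕ) : ℤ) * D v = v.ord u)
    (hu1 : ∀ i, gpVal P (p * M) (atkinLehnerBar p M h) i (u - 1) < 1)
    (O : Subring (FN (p * M)))
    (hO : ∀ f : FN (p * M), (∀ i, gpVal P (p * M) (atkinLehnerBar p M h) i f ≤ 1) → f ∈ O) :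
    ∃ a₀ ∈ Fermat.Agent.S19.helper5454.chartMod
        (Fermat.Agent.S19.helper5454.OnFin (jBar (p * M))) O D,
      ∃ b₀ ∈ Fermat.Agent.S19.helper5454.chartMod
          (Fermat.Agent.S19.helper5454.OnInf (jBar (p * M))) O D,
        (∀ i, gpVal P (p * M) (atkinLehnerBar p M h) i (a₀ - 1) < 1) ∧
        ∀ i, gpVal P (p * M) (atkinLehnerBar p M h) i (b₀ - 1) < 1 := by
  obtain ⟨E1, E2, hE1, hE2, kk, _, Fk, _, _, red, hred, Vn, _, _, I, ιV, T, p', q', n₀, hT1,
    hTmono, hE3⟩ := hL P hP m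
  have hdeg : Divisor.degree D = 0 :=
    degree_eq_zero_of_mul_eq_ord (pow_ne_zero m hp.ne_zero) hu hdiv
  obtain ⟨c, hc, hlift⟩ := hE3 D hdeg u hu (fun w => (hdiv w).le) hu1
  have hpv : gpBase P (p * M) (p : Qb) < 1 := (gpBase_lt_one_iff P (p * M) _).mpr hP
  obtain ⟨a₀, haL, ha1⟩ := exists_seed_of_glue hred hp hpv ιV (T n₀ 0)
    (hTmono 0 n₀ 0 0 (Nat.zero_le _) le_rfl hT1) p' q' m c hc
    (riemannRochSpace (D + n₀ • E1 + 0 • E2)) (hlift n₀ 0 (by omega))
  obtain ⟨b₀, hbL, hb1⟩ := exists_seed_of_glue hred hp hpv ιV (T 0 n₀)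
    (hTmono 0 0 0 n₀ le_rfl (Nat.zero_le _) hT1) p' q' m c hc
    (riemannRochSpace (D + 0 • E1 + n₀ • E2)) (hlift 0 n₀ (by omega))
  rw [zero_smul, add_zero] at haL
  rw [zero_smul, add_zero] at hbL
  exact seedsJ_modular h hp h2 P hP O hO D n₀ a₀ b₀ E1 E2 hE1 hE2 haL hbL ha1 hb1

end Modular

end Fermat.Agent.S33.helper33
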