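/-
S33, ROUTE T, wiring (helper33): the geometric input `helper5683.Stmt_SeedsJ p M h` of formal
triviality from the lifting half of the function-field theorem (E3) on the `t₂`-charts
(`helper33.Stmt_LiftT2`), for `2 ∣ M`.
-/
import Mathlib
import Fermat.Agent.S33.helper33_SeedsTInst
import Fermat.Agent.S33.helper5683_FormTriv
import Fermat.Agent.S37.helper5162_HeckeInputsModular

set_option autoImplicit false

noncomputable section

open AlgebraicCurve ModularCurve

namespace Fermat.Agent.S33.helper33

/-- **ROUTE T, (J0).** `Stmt_SeedsJ p M h` from the lifting half of (E3) on the `t₂`-charts. -/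
theorem stmt_SeedsJ_of_liftT2 {p M : ℕ} [NeZero p] [NeZero M] (h : Nat.Coprime p M)
    (hp : p.Prime) (h2 : 2 ∣ M) (hL : Stmt_LiftT2 p M h h2) :
    Fermat.Agent.S33.helper5683.Stmt_SeedsJ p M h := by
  haveI : NeZero (p * M) := ⟨mul_ne_zero hp.ne_zero (NeZero.ne M)⟩
  intro P hP m u D hu hD h1
  exact seedsJ_of_liftT2 h hp h2 hL P hP m u D hu hD h1 _ (fun _ hf => hf)

end Fermat.Agent.S33.helper33
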