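/-
S33, ROUTE T, instance (helper33): the lifting half `helper33.Stmt_LiftT2 p M h h2` of the
function-field theorem (E3) on the `t₂`-charts at the level `p * M` (`2 ∣ M`) from the node
package of the S35/S34 geometry on the chart `t₂` (`Stmt_NodesT2`: nodes `P i`, `Q i` off the
zeros and poles of `t̄₂`, node conditions `hnode` and the two Kronecker conductor statements
`hK1`, `hK2` — the tail of `S34.helper2423.Stmt_ChartNodes` at the explicit chart
`x := t2L`, `x₁ := t2F`, `x₂ := t2F ^ p`).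

Everything else of the chart package is discharged from landed files: the chart front matter
(`S35.helper3729.chart_front_t2`), the reduction containment (`S35.helper3028.hRR_t2L_lit`),
`helper603.hcont_of_chart` and the twisted-lattice theorem at the Gauss pair
(`S35.helper1928.twisted_lattice_gp`).
-/
import Mathlib
import Fermat.Agent.S33.helper33_SeedsJ
import Fermat.Agent.S34.helper2423_NodalInst
import Fermat.Agent.S35.helper1928_InstGeneric
import Fermat.Agent.S35.helper3729_ChartFront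
import Fermat.Agent.S35.helper3028_HContGp

set_option autoImplicit false

noncomputable section

open AlgebraicCurve ModularCurve

namespace Fermat.Agent.S33.helper33

open Fermat.Agent.S35.helper1219
open Fermat.Agent.S35.helper603 (valueAt nodeRing evalAt pairRR glued nodeInclAlg)
open Fermat.Agent.S35.helper882 (gpVal gpBase gpRed gpRing)
open Fermat.Agent.S35.helper1928 (fibreIncl)
open Fermat.Agent.S18.helper6381 (t2L t2F)

local notation "Qb" => AlgebraicClosure ℚ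

/-- **The node package on the chart `t₂` at the level `p * M`** (`2 ∣ M`): for every valuation
subring `P` of `ℚ̄` above `p` (`k` its residue field), nodes `Pn i`, `Qn i` of the two components
`F_k(M)` of the special fibre, off the zeros and poles of `t̄₂` resp. `t̄₂ ^ p`, such that for the
pole and zero divisors of `t₂`, `t̄₂`, `t̄₂ ^ p`: the reductions of the unit ball of `L(a E1)`
satisfy the node conditions, and every pair satisfying the node conditions lifts (`hK1`, `hK2`).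
This is the tail of `S34.helper2423.Stmt_ChartNodes` at the explicit chart `t₂`. -/
def Stmt_NodesT2 (p M : ℕ) [NeZero p] [NeZero M] (h : Nat.Coprime p M) (h2 : 2 ∣ M) : Prop :=
  ∀ P : ValuationSubring Qb, P.LiesOverPrime p →
  ∀ (hNk : ∀ r : ℕ, r.Prime → r ∣ M → (r : IsLocalRing.ResidueField P) ≠ 0)
    (hdegk : ∀ w : Place (IsLocalRing.ResidueField P)
      ↥(modularFunctionFieldFullC (IsLocalRing.ResidueField P) M), w.deg = 1),
  ∃ (I : Type) (_ : Fintype I)
    (Pn Qn : I → Place (IsLocalRing.ResidueField P)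
      ↥(modularFunctionFieldFullC (IsLocalRing.ResidueField P) M)),
    Function.Injective Pn ∧ Function.Injective Qn ∧
    (∀ i, (Pn i).ord (t2F (IsLocalRing.ResidueField P) M h2 hNk) = 0) ∧
    (∀ i, (Qn i).ord (t2F (IsLocalRing.ResidueField P) M h2 hNk ^ p) = 0) ∧
    ∀ (E1 E2 : Divisor Qb (modularFunctionFieldBar (p * M)))
      (Yinf₁ Y0₁ Yinf₂ Y0₂ : Divisor (IsLocalRing.ResidueField P)
        ↥(modularFunctionFieldFullC (IsLocalRing.ResidueField P) M)),
      (∀ w, E1 w = max 0 (-(w.ord (t2L Qb (p * M) (h2.mul_left p))))) →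
      (∀ w, E2 w = max 0 (w.ord (t2L Qb (p * M) (h2.mul_left p)))) →
      (∀ w, Yinf₁ w = max 0 (-(w.ord (t2F (IsLocalRing.ResidueField P) M h2 hNk)))) →
      (∀ w, Y0₁ w = max 0 (w.ord (t2F (IsLocalRing.ResidueField P) M h2 hNk))) →
      (∀ w, Yinf₂ w = max 0 (-(w.ord (t2F (IsLocalRing.ResidueField P) M h2 hNk ^ p)))) →
      (∀ w, Y0₂ w = max 0 (w.ord (t2F (IsLocalRing.ResidueField P) M h2 hNk ^ p))) →
      (∀ a : ℕ, ∀ f ∈ riemannRochSpace (a • E1),
        (∀ i, gpVal P (p * M) (atkinLehnerBar p M h) i f ≤ 1) →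
        ∀ y₁ ∈ riemannRochSpace (a • Yinf₁), ∀ y₂ ∈ riemannRochSpace (a • Yinf₂),
          gpRed P (p * M) (atkinLehnerBar p M h) f =
            fibreIncl (IsLocalRing.ResidueField P) M (y₁, y₂) →
          ∀ i, valueAt (Qn i) (hdegk (Qn i)) y₂ = valueAt (Pn i) (hdegk (Pn i)) y₁) ∧
      (∀ a : ℕ, ∀ y₁ ∈ riemannRochSpace (a • Yinf₁), ∀ y₂ ∈ riemannRochSpace (a • Yinf₂),
        (∀ i, valueAt (Qn i) (hdegk (Qn i)) y₂ = valueAt (Pn i) (hdegk (Pn i)) y₁) →
        ∃ a' : ℕ, ∃ f ∈ riemannRochSpace (a' • E1),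
          (∀ i, gpVal P (p * M) (atkinLehnerBar p M h) i f ≤ 1) ∧
            gpRed P (p * M) (atkinLehnerBar p M h) f =
              fibreIncl (IsLocalRing.ResidueField P) M (y₁, y₂)) ∧
      (∀ b : ℕ, ∀ y₁ ∈ riemannRochSpace (b • Y0₁), ∀ y₂ ∈ riemannRochSpace (b • Y0₂),
        (∀ i, valueAt (Qn i) (hdegk (Qn i)) y₂ = valueAt (Pn i) (hdegk (Pn i)) y₁) →
        ∃ b' : ℕ, ∃ f ∈ riemannRochSpace (b' • E2),
          (∀ i, gpVal P (p * M) (atkinLehnerBar p M h) i f ≤ 1) ∧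
            gpRed P (p * M) (atkinLehnerBar p M h) f =
              fibreIncl (IsLocalRing.ResidueField P) M (y₁, y₂))

/-- **ROUTE T, instance.** The lifting half of (E3) on the `t₂`-charts at the level `p * M` from
the node package on the chart `t₂`. -/
theorem stmt_liftT2_of_nodesT2 {p M : ℕ} [NeZero p] [NeZero M] (h : Nat.Coprime p M)
    (hp : p.Prime) (h2 : 2 ∣ M) (hN : Stmt_NodesT2 p M h h2) : Stmt_LiftT2 p M h h2 := by
  classical
  intro P hP m
  have hpM : ¬ p ∣ M := (Nat.Prime.coprime_iff_not_dvd hp).mp h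
  haveI : NeZero (p * M) := ⟨mul_ne_zero hp.ne_zero (NeZero.ne M)⟩
  haveI := Fermat.Agent.S37.helper5162.hasPrincipalDivisors_FN (p * M)
  haveI := Fermat.Agent.Lib.helper6879.isAlgClosed_residueField P
  have hNk' := Fermat.Agent.S18.helper4307.natCast_ne_zero_residue M hp hpM P hP
  haveI := Fermat.Agent.S18.helper4307.hasPrincipalDivisors_fullC (IsLocalRing.ResidueField P) M hNk'
  have hdegk := Fermat.Agent.S18.helper4307.place_deg_eq_one_fullC (IsLocalRing.ResidueField P) M hNk'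
  obtain ⟨P₁⟩ := Fermat.Agent.S37.helper265.nonempty_place_fullC (IsLocalRing.ResidueField P) M hNk'
  have hRBk := Fermat.Agent.S37.helper265.hasRiemannBound_fullC (IsLocalRing.ResidueField P) M hNk'
  have hNk := Fermat.Agent.S35.helper3729.chartFront_hNk p M hp h P hP
  obtain ⟨hxtr, hxfin, -, hxv, hx₁tr, hx₁fin, hx₂tr, hx₂fin, hredx, -⟩ :=
    Fermat.Agent.S35.helper3729.chart_front_t2 p M h hp P hP h2 hNk
  obtain ⟨I, _, Pn, Qn, hPn, hQn, hPx, hQx, hpack⟩ := hN P hP hNk hdegk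
  obtain ⟨E2, E1, hE2f, hE1f, hE2nn, hE1nn, hdisj, hxord, -, hdegE1⟩ :=
    Fermat.Agent.S18.helper4307.exists_zero_pole_divisors (t2L Qb (p * M) (h2.mul_left p)) hxtr
  obtain ⟨Y0₁, Yinf₁, hY0₁f, hYinf₁f, hY0₁nn, hYinf₁nn, hdisj₁, hx₁ord, hdY0₁, hdYinf₁⟩ :=
    Fermat.Agent.S18.helper4307.exists_zero_pole_divisors
      (t2F (IsLocalRing.ResidueField P) M h2 hNk) hx₁tr
  obtain ⟨Y0₂, Yinf₂, hY0₂f, hYinf₂f, hY0₂nn, hYinf₂nn, hdisj₂, hx₂ord, hdY0₂, hdYinf₂⟩ :=
    Fermat.Agent.S18.helper4307.exists_zero_pole_divisors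
      (t2F (IsLocalRing.ResidueField P) M h2 hNk ^ p) hx₂tr
  obtain ⟨hnode, hK1, hK2⟩ := hpack E1 E2 Yinf₁ Y0₁ Yinf₂ Y0₂ hE1f hE2f hYinf₁f hY0₁f
    hYinf₂f hY0₂f
  have hx0 : t2L Qb (p * M) (h2.mul_left p) ≠ 0 := fun h0 => hxtr (h0 ▸ isAlgebraic_zero)
  have hx₁0 : t2F (IsLocalRing.ResidueField P) M h2 hNk ≠ 0 :=
    fun h0 => hx₁tr (h0 ▸ isAlgebraic_zero)
  have hx₂0 : t2F (IsLocalRing.ResidueField P) M h2 hNk ^ p ≠ 0 :=
    fun h0 => hx₂tr (h0 ▸ isAlgebraic_zero)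
  have hPY : ∀ i, Yinf₁ (Pn i) = 0 ∧ Y0₁ (Pn i) = 0 := fun i => by
    rw [hYinf₁f, hY0₁f, hPx i]; simp
  have hQY : ∀ i, Yinf₂ (Qn i) = 0 ∧ Y0₂ (Qn i) = 0 := fun i => by
    rw [hYinf₂f, hY0₂f, hQx i]; simp
  have hRR := Fermat.Agent.S35.helper3028.hRR_t2L_lit p M h P hp hP h2 E1 E2 hE1nn hE2nn hdisj
    hxord (t2F (IsLocalRing.ResidueField P) M h2 hNk) rfl Yinf₁ Y0₁ Yinf₂ Y0₂ hYinf₁nn hY0₁nn
    hYinf₂nn hY0₂nn hx₁ord hx₂ord
  have hcont := Fermat.Agent.S35.helper603.hcont_of_chart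
    (gpVal P (p * M) (atkinLehnerBar p M h)) (gpBase P (p * M))
    (Fermat.Agent.S35.helper882.gpRedData P (p * M) (atkinLehnerBar p M h))
    (fibreIncl (IsLocalRing.ResidueField P) M) Pn Qn (fun i => hdegk (Pn i))
    (fun i => hdegk (Qn i))
    Yinf₁ Y0₁ Yinf₂ Y0₂ hY0₁nn hY0₂nn hPY hQY E1 E2 hE2nn _ hx0 hxord hxv _ _ hx₁0 hx₂0 hredx
    hx₁ord hx₂ord hRR hnode
  have hd₁ : 0 < Module.finrank (IntermediateField.adjoin (IsLocalRing.ResidueField P)
      {t2F (IsLocalRing.ResidueField P) M h2 hNk})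
      ↥(modularFunctionFieldFullC (IsLocalRing.ResidueField P) M) := Module.finrank_pos
  have hd₂ : 0 < Module.finrank (IntermediateField.adjoin (IsLocalRing.ResidueField P)
      {t2F (IsLocalRing.ResidueField P) M h2 hNk ^ p})
      ↥(modularFunctionFieldFullC (IsLocalRing.ResidueField P) M) := Module.finrank_pos
  have hdE1 : 0 < Divisor.degree E1 := by
    rw [hdegE1]
    exact_mod_cast (Module.finrank_pos :
      0 < Module.finrank (IntermediateField.adjoin Qb {t2L Qb (p * M) (h2.mul_left p)})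
        (modularFunctionFieldBar (p * M)))
  obtain ⟨n₀, -, -, -, hE3⟩ :=
    Fermat.Agent.S35.helper1928.twisted_lattice_gp p M h P hp hP hdegk hRBk P₁ Pn Qn hPn hQn
      Yinf₁ Y0₁ Yinf₂ Y0₂ hYinf₁nn hY0₁nn hYinf₂nn hY0₂nn hdisj₁ hdisj₂ _ _ hd₁ hd₂ hdYinf₁
      hdY0₁ hdYinf₂ hdY0₂ hPY hQY E1 E2 hE1nn hE2nn hdE1 _ hx0 hxord hxv _ _ hredx hx₁ord hx₂ord
      hcont hK1 hK2
  refine ⟨E1, E2, fun w => (hE1f w).le, fun w => (hE2f w).le,
    IsLocalRing.ResidueField P, inferInstance,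
    LaurentSeries (IsLocalRing.ResidueField P) × LaurentSeries (IsLocalRing.ResidueField P),
    inferInstance, inferInstance, gpRed P (p * M) (atkinLehnerBar p M h),
    Fermat.Agent.S35.helper882.gpRedData P (p * M) (atkinLehnerBar p M h),
    nodeRing Pn × nodeRing Qn, inferInstance, inferInstance, I,
    (fibreIncl (IsLocalRing.ResidueField P) M).comp (nodeInclAlg Pn Qn),
    fun a b => pairRR Pn Qn (a • Yinf₁ + b • Y0₁) (a • Yinf₂ + b • Y0₂),
    fun i => (evalAt Pn (fun i => hdegk (Pn i)) i).comp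
      (AlgHom.fst (IsLocalRing.ResidueField P) (nodeRing Pn) (nodeRing Qn)),
    fun i => (evalAt Qn (fun i => hdegk (Qn i)) i).comp
      (AlgHom.snd (IsLocalRing.ResidueField P) (nodeRing Pn) (nodeRing Qn)),
    n₀, Fermat.Agent.S35.helper603.one_mem_pairRR_zero Pn Qn Yinf₁ Y0₁ Yinf₂ Y0₂, ?_, ?_⟩
  · intro a a' b b' ha hb v hv
    exact ⟨Fermat.Agent.S18.helper981.riemannRochSpace_mono
        (Fermat.Agent.S35.helper603.chartDiv_mono hYinf₁nn hY0₁nn ha hb) hv.1,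
      Fermat.Agent.S18.helper981.riemannRochSpace_mono
        (Fermat.Agent.S35.helper603.chartDiv_mono hYinf₂nn hY0₂nn ha hb) hv.2⟩
  · intro D0 hD0 u hu hdiv hu1
    obtain ⟨c, hc, hab⟩ := hE3 (p ^ m) (pow_ne_zero m hp.ne_zero) D0 hD0 u hu hdiv hu1
    exact ⟨c, hc, fun a b hn => (hab a b hn).2⟩

/-- **ROUTE T.** `Stmt_SeedsJ p M h` (`2 ∣ M`) from the node package on the chart `t₂`. -/
theorem stmt_SeedsJ_of_nodesT2 {p M : ℕ} [NeZero p] [NeZero M] (h : Nat.Coprime p M)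
    (hp : p.Prime) (h2 : 2 ∣ M) (hN : Stmt_NodesT2 p M h h2) :
    Fermat.Agent.S33.helper5683.Stmt_SeedsJ p M h :=
  stmt_SeedsJ_of_liftT2 h hp h2 (stmt_liftT2_of_nodesT2 h hp h2 hN)

end Fermat.Agent.S33.helper33
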