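/-
S33, ROUTE T, final step (helper33): the node package on the chart `t₂`
(`helper33.Stmt_NodesT2`) is the landed S35 theorem `helper2736.kron_nodes_t2` minus its
Frobenius clause; hence `helper5683.Stmt_SeedsJ p M h` for every prime `p`, every `M` prime to
`p` with `2 ∣ M` — the geometric input (j) of formal triviality, with no hypothesis left.
-/
import Mathlib
import Fermat.Agent.S33.helper33_LiftT2
import Fermat.Agent.S35.helper2736_KronW

set_option autoImplicit false

noncomputable section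

open AlgebraicCurve ModularCurve

namespace Fermat.Agent.S33.helper33

/-- The node package on the chart `t₂` at the level `p * M` (`2 ∣ M`, `p ≠ 2`). -/
theorem stmt_nodesT2 {p M : ℕ} [NeZero p] [NeZero M] (h : Nat.Coprime p M) (hp : p.Prime)
    (hp2 : p ≠ 2) (h2 : 2 ∣ M) : Stmt_NodesT2 p M h h2 := by
  intro P hP hNk hdegk
  obtain ⟨I, hI, Pn, Qn, hPn, hQn, hPx, hQx, -, hpack⟩ :=
    Fermat.Agent.S35.helper2736.kron_nodes_t2 P p M h hp hp2 hP h2 hNk hdegk
  exact ⟨I, hI, Pn, Qn, hPn, hQn, hPx, hQx, hpack⟩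

/-- A prime coprime to an even number is odd. -/
theorem ne_two_of_coprime_of_two_dvd {p M : ℕ} (h : Nat.Coprime p M) (h2 : 2 ∣ M) : p ≠ 2 := by
  rintro rfl
  have h1 : (2 : ℕ) ∣ Nat.gcd 2 M := Nat.dvd_gcd dvd_rfl h2
  rw [Nat.Coprime] at h
  rw [h] at h1
  exact absurd h1 (by decide)

/-- **ROUTE T, final.** The geometric input (j) of formal triviality at the level `p * M`:
`helper5683.Stmt_SeedsJ p M h` for every prime `p` and every even `M` prime to `p`. -/
theorem stmt_SeedsJ_T {p M : ℕ} [NeZero p] [NeZero M] (h : Nat.Coprime p M) (hp : p.Prime)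
    (h2 : 2 ∣ M) : Fermat.Agent.S33.helper5683.Stmt_SeedsJ p M h :=
  stmt_SeedsJ_of_nodesT2 h hp h2
    (stmt_nodesT2 h hp (ne_two_of_coprime_of_two_dvd h h2) h2)

end Fermat.Agent.S33.helper33
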