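/-
S33 — JHCHAIN (route #2990 (4)), Mathlib-only.  helper4662.

A group `G` acts on a finite abelian group `M` by additive automorphisms; `e : G → ℕ` is an
"exponent" function which is multiplicative modulo the prime `p` and prime to `p`
(concretely: `g ζ = ζ ^ e g` on `μ_{p^n}`).

* `IsQuadStep p e C C'` : `C ≤ C'`, `p C' ⊆ C` and `(g - 1)(g - e g) C' ⊆ C` for every `g`;
* `IsOrdStep  p e C C'` : `C ≤ C'`, `p C' ⊆ C` and either every `g` acts trivially on `C'/C`
  or every `g` acts on `C'/C` by `e g`;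
* `HasQuadChain p e M`, `HasOrdChain p e M` : finite chains of `G`-stable subgroups from `⊥` to
  `⊤` with such steps;
* `hasOrdChain_of_hasQuadChain` : a quadratic chain can be refined to an ordinary chain
  (the simple `𝔽_p[G]`-subquotients of a module with `(g - 1)(g - ω(g)) = 0` are `𝔽_p` and
  `𝔽_p(ω)`);
* heredity of both notions along equivariant maps, to stable subgroups and to quotients;
* extraction of the bottom and of the top step of an ordinary chain.
-/
import Mathlib

set_option autoImplicit false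

namespace Fermat.Agent.S33.helper4662

section Actions

variable {G : Type*} [Group G] {M : Type*} [AddCommGroup M] [DistribMulAction G M]

/-- The action of `G` on a `G`-stable subgroup. -/
@[reducible] def subAction (C : AddSubgroup M) (hC : ∀ g : G, ∀ c ∈ C, g • c ∈ C) :
    DistribMulAction G C where
  smul g c := ⟨g • (c : M), hC g c c.2⟩
  one_smul c := Subtype.ext (one_smul G (c : M))
  mul_smul g h c := Subtype.ext (mul_smul g h (c : M))
  smul_zero g := Subtype.ext (smul_zero g)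
  smul_add g a b := Subtype.ext (smul_add g (a : M) (b : M))

/-- The action of `G` on the quotient by a `G`-stable subgroup. -/
@[reducible] def quotAction (C : AddSubgroup M) (hC : ∀ g : G, ∀ c ∈ C, g • c ∈ C) :
    DistribMulAction G (M ⧸ C) where
  smul g := QuotientAddGroup.map C C (DistribSMul.toAddMonoidHom M g)
    (fun c hc => hC g c hc)
  one_smul x := by
    induction x using QuotientAddGroup.induction_on with
    | H x => exact congrArg (QuotientAddGroup.mk (s := C)) (one_smul G x)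
  mul_smul g h x := by
    induction x using QuotientAddGroup.induction_on with
    | H x => exact congrArg (QuotientAddGroup.mk (s := C)) (mul_smul g h x)
  smul_zero g := map_zero _
  smul_add g a b := map_add _ a b

theorem subAction_coe (C : AddSubgroup M) (hC : ∀ g : G, ∀ c ∈ C, g • c ∈ C) (g : G) (c : C) :
    letI := subAction C hC
    ((g • c : C) : M) = g • (c : M) := rfl

theorem quotAction_mk (C : AddSubgroup M) (hC : ∀ g : G, ∀ c ∈ C, g • c ∈ C) (g : G) (x : M) :
    letI := quotAction C hC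
    g • (QuotientAddGroup.mk x : M ⧸ C) = QuotientAddGroup.mk (g • x) := rfl

end Actions

section Defs

variable (p : ℕ) {G : Type*} [Group G] (e : G → ℕ) {M : Type*} [AddCommGroup M]
  [DistribMulAction G M]

/-- `C ≤ C'`, the step `C'/C` is killed by `p`, and `G` acts on it trivially, or `G` acts on
it through the exponent `e`. -/
def IsOrdStep (C C' : AddSubgroup M) : Prop :=
  C ≤ C' ∧ (∀ c ∈ C', p • c ∈ C) ∧
    ((∀ g : G, ∀ c ∈ C', g • c - c ∈ C) ∨ (∀ g : G, ∀ c ∈ C', g • c - e g • c ∈ C))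

/-- `C ≤ C'`, the step `C'/C` is killed by `p`, and `(g - 1)(g - e g) = 0` on it. -/
def IsQuadStep (C C' : AddSubgroup M) : Prop :=
  C ≤ C' ∧ (∀ c ∈ C', p • c ∈ C) ∧
    ∀ g : G, ∀ c ∈ C', g • g • c - (1 + e g) • g • c + e g • c ∈ C

variable (M) in
/-- A finite chain of `G`-stable subgroups from `⊥` to `⊤` with ordinary steps. -/
def HasOrdChain : Prop :=
  ∃ (r : ℕ) (C : ℕ → AddSubgroup M), C 0 = ⊥ ∧ C r = ⊤ ∧
    (∀ i, ∀ g : G, ∀ c ∈ C i, g • c ∈ C i) ∧ ∀ i < r, IsOrdStep p e (C i) (C (i + 1))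

variable (M) in
/-- A finite chain of `G`-stable subgroups from `⊥` to `⊤` with quadratic steps. -/
def HasQuadChain : Prop :=
  ∃ (r : ℕ) (C : ℕ → AddSubgroup M), C 0 = ⊥ ∧ C r = ⊤ ∧
    (∀ i, ∀ g : G, ∀ c ∈ C i, g • c ∈ C i) ∧ ∀ i < r, IsQuadStep p e (C i) (C (i + 1))

/-- Ordinary chains between two subgroups, as an inductive predicate (the upper end of each
step is `G`-stable). -/
inductive OrdChain : AddSubgroup M → AddSubgroup M → Prop
  | refl (C : AddSubgroup M) : OrdChain C C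
  | step {C D C' : AddSubgroup M} : IsOrdStep p e C D → (∀ g : G, ∀ c ∈ D, g • c ∈ D) →
      OrdChain D C' → OrdChain C C'

end Defs

section Basic

variable (p : ℕ) {G : Type*} [Group G] (e : G → ℕ) {M : Type*} [AddCommGroup M]
  [DistribMulAction G M]

theorem OrdChain.trans {A B C : AddSubgroup M} (h1 : OrdChain p e A B) (h2 : OrdChain p e B C) :
    OrdChain p e A C := by
  induction h1 with
  | refl _ => exact h2
  | step hs hD _ ih => exact OrdChain.step hs hD (ih h2)

/-- An inductive chain gives a sequence. -/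
theorem OrdChain.exists_seq {A B : AddSubgroup M} (h : OrdChain p e A B)
    (hA : ∀ g : G, ∀ c ∈ A, g • c ∈ A) :
    ∃ (s : ℕ) (D : ℕ → AddSubgroup M), D 0 = A ∧ D s = B ∧
      (∀ i, ∀ g : G, ∀ c ∈ D i, g • c ∈ D i) ∧ ∀ i < s, IsOrdStep p e (D i) (D (i + 1)) := by
  induction h with
  | refl C => exact ⟨0, fun _ => C, rfl, rfl, fun _ => hA, fun i hi => absurd hi (Nat.not_lt_zero i)⟩
  | @step C D' C' hs hD' _ ih =>
    obtain ⟨s, D, hD0, hDs, hDst, hDstep⟩ := ih hD'
    refine ⟨s + 1, fun i => Nat.casesOn i C D, rfl, hDs, ?_, ?_⟩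
    · intro i
      cases i with
      | zero => exact hA
      | succ i => exact hDst i
    · intro i hi
      cases i with
      | zero =>
        show IsOrdStep p e C (D 0)
        rw [hD0]
        exact hs
      | succ i => exact hDstep i (Nat.lt_of_succ_lt_succ hi)

/-- A sequence gives an inductive chain. -/
theorem ordChain_of_seq (s : ℕ) (D : ℕ → AddSubgroup M)
    (hst : ∀ i, ∀ g : G, ∀ c ∈ D i, g • c ∈ D i)
    (hstep : ∀ i < s, IsOrdStep p e (D i) (D (i + 1))) :
    ∀ k ≤ s, OrdChain p e (D 0) (D k) := by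
  intro k
  induction k with
  | zero => exact fun _ => OrdChain.refl _
  | succ k ih =>
    intro hk
    exact (ih (Nat.le_of_succ_le hk)).trans p e
      (OrdChain.step (hstep k hk) (hst (k + 1)) (OrdChain.refl _))

theorem hasOrdChain_iff_ordChain :
    HasOrdChain p e M ↔ OrdChain p e (⊥ : AddSubgroup M) ⊤ := by
  constructor
  · rintro ⟨r, C, h0, hr, hst, hstep⟩
    have := ordChain_of_seq p e r C hst hstep r le_rfl
    rwa [h0, hr] at this
  · intro h
    obtain ⟨s, D, h0, hs, hst, hstep⟩ := h.exists_seq p e (fun g c hc => by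
      rw [AddSubgroup.mem_bot] at hc ⊢
      rw [hc, smul_zero])
    exact ⟨s, D, h0, hs, hst, hstep⟩

/-- `a • x` only depends on `a` modulo `p` when `p • x = 0`. -/
theorem nsmul_eq_of_modEq {x : M} (hx : p • x = 0) {a b : ℕ} (h : a ≡ b [MOD p]) :
    a • x = b • x := by
  have h1 : ∀ n : ℕ, n • x = (n % p) • x := by
    intro n
    conv_lhs => rw [← Nat.div_add_mod n p]
    rw [add_nsmul, mul_nsmul, hx, nsmul_zero, zero_add]
  rw [h1 a, h1 b, h]

theorem smul_nsmul_comm (g : G) (n : ℕ) (x : M) : g • (n • x) = n • (g • x) :=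
  map_nsmul (DistribSMul.toAddMonoidHom M g) n x

/-- If `(g - 1)^2 c = 0` then `g ^ n • c = c + n • (g • c - c)`. -/
theorem pow_smul_eq_of_unip (g : G) (c : M) (h : g • g • c - 2 • g • c + c = 0) (n : ℕ) :
    (g ^ n) • c = c + n • (g • c - c) := by
  induction n with
  | zero => simp
  | succ n ih =>
    have h2 : g • (g • c - c) = g • c - c := by
      rw [smul_sub]
      have : g • g • c = 2 • g • c - c := by
        rw [eq_sub_iff_add_eq, ← sub_eq_zero, ← h]
        abel
      rw [this, two_nsmul]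
      abel
    rw [pow_succ', mul_smul, ih, smul_add, smul_nsmul_comm, h2, succ_nsmul]
    abel

/-- If `g • c = a • c` then `g ^ k • c = a ^ k • c`. -/
theorem pow_smul_eq_of_eigen (g : G) (c : M) (a : ℕ) (h : g • c = a • c) (k : ℕ) :
    (g ^ k) • c = a ^ k • c := by
  induction k with
  | zero => simp
  | succ k ih =>
    rw [pow_succ', mul_smul, ih, smul_nsmul_comm, h, ← mul_nsmul', pow_succ]

end Basic

section Core

variable (p : ℕ) {G : Type*} [Group G] (e : G → ℕ) {M : Type*} [AddCommGroup M]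
  [DistribMulAction G M]

/-- A nonzero finite group killed by the prime `p` has order divisible by `p`. -/
theorem dvd_card_of_ne_bot [Fact p.Prime] [Finite M] (C' : AddSubgroup M) (hne : C' ≠ ⊥)
    (hp : ∀ c ∈ C', p • c = 0) : p ∣ Nat.card C' := by
  obtain ⟨a, ha⟩ := (AddSubgroup.ne_bot_iff_exists_ne_zero).mp hne
  have h1 : addOrderOf a ∣ p :=
    addOrderOf_dvd_of_nsmul_eq_zero (Subtype.ext (hp a a.2))
  rcases (Nat.dvd_prime (Fact.out (p := p.Prime))).mp h1 with h | h
  · exact absurd (AddMonoid.addOrderOf_eq_one_iff.mp h) ha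
  · rw [← h]
    exact addOrderOf_dvd_natCard a

/-- **Fixed vector.** A subgroup `H` of `G` acting unipotently (`(g - 1)^2 = 0`) on a nonzero
`G`-stable finite subgroup killed by `p` has a nonzero fixed vector there. -/
theorem exists_ne_zero_fixed [Fact p.Prime] [Finite M] (H : Subgroup G) (C' : AddSubgroup M)
    (hst : ∀ g : G, ∀ c ∈ C', g • c ∈ C') (hne : C' ≠ ⊥) (hp : ∀ c ∈ C', p • c = 0)
    (hunip : ∀ g ∈ H, ∀ c ∈ C', g • g • c - 2 • g • c + c = 0) :
    ∃ w ∈ C', w ≠ 0 ∧ ∀ g ∈ H, g • w = w := by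
  classical
  let _ : DistribMulAction G C' := subAction C' hst
  let φ : H →* Equiv.Perm C' := MulAction.toPermHom H C'
  have hφ : ∀ (g : H) (c : C'), ((φ g c : C') : M) = (g : G) • (c : M) := fun g c => rfl
  have hP : IsPGroup p φ.range := by
    rintro ⟨σ, g, rfl⟩
    refine ⟨1, Subtype.ext ?_⟩
    rw [pow_one]
    ext c
    show (((φ g) ^ p) c : M) = c
    rw [← map_pow, hφ, Subgroup.coe_pow,
      pow_smul_eq_of_unip (g : G) (c : M) (hunip g g.2 c c.2) p,
      hp _ (C'.sub_mem (hst g c c.2) c.2), add_zero]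
  have h0 : (0 : C') ∈ MulAction.fixedPoints φ.range C' := by
    rintro ⟨σ, g, rfl⟩
    exact Subtype.ext (smul_zero (g : G))
  obtain ⟨b, hb, hb0⟩ := hP.exists_fixed_point_of_prime_dvd_card_of_fixed_point C'
    (dvd_card_of_ne_bot p C' hne hp) h0
  refine ⟨b, b.2, fun h => hb0 (Subtype.ext h.symm), fun g hg => ?_⟩
  have := hb ⟨φ ⟨g, hg⟩, ⟨g, hg⟩, rfl⟩
  exact congrArg Subtype.val this

/-- The residue character attached to an exponent function which is multiplicative mod `p`. -/
noncomputable def chi [Fact p.Prime] (he1 : ∀ g h, e (g * h) ≡ e g * e h [MOD p])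
    (he0 : ∀ g, ¬ p ∣ e g) : G →* (ZMod p)ˣ :=
  MonoidHom.mk' (fun g => Units.mk0 (e g : ZMod p)
    (fun h => he0 g ((ZMod.natCast_eq_zero_iff _ _).mp h)))
    (fun g h => Units.ext (by
      show ((e (g * h) : ℕ) : ZMod p) = (e g : ZMod p) * (e h : ZMod p)
      rw [← Nat.cast_mul]
      exact (ZMod.natCast_eq_natCast_iff _ _ _).mpr (he1 g h)))

theorem chi_coe [Fact p.Prime] (he1 : ∀ g h, e (g * h) ≡ e g * e h [MOD p])
    (he0 : ∀ g, ¬ p ∣ e g) (g : G) : ((chi p e he1 he0 g : (ZMod p)ˣ) : ZMod p) = (e g : ZMod p) :=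
  rfl

/-- Common eigenspace: vectors of `C'` fixed by `H` on which `g0` acts by `a`. -/
def eigen (H : Subgroup G) (C' : AddSubgroup M) (g0 : G) (a : ℕ) : AddSubgroup M where
  carrier := {c | c ∈ C' ∧ (∀ h ∈ H, h • c = c) ∧ g0 • c = a • c}
  zero_mem' := ⟨C'.zero_mem, fun h _ => smul_zero h, by rw [smul_zero, nsmul_zero]⟩
  add_mem' := by
    rintro x y ⟨hx1, hx2, hx3⟩ ⟨hy1, hy2, hy3⟩
    exact ⟨C'.add_mem hx1 hy1, fun h hh => by rw [smul_add, hx2 h hh, hy2 h hh],
      by rw [smul_add, hx3, hy3, nsmul_add]⟩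
  neg_mem' := by
    rintro x ⟨hx1, hx2, hx3⟩
    exact ⟨C'.neg_mem hx1, fun h hh => by rw [smul_neg, hx2 h hh],
      by rw [smul_neg, hx3, neg_nsmul]⟩

/-- **Bottom step.** On a nonzero `G`-stable finite subgroup killed by `p` with
`(g - 1)(g - e g) = 0`, there is a nonzero `G`-stable subgroup on which `G` acts trivially,
or on which `G` acts by `e`. -/
theorem exists_bottom_step [Fact p.Prime] [Finite M]
    (he1 : ∀ g h, e (g * h) ≡ e g * e h [MOD p]) (he0 : ∀ g, ¬ p ∣ e g)
    (C' : AddSubgroup M) (hst : ∀ g : G, ∀ c ∈ C', g • c ∈ C') (hne : C' ≠ ⊥)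
    (hp : ∀ c ∈ C', p • c = 0)
    (hquad : ∀ g : G, ∀ c ∈ C', g • g • c - (1 + e g) • g • c + e g • c = 0) :
    ∃ D : AddSubgroup M, D ≤ C' ∧ D ≠ ⊥ ∧ (∀ g : G, ∀ d ∈ D, g • d ∈ D) ∧
      ((∀ g : G, ∀ d ∈ D, g • d = d) ∨ (∀ g : G, ∀ d ∈ D, g • d = e g • d)) := by
  classical
  set χ := chi p e he1 he0 with hχdef
  have hχ : ∀ g, ((χ g : (ZMod p)ˣ) : ZMod p) = (e g : ZMod p) := fun g => rfl
  set H : Subgroup G := χ.ker with hH
  -- elements of `H` have exponent `1` mod `p`
  have hH1 : ∀ g ∈ H, e g ≡ 1 [MOD p] := by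
    intro g hg
    have h1 : χ g = 1 := MonoidHom.mem_ker.mp hg
    have h2 : (e g : ZMod p) = ((1 : ℕ) : ZMod p) := by
      rw [← hχ g, h1, Units.val_one, Nat.cast_one]
    exact (ZMod.natCast_eq_natCast_iff _ _ _).mp h2
  have hunip : ∀ g ∈ H, ∀ c ∈ C', g • g • c - 2 • g • c + c = 0 := by
    intro g hg c hc
    have h1 := hquad g c hc
    have h2 : (1 + e g) • g • c = 2 • g • c :=
      nsmul_eq_of_modEq p (hp _ (hst g c hc)) (Nat.ModEq.add_left 1 (hH1 g hg))
    have h3 : e g • c = c := by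
      rw [nsmul_eq_of_modEq p (hp c hc) (hH1 g hg), one_nsmul]
    rw [h2, h3] at h1
    exact h1
  obtain ⟨w, hwC, hw0, hwfix⟩ := exists_ne_zero_fixed p H C' hst hne hp hunip
  -- the action on `H`-fixed vectors only depends on `χ`
  have hdep : ∀ g g' : G, χ g = χ g' → ∀ c : M, (∀ h ∈ H, h • c = c) → g • c = g' • c := by
    intro g g' hgg c hc
    have hmem : g⁻¹ * g' ∈ H := by
      rw [hH, MonoidHom.mem_ker, map_mul, map_inv, hgg, inv_mul_cancel]
    have : g' • c = g • ((g⁻¹ * g') • c) := by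
      rw [← mul_smul, mul_inv_cancel_left]
    rw [this, hc _ hmem]
  -- `H`-fixed vectors are `G`-stable
  have hfixst : ∀ (g : G) (c : M), (∀ h ∈ H, h • c = c) → ∀ h ∈ H, h • g • c = g • c := by
    intro g c hc h hh
    have hn : g⁻¹ * h * g⁻¹⁻¹ ∈ H := (MonoidHom.normal_ker χ).conj_mem h hh g⁻¹
    rw [inv_inv] at hn
    have : h • g • c = g • ((g⁻¹ * h * g) • c) := by
      rw [← mul_smul, ← mul_smul]
      congr 1
      group
    rw [this, hc _ hn]
  -- a generator of the image of `χ`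
  obtain ⟨⟨y, g0, rfl⟩, hgen⟩ := IsCyclic.exists_generator (α := χ.range)
  have hk : ∀ g : G, ∃ k : ℕ, χ (g0 ^ k) = χ g := by
    intro g
    have h1 : (⟨χ g, g, rfl⟩ : χ.range) ∈ Subgroup.zpowers (⟨χ g0, g0, rfl⟩ : χ.range) :=
      hgen _
    rw [← mem_powers_iff_mem_zpowers] at h1
    obtain ⟨k, hk⟩ := h1
    refine ⟨k, ?_⟩
    have := congrArg Subtype.val hk
    simpa [map_pow] using this
  -- general eigen-subgroups
  have hstab : ∀ a : ℕ, ∀ g : G, ∀ d ∈ eigen H C' g0 a, ∃ k : ℕ, χ (g0 ^ k) = χ g ∧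
      g • d = a ^ k • d := by
    intro a g d hd
    obtain ⟨k, hk⟩ := hk g
    exact ⟨k, hk, by rw [← hdep _ _ hk d hd.2.1, pow_smul_eq_of_eigen g0 d a hd.2.2 k]⟩
  by_cases hv : g0 • w = w
  · -- trivial action on `eigen 1`
    refine ⟨eigen H C' g0 1, fun d hd => hd.1, ?_, ?_, Or.inl ?_⟩
    · intro h
      have : w ∈ eigen H C' g0 1 := ⟨hwC, hwfix, by rw [hv, one_nsmul]⟩
      rw [h, AddSubgroup.mem_bot] at this
      exact hw0 this
    · intro g d hd
      obtain ⟨k, -, hk⟩ := hstab 1 g d hd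
      rw [hk, one_pow, one_nsmul]
      exact hd
    · intro g d hd
      obtain ⟨k, -, hk⟩ := hstab 1 g d hd
      rw [hk, one_pow, one_nsmul]
  · -- `e`-action on `eigen (e g0)`
    have hact : ∀ g : G, ∀ d ∈ eigen H C' g0 (e g0), g • d = e g • d := by
      intro g d hd
      obtain ⟨k, hχk, hk⟩ := hstab (e g0) g d hd
      rw [hk]
      refine nsmul_eq_of_modEq p (hp d hd.1) ?_
      refine (ZMod.natCast_eq_natCast_iff _ _ _).mp ?_
      rw [Nat.cast_pow, ← hχ g, ← hχ g0, ← hχk, map_pow, Units.val_pow_eq_pow_val]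
    refine ⟨eigen H C' g0 (e g0), fun d hd => hd.1, ?_, ?_, Or.inr hact⟩
    · intro h
      have hmem : g0 • w - w ∈ eigen H C' g0 (e g0) := by
        refine ⟨C'.sub_mem (hst g0 w hwC) hwC, fun h hh => ?_, ?_⟩
        · rw [smul_sub, hfixst g0 w hwfix h hh, hwfix h hh]
        · have h1 := hquad g0 w hwC
          rw [smul_sub, nsmul_sub]
          have h2 : g0 • g0 • w = (1 + e g0) • g0 • w - e g0 • w := by
            rw [eq_sub_iff_add_eq, ← sub_eq_zero, ← h1]
            abel
          rw [h2, add_nsmul, one_nsmul]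
          abel
      rw [h, AddSubgroup.mem_bot, sub_eq_zero] at hmem
      exact hv hmem
    · intro g d hd
      rw [hact g d hd]
      exact AddSubgroup.nsmul_mem _ hd _

end Core

section Refine

variable (p : ℕ) {G : Type*} [Group G] (e : G → ℕ) {M : Type*} [AddCommGroup M]
  [DistribMulAction G M]

/-- **Relative bottom step.** A proper quadratic step `C < C'` contains an ordinary step
`C < D ≤ C'`. -/
theorem exists_ordStep_of_quadStep [Fact p.Prime] [Finite M]
    (he1 : ∀ g h, e (g * h) ≡ e g * e h [MOD p]) (he0 : ∀ g, ¬ p ∣ e g)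
    (C C' : AddSubgroup M) (hC : ∀ g : G, ∀ c ∈ C, g • c ∈ C)
    (hC' : ∀ g : G, ∀ c ∈ C', g • c ∈ C') (hq : IsQuadStep p e C C') (hne : C ≠ C') :
    ∃ D : AddSubgroup M, C < D ∧ D ≤ C' ∧ (∀ g : G, ∀ d ∈ D, g • d ∈ D) ∧
      IsOrdStep p e C D := by
  classical
  let _ : DistribMulAction G (M ⧸ C) := quotAction C hC
  have hsm : ∀ (g : G) (x : M), g • (QuotientAddGroup.mk x : M ⧸ C) = QuotientAddGroup.mk (g • x) :=
    fun g x => rfl
  have hmk0 : ∀ x : M, (QuotientAddGroup.mk x : M ⧸ C) = 0 ↔ x ∈ C :=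
    fun x => QuotientAddGroup.eq_zero_iff x
  have hnsm : ∀ (n : ℕ) (x : M), n • (QuotientAddGroup.mk x : M ⧸ C) = QuotientAddGroup.mk (n • x) :=
    fun n x => rfl
  set π : M →+ M ⧸ C := QuotientAddGroup.mk' C with hπ
  have hπmk : ∀ x : M, π x = QuotientAddGroup.mk x := fun x => rfl
  obtain ⟨hle, hpC, hquad⟩ := hq
  have hbar : ∀ x ∈ C'.map π, ∃ c ∈ C', (QuotientAddGroup.mk c : M ⧸ C) = x := by
    intro x hx
    obtain ⟨c, hc, rfl⟩ := AddSubgroup.mem_map.mp hx
    exact ⟨c, hc, rfl⟩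
  obtain ⟨D, hD1, hD2, hD3, hD4⟩ := exists_bottom_step p e he1 he0 (C'.map π)
    (by
      intro g x hx
      obtain ⟨c, hc, rfl⟩ := hbar x hx
      rw [hsm]
      exact AddSubgroup.mem_map_of_mem π (hC' g c hc))
    (by
      intro h
      apply hne
      refine le_antisymm hle (fun c hc => ?_)
      have : π c ∈ C'.map π := AddSubgroup.mem_map_of_mem π hc
      rw [h, AddSubgroup.mem_bot] at this
      exact (hmk0 c).mp this)
    (by
      intro x hx
      obtain ⟨c, hc, rfl⟩ := hbar x hx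
      rw [hnsm, hmk0]
      exact hpC c hc)
    (by
      intro g x hx
      obtain ⟨c, hc, rfl⟩ := hbar x hx
      rw [hsm, hsm, hnsm, hnsm, ← QuotientAddGroup.mk_sub, ← QuotientAddGroup.mk_add, hmk0]
      exact hquad g c hc)
  have hDC' : ∀ d : M, (QuotientAddGroup.mk d : M ⧸ C) ∈ D → d ∈ C' := by
    intro d hd
    obtain ⟨c, hc, hcd⟩ := hbar _ (hD1 hd)
    have h1 : c - d ∈ C := by
      rw [← hmk0, QuotientAddGroup.mk_sub, hcd, sub_self]
    have h2 : d = c - (c - d) := by abel
    rw [h2]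
    exact C'.sub_mem hc (hle h1)
  refine ⟨D.comap π, ?_, ?_, ?_, ?_, ?_, ?_⟩
  · refine lt_of_le_of_ne (fun c hc => ?_) ?_
    · rw [AddSubgroup.mem_comap, hπmk, (hmk0 c).mpr hc]
      exact D.zero_mem
    · intro h
      apply hD2
      rw [eq_bot_iff]
      intro x hx
      induction x using QuotientAddGroup.induction_on with
      | H d =>
        have : d ∈ D.comap π := hx
        rw [← h] at this
        rw [AddSubgroup.mem_bot]
        exact (hmk0 d).mpr this
  · intro d hd
    exact hDC' d hd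
  · intro g d hd
    rw [AddSubgroup.mem_comap, hπmk, ← hsm]
    exact hD3 g _ hd
  · intro c hc
    rw [AddSubgroup.mem_comap, hπmk, (hmk0 c).mpr hc]
    exact D.zero_mem
  · intro d hd
    have hd' : (QuotientAddGroup.mk d : M ⧸ C) ∈ D := hd
    rw [← hmk0, ← hnsm]
    obtain ⟨c, hc, hcd⟩ := hbar _ (hD1 hd')
    rw [← hcd, hnsm, hmk0]
    exact hpC c hc
  · rcases hD4 with h | h
    · left
      intro g d hd
      have hd' : (QuotientAddGroup.mk d : M ⧸ C) ∈ D := hd
      rw [← hmk0, QuotientAddGroup.mk_sub, ← hsm, h g _ hd', sub_self]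
    · right
      intro g d hd
      have hd' : (QuotientAddGroup.mk d : M ⧸ C) ∈ D := hd
      rw [← hmk0, QuotientAddGroup.mk_sub, ← hsm, ← hnsm, h g _ hd', sub_self]

/-- A quadratic step can be refined to an ordinary chain (inductive form). -/
theorem ordChain_of_quadStep [Fact p.Prime] [Finite M]
    (he1 : ∀ g h, e (g * h) ≡ e g * e h [MOD p]) (he0 : ∀ g, ¬ p ∣ e g) :
    ∀ (k : ℕ) (C C' : AddSubgroup M), (∀ g : G, ∀ c ∈ C, g • c ∈ C) →
      (∀ g : G, ∀ c ∈ C', g • c ∈ C') → IsQuadStep p e C C' →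
      (C' : Set M).ncard ≤ (C : Set M).ncard + k → OrdChain p e C C' := by
  intro k
  induction k with
  | zero =>
    intro C C' hC hC' hq hcard
    by_cases hne : C = C'
    · rw [hne]
      exact OrdChain.refl _
    · obtain ⟨D, hCD, hDC', -, -⟩ := exists_ordStep_of_quadStep p e he1 he0 C C' hC hC' hq hne
      have h1 : (C : Set M).ncard < (D : Set M).ncard :=
        Set.ncard_lt_ncard (SetLike.coe_ssubset_coe.mpr hCD) (Set.toFinite _)
      have h2 : (D : Set M).ncard ≤ (C' : Set M).ncard :=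
        Set.ncard_le_ncard (SetLike.coe_subset_coe.mpr hDC') (Set.toFinite _)
      omega
  | succ k ih =>
    intro C C' hC hC' hq hcard
    by_cases hne : C = C'
    · rw [hne]
      exact OrdChain.refl _
    · obtain ⟨D, hCD, hDC', hD, hstep⟩ :=
        exists_ordStep_of_quadStep p e he1 he0 C C' hC hC' hq hne
      have h1 : (C : Set M).ncard < (D : Set M).ncard :=
        Set.ncard_lt_ncard (SetLike.coe_ssubset_coe.mpr hCD) (Set.toFinite _)
      refine OrdChain.step hstep hD (ih D C' hD hC' ⟨hDC', fun c hc => hCD.le (hq.2.1 c hc),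
        fun g c hc => hCD.le (hq.2.2 g c hc)⟩ (by omega))

/-- A quadratic step can be refined to an ordinary chain (sequence form). -/
theorem exists_seq_of_quadStep [Fact p.Prime] [Finite M]
    (he1 : ∀ g h, e (g * h) ≡ e g * e h [MOD p]) (he0 : ∀ g, ¬ p ∣ e g)
    (C C' : AddSubgroup M) (hC : ∀ g : G, ∀ c ∈ C, g • c ∈ C)
    (hC' : ∀ g : G, ∀ c ∈ C', g • c ∈ C') (hq : IsQuadStep p e C C') :
    ∃ (s : ℕ) (D : ℕ → AddSubgroup M), D 0 = C ∧ D s = C' ∧
      (∀ i, ∀ g : G, ∀ c ∈ D i, g • c ∈ D i) ∧ ∀ i < s, IsOrdStep p e (D i) (D (i + 1)) :=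
  (ordChain_of_quadStep p e he1 he0 (C' : Set M).ncard C C' hC hC' hq
    (Nat.le_add_left _ _)).exists_seq p e hC

variable (M) in
/-- **(J1)** A quadratic chain can be refined to an ordinary chain. -/
theorem hasOrdChain_of_hasQuadChain [Fact p.Prime] [Finite M]
    (he1 : ∀ g h, e (g * h) ≡ e g * e h [MOD p]) (he0 : ∀ g, ¬ p ∣ e g)
    (h : HasQuadChain p e M) : HasOrdChain p e M := by
  obtain ⟨r, C, h0, hr, hst, hstep⟩ := h
  rw [hasOrdChain_iff_ordChain]
  have key : ∀ k ≤ r, OrdChain p e (C 0) (C k) := by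
    intro k
    induction k with
    | zero => exact fun _ => OrdChain.refl _
    | succ k ih =>
      intro hk
      exact (ih (Nat.le_of_succ_le hk)).trans p e
        (ordChain_of_quadStep p e he1 he0 _ (C k) (C (k + 1)) (hst k) (hst (k + 1))
          (hstep k hk) (Nat.le_add_left _ _))
  have := key r le_rfl
  rwa [h0, hr] at this

end Refine

section Heredity

variable (p : ℕ) {G : Type*} [Group G] (e : G → ℕ) {M : Type*} [AddCommGroup M]
  [DistribMulAction G M] {M' : Type*} [AddCommGroup M'] [DistribMulAction G M']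

theorem IsOrdStep.comap (f : M →+ M') (hf : ∀ (g : G) (x : M), f (g • x) = g • f x)
    {C C' : AddSubgroup M'} (h : IsOrdStep p e C C') :
    IsOrdStep p e (C.comap f) (C'.comap f) := by
  refine ⟨AddSubgroup.comap_mono h.1, fun c hc => ?_, ?_⟩
  · show f (p • c) ∈ C
    rw [map_nsmul]
    exact h.2.1 _ hc
  · rcases h.2.2 with h1 | h1
    · left
      intro g c hc
      show f (g • c - c) ∈ C
      rw [map_sub, hf]
      exact h1 g _ hc
    · right
      intro g c hc
      show f (g • c - e g • c) ∈ C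
      rw [map_sub, hf, map_nsmul]
      exact h1 g _ hc

theorem IsQuadStep.comap (f : M →+ M') (hf : ∀ (g : G) (x : M), f (g • x) = g • f x)
    {C C' : AddSubgroup M'} (h : IsQuadStep p e C C') :
    IsQuadStep p e (C.comap f) (C'.comap f) := by
  refine ⟨AddSubgroup.comap_mono h.1, fun c hc => ?_, fun g c hc => ?_⟩
  · show f (p • c) ∈ C
    rw [map_nsmul]
    exact h.2.1 _ hc
  · show f (g • g • c - (1 + e g) • g • c + e g • c) ∈ C
    rw [map_add, map_sub, map_nsmul, map_nsmul, hf, hf]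
    exact h.2.2 g _ hc

theorem IsOrdStep.map (f : M →+ M') (hf : ∀ (g : G) (x : M), f (g • x) = g • f x)
    {C C' : AddSubgroup M} (h : IsOrdStep p e C C') :
    IsOrdStep p e (C.map f) (C'.map f) := by
  refine ⟨AddSubgroup.map_mono h.1, ?_, ?_⟩
  · rintro _ ⟨c, hc, rfl⟩
    rw [← map_nsmul]
    exact AddSubgroup.mem_map_of_mem f (h.2.1 c hc)
  · rcases h.2.2 with h1 | h1
    · left
      rintro g _ ⟨c, hc, rfl⟩
      rw [← hf, ← map_sub]
      exact AddSubgroup.mem_map_of_mem f (h1 g c hc)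
    · right
      rintro g _ ⟨c, hc, rfl⟩
      rw [← hf, ← map_nsmul, ← map_sub]
      exact AddSubgroup.mem_map_of_mem f (h1 g c hc)

theorem IsQuadStep.map (f : M →+ M') (hf : ∀ (g : G) (x : M), f (g • x) = g • f x)
    {C C' : AddSubgroup M} (h : IsQuadStep p e C C') :
    IsQuadStep p e (C.map f) (C'.map f) := by
  refine ⟨AddSubgroup.map_mono h.1, ?_, ?_⟩
  · rintro _ ⟨c, hc, rfl⟩
    rw [← map_nsmul]
    exact AddSubgroup.mem_map_of_mem f (h.2.1 c hc)
  · rintro g _ ⟨c, hc, rfl⟩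
    rw [← hf, ← hf, ← map_nsmul, ← map_nsmul, ← map_sub, ← map_add]
    exact AddSubgroup.mem_map_of_mem f (h.2.2 g c hc)

/-- **(J2)** Ordinary chains pull back along injective equivariant maps. -/
theorem HasOrdChain.of_injective (f : M →+ M') (hf : ∀ (g : G) (x : M), f (g • x) = g • f x)
    (hinj : Function.Injective f) (h : HasOrdChain p e M') : HasOrdChain p e M := by
  obtain ⟨r, C, h0, hr, hst, hstep⟩ := h
  refine ⟨r, fun i => (C i).comap f, ?_, ?_, ?_, fun i hi => (hstep i hi).comap p e f hf⟩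
  · show (C 0).comap f = ⊥
    rw [h0, eq_bot_iff]
    intro x hx
    have hx' : f x = 0 := hx
    rw [AddSubgroup.mem_bot]
    exact hinj (by rw [hx', map_zero])
  · show (C r).comap f = ⊤
    rw [hr, AddSubgroup.comap_top]
  · intro i g c hc
    show f (g • c) ∈ C i
    rw [hf]
    exact hst i g _ hc

/-- **(J2)** Quadratic chains pull back along injective equivariant maps. -/
theorem HasQuadChain.of_injective (f : M →+ M') (hf : ∀ (g : G) (x : M), f (g • x) = g • f x)
    (hinj : Function.Injective f) (h : HasQuadChain p e M') : HasQuadChain p e M := by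
  obtain ⟨r, C, h0, hr, hst, hstep⟩ := h
  refine ⟨r, fun i => (C i).comap f, ?_, ?_, ?_, fun i hi => (hstep i hi).comap p e f hf⟩
  · show (C 0).comap f = ⊥
    rw [h0, eq_bot_iff]
    intro x hx
    have hx' : f x = 0 := hx
    rw [AddSubgroup.mem_bot]
    exact hinj (by rw [hx', map_zero])
  · show (C r).comap f = ⊤
    rw [hr, AddSubgroup.comap_top]
  · intro i g c hc
    show f (g • c) ∈ C i
    rw [hf]
    exact hst i g _ hc

/-- **(J2)** Ordinary chains push forward along surjective equivariant maps. -/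
theorem HasOrdChain.of_surjective (f : M →+ M') (hf : ∀ (g : G) (x : M), f (g • x) = g • f x)
    (hsurj : Function.Surjective f) (h : HasOrdChain p e M) : HasOrdChain p e M' := by
  obtain ⟨r, C, h0, hr, hst, hstep⟩ := h
  refine ⟨r, fun i => (C i).map f, ?_, ?_, ?_, fun i hi => (hstep i hi).map p e f hf⟩
  · show (C 0).map f = ⊥
    rw [h0, AddSubgroup.map_bot]
  · show (C r).map f = ⊤
    rw [hr, AddSubgroup.map_top_of_surjective f hsurj]
  · rintro i g _ ⟨c, hc, rfl⟩
    rw [← hf]
    exact AddSubgroup.mem_map_of_mem f (hst i g c hc)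

/-- **(J2)** Quadratic chains push forward along surjective equivariant maps. -/
theorem HasQuadChain.of_surjective (f : M →+ M') (hf : ∀ (g : G) (x : M), f (g • x) = g • f x)
    (hsurj : Function.Surjective f) (h : HasQuadChain p e M) : HasQuadChain p e M' := by
  obtain ⟨r, C, h0, hr, hst, hstep⟩ := h
  refine ⟨r, fun i => (C i).map f, ?_, ?_, ?_, fun i hi => (hstep i hi).map p e f hf⟩
  · show (C 0).map f = ⊥
    rw [h0, AddSubgroup.map_bot]
  · show (C r).map f = ⊤
    rw [hr, AddSubgroup.map_top_of_surjective f hsurj]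
  · rintro i g _ ⟨c, hc, rfl⟩
    rw [← hf]
    exact AddSubgroup.mem_map_of_mem f (hst i g c hc)

/-- **(J2)** Ordinary chains restrict to `G`-stable subgroups. -/
theorem HasOrdChain.sub (C : AddSubgroup M) (hC : ∀ g : G, ∀ c ∈ C, g • c ∈ C)
    (h : HasOrdChain p e M) : @HasOrdChain p G _ e C _ (subAction C hC) :=
  @HasOrdChain.of_injective p G _ e C _ (subAction C hC) M _ _ C.subtype (fun _ _ => rfl)
    Subtype.val_injective h

/-- **(J2)** Quadratic chains restrict to `G`-stable subgroups. -/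
theorem HasQuadChain.sub (C : AddSubgroup M) (hC : ∀ g : G, ∀ c ∈ C, g • c ∈ C)
    (h : HasQuadChain p e M) : @HasQuadChain p G _ e C _ (subAction C hC) :=
  @HasQuadChain.of_injective p G _ e C _ (subAction C hC) M _ _ C.subtype (fun _ _ => rfl)
    Subtype.val_injective h

/-- **(J2)** Ordinary chains pass to quotients by `G`-stable subgroups. -/
theorem HasOrdChain.quot (C : AddSubgroup M) (hC : ∀ g : G, ∀ c ∈ C, g • c ∈ C)
    (h : HasOrdChain p e M) : @HasOrdChain p G _ e (M ⧸ C) _ (quotAction C hC) :=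
  @HasOrdChain.of_surjective p G _ e M _ _ (M ⧸ C) _ (quotAction C hC) (QuotientAddGroup.mk' C)
    (fun _ _ => rfl) (QuotientAddGroup.mk'_surjective C) h

/-- **(J2)** Quadratic chains pass to quotients by `G`-stable subgroups. -/
theorem HasQuadChain.quot (C : AddSubgroup M) (hC : ∀ g : G, ∀ c ∈ C, g • c ∈ C)
    (h : HasQuadChain p e M) : @HasQuadChain p G _ e (M ⧸ C) _ (quotAction C hC) :=
  @HasQuadChain.of_surjective p G _ e M _ _ (M ⧸ C) _ (quotAction C hC) (QuotientAddGroup.mk' C)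
    (fun _ _ => rfl) (QuotientAddGroup.mk'_surjective C) h

/-- **Induction along an ordinary chain.** -/
theorem HasOrdChain.induction (h : HasOrdChain p e M) (P : AddSubgroup M → Prop) (h0 : P ⊥)
    (hstep : ∀ C C' : AddSubgroup M, (∀ g : G, ∀ c ∈ C, g • c ∈ C) →
      (∀ g : G, ∀ c ∈ C', g • c ∈ C') → IsOrdStep p e C C' → P C → P C') : P ⊤ := by
  obtain ⟨r, C, hC0, hr, hst, hs⟩ := h
  have key : ∀ k ≤ r, P (C k) := by
    intro k
    induction k with
    | zero => exact fun _ => hC0 ▸ h0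
    | succ k ih =>
      intro hk
      exact hstep _ _ (hst k) (hst (k + 1)) (hs k hk) (ih (Nat.le_of_succ_le hk))
  exact hr ▸ key r le_rfl

/-- **(J3)** Bottom step of an ordinary chain: a nonzero `G`-stable subgroup killed by `p` on
which `G` acts trivially or by `e`. -/
theorem HasOrdChain.exists_bottom [Nontrivial M] (h : HasOrdChain p e M) :
    ∃ C₁ : AddSubgroup M, C₁ ≠ ⊥ ∧ (∀ g : G, ∀ c ∈ C₁, g • c ∈ C₁) ∧ (∀ c ∈ C₁, p • c = 0) ∧
      ((∀ g : G, ∀ c ∈ C₁, g • c = c) ∨ (∀ g : G, ∀ c ∈ C₁, g • c = e g • c)) := by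
  classical
  obtain ⟨r, C, h0, hr, hst, hstep⟩ := h
  have hex : ∃ i, C i ≠ ⊥ := ⟨r, by rw [hr]; exact top_ne_bot⟩
  have hi := Nat.find_spec hex
  have hile : Nat.find hex ≤ r := Nat.find_min' hex (by rw [hr]; exact top_ne_bot)
  have hne0 : Nat.find hex ≠ 0 := by
    intro h
    apply hi
    rw [h, h0]
  obtain ⟨j, hj⟩ := Nat.exists_eq_succ_of_ne_zero hne0
  have hCj : C j = ⊥ := by
    by_contra hne
    exact Nat.find_min hex (by omega : j < Nat.find hex) hne
  have hs := hstep j (by omega)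
  rw [hCj, ← Nat.succ_eq_add_one, ← hj] at hs
  refine ⟨C (Nat.find hex), hi, hst _, fun c hc => ?_, ?_⟩
  · exact (AddSubgroup.mem_bot).mp (hs.2.1 c hc)
  · rcases hs.2.2 with h1 | h1
    · left
      intro g c hc
      exact sub_eq_zero.mp ((AddSubgroup.mem_bot).mp (h1 g c hc))
    · right
      intro g c hc
      exact sub_eq_zero.mp ((AddSubgroup.mem_bot).mp (h1 g c hc))

/-- **(J3)** Top step of an ordinary chain: a proper `G`-stable subgroup `C` with `C ≤ ⊤` an
ordinary step, carrying again an ordinary chain. -/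
theorem HasOrdChain.exists_top [Nontrivial M] (h : HasOrdChain p e M) :
    ∃ (C₁ : AddSubgroup M) (hC₁ : ∀ g : G, ∀ c ∈ C₁, g • c ∈ C₁), C₁ ≠ ⊤ ∧
      IsOrdStep p e C₁ ⊤ ∧ @HasOrdChain p G _ e C₁ _ (subAction C₁ hC₁) := by
  classical
  obtain ⟨r, C, h0, hr, hst, hstep⟩ := h
  have hex : ∃ i, C i = ⊤ := ⟨r, hr⟩
  have hi := Nat.find_spec hex
  have hile : Nat.find hex ≤ r := Nat.find_min' hex hr
  have hne0 : Nat.find hex ≠ 0 := by
    intro h
    apply bot_ne_top (α := AddSubgroup M)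
    rw [← h0, ← h, hi]
  obtain ⟨j, hj⟩ := Nat.exists_eq_succ_of_ne_zero hne0
  have hCj : C j ≠ ⊤ := fun hne => Nat.find_min hex (by omega : j < Nat.find hex) hne
  have hs := hstep j (by omega)
  rw [← Nat.succ_eq_add_one, ← hj, hi] at hs
  refine ⟨C j, hst j, hCj, hs, ?_⟩
  let _ := subAction (C j) (hst j)
  refine ⟨j, fun i => (C i).comap (C j).subtype, ?_, ?_, ?_, ?_⟩
  · show (C 0).comap (C j).subtype = ⊥
    rw [h0, eq_bot_iff]
    intro x hx
    have hx' : (x : M) = 0 := hx
    rw [AddSubgroup.mem_bot]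
    exact Subtype.ext hx'
  · show (C j).comap (C j).subtype = ⊤
    rw [eq_top_iff]
    intro x _
    exact x.2
  · intro i g c hc
    exact hst i g _ hc
  · intro i hi'
    exact (hstep i (by omega)).comap p e (C j).subtype (fun _ _ => rfl)

end Heredity

end Fermat.Agent.S33.helper4662
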