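/-
S33 (ordinarity at `p ∥ N`) -- LOCAL-ORD, binomial core (findings #2990 (3)(ii),(iii)).
helper6126.  Mathlib-only.

* `eq_zero_of_one_add_pow_eq_one` (B1): an additive endomorphism `τ = 1 + D` of a `p`-torsion-free,
  `p`-adically separated abelian group with `τ ^ p = 1` and `D H ⊆ p H` (`p` odd) is the identity.
* `eq_zero_of_one_add_pow_eq_one_ring` (B2): the ring form, `(1 + x) ^ p = 1`, `x ∈ p R` ⟹ `x = 0`.
* `translate_eq_of_pow` / `eq_zero_of_translate` (B3): the form consumed by step (ii): translation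
  by a point `m₁` with `p • m₁ = 0` acting on a group `H` of functions, congruent to `1` mod `p`,
  is trivial; if `H` separates points then `m₁ = 0`.
-/
import Mathlib

set_option autoImplicit false

namespace Fermat.Agent.S33.helper6126

open Finset

/-- **(B1) Binomial core.**  `τ = 1 + D` with `τ ^ p = 1`, `D H ⊆ p H`, `H` without `p`-torsion and
`p`-adically separated, `p` odd.  Then `D = 0`. -/
theorem eq_zero_of_one_add_pow_eq_one {H : Type*} [AddCommGroup H] {p : ℕ} (hp : p.Prime)
    (hp2 : p ≠ 2) (D : AddMonoid.End H) (hpow : ((1 : AddMonoid.End H) + D) ^ p = 1)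
    (hdiv : ∀ h, ∃ h', D h = p • h')
    (htf : ∀ h : H, p • h = 0 → h = 0)
    (hsep : ∀ h : H, (∀ k : ℕ, ∃ h', h = p ^ k • h') → h = 0) : D = 0 := by
  classical
  have hp3 : 3 ≤ p := by
    have := hp.two_le
    omega
  -- the subgroups `p ^ k H`
  let S : ℕ → AddSubgroup H := fun k => (nsmulAddMonoidHom (p ^ k) : H →+ H).range
  have memS : ∀ k (h : H), h ∈ S k ↔ ∃ h', h = p ^ k • h' := by
    intro k h
    constructor
    · rintro ⟨h', rfl⟩
      exact ⟨h', rfl⟩
    · rintro ⟨h', rfl⟩
      exact ⟨h', rfl⟩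
  have Santi : ∀ k j, S (k + j) ≤ S k := by
    intro k j h hh
    obtain ⟨h', rfl⟩ := (memS _ _).1 hh
    exact (memS _ _).2 ⟨p ^ j • h', by rw [pow_add, mul_smul]⟩
  have Santi' : ∀ {k l}, k ≤ l → S l ≤ S k := by
    intro k l hkl
    obtain ⟨j, rfl⟩ := Nat.exists_eq_add_of_le hkl
    exact Santi k j
  -- the inductive step
  have key : ∀ a : ℕ, 1 ≤ a → (∀ h, D h ∈ S a) → ∀ h, D h ∈ S (a + 1) := by
    intro a ha hPa
    -- powers of `D` gain `a` each time
    have hDpow : ∀ (m k : ℕ) (h : H), h ∈ S k → (D ^ m) h ∈ S (k + m * a) := by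
      intro m
      induction m with
      | zero => intro k h hh; simpa using hh
      | succ m ih =>
        intro k h hh
        have h1 := ih k h hh
        obtain ⟨x, hx⟩ := (memS _ _).1 h1
        obtain ⟨y, hy⟩ := (memS _ _).1 (hPa x)
        have : (D ^ (m + 1)) h = D ((D ^ m) h) := by
          rw [pow_succ']; rfl
        rw [this, hx, map_nsmul, hy]
        refine (memS _ _).2 ⟨y, ?_⟩
        rw [← mul_smul, ← pow_add]
        congr 2
        ring
    intro h
    obtain ⟨r, rfl⟩ : ∃ r, p = r + 2 := ⟨p - 2, by omega⟩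
    -- binomial expansion evaluated at `h`
    have hexp : ∀ n : ℕ, ((1 : AddMonoid.End H) + D) ^ n =
        ∑ m ∈ range (n + 1), (n.choose m : AddMonoid.End H) * D ^ m := by
      intro n
      rw [add_comm, (Commute.one_right D).add_pow]
      refine Finset.sum_congr rfl fun m _ => ?_
      rw [one_pow, mul_one]
      exact ((Nat.cast_commute (n.choose m) (D ^ m)).eq).symm
    have hsum : (∑ m ∈ range (r + 2 + 1), ((r + 2).choose m) • (D ^ m) h) = h := by
      have := congrArg (fun f : AddMonoid.End H => f h) (hexp (r + 2))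
      beta_reduce at this
      rw [hpow] at this
      have h2 : (∑ m ∈ range (r + 2 + 1), (((r + 2).choose m : ℕ) : AddMonoid.End H) * D ^ m) h
          = ∑ m ∈ range (r + 2 + 1), ((r + 2).choose m) • (D ^ m) h := by
        rw [show (∑ m ∈ range (r + 2 + 1), (((r + 2).choose m : ℕ) : AddMonoid.End H) * D ^ m) h
            = ∑ m ∈ range (r + 2 + 1), ((((r + 2).choose m : ℕ) : AddMonoid.End H) * D ^ m) h from
            AddMonoidHom.finsetSum_apply _ _ _]
        refine Finset.sum_congr rfl fun m _ => ?_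
        show ((((r + 2).choose m : ℕ) : AddMonoid.End H)) ((D ^ m) h) = _
        rw [AddMonoid.End.natCast_apply]
      rw [← h2, ← this]
      rfl
    rw [Finset.sum_range_succ', Finset.sum_range_succ'] at hsum
    simp only [Nat.choose_zero_right, pow_zero, one_smul, zero_add, Nat.choose_one_right,
      pow_one] at hsum
    have hD0 : (1 : AddMonoid.End H) h = h := rfl
    rw [hD0] at hsum
    -- the tail lies in `S (2 a + 1)`
    have htail : (∑ m ∈ range (r + 1), ((r + 2).choose (m + 1 + 1)) • (D ^ (m + 1 + 1)) h)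
        ∈ S (2 * a + 1) := by
      refine AddSubgroup.sum_mem _ fun m hm => ?_
      have hm' : m < r + 1 := Finset.mem_range.1 hm
      have hDm : (D ^ (m + 1 + 1)) h ∈ S (0 + (m + 1 + 1) * a) :=
        hDpow (m + 1 + 1) 0 h ((memS 0 h).2 ⟨h, by simp⟩)
      rcases Nat.lt_or_ge (m + 1 + 1) (r + 2) with hlt | hge
      · -- `p ∣ choose p j`
        have hdvd : (r + 2) ∣ (r + 2).choose (m + 1 + 1) :=
          hp.dvd_choose_self (by omega) hlt
        obtain ⟨c, hc⟩ := hdvd
        have h2a : (D ^ (m + 1 + 1)) h ∈ S (2 * a) :=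
          Santi' (by nlinarith) hDm
        obtain ⟨x, hx⟩ := (memS _ _).1 h2a
        refine (memS _ _).2 ⟨c • x, ?_⟩
        rw [hc, hx, ← mul_smul, ← mul_smul]
        congr 1
        ring
      · -- the top term
        have hm2 : m + 1 + 1 = r + 2 := by omega
        rw [hm2, Nat.choose_self, one_smul]
        rw [hm2] at hDm
        refine Santi' ?_ hDm
        nlinarith
    -- conclude `p • D h ∈ S (2 a + 1)`
    have hpD : (r + 2) • D h = -(∑ m ∈ range (r + 1),
        ((r + 2).choose (m + 1 + 1)) • (D ^ (m + 1 + 1)) h) := by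
      have h3 : (∑ m ∈ range (r + 1), ((r + 2).choose (m + 1 + 1)) • (D ^ (m + 1 + 1)) h)
          + (r + 2) • D h = 0 := by
        have := hsum
        rw [add_assoc] at this
        -- `X + (p • D h + h) = h`
        have h4 : (∑ m ∈ range (r + 1), ((r + 2).choose (m + 1 + 1)) • (D ^ (m + 1 + 1)) h)
          + (r + 2) • D h + h = 0 + h := by
          rw [zero_add, add_assoc]; exact this
        exact add_right_cancel h4
      exact eq_neg_of_add_eq_zero_right h3
    have hmem : (r + 2) • D h ∈ S (2 * a + 1) := by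
      rw [hpD]; exact (S (2 * a + 1)).neg_mem htail
    obtain ⟨y, hy⟩ := (memS _ _).1 hmem
    have hy' : (r + 2) • (D h - (r + 2) ^ (2 * a) • y) = 0 := by
      rw [smul_sub, hy, ← mul_smul, pow_succ, mul_comm, sub_self]
    have hDh : D h = (r + 2) ^ (2 * a) • y := sub_eq_zero.1 (htf _ hy')
    have : D h ∈ S (2 * a) := (memS _ _).2 ⟨y, hDh⟩
    exact Santi' (by omega) this
  have all : ∀ a : ℕ, 1 ≤ a → ∀ h, D h ∈ S a := by
    intro a ha
    induction a, ha using Nat.le_induction with
    | base =>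
      intro h
      obtain ⟨h', hh'⟩ := hdiv h
      exact (memS 1 _).2 ⟨h', by rw [pow_one]; exact hh'⟩
    | succ a ha ih => exact key a ha ih
  ext h
  show D h = 0
  refine hsep _ fun k => ?_
  rcases Nat.eq_zero_or_pos k with rfl | hk
  · exact ⟨D h, by simp⟩
  · exact (memS k _).1 (all k hk h)

/-- **(B2) Ring form.**  In a commutative ring without `p`-torsion and `p`-adically separated
(`p` odd), `(1 + x) ^ p = 1` and `x ∈ p R` force `x = 0`. -/
theorem eq_zero_of_one_add_pow_eq_one_ring {R : Type*} [CommRing R] {p : ℕ} (hp : p.Prime)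
    (hp2 : p ≠ 2) (x : R) (hx : ∃ y, x = (p : R) * y) (hpow : (1 + x) ^ p = 1)
    (htf : ∀ r : R, (p : R) * r = 0 → r = 0)
    (hsep : ∀ r : R, (∀ k : ℕ, ∃ r', r = (p : R) ^ k * r') → r = 0) : x = 0 := by
  let D : AddMonoid.End R := AddMonoidHom.mulLeft x
  have hDapp : ∀ r, D r = x * r := fun r => rfl
  have hpowD : ∀ (k : ℕ) (r : R), (((1 : AddMonoid.End R) + D) ^ k) r = (1 + x) ^ k * r := by
    intro k
    induction k with
    | zero => intro r; simp
    | succ k ih =>
      intro r
      have : (((1 : AddMonoid.End R) + D) ^ (k + 1)) r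
          = ((1 : AddMonoid.End R) + D) ((((1 : AddMonoid.End R) + D) ^ k) r) := by
        rw [pow_succ']; rfl
      rw [this, ih]
      show (1 + x) ^ k * r + D ((1 + x) ^ k * r) = _
      rw [hDapp]
      ring
  have hD : D = 0 := by
    refine eq_zero_of_one_add_pow_eq_one hp hp2 D ?_ ?_ ?_ ?_
    · ext r
      rw [hpowD, hpow, one_mul]; rfl
    · intro r
      obtain ⟨y, hy⟩ := hx
      refine ⟨y * r, ?_⟩
      rw [hDapp, hy, nsmul_eq_mul, mul_assoc]
    · intro r hr
      rw [nsmul_eq_mul] at hr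
      exact htf r hr
    · intro r hr
      refine hsep r fun k => ?_
      obtain ⟨r', hr'⟩ := hr k
      exact ⟨r', by rw [hr', nsmul_eq_mul]; push_cast; rfl⟩
  have := congrArg (fun f : AddMonoid.End R => f 1) hD
  simpa [hDapp] using this

/-- **(B3) Translation form** (step (ii) of LOCAL-ORD).  `H` an additive group of `A`-valued
functions on an abelian group `M`, stable under translation by `m₁` with `p • m₁ = 0`, such that
`φ(· + m₁) - φ ∈ p H` for all `φ ∈ H`; `A` without `p`-torsion, `H` `p`-adically separated, `p` odd.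
Then every `φ ∈ H` is invariant under translation by `m₁`. -/
theorem translate_eq_of_pow {M A : Type*} [AddCommGroup M] [AddCommGroup A] {p : ℕ}
    (hp : p.Prime) (hp2 : p ≠ 2) (H : AddSubgroup (M → A)) (m₁ : M) (hm₁ : p • m₁ = 0)
    (htrans : ∀ φ ∈ H, (fun m => φ (m + m₁)) ∈ H)
    (hdiv : ∀ φ ∈ H, ∃ φ' ∈ H, (fun m => φ (m + m₁) - φ m) = p • φ')
    (htf : ∀ a : A, p • a = 0 → a = 0)
    (hsep : ∀ φ ∈ H, (∀ k : ℕ, ∃ φ' ∈ H, φ = p ^ k • φ') → φ = 0) :
    ∀ φ ∈ H, ∀ m, φ (m + m₁) = φ m := by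
  -- translation as an endomorphism of `H`
  let τ : AddMonoid.End H :=
    { toFun := fun φ => ⟨fun m => (φ : M → A) (m + m₁), htrans _ φ.2⟩
      map_zero' := by ext m; rfl
      map_add' := by intro φ ψ; ext m; rfl }
  have hτ : ∀ (φ : H) (m : M), ((τ φ : H) : M → A) m = (φ : M → A) (m + m₁) := fun _ _ => rfl
  let D : AddMonoid.End H := τ - 1
  have hD : ∀ (φ : H) (m : M), ((D φ : H) : M → A) m = (φ : M → A) (m + m₁) - (φ : M → A) m :=
    fun _ _ => rfl
  have h1D : (1 : AddMonoid.End H) + D = τ := by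
    show 1 + (τ - 1) = τ
    abel
  have hτpow : ∀ (k : ℕ) (φ : H) (m : M),
      (((τ ^ k) φ : H) : M → A) m = (φ : M → A) (m + k • m₁) := by
    intro k
    induction k with
    | zero => intro φ m; simp
    | succ k ih =>
      intro φ m
      have : (τ ^ (k + 1)) φ = (τ ^ k) (τ φ) := by
        rw [pow_succ]; rfl
      rw [this, ih, hτ, succ_nsmul, add_assoc]
  have hD0 : D = 0 := by
    refine eq_zero_of_one_add_pow_eq_one hp hp2 D ?_ ?_ ?_ ?_
    · rw [h1D]
      ext φ m
      rw [hτpow, hm₁, add_zero]; rfl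
    · intro φ
      obtain ⟨φ', hφ', h⟩ := hdiv φ φ.2
      refine ⟨⟨φ', hφ'⟩, ?_⟩
      ext m
      rw [hD]
      have := congrFun h m
      simpa using this
    · intro φ hφ
      ext m
      have := congrArg (fun ψ : H => (ψ : M → A) m) hφ
      simp only [AddSubgroup.coe_nsmul, Pi.smul_apply, AddSubgroup.coe_zero, Pi.zero_apply] at this
      exact htf _ this
    · intro φ hφ
      have : (φ : M → A) = 0 := by
        refine hsep _ φ.2 fun k => ?_
        obtain ⟨φ', hφ'⟩ := hφ k
        exact ⟨φ', φ'.2, by rw [hφ']; simp⟩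
      exact Subtype.ext this
  intro φ hφ m
  have := congrArg (fun f : AddMonoid.End H => ((f ⟨φ, hφ⟩ : H) : M → A) m) hD0
  simp only [hD] at this
  exact sub_eq_zero.1 this

/-- **(B3')** If moreover `H` separates the points of `M`, then `m₁ = 0`. -/
theorem eq_zero_of_translate {M A : Type*} [AddCommGroup M] [AddCommGroup A] {p : ℕ}
    (hp : p.Prime) (hp2 : p ≠ 2) (H : AddSubgroup (M → A)) (m₁ : M) (hm₁ : p • m₁ = 0)
    (htrans : ∀ φ ∈ H, (fun m => φ (m + m₁)) ∈ H)
    (hdiv : ∀ φ ∈ H, ∃ φ' ∈ H, (fun m => φ (m + m₁) - φ m) = p • φ')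
    (htf : ∀ a : A, p • a = 0 → a = 0)
    (hsep : ∀ φ ∈ H, (∀ k : ℕ, ∃ φ' ∈ H, φ = p ^ k • φ') → φ = 0)
    (hpts : ∀ m m' : M, (∀ φ ∈ H, φ m = φ m') → m = m') : m₁ = 0 := by
  have h := translate_eq_of_pow hp hp2 H m₁ hm₁ htrans hdiv htf hsep
  have := hpts (0 + m₁) 0 fun φ hφ => h φ hφ 0
  simpa using this

end Fermat.Agent.S33.helper6126
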