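/-
helper50 — S33 leaf "NOFIX-CONCRETE" (board #2135, team_s33_chat #27).

LOCAL-ORD in the one-statement form of findings #3108 ("no inertia-fixed point in any
inertia-stable subquotient"), proved DIRECTLY in the shape of the landed S19 order
(`S19/helper1243_Order`): `H0 : Subring (M → Qbar)` with `(hval) (hI) (hR0) (hsep) (hadd)`
and `(Loc)`.  No finiteness, freeness or basis of `H0` is used.

* `exists_fixed_coeff_nonunits` : coefficient descent keeping the coefficients in the maximal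
  ideal of `A` (refinement of `S19.helper1243.exists_fixed_coeff`, same minimal-relation proof).
* `translate_mem_invPart`, `exists_translate_sub_eq_nsmul`, `translate_eq_of_mem_invPart` :
  translation by a point `m₁` which is inertia-fixed modulo `N₁` preserves the `N₁`-invariant part
  of `H0`, is congruent to the identity modulo `p` there, hence is the identity (binomial core
  `S33.helper6126.eq_zero_of_one_add_pow_eq_one`).
* `mem_of_inertia_fixed_mod` : **NOFIX**.  `N₁` inertia-stable, `s m₁ - m₁ ∈ N₁`, `p m₁ ∈ N₁`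
  ⟹ `m₁ ∈ N₁`.
* `mem_of_inertia_fixed_mod_pgroup`, `mem_of_smul_sub_mem` : the same for a `p`-primary `M`
  without the hypothesis `p m₁ ∈ N₁` (`(M / N₁)^I = 0`), for `act : G_ℚ → M → M` resp. for a
  `DistribMulAction` (shape of `S19.helper2765.genOrder_spec`).
* `le_of_trivial_step` : (C1) a step `C ≤ C'` killed by `p` with trivial inertia action is zero.
* `bijective_mod_of_chain` : (C2) an inertia-stable chain from `C 0` to `⊤` with steps killed by
  `p` on which inertia acts trivially or `t₀` acts by an integer `a` prime to `p` after subtracting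
  `1` ⟹ `act t₀ - 1` is bijective modulo `C 0`.
-/
import Mathlib
import Fermat.Agent.S19.helper1243_Order
import Fermat.Agent.S19.helper1821_BaseRing
import Fermat.Agent.S33.helper6126_BinomCore

set_option autoImplicit false

namespace Fermat.Agent.S33.helper50

open Fermat.Agent.S19

local notation "Qb" => AlgebraicClosure ℚ
local notation "GQ" => (AlgebraicClosure ℚ ≃ₐ[ℚ] AlgebraicClosure ℚ)

/-- `0` lies in the maximal ideal of a valuation subring. -/
theorem zero_mem_nonunits (A : ValuationSubring Qb) : (0 : Qb) ∈ A.nonunits := by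
  rw [A.mem_nonunits_iff, map_zero]
  exact zero_lt_one

/-- `1` does not lie in the maximal ideal of a valuation subring. -/
theorem one_notMem_nonunits (A : ValuationSubring Qb) : (1 : Qb) ∉ A.nonunits := by
  rw [A.mem_nonunits_iff, map_one]
  exact lt_irrefl _

/-- COEFFICIENT DESCENT INSIDE THE MAXIMAL IDEAL.  An `𝔪_A`-linear combination of `I`-equivariant
functions which is itself `I`-equivariant is a combination of the same functions with `I`-fixed
coefficients in `𝔪_A`.  (Refinement of `S19.helper1243.exists_fixed_coeff`; same proof.) -/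
theorem exists_fixed_coeff_nonunits {Ω : Type*} {μ : Type*} (A : ValuationSubring Qb)
    (I : Subgroup GQ)
    (act : GQ → Ω → Ω) (hact : ∀ s ∈ I, Function.Surjective (act s))
    (h : μ → Ω → Qb) (hh : ∀ k, ∀ s ∈ I, ∀ x, h k (act s x) = s (h k x))
    (S : Finset μ) (a : μ → Qb) (ha : ∀ k ∈ S, a k ∈ A.nonunits)
    (hΨ : ∀ s ∈ I, ∀ x, ∑ k ∈ S, a k * h k (act s x) = s (∑ k ∈ S, a k * h k x)) :
    ∃ r : μ → Qb, (∀ k ∈ S, r k ∈ A.nonunits ∧ ∀ s ∈ I, s (r k) = r k) ∧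
      ∀ x, ∑ k ∈ S, a k * h k x = ∑ k ∈ S, r k * h k x := by
  classical
  induction' hn : S.card using Nat.strong_induction_on with n ih generalizing S a
  by_cases hfix : ∀ k ∈ S, ∀ s ∈ I, s (a k) = a k
  · exact ⟨a, fun k hk => ⟨ha k hk, hfix k hk⟩, fun _ => rfl⟩
  · push Not at hfix
    obtain ⟨k1, hk1, s, hs, hne⟩ := hfix
    -- the relation
    let d : μ → Qb := fun k => s (a k) - a k
    have hrel : ∀ y, ∑ k ∈ S, d k * h k y = 0 := by
      intro y
      obtain ⟨x, rfl⟩ := hact s hs y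
      have h1 := hΨ s hs x
      rw [map_sum] at h1
      simp only [d, sub_mul, Finset.sum_sub_distrib]
      rw [h1, sub_eq_zero]
      refine Finset.sum_congr rfl fun k _ => ?_
      rw [map_mul, hh k s hs x]
    -- choose the coefficient of maximal absolute value
    let T := S.filter fun k => d k ≠ 0
    have hT : T.Nonempty := ⟨k1, Finset.mem_filter.mpr ⟨hk1, sub_ne_zero.mpr hne⟩⟩
    obtain ⟨k0, hk0T, hmax⟩ := Finset.exists_max_image T (fun k => A.valuation (d k)) hT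
    have hk0S : k0 ∈ S := (Finset.mem_filter.mp hk0T).1
    have hd0 : d k0 ≠ 0 := (Finset.mem_filter.mp hk0T).2
    let e : μ → Qb := fun k => d k / d k0
    have heA : ∀ k ∈ S, e k ∈ A := by
      intro k hk
      by_cases hdk : d k = 0
      · simp only [e, hdk, zero_div]; exact A.zero_mem
      · have hkT : k ∈ T := Finset.mem_filter.mpr ⟨hk, hdk⟩
        rw [← A.valuation_le_one_iff]
        simp only [e, map_div₀]
        exact div_le_one_of_le₀ (hmax k hkT) zero_le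
    -- eliminate `h k0`
    have hk0 : ∀ y, h k0 y = - ∑ k ∈ S.erase k0, e k * h k y := by
      intro y
      have h1 := hrel y
      rw [← Finset.add_sum_erase S _ hk0S] at h1
      have h2 : h k0 y = - (∑ k ∈ S.erase k0, d k * h k y) / d k0 := by
        field_simp
        linear_combination h1
      rw [h2, neg_div, Finset.sum_div]
      congr 1
      refine Finset.sum_congr rfl fun k _ => ?_
      simp only [e]; ring
    let a' : μ → Qb := fun k => a k - a k0 * e k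
    have hsum : ∀ y, ∑ k ∈ S, a k * h k y = ∑ k ∈ S.erase k0, a' k * h k y := by
      intro y
      rw [← Finset.add_sum_erase S _ hk0S, hk0 y]
      simp only [a', sub_mul, Finset.sum_sub_distrib, mul_neg, Finset.mul_sum]
      rw [add_comm, sub_eq_add_neg]
      congr 2
      refine Finset.sum_congr rfl fun k _ => ?_
      ring
    have hcard : (S.erase k0).card < n := by
      rw [← hn]; exact Finset.card_erase_lt_of_mem hk0S
    obtain ⟨r', hr', hr'sum⟩ := ih _ hcard (S.erase k0) a'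
      (fun k hk => helper1821.sub_mem_nonunits (ha k (Finset.mem_of_mem_erase hk))
        (helper1821.mul_mem_nonunits (ha k0 hk0S) (heA k (Finset.mem_of_mem_erase hk))))
      (fun s' hs' x => by rw [← hsum, ← hsum]; exact hΨ s' hs' x) rfl
    refine ⟨fun k => if k = k0 then 0 else r' k, fun k hk => ?_, fun y => ?_⟩
    · by_cases hkk : k = k0
      · simp only [hkk, if_true]
        exact ⟨zero_mem_nonunits A, fun s _ => map_zero _⟩
      · simp only [hkk, if_false]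
        exact hr' k (Finset.mem_erase.mpr ⟨hkk, hk⟩)
    · rw [hsum y, hr'sum y, ← Finset.add_sum_erase S _ hk0S]
      simp only [if_true, zero_mul, zero_add]
      refine Finset.sum_congr rfl fun k hk => ?_
      rw [if_neg (Finset.ne_of_mem_erase hk)]

/-! ### The `N₁`-invariant part of an order -/

section invPart

variable {M : Type*} [AddCommGroup M]

/-- The additive group of the members of `H0` which are invariant under translation by `N₁`. -/
def invPart (H0 : Subring (M → Qb)) (N₁ : AddSubgroup M) : AddSubgroup (M → Qb) where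
  carrier := {φ | φ ∈ H0 ∧ ∀ x, ∀ n ∈ N₁, φ (x + n) = φ x}
  add_mem' := by
    rintro φ ψ ⟨hφ, hφ'⟩ ⟨hψ, hψ'⟩
    exact ⟨add_mem hφ hψ, fun x n hn => by simp only [Pi.add_apply, hφ' x n hn, hψ' x n hn]⟩
  zero_mem' := ⟨zero_mem _, fun _ _ _ => rfl⟩
  neg_mem' := by
    rintro φ ⟨hφ, hφ'⟩
    exact ⟨neg_mem hφ, fun x n hn => by simp only [Pi.neg_apply, hφ' x n hn]⟩

theorem mem_invPart {H0 : Subring (M → Qb)} {N₁ : AddSubgroup M} {φ : M → Qb} :
    φ ∈ invPart H0 N₁ ↔ φ ∈ H0 ∧ ∀ x, ∀ n ∈ N₁, φ (x + n) = φ x := Iff.rfl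

/-- The translate by `m₁` of an `N₁`-invariant equivariant function is equivariant when `m₁` is
fixed modulo `N₁`. -/
theorem translate_equivariant (I : Subgroup GQ) (act : GQ → M → M)
    (hactadd : ∀ s ∈ I, ∀ m m', act s (m + m') = act s m + act s m')
    (N₁ : AddSubgroup M) (m₁ : M) (hfix : ∀ s ∈ I, act s m₁ - m₁ ∈ N₁)
    {φ : M → Qb} (hφI : ∀ s ∈ I, ∀ m, φ (act s m) = s (φ m))
    (hφN : ∀ x, ∀ n ∈ N₁, φ (x + n) = φ x) :
    ∀ s ∈ I, ∀ x, φ (act s x + m₁) = s (φ (x + m₁)) := by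
  intro s hs x
  rw [← hφI s hs, hactadd s hs]
  have h1 : act s x + act s m₁ = act s x + m₁ + (act s m₁ - m₁) := by abel
  rw [h1, hφN _ _ (hfix s hs)]

/-- (a) Translation by a point fixed modulo `N₁` preserves the `N₁`-invariant part of `H0`. -/
theorem translate_mem_invPart (A : ValuationSubring Qb) (I : Subgroup GQ) (act : GQ → M → M)
    (hact : ∀ s ∈ I, Function.Surjective (act s))
    (hactadd : ∀ s ∈ I, ∀ m m', act s (m + m') = act s m + act s m')
    (H0 : Subring (M → Qb))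
    (hval : ∀ φ ∈ H0, ∀ m, φ m ∈ A)
    (hI : ∀ φ ∈ H0, ∀ s ∈ I, ∀ m, φ (act s m) = s (φ m))
    (hR0 : ∀ c ∈ A, (∀ s ∈ I, s c = c) → ∀ φ ∈ H0, (fun m => c * φ m) ∈ H0)
    (hadd : ∀ φ ∈ H0, ∃ (n : ℕ) (a b : Fin n → M → Qb), (∀ k, a k ∈ H0) ∧ (∀ k, b k ∈ H0) ∧
      ∀ m m', φ (m + m') = ∑ k, a k m * b k m')
    (N₁ : AddSubgroup M) (m₁ : M) (hfix : ∀ s ∈ I, act s m₁ - m₁ ∈ N₁)
    {φ : M → Qb} (hφ : φ ∈ invPart H0 N₁) : (fun x => φ (x + m₁)) ∈ invPart H0 N₁ := by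
  obtain ⟨hφH, hφN⟩ := hφ
  obtain ⟨n, a, b, ha, hb, hab⟩ := hadd φ hφH
  refine ⟨?_, fun x n hn => ?_⟩
  · refine helper1243.mem_of_mem_intSpan A I act hact H0 hI hR0 ?_ ?_
    · exact ⟨Fin n, inferInstance, fun k => b k m₁, a, fun k => hval _ (hb k) m₁, ha,
        fun x => (hab x m₁).trans (Finset.sum_congr rfl fun k _ => mul_comm _ _)⟩
    · exact translate_equivariant I act hactadd N₁ m₁ hfix (hI φ hφH) hφN
  · show φ (x + n + m₁) = φ (x + m₁)
    rw [add_right_comm, hφN _ _ hn]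

/-- (b) On the `N₁`-invariant part of `H0`, translation by a point fixed modulo `N₁` is congruent
to the identity modulo `p`: the coefficients `b_k(m₁) - b_k(0)` lie in `𝔪_A` by `(Loc)`, can be
taken inertia-fixed in `𝔪_A`, and are then divisible by `p` in `R0 = A^I`. -/
theorem exists_translate_sub_eq_nsmul {p : ℕ} (hp : p.Prime) (A : ValuationSubring Qb)
    (hA : A.LiesOverPrime p) (act : GQ → M → M)
    (hact : ∀ s ∈ A.inertiaSubgroupIn ℚ, Function.Surjective (act s))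
    (hactadd : ∀ s ∈ A.inertiaSubgroupIn ℚ, ∀ m m', act s (m + m') = act s m + act s m')
    (H0 : Subring (M → Qb))
    (hI : ∀ φ ∈ H0, ∀ s ∈ A.inertiaSubgroupIn ℚ, ∀ m, φ (act s m) = s (φ m))
    (hR0 : ∀ c ∈ A, (∀ s ∈ A.inertiaSubgroupIn ℚ, s c = c) → ∀ φ ∈ H0,
      (fun m => c * φ m) ∈ H0)
    (hadd : ∀ φ ∈ H0, ∃ (n : ℕ) (a b : Fin n → M → Qb), (∀ k, a k ∈ H0) ∧ (∀ k, b k ∈ H0) ∧
      ∀ m m', φ (m + m') = ∑ k, a k m * b k m')
    (hloc : ∀ φ ∈ H0, ∀ m, φ m - φ 0 ∈ A.nonunits)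
    (N₁ : AddSubgroup M) (m₁ : M) (hfix : ∀ s ∈ A.inertiaSubgroupIn ℚ, act s m₁ - m₁ ∈ N₁)
    {φ : M → Qb} (hφ : φ ∈ invPart H0 N₁) :
    ∃ φ' ∈ invPart H0 N₁, (fun x => φ (x + m₁) - φ x) = p • φ' := by
  obtain ⟨hφH, hφN⟩ := hφ
  obtain ⟨n, a, b, ha, hb, hab⟩ := hadd φ hφH
  have hdiff : ∀ x, φ (x + m₁) - φ x = ∑ k, (b k m₁ - b k 0) * a k x := by
    intro x
    have h0 : φ x = ∑ k, a k x * b k 0 := by
      have := hab x 0
      rwa [add_zero] at this
    rw [hab x m₁, h0, ← Finset.sum_sub_distrib]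
    exact Finset.sum_congr rfl fun k _ => by ring
  have hτI := translate_equivariant (A.inertiaSubgroupIn ℚ) act hactadd N₁ m₁ hfix
    (hI φ hφH) hφN
  obtain ⟨r, hr, hrsum⟩ := exists_fixed_coeff_nonunits A (A.inertiaSubgroupIn ℚ) act hact a
    (fun k => hI _ (ha k)) Finset.univ (fun k => b k m₁ - b k 0)
    (fun k _ => hloc _ (hb k) m₁)
    (fun s hs x => by
      rw [← hdiff, ← hdiff, map_sub, ← hτI s hs, ← hI φ hφH s hs])
  have hy : ∀ k, ∃ y ∈ helper1821.R0 A, r k = (p : Qb) * y := fun k =>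
    helper1821.natCast_dvd_of_mem_nonunits hp hA
      (helper1821.mem_R0.mpr ⟨helper1821.mem_of_mem_nonunits (hr k (Finset.mem_univ k)).1,
        (hr k (Finset.mem_univ k)).2⟩) (hr k (Finset.mem_univ k)).1
  choose y hyR hy using hy
  have hp0 : (p : Qb) ≠ 0 := Nat.cast_ne_zero.mpr hp.ne_zero
  have hφ'eq : ∀ x, φ (x + m₁) - φ x = (p : Qb) * ∑ k, y k * a k x := by
    intro x
    rw [hdiff, hrsum, Finset.mul_sum]
    exact Finset.sum_congr rfl fun k _ => by rw [hy k]; ring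
  refine ⟨fun x => ∑ k, y k * a k x, ⟨?_, fun x n hn => ?_⟩, ?_⟩
  · have : (fun x => ∑ k, y k * a k x) = ∑ k, fun x => y k * a k x := by
      funext x; rw [Finset.sum_apply]
    rw [this]
    exact sum_mem fun k _ => hR0 _ (hyR k).1 (hyR k).2 _ (ha k)
  · apply mul_left_cancel₀ hp0
    rw [← hφ'eq, ← hφ'eq, add_right_comm, hφN _ _ hn, hφN _ _ hn]
  · funext x
    rw [hφ'eq x, Pi.smul_apply, nsmul_eq_mul]

/-- (c) On the `N₁`-invariant part of `H0`, translation by a point `m₁` which is inertia-fixed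
modulo `N₁` and has `p • m₁ ∈ N₁` is the identity (`p` odd). -/
theorem translate_eq_of_mem_invPart {p : ℕ} (hp : p.Prime) (hp2 : p ≠ 2)
    (A : ValuationSubring Qb) (hA : A.LiesOverPrime p) (act : GQ → M → M)
    (hact : ∀ s ∈ A.inertiaSubgroupIn ℚ, Function.Surjective (act s))
    (hactadd : ∀ s ∈ A.inertiaSubgroupIn ℚ, ∀ m m', act s (m + m') = act s m + act s m')
    (H0 : Subring (M → Qb))
    (hval : ∀ φ ∈ H0, ∀ m, φ m ∈ A)
    (hI : ∀ φ ∈ H0, ∀ s ∈ A.inertiaSubgroupIn ℚ, ∀ m, φ (act s m) = s (φ m))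
    (hR0 : ∀ c ∈ A, (∀ s ∈ A.inertiaSubgroupIn ℚ, s c = c) → ∀ φ ∈ H0,
      (fun m => c * φ m) ∈ H0)
    (hadd : ∀ φ ∈ H0, ∃ (n : ℕ) (a b : Fin n → M → Qb), (∀ k, a k ∈ H0) ∧ (∀ k, b k ∈ H0) ∧
      ∀ m m', φ (m + m') = ∑ k, a k m * b k m')
    (hloc : ∀ φ ∈ H0, ∀ m, φ m - φ 0 ∈ A.nonunits)
    (N₁ : AddSubgroup M) (m₁ : M) (hfix : ∀ s ∈ A.inertiaSubgroupIn ℚ, act s m₁ - m₁ ∈ N₁)
    (hpm : p • m₁ ∈ N₁)
    {φ : M → Qb} (hφ : φ ∈ invPart H0 N₁) (x : M) : φ (x + m₁) = φ x := by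
  have hτ : ∀ ψ ∈ invPart H0 N₁, (fun x => ψ (x + m₁)) ∈ invPart H0 N₁ := fun ψ hψ =>
    translate_mem_invPart A _ act hact hactadd H0 hval hI hR0 hadd N₁ m₁ hfix hψ
  let τ : AddMonoid.End (invPart H0 N₁) :=
    AddMonoidHom.mk' (fun ψ => ⟨fun x => ψ.1 (x + m₁), hτ ψ.1 ψ.2⟩)
      (fun ψ ψ' => Subtype.ext (funext fun x => rfl))
  have hτapp : ∀ (ψ : invPart H0 N₁) (x : M), (τ ψ).1 x = ψ.1 (x + m₁) := fun _ _ => rfl
  have hpowapp : ∀ (k : ℕ) (ψ : invPart H0 N₁) (x : M),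
      ((τ ^ k) ψ).1 x = ψ.1 (x + k • m₁) := by
    intro k
    induction k with
    | zero => intro ψ x; simp
    | succ k ih =>
      intro ψ x
      rw [pow_succ]
      show ((τ ^ k) (τ ψ)).1 x = _
      rw [ih (τ ψ) x, hτapp, succ_nsmul, add_assoc]
  have hp0 : (p : Qb) ≠ 0 := Nat.cast_ne_zero.mpr hp.ne_zero
  have hpow : ((1 : AddMonoid.End (invPart H0 N₁)) + (τ - 1)) ^ p = 1 := by
    rw [add_sub_cancel]
    ext ψ x
    rw [hpowapp p ψ x]
    exact ψ.2.2 x _ hpm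
  have hdiv : ∀ ψ : invPart H0 N₁, ∃ ψ' : invPart H0 N₁, (τ - 1) ψ = p • ψ' := by
    intro ψ
    obtain ⟨φ', hφ', e⟩ := exists_translate_sub_eq_nsmul hp A hA act hact hactadd H0 hI hR0 hadd
      hloc N₁ m₁ hfix ψ.2
    refine ⟨⟨φ', hφ'⟩, Subtype.ext ?_⟩
    rw [AddSubgroup.coe_nsmul, ← e]
    rfl
  have htf : ∀ ψ : invPart H0 N₁, p • ψ = 0 → ψ = 0 := by
    intro ψ h
    apply Subtype.ext
    funext x
    have h1 : (p • ψ : invPart H0 N₁).1 x = 0 := by rw [h]; rfl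
    rw [AddSubgroup.coe_nsmul, Pi.smul_apply, nsmul_eq_mul] at h1
    exact (mul_eq_zero.mp h1).resolve_left hp0
  have hsep : ∀ ψ : invPart H0 N₁, (∀ k : ℕ, ∃ ψ' : invPart H0 N₁, ψ = p ^ k • ψ') → ψ = 0 := by
    intro ψ h
    apply Subtype.ext
    funext x
    by_contra hd
    change ψ.1 x ≠ 0 at hd
    obtain ⟨j, hj⟩ := helper1243.exists_pow_mul_inv_mem A hp hA hd
    obtain ⟨ψ', hψ'⟩ := h (j + 1)
    have h1 : ψ.1 x = (p : Qb) ^ (j + 1) * ψ'.1 x := by
      rw [hψ', AddSubgroup.coe_nsmul, Pi.smul_apply, nsmul_eq_mul]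
      push_cast
      rfl
    have ht : ψ'.1 x ∈ A := hval _ ψ'.2.1 x
    have ht0 : ψ'.1 x ≠ 0 := by
      intro h0
      rw [h0, mul_zero] at h1
      exact hd h1
    have h2 : (1 : Qb) = (p : Qb) * (ψ'.1 x * ((p : Qb) ^ j * (ψ.1 x)⁻¹)) := by
      rw [h1]
      field_simp
      ring
    have h3 : (1 : Qb) ∈ A.nonunits := by
      rw [h2]
      exact helper1821.mul_mem_nonunits hA (A.mul_mem _ _ ht hj)
    exact one_notMem_nonunits A h3
  have hD := helper6126.eq_zero_of_one_add_pow_eq_one hp hp2 (τ - 1) hpow hdiv htf hsep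
  have h4 : τ ⟨φ, hφ⟩ = ⟨φ, hφ⟩ := by
    have h6 : (τ - 1) ⟨φ, hφ⟩ = τ ⟨φ, hφ⟩ - ⟨φ, hφ⟩ := rfl
    rw [hD] at h6
    have h7 : τ ⟨φ, hφ⟩ - ⟨φ, hφ⟩ = 0 := h6.symm
    exact sub_eq_zero.mp h7
  have h5 := hτapp ⟨φ, hφ⟩ x
  rw [h4] at h5
  exact h5.symm

/-- A stable subgroup of a finite set with an injective action is preserved in both directions. -/
theorem act_mem_iff [Finite M] (I : Subgroup GQ) (act : GQ → M → M)
    (hact : ∀ s ∈ I, Function.Bijective (act s))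
    (N₁ : AddSubgroup M) (hN₁ : ∀ s ∈ I, ∀ n ∈ N₁, act s n ∈ N₁) {s : GQ} (hs : s ∈ I) (x : M) :
    act s x ∈ N₁ ↔ x ∈ N₁ := by
  refine ⟨fun hx => ?_, hN₁ s hs x⟩
  let f : N₁ → N₁ := fun n => ⟨act s n.1, hN₁ s hs n.1 n.2⟩
  have hf : Function.Injective f := fun a b hab =>
    Subtype.ext ((hact s hs).1 (congrArg Subtype.val hab))
  obtain ⟨n, hn⟩ := (Finite.injective_iff_surjective.mp hf) ⟨act s x, hx⟩
  have h1 : act s n.1 = act s x := congrArg Subtype.val hn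
  rw [← (hact s hs).1 h1]
  exact n.2

/-- **NOFIX (LOCAL-ORD in the one-statement form, concrete shape).**  Let `A` be a valuation
subring of `Qbar` over the odd prime `p`, `I` its inertia group, `M` a finite abelian group with an
additive action of `I`, and `H0` an order of `I`-equivariant `A`-valued functions on `M` as produced
by `S19.helper1243.exists_order_of_exactLaw` (stable under `A^I`, separating points, closed under
`φ ↦ φ(m + m')`) with `(Loc)`: `φ m - φ 0 ∈ 𝔪_A`.  If `N₁` is an `I`-stable subgroup and `m₁` is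
`I`-fixed modulo `N₁` with `p • m₁ ∈ N₁`, then `m₁ ∈ N₁`: no `I`-subquotient of `M` has a nonzero
`I`-fixed point. -/
theorem mem_of_inertia_fixed_mod [Finite M] {p : ℕ} (hp : p.Prime) (hp2 : p ≠ 2)
    (A : ValuationSubring Qb) (hA : A.LiesOverPrime p) (act : GQ → M → M)
    (hact : ∀ s ∈ A.inertiaSubgroupIn ℚ, Function.Bijective (act s))
    (hactadd : ∀ s ∈ A.inertiaSubgroupIn ℚ, ∀ m m', act s (m + m') = act s m + act s m')
    (H0 : Subring (M → Qb))
    (hval : ∀ φ ∈ H0, ∀ m, φ m ∈ A)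
    (hI : ∀ φ ∈ H0, ∀ s ∈ A.inertiaSubgroupIn ℚ, ∀ m, φ (act s m) = s (φ m))
    (hR0 : ∀ c ∈ A, (∀ s ∈ A.inertiaSubgroupIn ℚ, s c = c) → ∀ φ ∈ H0,
      (fun m => c * φ m) ∈ H0)
    (hsep : ∀ m m', m ≠ m' → ∃ φ ∈ H0, φ m ≠ φ m')
    (hadd : ∀ φ ∈ H0, ∃ (n : ℕ) (a b : Fin n → M → Qb), (∀ k, a k ∈ H0) ∧ (∀ k, b k ∈ H0) ∧
      ∀ m m', φ (m + m') = ∑ k, a k m * b k m')
    (hloc : ∀ φ ∈ H0, ∀ m, φ m - φ 0 ∈ A.nonunits)
    (N₁ : AddSubgroup M) (hN₁ : ∀ s ∈ A.inertiaSubgroupIn ℚ, ∀ n ∈ N₁, act s n ∈ N₁)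
    (m₁ : M) (hfix : ∀ s ∈ A.inertiaSubgroupIn ℚ, act s m₁ - m₁ ∈ N₁) (hpm : p • m₁ ∈ N₁) :
    m₁ ∈ N₁ := by
  classical
  -- the indicator of `N₁`
  let Ψ : M → Qb := fun x => if x ∈ N₁ then 1 else 0
  have hΨA : ∀ x, Ψ x ∈ A := by
    intro x
    by_cases hx : x ∈ N₁
    · simp only [Ψ, if_pos hx]; exact A.one_mem
    · simp only [Ψ, if_neg hx]; exact A.zero_mem
  have hΨI : ∀ s ∈ A.inertiaSubgroupIn ℚ, ∀ x, Ψ (act s x) = s (Ψ x) := by
    intro s hs x
    have hiff := act_mem_iff (A.inertiaSubgroupIn ℚ) act hact N₁ hN₁ hs x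
    by_cases hx : x ∈ N₁
    · simp only [Ψ, if_pos hx, if_pos (hiff.mpr hx), map_one]
    · simp only [Ψ, if_neg hx, if_neg (fun h => hx (hiff.mp h)), map_zero]
  obtain ⟨c, -, hc0, -, hmul⟩ := helper1243.exists_multiplier A (A.inertiaSubgroupIn ℚ) act hact
    H0 hval hI hR0 hsep
  have hφ0 : (fun x => c * Ψ x) ∈ invPart H0 N₁ := by
    refine ⟨hmul Ψ hΨA hΨI, fun x n hn => ?_⟩
    have hiff : x + n ∈ N₁ ↔ x ∈ N₁ := N₁.add_mem_cancel_right hn
    by_cases hx : x ∈ N₁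
    · simp only [Ψ, if_pos hx, if_pos (hiff.mpr hx)]
    · simp only [Ψ, if_neg hx, if_neg (fun h => hx (hiff.mp h))]
  have h1 := translate_eq_of_mem_invPart hp hp2 A hA act (fun s hs => (hact s hs).2) hactadd H0
    hval hI hR0 hadd hloc N₁ m₁ hfix hpm hφ0 0
  by_contra hm
  simp only [Ψ, zero_add, if_neg hm, if_pos N₁.zero_mem, mul_zero, mul_one] at h1
  exact hc0 h1.symm

/-- (C1) TRIVIAL STEPS VANISH.  In the situation of `mem_of_inertia_fixed_mod`: if `C` is an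
inertia-stable subgroup and `C'` is a subgroup with `p • C' ⊆ C` on which inertia acts trivially
modulo `C`, then `C' ≤ C`. -/
theorem le_of_trivial_step [Finite M] {p : ℕ} (hp : p.Prime) (hp2 : p ≠ 2)
    (A : ValuationSubring Qb) (hA : A.LiesOverPrime p) (act : GQ → M → M)
    (hact : ∀ s ∈ A.inertiaSubgroupIn ℚ, Function.Bijective (act s))
    (hactadd : ∀ s ∈ A.inertiaSubgroupIn ℚ, ∀ m m', act s (m + m') = act s m + act s m')
    (H0 : Subring (M → Qb))
    (hval : ∀ φ ∈ H0, ∀ m, φ m ∈ A)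
    (hI : ∀ φ ∈ H0, ∀ s ∈ A.inertiaSubgroupIn ℚ, ∀ m, φ (act s m) = s (φ m))
    (hR0 : ∀ c ∈ A, (∀ s ∈ A.inertiaSubgroupIn ℚ, s c = c) → ∀ φ ∈ H0,
      (fun m => c * φ m) ∈ H0)
    (hsep : ∀ m m', m ≠ m' → ∃ φ ∈ H0, φ m ≠ φ m')
    (hadd : ∀ φ ∈ H0, ∃ (n : ℕ) (a b : Fin n → M → Qb), (∀ k, a k ∈ H0) ∧ (∀ k, b k ∈ H0) ∧
      ∀ m m', φ (m + m') = ∑ k, a k m * b k m')
    (hloc : ∀ φ ∈ H0, ∀ m, φ m - φ 0 ∈ A.nonunits)
    (C C' : AddSubgroup M) (hC : ∀ s ∈ A.inertiaSubgroupIn ℚ, ∀ n ∈ C, act s n ∈ C)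
    (htriv : ∀ s ∈ A.inertiaSubgroupIn ℚ, ∀ c ∈ C', act s c - c ∈ C)
    (hpC : ∀ c ∈ C', p • c ∈ C) : C' ≤ C := fun c hc =>
  mem_of_inertia_fixed_mod hp hp2 A hA act hact hactadd H0 hval hI hR0 hsep hadd hloc C hC c
    (fun s hs => htriv s hs c hc) (hpC c hc)

/-- Pure chain lemma: along a chain `C 0 ≤ ... ≤ C r = ⊤` of subgroups of `M` whose steps are
killed by `p` and on which the additive map `t` acts by the integer `a` (modulo the previous
term), with `a - 1` prime to `p`, the map `t - 1` is bijective modulo `C 0`. -/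
theorem bijective_mod_of_scalar_chain {p : ℕ} (t : M →+ M) (a : ℤ)
    (hap : IsCoprime (a - 1) (p : ℤ)) (r : ℕ) (C : ℕ → AddSubgroup M) (hCr : C r = ⊤)
    (hCmono : ∀ i < r, C i ≤ C (i + 1))
    (hCp : ∀ i < r, ∀ c ∈ C (i + 1), p • c ∈ C i)
    (hstep : ∀ i < r, ∀ c ∈ C (i + 1), t c - a • c ∈ C i) :
    (∀ m, t m - m ∈ C 0 → m ∈ C 0) ∧ (∀ m, ∃ m', t m' - m' - m ∈ C 0) := by
  obtain ⟨u, v, huv⟩ := hap
  have hC0 : ∀ i ≤ r, C 0 ≤ C i := by
    intro i
    induction i with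
    | zero => intro _; exact le_rfl
    | succ i ih => intro hi; exact (ih (by omega)).trans (hCmono i (by omega))
  -- injectivity
  have hinj : ∀ i ≤ r, ∀ m ∈ C i, t m - m ∈ C 0 → m ∈ C 0 := by
    intro i
    induction i with
    | zero => intro _ m hm _; exact hm
    | succ i ih =>
      intro hi m hm h0
      have hi' : i < r := by omega
      have h1 : t m - m ∈ C i := hC0 i (by omega) h0
      have h2 : t m - a • m ∈ C i := hstep i hi' m hm
      have h3 : (a - 1) • m ∈ C i := by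
        have : (a - 1) • m = (t m - m) - (t m - a • m) := by
          rw [sub_smul, one_smul]; abel
        rw [this]; exact sub_mem h1 h2
      have h4 : p • m ∈ C i := hCp i hi' m hm
      have h5 : m ∈ C i := by
        have : m = u • ((a - 1) • m) + v • (p • m) := by
          rw [← natCast_zsmul m p, smul_smul, smul_smul, ← add_smul, huv, one_smul]
        rw [this]
        exact add_mem ((C i).zsmul_mem h3 u) ((C i).zsmul_mem h4 v)
      exact ih (by omega) m h5 h0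
  -- surjectivity
  have hsurj : ∀ i ≤ r, ∀ m ∈ C i, ∃ m' ∈ C i, t m' - m' - m ∈ C 0 := by
    intro i
    induction i with
    | zero =>
      intro _ m hm
      exact ⟨0, zero_mem _, by simpa using neg_mem hm⟩
    | succ i ih =>
      intro hi m hm
      have hi' : i < r := by omega
      have hum : u • m ∈ C (i + 1) := (C (i + 1)).zsmul_mem hm u
      have h2 : t (u • m) - a • (u • m) ∈ C i := hstep i hi' _ hum
      have h4 : p • m ∈ C i := hCp i hi' m hm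
      have h5 : t (u • m) - u • m - m ∈ C i := by
        have : t (u • m) - u • m - m = (t (u • m) - a • (u • m)) - v • (p • m) := by
          have hm1 : m = u • ((a - 1) • m) + v • (p • m) := by
            rw [← natCast_zsmul m p, smul_smul, smul_smul, ← add_smul, huv, one_smul]
          have hm2 : u • ((a - 1) • m) = a • (u • m) - u • m := by
            rw [smul_smul, smul_smul, mul_sub, mul_one, sub_smul, mul_comm]
          rw [hm2] at hm1
          have key : ∀ m0 X Y Z : M, m0 = X - Y + Z → X = m0 + Y - Z := by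
            intro m0 X Y Z h; rw [h]; abel
          have hm3 : a • (u • m) = m + u • m - v • (p • m) := key _ _ _ _ hm1
          rw [hm3]; abel
        rw [this]
        exact sub_mem h2 ((C i).zsmul_mem h4 v)
      obtain ⟨m'', hm'', h6⟩ := ih (by omega) _ (neg_mem h5)
      refine ⟨u • m + m'', add_mem hum (hCmono i hi' hm''), ?_⟩
      have : t (u • m + m'') - (u • m + m'') - m
          = t m'' - m'' - -(t (u • m) - u • m - m) := by
        rw [map_add]; abel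
      rw [this]
      exact h6
  refine ⟨fun m h => hinj r le_rfl m (by rw [hCr]; trivial) h, fun m => ?_⟩
  obtain ⟨m', -, h⟩ := hsurj r le_rfl m (by rw [hCr]; trivial)
  exact ⟨m', h⟩

/-- (C2) BIJ, the consumer form of findings #3108.  In the situation of
`mem_of_inertia_fixed_mod`, let `C 0 ≤ ... ≤ C r = ⊤` be a chain of subgroups of `M`, the terms
below the top inertia-stable, the steps killed by `p`, such that on each step EITHER inertia acts
trivially OR `t₀ ∈ I` acts by the integer `a`, where `a - 1` is prime to `p`.  Then `act t₀ - 1` is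
bijective modulo `C 0` (the trivial steps are zero by `le_of_trivial_step`). -/
theorem bijective_mod_of_chain [Finite M] {p : ℕ} (hp : p.Prime) (hp2 : p ≠ 2)
    (A : ValuationSubring Qb) (hA : A.LiesOverPrime p) (act : GQ → M → M)
    (hact : ∀ s ∈ A.inertiaSubgroupIn ℚ, Function.Bijective (act s))
    (hactadd : ∀ s ∈ A.inertiaSubgroupIn ℚ, ∀ m m', act s (m + m') = act s m + act s m')
    (H0 : Subring (M → Qb))
    (hval : ∀ φ ∈ H0, ∀ m, φ m ∈ A)
    (hI : ∀ φ ∈ H0, ∀ s ∈ A.inertiaSubgroupIn ℚ, ∀ m, φ (act s m) = s (φ m))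
    (hR0 : ∀ c ∈ A, (∀ s ∈ A.inertiaSubgroupIn ℚ, s c = c) → ∀ φ ∈ H0,
      (fun m => c * φ m) ∈ H0)
    (hsep : ∀ m m', m ≠ m' → ∃ φ ∈ H0, φ m ≠ φ m')
    (hadd : ∀ φ ∈ H0, ∃ (n : ℕ) (a b : Fin n → M → Qb), (∀ k, a k ∈ H0) ∧ (∀ k, b k ∈ H0) ∧
      ∀ m m', φ (m + m') = ∑ k, a k m * b k m')
    (hloc : ∀ φ ∈ H0, ∀ m, φ m - φ 0 ∈ A.nonunits)
    (t₀ : GQ) (ht₀ : t₀ ∈ A.inertiaSubgroupIn ℚ) (a : ℤ) (hap : IsCoprime (a - 1) (p : ℤ))
    (r : ℕ) (C : ℕ → AddSubgroup M) (hCr : C r = ⊤)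
    (hCmono : ∀ i < r, C i ≤ C (i + 1))
    (hCst : ∀ i < r, ∀ s ∈ A.inertiaSubgroupIn ℚ, ∀ c ∈ C i, act s c ∈ C i)
    (hCp : ∀ i < r, ∀ c ∈ C (i + 1), p • c ∈ C i)
    (hstep : ∀ i < r, (∀ s ∈ A.inertiaSubgroupIn ℚ, ∀ c ∈ C (i + 1), act s c - c ∈ C i) ∨
      (∀ c ∈ C (i + 1), act t₀ c - a • c ∈ C i)) :
    (∀ m, act t₀ m - m ∈ C 0 → m ∈ C 0) ∧ (∀ m, ∃ m', act t₀ m' - m' - m ∈ C 0) := by
  refine bijective_mod_of_scalar_chain (AddMonoidHom.mk' (act t₀) (hactadd t₀ ht₀)) a hap r C hCr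
    hCmono hCp fun i hi c hc => ?_
  rcases hstep i hi with h | h
  · have hle : C (i + 1) ≤ C i :=
      le_of_trivial_step hp hp2 A hA act hact hactadd H0 hval hI hR0 hsep hadd hloc (C i)
        (C (i + 1)) (hCst i hi) h (hCp i hi)
    exact sub_mem (hCst i hi t₀ ht₀ c (hle hc)) ((C i).zsmul_mem (hle hc) a)
  · exact h c hc

/-- NOFIX, `p`-GROUP FORM.  As `mem_of_inertia_fixed_mod`, for a `p`-primary `M`, without the
hypothesis `p • m₁ ∈ N₁`: a point which is inertia-fixed modulo the inertia-stable subgroup `N₁`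
lies in `N₁`, i.e. `(M ⧸ N₁)^I = 0`. -/
theorem mem_of_inertia_fixed_mod_pgroup [Finite M] {p : ℕ} (hp : p.Prime) (hp2 : p ≠ 2)
    (A : ValuationSubring Qb) (hA : A.LiesOverPrime p) (act : GQ → M → M)
    (hact : ∀ s ∈ A.inertiaSubgroupIn ℚ, Function.Bijective (act s))
    (hactadd : ∀ s ∈ A.inertiaSubgroupIn ℚ, ∀ m m', act s (m + m') = act s m + act s m')
    (H0 : Subring (M → Qb))
    (hval : ∀ φ ∈ H0, ∀ m, φ m ∈ A)
    (hI : ∀ φ ∈ H0, ∀ s ∈ A.inertiaSubgroupIn ℚ, ∀ m, φ (act s m) = s (φ m))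
    (hR0 : ∀ c ∈ A, (∀ s ∈ A.inertiaSubgroupIn ℚ, s c = c) → ∀ φ ∈ H0,
      (fun m => c * φ m) ∈ H0)
    (hsep : ∀ m m', m ≠ m' → ∃ φ ∈ H0, φ m ≠ φ m')
    (hadd : ∀ φ ∈ H0, ∃ (n : ℕ) (a b : Fin n → M → Qb), (∀ k, a k ∈ H0) ∧ (∀ k, b k ∈ H0) ∧
      ∀ m m', φ (m + m') = ∑ k, a k m * b k m')
    (hloc : ∀ φ ∈ H0, ∀ m, φ m - φ 0 ∈ A.nonunits)
    (hM : ∀ m : M, ∃ k : ℕ, p ^ k • m = 0)
    (N₁ : AddSubgroup M) (hN₁ : ∀ s ∈ A.inertiaSubgroupIn ℚ, ∀ n ∈ N₁, act s n ∈ N₁)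
    (m₁ : M) (hfix : ∀ s ∈ A.inertiaSubgroupIn ℚ, act s m₁ - m₁ ∈ N₁) : m₁ ∈ N₁ := by
  have key : ∀ (k : ℕ) (x : M), (∀ s ∈ A.inertiaSubgroupIn ℚ, act s x - x ∈ N₁) →
      p ^ k • x ∈ N₁ → x ∈ N₁ := by
    intro k
    induction k with
    | zero => intro x _ hx; simpa using hx
    | succ k ih =>
      intro x hx hpx
      refine ih x hx ?_
      refine mem_of_inertia_fixed_mod hp hp2 A hA act hact hactadd H0 hval hI hR0 hsep hadd hloc
        N₁ hN₁ (p ^ k • x) (fun s hs => ?_) ?_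
      · have h1 : act s (p ^ k • x) = p ^ k • act s x :=
          map_nsmul (AddMonoidHom.mk' (act s) (hactadd s hs)) (p ^ k) x
        rw [h1, ← smul_sub]
        exact N₁.nsmul_mem (hx s hs) _
      · rw [smul_smul, ← pow_succ']
        exact hpx
  obtain ⟨k, hk⟩ := hM m₁
  exact key k m₁ hfix (by rw [hk]; exact N₁.zero_mem)

/-- NOFIX for a `DistribMulAction` of `G_ℚ` on `M` (the shape of the conclusion of
`S19.helper2765.genOrder_spec`), `p`-group form. -/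
theorem mem_of_smul_sub_mem [Finite M] [DistribMulAction GQ M] {p : ℕ} (hp : p.Prime)
    (hp2 : p ≠ 2) (A : ValuationSubring Qb) (hA : A.LiesOverPrime p)
    (H0 : Subring (M → Qb))
    (hval : ∀ φ ∈ H0, ∀ m, φ m ∈ A)
    (hI : ∀ φ ∈ H0, ∀ s ∈ A.inertiaSubgroupIn ℚ, ∀ m, φ (s • m) = s (φ m))
    (hR0 : ∀ c ∈ A, (∀ s ∈ A.inertiaSubgroupIn ℚ, s c = c) → ∀ φ ∈ H0,
      (fun m => c * φ m) ∈ H0)
    (hsep : ∀ m m', m ≠ m' → ∃ φ ∈ H0, φ m ≠ φ m')
    (hadd : ∀ φ ∈ H0, ∃ (n : ℕ) (a b : Fin n → M → Qb), (∀ k, a k ∈ H0) ∧ (∀ k, b k ∈ H0) ∧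
      ∀ m m', φ (m + m') = ∑ k, a k m * b k m')
    (hloc : ∀ φ ∈ H0, ∀ m, φ m - φ 0 ∈ A.nonunits)
    (hM : ∀ m : M, ∃ k : ℕ, p ^ k • m = 0)
    (N₁ : AddSubgroup M) (hN₁ : ∀ s ∈ A.inertiaSubgroupIn ℚ, ∀ n ∈ N₁, s • n ∈ N₁)
    (m₁ : M) (hfix : ∀ s ∈ A.inertiaSubgroupIn ℚ, s • m₁ - m₁ ∈ N₁) : m₁ ∈ N₁ :=
  mem_of_inertia_fixed_mod_pgroup hp hp2 A hA (fun s m => s • m)
    (fun s _ => MulAction.bijective s) (fun s _ m m' => smul_add s m m') H0 hval hI hR0 hsep hadd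
    hloc hM N₁ hN₁ m₁ hfix

end invPart

end Fermat.Agent.S33.helper50
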