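import Fermat.Agent.S33.helper1085_GeomSpec
import Fermat.Agent.S19.helper5454_DivTors
import Fermat.Agent.S19.helper9190_CoreBasics

/-!
# S33-FAMILY-ASM (helper5454): the family leaf of the geometry Spec from place-level inputs

`Fermat.Agent.S33.helper1085.IsGeomFamily` (the four clauses `fam`, `tors`, `glob`, `gal` about
the two-chart bundles of the classes of `K_n` at a finite level `(E, π)`) is proved from

* inverse witnesses `IsWitness` of formal triviality of the divisors `D x` at precision `π`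
  (FORMTRIV-SS);
* units of the level-`E` unit ball realising `D (x + y) = D x + D y + div u`, `D 0 = div u`,
  `D (s • x) = s • D x + div u` (KUMMER-DIV + ROOTLEVEL);
* `D x` of degree `0` and not principal for `x ≠ 0`;
* the finite chart ring inside a finitely generated `𝒪_E[j]`-module (DICT-E + FG);
* the arithmetic of the level and the stability of the unit ball under inertia.

`isGeomFamily_of_witness` is the assembly at one level; `exists_isGeomFamily_of_kummerFamily`
chooses the level after the full-level (`ℚ̄`) data `IsKummerFamily`.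

The bundle `helper1085.bundle P N W E D` is definitionally the bundle
`helper5454.bundleOf (lvlRing P E) (ball P N W E) _ _ _ D` of `S19/helper5454_DivFamily`.
-/

set_option autoImplicit false
set_option linter.unusedSectionVars false

namespace Fermat.Agent.S33.helper5454

open AlgebraicCurve ModularCurve
open Fermat.Agent.S19.helper2055 Fermat.Agent.S33.helper2055
open Fermat.Agent.S19.helper5454
open Fermat.Agent.S33.helper3511 Fermat.Agent.S34.helper584
open Fermat.Agent.S24.helper24
open Fermat.Agent.S33.helper1085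

noncomputable section

local notation "Qb" => AlgebraicClosure ℚ
local notation "GQ" => (AlgebraicClosure ℚ ≃ₐ[ℚ] AlgebraicClosure ℚ)

section Objects

variable (P : ValuationSubring Qb) (N : ℕ) [NeZero N]
  (W : modularFunctionFieldBar N ≃ₐ[Qb] modularFunctionFieldBar N) (E : IntermediateField ℚ Qb)

/-- The bundle of the geometry Spec is the bundle of `S19/helper5454_DivFamily`. -/
theorem bundle_eq_bundleOf (D : Divisor Qb (modularFunctionFieldBar N)) :
    bundle P N W E D =
      bundleOf (lvlRing P E) (ball P N W E) (cst_mem_ball P N W E)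
        (c0 := OnFin (jBar N)) (c1 := OnInf (jBar N)) (c01 := OnMid (jBar N))
        (fun _ hv => OnMid.onFin hv) (fun _ hv => OnMid.onInf hv) D :=
  rfl

end Objects

section Family

variable {p M : ℕ} [NeZero p] [NeZero M] (h : Nat.Coprime p M)
  [HasPrincipalDivisors Qb (modularFunctionFieldBar (p * M))]
  (P : ValuationSubring Qb) (n : ℕ)

/-- **FAMILY-ASM, one level.** The four clauses of `helper1085.IsGeomFamily` at the level
`(E, π)` from witnesses, units, degree/principality, finite generation of the finite chart and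
the stability of the level under inertia. -/
theorem isGeomFamily_of_witness (E : IntermediateField ℚ Qb) (π : lvlRing P E)
    [IsNoetherianRing (lvlRing P E)] (hπ0 : π ≠ 0)
    (hπu : ∀ y ∈ ball P (p * M) (wAL h) E,
      algebraMap Qb (modularFunctionFieldBar (p * M)) (π : Qb) * y ≠ 1)
    (harch : ∀ d : lvlRing P E, d ≠ 0 → ∃ r : ℕ, d ∣ π ^ r)
    (hdeg : ∀ v : Place Qb (modularFunctionFieldBar (p * M)), 0 < v.deg)
    (hj0 : jBar (p * M) ≠ 0) (hjO : jBar (p * M) ∈ ball P (p * M) (wAL h) E)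
    (hjO' : (jBar (p * M))⁻¹ ∈ ball P (p * M) (wAL h) E)
    (G0 : Finset (modularFunctionFieldBar (p * M)))
    (hG0 : ∀ s ∈ chartRing (OnFin (K := Qb) (jBar (p * M))) (ball P (p * M) (wAL h) E),
      s ∈ Fermat.Agent.S19.helper2306.jSpan (lvlRing P E) (jBar (p * M)) (G0 : Set _))
    (D : Kn h P n → Divisor Qb (modularFunctionFieldBar (p * M)))
    (e0 e0' e1 e1' : Kn h P n → modularFunctionFieldBar (p * M))
    (W : ∀ x, IsWitness (OnFin (jBar (p * M))) (OnInf (jBar (p * M))) (OnMid (jBar (p * M)))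
      (ball P (p * M) (wAL h) E) (algebraMap Qb (modularFunctionFieldBar (p * M)) (π : Qb))
      (D x) (e0 x) (e0' x) (e1 x) (e1' x))
    (hadd : ∀ x y, ∃ u : modularFunctionFieldBar (p * M), u ≠ 0 ∧
      u ∈ ball P (p * M) (wAL h) E ∧ u⁻¹ ∈ ball P (p * M) (wAL h) E ∧
      ∀ v : Place Qb (modularFunctionFieldBar (p * M)), D (x + y) v = D x v + D y v + v.ord u)
    (hzero : ∃ u : modularFunctionFieldBar (p * M), u ≠ 0 ∧
      u ∈ ball P (p * M) (wAL h) E ∧ u⁻¹ ∈ ball P (p * M) (wAL h) E ∧
      ∀ v : Place Qb (modularFunctionFieldBar (p * M)), D 0 v = v.ord u)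
    (hD0 : ∀ x, Divisor.degree (D x) = 0)
    (hnp : ∀ x : Kn h P n, x ≠ 0 → ¬ Divisor.IsPrincipal (D x))
    (hgal : ∀ s : P.inertiaSubgroupIn ℚ,
      (∀ f ∈ ball P (p * M) (wAL h) E,
        arithmeticGalois (modularFunctionFieldFull (p * M)) (s : GQ) • f
          ∈ ball P (p * M) (wAL h) E) ∧
      (∃ κ : lvlRing P E, (s : GQ) (π : Qb) = (κ : Qb) * (π : Qb)) ∧
      ∀ x : Kn h P n, ∃ u : modularFunctionFieldBar (p * M), u ≠ 0 ∧
        u ∈ ball P (p * M) (wAL h) E ∧ u⁻¹ ∈ ball P (p * M) (wAL h) E ∧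
        ∀ v : Place Qb (modularFunctionFieldBar (p * M)),
          D (s • x) v
            = (arithmeticGalois (modularFunctionFieldFull (p * M)) (s : GQ) • D x) v + v.ord u) :
    IsGeomFamily h P n E π D e0 e1 where
  fam := isFamily_of_isWitness (hO := cst_mem_ball P (p * M) (wAL h) E) π
    (fun _ hv => OnMid.onFin hv) (fun _ hv => OnMid.onInf hv) D e0 e0' e1 e1' W hadd hzero
  tors := fun x => htors_of_isWitness (hO := cst_mem_ball P (p * M) (wAL h) E) hj0 hjO hjO' π hπ0
    hπu harch G0 hG0 D e0 e0' e1 e1' W x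
  glob := hglob_of_not_isPrincipal (hO := cst_mem_ball P (p * M) (wAL h) E) hdeg hj0 π hπu D hD0
    hnp
  gal := fun s x => by
    obtain ⟨hgO, ⟨κ, hκ⟩, hx⟩ := hgal s
    obtain ⟨u, hu, huO, huO', hord⟩ := hx x
    have hgj : arithmeticGalois (modularFunctionFieldFull (p * M)) (s : GQ) • jBar (p * M)
        = jBar (p * M) := by
      apply Subtype.ext
      rw [coe_arithmeticGalois_smul, coe_jBar, coeffMap_coeffEmb]
    exact ⟨u⁻¹, gal_of_smul_divisor (hO := cst_mem_ball P (p * M) (wAL h) E) π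
      (fun _ hv => OnMid.onFin hv) (fun _ hv => OnMid.onInf hv) (W x)
      (arithmeticGalois (modularFunctionFieldFull (p * M)) (s : GQ)) hgO
      (fun v hv => (onFin_smul _ hgj v).mp hv) (fun v hv => (onInf_smul _ hgj v).mp hv)
      (fun v hv => (onMid_smul _ hgj v).mp hv) (κ := κ) hκ hu huO huO' hord⟩

end Family

/-! ## The full-level data and the choice of the level -/

section Top

variable (P : ValuationSubring Qb) (N : ℕ) [NeZero N]
  (W : modularFunctionFieldBar N ≃ₐ[Qb] modularFunctionFieldBar N)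

/-- The two-sided unit ball over `ℚ̄` (no level): Gauss-integral functions whose `W`-twin is
Gauss-integral. -/
def ballTop : Subring (modularFunctionFieldBar N) :=
  (gaussV P N).toSubring ⊓
    (gaussV P N).toSubring.comap (W : modularFunctionFieldBar N →+* modularFunctionFieldBar N)

theorem mem_ballTop {f : modularFunctionFieldBar N} :
    f ∈ ballTop P N W ↔ f ∈ gaussV P N ∧ W f ∈ gaussV P N := Iff.rfl

theorem mem_ball_iff_ballTop (E : IntermediateField ℚ Qb) {f : modularFunctionFieldBar N} :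
    f ∈ ball P N W E ↔ f ∈ ballTop P N W ∧
      f ∈ Fermat.Agent.S19.helper9190.levelField N E := Iff.rfl

/-- The two-sided unit ball is closed under roots. -/
theorem mem_ballTop_of_pow_mem {n : ℕ} (hn : n ≠ 0) {w : modularFunctionFieldBar N}
    (hw : w ^ n ∈ ballTop P N W) : w ∈ ballTop P N W := by
  have key : ∀ {V : ValuationSubring (modularFunctionFieldBar N)}
      {z : modularFunctionFieldBar N}, z ^ n ∈ V → z ∈ V := by
    intro V z hz
    rw [← ValuationSubring.valuation_le_one_iff] at hz ⊢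
    rw [map_pow] at hz
    exact (pow_le_one_iff hn).mp hz
  refine (mem_ballTop P N W).2 ⟨key ((mem_ballTop P N W).1 hw).1, key ?_⟩
  have h2 := ((mem_ballTop P N W).1 hw).2
  rwa [map_pow] at h2

/-- `j` lies in every level field. -/
theorem jBar_mem_levelField (E : IntermediateField ℚ Qb) :
    jBar N ∈ Fermat.Agent.S19.helper9190.levelField N E := by
  have e : jBar N = Fermat.Agent.S19.helper9190.emb N (IgusaScheme.jFull N) :=
    Subtype.ext (coe_jBar N)
  rw [e]
  exact Subfield.subset_closure (Or.inr ⟨_, rfl⟩)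

theorem jBar_ne_zero_aux : jBar N ≠ 0 := fun h0 =>
  Fermat.Agent.S24.helper3176.transcendental_jBar N (h0 ▸ isAlgebraic_zero)

/-- A nonunit constant is not invertible in the Gauss ring. -/
theorem cst_mul_ne_one {c : Qb} (hc : c ∈ P.nonunits) {y : modularFunctionFieldBar N}
    (hy : y ∈ gaussV P N) : algebraMap Qb (modularFunctionFieldBar N) c * y ≠ 1 := by
  intro h1
  rcases (Fermat.Agent.S19.helper9190.mem_nonunits_iff_inv (A := P)).mp hc with rfl | hinv
  · rw [map_zero, zero_mul] at h1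
    exact zero_ne_one h1
  · apply hinv
    have hc0 : c ≠ 0 := by
      rintro rfl
      rw [map_zero, zero_mul] at h1
      exact zero_ne_one h1
    have hy' : y = algebraMap Qb (modularFunctionFieldBar N) c⁻¹ := by
      rw [map_inv₀]
      exact eq_inv_of_mul_eq_one_right h1
    rw [hy', ← ValuationSubring.valuation_le_one_iff] at hy
    exact (gaussF_valuation_algebraMap_le_one_iff P N c⁻¹).mp hy

end Top

/-! ## Units from `n`-th power identities -/

section Units

variable {K F : Type*} [Field K] [Field F] [Algebra K F]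

/-- If `u ^ n * a = b` and `n E_a = ord a`, `n E_b = ord b` at a place, then
`E_b = E_a + ord u` there. -/
theorem eq_add_ord_of_pow_mul_eq {n : ℕ} (hn : n ≠ 0) {u a b : F} (ha : a ≠ 0) (hb : b ≠ 0)
    (hu : u ^ n * a = b) (v : Place K F) {Ea Eb : ℤ} (hEa : (n : ℤ) * Ea = v.ord a)
    (hEb : (n : ℤ) * Eb = v.ord b) : Eb = Ea + v.ord u := by
  have hu0 : u ≠ 0 := by
    rintro rfl
    rw [zero_pow hn, zero_mul] at hu
    exact hb hu.symm
  have h1 : v.ord b = (n : ℤ) * v.ord u + v.ord a := by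
    rw [← hu, v.ord_mul (pow_ne_zero n hu0) ha, ord_pow_eq]
  have hn' : (n : ℤ) ≠ 0 := by exact_mod_cast hn
  have h2 : (n : ℤ) * Eb = (n : ℤ) * (Ea + v.ord u) := by
    rw [hEb, h1, mul_add, hEa]
    ring
  exact mul_left_cancel₀ hn' h2

end Units

section UnitsTop

variable (P : ValuationSubring Qb) (N : ℕ) [NeZero N]
  (W : modularFunctionFieldBar N ≃ₐ[Qb] modularFunctionFieldBar N)

/-- If `u ^ n * a = b` with `a`, `b` units of the two-sided unit ball, then `u` is a unit of
the two-sided unit ball. -/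
theorem unit_of_pow_mul_eq {n : ℕ} (hn : n ≠ 0) {u a b : modularFunctionFieldBar N}
    (hb0 : b ≠ 0) (ha : a ∈ ballTop P N W) (ha' : a⁻¹ ∈ ballTop P N W)
    (hb : b ∈ ballTop P N W) (hb' : b⁻¹ ∈ ballTop P N W) (hu : u ^ n * a = b) :
    u ≠ 0 ∧ u ∈ ballTop P N W ∧ u⁻¹ ∈ ballTop P N W := by
  have ha0 : a ≠ 0 := by
    rintro rfl
    rw [mul_zero] at hu
    exact hb0 hu.symm
  have hu0 : u ≠ 0 := by
    rintro rfl
    rw [zero_pow hn, zero_mul] at hu
    exact hb0 hu.symm
  have h1 : u ^ n = b * a⁻¹ := by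
    rw [← hu, mul_assoc, mul_inv_cancel₀ ha0, mul_one]
  refine ⟨hu0, mem_ballTop_of_pow_mem P N W hn ?_, mem_ballTop_of_pow_mem P N W hn ?_⟩
  · rw [h1]
    exact mul_mem hb ha'
  · rw [inv_pow, h1, mul_inv, inv_inv, mul_comm]
    exact mul_mem ha hb'

end UnitsTop

/-! ## The assembly -/

section Asm

variable {p M : ℕ} [NeZero p] [NeZero M] (h : Nat.Coprime p M)
  [HasPrincipalDivisors Qb (modularFunctionFieldBar (p * M))]
  (P : ValuationSubring Qb) (n : ℕ)

/-- **The full-level data of the family** (no finite level): Kummer representatives `hx x`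
(units of the two-sided unit ball over `ℚ̄`), divisors `D x` of degree `0`, not principal for
`x ≠ 0`, with `n D x = div (hx x)`, and the `n`-th power identities expressing additivity and
inertia-equivariance of the classes (KUMMER-DIV). -/
structure IsKummerFamily (D : Kn h P n → Divisor Qb (modularFunctionFieldBar (p * M)))
    (hx : Kn h P n → modularFunctionFieldBar (p * M)) : Prop where
  ne : ∀ x, hx x ≠ 0
  div : ∀ x (v : Place Qb (modularFunctionFieldBar (p * M))), (n : ℤ) * D x v = v.ord (hx x)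
  unit : ∀ x, hx x ∈ ballTop P (p * M) (wAL h)
  unit' : ∀ x, (hx x)⁻¹ ∈ ballTop P (p * M) (wAL h)
  deg : ∀ x, Divisor.degree (D x) = 0
  np : ∀ x, x ≠ 0 → ¬ Divisor.IsPrincipal (D x)
  add : ∀ x y, ∃ u, u ^ n * (hx x * hx y) = hx (x + y)
  zero : ∃ u, u ^ n = hx 0
  gal : ∀ (s : P.inertiaSubgroupIn ℚ) (x : Kn h P n), ∃ u,
    u ^ n * (arithmeticGalois (modularFunctionFieldFull (p * M)) (s : GQ) • hx x) = hx (s • x)

/-- The two-sided unit ball over `ℚ̄` is stable under inertia. -/
theorem smul_mem_ballTop {s : GQ} (hs : s ∈ P.inertiaSubgroupIn ℚ)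
    {f : modularFunctionFieldBar (p * M)} (hf : f ∈ ballTop P (p * M) (wAL h)) :
    arithmeticGalois (modularFunctionFieldFull (p * M)) s • f ∈ ballTop P (p * M) (wAL h) := by
  have hsD := inertia_le_decomposition P hs
  refine (mem_ballTop P (p * M) (wAL h)).2
    ⟨Fermat.Agent.S33.helper1085.smul_mem_gaussV P (p * M) hsD hf.1, ?_⟩
  rw [Fermat.Agent.S35.helper1219.atkinLehnerBar_arithmeticGalois_smul p M h s f]
  exact Fermat.Agent.S33.helper1085.smul_mem_gaussV P (p * M) hsD hf.2

/-- **FAMILY-ASM.** From the full-level data `IsKummerFamily`, inverse witnesses of formal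
triviality at every large enough level (FORMTRIV-SS), and the level inputs ROOTLEVEL, LEVEL, FG
and "`j` is a two-sided unit", there is an admissible level `(E, π, e)` at which `(D, e0, e1)`
is a geometric family in the sense of the geometry Spec. -/
theorem exists_isGeomFamily_of_kummerFamily [Finite (Kn h P n)] (hn : n ≠ 0)
    (hP : P.LiesOverPrime p)
    {D : Kn h P n → Divisor Qb (modularFunctionFieldBar (p * M))}
    {hx e0 e0' e1 e1' : Kn h P n → modularFunctionFieldBar (p * M)}
    (HK : IsKummerFamily h P n D hx)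
    (T : Finset (modularFunctionFieldBar (p * M))) (E0 : IntermediateField ℚ Qb)
    (hwit : ∀ (E : IntermediateField ℚ Qb) (π : lvlRing P E) (e : ℕ), IsLevel p P E π e →
      E0 ≤ E → (∀ a ∈ T, a ∈ Fermat.Agent.S19.helper9190.levelField (p * M) E) →
      ∀ x, IsWitness (OnFin (jBar (p * M))) (OnInf (jBar (p * M))) (OnMid (jBar (p * M)))
        (ball P (p * M) (wAL h) E) (algebraMap Qb (modularFunctionFieldBar (p * M)) (π : Qb))
        (D x) (e0 x) (e0' x) (e1 x) (e1' x))
    (hroot : ∀ S : Finset (modularFunctionFieldBar (p * M)),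
      ∃ E : IntermediateField ℚ Qb, FiniteDimensional ℚ E ∧ E0 ≤ E ∧
        (∀ σ : GQ, ∀ x ∈ E, σ x ∈ E) ∧
        (∀ a ∈ S, a ∈ Fermat.Agent.S19.helper9190.levelField (p * M) E) ∧
        ∀ u : modularFunctionFieldBar (p * M),
          (∃ a ∈ S, ∃ b ∈ S, b ≠ 0 ∧ ∃ σ : GQ,
            u ^ n * Fermat.Agent.S19.helper9190.gal (p * M) σ b = a) →
          u ∈ Fermat.Agent.S19.helper9190.levelField (p * M) E)
    (hlevel : ∀ E : IntermediateField ℚ Qb, FiniteDimensional ℚ E →
      (∀ σ : GQ, ∀ x ∈ E, σ x ∈ E) → ∃ (π : lvlRing P E) (e : ℕ), IsLevel p P E π e)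
    (hnoeth : ∀ (E : IntermediateField ℚ Qb) (π : lvlRing P E) (e : ℕ), IsLevel p P E π e →
      IsNoetherianRing (lvlRing P E))
    (harch : ∀ (E : IntermediateField ℚ Qb) (π : lvlRing P E) (e : ℕ), IsLevel p P E π e →
      ∀ d : lvlRing P E, d ≠ 0 → ∃ r : ℕ, d ∣ π ^ r)
    (hFG : ∀ (E : IntermediateField ℚ Qb) (π : lvlRing P E) (e : ℕ), IsLevel p P E π e →
      ∃ G0 : Finset (modularFunctionFieldBar (p * M)),
        ∀ s ∈ chartRing (OnFin (K := Qb) (jBar (p * M))) (ball P (p * M) (wAL h) E),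
          s ∈ Fermat.Agent.S19.helper2306.jSpan (lvlRing P E) (jBar (p * M)) (G0 : Set _))
    (hj : jBar (p * M) ∈ ballTop P (p * M) (wAL h))
    (hj' : (jBar (p * M))⁻¹ ∈ ballTop P (p * M) (wAL h)) :
    ∃ (E : IntermediateField ℚ Qb) (π : lvlRing P E) (e : ℕ),
      IsLevel p P E π e ∧ IsGeomFamily h P n E π D e0 e1 := by
  classical
  -- the finite set of functions that must live at the level
  have hSfin : (Set.range hx ∪ Set.range (fun xy : Kn h P n × Kn h P n => hx xy.1 * hx xy.2) ∪
      {1} ∪ (T : Set (modularFunctionFieldBar (p * M)))).Finite :=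
    (((Set.finite_range _).union (Set.finite_range _)).union (Set.finite_singleton _)).union
      T.finite_toSet
  obtain ⟨E, hEfin, hE0E, hEst, hS1, hu1⟩ := hroot hSfin.toFinset
  obtain ⟨π, e, hL⟩ := hlevel E hEfin hEst
  obtain ⟨G0, hG0⟩ := hFG E π e hL
  haveI := hnoeth E π e hL
  -- membership of the data in the level field
  have hSx : ∀ x, hx x ∈ hSfin.toFinset := fun x => by
    rw [Set.Finite.mem_toFinset]
    exact Or.inl (Or.inl (Or.inl ⟨x, rfl⟩))
  have hSxy : ∀ x y, hx x * hx y ∈ hSfin.toFinset := fun x y => by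
    rw [Set.Finite.mem_toFinset]
    exact Or.inl (Or.inl (Or.inr ⟨(x, y), rfl⟩))
  have hS1' : (1 : modularFunctionFieldBar (p * M)) ∈ hSfin.toFinset := by
    rw [Set.Finite.mem_toFinset]
    exact Or.inl (Or.inr rfl)
  have hTE : ∀ a ∈ T, a ∈ Fermat.Agent.S19.helper9190.levelField (p * M) E := fun a ha =>
    hS1 a (by
      rw [Set.Finite.mem_toFinset]
      exact Or.inr (Finset.mem_coe.2 ha))
  -- the uniformiser
  have hpP : (p : Qb) ∈ P := P.nonunits_subset hP
  have hπ0 : π ≠ 0 := by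
    rintro rfl
    have hmem : (⟨(p : Qb), ⟨hpP, natCast_mem E p⟩⟩ : lvlRing P E) ∈
        Ideal.span {(0 : lvlRing P E)} := hL.unif _ hP
    rw [Ideal.mem_span_singleton'] at hmem
    obtain ⟨c, hc⟩ := hmem
    rw [mul_zero] at hc
    have h0 : (p : Qb) = 0 := by
      have := congrArg (fun a : lvlRing P E => (a : Qb)) hc
      exact this.symm
    exact (NeZero.ne p) (by exact_mod_cast h0)
  have hπu : ∀ y ∈ ball P (p * M) (wAL h) E,
      algebraMap Qb (modularFunctionFieldBar (p * M)) (π : Qb) * y ≠ 1 :=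
    fun y hy => cst_mul_ne_one P (p * M) hL.nonunit ((mem_ball P (p * M) (wAL h) E).1 hy).1
  have hdeg : ∀ v : Place Qb (modularFunctionFieldBar (p * M)), 0 < v.deg := fun v => by
    rw [Fermat.Agent.S37.helper5162.place_deg_eq_one (p * M) v]
    exact one_pos
  have hjE := jBar_mem_levelField (p * M) E
  -- the witnesses at the level
  have hW := hwit E π e hL hE0E hTE
  -- a unit of the level ball from an `n`-th power identity
  have hunit : ∀ {u a b : modularFunctionFieldBar (p * M)}, b ≠ 0 →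
      a ∈ ballTop P (p * M) (wAL h) → a⁻¹ ∈ ballTop P (p * M) (wAL h) →
      b ∈ ballTop P (p * M) (wAL h) → b⁻¹ ∈ ballTop P (p * M) (wAL h) →
      u ^ n * a = b → u ∈ Fermat.Agent.S19.helper9190.levelField (p * M) E →
      u ≠ 0 ∧ u ∈ ball P (p * M) (wAL h) E ∧ u⁻¹ ∈ ball P (p * M) (wAL h) E := by
    intro u a b hb0 ha ha' hb hb' hu huE
    obtain ⟨hu0, huO, huO'⟩ := unit_of_pow_mul_eq P (p * M) (wAL h) hn hb0 ha ha' hb hb' hu
    exact ⟨hu0, (mem_ball_iff_ballTop P (p * M) (wAL h) E).2 ⟨huO, huE⟩,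
      (mem_ball_iff_ballTop P (p * M) (wAL h) E).2 ⟨huO', Subfield.inv_mem _ huE⟩⟩
  have hone_smul : ∀ f : modularFunctionFieldBar (p * M),
      arithmeticGalois (modularFunctionFieldFull (p * M)) (1 : GQ) • f = f := fun f => by
    rw [map_one, one_smul]
  have hgal1 : ∀ f : modularFunctionFieldBar (p * M),
      Fermat.Agent.S19.helper9190.gal (p * M) 1 f = f := hone_smul
  refine ⟨E, π, e, hL, isGeomFamily_of_witness h P n E π hπ0 hπu (harch E π e hL) hdeg
    (jBar_ne_zero_aux (p * M)) ((mem_ball_iff_ballTop P (p * M) (wAL h) E).2 ⟨hj, hjE⟩)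
    ((mem_ball_iff_ballTop P (p * M) (wAL h) E).2 ⟨hj', Subfield.inv_mem _ hjE⟩)
    G0 hG0 D e0 e0' e1 e1' hW ?_ ?_ HK.deg HK.np ?_⟩
  · -- additivity
    intro x y
    obtain ⟨u, hu⟩ := HK.add x y
    have hxy0 : hx x * hx y ≠ 0 := mul_ne_zero (HK.ne x) (HK.ne y)
    have huE : u ∈ Fermat.Agent.S19.helper9190.levelField (p * M) E :=
      hu1 u ⟨hx (x + y), hSx _, hx x * hx y, hSxy x y, hxy0, 1, by rw [hgal1]; exact hu⟩
    obtain ⟨hu0, huO, huO'⟩ := hunit (HK.ne (x + y)) (mul_mem (HK.unit x) (HK.unit y))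
      (by rw [mul_inv]; exact mul_mem (HK.unit' x) (HK.unit' y)) (HK.unit _) (HK.unit' _) hu huE
    refine ⟨u, hu0, huO, huO', fun v => ?_⟩
    refine eq_add_ord_of_pow_mul_eq hn hxy0 (HK.ne (x + y)) hu v ?_ (HK.div (x + y) v)
    rw [v.ord_mul (HK.ne x) (HK.ne y), mul_add, HK.div x v, HK.div y v]
  · -- zero
    obtain ⟨u, hu⟩ := HK.zero
    have hu' : u ^ n * 1 = hx 0 := by rw [mul_one, hu]
    have huE : u ∈ Fermat.Agent.S19.helper9190.levelField (p * M) E :=
      hu1 u ⟨hx 0, hSx _, 1, hS1', one_ne_zero, 1, by rw [hgal1]; exact hu'⟩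
    obtain ⟨hu0, huO, huO'⟩ := hunit (HK.ne 0) (one_mem _) (by rw [inv_one]; exact one_mem _)
      (HK.unit _) (HK.unit' _) hu' huE
    refine ⟨u, hu0, huO, huO', fun v => ?_⟩
    have h3 := eq_add_ord_of_pow_mul_eq hn one_ne_zero (HK.ne 0) hu' v (Ea := 0)
      (by rw [mul_zero, v.ord_one]) (HK.div 0 v)
    rw [h3, zero_add]
  · -- Galois
    intro s
    have hsD := inertia_le_decomposition P s.2
    refine ⟨fun f hf => ?_, ?_, fun x => ?_⟩
    · exact (mem_ball_iff_ballTop P (p * M) (wAL h) E).2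
        ⟨smul_mem_ballTop h P s.2 ((mem_ball_iff_ballTop P (p * M) (wAL h) E).1 hf).1,
          Fermat.Agent.S33.helper1085.smul_mem_levelField (p * M) E hL.stable (s : GQ)
            ((mem_ball_iff_ballTop P (p * M) (wAL h) E).1 hf).2⟩
    · have hsπ : (⟨(s : GQ) (π : Qb), ⟨Fermat.Agent.S19.helper9190.decomp_mem hsD π.2.1,
          hL.stable (s : GQ) _ π.2.2⟩⟩ : lvlRing P E) ∈ Ideal.span {π} :=
        hL.unif _ (Fermat.Agent.S19.helper9190.decomp_nonunits hsD hL.nonunit)
      rw [Ideal.mem_span_singleton'] at hsπ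
      obtain ⟨κ, hκ⟩ := hsπ
      exact ⟨κ, (congrArg (fun a : lvlRing P E => (a : Qb)) hκ).symm⟩
    · obtain ⟨u, hu⟩ := HK.gal s x
      have huE : u ∈ Fermat.Agent.S19.helper9190.levelField (p * M) E :=
        hu1 u ⟨hx (s • x), hSx _, hx x, hSx x, HK.ne x, (s : GQ), hu⟩
      have hg0 : arithmeticGalois (modularFunctionFieldFull (p * M)) (s : GQ) • hx x ≠ 0 := by
        rw [SemilinearAut.smul_def]
        exact (map_ne_zero _).mpr (HK.ne x)
      obtain ⟨hu0, huO, huO'⟩ := hunit (HK.ne (s • x)) (smul_mem_ballTop h P s.2 (HK.unit x))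
        (by rw [← smul_inv'']; exact smul_mem_ballTop h P s.2 (HK.unit' x)) (HK.unit _)
        (HK.unit' _) hu huE
      refine ⟨u, hu0, huO, huO', fun v => ?_⟩
      refine eq_add_ord_of_pow_mul_eq hn hg0 (HK.ne (s • x)) hu v ?_ (HK.div (s • x) v)
      rw [SemilinearAut.divisor_smul_apply, HK.div x]
      have h4 := SemilinearAut.ord_smul
        (arithmeticGalois (modularFunctionFieldFull (p * M)) (s : GQ))
        ((arithmeticGalois (modularFunctionFieldFull (p * M)) (s : GQ))⁻¹ • v) (hx x)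
      rw [smul_inv_smul] at h4
      exact h4.symm

end Asm

end

end Fermat.Agent.S33.helper5454
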