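import Fermat.Agent.S28.helper1588_Core

/-!
# S33, leaf DICTINT-SS, part A (helper5528): the two-chart saturation core

The S28 algebra core (`helper1588.fin_kernel_LS`) proves: if `y ∈ ℚ((q))` has an `ℓ`-integral
expansion, `ℓ y` is integral over `ℤ_(ℓ)[j]`, and `y` is `ℤ[j]`-dependent on a family `b` of
`ℤ[j]`-integral integer series whose reductions mod `ℓ` are independent over `𝔽_ℓ[j̄]`, then `y`
is integral over `ℤ_(ℓ)[j]`.

At a prime `ℓ ∥ N` the reductions of the chart `∞` expansions are no longer independent: the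
special fibre has two components.  Here is the two-chart version: every function has TWO
expansions `(y, y')` (at `∞`, and at `0` after the Atkin–Lehner involution), the relation holds
in both charts (with `j` replaced by its second expansion `jW`), and only the PAIRS of reductions
of the family are independent.  The conclusion is the same.
-/

set_option autoImplicit false
set_option linter.unusedSectionVars false

noncomputable section

open ModularCurve ModularCurve.IgusaScheme Polynomial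

namespace Fermat.Agent.S33.helper5528

open Fermat.Agent.S28 Fermat.Agent.S28.helper1588

variable (ℓ : ℕ) [Fact ℓ.Prime]

/-- `toQ` commutes with evaluation of integer polynomials at an arbitrary integer series. -/
theorem toQ_aeval_gen (x : LaurentSeries ℤ) (p : Polynomial ℤ) :
    Spec.toQ (Polynomial.aeval x p) = Polynomial.aeval (Spec.toQ x) p := by
  rw [Polynomial.aeval_def, Polynomial.aeval_def, Polynomial.hom_eval₂]
  congr 1
  exact RingHom.ext_int _ _

/-- `toFl` commutes with evaluation of integer polynomials at an arbitrary integer series. -/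
theorem toFl_aeval_gen (x : LaurentSeries ℤ) (p : Polynomial ℤ) :
    Spec.toFl ℓ (Polynomial.aeval x p) =
      Polynomial.aeval (Spec.toFl ℓ x) (p.map (Int.castRingHom (ZMod ℓ))) := by
  rw [Polynomial.aeval_def, Polynomial.aeval_def, Polynomial.hom_eval₂, Polynomial.eval₂_map]
  congr 1
  exact RingHom.ext_int _ _

theorem aeval_toQ_mem_OSub (x : LaurentSeries ℤ) (p : Polynomial ℤ) :
    Polynomial.aeval (Spec.toQ x) p ∈ OSub ℓ := by
  rw [← toQ_aeval_gen]; exact toQ_mem_OSub ℓ _

theorem aeval_gen_C_natCast_mul (s : LaurentSeries ℚ) (p : Polynomial ℤ) :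
    Polynomial.aeval s (Polynomial.C (ℓ : ℤ) * p) =
      (ℓ : LaurentSeries ℚ) * Polynomial.aeval s p := by
  rw [map_mul, Polynomial.aeval_C]
  simp

/-- **Joint independence mod `ℓ`** of the pairs of reductions `(bI i, bZ i)` over `𝔽_ℓ[X]`, where
`X` acts as `j̄` on the first components and as the reduction of `jW` on the second. -/
def LinIndepModL2 {n : ℕ} (jW : LaurentSeries ℤ) (bI bZ : Fin n → LaurentSeries ℤ) : Prop :=
  ∀ c : Fin n → Polynomial (ZMod ℓ),
    ∑ i, Polynomial.aeval (jqModC (ZMod ℓ)) (c i) * Spec.toFl ℓ (bI i) = 0 →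
    ∑ i, Polynomial.aeval (Spec.toFl ℓ jW) (c i) * Spec.toFl ℓ (bZ i) = 0 → c = 0

section descent

variable {n : ℕ} (jW : LaurentSeries ℤ) (bI bZ : Fin n → LaurentSeries ℤ)

/-- the combination `∑ c_i(jW) bZ_i` as an integer series. -/
def combZW (c : Fin n → Polynomial ℤ) : LaurentSeries ℤ :=
  ∑ i, Polynomial.aeval jW (c i) * bZ i

theorem toQ_combZW (c : Fin n → Polynomial ℤ) :
    Spec.toQ (combZW jW bZ c) = ∑ i, Polynomial.aeval (Spec.toQ jW) (c i) * Spec.toQ (bZ i) := by
  simp only [combZW, map_sum, map_mul, toQ_aeval_gen]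

theorem toFl_combZW (c : Fin n → Polynomial ℤ) :
    Spec.toFl ℓ (combZW jW bZ c) =
      ∑ i, Polynomial.aeval (Spec.toFl ℓ jW) ((c i).map (Int.castRingHom (ZMod ℓ))) *
        Spec.toFl ℓ (bZ i) := by
  simp only [combZW, map_sum, map_mul, toFl_aeval_gen]

/-- **Two-chart descent**: a `ℤ[j]`-relation between `y` and the family, valid in both charts,
can be made primitive at `y`. -/
theorem exists_rel_ne_zero_mod2 (hLI : LinIndepModL2 ℓ jW bI bZ) (y y' : LaurentSeries ℚ)
    (hy : y ∈ OSub ℓ) (hy' : y' ∈ OSub ℓ) :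
    ∀ (m : ℕ) (c : Fin (n + 1) → Polynomial ℤ) (i : Fin (n + 1)) (k : ℕ),
      ((c i).coeff k).natAbs = m → m ≠ 0 →
      Polynomial.aeval jq (c 0) * y +
        ∑ i : Fin n, Polynomial.aeval jq (c i.succ) * Spec.toQ (bI i) = 0 →
      Polynomial.aeval (Spec.toQ jW) (c 0) * y' +
        ∑ i : Fin n, Polynomial.aeval (Spec.toQ jW) (c i.succ) * Spec.toQ (bZ i) = 0 →
      ∃ c' : Fin (n + 1) → Polynomial ℤ, (c' 0).map (Int.castRingHom (ZMod ℓ)) ≠ 0 ∧
        Polynomial.aeval jq (c' 0) * y +
          ∑ i : Fin n, Polynomial.aeval jq (c' i.succ) * Spec.toQ (bI i) = 0 := by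
  intro m
  induction m using Nat.strong_induction_on with
  | _ m ih =>
    intro c i k hm hm0 hrel hrel'
    by_cases h0 : (c 0).map (Int.castRingHom (ZMod ℓ)) = 0
    swap
    · exact ⟨c, h0, hrel⟩
    obtain ⟨d₁, hd₁⟩ := exists_eq_C_mul ℓ (c 0) h0
    -- chart `∞`
    have hZ : Spec.toQ (combZ bI (fun i => c i.succ)) =
        (ℓ : LaurentSeries ℚ) * (-(Polynomial.aeval jq d₁ * y)) := by
      rw [toQ_combZ]
      rw [hd₁, aeval_C_natCast_mul] at hrel
      linear_combination hrel
    have hw : -(Polynomial.aeval jq d₁ * y) ∈ OSub ℓ :=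
      neg_mem (mul_mem (aeval_jq_mem_OSub ℓ d₁) hy)
    have hred : Spec.toFl ℓ (combZ bI (fun i => c i.succ)) = 0 := by
      rw [← redS_toQ ℓ, redS_eq_zero_iff]
      exact ⟨⟨_, hw⟩, Subtype.ext hZ⟩
    rw [toFl_combZ] at hred
    -- chart `0`
    have hZ' : Spec.toQ (combZW jW bZ (fun i => c i.succ)) =
        (ℓ : LaurentSeries ℚ) * (-(Polynomial.aeval (Spec.toQ jW) d₁ * y')) := by
      rw [toQ_combZW]
      rw [hd₁, aeval_gen_C_natCast_mul] at hrel'
      linear_combination hrel'
    have hw' : -(Polynomial.aeval (Spec.toQ jW) d₁ * y') ∈ OSub ℓ :=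
      neg_mem (mul_mem (aeval_toQ_mem_OSub ℓ jW d₁) hy')
    have hred' : Spec.toFl ℓ (combZW jW bZ (fun i => c i.succ)) = 0 := by
      rw [← redS_toQ ℓ, redS_eq_zero_iff]
      exact ⟨⟨_, hw'⟩, Subtype.ext hZ'⟩
    rw [toFl_combZW] at hred'
    have hall := hLI _ hred hred'
    have hall' : ∀ i : Fin (n + 1), (c i).map (Int.castRingHom (ZMod ℓ)) = 0 := by
      intro i
      refine Fin.cases h0 (fun i => ?_) i
      exact congrFun hall i
    choose c₁ hc₁ using fun i => exists_eq_C_mul ℓ (c i) (hall' i)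
    have hrel₁ : Polynomial.aeval jq (c₁ 0) * y +
        ∑ i : Fin n, Polynomial.aeval jq (c₁ i.succ) * Spec.toQ (bI i) = 0 := by
      have : (ℓ : LaurentSeries ℚ) * (Polynomial.aeval jq (c₁ 0) * y +
          ∑ i : Fin n, Polynomial.aeval jq (c₁ i.succ) * Spec.toQ (bI i)) = 0 := by
        rw [mul_add, Finset.mul_sum]
        refine Eq.trans ?_ hrel
        congr 1
        · rw [hc₁ 0, aeval_C_natCast_mul]; ring
        · refine Finset.sum_congr rfl (fun i _ => ?_)
          rw [hc₁ i.succ, aeval_C_natCast_mul]; ring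
      exact (mul_eq_zero.mp this).resolve_left (natCast_ne_zero_LS ℓ)
    have hrel₁' : Polynomial.aeval (Spec.toQ jW) (c₁ 0) * y' +
        ∑ i : Fin n, Polynomial.aeval (Spec.toQ jW) (c₁ i.succ) * Spec.toQ (bZ i) = 0 := by
      have : (ℓ : LaurentSeries ℚ) * (Polynomial.aeval (Spec.toQ jW) (c₁ 0) * y' +
          ∑ i : Fin n, Polynomial.aeval (Spec.toQ jW) (c₁ i.succ) * Spec.toQ (bZ i)) = 0 := by
        rw [mul_add, Finset.mul_sum]
        refine Eq.trans ?_ hrel'
        congr 1
        · rw [hc₁ 0, aeval_gen_C_natCast_mul]; ring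
        · refine Finset.sum_congr rfl (fun i _ => ?_)
          rw [hc₁ i.succ, aeval_gen_C_natCast_mul]; ring
      exact (mul_eq_zero.mp this).resolve_left (natCast_ne_zero_LS ℓ)
    have hcoeff : (c i).coeff k = (ℓ : ℤ) * (c₁ i).coeff k := by
      conv_lhs => rw [hc₁ i]
      rw [Polynomial.coeff_C_mul]
    have hm' : ℓ * ((c₁ i).coeff k).natAbs = m := by
      rw [← hm, hcoeff, Int.natAbs_mul, Int.natAbs_natCast]
    have h2 := (Fact.out : ℓ.Prime).two_le
    have ht0 : ((c₁ i).coeff k).natAbs ≠ 0 := by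
      intro h; rw [h, mul_zero] at hm'; exact hm0 hm'.symm
    have hlt : ((c₁ i).coeff k).natAbs < m := by
      have := Nat.pos_of_ne_zero ht0
      nlinarith
    exact ih _ hlt c₁ i k rfl ht0 hrel₁ hrel₁'

end descent

/-- **Two-chart saturation, finite chart, series form.**  `y` (chart `∞`) and `y'` (chart `0`)
are the two expansions of one function; both are `ℓ`-integral, `ℓ y` is integral over
`ℤ_(ℓ)[j]`, and the function satisfies a nontrivial `ℤ[j]`-linear relation with a family of
`ℤ[j]`-integral functions whose pairs of expansions `(bI i, bZ i)` are jointly independent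
mod `ℓ`.  Then `y` is integral over `ℤ_(ℓ)[j]`. -/
theorem fin_kernel_two {n : ℕ} (jW : LaurentSeries ℤ) (bI bZ : Fin n → LaurentSeries ℤ)
    (hLI : LinIndepModL2 ℓ jW bI bZ) (hbInt : ∀ i, Spec.IsIntegralOverZj (bI i))
    (y y' : LaurentSeries ℚ) (hy : y ∈ OSub ℓ) (hy' : y' ∈ OSub ℓ)
    (c : Fin (n + 1) → Polynomial ℤ) (hc0 : c ≠ 0)
    (hrel : Polynomial.aeval jq (c 0) * y +
      ∑ i : Fin n, Polynomial.aeval jq (c i.succ) * Spec.toQ (bI i) = 0)
    (hrel' : Polynomial.aeval (Spec.toQ jW) (c 0) * y' +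
      ∑ i : Fin n, Polynomial.aeval (Spec.toQ jW) (c i.succ) * Spec.toQ (bZ i) = 0)
    (hint : (evalS ℓ jq).IsIntegralElem ((ℓ : LaurentSeries ℚ) * y)) :
    (evalS ℓ jq).IsIntegralElem y := by
  obtain ⟨i, k, hik⟩ : ∃ i k, (c i).coeff k ≠ 0 := by
    by_contra hcon
    refine hc0 (funext fun i => Polynomial.ext fun k => ?_)
    by_contra hne
    exact hcon ⟨i, k, hne⟩
  obtain ⟨c', hc'0, hrel₂⟩ := exists_rel_ne_zero_mod2 ℓ jW bI bZ hLI y y' hy hy' _ c i k rfl
    (Int.natAbs_ne_zero.mpr hik) hrel hrel'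
  refine isIntegralElem_of_scaled_Zl ℓ jq
    (by rw [← jqModC_rat]; exact helper3292.aeval_jqModC_injective ℚ) y
    ((c' 0).map (Int.castRingHom (Zl ℓ))) ?_ hint ?_
  · rw [Polynomial.map_map]
    have : (resZl ℓ).comp (Int.castRingHom (Zl ℓ)) = Int.castRingHom (ZMod ℓ) :=
      RingHom.ext_int _ _
    rw [this]; exact hc'0
  · rw [evalS_map_int]
    have : Polynomial.aeval jq (c' 0) * y =
        -∑ i : Fin n, Polynomial.aeval jq (c' i.succ) * Spec.toQ (bI i) := by
      linear_combination hrel₂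
    rw [this]
    refine RingHom.IsIntegralElem.neg _ (isIntegralElem_sum _ _ _ (fun i _ =>
      RingHom.IsIntegralElem.mul _ ?_ (isIntegralElem_toQ ℓ (bI i) (hbInt i))))
    rw [← evalS_map_int ℓ]
    exact RingHom.isIntegralElem_map _

end Fermat.Agent.S33.helper5528
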