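import Fermat.Agent.S33.helper5528_TwoChartCore
import Fermat.Agent.S35.helper1928_TwoValBasis
import Fermat.Agent.S28.helper1595_RouteP
import Fermat.Agent.S28.helper508_FormalPrime

/-!
# S33, leaf DICTINT-SS, part B (helper5528): two-chart saturation of the charts at `ℓ ∥ ℓ M`

`F = ℚ(X₀(ℓ M))` (`modularFunctionFieldFull (ℓ * M)`), `ℓ ∤ M`.

* `W0 : F →+* F` : the Atkin–Lehner involution `W_ℓ` on the RATIONAL function field (the landed
  `helper1219.atkinLehnerBar` preserves rational `q`-expansions); `coeffEmb_W0`.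
* `fin_kernel2`, `mid_kernel2`, `inf_kernel2` (**SAT2**): for the three Prelude charts
  `chartAlg (ℓ M) ℓ S`, `S = {j}, {j, j⁻¹}, {j⁻¹}`: if `y ∈ F` and `W0 y` both have Gauss-integral
  `q`-expansions and `ℓ y` lies in the chart, then `y` lies in the chart.
  (`S_i / ℓ` embeds in `κ_∞ × κ_0`; for `ℓ ∤ N` the S28 statement needs ONE expansion.)
-/

set_option autoImplicit false
set_option linter.unusedSectionVars false

noncomputable section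

open ModularCurve ModularCurve.IgusaScheme Polynomial

namespace Fermat.Agent.S33.helper5528

open Fermat.Agent.S28 Fermat.Agent.S28.helper1588
open Fermat.Agent.S24.helper24
open Fermat.Agent.S18.helper508
open Fermat.Agent.S35.helper1928

/-- A ring hom commutes with evaluation of integer polynomials. -/
theorem map_eval₂_int {A B : Type*} [CommRing A] [CommRing B] (φ : A →+* B) (x : A)
    (p : Polynomial ℤ) :
    φ (p.eval₂ (Int.castRingHom A) x) = p.eval₂ (Int.castRingHom B) (φ x) := by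
  rw [Polynomial.hom_eval₂]
  congr 1
  exact RingHom.ext_int _ _

theorem aeval_LS_eq (x : LaurentSeries ℚ) (p : Polynomial ℤ) :
    Polynomial.aeval x p = p.eval₂ (Int.castRingHom (LaurentSeries ℚ)) x := by
  rw [Polynomial.aeval_def]
  congr 1
  exact RingHom.ext_int _ _

theorem coeffEmb_inj {x y : LaurentSeries ℚ} (h : coeffEmb Kbar x = coeffEmb Kbar y) : x = y :=
  coeffMap_injective _ (algebraMap ℚ Kbar).injective h

variable (ℓ M : ℕ) [Fact ℓ.Prime] [NeZero M] (hℓM : ¬ ℓ ∣ M)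

/-! ### The Atkin–Lehner involution preserves rational expansions -/

/-- `x` is the expansion of a function `f ∈ ℚ̄(X₀(ℓ M))` whose Atkin–Lehner transform has the
rational expansion `v ∈ ℚ(X₀(ℓ M))`. -/
def IsALRat (x v : LaurentSeries ℚ) : Prop :=
  v ∈ modularFunctionFieldFull (ℓ * M) ∧
    ∃ f : FN (ℓ * M), (f : LaurentSeries Kbar) = coeffEmb Kbar x ∧
      ((wAL ℓ M hℓM f : FN (ℓ * M)) : LaurentSeries Kbar) = coeffEmb Kbar v

variable {ℓ M hℓM}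

theorem IsALRat.eq_of {x v : LaurentSeries ℚ} (h : IsALRat ℓ M hℓM x v) {f : FN (ℓ * M)}
    (hf : (f : LaurentSeries Kbar) = coeffEmb Kbar x) {v' : LaurentSeries ℚ}
    (hv' : ((wAL ℓ M hℓM f : FN (ℓ * M)) : LaurentSeries Kbar) = coeffEmb Kbar v') : v = v' := by
  obtain ⟨-, g, hg, hgv⟩ := h
  have : g = f := Subtype.ext (hg.trans hf.symm)
  subst this
  exact coeffEmb_inj (hgv.symm.trans hv')

theorem IsALRat.unique {x v v' : LaurentSeries ℚ} (h : IsALRat ℓ M hℓM x v)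
    (h' : IsALRat ℓ M hℓM x v') : v = v' := by
  obtain ⟨-, f, hf, hv'⟩ := h'
  exact h.eq_of hf hv'

theorem IsALRat.zero : IsALRat ℓ M hℓM 0 0 :=
  ⟨zero_mem _, 0, by rw [map_zero]; rfl, by rw [map_zero, map_zero]; rfl⟩

theorem IsALRat.one : IsALRat ℓ M hℓM 1 1 :=
  ⟨one_mem _, 1, by rw [map_one]; rfl, by rw [map_one, map_one]; rfl⟩

theorem IsALRat.add {x v x' v' : LaurentSeries ℚ} (h : IsALRat ℓ M hℓM x v)
    (h' : IsALRat ℓ M hℓM x' v') : IsALRat ℓ M hℓM (x + x') (v + v') := by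
  obtain ⟨hm, f, h1, h2⟩ := h
  obtain ⟨hm', f', h1', h2'⟩ := h'
  refine ⟨add_mem hm hm', f + f', ?_, ?_⟩
  · rw [map_add, ← h1, ← h1']; rfl
  · rw [map_add, map_add, ← h2, ← h2']; rfl

theorem IsALRat.mul {x v x' v' : LaurentSeries ℚ} (h : IsALRat ℓ M hℓM x v)
    (h' : IsALRat ℓ M hℓM x' v') : IsALRat ℓ M hℓM (x * x') (v * v') := by
  obtain ⟨hm, f, h1, h2⟩ := h
  obtain ⟨hm', f', h1', h2'⟩ := h'
  refine ⟨mul_mem hm hm', f * f', ?_, ?_⟩
  · rw [map_mul, ← h1, ← h1']; rfl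
  · rw [map_mul, map_mul, ← h2, ← h2']; rfl

theorem IsALRat.inv {x v : LaurentSeries ℚ} (h : IsALRat ℓ M hℓM x v) :
    IsALRat ℓ M hℓM x⁻¹ v⁻¹ := by
  obtain ⟨hm, f, h1, h2⟩ := h
  refine ⟨inv_mem hm, f⁻¹, ?_, ?_⟩
  · rw [map_inv₀, ← h1]; rfl
  · rw [map_inv₀, map_inv₀, ← h2]; rfl

theorem IsALRat.const (r : ℚ) :
    IsALRat ℓ M hℓM (algebraMap ℚ (LaurentSeries ℚ) r) (algebraMap ℚ (LaurentSeries ℚ) r) := by
  have hc : coeffEmb Kbar (algebraMap ℚ (LaurentSeries ℚ) r) =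
      algebraMap Kbar (LaurentSeries Kbar) (algebraMap ℚ Kbar r) := by
    rw [algebraMap_laurentSeries_eq_single, algebraMap_laurentSeries_eq_single, coeffEmb,
      coeffMap_single]
  refine ⟨IntermediateField.algebraMap_mem _ r,
    algebraMap Kbar (FN (ℓ * M)) (algebraMap ℚ Kbar r), ?_, ?_⟩
  · rw [hc]; rfl
  · rw [AlgEquiv.commutes, hc]; rfl

theorem IsALRat.gen {d : ℕ} [NeZero d] (hd : d ∣ ℓ * M) :
    ∃ v, IsALRat ℓ M hℓM (qExpand ℚ d jq) v := by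
  obtain ⟨e, f, d', m, hD, hq, hM⟩ :=
    Fermat.Agent.S35.helper1219.exists_factor (coprime_of_not_dvd ℓ M hℓM) hd
  have hf0 : f ≠ 0 := by
    rintro rfl
    exact (Fact.out : ℓ.Prime).ne_zero (by rw [hq, mul_zero])
  have hd'0 : d' ≠ 0 := by
    rintro rfl
    exact NeZero.ne M (by rw [hM, zero_mul])
  have : NeZero (f * d') := ⟨mul_ne_zero hf0 hd'0⟩
  have hD' : f * d' ∣ ℓ * M := by
    rw [hq, hM]
    exact ⟨e * m, by ring⟩
  refine ⟨qExpand ℚ (f * d') jq, jqd_mem_full (ℓ * M) hD', jBarD (ℓ * M) d hd, rfl, ?_⟩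
  have h := Fermat.Agent.S35.helper1219.atkinLehnerBar_jBarD_of_eq ℓ M
    (coprime_of_not_dvd ℓ M hℓM) hd hD' hq hM hD rfl
  show ((Fermat.Agent.S35.helper1219.atkinLehnerBar ℓ M (coprime_of_not_dvd ℓ M hℓM)
    (jBarD (ℓ * M) d hd) : FN (ℓ * M)) : LaurentSeries Kbar) = _
  rw [h]
  rfl

variable (ℓ M hℓM)

theorem exists_isALRat_aux {x : LaurentSeries ℚ}
    (hx' : x ∈ IntermediateField.adjoin ℚ (divisorExpansions (ℓ * M))) :
    ∃ v, IsALRat ℓ M hℓM x v := by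
  induction hx' using IntermediateField.adjoin_induction with
  | mem x hx =>
    obtain ⟨d, hd0, hd, rfl⟩ := hx
    exact IsALRat.gen hd
  | algebraMap r => exact ⟨_, IsALRat.const r⟩
  | add x y _ _ hx hy =>
    obtain ⟨v, hv⟩ := hx
    obtain ⟨w, hw⟩ := hy
    exact ⟨_, hv.add hw⟩
  | inv x _ hx =>
    obtain ⟨v, hv⟩ := hx
    exact ⟨_, hv.inv⟩
  | mul x y _ _ hx hy =>
    obtain ⟨v, hv⟩ := hx
    obtain ⟨w, hw⟩ := hy
    exact ⟨_, hv.mul hw⟩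

theorem exists_isALRat {x : LaurentSeries ℚ} (hx : x ∈ modularFunctionFieldFull (ℓ * M)) :
    ∃ v, IsALRat ℓ M hℓM x v :=
  exists_isALRat_aux ℓ M hℓM hx

/-- The underlying function of `W0`. -/
def W0fun (x : ↥(modularFunctionFieldFull (ℓ * M))) : ↥(modularFunctionFieldFull (ℓ * M)) :=
  ⟨(exists_isALRat ℓ M hℓM x.2).choose, (exists_isALRat ℓ M hℓM x.2).choose_spec.1⟩

theorem W0fun_spec (x : ↥(modularFunctionFieldFull (ℓ * M))) :
    IsALRat ℓ M hℓM (x : LaurentSeries ℚ) (W0fun ℓ M hℓM x : LaurentSeries ℚ) :=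
  (exists_isALRat ℓ M hℓM x.2).choose_spec

theorem W0fun_eq {x : ↥(modularFunctionFieldFull (ℓ * M))} {v : LaurentSeries ℚ}
    (h : IsALRat ℓ M hℓM (x : LaurentSeries ℚ) v) : (W0fun ℓ M hℓM x : LaurentSeries ℚ) = v :=
  (W0fun_spec ℓ M hℓM x).unique h

/-- **The Atkin–Lehner involution `W_ℓ` on the rational function field** `ℚ(X₀(ℓ M))`. -/
def W0 : ↥(modularFunctionFieldFull (ℓ * M)) →+* ↥(modularFunctionFieldFull (ℓ * M)) where
  toFun := W0fun ℓ M hℓM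
  map_one' := Subtype.ext (W0fun_eq ℓ M hℓM IsALRat.one)
  map_mul' x y := Subtype.ext
    (W0fun_eq ℓ M hℓM ((W0fun_spec ℓ M hℓM x).mul (W0fun_spec ℓ M hℓM y)))
  map_zero' := Subtype.ext (W0fun_eq ℓ M hℓM IsALRat.zero)
  map_add' x y := Subtype.ext
    (W0fun_eq ℓ M hℓM ((W0fun_spec ℓ M hℓM x).add (W0fun_spec ℓ M hℓM y)))

theorem W0_spec (x : ↥(modularFunctionFieldFull (ℓ * M))) :
    IsALRat ℓ M hℓM (x : LaurentSeries ℚ) (W0 ℓ M hℓM x : LaurentSeries ℚ) :=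
  W0fun_spec ℓ M hℓM x

/-- Characterisation of `W0`: for `f ∈ ℚ̄(X₀(ℓ M))` with the rational expansion `x`, the
expansion of `W_ℓ f` is the (rational) expansion `W0 x`. -/
theorem coeffEmb_W0 (x : ↥(modularFunctionFieldFull (ℓ * M))) (f : FN (ℓ * M))
    (hf : (f : LaurentSeries Kbar) = coeffEmb Kbar (x : LaurentSeries ℚ)) :
    ((wAL ℓ M hℓM f : FN (ℓ * M)) : LaurentSeries Kbar) =
      coeffEmb Kbar (W0 ℓ M hℓM x : LaurentSeries ℚ) := by
  obtain ⟨-, g, hg, hgv⟩ := W0_spec ℓ M hℓM x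
  have : g = f := Subtype.ext (hg.trans hf.symm)
  subst this
  exact hgv

/-- `W0` on integer expansions related by `helper1928.ALRel`. -/
theorem W0_of_ALRel {x y : LaurentSeries ℤ}
    (h : ALRel ℓ M (coprime_of_not_dvd ℓ M hℓM) x y)
    (hx : Spec.toQ x ∈ modularFunctionFieldFull (ℓ * M)) :
    ((W0 ℓ M hℓM ⟨Spec.toQ x, hx⟩ : ↥(modularFunctionFieldFull (ℓ * M))) : LaurentSeries ℚ) =
      Spec.toQ y := by
  obtain ⟨f, h1, h2⟩ := h
  refine (W0_spec ℓ M hℓM ⟨Spec.toQ x, hx⟩).eq_of (f := f) ?_ ?_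
  · rw [h1]; exact (coeffEmb_toQ (L := Kbar) x).symm
  · exact h2.trans (coeffEmb_toQ (L := Kbar) y).symm

/-! ### The two-chart family at level `ℓ M` -/

theorem isIntegralElem_pow {R A : Type*} [CommRing R] [CommRing A] (f : R →+* A) {x : A}
    (hx : f.IsIntegralElem x) (n : ℕ) : f.IsIntegralElem (x ^ n) := by
  induction n with
  | zero => rw [pow_zero]; exact f.isIntegralElem_one
  | succ n ih => rw [pow_succ]; exact RingHom.IsIntegralElem.mul f ih hx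

/-- The prime-level relations over `ℤ` hold at every prime (landed S28). -/
theorem primeRelZ_all (N : ℕ) :
    ∀ (p : ℕ) [NeZero p], p.Prime → p ∣ N → Fermat.Agent.S28.helper1595.PrimeRelZ p := by
  intro p _ hp _
  haveI : Fact p.Prime := ⟨hp⟩
  exact Fermat.Agent.S28.helper28.primeRel_int p (Fermat.Agent.S28.helper508.stmt_FormalPrime p)

theorem qExpand_mem_closure {x : LaurentSeries ℤ}
    (hx : x ∈ Submonoid.closure (Fermat.Agent.S28.helper1595.genZ M)) :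
    qExpand ℤ ℓ x ∈ Submonoid.closure (Fermat.Agent.S28.helper1595.genZ (ℓ * M)) := by
  induction hx using Submonoid.closure_induction with
  | mem x hx =>
    obtain ⟨d, hd, hdM, rfl⟩ := hx
    have := hd
    rw [qExpand_qExpand]
    exact Submonoid.subset_closure ⟨ℓ * d, inferInstance, mul_dvd_mul_left ℓ hdM, rfl⟩
  | one => rw [map_one]; exact one_mem _
  | mul x y _ _ hx hy => rw [map_mul]; exact mul_mem hx hy

theorem closure_genZ_mono {x : LaurentSeries ℤ}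
    (hx : x ∈ Submonoid.closure (Fermat.Agent.S28.helper1595.genZ M)) :
    x ∈ Submonoid.closure (Fermat.Agent.S28.helper1595.genZ (ℓ * M)) :=
  Submonoid.closure_mono (fun y hy => by
    obtain ⟨d, hd, hdM, h⟩ := hy
    exact ⟨d, hd, hdM.mul_left ℓ, h⟩) hx

theorem jl_mem_closure :
    qExpand ℤ ℓ (jqModC ℤ) ∈ Submonoid.closure (Fermat.Agent.S28.helper1595.genZ (ℓ * M)) :=
  Submonoid.subset_closure ⟨ℓ, inferInstance, dvd_mul_right ℓ M, rfl⟩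

theorem j_mem_closure :
    jqModC ℤ ∈ Submonoid.closure (Fermat.Agent.S28.helper1595.genZ (ℓ * M)) :=
  Submonoid.subset_closure ⟨1, inferInstance, one_dvd _, (qExpand_one_apply _).symm⟩

/-- The chart-`∞` expansions of the two-chart family are integral over `ℤ[j]`. -/
theorem isIntegralOverZj_famInf (e : TwoIdx ℓ (dedekindPsi M)) :
    Spec.IsIntegralOverZj (famInf ℓ (gaussBasis M ℓ hℓM) e) := by
  have hrel := primeRelZ_all (ℓ * M)
  have hjl : Spec.IsIntegralOverZj (qExpand ℤ ℓ (jqModC ℤ)) :=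
    Fermat.Agent.S28.helper1595.isIntegral_of_mem_closure (ℓ * M) hrel (jl_mem_closure ℓ M)
  have hj : Spec.IsIntegralOverZj (jqModC ℤ) :=
    Fermat.Agent.S28.helper1595.isIntegral_of_mem_closure (ℓ * M) hrel (j_mem_closure ℓ M)
  rcases e with i | ⟨a, i⟩
  · exact gaussBasis_integral M ℓ hℓM i
  · have hb : Spec.IsIntegralOverZj (qExpand ℤ ℓ (gaussBasis M ℓ hℓM i)) :=
      Fermat.Agent.S28.helper1595.isIntegral_of_mem_closure (ℓ * M) hrel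
        (qExpand_mem_closure ℓ M (gaussBasis_mem M ℓ hℓM i))
    rw [Fermat.Agent.S28.helper1595.isIntegralOverZj_iff] at hjl hj hb ⊢
    rw [famInf_inr, kronInf]
    exact RingHom.IsIntegralElem.mul _ (RingHom.IsIntegralElem.mul _
      (RingHom.IsIntegralElem.sub _ hjl (isIntegralElem_pow _ hj ℓ))
      (isIntegralElem_pow _ hjl a)) hb

/-- The chart-`∞` expansions of the two-chart family lie in `ℚ(X₀(ℓ M))`. -/
theorem toQ_famInf_mem (e : TwoIdx ℓ (dedekindPsi M)) :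
    Spec.toQ (famInf ℓ (gaussBasis M ℓ hℓM) e) ∈ modularFunctionFieldFull (ℓ * M) := by
  have hjl : Spec.toQ (qExpand ℤ ℓ (jqModC ℤ)) ∈ modularFunctionFieldFull (ℓ * M) :=
    Fermat.Agent.S28.helper1595.toQ_mem_full_of_mem_closure (ℓ * M) (jl_mem_closure ℓ M)
  have hj : Spec.toQ (jqModC ℤ) ∈ modularFunctionFieldFull (ℓ * M) :=
    Fermat.Agent.S28.helper1595.toQ_mem_full_of_mem_closure (ℓ * M) (j_mem_closure ℓ M)
  rcases e with i | ⟨a, i⟩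
  · exact Fermat.Agent.S28.helper1595.toQ_mem_full_of_mem_closure (ℓ * M)
      (closure_genZ_mono ℓ M (gaussBasis_mem M ℓ hℓM i))
  · rw [famInf_inr, kronInf, map_mul, map_mul, map_sub, map_pow, map_pow]
    exact mul_mem (mul_mem (sub_mem hjl (pow_mem hj ℓ)) (pow_mem hjl a))
      (Fermat.Agent.S28.helper1595.toQ_mem_full_of_mem_closure (ℓ * M)
        (qExpand_mem_closure ℓ M (gaussBasis_mem M ℓ hℓM i)))

/-- Joint independence mod `ℓ` of the two-chart family (landed: `helper1928.twoChart_indep`),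
reindexed by `Fin n`. -/
theorem linIndepModL2_fam {n : ℕ} (e : Fin n ≃ TwoIdx ℓ (dedekindPsi M)) :
    LinIndepModL2 ℓ (qExpand ℤ ℓ (jqModC ℤ))
      (fun i => famInf ℓ (gaussBasis M ℓ hℓM) (e i))
      (fun i => famZero ℓ (gaussBasis M ℓ hℓM) (e i)) := by
  intro c h1 h2
  have hjW : Spec.toFl ℓ (qExpand ℤ ℓ (jqModC ℤ)) = qExpand (ZMod ℓ) ℓ (jqModC (ZMod ℓ)) := by
    rw [← zTo_jqModC (ZMod ℓ)]
    exact zTo_qExpand (ZMod ℓ) ℓ (jqModC ℤ)
  rw [hjW] at h2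
  have key := twoChart_indep ℓ (gaussBasis M ℓ hℓM) (gaussBasis_linIndepModL M ℓ hℓM) (ZMod ℓ)
    (fun t => c (e.symm t))
    (by
      rw [← h1]
      exact Fintype.sum_equiv e.symm _ _ (fun t => by beta_reduce; rw [Equiv.apply_symm_apply]))
    (by
      rw [← h2]
      exact Fintype.sum_equiv e.symm _ _ (fun t => by beta_reduce; rw [Equiv.apply_symm_apply]))
  funext i
  have := congrFun key (e i)
  simpa using this

/-- `W0 j = j(q^ℓ)`. -/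
theorem coe_W0_jFull :
    ((W0 ℓ M hℓM (jFull (ℓ * M)) : ↥(modularFunctionFieldFull (ℓ * M))) : LaurentSeries ℚ) =
      Spec.toQ (qExpand ℤ ℓ (jqModC ℤ)) := by
  have hx : Spec.toQ (jqModC ℤ) ∈ modularFunctionFieldFull (ℓ * M) := by
    rw [toQ_jqModC]; exact (jFull (ℓ * M)).2
  have h := W0_of_ALRel ℓ M hℓM ALRel_j hx
  have e1 : (⟨Spec.toQ (jqModC ℤ), hx⟩ : ↥(modularFunctionFieldFull (ℓ * M))) = jFull (ℓ * M) :=
    Subtype.ext toQ_jqModC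
  rw [e1] at h
  exact h

/-! ### SAT2 for the three charts -/

/-- **SAT2, finite chart** (`ℓ ∥ ℓ M`): if `y` and `W_ℓ y` have Gauss-integral expansions and
`ℓ y` is integral over `ℤ_(ℓ)[j]`, then so is `y`. -/
theorem fin_kernel2 (y : ↥(modularFunctionFieldFull (ℓ * M)))
    (hyO : (y : LaurentSeries ℚ) ∈ OSub ℓ)
    (hyO' : ((W0 ℓ M hℓM y : ↥(modularFunctionFieldFull (ℓ * M))) : LaurentSeries ℚ) ∈ OSub ℓ)
    (hy : (ℓ : ↥(modularFunctionFieldFull (ℓ * M))) * y ∈ chartAlg (ℓ * M) ℓ {jFull (ℓ * M)}) :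
    y ∈ chartAlg (ℓ * M) ℓ {jFull (ℓ * M)} := by
  classical
  apply mem_chartAlg_of_isIntegralElem ℓ (ℓ * M) (jFull (ℓ * M)) y
  have h1 := isIntegralElem_of_mem_chartAlg ℓ (ℓ * M) (jFull (ℓ * M)) _ hy
  rw [coe_natCast_mul] at h1
  have hψ : dedekindPsi (ℓ * M) = (ℓ + 1) * dedekindPsi M := by
    rw [mul_comm ℓ M]
    exact Fermat.Agent.S28.helper1595.dedekindPsi_mul_prime_of_not_dvd (Fact.out : ℓ.Prime)
      (NeZero.pos M) hℓM
  have hcard : Fintype.card (Fin (dedekindPsi (ℓ * M))) =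
      Fintype.card (TwoIdx ℓ (dedekindPsi M)) := by
    rw [Fintype.card_fin, Fintype.card_sum, Fintype.card_prod, Fintype.card_fin,
      Fintype.card_fin, hψ]
    ring
  let e : Fin (dedekindPsi (ℓ * M)) ≃ TwoIdx ℓ (dedekindPsi M) := Fintype.equivOfCardEq hcard
  let bI : Fin (dedekindPsi (ℓ * M)) → LaurentSeries ℤ :=
    fun i => famInf ℓ (gaussBasis M ℓ hℓM) (e i)
  let bZ : Fin (dedekindPsi (ℓ * M)) → LaurentSeries ℤ :=
    fun i => famZero ℓ (gaussBasis M ℓ hℓM) (e i)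
  have hmem : ∀ i, Spec.toQ (bI i) ∈ modularFunctionFieldFull (ℓ * M) :=
    fun i => toQ_famInf_mem ℓ M hℓM (e i)
  obtain ⟨c, hc0, hrel⟩ := Fermat.Agent.S28.helper559.degLE_of_formalPrime (ℓ * M)
    (fun p _ _ => Fermat.Agent.S28.helper508.stmt_FormalPrime p)
    (Fin.cons (y : LaurentSeries ℚ) (fun i => Spec.toQ (bI i))) (by
      intro i
      refine Fin.cases ?_ (fun i => ?_) i
      · simpa using y.2
      · simpa using hmem i)
  rw [Fin.sum_univ_succ] at hrel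
  simp only [Fin.cons_zero, Fin.cons_succ] at hrel
  have hFQ : (c 0).eval₂ (Int.castRingHom ↥(modularFunctionFieldFull (ℓ * M)))
        (jFull (ℓ * M)) * y +
      ∑ i, (c i.succ).eval₂ (Int.castRingHom ↥(modularFunctionFieldFull (ℓ * M)))
        (jFull (ℓ * M)) *
        (⟨Spec.toQ (bI i), hmem i⟩ : ↥(modularFunctionFieldFull (ℓ * M))) = 0 := by
    apply coeF_injective (ℓ * M)
    rw [map_add, map_mul, map_sum, map_zero, map_eval₂_int]
    simp only [map_mul, map_eval₂_int, coeF_apply, coe_jFull]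
    simp only [aeval_LS_eq] at hrel
    exact hrel
  have hB : ∀ i, ((W0 ℓ M hℓM ⟨Spec.toQ (bI i), hmem i⟩ :
      ↥(modularFunctionFieldFull (ℓ * M))) : LaurentSeries ℚ) = Spec.toQ (bZ i) :=
    fun i => W0_of_ALRel ℓ M hℓM
      (ALRel_fam (gaussBasis M ℓ hℓM) (gaussBasis_mem M ℓ hℓM) (e i)) (hmem i)
  have hrel' : Polynomial.aeval (Spec.toQ (qExpand ℤ ℓ (jqModC ℤ))) (c 0) *
        ((W0 ℓ M hℓM y : ↥(modularFunctionFieldFull (ℓ * M))) : LaurentSeries ℚ) +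
      ∑ i, Polynomial.aeval (Spec.toQ (qExpand ℤ ℓ (jqModC ℤ))) (c i.succ) *
        Spec.toQ (bZ i) = 0 := by
    have hW := congrArg ((coeF (ℓ * M)).comp (W0 ℓ M hℓM)) hFQ
    rw [map_add, map_mul, map_sum, map_zero, map_eval₂_int] at hW
    simp only [map_mul, map_eval₂_int, RingHom.comp_apply, coeF_apply, coe_W0_jFull, hB] at hW
    simp only [aeval_LS_eq]
    exact hW
  exact fin_kernel_two ℓ (qExpand ℤ ℓ (jqModC ℤ)) bI bZ (linIndepModL2_fam ℓ M hℓM e)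
    (fun i => isIntegralOverZj_famInf ℓ M hℓM (e i)) _ _ hyO hyO' c hc0 hrel hrel' h1

theorem toQ_jl_mem_OSub : Spec.toQ (qExpand ℤ ℓ (jqModC ℤ)) ∈ OSub ℓ := toQ_mem_OSub ℓ _

theorem toFl_jl :
    Spec.toFl ℓ (qExpand ℤ ℓ (jqModC ℤ)) = qExpand (ZMod ℓ) ℓ (jqModC (ZMod ℓ)) := by
  rw [← zTo_jqModC (ZMod ℓ)]
  exact zTo_qExpand (ZMod ℓ) ℓ (jqModC ℤ)

theorem toQ_jl : Spec.toQ (qExpand ℤ ℓ (jqModC ℤ)) = qExpand ℚ ℓ jq := by
  rw [← toQ_jqModC]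
  exact zTo_qExpand ℚ ℓ (jqModC ℤ)

theorem toQ_jl_ne_zero : Spec.toQ (qExpand ℤ ℓ (jqModC ℤ)) ≠ 0 := by
  rw [toQ_jl]
  exact (_root_.map_ne_zero _).mpr jq_ne_zero

theorem toQ_jl_inv_mem_OSub : (Spec.toQ (qExpand ℤ ℓ (jqModC ℤ)))⁻¹ ∈ OSub ℓ := by
  refine (mem_OSub_iff ℓ _).mpr ⟨1, liftZ ℓ (qExpand ℤ ℓ (jqModC ℤ)), ?_, ?_⟩
  · rw [red_liftZ, toFl_jl]
    exact (_root_.map_ne_zero _).mpr (jqModC_ne_zero_of_nontrivial _)
  · rw [incl_liftZ, map_one]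
    exact inv_mul_cancel₀ (toQ_jl_ne_zero ℓ)

/-- **SAT2, overlap chart** (`ℓ ∥ ℓ M`). -/
theorem mid_kernel2 (y : ↥(modularFunctionFieldFull (ℓ * M)))
    (hyO : (y : LaurentSeries ℚ) ∈ OSub ℓ)
    (hyO' : ((W0 ℓ M hℓM y : ↥(modularFunctionFieldFull (ℓ * M))) : LaurentSeries ℚ) ∈ OSub ℓ)
    (hy : (ℓ : ↥(modularFunctionFieldFull (ℓ * M))) * y ∈
      chartAlg (ℓ * M) ℓ {jFull (ℓ * M), (jFull (ℓ * M))⁻¹}) :
    y ∈ chartAlg (ℓ * M) ℓ {jFull (ℓ * M), (jFull (ℓ * M))⁻¹} := by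
  have hset : ({jFull (ℓ * M), (jFull (ℓ * M))⁻¹} : Set ↥(modularFunctionFieldFull (ℓ * M))) =
      insert (jFull (ℓ * M))⁻¹ {jFull (ℓ * M)} := Set.pair_comm _ _
  rw [hset] at hy ⊢
  obtain ⟨n, hn⟩ := exists_pow_mul_mem_chartAlg (Set.mem_singleton _) (jFull_ne_zero (ℓ * M)) hy
  have h1 : jFull (ℓ * M) ^ n * y ∈ chartAlg (ℓ * M) ℓ {jFull (ℓ * M)} := by
    apply fin_kernel2 ℓ M hℓM
    · show (jq ^ n * (y : LaurentSeries ℚ)) ∈ OSub ℓ
      exact mul_mem (pow_mem (jq_mem_OSub ℓ) n) hyO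
    · have e1 : ((W0 ℓ M hℓM (jFull (ℓ * M) ^ n * y) : ↥(modularFunctionFieldFull (ℓ * M))) :
          LaurentSeries ℚ) = Spec.toQ (qExpand ℤ ℓ (jqModC ℤ)) ^ n *
            ((W0 ℓ M hℓM y : ↥(modularFunctionFieldFull (ℓ * M))) : LaurentSeries ℚ) := by
        rw [map_mul, map_pow, ← coe_W0_jFull ℓ M hℓM]
        rfl
      rw [e1]
      exact mul_mem (pow_mem (toQ_jl_mem_OSub ℓ) n) hyO'
    · have : (ℓ : ↥(modularFunctionFieldFull (ℓ * M))) * (jFull (ℓ * M) ^ n * y) =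
          jFull (ℓ * M) ^ n * ((ℓ : ↥(modularFunctionFieldFull (ℓ * M))) * y) := by ring
      rw [this]; exact hn
  have h2 : (jFull (ℓ * M))⁻¹ ∈ chartAlg (ℓ * M) ℓ (insert (jFull (ℓ * M))⁻¹ {jFull (ℓ * M)}) :=
    subset_chartAlg (ℓ * M) ℓ _ (Set.mem_insert _ _)
  have h3 : jFull (ℓ * M) ^ n * y ∈
      chartAlg (ℓ * M) ℓ (insert (jFull (ℓ * M))⁻¹ {jFull (ℓ * M)}) :=
    chartAlg_mono (ℓ * M) ℓ (Set.subset_insert _ _) h1
  have : y = (jFull (ℓ * M))⁻¹ ^ n * (jFull (ℓ * M) ^ n * y) := by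
    rw [← mul_assoc, ← mul_pow, inv_mul_cancel₀ (jFull_ne_zero (ℓ * M)), one_pow, one_mul]
  rw [this]
  exact mul_mem (pow_mem h2 n) h3

/-- **SAT2, chart at infinity** (`ℓ ∥ ℓ M`). -/
theorem inf_kernel2 (y : ↥(modularFunctionFieldFull (ℓ * M)))
    (hyO : (y : LaurentSeries ℚ) ∈ OSub ℓ)
    (hyO' : ((W0 ℓ M hℓM y : ↥(modularFunctionFieldFull (ℓ * M))) : LaurentSeries ℚ) ∈ OSub ℓ)
    (hy : (ℓ : ↥(modularFunctionFieldFull (ℓ * M))) * y ∈
      chartAlg (ℓ * M) ℓ {(jFull (ℓ * M))⁻¹}) :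
    y ∈ chartAlg (ℓ * M) ℓ {(jFull (ℓ * M))⁻¹} := by
  have hmid : y ∈ chartAlg (ℓ * M) ℓ {jFull (ℓ * M), (jFull (ℓ * M))⁻¹} :=
    mid_kernel2 ℓ M hℓM y hyO hyO' (chartAlg_mono (ℓ * M) ℓ (fun x hx => Or.inr hx) hy)
  have hset : ({jFull (ℓ * M), (jFull (ℓ * M))⁻¹} : Set ↥(modularFunctionFieldFull (ℓ * M))) =
      insert ((jFull (ℓ * M))⁻¹)⁻¹ {(jFull (ℓ * M))⁻¹} := by rw [inv_inv]
  rw [hset] at hmid
  obtain ⟨n, hn⟩ := exists_pow_mul_mem_chartAlg (Set.mem_singleton _)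
    (inv_ne_zero (jFull_ne_zero (ℓ * M))) hmid
  apply mem_chartAlg_of_isIntegralElem ℓ (ℓ * M) (jFull (ℓ * M))⁻¹ y
  have h1 := isIntegralElem_of_mem_chartAlg ℓ (ℓ * M) (jFull (ℓ * M))⁻¹ _ hy
  have h2 := isIntegralElem_of_mem_chartAlg ℓ (ℓ * M) (jFull (ℓ * M))⁻¹ _ hn
  rw [coe_natCast_mul] at h1
  have hcoe : (((jFull (ℓ * M))⁻¹ : ↥(modularFunctionFieldFull (ℓ * M))) : LaurentSeries ℚ) =
      jq⁻¹ := rfl
  rw [hcoe] at h1 h2 ⊢
  refine isIntegralElem_of_scaled_Zl ℓ jq⁻¹ helper3292.aeval_jq_inv_injective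
    (y : LaurentSeries ℚ) (Polynomial.X ^ n) ?_ h1 ?_
  · simp
  · have he : evalS ℓ jq⁻¹ (Polynomial.X ^ n) = jq⁻¹ ^ n := by
      rw [map_pow, evalS, Polynomial.coe_eval₂RingHom, Polynomial.eval₂_X]
    rw [he]
    exact h2

/-! ### `W0` preserves integrality -/

theorem coe_algebraMap_rat (r : ℚ) :
    ((algebraMap ℚ ↥(modularFunctionFieldFull (ℓ * M)) r :
      ↥(modularFunctionFieldFull (ℓ * M))) : LaurentSeries ℚ) =
      algebraMap ℚ (LaurentSeries ℚ) r := by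
  rw [eq_ratCast, eq_ratCast]
  rfl

theorem W0_algebraMap_rat (r : ℚ) :
    W0 ℓ M hℓM (algebraMap ℚ ↥(modularFunctionFieldFull (ℓ * M)) r) =
      algebraMap ℚ ↥(modularFunctionFieldFull (ℓ * M)) r := by
  have h : IsALRat ℓ M hℓM
      ((algebraMap ℚ ↥(modularFunctionFieldFull (ℓ * M)) r :
        ↥(modularFunctionFieldFull (ℓ * M))) : LaurentSeries ℚ)
      ((algebraMap ℚ ↥(modularFunctionFieldFull (ℓ * M)) r :
        ↥(modularFunctionFieldFull (ℓ * M))) : LaurentSeries ℚ) := by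
    rw [coe_algebraMap_rat]
    exact IsALRat.const (ℓ := ℓ) (M := M) (hℓM := hℓM) r
  exact Subtype.ext (W0fun_eq ℓ M hℓM h)

/-- `W0` as a `ℤ_(ℓ)`-algebra hom. -/
def W0alg : ↥(modularFunctionFieldFull (ℓ * M)) →ₐ[Zl ℓ] ↥(modularFunctionFieldFull (ℓ * M)) :=
  { W0 ℓ M hℓM with
    commutes' := fun a => by
      have h1 : algebraMap (Zl ℓ) ↥(modularFunctionFieldFull (ℓ * M)) a =
          algebraMap ℚ ↥(modularFunctionFieldFull (ℓ * M)) (algebraMap (Zl ℓ) ℚ a) :=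
        IsScalarTower.algebraMap_apply _ _ _ _
      show W0 ℓ M hℓM _ = _
      rw [h1, W0_algebraMap_rat] }

theorem W0alg_apply (x : ↥(modularFunctionFieldFull (ℓ * M))) :
    W0alg ℓ M hℓM x = W0 ℓ M hℓM x := rfl

/-- `W_ℓ` maps the chart of `S` into the chart of `W_ℓ S`. -/
theorem W0_mem_chartAlg (S : Set ↥(modularFunctionFieldFull (ℓ * M)))
    {x : ↥(modularFunctionFieldFull (ℓ * M))} (hx : x ∈ chartAlg (ℓ * M) ℓ S) :
    W0 ℓ M hℓM x ∈ chartAlg (ℓ * M) ℓ (W0 ℓ M hℓM '' S) := by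
  rw [mem_chartAlg_iff] at hx ⊢
  have hmap : ∀ y : ↥(Algebra.adjoin (Zl ℓ) S),
      (W0 ℓ M hℓM).comp (Algebra.adjoin (Zl ℓ) S).val.toRingHom y ∈
        Algebra.adjoin (Zl ℓ) (W0 ℓ M hℓM '' S) := by
    intro y
    have h : W0alg ℓ M hℓM y.1 ∈ (Algebra.adjoin (Zl ℓ) S).map (W0alg ℓ M hℓM) :=
      ⟨y.1, y.2, rfl⟩
    rw [← Algebra.adjoin_image] at h
    exact h
  exact hx.map_of_comp_eq
    (RingHom.codRestrict ((W0 ℓ M hℓM).comp (Algebra.adjoin (Zl ℓ) S).val.toRingHom)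
      (Algebra.adjoin (Zl ℓ) (W0 ℓ M hℓM '' S)) hmap)
    (W0 ℓ M hℓM) (by ext; rfl)

/-- The `W_ℓ`-expansion of an element of the finite chart is Gauss-integral. -/
theorem coe_W0_mem_OSub_fin {x : ↥(modularFunctionFieldFull (ℓ * M))}
    (hx : x ∈ chartAlg (ℓ * M) ℓ {jFull (ℓ * M)}) :
    ((W0 ℓ M hℓM x : ↥(modularFunctionFieldFull (ℓ * M))) : LaurentSeries ℚ) ∈ OSub ℓ := by
  refine coe_mem_OSub_of_mem_chartAlg ℓ (ℓ * M) _ ?_ _ (W0_mem_chartAlg ℓ M hℓM _ hx)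
  rintro s ⟨t, rfl, rfl⟩
  rw [coe_W0_jFull]
  exact toQ_jl_mem_OSub ℓ

theorem coe_W0_jFull_inv :
    ((W0 ℓ M hℓM (jFull (ℓ * M))⁻¹ : ↥(modularFunctionFieldFull (ℓ * M))) : LaurentSeries ℚ) =
      (Spec.toQ (qExpand ℤ ℓ (jqModC ℤ)))⁻¹ := by
  rw [map_inv₀, ← coe_W0_jFull ℓ M hℓM]
  rfl

/-- The `W_ℓ`-expansion of an element of the chart at infinity is Gauss-integral. -/
theorem coe_W0_mem_OSub_inf {x : ↥(modularFunctionFieldFull (ℓ * M))}
    (hx : x ∈ chartAlg (ℓ * M) ℓ {(jFull (ℓ * M))⁻¹}) :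
    ((W0 ℓ M hℓM x : ↥(modularFunctionFieldFull (ℓ * M))) : LaurentSeries ℚ) ∈ OSub ℓ := by
  refine coe_mem_OSub_of_mem_chartAlg ℓ (ℓ * M) _ ?_ _ (W0_mem_chartAlg ℓ M hℓM _ hx)
  rintro s ⟨t, rfl, rfl⟩
  rw [coe_W0_jFull_inv]
  exact toQ_jl_inv_mem_OSub ℓ

/-- The `W_ℓ`-expansion of an element of the overlap chart is Gauss-integral. -/
theorem coe_W0_mem_OSub_mid {x : ↥(modularFunctionFieldFull (ℓ * M))}
    (hx : x ∈ chartAlg (ℓ * M) ℓ {jFull (ℓ * M), (jFull (ℓ * M))⁻¹}) :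
    ((W0 ℓ M hℓM x : ↥(modularFunctionFieldFull (ℓ * M))) : LaurentSeries ℚ) ∈ OSub ℓ := by
  refine coe_mem_OSub_of_mem_chartAlg ℓ (ℓ * M) _ ?_ _ (W0_mem_chartAlg ℓ M hℓM _ hx)
  rintro s ⟨t, ht, rfl⟩
  rcases ht with rfl | rfl
  · rw [coe_W0_jFull]
    exact toQ_jl_mem_OSub ℓ
  · rw [coe_W0_jFull_inv]
    exact toQ_jl_inv_mem_OSub ℓ

end Fermat.Agent.S33.helper5528
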