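import Fermat.Agent.S33.helper5528_TwoChartSat
import Fermat.Agent.S19.helper7154_UnitBall

/-!
# S33, leaf DICTINT-SS, part C (helper5528): the two-valuation unit ball of the charts at `ℓ ∥ ℓ M`

`F = ℚ(X₀(ℓ M))`, `ℓ ∤ M`, `W0 = W_ℓ` on `F` (part B).  Every function has two `q`-expansions:
its own (cusp `∞`) and that of its Atkin–Lehner transform (cusp `0`).

* `IsCoeffLattice2` : a `ℤ_(ℓ)`-subalgebra `S ⊆ F` whose elements have `ℤ_(ℓ)`-integral expansions
  at BOTH cusps and which is saturated for this property (`isCoeffLattice2_chartAlgFin/Inf/Mid`: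
  the three Prelude charts at level `ℓ M`, from SAT2 of part B).
* `IsCoeffLattice2.exists_comb_of_coeff_mem` (**MAIN2**): for any field `L ⊇ ℚ` and any additive
  subgroup `I ⊆ L` stable under `ℤ_(ℓ)`: a finite combination `∑ a_p ι(s_p)` (`a_p ∈ L`,
  `s_p ∈ S`) all of whose coefficients in BOTH expansions lie in `I` is a combination with
  coefficients `a'_p ∈ I` (the same in both expansions).
  Proof: `helper7154.mem_range_rTensor_of_coeffPairing_mem` (purity over the PID `ℤ_(ℓ)`) for the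
  coefficient map `S → (ℤ ⊕ ℤ → ℤ_(ℓ))` of both expansions.
* valuation forms (closed / open balls, unit ball, reduction injectivity, saturation by `c`) and
  the Gauss-ring form `exists_comb_of_mem_gaussRing` (integral for BOTH Gauss valuations).
* `comb_eq_zero_of_linearIndependent` : linear disjointness of constants and `F` (any level).
-/

set_option autoImplicit false
set_option linter.unusedSectionVars false

noncomputable section

open ModularCurve ModularCurve.IgusaScheme TensorProduct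

namespace Fermat.Agent.S33.helper5528

open Fermat.Agent.S28 Fermat.Agent.S28.helper1588
open Fermat.Agent.S19.helper7154

/-! ### Linear disjointness (any level) -/

/-- **Linear disjointness** of the constants and the rational function field: a combination
`∑ ω_p ι(s_p)` with `ℚ`-linearly independent constants `ω_p` vanishes only if all `s_p = 0`. -/
theorem comb_eq_zero_of_linearIndependent {N : ℕ} {L : Type*} [Field L] [Algebra ℚ L] {n : ℕ}
    (ω : Fin n → L) (hω : LinearIndependent ℚ ω) (s : Fin n → ↥(modularFunctionFieldFull N))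
    (h : comb L ω s = 0) : ∀ p, s p = 0 := by
  intro p
  apply Subtype.ext
  ext k
  have hk : (comb L ω s).coeff k = 0 := by rw [h, HahnSeries.coeff_zero]
  rw [comb_coeff] at hk
  have h2 : ∑ q, ((s q : LaurentSeries ℚ).coeff k) • ω q = 0 := by
    rw [← hk]
    refine Finset.sum_congr rfl fun q _ => ?_
    rw [Algebra.smul_def, mul_comm]
  exact Fintype.linearIndependent_iff.mp hω _ h2 p

variable (ℓ M : ℕ) [Fact ℓ.Prime] [NeZero M] (hℓM : ¬ ℓ ∣ M)

/-! ### `ℤ_(ℓ)`-integrality of the second expansion -/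

theorem isZlIntegral_toQ (x : LaurentSeries ℤ) : IsZlIntegral ℓ (Spec.toQ x) := by
  rw [isZlIntegral_iff]
  exact ⟨liftZ ℓ x, incl_liftZ ℓ x⟩

theorem toQ_jl_inv :
    (Spec.toQ (qExpand ℤ ℓ (jqModC ℤ)))⁻¹ =
      Spec.toQ (qExpand ℤ ℓ (Fermat.Agent.S28.helper3292.jInvSeries ℤ)) := by
  have h1 := congrArg (fun x => Spec.toQ (qExpand ℤ ℓ x))
    (Fermat.Agent.S28.helper3292.jInvSeries_mul_jqModC ℤ)
  simp only [map_mul, map_one] at h1
  exact (eq_inv_of_mul_eq_one_left h1).symm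

theorem isZlIntegral_toQ_jl_inv :
    IsZlIntegral ℓ (Spec.toQ (qExpand ℤ ℓ (jqModC ℤ)))⁻¹ := by
  rw [toQ_jl_inv]
  exact isZlIntegral_toQ ℓ _

/-- The `W_ℓ`-expansions of the elements of a chart are `ℤ_(ℓ)`-integral as soon as those of
its generators are. -/
theorem isZlIntegral_W0_of_mem_chartAlg (S : Set ↥(modularFunctionFieldFull (ℓ * M)))
    (hS : ∀ s ∈ S, IsZlIntegral ℓ
      ((W0 ℓ M hℓM s : ↥(modularFunctionFieldFull (ℓ * M))) : LaurentSeries ℚ))
    {x : ↥(modularFunctionFieldFull (ℓ * M))} (hx : x ∈ chartAlg (ℓ * M) ℓ S) :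
    IsZlIntegral ℓ ((W0 ℓ M hℓM x : ↥(modularFunctionFieldFull (ℓ * M))) : LaurentSeries ℚ) :=
  isZlIntegral_of_mem_chartAlg ℓ (ℓ * M) (W0 ℓ M hℓM '' S)
    (by rintro s ⟨t, ht, rfl⟩; exact hS t ht) _ (W0_mem_chartAlg ℓ M hℓM S hx)

theorem isZlIntegral_W0_jFull :
    IsZlIntegral ℓ ((W0 ℓ M hℓM (jFull (ℓ * M)) : ↥(modularFunctionFieldFull (ℓ * M))) :
      LaurentSeries ℚ) := by
  rw [coe_W0_jFull]
  exact isZlIntegral_toQ ℓ _

theorem isZlIntegral_W0_jFull_inv :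
    IsZlIntegral ℓ ((W0 ℓ M hℓM (jFull (ℓ * M))⁻¹ : ↥(modularFunctionFieldFull (ℓ * M))) :
      LaurentSeries ℚ) := by
  rw [coe_W0_jFull_inv]
  exact isZlIntegral_toQ_jl_inv ℓ

/-! ### Two-expansion coefficient lattices -/

/-- A `ℤ_(ℓ)`-subalgebra of `ℚ(X₀(ℓ M))` is a *two-expansion coefficient lattice* if its elements
have `ℓ`-integral `q`-expansions at both cusps (`∞`, and `0` via `W_ℓ`) and it is saturated in
the functions with this property. -/
structure IsCoeffLattice2 (S : Subalgebra (Zl ℓ) ↥(modularFunctionFieldFull (ℓ * M))) : Prop where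
  int : ∀ x ∈ S, IsZlIntegral ℓ ((x : ↥(modularFunctionFieldFull (ℓ * M))) : LaurentSeries ℚ)
  int' : ∀ x ∈ S, IsZlIntegral ℓ
    ((W0 ℓ M hℓM x : ↥(modularFunctionFieldFull (ℓ * M))) : LaurentSeries ℚ)
  sat : ∀ y : ↥(modularFunctionFieldFull (ℓ * M)), IsZlIntegral ℓ (y : LaurentSeries ℚ) →
    IsZlIntegral ℓ ((W0 ℓ M hℓM y : ↥(modularFunctionFieldFull (ℓ * M))) : LaurentSeries ℚ) →
    (ℓ : ↥(modularFunctionFieldFull (ℓ * M))) * y ∈ S → y ∈ S

theorem isCoeffLattice2_chartAlgFin :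
    IsCoeffLattice2 ℓ M hℓM (chartAlgFin (ℓ * M) ℓ) where
  int := isZlIntegral_of_mem_chartAlg ℓ (ℓ * M) _ (by rintro s rfl; exact isZlIntegral_jq ℓ)
  int' := fun x hx => isZlIntegral_W0_of_mem_chartAlg ℓ M hℓM _
    (by rintro s rfl; exact isZlIntegral_W0_jFull ℓ M hℓM) hx
  sat := fun y hy hy' h => fin_kernel2 ℓ M hℓM y hy.mem_OSub hy'.mem_OSub h

theorem isCoeffLattice2_chartAlgInf :
    IsCoeffLattice2 ℓ M hℓM (chartAlgInf (ℓ * M) ℓ) where
  int := isZlIntegral_of_mem_chartAlg ℓ (ℓ * M) _ (by rintro s rfl; exact isZlIntegral_jq_inv ℓ)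
  int' := fun x hx => isZlIntegral_W0_of_mem_chartAlg ℓ M hℓM _
    (by rintro s rfl; exact isZlIntegral_W0_jFull_inv ℓ M hℓM) hx
  sat := fun y hy hy' h => inf_kernel2 ℓ M hℓM y hy.mem_OSub hy'.mem_OSub h

theorem isCoeffLattice2_chartAlgMid :
    IsCoeffLattice2 ℓ M hℓM (chartAlgMid (ℓ * M) ℓ) where
  int := isZlIntegral_of_mem_chartAlg ℓ (ℓ * M) _ (by
    rintro s (rfl | rfl)
    · exact isZlIntegral_jq ℓ
    · exact isZlIntegral_jq_inv ℓ)
  int' := fun x hx => isZlIntegral_W0_of_mem_chartAlg ℓ M hℓM _ (by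
    rintro s (rfl | rfl)
    · exact isZlIntegral_W0_jFull ℓ M hℓM
    · exact isZlIntegral_W0_jFull_inv ℓ M hℓM) hx
  sat := fun y hy hy' h => mid_kernel2 ℓ M hℓM y hy.mem_OSub hy'.mem_OSub h

/-! ### The coefficient map of both expansions -/

section Lattice

variable {ℓ M hℓM}
variable {S : Subalgebra (Zl ℓ) ↥(modularFunctionFieldFull (ℓ * M))}

theorem W0_smul (r : Zl ℓ) (x : ↥(modularFunctionFieldFull (ℓ * M))) :
    W0 ℓ M hℓM (r • x) = r • W0 ℓ M hℓM x := by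
  rw [Algebra.smul_def, Algebra.smul_def, map_mul]
  congr 1
  exact (W0alg ℓ M hℓM).commutes r

/-- The `q`-expansion coefficients at both cusps, as a `ℤ_(ℓ)`-linear map. -/
def IsCoeffLattice2.coeffLin2 (hS : IsCoeffLattice2 ℓ M hℓM S) :
    ↥S →ₗ[Zl ℓ] (ℤ ⊕ ℤ → Zl ℓ) where
  toFun s := Sum.elim
    (fun k => ⟨((s : ↥(modularFunctionFieldFull (ℓ * M))) : LaurentSeries ℚ).coeff k,
      hS.int s s.2 k⟩)
    (fun k => ⟨((W0 ℓ M hℓM (s : ↥(modularFunctionFieldFull (ℓ * M))) :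
      ↥(modularFunctionFieldFull (ℓ * M))) : LaurentSeries ℚ).coeff k, hS.int' s s.2 k⟩)
  map_add' s s' := by
    funext x
    rcases x with k | k
    · apply Subtype.ext
      rfl
    · apply Subtype.ext
      show ((W0 ℓ M hℓM ((s : ↥(modularFunctionFieldFull (ℓ * M))) + s') :
        ↥(modularFunctionFieldFull (ℓ * M))) : LaurentSeries ℚ).coeff k = _
      rw [map_add]
      rfl
  map_smul' r s := by
    funext x
    rcases x with k | k
    · apply Subtype.ext
      exact coeff_coe_smul r (s : ↥(modularFunctionFieldFull (ℓ * M))) k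
    · apply Subtype.ext
      show ((W0 ℓ M hℓM (r • (s : ↥(modularFunctionFieldFull (ℓ * M)))) :
        ↥(modularFunctionFieldFull (ℓ * M))) : LaurentSeries ℚ).coeff k = _
      rw [W0_smul]
      exact coeff_coe_smul r (W0 ℓ M hℓM (s : ↥(modularFunctionFieldFull (ℓ * M)))) k

theorem IsCoeffLattice2.coe_coeffLin2_inl (hS : IsCoeffLattice2 ℓ M hℓM S) (s : ↥S) (k : ℤ) :
    ((hS.coeffLin2 s (Sum.inl k) : Zl ℓ) : ℚ) =
      ((s : ↥(modularFunctionFieldFull (ℓ * M))) : LaurentSeries ℚ).coeff k := rfl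

theorem IsCoeffLattice2.coe_coeffLin2_inr (hS : IsCoeffLattice2 ℓ M hℓM S) (s : ↥S) (k : ℤ) :
    ((hS.coeffLin2 s (Sum.inr k) : Zl ℓ) : ℚ) =
      ((W0 ℓ M hℓM (s : ↥(modularFunctionFieldFull (ℓ * M))) :
        ↥(modularFunctionFieldFull (ℓ * M))) : LaurentSeries ℚ).coeff k := rfl

theorem IsCoeffLattice2.coeffLin2_injective (hS : IsCoeffLattice2 ℓ M hℓM S) :
    Function.Injective hS.coeffLin2 := by
  intro s s' h
  apply Subtype.ext
  apply Subtype.ext
  ext k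
  exact congrArg Subtype.val (congrFun h (Sum.inl k))

/-- If `ℓ u = v` and all coefficients of `v` are divisible by `ℓ` in `ℤ_(ℓ)`, then `u` has
`ℓ`-integral coefficients. -/
theorem isZlIntegral_of_natCast_mul_eq {u v : ↥(modularFunctionFieldFull (ℓ * M))}
    (h1 : (ℓ : ↥(modularFunctionFieldFull (ℓ * M))) * u = v)
    (h : ∀ k, ∃ d : Zl ℓ, (v : LaurentSeries ℚ).coeff k = (ℓ : ℚ) * (d : ℚ)) :
    IsZlIntegral ℓ (u : LaurentSeries ℚ) := by
  have hℓ0 : (ℓ : ℚ) ≠ 0 := by exact_mod_cast (Fact.out : ℓ.Prime).ne_zero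
  intro k
  obtain ⟨d, hd⟩ := h k
  have h2 : (ℓ : ℚ) * (u : LaurentSeries ℚ).coeff k = (v : LaurentSeries ℚ).coeff k := by
    rw [← h1, coe_natCast_mul]
    have h3 : ((ℓ : ℕ) : LaurentSeries ℚ) = algebraMap ℚ (LaurentSeries ℚ) (ℓ : ℚ) := by
      rw [map_natCast]
    rw [h3, Fermat.Agent.S28.helper3292.coeff_algebraMap_mul]
  have h4 : (u : LaurentSeries ℚ).coeff k = (d : ℚ) := mul_left_cancel₀ hℓ0 (h2.trans hd)
  rw [h4]
  exact d.2

theorem IsCoeffLattice2.coeffLin2_sat (hS : IsCoeffLattice2 ℓ M hℓM S) (t : ↥S)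
    (h : ∀ x, ((ℓ : ℕ) : Zl ℓ) ∣ hS.coeffLin2 t x) : ∃ t' : ↥S, t = ((ℓ : ℕ) : Zl ℓ) • t' := by
  have hl0 : (ℓ : ↥(modularFunctionFieldFull (ℓ * M))) ≠ 0 :=
    Nat.cast_ne_zero.mpr (Fact.out : ℓ.Prime).ne_zero
  obtain ⟨y, hy⟩ : ∃ y : ↥(modularFunctionFieldFull (ℓ * M)),
      y = (ℓ : ↥(modularFunctionFieldFull (ℓ * M)))⁻¹ *
        (t : ↥(modularFunctionFieldFull (ℓ * M))) := ⟨_, rfl⟩
  have h1 : (ℓ : ↥(modularFunctionFieldFull (ℓ * M))) * y = t := by
    rw [hy, mul_inv_cancel_left₀ hl0]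
  have h1' : (ℓ : ↥(modularFunctionFieldFull (ℓ * M))) * W0 ℓ M hℓM y =
      W0 ℓ M hℓM (t : ↥(modularFunctionFieldFull (ℓ * M))) := by
    rw [← h1, map_mul, map_natCast]
  have hcast : ∀ d : Zl ℓ, ((((ℓ : ℕ) : Zl ℓ) * d : Zl ℓ) : ℚ) = (ℓ : ℚ) * (d : ℚ) := by
    intro d
    push_cast
    rfl
  have hyint : IsZlIntegral ℓ (y : LaurentSeries ℚ) := by
    refine isZlIntegral_of_natCast_mul_eq h1 fun k => ?_
    obtain ⟨d, hd⟩ := h (Sum.inl k)
    exact ⟨d, by rw [← hS.coe_coeffLin2_inl, hd, hcast]⟩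
  have hyint' : IsZlIntegral ℓ
      ((W0 ℓ M hℓM y : ↥(modularFunctionFieldFull (ℓ * M))) : LaurentSeries ℚ) := by
    refine isZlIntegral_of_natCast_mul_eq h1' fun k => ?_
    obtain ⟨d, hd⟩ := h (Sum.inr k)
    exact ⟨d, by rw [← hS.coe_coeffLin2_inr, hd, hcast]⟩
  have hyS : y ∈ S := hS.sat y hyint hyint' (by rw [h1]; exact t.2)
  refine ⟨⟨y, hyS⟩, ?_⟩
  apply Subtype.ext
  show (t : ↥(modularFunctionFieldFull (ℓ * M))) = ((ℓ : ℕ) : Zl ℓ) • y
  rw [Algebra.smul_def, map_natCast, h1]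

end Lattice

/-! ### MAIN2 -/

section Main

variable {ℓ M hℓM}
variable {S : Subalgebra (Zl ℓ) ↥(modularFunctionFieldFull (ℓ * M))}
variable {L : Type*} [Field L] [Algebra ℚ L]

theorem IsCoeffLattice2.coeffPairing_sum_inl (hS : IsCoeffLattice2 ℓ M hℓM S) {n : ℕ}
    (a : Fin n → L) (s : Fin n → ↥S) (k : ℤ) :
    coeffPairing hS.coeffLin2 (∑ p, a p ⊗ₜ[Zl ℓ] s p) (Sum.inl k) =
      (comb L a (fun p => (s p : ↥(modularFunctionFieldFull (ℓ * M))))).coeff k := by
  rw [map_sum, Finset.sum_apply, comb_coeff]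
  refine Finset.sum_congr rfl fun p _ => ?_
  rw [coeffPairing_tmul, zl_smul_eq, hS.coe_coeffLin2_inl, mul_comm]

theorem IsCoeffLattice2.coeffPairing_sum_inr (hS : IsCoeffLattice2 ℓ M hℓM S) {n : ℕ}
    (a : Fin n → L) (s : Fin n → ↥S) (k : ℤ) :
    coeffPairing hS.coeffLin2 (∑ p, a p ⊗ₜ[Zl ℓ] s p) (Sum.inr k) =
      (comb L a (fun p => W0 ℓ M hℓM (s p : ↥(modularFunctionFieldFull (ℓ * M))))).coeff k := by
  rw [map_sum, Finset.sum_apply, comb_coeff]
  refine Finset.sum_congr rfl fun p _ => ?_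
  rw [coeffPairing_tmul, zl_smul_eq, hS.coe_coeffLin2_inr, mul_comm]

/-- **MAIN2 (purity of a two-expansion lattice).**  Let `S` be a two-expansion coefficient
lattice (e.g. one of the three Igusa charts at level `ℓ M`, `ℓ ∤ M`), `L` a field of
characteristic zero and `I ⊆ L` an additive subgroup stable under `ℤ_(ℓ)`.  If all coefficients
of BOTH expansions of a finite combination `f = ∑ a_p ι(s_p)` (`a_p ∈ L`, `s_p ∈ S`) lie in
`I`, then `f = ∑ a'_p ι(s'_p)` with `a'_p ∈ I`, `s'_p ∈ S` (and the same identity holds for the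
second expansions). -/
theorem IsCoeffLattice2.exists_comb_of_coeff_mem (hS : IsCoeffLattice2 ℓ M hℓM S)
    (I : AddSubgroup L)
    (hI : ∀ r ∈ GaloisRep.ratLocalizedAt ℓ, ∀ x ∈ I, algebraMap ℚ L r * x ∈ I)
    {n : ℕ} (a : Fin n → L) (s : Fin n → ↥(modularFunctionFieldFull (ℓ * M)))
    (hs : ∀ p, s p ∈ S)
    (hcoef : ∀ k : ℤ, (comb L a s).coeff k ∈ I)
    (hcoef' : ∀ k : ℤ, (comb L a (fun p => W0 ℓ M hℓM (s p))).coeff k ∈ I) :
    ∃ (m : ℕ) (a' : Fin m → L) (s' : Fin m → ↥(modularFunctionFieldFull (ℓ * M))),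
      (∀ p, a' p ∈ I) ∧ (∀ p, s' p ∈ S) ∧ comb L a s = comb L a' s' ∧
        comb L a (fun p => W0 ℓ M hℓM (s p)) = comb L a' (fun p => W0 ℓ M hℓM (s' p)) := by
  classical
  let I' : Submodule (Zl ℓ) L :=
    { carrier := I
      add_mem' := I.add_mem
      zero_mem' := I.zero_mem
      smul_mem' := fun r x hx => by
        show r • x ∈ I
        rw [zl_smul_eq]
        exact hI _ r.2 x hx }
  have hsat := saturated_of_irreducible (Fermat.Agent.S28.helper508.irreducible_ell ℓ)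
    hS.coeffLin2 hS.coeffLin2_sat
  let z : L ⊗[Zl ℓ] ↥S := ∑ p, a p ⊗ₜ[Zl ℓ] (⟨s p, hs p⟩ : ↥S)
  have hzc : ∀ k, coeffPairing hS.coeffLin2 z (Sum.inl k) = (comb L a s).coeff k := fun k =>
    hS.coeffPairing_sum_inl a (fun p => (⟨s p, hs p⟩ : ↥S)) k
  have hzc' : ∀ k, coeffPairing hS.coeffLin2 z (Sum.inr k) =
      (comb L a (fun p => W0 ℓ M hℓM (s p))).coeff k := fun k =>
    hS.coeffPairing_sum_inr a (fun p => (⟨s p, hs p⟩ : ↥S)) k
  have hz : ∀ x, coeffPairing hS.coeffLin2 z x ∈ I' := fun x => by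
    rcases x with k | k
    · rw [hzc k]
      exact hcoef k
    · rw [hzc' k]
      exact hcoef' k
  obtain ⟨z', hz'⟩ := mem_range_rTensor_of_coeffPairing_mem hS.coeffLin2 hS.coeffLin2_injective
    hsat I' z hz
  obtain ⟨S', rfl⟩ := TensorProduct.exists_finset z'
  have hz2 : z = ∑ i : Fin S'.card, (((S'.equivFin.symm i : ↥S') : ↥I' × ↥S).1 : L) ⊗ₜ[Zl ℓ]
      ((S'.equivFin.symm i : ↥S') : ↥I' × ↥S).2 := by
    rw [← hz', map_sum]
    simp only [LinearMap.rTensor_tmul, Submodule.subtype_apply]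
    rw [← Finset.sum_coe_sort S' (fun q => ((q.1 : ↥I') : L) ⊗ₜ[Zl ℓ] q.2)]
    exact (Equiv.sum_comp S'.equivFin.symm _).symm
  refine ⟨S'.card, fun i => (((S'.equivFin.symm i : ↥S') : ↥I' × ↥S).1 : L),
    fun i => (((S'.equivFin.symm i : ↥S') : ↥I' × ↥S).2 : ↥(modularFunctionFieldFull (ℓ * M))),
    fun i => ((S'.equivFin.symm i : ↥S') : ↥I' × ↥S).1.2,
    fun i => ((S'.equivFin.symm i : ↥S') : ↥I' × ↥S).2.2, ?_, ?_⟩
  · ext k
    rw [← hzc k, hz2]
    exact hS.coeffPairing_sum_inl _ _ k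
  · ext k
    rw [← hzc' k, hz2]
    exact hS.coeffPairing_sum_inr _ _ k

end Main

/-! ### Valuation forms -/

section Valuation

variable {ℓ M hℓM}
variable {S : Subalgebra (Zl ℓ) ↥(modularFunctionFieldFull (ℓ * M))}
variable {L : Type*} [Field L] [Algebra ℚ L]

/-- **Closed balls.**  If all coefficients of both expansions of `f = ∑ a_p ι(s_p)` have
valuation `≤ γ`, then `f = ∑ a'_p ι(s'_p)` with `v(a'_p) ≤ γ`. -/
theorem IsCoeffLattice2.exists_comb_valuation_le (hS : IsCoeffLattice2 ℓ M hℓM S)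
    (A : ValuationSubring L) (hA : A.LiesOverPrime ℓ) (γ : A.ValueGroup)
    {n : ℕ} (a : Fin n → L) (s : Fin n → ↥(modularFunctionFieldFull (ℓ * M)))
    (hs : ∀ p, s p ∈ S)
    (hcoef : ∀ k : ℤ, A.valuation ((comb L a s).coeff k) ≤ γ)
    (hcoef' : ∀ k : ℤ, A.valuation ((comb L a (fun p => W0 ℓ M hℓM (s p))).coeff k) ≤ γ) :
    ∃ (m : ℕ) (a' : Fin m → L) (s' : Fin m → ↥(modularFunctionFieldFull (ℓ * M))),
      (∀ p, A.valuation (a' p) ≤ γ) ∧ (∀ p, s' p ∈ S) ∧ comb L a s = comb L a' s' ∧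
        comb L a (fun p => W0 ℓ M hℓM (s p)) = comb L a' (fun p => W0 ℓ M hℓM (s' p)) :=
  hS.exists_comb_of_coeff_mem (ballLE A γ)
    (fun _ hr x hx => (valuation_algebraMap_mul_le A hA hr x).trans hx) a s hs hcoef hcoef'

/-- **Open balls.** -/
theorem IsCoeffLattice2.exists_comb_valuation_lt (hS : IsCoeffLattice2 ℓ M hℓM S)
    (A : ValuationSubring L) (hA : A.LiesOverPrime ℓ) (γ : A.ValueGroup)
    {n : ℕ} (a : Fin n → L) (s : Fin n → ↥(modularFunctionFieldFull (ℓ * M)))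
    (hs : ∀ p, s p ∈ S)
    (hcoef : ∀ k : ℤ, A.valuation ((comb L a s).coeff k) < γ)
    (hcoef' : ∀ k : ℤ, A.valuation ((comb L a (fun p => W0 ℓ M hℓM (s p))).coeff k) < γ) :
    ∃ (m : ℕ) (a' : Fin m → L) (s' : Fin m → ↥(modularFunctionFieldFull (ℓ * M))),
      (∀ p, A.valuation (a' p) < γ) ∧ (∀ p, s' p ∈ S) ∧ comb L a s = comb L a' s' ∧
        comb L a (fun p => W0 ℓ M hℓM (s p)) = comb L a' (fun p => W0 ℓ M hℓM (s' p)) := by
  have hγ : γ ≠ 0 := fun h0 => not_lt_zero (h0 ▸ hcoef 0)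
  exact hS.exists_comb_of_coeff_mem (ballLT A γ hγ)
    (fun _ hr x hx => (mem_ballLT A γ hγ).mpr
      (lt_of_le_of_lt (valuation_algebraMap_mul_le A hA hr x) ((mem_ballLT A γ hγ).mp hx)))
    a s hs (fun k => (mem_ballLT A γ hγ).mpr (hcoef k))
    (fun k => (mem_ballLT A γ hγ).mpr (hcoef' k))

/-- **The two-valuation unit ball, coefficient form.**  A finite `L`-combination of chart
functions all of whose coefficients in both expansions lie in `A` is an `A`-combination of chart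
functions. -/
theorem IsCoeffLattice2.exists_comb_mem (hS : IsCoeffLattice2 ℓ M hℓM S)
    (A : ValuationSubring L) (hA : A.LiesOverPrime ℓ)
    {n : ℕ} (a : Fin n → L) (s : Fin n → ↥(modularFunctionFieldFull (ℓ * M)))
    (hs : ∀ p, s p ∈ S)
    (hcoef : ∀ k : ℤ, (comb L a s).coeff k ∈ A)
    (hcoef' : ∀ k : ℤ, (comb L a (fun p => W0 ℓ M hℓM (s p))).coeff k ∈ A) :
    ∃ (m : ℕ) (a' : Fin m → L) (s' : Fin m → ↥(modularFunctionFieldFull (ℓ * M))),
      (∀ p, a' p ∈ A) ∧ (∀ p, s' p ∈ S) ∧ comb L a s = comb L a' s' ∧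
        comb L a (fun p => W0 ℓ M hℓM (s p)) = comb L a' (fun p => W0 ℓ M hℓM (s' p)) := by
  obtain ⟨m, a', s', ha', hs', h, h'⟩ := hS.exists_comb_valuation_le A hA 1 a s hs
    (fun k => (A.valuation_le_one_iff _).mpr (hcoef k))
    (fun k => (A.valuation_le_one_iff _).mpr (hcoef' k))
  exact ⟨m, a', s', fun p => (A.valuation_le_one_iff _).mp (ha' p), hs', h, h'⟩

/-- **Injectivity of the two-component reduction.**  A finite combination of chart functions all
of whose coefficients in both expansions lie in the maximal ideal of `A` is a combination of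
chart functions with coefficients in the maximal ideal: `A·S / 𝔪_A·S` embeds in
`κ((q)) × κ((q))`. -/
theorem IsCoeffLattice2.exists_comb_mem_nonunits (hS : IsCoeffLattice2 ℓ M hℓM S)
    (A : ValuationSubring L) (hA : A.LiesOverPrime ℓ)
    {n : ℕ} (a : Fin n → L) (s : Fin n → ↥(modularFunctionFieldFull (ℓ * M)))
    (hs : ∀ p, s p ∈ S)
    (hcoef : ∀ k : ℤ, (comb L a s).coeff k ∈ A.nonunits)
    (hcoef' : ∀ k : ℤ, (comb L a (fun p => W0 ℓ M hℓM (s p))).coeff k ∈ A.nonunits) :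
    ∃ (m : ℕ) (a' : Fin m → L) (s' : Fin m → ↥(modularFunctionFieldFull (ℓ * M))),
      (∀ p, a' p ∈ A.nonunits) ∧ (∀ p, s' p ∈ S) ∧ comb L a s = comb L a' s' ∧
        comb L a (fun p => W0 ℓ M hℓM (s p)) = comb L a' (fun p => W0 ℓ M hℓM (s' p)) := by
  obtain ⟨m, a', s', ha', hs', h, h'⟩ := hS.exists_comb_valuation_lt A hA 1 a s hs
    (fun k => A.mem_nonunits_iff.mp (hcoef k)) (fun k => A.mem_nonunits_iff.mp (hcoef' k))
  exact ⟨m, a', s', fun p => A.mem_nonunits_iff.mpr (ha' p), hs', h, h'⟩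

/-- **Saturation by a constant.**  If all coefficients of both expansions of `f = ∑ a_p ι(s_p)`
are divisible by `c` in `A`, then `f = c · ∑ a'_p ι(s'_p)` with `a'_p ∈ A`. -/
theorem IsCoeffLattice2.exists_comb_of_dvd (hS : IsCoeffLattice2 ℓ M hℓM S)
    (A : ValuationSubring L) (hA : A.LiesOverPrime ℓ) (c : L)
    {n : ℕ} (a : Fin n → L) (s : Fin n → ↥(modularFunctionFieldFull (ℓ * M)))
    (hs : ∀ p, s p ∈ S)
    (hcoef : ∀ k : ℤ, ∃ b ∈ A, (comb L a s).coeff k = c * b)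
    (hcoef' : ∀ k : ℤ, ∃ b ∈ A, (comb L a (fun p => W0 ℓ M hℓM (s p))).coeff k = c * b) :
    ∃ (m : ℕ) (a' : Fin m → L) (s' : Fin m → ↥(modularFunctionFieldFull (ℓ * M))),
      (∀ p, a' p ∈ A) ∧ (∀ p, s' p ∈ S) ∧ comb L a s = HahnSeries.C c * comb L a' s' ∧
        comb L a (fun p => W0 ℓ M hℓM (s p)) =
          HahnSeries.C c * comb L a' (fun p => W0 ℓ M hℓM (s' p)) := by
  have hle : ∀ x : L, (∃ b ∈ A, x = c * b) → A.valuation x ≤ A.valuation c := by
    rintro x ⟨b, hb, rfl⟩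
    rw [map_mul]
    calc A.valuation c * A.valuation b ≤ A.valuation c * 1 :=
          mul_le_mul' le_rfl ((A.valuation_le_one_iff _).mpr hb)
      _ = A.valuation c := mul_one _
  obtain ⟨m, a', s', ha', hs', h, h'⟩ := hS.exists_comb_valuation_le A hA (A.valuation c) a s hs
    (fun k => hle _ (hcoef k)) (fun k => hle _ (hcoef' k))
  rcases eq_or_ne c 0 with rfl | hc
  · refine ⟨m, fun _ => 0, s', fun _ => A.zero_mem, hs', ?_, ?_⟩
    · rw [map_zero, zero_mul]
      ext k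
      obtain ⟨b, -, hk⟩ := hcoef k
      rw [hk, zero_mul, HahnSeries.coeff_zero]
    · rw [map_zero, zero_mul]
      ext k
      obtain ⟨b, -, hk⟩ := hcoef' k
      rw [hk, zero_mul, HahnSeries.coeff_zero]
  · have hdiv : (fun p => c * (a' p / c)) = a' := by
      funext p
      field_simp
    refine ⟨m, fun p => a' p / c, s', fun p => ?_, hs', ?_, ?_⟩
    · rw [← A.valuation_le_one_iff, map_div₀]
      exact div_le_one_of_le₀ (ha' p) zero_le
    · rw [← comb_C_mul, h, hdiv]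
    · rw [← comb_C_mul, h', hdiv]

/-- For a combination of series with `ℓ`-integral coefficients, Gauss-integrality implies that
all coefficients are in `A` (any level; uses only integrality of the `s p`). -/
theorem coeff_mem_of_comb_mem_gaussRing {N : ℕ} (A : ValuationSubring L) (hA : A.LiesOverPrime ℓ)
    {κ : Type*} [Field κ] (π : A →+* κ)
    (hπ0 : ∀ a : A, a ∈ IsLocalRing.maximalIdeal A → π a = 0)
    {n : ℕ} (a : Fin n → L) (s : Fin n → ↥(modularFunctionFieldFull N))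
    (hs : ∀ p, IsZlIntegral ℓ ((s p : ↥(modularFunctionFieldFull N)) : LaurentSeries ℚ))
    (hg : comb L a s ∈ Fermat.Agent.S18.helper8991.gaussRing A π) :
    ∀ k : ℤ, (comb L a s).coeff k ∈ A := by
  by_cases h0 : comb L a s = 0
  · intro k
    rw [h0, HahnSeries.coeff_zero]
    exact A.zero_mem
  · exact Fermat.Agent.S19.helper7154.coeff_mem_of_mem_gaussRing A π hπ0
      (exists_max_coeff_comb A hA a s hs h0) hg

/-- **The two-valuation unit ball of a chart, Gauss form.**  A finite `L`-combination of chart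
functions which is Gauss-integral in BOTH expansions (with respect to a valuation subring `A` of
`L` over `ℓ`) is an `A`-combination of chart functions. -/
theorem IsCoeffLattice2.exists_comb_of_mem_gaussRing (hS : IsCoeffLattice2 ℓ M hℓM S)
    (A : ValuationSubring L) (hA : A.LiesOverPrime ℓ) {κ : Type*} [Field κ] (π : A →+* κ)
    (hπ0 : ∀ a : A, a ∈ IsLocalRing.maximalIdeal A → π a = 0)
    {n : ℕ} (a : Fin n → L) (s : Fin n → ↥(modularFunctionFieldFull (ℓ * M)))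
    (hs : ∀ p, s p ∈ S)
    (hg : comb L a s ∈ Fermat.Agent.S18.helper8991.gaussRing A π)
    (hg' : comb L a (fun p => W0 ℓ M hℓM (s p)) ∈ Fermat.Agent.S18.helper8991.gaussRing A π) :
    ∃ (m : ℕ) (a' : Fin m → L) (s' : Fin m → ↥(modularFunctionFieldFull (ℓ * M))),
      (∀ p, a' p ∈ A) ∧ (∀ p, s' p ∈ S) ∧ comb L a s = comb L a' s' ∧
        comb L a (fun p => W0 ℓ M hℓM (s p)) = comb L a' (fun p => W0 ℓ M hℓM (s' p)) :=
  hS.exists_comb_mem A hA a s hs
    (coeff_mem_of_comb_mem_gaussRing A hA π hπ0 a s (fun p => hS.int _ (hs p)) hg)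
    (coeff_mem_of_comb_mem_gaussRing A hA π hπ0 a _ (fun p => hS.int' _ (hs p)) hg')

end Valuation

end Fermat.Agent.S33.helper5528
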