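import Mathlib
import Fermat.Prelude.Def_FLTPrelim_Ramification
import Fermat.Agent.Lib.helper6879_ResidueQbar

/-!
# S33 (gamma) FINLEVEL: a finite level `P ∩ E` of a place of `ℚ̄` (helper6099)

For a place `P` of `ℚ̄ = AlgebraicClosure ℚ` over a prime `p` and a finite set `T ⊆ ℚ̄` there is a
finite, Galois-stable subfield `E ⊇ T` such that the level ring `P ∩ E` is a discrete valuation
ring: it has a uniformiser `π`, `p = u * π ^ e` with `u` a unit, it is noetherian, every nonzero
element divides a power of `π`, and inertia orbits of elements of `E` are uniformly bounded.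

The DVR property is the landed `Lib/helper6879_ResidueQbar.isDiscreteValuationRing_layer`.
-/

set_option autoImplicit false

namespace Fermat.Agent.S33.helper6099

open Fermat.Agent.Lib

local notation "Qb" => AlgebraicClosure ℚ
local notation "GQ" => (AlgebraicClosure ℚ ≃ₐ[ℚ] AlgebraicClosure ℚ)

attribute [local instance] helper54.isAlgebraic_Qbar helper54.isAlgClosure_Qbar
  helper54.isGalois_Qbar helper54.isIntegral_Qbar

/-- The level ring `P ∩ E` of a valuation subring `P` of `ℚ̄` in a subfield `E`, as a subring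
of `ℚ̄`. -/
noncomputable def levelRing (P : ValuationSubring Qb) (E : IntermediateField ℚ Qb) : Subring Qb :=
  P.toSubring ⊓ E.toSubring

theorem mem_levelRing {P : ValuationSubring Qb} {E : IntermediateField ℚ Qb} {x : Qb} :
    x ∈ levelRing P E ↔ x ∈ P ∧ x ∈ E := Iff.rfl

/-- The level ring is the layer `P ∩ E` of `Lib/helper6879`, viewed inside `ℚ̄`. -/
noncomputable def layerEquivLevelRing (P : ValuationSubring Qb) (E : IntermediateField ℚ Qb) :
    ↥(helper6879.layer P E) ≃+* ↥(levelRing P E) where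
  toFun x := ⟨((x : E) : Qb), ⟨x.2, (x : E).2⟩⟩
  invFun y := ⟨⟨(y : Qb), y.2.2⟩, y.2.1⟩
  left_inv _ := rfl
  right_inv _ := rfl
  map_mul' _ _ := rfl
  map_add' _ _ := rfl

/-- Every finite set of algebraic numbers lies in a finite Galois-stable subfield of `ℚ̄`. -/
theorem exists_stable_field (T : Finset Qb) :
    ∃ E : IntermediateField ℚ Qb, FiniteDimensional ℚ E ∧ (∀ t ∈ T, t ∈ E) ∧
      (∀ s : GQ, ∀ a ∈ E, s a ∈ E) := by
  have hF : FiniteDimensional ℚ ↥(IntermediateField.adjoin ℚ (T : Set Qb)) :=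
    IntermediateField.finiteDimensional_adjoin (K := ℚ) (S := (T : Set Qb))
      (fun x _ => Algebra.IsIntegral.isIntegral x)
  refine ⟨IntermediateField.normalClosure ℚ ↥(IntermediateField.adjoin ℚ (T : Set Qb)) Qb,
    inferInstance, ?_, ?_⟩
  · intro t ht
    exact IntermediateField.le_normalClosure _
      (IntermediateField.subset_adjoin ℚ _ (Finset.mem_coe.mpr ht))
  · intro s a ha
    have hN : Normal ℚ ↥(IntermediateField.normalClosure ℚ
        ↥(IntermediateField.adjoin ℚ (T : Set Qb)) Qb) := normalClosure.normal ℚ _ Qb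
    have h := (IntermediateField.normal_iff_forall_map_le'.1 hN) s
    exact h ⟨a, ha, rfl⟩

/-- Orbits of elements of a number field `E ⊆ ℚ̄` under any subgroup of `Gal(ℚ̄/ℚ)` are finite
of size at most `[E : ℚ]`. -/
theorem orbit_finite_ncard_le (I : Subgroup GQ) (E : IntermediateField ℚ Qb)
    [FiniteDimensional ℚ E] (a : Qb) (ha : a ∈ E) :
    (MulAction.orbit ↥I a).Finite ∧ (MulAction.orbit ↥I a).ncard ≤ Module.finrank ℚ E := by
  have hint : IsIntegral ℚ a := Algebra.IsIntegral.isIntegral a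
  have hne : minpoly ℚ a ≠ 0 := minpoly.ne_zero hint
  have hsub : MulAction.orbit ↥I a ⊆ (minpoly ℚ a).rootSet Qb := by
    rintro _ ⟨g, rfl⟩
    rw [Polynomial.mem_rootSet_of_ne hne]
    change Polynomial.aeval ((g : GQ) a) (minpoly ℚ a) = 0
    rw [Polynomial.aeval_algHom_apply, minpoly.aeval, map_zero]
  have hfin : ((minpoly ℚ a).rootSet Qb).Finite := Polynomial.rootSet_finite _ _
  refine ⟨hfin.subset hsub, ?_⟩
  calc (MulAction.orbit ↥I a).ncard ≤ ((minpoly ℚ a).rootSet Qb).ncard :=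
        Set.ncard_le_ncard hsub hfin
    _ ≤ (minpoly ℚ a).natDegree := by
        rw [Polynomial.rootSet_def, Set.ncard_coe_finset]
        exact (Multiset.toFinset_card_le _).trans (Polynomial.card_roots' _ |>.trans
          (Polynomial.natDegree_map_le))
    _ ≤ Module.finrank ℚ E := by
        have h1 := minpoly.natDegree_le (A := ℚ) (⟨a, ha⟩ : E)
        have h2 := IntermediateField.minpoly_eq (⟨a, ha⟩ : E)
        exact le_of_eq_of_le (congrArg Polynomial.natDegree h2.symm) h1

/-- **(gamma) FINLEVEL.** For a place `P` of `ℚ̄` over a prime `p` and a finite set `T ⊆ ℚ̄`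
there is a finite Galois-stable level `E ⊇ T` at which `P ∩ E` is a discrete valuation ring with
uniformiser `π`, `p = u * π ^ e`, and uniformly bounded inertia orbits. -/
theorem exists_level {p : ℕ} (hp : p.Prime) (P : ValuationSubring Qb) (hP : P.LiesOverPrime p)
    (T : Finset Qb) :
    ∃ (E : IntermediateField ℚ Qb) (π u : Qb) (e : ℕ), FiniteDimensional ℚ E ∧ (∀ t ∈ T, t ∈ E) ∧
      (∀ s : GQ, ∀ a ∈ E, s a ∈ E) ∧ π ∈ E ∧ π ∈ P.nonunits ∧
      (∀ a ∈ E, a ∈ P.nonunits → a * π⁻¹ ∈ P) ∧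
      0 < e ∧ u ∈ E ∧ u ∈ P ∧ u⁻¹ ∈ P ∧ (p : Qb) = u * π ^ e ∧
      IsNoetherianRing ↥(levelRing P E) ∧
      (∀ d ∈ levelRing P E, d ≠ 0 → ∃ r, ∃ b ∈ levelRing P E, π ^ r = d * b) ∧
      ∃ n, ∀ a ∈ E, (MulAction.orbit ↥(P.inertiaSubgroupIn ℚ) a).Finite ∧
        (MulAction.orbit ↥(P.inertiaSubgroupIn ℚ) a).ncard ≤ n := by
  obtain ⟨E, hEfin, hTE, hstab⟩ := exists_stable_field T
  have := hEfin
  have hD : IsDiscreteValuationRing ↥(helper6879.layer P E) :=
    helper6879.isDiscreteValuationRing_layer P E hp.ne_zero hP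
  obtain ⟨ϖ, hϖ⟩ := IsDiscreteValuationRing.exists_irreducible ↥(helper6879.layer P E)
  -- the coercion `D → ℚ̄` is multiplicative
  have hcoe_mul : ∀ x y : ↥(helper6879.layer P E),
      (((x * y : ↥(helper6879.layer P E)) : E) : Qb) = ((x : E) : Qb) * ((y : E) : Qb) :=
    fun _ _ => rfl
  have hcoe_pow : ∀ (x : ↥(helper6879.layer P E)) (n : ℕ),
      (((x ^ n : ↥(helper6879.layer P E)) : E) : Qb) = ((x : E) : Qb) ^ n := fun _ _ => rfl
  have hcoe_one : (((1 : ↥(helper6879.layer P E)) : E) : Qb) = 1 := rfl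
  -- units of `D` give units of `P` in `E`
  have hunit : ∀ v : (↥(helper6879.layer P E))ˣ,
      ((((v⁻¹ : (↥(helper6879.layer P E))ˣ) : ↥(helper6879.layer P E)) : E) : Qb) =
        ((((v : ↥(helper6879.layer P E)) : E) : Qb))⁻¹ := by
    intro v
    apply eq_inv_of_mul_eq_one_left
    rw [← hcoe_mul, Units.inv_mul, hcoe_one]
  have hπ0 : ((ϖ : E) : Qb) ≠ 0 := by
    intro h
    apply hϖ.ne_zero
    apply Subtype.ext
    apply Subtype.ext
    exact h
  -- `p` as an element of `D`
  have hpE : ((p : E) : Qb) = (p : Qb) := by simp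
  have hpD : (p : E) ∈ helper6879.layer P E := by
    rw [helper6879.mem_layer, hpE]
    exact ValuationSubring.nonunits_subset hP
  have hpD0 : (⟨(p : E), hpD⟩ : ↥(helper6879.layer P E)) ≠ 0 := by
    intro h
    have h1 : ((p : E) : Qb) = 0 := congrArg (fun x : ↥(helper6879.layer P E) => ((x : E) : Qb)) h
    rw [hpE] at h1
    exact hp.ne_zero (by exact_mod_cast h1)
  obtain ⟨e, u, hu⟩ := IsDiscreteValuationRing.eq_unit_mul_pow_irreducible hpD0 hϖ
  have hpu : (p : Qb) = (((u : ↥(helper6879.layer P E)) : E) : Qb) * ((ϖ : E) : Qb) ^ e := by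
    have h1 := congrArg (fun x : ↥(helper6879.layer P E) => ((x : E) : Qb)) hu
    simp only [hcoe_mul, hcoe_pow] at h1
    rw [← h1]
    exact hpE.symm
  have hπnon : ((ϖ : E) : Qb) ∈ P.nonunits := by
    rw [← helper6879.mem_nonunits_layer]
    apply ValuationSubring.coe_mem_nonunits_iff.mpr
    exact (IsLocalRing.mem_maximalIdeal _).mpr hϖ.not_isUnit
  refine ⟨E, ((ϖ : E) : Qb), (((u : ↥(helper6879.layer P E)) : E) : Qb), e, hEfin, hTE, hstab,
    (ϖ : E).2, hπnon, ?_, ?_, ((u : ↥(helper6879.layer P E)) : E).2,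
    (u : ↥(helper6879.layer P E)).2, ?_, hpu, ?_, ?_, ?_⟩
  · -- nonunits of `P ∩ E` are divisible by `π`
    intro a ha hanon
    have h1 : (⟨a, ha⟩ : E) ∈ (helper6879.layer P E).nonunits := by
      rw [helper6879.mem_nonunits_layer]
      exact hanon
    have h2 : (⟨(⟨a, ha⟩ : E), ValuationSubring.nonunits_subset h1⟩ : ↥(helper6879.layer P E)) ∈
        IsLocalRing.maximalIdeal ↥(helper6879.layer P E) :=
      ValuationSubring.coe_mem_nonunits_iff.mp h1
    rw [hϖ.maximalIdeal_eq, Ideal.mem_span_singleton'] at h2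
    obtain ⟨b, hb⟩ := h2
    have h3 : a = ((b : E) : Qb) * ((ϖ : E) : Qb) := by
      have := congrArg (fun x : ↥(helper6879.layer P E) => ((x : E) : Qb)) hb
      simp only [hcoe_mul] at this
      exact this.symm
    rw [h3, mul_inv_cancel_right₀ hπ0]
    exact b.2
  · -- `0 < e`
    rcases Nat.eq_zero_or_pos e with he | he
    · exfalso
      rw [he, pow_zero, mul_one] at hu
      have h1 : (p : E) ∈ (helper6879.layer P E).nonunits := by
        rw [helper6879.mem_nonunits_layer, hpE]
        exact hP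
      have h2 : (⟨(p : E), hpD⟩ : ↥(helper6879.layer P E)) ∈
          IsLocalRing.maximalIdeal ↥(helper6879.layer P E) :=
        ValuationSubring.coe_mem_nonunits_iff.mp h1
      exact (IsLocalRing.mem_maximalIdeal _).mp h2 (hu ▸ u.isUnit)
    · exact he
  · -- `u⁻¹ ∈ P`
    rw [← hunit u]
    exact ((u⁻¹ : (↥(helper6879.layer P E))ˣ) : ↥(helper6879.layer P E)).2
  · -- noetherian
    exact isNoetherianRing_of_ringEquiv ↥(helper6879.layer P E) (layerEquivLevelRing P E)
  · -- every nonzero element divides a power of `π`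
    intro d hd hd0
    have hd' : (⟨(⟨d, hd.2⟩ : E), hd.1⟩ : ↥(helper6879.layer P E)) ≠ 0 := by
      intro h
      exact hd0 (congrArg (fun x : ↥(helper6879.layer P E) => ((x : E) : Qb)) h)
    obtain ⟨r, v, hv⟩ := IsDiscreteValuationRing.eq_unit_mul_pow_irreducible hd' hϖ
    have hdv : d = (((v : ↥(helper6879.layer P E)) : E) : Qb) * ((ϖ : E) : Qb) ^ r := by
      have h1 := congrArg (fun x : ↥(helper6879.layer P E) => ((x : E) : Qb)) hv
      simp only [hcoe_mul, hcoe_pow] at h1
      exact h1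
    have hv0 : (((v : ↥(helper6879.layer P E)) : E) : Qb) ≠ 0 := by
      intro h
      apply v.ne_zero
      apply Subtype.ext
      apply Subtype.ext
      exact h
    refine ⟨r, ((((v⁻¹ : (↥(helper6879.layer P E))ˣ) : ↥(helper6879.layer P E)) : E) : Qb),
      ⟨((v⁻¹ : (↥(helper6879.layer P E))ˣ) : ↥(helper6879.layer P E)).2,
        (((v⁻¹ : (↥(helper6879.layer P E))ˣ) : ↥(helper6879.layer P E)) : E).2⟩, ?_⟩
    rw [hunit v, hdv]
    field_simp
  · -- inertia orbits
    exact ⟨Module.finrank ℚ E, fun a ha => orbit_finite_ncard_le (P.inertiaSubgroupIn ℚ) E a ha⟩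

end Fermat.Agent.S33.helper6099
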