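/-
S33-INFADMIT in the KRON carrier (helper6564): the Kronecker conductor for the INF `j`-chart.

`helper2736.kron_conductor_atkinLehner` cannot be applied with `B` = the INF chart ring of level
`M * q` (`hβ` fails).  Here:

* `jBar_inv_mem_gaussTwo`, `admF_mem_gaussTwo`, `gaussTwoRed_admF` : the admissible multiplier
  `f = admF M q` lies in the two-valuation ring and both its Gauss reductions are `1`;
* `infB B1 hf` : the ring `{x ∈ gaussTwo | ∃ n, f ^ n * x ∈ B1}` (for any subring `B1 ∋ f`), with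
  `hB`, `hα`, `hβ` of KRON and the reducer `exists_mem_gaussTwoRed_eq`
  (every `x ∈ infB B1` has the same double reduction as an element of `B1 ∩ gaussTwo`);
* `kron_conductor_infB` : KRON for `R ⊇ red (B1 ∩ gaussTwo)` — chart-ring agnostic form;
* `infChart`, `kron_conductor_inf` : the instance for the integrality-defined INF chart
  (`IsIntegral (Algebra.adjoin ℚ̄ {j⁻¹})`, intersected with the two Gauss rings);
* `finChart`, `kron_conductor_fin` : the FIN companion in the same shape (there `hβ` holds for the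
  chart ring itself).
-/
import Fermat.Agent.S33.helper6564_InfAdmit
import Fermat.Agent.S35.helper2736_KronW

set_option autoImplicit false

open ModularCurve HahnSeries

namespace Fermat.Agent.S33.helper6564

open Fermat.Agent.S18.helper8991 Fermat.Agent.S24.helper24 Fermat.Agent.S35.helper2736

noncomputable section

variable (A : ValuationSubring Kbar) {k : Type*} [Field k] (π : A →+* k)

/-- `j⁻¹` is Gauss-integral at every level. -/
theorem jBar_inv_mem_gaussF (N : ℕ) : (jBar N)⁻¹ ∈ gaussF A π N := by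
  rw [mem_gaussF_iff]
  refine ⟨1, jqModC A, ?_, ?_⟩
  · rw [show red A π (jqModC A) = jqModC k from coeffMap_jqModC _]
    exact jqModC_ne_zero_of_nontrivial k
  · rw [show inc A (jqModC A) = jqModC Kbar from coeffMap_jqModC _, map_one]
    have h1 : (((jBar N)⁻¹ : FN N) : LaurentSeries Kbar) = (jqModC Kbar)⁻¹ := by
      rw [← coe_jBar_eq N]; rfl
    rw [h1, inv_mul_cancel₀ (jqModC_ne_zero_of_nontrivial Kbar)]

variable (M q : ℕ) [NeZero M] [NeZero q] (h : Nat.Coprime q M)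

/-- `j⁻¹` lies in the two-valuation ring of level `M * q`. -/
theorem jBar_inv_mem_gaussTwo : (jBar (M * q))⁻¹ ∈ gaussTwo A π M q (wqHom M q h) := by
  refine ⟨jBar_inv_mem_gaussF A π (M * q), ?_⟩
  rw [map_inv₀, ← heckeAlphaBar_jBar M q, wqHom_heckeAlphaBar, ← map_inv₀]
  exact heckeBetaBar_mem_gaussF A π M q (jBar_inv_mem_gaussF A π M)

/-- The admissible multiplier lies in the two-valuation ring. -/
theorem admF_mem_gaussTwo : admF M q ∈ gaussTwo A π M q (wqHom M q h) :=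
  admF_mem M q _ (jBar_inv_mem_gaussTwo A π M q h)

/-- Both Gauss reductions of the admissible multiplier are `1`. -/
theorem gaussTwoRed_admF [CharP k q] :
    gaussTwoRed A π M q (wqHom M q h) ⟨admF M q, admF_mem_gaussTwo A π M q h⟩ = 1 := by
  refine red_admF M q _ (gaussTwoRed A π M q (wqHom M q h)) ?_ (jBar_inv_mem_gaussTwo A π M q h)
  have h0 : ((q : ℕ) : LaurentSeries k) = 0 := by
    rw [← map_natCast (algebraMap k (LaurentSeries k)), CharP.cast_eq_zero, map_zero]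
  exact Prod.ext h0 h0

/-- The enlarged ring `{x ∈ gaussTwo | ∃ n, f ^ n * x ∈ B1}`, `f` the admissible multiplier. -/
def infB (B1 : Subring (FN (M * q))) (hf : admF M q ∈ B1) : Subring (FN (M * q)) where
  carrier := {x | x ∈ gaussTwo A π M q (wqHom M q h) ∧ ∃ n : ℕ, admF M q ^ n * x ∈ B1}
  mul_mem' := by
    rintro a b ⟨ha, n, hn⟩ ⟨hb, m, hm⟩
    refine ⟨mul_mem ha hb, n + m, ?_⟩
    have : admF M q ^ (n + m) * (a * b) = (admF M q ^ n * a) * (admF M q ^ m * b) := by ring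
    rw [this]
    exact mul_mem hn hm
  one_mem' := ⟨one_mem _, 0, by rw [pow_zero, one_mul]; exact one_mem _⟩
  add_mem' := by
    rintro a b ⟨ha, n, hn⟩ ⟨hb, m, hm⟩
    refine ⟨add_mem ha hb, n + m, ?_⟩
    have : admF M q ^ (n + m) * (a + b) =
        admF M q ^ m * (admF M q ^ n * a) + admF M q ^ n * (admF M q ^ m * b) := by ring
    rw [this]
    exact add_mem (mul_mem (pow_mem hf m) hn) (mul_mem (pow_mem hf n) hm)
  zero_mem' := ⟨zero_mem _, 0, by rw [mul_zero]; exact zero_mem _⟩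
  neg_mem' := by
    rintro a ⟨ha, n, hn⟩
    refine ⟨neg_mem ha, n, ?_⟩
    rw [mul_neg]
    exact neg_mem hn

variable {M q}

theorem mem_infB {B1 : Subring (FN (M * q))} {hf : admF M q ∈ B1} {x : FN (M * q)} :
    x ∈ infB A π M q h B1 hf ↔
      x ∈ gaussTwo A π M q (wqHom M q h) ∧ ∃ n : ℕ, admF M q ^ n * x ∈ B1 := Iff.rfl

/-- `hB` of KRON. -/
theorem infB_le {B1 : Subring (FN (M * q))} {hf : admF M q ∈ B1} {x : FN (M * q)}
    (hx : x ∈ infB A π M q h B1 hf) :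
    x ∈ gaussF A π (M * q) ∧ x ∈ gaussFZero A π M q h := hx.1

theorem mem_infB_of_mem {B1 : Subring (FN (M * q))} {hf : admF M q ∈ B1} {x : FN (M * q)}
    (hx : x ∈ gaussTwo A π M q (wqHom M q h)) (hx1 : x ∈ B1) : x ∈ infB A π M q h B1 hf :=
  ⟨hx, 0, by rwa [pow_zero, one_mul]⟩

/-- **The reducer**: every element of `infB B1` has the same double reduction as an element of
`B1 ∩ gaussTwo`. -/
theorem exists_mem_gaussTwoRed_eq [CharP k q] {B1 : Subring (FN (M * q))}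
    {hf : admF M q ∈ B1} {x : FN (M * q)} (hx : x ∈ infB A π M q h B1 hf) :
    ∃ (b : FN (M * q)) (hb : b ∈ gaussTwo A π M q (wqHom M q h)), b ∈ B1 ∧
      gaussTwoRed A π M q (wqHom M q h) ⟨b, hb⟩ =
        gaussTwoRed A π M q (wqHom M q h) ⟨x, hx.1⟩ := by
  obtain ⟨hx2, n, hn⟩ := hx
  have hfn : admF M q ^ n ∈ gaussTwo A π M q (wqHom M q h) :=
    pow_mem (admF_mem_gaussTwo A π M q h) n
  refine ⟨admF M q ^ n * x, mul_mem hfn hx2, hn, ?_⟩
  have e : (⟨admF M q ^ n * x, mul_mem hfn hx2⟩ : gaussTwo A π M q (wqHom M q h)) =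
      ⟨admF M q, admF_mem_gaussTwo A π M q h⟩ ^ n * ⟨x, hx2⟩ := rfl
  rw [e, map_mul, map_pow, gaussTwoRed_admF, one_pow, one_mul]

variable (M q)

/-- **Kronecker conductor for the INF chart, chart-ring agnostic form.**  `B1` is any subring of
level `M * q` containing the admissible multiplier, `α B'` and, up to powers of the multiplier,
`β B'`; `R` only has to contain the double reductions of `B1 ∩ gaussTwo`.  Conclusion: that of
`helper2736.kron_conductor_atkinLehner` verbatim. -/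
theorem kron_conductor_infB (hq : q.Prime) [CharP k q]
    (B' : Subring (FN M)) (hB' : ∀ y ∈ B', y ∈ gaussF A π M)
    (B1 : Subring (FN (M * q))) (hf : admF M q ∈ B1)
    (hα : ∀ y ∈ B', heckeAlphaBar Kbar M q y ∈ B1)
    (hβ : ∀ y ∈ B', ∃ n : ℕ, admF M q ^ n * heckeBetaBar Kbar M q y ∈ B1)
    (Bbar : Subalgebra k (LaurentSeries k))
    (hsurj : ∀ u ∈ Bbar, ∃ y, ∃ hy : y ∈ B', gaussFRed A π M ⟨y, hB' y hy⟩ = u)
    (φ : k →+* k) (hφ : ∀ c, φ c ^ q = c) (hfrob : ∀ u ∈ Bbar, coeffMap φ u ∈ Bbar)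
    (hfin : ∀ F : Bbar →ₐ[k] Bbar,
      (∀ u : Bbar, ((F u : Bbar) : LaurentSeries k) = qExpand k q (u : LaurentSeries k)) →
      Algebra.EssFiniteType k (Bbar ⧸ fixedIdeal (F.comp F)))
    (R : Subalgebra k (Bbar × Bbar))
    (hR : ∀ x (hx : x ∈ gaussTwo A π M q (wqHom M q h)), x ∈ B1 →
      ∃ r ∈ R, ((r.1 : LaurentSeries k), (r.2 : LaurentSeries k)) =
        (gaussFRed A π (M * q) ⟨x, hx.1⟩,
          gaussFRed A π (M * q) ⟨wqHom M q h x, hx.2⟩)) :
    ∃ F : Bbar →ₐ[k] Bbar,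
      (∀ u : Bbar, ((F u : Bbar) : LaurentSeries k) = qExpand k q (u : LaurentSeries k)) ∧
      (∀ u, ∃ v, F u = v ^ q) ∧ (∀ u, (u, F u) ∈ R) ∧ (∀ u, (F u, u) ∈ R) ∧
      (∀ a, ∃ b, (a, b) ∈ R) ∧ (∀ b, ∃ a, (a, b) ∈ R) ∧
      (fixedIdeal (F.comp F)).IsRadical ∧ Module.Finite k (Bbar ⧸ fixedIdeal (F.comp F)) ∧
      (∀ a ∈ fixedIdeal (F.comp F), (a, (0 : Bbar)) ∈ R) ∧
      (∀ b ∈ fixedIdeal (F.comp F), ((0 : Bbar), b) ∈ R) ∧
      (∀ a ∈ fixedIdeal (F.comp F), ∀ b ∈ fixedIdeal (F.comp F), (a, b) ∈ R) := by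
  refine kron_conductor_atkinLehner A π M q h hq B' hB' (infB A π M q h B1 hf)
    (fun x hx => infB_le A π h hx)
    (fun y hy => mem_infB_of_mem A π h
      (heckeAlphaBar_mem_gaussTwo A π M q (wqHom M q h) (wqHom_heckeAlphaBar M q h) (hB' y hy))
      (hα y hy))
    (fun y hy => ⟨heckeBetaBar_mem_gaussTwo A π M q (wqHom M q h) (wqHom_heckeBetaBar M q h)
      (hB' y hy), hβ y hy⟩)
    Bbar hsurj φ hφ hfrob hfin R ?_
  intro x hx
  obtain ⟨b, hb, hb1, e⟩ := exists_mem_gaussTwoRed_eq A π h hx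
  obtain ⟨r, hr, e'⟩ := hR b hb hb1
  refine ⟨r, hr, ?_⟩
  rw [e']
  rw [gaussTwoRed_apply, gaussTwoRed_apply] at e
  exact e

/-- The INF chart of level `M * q` as a subring: functions integral over `ℚ̄[j⁻¹]`. -/
def infChart (N : ℕ) : Subring (FN N) :=
  (integralClosure (Algebra.adjoin Kbar {(jBar N)⁻¹}) (FN N)).toSubring

theorem mem_infChart {N : ℕ} {x : FN N} :
    x ∈ infChart N ↔ IsIntegral (Algebra.adjoin Kbar {(jBar N)⁻¹}) x := Iff.rfl

/-- **Kronecker conductor for the INF `j`-chart** (`{j ≠ 0}`; functions integral over `ℚ̄[j⁻¹]`).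
`B'` is any subring of Gauss-integral functions of level `M` that are integral over `ℚ̄[j⁻¹]`;
`R` contains the double reductions of the functions of level `M * q` that are integral over
`ℚ̄[j⁻¹]` and integral for both Gauss valuations. -/
theorem kron_conductor_inf (hq : q.Prime) [CharP k q]
    (B' : Subring (FN M)) (hB' : ∀ y ∈ B', y ∈ gaussF A π M)
    (hB'int : ∀ y ∈ B', IsIntegral (Algebra.adjoin Kbar {(jBar M)⁻¹}) y)
    (Bbar : Subalgebra k (LaurentSeries k))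
    (hsurj : ∀ u ∈ Bbar, ∃ y, ∃ hy : y ∈ B', gaussFRed A π M ⟨y, hB' y hy⟩ = u)
    (φ : k →+* k) (hφ : ∀ c, φ c ^ q = c) (hfrob : ∀ u ∈ Bbar, coeffMap φ u ∈ Bbar)
    (hfin : ∀ F : Bbar →ₐ[k] Bbar,
      (∀ u : Bbar, ((F u : Bbar) : LaurentSeries k) = qExpand k q (u : LaurentSeries k)) →
      Algebra.EssFiniteType k (Bbar ⧸ fixedIdeal (F.comp F)))
    (R : Subalgebra k (Bbar × Bbar))
    (hR : ∀ x (hx : x ∈ gaussTwo A π M q (wqHom M q h)),
      IsIntegral (Algebra.adjoin Kbar {(jBar (M * q))⁻¹}) x →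
      ∃ r ∈ R, ((r.1 : LaurentSeries k), (r.2 : LaurentSeries k)) =
        (gaussFRed A π (M * q) ⟨x, hx.1⟩,
          gaussFRed A π (M * q) ⟨wqHom M q h x, hx.2⟩)) :
    ∃ F : Bbar →ₐ[k] Bbar,
      (∀ u : Bbar, ((F u : Bbar) : LaurentSeries k) = qExpand k q (u : LaurentSeries k)) ∧
      (∀ u, ∃ v, F u = v ^ q) ∧ (∀ u, (u, F u) ∈ R) ∧ (∀ u, (F u, u) ∈ R) ∧
      (∀ a, ∃ b, (a, b) ∈ R) ∧ (∀ b, ∃ a, (a, b) ∈ R) ∧
      (fixedIdeal (F.comp F)).IsRadical ∧ Module.Finite k (Bbar ⧸ fixedIdeal (F.comp F)) ∧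
      (∀ a ∈ fixedIdeal (F.comp F), (a, (0 : Bbar)) ∈ R) ∧
      (∀ b ∈ fixedIdeal (F.comp F), ((0 : Bbar), b) ∈ R) ∧
      (∀ a ∈ fixedIdeal (F.comp F), ∀ b ∈ fixedIdeal (F.comp F), (a, b) ∈ R) :=
  kron_conductor_infB A π M q h hq B' hB' (infChart (M * q)) (isIntegral_admF M q)
    (fun y hy => isIntegral_heckeAlphaBar M q y (hB'int y hy))
    (fun y hy => exists_pow_mul_isIntegral M q hq y (hB'int y hy))
    Bbar hsurj φ hφ hfrob hfin R hR

/-- The FIN chart of level `N` as a subring: functions integral over `ℚ̄[j]`. -/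
def finChart (N : ℕ) : Subring (FN N) :=
  (integralClosure (Algebra.adjoin Kbar {jBar N}) (FN N)).toSubring

theorem mem_finChart {N : ℕ} {x : FN N} :
    x ∈ finChart N ↔ IsIntegral (Algebra.adjoin Kbar {jBar N}) x := Iff.rfl

/-- **Kronecker conductor for the FIN `j`-chart** (`{j ≠ ∞}`; functions integral over `ℚ̄[j]`),
same shape as `kron_conductor_inf`; here `hβ` holds for the chart ring itself (`j_q` is integral
over `ℤ[j]`). -/
theorem kron_conductor_fin (hq : q.Prime) [CharP k q]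
    (B' : Subring (FN M)) (hB' : ∀ y ∈ B', y ∈ gaussF A π M)
    (hB'int : ∀ y ∈ B', IsIntegral (Algebra.adjoin Kbar {jBar M}) y)
    (Bbar : Subalgebra k (LaurentSeries k))
    (hsurj : ∀ u ∈ Bbar, ∃ y, ∃ hy : y ∈ B', gaussFRed A π M ⟨y, hB' y hy⟩ = u)
    (φ : k →+* k) (hφ : ∀ c, φ c ^ q = c) (hfrob : ∀ u ∈ Bbar, coeffMap φ u ∈ Bbar)
    (hfin : ∀ F : Bbar →ₐ[k] Bbar,
      (∀ u : Bbar, ((F u : Bbar) : LaurentSeries k) = qExpand k q (u : LaurentSeries k)) →
      Algebra.EssFiniteType k (Bbar ⧸ fixedIdeal (F.comp F)))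
    (R : Subalgebra k (Bbar × Bbar))
    (hR : ∀ x (hx : x ∈ gaussTwo A π M q (wqHom M q h)),
      IsIntegral (Algebra.adjoin Kbar {jBar (M * q)}) x →
      ∃ r ∈ R, ((r.1 : LaurentSeries k), (r.2 : LaurentSeries k)) =
        (gaussFRed A π (M * q) ⟨x, hx.1⟩,
          gaussFRed A π (M * q) ⟨wqHom M q h x, hx.2⟩)) :
    ∃ F : Bbar →ₐ[k] Bbar,
      (∀ u : Bbar, ((F u : Bbar) : LaurentSeries k) = qExpand k q (u : LaurentSeries k)) ∧
      (∀ u, ∃ v, F u = v ^ q) ∧ (∀ u, (u, F u) ∈ R) ∧ (∀ u, (F u, u) ∈ R) ∧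
      (∀ a, ∃ b, (a, b) ∈ R) ∧ (∀ b, ∃ a, (a, b) ∈ R) ∧
      (fixedIdeal (F.comp F)).IsRadical ∧ Module.Finite k (Bbar ⧸ fixedIdeal (F.comp F)) ∧
      (∀ a ∈ fixedIdeal (F.comp F), (a, (0 : Bbar)) ∈ R) ∧
      (∀ b ∈ fixedIdeal (F.comp F), ((0 : Bbar), b) ∈ R) ∧
      (∀ a ∈ fixedIdeal (F.comp F), ∀ b ∈ fixedIdeal (F.comp F), (a, b) ∈ R) := by
  have hB : ∀ x ∈ gaussTwo A π M q (wqHom M q h) ⊓ finChart (M * q),
      x ∈ gaussF A π (M * q) ∧ x ∈ gaussFZero A π M q h :=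
    fun x hx => (Subring.mem_inf.mp hx).1
  have hα : ∀ y ∈ B', heckeAlphaBar Kbar M q y ∈
      gaussTwo A π M q (wqHom M q h) ⊓ finChart (M * q) :=
    fun y hy => Subring.mem_inf.mpr
      ⟨heckeAlphaBar_mem_gaussTwo A π M q (wqHom M q h) (wqHom_heckeAlphaBar M q h) (hB' y hy),
        isIntegral_heckeAlphaBar_fin M q y (hB'int y hy)⟩
  have hβ : ∀ y ∈ B', heckeBetaBar Kbar M q y ∈
      gaussTwo A π M q (wqHom M q h) ⊓ finChart (M * q) :=
    fun y hy => Subring.mem_inf.mpr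
      ⟨heckeBetaBar_mem_gaussTwo A π M q (wqHom M q h) (wqHom_heckeBetaBar M q h) (hB' y hy),
        isIntegral_heckeBetaBar_fin M q hq y (hB'int y hy)⟩
  refine kron_conductor_atkinLehner A π M q h hq B' hB'
    (gaussTwo A π M q (wqHom M q h) ⊓ finChart (M * q)) hB hα hβ
    Bbar hsurj φ hφ hfrob hfin R ?_
  intro x hx
  exact hR x (Subring.mem_inf.mp hx).1 (Subring.mem_inf.mp hx).2

end

end Fermat.Agent.S33.helper6564
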