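import Fermat.Agent.S19.helper2052_H1FreeAll

/-!
# S33-HFG (helper7274): the threshold `S01 = t⁻¹ ^ q • S0 + t ^ p • S1` for `p + q ≥ c0`

Čech form of `H¹(X, O(p E₁ + q E₂)) = 0` in large degree for a two-chart cover
`S0 = "t regular"`, `S1 = "t⁻¹ regular"`, `S01 = "t a unit"`.  Only finite generation of `S0`
over `R[t]` is used (no freeness, no saturation).

* `two_chart_split` : abstract form (any commutative ring `R`, field `F`), same hypotheses as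
  `Fermat.Agent.S19.helper2052.two_chart_span`.
* `exists_mid_split` : the Prelude Igusa charts `chartAlg N ℓ {j}`, `{j⁻¹}`, `{j, j⁻¹}` over
  `ℤ_(ℓ)`, for EVERY level `N` and EVERY prime `ℓ` (no hypothesis).
* `split_of_span` : transport to any family of "integral" chart rings `B0, B1, B01` of a bigger
  field spanned over a coefficient set by the images of `S0, S1, S01` (the input `hfg` of
  `Fermat.Agent.S33.helper2582.exists_seeds_of_charts`).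
-/

set_option autoImplicit false

noncomputable section

open ModularCurve ModularCurve.IgusaScheme Polynomial

namespace Fermat.Agent.S33.helper7274

open Fermat.Agent.S19.helper2052

section Abstract

variable {R F : Type*} [CommRing R] [Field F] [Algebra R F]

/-- **Two-chart splitting in large degree.**  If `S0` is finitely generated over `R[t]`,
`S01 = S0[t⁻¹]` and `S0 ⊆ S1[t]`, there is a threshold `c0` such that for `p + q ≥ c0` every
element of `S01` is `t⁻¹ ^ q * a + t ^ p * b` with `a ∈ S0`, `b ∈ S1`. -/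
theorem two_chart_split (S0 S1 S01 : Subalgebra R F) (t : F) (ht : t ≠ 0)
    (ht0 : t ∈ S0) (ht1 : t⁻¹ ∈ S1)
    (hloc0 : ∀ x ∈ S01, ∃ n : ℕ, t ^ n * x ∈ S0)
    (hloc1 : ∀ x ∈ S0, ∃ n : ℕ, t⁻¹ ^ n * x ∈ S1)
    (m : ℕ) (ω : Fin m → F) (hω : ∀ i, ω i ∈ S0)
    (hgen : ∀ x ∈ S0, ∃ p : Fin m → R[X], x = ∑ i, aeval t (p i) * ω i) :
    ∃ c0 : ℕ, ∀ p q : ℕ, c0 ≤ p + q → ∀ x ∈ S01, ∃ a ∈ S0, ∃ b ∈ S1,
      x = t⁻¹ ^ q * a + t ^ p * b := by
  classical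
  obtain ⟨K, hK⟩ := two_chart_span S0 S1 S01 t ht ht0 ht1 hloc0 hloc1 m ω hω hgen
  choose k hk using fun i => hloc1 (ω i) (hω i)
  obtain ⟨K1, hK1def⟩ : ∃ K1 : ℕ, K1 = ∑ i, k i := ⟨_, rfl⟩
  have hkK : ∀ i, k i ≤ K1 := fun i => by
    rw [hK1def]
    exact Finset.single_le_sum (f := k) (fun _ _ => Nat.zero_le _) (Finset.mem_univ i)
  -- `t⁻¹ ^ e * ω i ∈ S1` for `e ≥ K1`
  have hS1 : ∀ i, ∀ e, K1 ≤ e → t⁻¹ ^ e * ω i ∈ S1 := by
    intro i e he
    have h1 : t⁻¹ ^ e * ω i = t⁻¹ ^ (e - k i) * (t⁻¹ ^ k i * ω i) := by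
      rw [← mul_assoc, ← pow_add, Nat.sub_add_cancel (le_trans (hkK i) he)]
    rw [h1]
    exact S1.mul_mem (S1.pow_mem ht1 _) (hk i)
  have htt : ∀ n : ℕ, t⁻¹ ^ n * t ^ n = 1 := fun n => by
    rw [← mul_pow, inv_mul_cancel₀ ht, one_pow]
  have htt' : ∀ n : ℕ, t ^ n * t⁻¹ ^ n = 1 := fun n => by
    rw [← mul_pow, mul_inv_cancel₀ ht, one_pow]
  refine ⟨K + K1, fun p q hpq x hx => ?_⟩
  obtain ⟨a, ha, b, hb, c, hc⟩ := hK x hx
  by_cases hq : K ≤ q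
  · -- absorb the middle terms in the `S0`-part
    have hmid : ∀ r : Fin m × Fin K, t ^ q * (c r • (t⁻¹ ^ (r.2 : ℕ) * ω r.1)) ∈ S0 := by
      intro r
      have hr : (r.2 : ℕ) ≤ q := le_trans (le_of_lt r.2.2) hq
      have e1 : t ^ q * (c r • (t⁻¹ ^ (r.2 : ℕ) * ω r.1)) = c r • (t ^ (q - r.2) * ω r.1) := by
        rw [mul_smul_comm]
        congr 1
        rw [← mul_assoc]
        congr 1
        conv_lhs => rw [← Nat.sub_add_cancel hr, pow_add, mul_assoc, htt', mul_one]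
      rw [e1]
      exact S0.smul_mem (S0.mul_mem (S0.pow_mem ht0 _) (hω r.1)) _
    refine ⟨t ^ q * a + ∑ r, t ^ q * (c r • (t⁻¹ ^ (r.2 : ℕ) * ω r.1)),
      S0.add_mem (S0.mul_mem (S0.pow_mem ht0 _) ha) (S0.sum_mem fun r _ => hmid r),
      t⁻¹ ^ p * b, S1.mul_mem (S1.pow_mem ht1 _) hb, ?_⟩
    rw [hc, mul_add, ← mul_assoc, htt, one_mul, ← mul_assoc, htt', one_mul, Finset.mul_sum]
    have e2 : ∀ r : Fin m × Fin K, t⁻¹ ^ q * (t ^ q * (c r • (t⁻¹ ^ (r.2 : ℕ) * ω r.1)))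
        = c r • (t⁻¹ ^ (r.2 : ℕ) * ω r.1) := fun r => by
      rw [← mul_assoc, htt, one_mul]
    rw [Finset.sum_congr rfl fun r _ => e2 r]
    abel
  · -- absorb the middle terms in the `S1`-part
    have hp : K1 ≤ p := by omega
    have hmid : ∀ r : Fin m × Fin K, t⁻¹ ^ p * (c r • (t⁻¹ ^ (r.2 : ℕ) * ω r.1)) ∈ S1 := by
      intro r
      have e1 : t⁻¹ ^ p * (c r • (t⁻¹ ^ (r.2 : ℕ) * ω r.1))
          = c r • (t⁻¹ ^ (p + r.2) * ω r.1) := by
        rw [mul_smul_comm]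
        congr 1
        rw [← mul_assoc, ← pow_add]
      rw [e1]
      exact S1.smul_mem (hS1 r.1 _ (le_trans hp (Nat.le_add_right _ _))) _
    refine ⟨t ^ q * a, S0.mul_mem (S0.pow_mem ht0 _) ha,
      t⁻¹ ^ p * b + ∑ r, t⁻¹ ^ p * (c r • (t⁻¹ ^ (r.2 : ℕ) * ω r.1)),
      S1.add_mem (S1.mul_mem (S1.pow_mem ht1 _) hb) (S1.sum_mem fun r _ => hmid r), ?_⟩
    rw [hc, mul_add, ← mul_assoc, htt, one_mul, ← mul_assoc, htt', one_mul, Finset.mul_sum]
    have e2 : ∀ r : Fin m × Fin K, t ^ p * (t⁻¹ ^ p * (c r • (t⁻¹ ^ (r.2 : ℕ) * ω r.1)))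
        = c r • (t⁻¹ ^ (r.2 : ℕ) * ω r.1) := fun r => by
      rw [← mul_assoc, htt', one_mul]
    rw [Finset.sum_congr rfl fun r _ => e2 r]
    abel

/-- Transport of a two-chart splitting along a ring homomorphism `emb : F → F'` to chart rings
`B0, B1, B01` of `F'` which are spanned, over a set `A` of coefficients, by the images of the
charts `S0, S1, S01` (in the direction needed: `B01 ⊆ A • emb S01`, `A • emb S0 ⊆ B0`,
`A • emb S1 ⊆ B1`). -/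
theorem split_of_span {F' : Type*} [Field F'] (emb : F →+* F')
    (S0 S1 S01 : Set F) (t : F) (c0 : ℕ)
    (hsplit : ∀ p q : ℕ, c0 ≤ p + q → ∀ s ∈ S01, ∃ a ∈ S0, ∃ b ∈ S1,
      s = t⁻¹ ^ q * a + t ^ p * b)
    (A : Set F') (B0 B1 B01 : Subring F')
    (hspan : ∀ z ∈ B01, ∃ (n : ℕ) (α : Fin n → F') (s : Fin n → F),
      (∀ k, α k ∈ A) ∧ (∀ k, s k ∈ S01) ∧ z = ∑ k, α k * emb (s k))
    (h0 : ∀ α ∈ A, ∀ a ∈ S0, α * emb a ∈ B0) (h1 : ∀ α ∈ A, ∀ b ∈ S1, α * emb b ∈ B1) :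
    ∀ p q : ℕ, c0 ≤ p + q → ∀ z ∈ B01, ∃ a ∈ B0, ∃ b ∈ B1,
      z = (emb t)⁻¹ ^ q * a + emb t ^ p * b := by
  intro p q hpq z hz
  obtain ⟨n, α, s, hα, hs, rfl⟩ := hspan z hz
  choose a ha b hb hab using fun k => hsplit p q hpq (s k) (hs k)
  refine ⟨∑ k, α k * emb (a k), B0.sum_mem fun k _ => h0 _ (hα k) _ (ha k),
    ∑ k, α k * emb (b k), B1.sum_mem fun k _ => h1 _ (hα k) _ (hb k), ?_⟩
  rw [Finset.mul_sum, Finset.mul_sum, ← Finset.sum_add_distrib]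
  refine Finset.sum_congr rfl fun k _ => ?_
  rw [hab k, map_add, map_mul, map_mul, map_pow, map_pow, map_inv₀]
  ring

end Abstract

/-! ### The Igusa charts -/

section Igusa

variable (ℓ : ℕ) [Fact ℓ.Prime] (N : ℕ) [NeZero N]

/-- **(H1)** For every level `N` and every prime `ℓ` there is a threshold `c0` such that for
`p + q ≥ c0` every element of the overlap chart `chartAlg N ℓ {j, j⁻¹}` is
`j⁻¹ ^ q * a + j ^ p * b` with `a` in the chart `{j}` and `b` in the chart `{j⁻¹}`. -/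
theorem exists_mid_split :
    ∃ c0 : ℕ, ∀ p q : ℕ, c0 ≤ p + q →
      ∀ s ∈ chartAlg N ℓ {jFull N, (jFull N)⁻¹},
        ∃ a ∈ chartAlg N ℓ {jFull N}, ∃ b ∈ chartAlg N ℓ {(jFull N)⁻¹},
          s = (jFull N)⁻¹ ^ q * a + jFull N ^ p * b := by
  obtain ⟨m, ω, hω, hgen⟩ := exists_generators_fin_all ℓ N
  have hj0 : jFull N ∈ chartAlgFin N ℓ := subset_chartAlg N ℓ _ rfl
  have hj1 : (jFull N)⁻¹ ∈ chartAlgInf N ℓ := subset_chartAlg N ℓ _ rfl
  have hloc0 : ∀ x ∈ chartAlgMid N ℓ, ∃ n : ℕ, jFull N ^ n * x ∈ chartAlgFin N ℓ := by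
    intro x hx
    have hz : x ∈ chartAlg N ℓ (insert (jFull N)⁻¹ {jFull N}) := by
      rw [show insert (jFull N)⁻¹ ({jFull N} : Set ↥(modularFunctionFieldFull N)) =
        {jFull N, (jFull N)⁻¹} from Set.pair_comm _ _]
      exact hx
    exact exists_pow_mul_mem_chartAlg (Set.mem_singleton _) (jFull_ne_zero N) hz
  have hloc1 : ∀ x ∈ chartAlgFin N ℓ, ∃ n : ℕ, (jFull N)⁻¹ ^ n * x ∈ chartAlgInf N ℓ := by
    intro x hx
    have hz : x ∈ chartAlg N ℓ (insert (jFull N)⁻¹⁻¹ {(jFull N)⁻¹}) := by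
      rw [inv_inv]; exact chartAlg_mono N ℓ (sFin_subset N) hx
    exact exists_pow_mul_mem_chartAlg (Set.mem_singleton _) (inv_ne_zero (jFull_ne_zero N)) hz
  exact two_chart_split (chartAlgFin N ℓ) (chartAlgInf N ℓ) (chartAlgMid N ℓ)
    (jFull N) (jFull_ne_zero N) hj0 hj1 hloc0 hloc1 m ω hω hgen

/-- **(FG)** over `ℤ_(ℓ)`, `Fin`-indexed, inside the function field: the overlap chart is the sum
of the two charts and the `ℤ_(ℓ)`-span of finitely many of its elements (any `N`, any `ℓ`). -/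
theorem exists_mid_span_fin :
    ∃ (n : ℕ) (ζ : Fin n → ↥(modularFunctionFieldFull N)),
      (∀ k, ζ k ∈ chartAlg N ℓ {jFull N, (jFull N)⁻¹}) ∧
      ∀ x ∈ chartAlg N ℓ {jFull N, (jFull N)⁻¹},
        ∃ a ∈ chartAlg N ℓ {jFull N}, ∃ b ∈ chartAlg N ℓ {(jFull N)⁻¹},
          ∃ c : Fin n → ↥(GaloisRep.ratLocalizedAt ℓ),
            x = a + b + ∑ k, c k • ζ k := by
  obtain ⟨m, ω, hω, hgen⟩ := exists_generators_fin_all ℓ N
  have hj0 : jFull N ∈ chartAlgFin N ℓ := subset_chartAlg N ℓ _ rfl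
  have hj1 : (jFull N)⁻¹ ∈ chartAlgInf N ℓ := subset_chartAlg N ℓ _ rfl
  have hjm : (jFull N)⁻¹ ∈ chartAlgMid N ℓ := subset_chartAlg N ℓ _ (by simp)
  have hloc0 : ∀ x ∈ chartAlgMid N ℓ, ∃ n : ℕ, jFull N ^ n * x ∈ chartAlgFin N ℓ := by
    intro x hx
    have hz : x ∈ chartAlg N ℓ (insert (jFull N)⁻¹ {jFull N}) := by
      rw [show insert (jFull N)⁻¹ ({jFull N} : Set ↥(modularFunctionFieldFull N)) =
        {jFull N, (jFull N)⁻¹} from Set.pair_comm _ _]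
      exact hx
    exact exists_pow_mul_mem_chartAlg (Set.mem_singleton _) (jFull_ne_zero N) hz
  have hloc1 : ∀ x ∈ chartAlgFin N ℓ, ∃ n : ℕ, (jFull N)⁻¹ ^ n * x ∈ chartAlgInf N ℓ := by
    intro x hx
    have hz : x ∈ chartAlg N ℓ (insert (jFull N)⁻¹⁻¹ {(jFull N)⁻¹}) := by
      rw [inv_inv]; exact chartAlg_mono N ℓ (sFin_subset N) hx
    exact exists_pow_mul_mem_chartAlg (Set.mem_singleton _) (inv_ne_zero (jFull_ne_zero N)) hz
  obtain ⟨K, hK⟩ := two_chart_span (chartAlgFin N ℓ) (chartAlgInf N ℓ) (chartAlgMid N ℓ)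
    (jFull N) (jFull_ne_zero N) hj0 hj1 hloc0 hloc1 m ω hω hgen
  refine ⟨m * K, fun k => (jFull N)⁻¹ ^ ((finProdFinEquiv.symm k).2 : ℕ) *
    ω (finProdFinEquiv.symm k).1, fun k => ?_, fun x hx => ?_⟩
  · exact (chartAlgMid N ℓ).mul_mem ((chartAlgMid N ℓ).pow_mem hjm _)
      (chartAlg_mono N ℓ (sFin_subset N) (hω _))
  · obtain ⟨a, ha, b, hb, c, hc⟩ := hK x hx
    refine ⟨a, ha, b, hb, fun k => c (finProdFinEquiv.symm k), ?_⟩
    rw [hc]
    congr 1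
    exact (Equiv.sum_comp finProdFinEquiv.symm
      (fun q : Fin m × Fin K => c q • ((jFull N)⁻¹ ^ (q.2 : ℕ) * ω q.1))).symm

end Igusa

end Fermat.Agent.S33.helper7274
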