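import Fermat.Agent.S33.helper7274_MidSplit
import Fermat.Agent.S33.helper5528_UnitBall2
import Fermat.Agent.S33.helper8997_Sat2
import Fermat.Agent.S19.helper2258_Points
import Fermat.Agent.S19.helper5454_ChartDiv
import Fermat.Agent.S35.helper882_GaussPair

/-!
# S33-HFG (helper7274): the instance of the threshold `hfg` at level `ℓ M`, `ℓ ∤ M`

`F = ℚ̄(X₀(ℓ M))`, `A` a valuation subring of `ℚ̄` over `ℓ`, `W = W_ℓ` the Atkin–Lehner
involution, `O` the two-sided Gauss ball (`f ∈ O ↔ f` and `W f` are Gauss-integral),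
`B₀, B₁, B₀₁` the chart rings `helper5454.chartRing (K := Kbar) (OnFin j / OnInf j / OnMid j) O`.

* `cst_mul_emb_mem_chartRing` (**mem**): `α ∈ A`, `a` in a `ℤ_(ℓ)`-chart `⟹` `α · a` lies in the
  corresponding chart ring;
* `exists_sum_of_mem_chartRing_mid` (**span**): every element of `B₀₁` is an `A`-combination of
  elements of the `ℤ_(ℓ)`-chart `chartAlgMid` (PT0 + the two-valuation unit ball);
* `exists_hfg` : `∃ c0, ∀ p q, c0 ≤ p + q → B₀₁ = j⁻¹ ^ q B₀ + j ^ p B₁` — the input `hfg` of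
  `helper2582.exists_seeds_of_charts`, with no hypothesis left;
* `exists_fg_span` : the span form `B₀₁ = B₀ + B₁ + ∑ A ζ_k` (finitely many `ζ_k`), i.e.
  `helper2582.StmtFG` unfolded, for any such `O`;
* `exists_hfg_gpVal`, `exists_fg_span_gpVal` : the same with the membership of `O` stated through
  `helper882.gpVal` (so `O := ballRing (gpVal A (ℓ M) W)` is `Iff.rfl`);
* `exists_hfg_gp` : the same for `O = V_∞ ⊓ V_0` in the `helper882` vocabulary
  (`gpRing`, `gpRingW`, any coprimality proof `h`).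
-/

set_option autoImplicit false
set_option linter.unusedSectionVars false

noncomputable section

open ModularCurve ModularCurve.IgusaScheme AlgebraicCurve

namespace Fermat.Agent.S33.helper7274

open Fermat.Agent.S19.helper5454
open Fermat.Agent.S24.helper24
open Fermat.Agent.S35.helper1928

local notation "Kbar" => AlgebraicClosure ℚ

section Inst

variable (ℓ M : ℕ) [Fact ℓ.Prime] [NeZero M] (hℓM : ¬ ℓ ∣ M)
variable (A : ValuationSubring Kbar) (hA : A.LiesOverPrime ℓ)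
variable (O : Subring (FN (ℓ * M)))
  (hO : ∀ f : FN (ℓ * M), f ∈ O ↔ f ∈ vInf ℓ M A ∧ wAL ℓ M hℓM f ∈ vInf ℓ M A)

/-- Integral constants lie in the Gauss ring. -/
theorem cst_mem_vInf {α : Kbar} (hα : α ∈ A) :
    algebraMap Kbar (FN (ℓ * M)) α ∈ vInf ℓ M A :=
  (Fermat.Agent.S18.helper8991.algebraMap_mem_gaussF_iff A (IsLocalRing.residue A) (ℓ * M)
    (fun a ha => (IsLocalRing.residue_eq_zero_iff a).mpr ha) α).mpr hα

include hA hO in
/-- **(mem), ball part.** -/
theorem cst_mul_emb_mem_ball (S : Set ↥(modularFunctionFieldFull (ℓ * M)))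
    (hS : S ⊆ {jFull (ℓ * M), (jFull (ℓ * M))⁻¹}) {α : Kbar} (hα : α ∈ A)
    {a : ↥(modularFunctionFieldFull (ℓ * M))} (ha : a ∈ chartAlg (ℓ * M) ℓ S) :
    algebraMap Kbar (FN (ℓ * M)) α * Fermat.Agent.S19.helper9190.emb (ℓ * M) a ∈ O := by
  rw [hO]
  obtain ⟨h1, h2⟩ :=
    Fermat.Agent.S33.helper8997.val_le_one_of_mem_chartAlg ℓ M hℓM A hA S hS a ha
  have hc := cst_mem_vInf ℓ M A hα
  refine ⟨(vInf ℓ M A).mul_mem _ _ hc (((vInf ℓ M A).valuation_le_one_iff _).mp h1), ?_⟩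
  rw [map_mul, AlgEquiv.commutes]
  exact (vInf ℓ M A).mul_mem _ _ hc (((vInf ℓ M A).valuation_le_one_iff _).mp h2)

/-- **(mem), place part**: the image of a chart element is regular wherever the chart generators
are. -/
theorem cst_mul_emb_mem_place (S : Set ↥(modularFunctionFieldFull (ℓ * M))) (α : Kbar)
    {a : ↥(modularFunctionFieldFull (ℓ * M))} (ha : a ∈ chartAlg (ℓ * M) ℓ S)
    (v : Place Kbar (FN (ℓ * M)))
    (hv : ∀ s ∈ S, Fermat.Agent.S19.helper9190.emb (ℓ * M) s ∈ v.toValuationSubring) :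
    v.adicValuation
      (algebraMap Kbar (FN (ℓ * M)) α * Fermat.Agent.S19.helper9190.emb (ℓ * M) a) ≤ 1 := by
  refine v.adicValuation_le_one_of_mem (mul_mem (v.algebraMap_mem' α) ?_)
  exact Fermat.Agent.S19.helper2258.mem_place_of_isIntegral (ℓ * M) S
    (Fermat.Agent.S19.helper2258.isIntegral_iota_of_mem_chartAlg (ℓ * M) ℓ ha) v hv

theorem mem_place_of_adicValuation_le_one (v : Place Kbar (FN (ℓ * M))) {f : FN (ℓ * M)}
    (h : v.adicValuation f ≤ 1) : f ∈ v.toValuationSubring :=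
  (Fermat.Agent.S27.helper4586.ord_nonneg_iff_mem v).mp
    ((Fermat.Agent.S27.helper4586.adicValuation_le_one_iff v f).mp h)

theorem emb_jFull_eq : Fermat.Agent.S19.helper9190.emb (ℓ * M) (jFull (ℓ * M)) = jBar (ℓ * M) :=
  Fermat.Agent.S33.helper8997.emb_jFull (ℓ * M)

include hA hO in
/-- **(mem)** for the chart `j` regular. -/
theorem cst_mul_emb_mem_chartRing_fin {α : Kbar} (hα : α ∈ A)
    {a : ↥(modularFunctionFieldFull (ℓ * M))} (ha : a ∈ chartAlg (ℓ * M) ℓ {jFull (ℓ * M)}) :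
    algebraMap Kbar (FN (ℓ * M)) α * Fermat.Agent.S19.helper9190.emb (ℓ * M) a
      ∈ chartRing (K := Kbar) (OnFin (jBar (ℓ * M))) O := by
  refine ⟨cst_mul_emb_mem_ball ℓ M hℓM A hA O hO _
    (Set.singleton_subset_iff.mpr (Set.mem_insert _ _)) hα ha, fun v hv => ?_⟩
  refine cst_mul_emb_mem_place ℓ M _ α ha v ?_
  rintro s rfl
  rw [emb_jFull_eq]
  exact mem_place_of_adicValuation_le_one ℓ M v hv

include hA hO in
/-- **(mem)** for the chart `j⁻¹` regular. -/
theorem cst_mul_emb_mem_chartRing_inf {α : Kbar} (hα : α ∈ A)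
    {a : ↥(modularFunctionFieldFull (ℓ * M))}
    (ha : a ∈ chartAlg (ℓ * M) ℓ {(jFull (ℓ * M))⁻¹}) :
    algebraMap Kbar (FN (ℓ * M)) α * Fermat.Agent.S19.helper9190.emb (ℓ * M) a
      ∈ chartRing (K := Kbar) (OnInf (jBar (ℓ * M))) O := by
  refine ⟨cst_mul_emb_mem_ball ℓ M hℓM A hA O hO _
    (Set.singleton_subset_iff.mpr (Set.mem_insert_of_mem _ rfl)) hα ha, fun v hv => ?_⟩
  refine cst_mul_emb_mem_place ℓ M _ α ha v ?_
  rintro s rfl
  rw [map_inv₀, emb_jFull_eq]
  exact mem_place_of_adicValuation_le_one ℓ M v hv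

include hA hO in
/-- **(mem)** for the overlap chart. -/
theorem cst_mul_emb_mem_chartRing_mid {α : Kbar} (hα : α ∈ A)
    {a : ↥(modularFunctionFieldFull (ℓ * M))}
    (ha : a ∈ chartAlg (ℓ * M) ℓ {jFull (ℓ * M), (jFull (ℓ * M))⁻¹}) :
    algebraMap Kbar (FN (ℓ * M)) α * Fermat.Agent.S19.helper9190.emb (ℓ * M) a
      ∈ chartRing (K := Kbar) (OnMid (jBar (ℓ * M))) O := by
  refine ⟨cst_mul_emb_mem_ball ℓ M hℓM A hA O hO _ (Set.Subset.refl _) hα ha, fun v hv => ?_⟩
  refine cst_mul_emb_mem_place ℓ M _ α ha v ?_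
  rintro s (rfl | rfl)
  · rw [emb_jFull_eq]
    exact mem_place_of_adicValuation_le_one ℓ M v hv.onFin
  · rw [map_inv₀, emb_jFull_eq]
    exact mem_place_of_adicValuation_le_one ℓ M v hv.onInf

/-- The `q`-expansion of an `FN`-combination of chart functions is the series `comb`. -/
theorem coe_sum_cst_mul_emb {n : ℕ} (a : Fin n → Kbar)
    (s : Fin n → ↥(modularFunctionFieldFull (ℓ * M))) :
    ((∑ k, algebraMap Kbar (FN (ℓ * M)) (a k) * Fermat.Agent.S19.helper9190.emb (ℓ * M) (s k)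
        : FN (ℓ * M)) : LaurentSeries Kbar) = Fermat.Agent.S19.helper7154.comb Kbar a s := by
  have h : ∀ x : FN (ℓ * M), (x : LaurentSeries Kbar)
      = (modularFunctionFieldBar (ℓ * M)).toSubring.subtype x := fun _ => rfl
  rw [h, map_sum, Fermat.Agent.S19.helper7154.comb]
  refine Finset.sum_congr rfl fun k _ => ?_
  rw [map_mul]
  show algebraMap Kbar (LaurentSeries Kbar) (a k) * coeffEmb Kbar (s k : LaurentSeries ℚ) = _
  rw [algebraMap_laurentSeries_eq_single]
  rfl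

/-- The `q`-expansion of the Atkin–Lehner transform of a combination of chart functions. -/
theorem coe_wAL_sum_cst_mul_emb {n : ℕ} (a : Fin n → Kbar)
    (s : Fin n → ↥(modularFunctionFieldFull (ℓ * M))) :
    ((wAL ℓ M hℓM (∑ k, algebraMap Kbar (FN (ℓ * M)) (a k) *
        Fermat.Agent.S19.helper9190.emb (ℓ * M) (s k)) : FN (ℓ * M)) : LaurentSeries Kbar)
      = Fermat.Agent.S19.helper7154.comb Kbar a
          (fun k => Fermat.Agent.S33.helper5528.W0 ℓ M hℓM (s k)) := by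
  have h : ∀ x : FN (ℓ * M), (x : LaurentSeries Kbar)
      = (modularFunctionFieldBar (ℓ * M)).toSubring.subtype x := fun _ => rfl
  rw [map_sum, h, map_sum, Fermat.Agent.S19.helper7154.comb]
  refine Finset.sum_congr rfl fun k _ => ?_
  rw [map_mul, AlgEquiv.commutes, map_mul]
  show algebraMap Kbar (LaurentSeries Kbar) (a k) *
      ((wAL ℓ M hℓM (Fermat.Agent.S19.helper9190.emb (ℓ * M) (s k)) : FN (ℓ * M))
        : LaurentSeries Kbar) = _
  rw [Fermat.Agent.S33.helper5528.coeffEmb_W0 ℓ M hℓM (s k)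
    (Fermat.Agent.S19.helper9190.emb (ℓ * M) (s k)) rfl, algebraMap_laurentSeries_eq_single]
  rfl

include hA hO in
/-- **(span).**  Every element of the overlap chart ring (regular where `j` is a unit, integral
for both Gauss valuations) is an `A`-combination of elements of the `ℤ_(ℓ)`-chart
`chartAlgMid`. -/
theorem exists_sum_of_mem_chartRing_mid {z : FN (ℓ * M)}
    (hz : z ∈ chartRing (K := Kbar) (OnMid (jBar (ℓ * M))) O) :
    ∃ (n : ℕ) (α : Fin n → Kbar) (s : Fin n → ↥(modularFunctionFieldFull (ℓ * M))),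
      (∀ k, α k ∈ A) ∧ (∀ k, s k ∈ chartAlg (ℓ * M) ℓ {jFull (ℓ * M), (jFull (ℓ * M))⁻¹}) ∧
        z = ∑ k, algebraMap Kbar (FN (ℓ * M)) (α k) *
          Fermat.Agent.S19.helper9190.emb (ℓ * M) (s k) := by
  obtain ⟨hzO, hzreg⟩ := hz
  -- PT0: `z` is a `ℚ̄`-combination of chart functions
  have hreg : ∀ P : Place Kbar (FN (ℓ * M)),
      Fermat.Agent.S19.helper9190.chartReg (ℓ * M) 2 P → 0 ≤ P.ord z := by
    intro P hP
    have hP' : Fermat.Agent.S19.helper9190.jK (ℓ * M) ∈ P.toValuationSubring ∧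
        (Fermat.Agent.S19.helper9190.jK (ℓ * M))⁻¹ ∈ P.toValuationSubring := by
      delta Fermat.Agent.S19.helper9190.chartReg at hP
      rwa [if_neg (by norm_num), if_neg (by norm_num)] at hP
    have hjK : Fermat.Agent.S19.helper9190.jK (ℓ * M) = jBar (ℓ * M) := emb_jFull_eq ℓ M
    rw [hjK] at hP'
    have hmid : OnMid (jBar (ℓ * M)) P := by
      have h1 : P.adicValuation (jBar (ℓ * M)) ≤ 1 := P.adicValuation_le_one_of_mem hP'.1
      have h2 : P.adicValuation (jBar (ℓ * M))⁻¹ ≤ 1 := P.adicValuation_le_one_of_mem hP'.2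
      have hj0 : jBar (ℓ * M) ≠ 0 := by
        rw [← emb_jFull_eq]
        exact (map_ne_zero _).mpr (jFull_ne_zero (ℓ * M))
      exact (onMid_iff hj0 P).mpr ⟨h1, h2⟩
    exact (Fermat.Agent.S27.helper4586.adicValuation_le_one_iff P z).mp (hzreg P hmid)
  obtain ⟨n, a, s, hs, hsum⟩ :=
    Fermat.Agent.S19.helper2258.exists_sum_of_regular (ℓ * M) ℓ 2 z hreg
  have hs' : ∀ k, s k ∈ chartAlgMid (ℓ * M) ℓ := by
    intro k
    have hk := hs k
    have hcs : Fermat.Agent.S19.helper9190.chartSet (ℓ * M) ℓ 2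
        = (chartAlgMid (ℓ * M) ℓ : Set ↥(modularFunctionFieldFull (ℓ * M))) := by
      unfold Fermat.Agent.S19.helper9190.chartSet
      rw [if_neg (by norm_num), if_neg (by norm_num)]
    rw [hcs] at hk
    exact hk
  -- both expansions are Gauss-integral
  obtain ⟨hz1, hz2⟩ := (hO z).mp hzO
  have hg : Fermat.Agent.S19.helper7154.comb Kbar a s
      ∈ Fermat.Agent.S18.helper8991.gaussRing A (IsLocalRing.residue A) := by
    rw [← coe_sum_cst_mul_emb ℓ M a s, ← hsum]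
    exact hz1
  have hg' : Fermat.Agent.S19.helper7154.comb Kbar a
      (fun k => Fermat.Agent.S33.helper5528.W0 ℓ M hℓM (s k))
      ∈ Fermat.Agent.S18.helper8991.gaussRing A (IsLocalRing.residue A) := by
    rw [← coe_wAL_sum_cst_mul_emb ℓ M hℓM a s, ← hsum]
    exact hz2
  obtain ⟨m, a', s', ha', hs'', h, -⟩ :=
    (Fermat.Agent.S33.helper5528.isCoeffLattice2_chartAlgMid ℓ M hℓM).exists_comb_of_mem_gaussRing
      A hA (IsLocalRing.residue A) (fun a ha => (IsLocalRing.residue_eq_zero_iff a).mpr ha)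
      a s hs' hg hg'
  refine ⟨m, a', s', ha', hs'', Subtype.ext ?_⟩
  rw [coe_sum_cst_mul_emb ℓ M a' s', ← h, ← coe_sum_cst_mul_emb ℓ M a s, ← hsum]

include hA hO in
/-- **The threshold `hfg`** at level `ℓ M`, `ℓ ∤ M`, for the chart rings of the two-sided Gauss
ball `O`: there is `c0` such that for `p + q ≥ c0` every element of the overlap chart ring is
`j⁻¹ ^ q * a + j ^ p * b` with `a` in the chart ring of `j` and `b` in the chart ring of
`j⁻¹`.  (The input `hfg` of `helper2582.exists_seeds_of_charts`.) -/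
theorem exists_hfg :
    ∃ c0 : ℕ, ∀ p q : ℕ, c0 ≤ p + q →
      ∀ z ∈ chartRing (K := Kbar) (OnMid (jBar (ℓ * M))) O,
        ∃ a ∈ chartRing (K := Kbar) (OnFin (jBar (ℓ * M))) O, ∃ b ∈ chartRing (K := Kbar) (OnInf (jBar (ℓ * M))) O,
          z = (jBar (ℓ * M))⁻¹ ^ q * a + jBar (ℓ * M) ^ p * b := by
  obtain ⟨c0, hc0⟩ := exists_mid_split ℓ (ℓ * M)
  refine ⟨c0, ?_⟩
  have key := split_of_span (Fermat.Agent.S19.helper9190.emb (ℓ * M))
    (chartAlg (ℓ * M) ℓ {jFull (ℓ * M)} : Set ↥(modularFunctionFieldFull (ℓ * M)))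
    (chartAlg (ℓ * M) ℓ {(jFull (ℓ * M))⁻¹} : Set ↥(modularFunctionFieldFull (ℓ * M)))
    (chartAlg (ℓ * M) ℓ {jFull (ℓ * M), (jFull (ℓ * M))⁻¹} :
      Set ↥(modularFunctionFieldFull (ℓ * M)))
    (jFull (ℓ * M)) c0 hc0
    ((fun c : Kbar => algebraMap Kbar (FN (ℓ * M)) c) '' (A : Set Kbar))
    (chartRing (K := Kbar) (OnFin (jBar (ℓ * M))) O) (chartRing (K := Kbar) (OnInf (jBar (ℓ * M))) O)
    (chartRing (K := Kbar) (OnMid (jBar (ℓ * M))) O) ?_ ?_ ?_
  · rw [emb_jFull_eq] at key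
    exact key
  · intro z hz
    obtain ⟨n, α, s, hα, hs, rfl⟩ := exists_sum_of_mem_chartRing_mid ℓ M hℓM A hA O hO hz
    exact ⟨n, fun k => algebraMap Kbar (FN (ℓ * M)) (α k), s, fun k => ⟨α k, hα k, rfl⟩, hs, rfl⟩
  · rintro _ ⟨α, hα, rfl⟩ a ha
    exact cst_mul_emb_mem_chartRing_fin ℓ M hℓM A hA O hO hα ha
  · rintro _ ⟨α, hα, rfl⟩ b hb
    exact cst_mul_emb_mem_chartRing_inf ℓ M hℓM A hA O hO hα hb

include hA hO in
/-- **(FG) at the Gauss pair** (span form): the overlap chart ring is the sum of the two chart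
rings and the `A`-span of finitely many of its elements (the images of the finitely many
`ℤ_(ℓ)`-generators of the integral Čech `H¹`). -/
theorem exists_fg_span :
    ∃ (n : ℕ) (ζ : Fin n → FN (ℓ * M)),
      (∀ k, ζ k ∈ chartRing (K := Kbar) (OnMid (jBar (ℓ * M))) O) ∧
      ∀ z ∈ chartRing (K := Kbar) (OnMid (jBar (ℓ * M))) O,
        ∃ a ∈ chartRing (K := Kbar) (OnFin (jBar (ℓ * M))) O,
          ∃ b ∈ chartRing (K := Kbar) (OnInf (jBar (ℓ * M))) O, ∃ c : Fin n → Kbar,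
            (∀ k, c k ∈ A) ∧ z = a + b + ∑ k, c k • ζ k := by
  obtain ⟨n, ζ, hζ, hspan⟩ := exists_mid_span_fin ℓ (ℓ * M)
  refine ⟨n, fun k => Fermat.Agent.S19.helper9190.emb (ℓ * M) (ζ k), fun k => ?_,
    fun z hz => ?_⟩
  · have h1 := cst_mul_emb_mem_chartRing_mid ℓ M hℓM A hA O hO A.one_mem (hζ k)
    rwa [map_one, one_mul] at h1
  · obtain ⟨m, α, s, hα, hs, rfl⟩ := exists_sum_of_mem_chartRing_mid ℓ M hℓM A hA O hO hz
    choose a ha b hb c hc using fun k => hspan (s k) (hs k)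
    refine ⟨∑ k, algebraMap Kbar (FN (ℓ * M)) (α k) *
        Fermat.Agent.S19.helper9190.emb (ℓ * M) (a k),
      Subring.sum_mem _ fun k _ => cst_mul_emb_mem_chartRing_fin ℓ M hℓM A hA O hO (hα k) (ha k),
      ∑ k, algebraMap Kbar (FN (ℓ * M)) (α k) * Fermat.Agent.S19.helper9190.emb (ℓ * M) (b k),
      Subring.sum_mem _ fun k _ => cst_mul_emb_mem_chartRing_inf ℓ M hℓM A hA O hO (hα k) (hb k),
      fun i => ∑ k, α k * algebraMap ℚ Kbar ((c k i : ℚ)), fun i => ?_, ?_⟩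
    · exact A.toSubring.sum_mem fun k _ => A.mul_mem _ _ (hα k)
        (Fermat.Agent.S33.helper8997.algebraMap_mem_of_mem_ratLocalizedAt ℓ A hA (c k i).2)
    · have hemb : ∀ k, Fermat.Agent.S19.helper9190.emb (ℓ * M) (s k)
          = Fermat.Agent.S19.helper9190.emb (ℓ * M) (a k)
            + Fermat.Agent.S19.helper9190.emb (ℓ * M) (b k)
            + ∑ i, algebraMap Kbar (FN (ℓ * M)) (algebraMap ℚ Kbar ((c k i : ℚ))) *
                Fermat.Agent.S19.helper9190.emb (ℓ * M) (ζ i) := by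
        intro k
        rw [hc k, map_add, map_add, map_sum]
        congr 1
        refine Finset.sum_congr rfl fun i _ => ?_
        rw [Algebra.smul_def, map_mul, Fermat.Agent.S33.helper8997.emb_algebraMap_Zl]
      simp_rw [hemb, mul_add, Finset.sum_add_distrib, Finset.mul_sum]
      congr 1
      rw [Finset.sum_comm]
      refine Finset.sum_congr rfl fun i _ => ?_
      rw [Finset.sum_smul]
      refine Finset.sum_congr rfl fun k _ => ?_
      rw [Algebra.smul_def, map_mul, mul_assoc]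

end Inst

/-! ### The `helper882` vocabulary -/

section GaussPair

open Fermat.Agent.S35.helper882

section GpVal

variable (ℓ M : ℕ) [Fact ℓ.Prime] [NeZero M] (hℓM : ¬ ℓ ∣ M)
variable (A : ValuationSubring Kbar) (hA : A.LiesOverPrime ℓ)
variable (O : Subring (FN (ℓ * M)))
  (hO : ∀ f : FN (ℓ * M), f ∈ O ↔ ∀ i, gpVal A (ℓ * M) (wAL ℓ M hℓM) i f ≤ 1)

include hO in
theorem mem_iff_of_gpVal (f : FN (ℓ * M)) :
    f ∈ O ↔ f ∈ vInf ℓ M A ∧ wAL ℓ M hℓM f ∈ vInf ℓ M A := by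
  rw [hO, gpVal_le_one_iff]
  exact Iff.rfl

include hA hO in
/-- `exists_hfg` for any `O` whose membership is "both `gpVal` are `≤ 1`" (e.g.
`helper5683.ballRing (gpVal A (ℓ * M) W)` or `helper2582.ballRing ..`, by `Iff.rfl`). -/
theorem exists_hfg_gpVal :
    ∃ c0 : ℕ, ∀ p q : ℕ, c0 ≤ p + q →
      ∀ z ∈ chartRing (K := Kbar) (OnMid (jBar (ℓ * M))) O,
        ∃ a ∈ chartRing (K := Kbar) (OnFin (jBar (ℓ * M))) O,
          ∃ b ∈ chartRing (K := Kbar) (OnInf (jBar (ℓ * M))) O,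
            z = (jBar (ℓ * M))⁻¹ ^ q * a + jBar (ℓ * M) ^ p * b :=
  exists_hfg ℓ M hℓM A hA O (mem_iff_of_gpVal ℓ M hℓM A O hO)

include hA hO in
/-- `exists_fg_span` for any `O` whose membership is "both `gpVal` are `≤ 1`". -/
theorem exists_fg_span_gpVal :
    ∃ (n : ℕ) (ζ : Fin n → FN (ℓ * M)),
      (∀ k, ζ k ∈ chartRing (K := Kbar) (OnMid (jBar (ℓ * M))) O) ∧
      ∀ z ∈ chartRing (K := Kbar) (OnMid (jBar (ℓ * M))) O,
        ∃ a ∈ chartRing (K := Kbar) (OnFin (jBar (ℓ * M))) O,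
          ∃ b ∈ chartRing (K := Kbar) (OnInf (jBar (ℓ * M))) O, ∃ c : Fin n → Kbar,
            (∀ k, c k ∈ A) ∧ z = a + b + ∑ k, c k • ζ k :=
  exists_fg_span ℓ M hℓM A hA O (mem_iff_of_gpVal ℓ M hℓM A O hO)

include hA hO in
/-- The dictionary for the overlap chart in the `gpVal` form: **(span)**. -/
theorem exists_sum_of_mem_chartRing_mid_gpVal {z : FN (ℓ * M)}
    (hz : z ∈ chartRing (K := Kbar) (OnMid (jBar (ℓ * M))) O) :
    ∃ (n : ℕ) (α : Fin n → Kbar) (s : Fin n → ↥(modularFunctionFieldFull (ℓ * M))),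
      (∀ k, α k ∈ A) ∧ (∀ k, s k ∈ chartAlg (ℓ * M) ℓ {jFull (ℓ * M), (jFull (ℓ * M))⁻¹}) ∧
        z = ∑ k, algebraMap Kbar (FN (ℓ * M)) (α k) *
          Fermat.Agent.S19.helper9190.emb (ℓ * M) (s k) :=
  exists_sum_of_mem_chartRing_mid ℓ M hℓM A hA O (mem_iff_of_gpVal ℓ M hℓM A O hO) hz

end GpVal

variable (p M : ℕ) [Fact p.Prime] [NeZero M] (h : Nat.Coprime p M)
variable (P : ValuationSubring Kbar) (hP : P.LiesOverPrime p)

include hP in
/-- **`hfg` for the two-sided Gauss ball** `V_∞ ⊓ V_0` of `helper882_GaussPair`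
(`V_∞ = gpRing P (p M)`, `V_0 = gpRingW P (p M) W`, `W = atkinLehnerBar p M h`). -/
theorem exists_hfg_gp :
    ∃ c0 : ℕ, ∀ a b : ℕ, c0 ≤ a + b →
      ∀ z ∈ chartRing (K := Kbar) (OnMid (jBar (p * M)))
          ((gpRing P (p * M)).toSubring ⊓
            (gpRingW P (p * M) (Fermat.Agent.S35.helper1219.atkinLehnerBar p M h)).toSubring),
        ∃ x ∈ chartRing (K := Kbar) (OnFin (jBar (p * M)))
            ((gpRing P (p * M)).toSubring ⊓
              (gpRingW P (p * M) (Fermat.Agent.S35.helper1219.atkinLehnerBar p M h)).toSubring),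
          ∃ y ∈ chartRing (K := Kbar) (OnInf (jBar (p * M)))
              ((gpRing P (p * M)).toSubring ⊓
                (gpRingW P (p * M)
                  (Fermat.Agent.S35.helper1219.atkinLehnerBar p M h)).toSubring),
            z = (jBar (p * M))⁻¹ ^ b * x + jBar (p * M) ^ a * y :=
  exists_hfg p M ((Nat.Prime.coprime_iff_not_dvd Fact.out).mp h) P hP _ (fun _ => Iff.rfl)

end GaussPair

end Fermat.Agent.S33.helper7274
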