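/-
S33-KUMMERLEVEL (helper7619): the glue KUMMER-DIV (i) + ROOTLEVEL (i') in the exact binders of the
landed `S19.helper5454_DivFamily` / `DivTors` and `S33.helper5683_FormTriv`.

For `K_n = kBoth A N n W` finite, ALL the correction units of the chosen divisors `Dsel x`
(additivity, inverse, and the Galois action of EVERY element of the decomposition group) live at
ONE finite `G_ℚ`-stable level `E1`; hence for every `E ≥ E1` they are units of
`helper1085.ball A N W E`:

* `exists_level_units`  : generic form (`A`, `N`, `W`), classes `x ∈ kBoth A N n W`;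
* `exists_level_family` : the instance `Kn h P n` at level `p * M`, family `DKn h P n` indexed by
  the subtype, in the shapes `hadd` / `hzero` / `hγ` of `helper5454.isFamily_of_isWitness` and
  `helper5454.exists_gal_of_smul_divisor` (for every `s` of the inertia group at once);
* the inputs of `helper5683.exists_witness` for `(D, u) := (DKn, hKn)`, and of
  `helper5454.hglob_of_not_isPrincipal` (`degree_DKn`, `not_isPrincipal_DKn`);
* `finite_Kn` : `K_n` is finite for `n ≠ 0`.
-/
import Fermat.Agent.S33.helper7619_KummerDiv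
import Fermat.Agent.S33.helper2287_RootLevel
import Fermat.Agent.S33.helper1085_GeomSpec
import Fermat.Agent.S29.helper288_FinTorsion

set_option autoImplicit false

namespace Fermat.Agent.S33.helper7619

open AlgebraicCurve ModularCurve
open Fermat.Agent.S29.helper8217
open Fermat.Agent.S34.helper584
open Fermat.Agent.S33.helper3511

noncomputable section

local notation "Qb" => AlgebraicClosure ℚ
local notation "GQ" => (AlgebraicClosure ℚ ≃ₐ[ℚ] AlgebraicClosure ℚ)

/-! ### Generic form -/

section Generic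

variable {A : ValuationSubring Qb} {N : ℕ} [NeZero N] {n : ℕ}
  {W : modularFunctionFieldBar N ≃ₐ[Qb] modularFunctionFieldBar N}

/-- A two-sided Gauss unit which is rational over `E` is a unit of the ball at level `E`. -/
theorem IsUnit2.mem_ball {E : IntermediateField ℚ Qb} {t : modularFunctionFieldBar N}
    (ht : IsUnit2 A N W t) (hE : t ∈ Fermat.Agent.S19.helper9190.levelField N E) :
    t ∈ Fermat.Agent.S33.helper1085.ball A N W E ∧
      t⁻¹ ∈ Fermat.Agent.S33.helper1085.ball A N W E := by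
  obtain ⟨h1, h2, h3, h4⟩ := ht.mem
  exact ⟨(Fermat.Agent.S33.helper1085.mem_ball A N W E).2 ⟨h1, h2, hE⟩,
    (Fermat.Agent.S33.helper1085.mem_ball A N W E).2 ⟨h3, h4, Subfield.inv_mem _ hE⟩⟩

variable [HasPrincipalDivisors Qb (modularFunctionFieldBar N)]

/-- **One finite level for all the correction units of `Dsel`.**  If `K_n = kBoth A N n W` is
finite, there is a finite `G_ℚ`-stable level `E1 ≥ E0` such that for EVERY `E ≥ E1`: the chosen
Kummer functions are rational over `E`, and the correction units of (add), (neg) and (gal) — the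
latter for every `σ` of the decomposition group of `A` — are units of `ball A N W E`. -/
theorem exists_level_units (hn : n ≠ 0) (hfin : (kBoth A N n W : Set (JZero N)).Finite)
    (hW : ∀ σ : GQ, σ ∈ A.decompositionSubgroup ℚ → ∀ y : modularFunctionFieldBar N,
      W (arithmeticGalois (modularFunctionFieldFull N) σ • y) =
        arithmeticGalois (modularFunctionFieldFull N) σ • W y)
    (E0 : IntermediateField ℚ Qb) [FiniteDimensional ℚ E0] :
    ∃ E1 : IntermediateField ℚ Qb, FiniteDimensional ℚ E1 ∧ E0 ≤ E1 ∧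
      (∀ σ : GQ, ∀ x ∈ E1, σ x ∈ E1) ∧
      ∀ E : IntermediateField ℚ Qb, E1 ≤ E →
        (∀ x ∈ kBoth A N n W,
          hsel A N n W x ∈ Fermat.Agent.S19.helper9190.levelField N E) ∧
        (∀ x ∈ kBoth A N n W, ∀ y ∈ kBoth A N n W, ∃ u : modularFunctionFieldBar N,
          u ≠ 0 ∧ u ∈ Fermat.Agent.S33.helper1085.ball A N W E ∧
          u⁻¹ ∈ Fermat.Agent.S33.helper1085.ball A N W E ∧
          u ^ n * (hsel A N n W x * hsel A N n W y) = hsel A N n W (x + y) ∧
          ∀ v : Place Qb (modularFunctionFieldBar N),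
            Dsel A N n W (x + y) v = Dsel A N n W x v + Dsel A N n W y v + v.ord u) ∧
        (∀ x ∈ kBoth A N n W, ∃ u : modularFunctionFieldBar N,
          u ≠ 0 ∧ u ∈ Fermat.Agent.S33.helper1085.ball A N W E ∧
          u⁻¹ ∈ Fermat.Agent.S33.helper1085.ball A N W E ∧
          u ^ n * (hsel A N n W x)⁻¹ = hsel A N n W (-x) ∧
          ∀ v : Place Qb (modularFunctionFieldBar N),
            Dsel A N n W (-x) v = - Dsel A N n W x v + v.ord u) ∧
        (∀ σ : GQ, σ ∈ A.decompositionSubgroup ℚ → ∀ x ∈ kBoth A N n W,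
          ∃ u : modularFunctionFieldBar N,
          u ≠ 0 ∧ u ∈ Fermat.Agent.S33.helper1085.ball A N W E ∧
          u⁻¹ ∈ Fermat.Agent.S33.helper1085.ball A N W E ∧
          u ^ n * (arithmeticGalois (modularFunctionFieldFull N) σ • hsel A N n W x)
            = hsel A N n W (σ • x) ∧
          ∀ v : Place Qb (modularFunctionFieldBar N),
            Dsel A N n W (σ • x) v =
              (arithmeticGalois (modularFunctionFieldFull N) σ • Dsel A N n W x) v
                + v.ord u) := by
  classical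
  let K : Finset (JZero N) := hfin.toFinset
  have hK : ∀ x : JZero N, x ∈ K ↔ x ∈ kBoth A N n W := fun x => by
    show x ∈ hfin.toFinset ↔ _
    rw [Set.Finite.mem_toFinset, SetLike.mem_coe]
  let S : Finset (modularFunctionFieldBar N) :=
    K.image (hsel A N n W) ∪
      ((K ×ˢ K).image (fun z : JZero N × JZero N => hsel A N n W z.1 * hsel A N n W z.2) ∪
        K.image (fun x => (hsel A N n W x)⁻¹))
  have hS1 : ∀ x ∈ kBoth A N n W, hsel A N n W x ∈ S := fun x hx =>
    Finset.mem_union_left _ (Finset.mem_image_of_mem _ ((hK x).2 hx))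
  have hS2 : ∀ x ∈ kBoth A N n W, ∀ y ∈ kBoth A N n W,
      hsel A N n W x * hsel A N n W y ∈ S := fun x hx y hy =>
    Finset.mem_union_right _ (Finset.mem_union_left _
      (Finset.mem_image.2 ⟨(x, y), Finset.mem_product.2 ⟨(hK x).2 hx, (hK y).2 hy⟩, rfl⟩))
  have hS3 : ∀ x ∈ kBoth A N n W, (hsel A N n W x)⁻¹ ∈ S := fun x hx =>
    Finset.mem_union_right _ (Finset.mem_union_right _
      (Finset.mem_image.2 ⟨x, (hK x).2 hx, rfl⟩))
  obtain ⟨E1, hE1, h01, hst, hS, hroot⟩ :=
    Fermat.Agent.S33.helper2287.exists_level_of_kummer_units N hn S E0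
  refine ⟨E1, hE1, h01, hst, fun E hE => ?_⟩
  have hmono := Fermat.Agent.S19.helper9190.levelField_mono N hE
  have hg1 : ∀ b : modularFunctionFieldBar N,
      Fermat.Agent.S19.helper9190.gal N (1 : GQ) b = b := by
    intro b
    show arithmeticGalois (modularFunctionFieldFull N) (1 : GQ) • b = b
    rw [map_one, one_smul]
  have hne : ∀ x ∈ kBoth A N n W, hsel A N n W x ≠ 0 := fun x hx => (isUnit2_hsel hx).ne_zero
  refine ⟨fun x hx => hmono (hS _ (hS1 x hx)), fun x hx y hy => ?_, fun x hx => ?_,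
    fun σ hσ x hx => ?_⟩
  · obtain ⟨u, hu0, hu2, hid, hD⟩ := exists_unit_add hn hx hy
    have huE : u ∈ Fermat.Agent.S19.helper9190.levelField N E :=
      hmono (hroot u ⟨_, hS1 _ (add_mem hx hy), _, hS2 x hx y hy,
        mul_ne_zero (hne x hx) (hne y hy), 1, by rw [hg1]; exact hid⟩)
    exact ⟨u, hu0, (hu2.mem_ball huE).1, (hu2.mem_ball huE).2, hid, hD⟩
  · obtain ⟨u, hu0, hu2, hid, hD⟩ := exists_unit_neg hn hx
    have huE : u ∈ Fermat.Agent.S19.helper9190.levelField N E :=
      hmono (hroot u ⟨_, hS1 _ (neg_mem hx), _, hS3 x hx,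
        inv_ne_zero (hne x hx), 1, by rw [hg1]; exact hid⟩)
    exact ⟨u, hu0, (hu2.mem_ball huE).1, (hu2.mem_ball huE).2, hid, hD⟩
  · obtain ⟨u, hu0, hu2, hid, hD⟩ := exists_unit_smul hn hσ (hW σ hσ) hx
    have hσx : σ • x ∈ kBoth A N n W := smul_mem_kBoth hσ (hW σ hσ) hx
    have huE : u ∈ Fermat.Agent.S19.helper9190.levelField N E :=
      hmono (hroot u ⟨_, hS1 _ hσx, _, hS1 x hx, hne x hx, σ, hid⟩)
    exact ⟨u, hu0, (hu2.mem_ball huE).1, (hu2.mem_ball huE).2, hid, hD⟩

end Generic

/-! ### The instance `K_n = Kn h P n` at level `p * M` -/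

section Instance

open Fermat.Agent.S33.helper1085

variable {p M : ℕ} [NeZero p] [NeZero M] (h : Nat.Coprime p M)
  [HasPrincipalDivisors Qb (modularFunctionFieldBar (p * M))]
  (P : ValuationSubring Qb) (n : ℕ)

/-- The chosen Kummer function of a class of `K_n`. -/
def hKn (x : Kn h P n) : modularFunctionFieldBar (p * M) :=
  hsel P (p * M) n (wAL h) (x : JZero (p * M))

/-- The chosen divisor of a class of `K_n` (`n • DKn x = div (hKn x)`, class `x`). -/
def DKn (x : Kn h P n) : Divisor Qb (modularFunctionFieldBar (p * M)) :=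
  Dsel P (p * M) n (wAL h) (x : JZero (p * M))

theorem DKn_def (x : Kn h P n) :
    DKn h P n x = Dsel P (p * M) n (wAL h) (x : JZero (p * M)) := rfl

theorem hKn_def (x : Kn h P n) :
    hKn h P n x = hsel P (p * M) n (wAL h) (x : JZero (p * M)) := rfl

/-! #### (S) the inputs of `helper5683.exists_witness` for `(D, u) := (DKn, hKn)` -/

theorem hKn_ne_zero (x : Kn h P n) : hKn h P n x ≠ 0 := (isUnit2_hsel x.2).ne_zero

theorem mul_DKn_apply (x : Kn h P n) (v : Place Qb (modularFunctionFieldBar (p * M))) :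
    (n : ℤ) * DKn h P n x v = v.ord (hKn h P n x) :=
  mul_Dsel_apply _ v

theorem zsmul_DKn (x : Kn h P n) : (n : ℤ) • DKn h P n x = divOf Qb (hKn h P n x) :=
  zsmul_Dsel _

theorem valuation_hKn_sub_one (x : Kn h P n) :
    (gaussV P (p * M)).valuation (hKn h P n x - 1) < 1 :=
  (isRep_hsel x.2).2.1

theorem valuation_wAL_hKn_sub_one (x : Kn h P n) :
    (gaussV P (p * M)).valuation
      (Fermat.Agent.S35.helper1219.atkinLehnerBar p M h (hKn h P n x) - 1) < 1 :=
  (isRep_hsel x.2).2.2.1

theorem isKummer_hKn (x : Kn h P n) : IsKummer Qb n (hKn h P n x) := isKummer_hsel _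

/-! #### (G) the inputs of `helper5454.hglob_of_not_isPrincipal` -/

theorem DKn_mem_degZero (x : Kn h P n) :
    DKn h P n x ∈ Divisor.degZero (K := Qb) (F := modularFunctionFieldBar (p * M)) :=
  Dsel_mem_degZero _

theorem degree_DKn (x : Kn h P n) : Divisor.degree (DKn h P n x) = 0 :=
  Divisor.mem_degZero.1 (DKn_mem_degZero h P n x)

/-- The class of `DKn x` is `x`. -/
theorem mk_DKn (x : Kn h P n) :
    Pic0.mk ⟨DKn h P n x, DKn_mem_degZero h P n x⟩ = (x : JZero (p * M)) :=
  mk_Dsel x.2

theorem DKn_zero : DKn h P n 0 = 0 := Dsel_zero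

/-- `DKn x` is not principal for `x ≠ 0`. -/
theorem not_isPrincipal_DKn (x : Kn h P n) (hx : x ≠ 0) :
    ¬ Divisor.IsPrincipal (DKn h P n x) := by
  intro hp
  apply hx
  apply Subtype.ext
  rw [← mk_DKn h P n x]
  exact (mk_eq_zero_iff _).2 hp

/-! #### (F) finiteness -/

theorem finite_kBoth_set {A : ValuationSubring Qb} {N : ℕ} [NeZero N] {n : ℕ} (hn : n ≠ 0)
    (W : modularFunctionFieldBar N ≃ₐ[Qb] modularFunctionFieldBar N)
    [HasPrincipalDivisors Qb (modularFunctionFieldBar N)] :
    (kBoth A N n W : Set (JZero N)).Finite :=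
  (Fermat.Agent.S29.helper288.finite_torsion_JZero N hn).subset
    (fun _ hx => nsmul_eq_zero_of_mem_kBoth hx)

/-- `K_n` is finite for `n ≠ 0`. -/
theorem finite_Kn {n : ℕ} (hn : n ≠ 0) : Finite (Kn h P n) :=
  (finite_kBoth_set hn (wAL h)).to_subtype

/-! #### (L) all the units at one finite level -/

/-- **The Kummer family at one finite level**, in the binders of
`helper5454.isFamily_of_isWitness` (`hadd`, `hzero`) and of
`helper5454.exists_gal_of_smul_divisor` (`hγ`, for every `s` of the inertia group at once), with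
`O := ball P (p * M) (wAL h) E` for EVERY `E` above one finite `G_ℚ`-stable level `E1 ≥ E0`. -/
theorem exists_level_family {n : ℕ} (hn : n ≠ 0) (E0 : IntermediateField ℚ Qb)
    [FiniteDimensional ℚ E0] :
    ∃ E1 : IntermediateField ℚ Qb, FiniteDimensional ℚ E1 ∧ E0 ≤ E1 ∧
      (∀ σ : GQ, ∀ x ∈ E1, σ x ∈ E1) ∧
      ∀ E : IntermediateField ℚ Qb, E1 ≤ E →
        (∀ x : Kn h P n, hKn h P n x ∈ Fermat.Agent.S19.helper9190.levelField (p * M) E) ∧
        (∀ x y : Kn h P n, ∃ u : modularFunctionFieldBar (p * M), u ≠ 0 ∧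
          u ∈ ball P (p * M) (wAL h) E ∧ u⁻¹ ∈ ball P (p * M) (wAL h) E ∧
          ∀ v : Place Qb (modularFunctionFieldBar (p * M)),
            DKn h P n (x + y) v = DKn h P n x v + DKn h P n y v + v.ord u) ∧
        (∃ u : modularFunctionFieldBar (p * M), u ≠ 0 ∧
          u ∈ ball P (p * M) (wAL h) E ∧ u⁻¹ ∈ ball P (p * M) (wAL h) E ∧
          ∀ v : Place Qb (modularFunctionFieldBar (p * M)), DKn h P n 0 v = v.ord u) ∧
        (∀ (s : P.inertiaSubgroupIn ℚ) (x : Kn h P n),
          ∃ u : modularFunctionFieldBar (p * M), u ≠ 0 ∧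
          u ∈ ball P (p * M) (wAL h) E ∧ u⁻¹ ∈ ball P (p * M) (wAL h) E ∧
          ∀ v : Place Qb (modularFunctionFieldBar (p * M)),
            DKn h P n (s • x) v =
              (arithmeticGalois (modularFunctionFieldFull (p * M)) (s : GQ) • DKn h P n x) v
                + v.ord u) ∧
        (∀ σ : GQ, σ ∈ P.decompositionSubgroup ℚ → ∀ x : Kn h P n,
          ∃ u : modularFunctionFieldBar (p * M), u ≠ 0 ∧
          u ∈ ball P (p * M) (wAL h) E ∧ u⁻¹ ∈ ball P (p * M) (wAL h) E ∧
          ∀ v : Place Qb (modularFunctionFieldBar (p * M)),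
            Dsel P (p * M) n (wAL h) (σ • (x : JZero (p * M))) v =
              (arithmeticGalois (modularFunctionFieldFull (p * M)) σ • DKn h P n x) v
                + v.ord u) := by
  obtain ⟨E1, hE1, h01, hst, hall⟩ := exists_level_units (A := P) (N := p * M) (W := wAL h) hn
    (finite_kBoth_set hn (wAL h))
    (fun σ _ y => Fermat.Agent.S35.helper1219.atkinLehnerBar_arithmeticGalois_smul p M h σ y) E0
  refine ⟨E1, hE1, h01, hst, fun E hE => ?_⟩
  obtain ⟨hlev, hadd, -, hgal⟩ := hall E hE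
  have hone : (1 : modularFunctionFieldBar (p * M)) ∈ ball P (p * M) (wAL h) E := one_mem _
  refine ⟨fun x => hlev _ x.2, fun x y => ?_, ⟨1, one_ne_zero, hone, by rw [inv_one]; exact hone,
    fun v => ?_⟩, fun s x => ?_, fun σ hσ x => ?_⟩
  · obtain ⟨u, hu0, hu1, hu2, -, hD⟩ := hadd _ x.2 _ y.2
    exact ⟨u, hu0, hu1, hu2, hD⟩
  · rw [DKn_zero, v.ord_one]
    rfl
  · obtain ⟨u, hu0, hu1, hu2, -, hD⟩ :=
      hgal (s : GQ) (inertia_le_decomposition P s.2) _ x.2
    exact ⟨u, hu0, hu1, hu2, hD⟩
  · obtain ⟨u, hu0, hu1, hu2, -, hD⟩ := hgal σ hσ _ x.2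
    exact ⟨u, hu0, hu1, hu2, hD⟩

end Instance

end

end Fermat.Agent.S33.helper7619
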