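/-
S33-JLIFT, consumer shapes (helper7687; board row 2363): the `j`-chart lifts of
`helper7687_JLift` in the exact binders of the (R4) instance of `helper2582.StmtRoot`
(team_s33_chat #248): special-fibre coordinate `S37.helper1588.jC k M`, generic coordinate
`S24.helper24.jBar M`, `S18.helper2030` vocabulary (`gaussO`, `gaussRed`).
-/
import Fermat.Agent.S33.helper7687_JLift
import Fermat.Agent.S37.helper1588_FFKDegree

set_option autoImplicit false
set_option synthInstance.maxHeartbeats 400000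

noncomputable section

namespace Fermat.Agent.S33.helper7687

open ModularCurve
open Fermat.Agent.S18 Fermat.Agent.S18.helper2030
open Fermat.Agent.S35.helper4658

local notation "Qb" => AlgebraicClosure ℚ

variable (N : ℕ) [NeZero N] (ℓ : ℕ) [Fact ℓ.Prime] (hℓN : ¬ ℓ ∣ N)
  (A : ValuationSubring (AlgebraicClosure ℚ)) (hA : A.LiesOverPrime ℓ)

/-- The reduction of `j` is `S37.helper1588.jC`. -/
theorem jRed_eq_jC :
    jRed N ℓ hℓN A hA = Fermat.Agent.S37.helper1588.jC (IsLocalRing.ResidueField A) N :=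
  jRed_eq_of_coe N ℓ hℓN A hA rfl

/-- **(JLIFT, FIN)** in the (R4) binders: every element of the special fibre `F_k(N)` integral
over `k[j̄]` is the Gauss reduction of a Gauss-integral element of `F̄_N` integral over `ℚ̄[j]`
(`2 ∣ N`, `ℓ ∤ N`). -/
theorem lift_fin (h2N : 2 ∣ N) :
    ∀ g : modularFunctionFieldFullC (IsLocalRing.ResidueField A) N,
      IsIntegral (Algebra.adjoin (IsLocalRing.ResidueField A)
        {Fermat.Agent.S37.helper1588.jC (IsLocalRing.ResidueField A) N}) g →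
      ∃ (f : modularFunctionFieldBar N) (hf : f ∈ gaussO N ℓ hℓN A hA),
        IsIntegral (Algebra.adjoin Qb {Fermat.Agent.S24.helper24.jBar N}) f ∧
          gaussRed N ℓ hℓN A hA ⟨f, hf⟩ = g := by
  intro g hg
  rw [← jRed_eq_jC N ℓ hℓN A hA] at hg
  obtain ⟨f, hf, hfint, hfred⟩ := exists_lift_of_isIntegral_gaussJ N ℓ hℓN A hA h2N g hg
  exact ⟨f, hf, by rw [helper789.jBar_eq_gaussJ]; exact hfint, hfred⟩

/-- **(JLIFT, INF)** in the (R4) binders: every element of `F_k(N)` integral over `k[j̄⁻¹]` is the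
Gauss reduction of a Gauss-integral element of `F̄_N` integral over `ℚ̄[j⁻¹]`
(`2 ∣ N`, `ℓ ∤ N`). -/
theorem lift_inf (h2N : 2 ∣ N) :
    ∀ g : modularFunctionFieldFullC (IsLocalRing.ResidueField A) N,
      IsIntegral (Algebra.adjoin (IsLocalRing.ResidueField A)
        {(Fermat.Agent.S37.helper1588.jC (IsLocalRing.ResidueField A) N)⁻¹}) g →
      ∃ (f : modularFunctionFieldBar N) (hf : f ∈ gaussO N ℓ hℓN A hA),
        IsIntegral (Algebra.adjoin Qb {(Fermat.Agent.S24.helper24.jBar N)⁻¹}) f ∧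
          gaussRed N ℓ hℓN A hA ⟨f, hf⟩ = g := by
  intro g hg
  rw [← jRed_eq_jC N ℓ hℓN A hA] at hg
  obtain ⟨f, hf, hfint, hfred⟩ := exists_lift_of_isIntegral_gaussJ_inv N ℓ hℓN A hA h2N g hg
  exact ⟨f, hf, by rw [helper789.jBar_eq_gaussJ]; exact hfint, hfred⟩

/-- **(JLIFT, MID)** in the same binders (overlap chart `j, j⁻¹`). -/
theorem lift_mid (h2N : 2 ∣ N) :
    ∀ g : modularFunctionFieldFullC (IsLocalRing.ResidueField A) N,
      IsIntegral (Algebra.adjoin (IsLocalRing.ResidueField A)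
        {Fermat.Agent.S37.helper1588.jC (IsLocalRing.ResidueField A) N,
          (Fermat.Agent.S37.helper1588.jC (IsLocalRing.ResidueField A) N)⁻¹}) g →
      ∃ (f : modularFunctionFieldBar N) (hf : f ∈ gaussO N ℓ hℓN A hA),
        IsIntegral (Algebra.adjoin Qb {Fermat.Agent.S24.helper24.jBar N,
          (Fermat.Agent.S24.helper24.jBar N)⁻¹}) f ∧
          gaussRed N ℓ hℓN A hA ⟨f, hf⟩ = g := by
  intro g hg
  rw [← jRed_eq_jC N ℓ hℓN A hA] at hg
  obtain ⟨f, hf, hfint, hfred⟩ := exists_lift_of_isIntegral_gaussJ_mid N ℓ hℓN A hA h2N g hg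
  exact ⟨f, hf, by rw [helper789.jBar_eq_gaussJ]; exact hfint, hfred⟩

end Fermat.Agent.S33.helper7687
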