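import Mathlib

/-!
# S33, product order (seam of route #2990 (4))

The local lemma LOCAL-ORD / NOFIX is applied to `K_n^d → K' ⊆ M'` (`d = rank_{ℤ_p} 𝒪`), while
the Čech construction produces an order `H0` of functions on `K_n` only.  This file builds the
order on `Fin d → M` (more generally on any `N` with a family of additive maps `π i : N →+ M`)
generated by the functions `φ ∘ π i`, `φ ∈ H0`, and proves that it inherits every clause of the
S19-ORDER shape (values, equivariance, scalars, separation, addition law) and the clause (Loc).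

Everything is Mathlib-only and stated for an arbitrary commutative ring `Ω` of values.
-/

set_option autoImplicit false

namespace Fermat.Agent.S33.helper9487

open Finset

section Core

variable {N M ι Ω : Type*} [AddCommGroup N] [AddCommGroup M] [CommRing Ω]

/-- The pull-back order: the subring of functions on `N` generated by the `φ ∘ π i`, `φ ∈ H0`.
For `N = Fin d → M` and `π = eval` this is the product order. -/
def pullOrder (π : ι → N →+ M) (H0 : Subring (M → Ω)) : Subring (N → Ω) :=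
  Subring.closure {ψ | ∃ i, ∃ φ ∈ H0, ψ = fun x => φ (π i x)}

theorem comp_mem_pullOrder (π : ι → N →+ M) (H0 : Subring (M → Ω)) (i : ι) {φ : M → Ω}
    (hφ : φ ∈ H0) : (fun x => φ (π i x)) ∈ pullOrder π H0 :=
  Subring.subset_closure ⟨i, φ, hφ, rfl⟩

/-- (P1) values. -/
theorem pullOrder_val (π : ι → N →+ M) (H0 : Subring (M → Ω)) (A : Subring Ω)
    (hval : ∀ φ ∈ H0, ∀ m, φ m ∈ A) : ∀ ψ ∈ pullOrder π H0, ∀ x, ψ x ∈ A := by
  intro ψ hψ
  induction hψ using Subring.closure_induction with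
  | mem ψ h =>
    obtain ⟨i, φ, hφ, rfl⟩ := h
    intro x
    exact hval φ hφ _
  | zero => intro x; exact A.zero_mem
  | one => intro x; exact A.one_mem
  | add a b _ _ ha hb => intro x; exact A.add_mem (ha x) (hb x)
  | neg a _ ha => intro x; exact A.neg_mem (ha x)
  | mul a b _ _ ha hb => intro x; exact A.mul_mem (ha x) (hb x)

/-- (P2) equivariance, for one pair of maps `f` on `M`, `fN` on `N` and one ring endomorphism
`τ` of the values. -/
theorem pullOrder_equivariant (π : ι → N →+ M) (H0 : Subring (M → Ω)) (f : M → M) (fN : N → N)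
    (τ : Ω →+* Ω) (hπ : ∀ i x, π i (fN x) = f (π i x))
    (hH : ∀ φ ∈ H0, ∀ m, φ (f m) = τ (φ m)) :
    ∀ ψ ∈ pullOrder π H0, ∀ x, ψ (fN x) = τ (ψ x) := by
  intro ψ hψ
  induction hψ using Subring.closure_induction with
  | mem ψ h =>
    obtain ⟨i, φ, hφ, rfl⟩ := h
    intro x
    show φ (π i (fN x)) = τ (φ (π i x))
    rw [hπ, hH φ hφ]
  | zero => intro x; simp
  | one => intro x; simp
  | add a b _ _ ha hb => intro x; simp [ha x, hb x]
  | neg a _ ha => intro x; simp [ha x]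
  | mul a b _ _ ha hb => intro x; simp [ha x, hb x]

/-- The constant function `c` lies in the pull-back order as soon as `c • H0 ⊆ H0`. -/
theorem const_mem_pullOrder [Nonempty ι] (π : ι → N →+ M) (H0 : Subring (M → Ω)) (c : Ω)
    (hc : ∀ φ ∈ H0, (fun m => c * φ m) ∈ H0) : (fun _ : N => c) ∈ pullOrder π H0 := by
  obtain ⟨i⟩ := ‹Nonempty ι›
  have h := comp_mem_pullOrder π H0 i (hc 1 H0.one_mem)
  have h2 : (fun x : N => (fun m : M => c * (1 : M → Ω) m) (π i x)) = fun _ : N => c := by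
    funext x
    simp
  rwa [h2] at h

/-- (P3) scalars. -/
theorem pullOrder_smul [Nonempty ι] (π : ι → N →+ M) (H0 : Subring (M → Ω)) (c : Ω)
    (hc : ∀ φ ∈ H0, (fun m => c * φ m) ∈ H0) :
    ∀ ψ ∈ pullOrder π H0, (fun x => c * ψ x) ∈ pullOrder π H0 := by
  intro ψ hψ
  exact (pullOrder π H0).mul_mem (const_mem_pullOrder π H0 c hc) hψ

/-- (P4) separation of points. -/
theorem pullOrder_sep (π : ι → N →+ M) (H0 : Subring (M → Ω))
    (hπ : ∀ x x', (∀ i, π i x = π i x') → x = x')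
    (hsep : ∀ m m', m ≠ m' → ∃ φ ∈ H0, φ m ≠ φ m') :
    ∀ x x', x ≠ x' → ∃ ψ ∈ pullOrder π H0, ψ x ≠ ψ x' := by
  intro x x' hxx'
  have : ∃ i, π i x ≠ π i x' := by
    by_contra hcon
    exact hxx' (hπ x x' (fun i => not_not.mp (fun h => hcon ⟨i, h⟩)))
  obtain ⟨i, hi⟩ := this
  obtain ⟨φ, hφ, hne⟩ := hsep _ _ hi
  exact ⟨_, comp_mem_pullOrder π H0 i hφ, hne⟩

/-- The addition-law clause for one function `ψ` over a subring `H` of functions. -/
def HasLaw (H : Subring (N → Ω)) (ψ : N → Ω) : Prop :=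
  ∃ (n : ℕ) (a b : Fin n → N → Ω), (∀ k, a k ∈ H) ∧ (∀ k, b k ∈ H) ∧
    ∀ x x', ψ (x + x') = ∑ k, a k x * b k x'

/-- The addition law with an arbitrary finite index type. -/
theorem hasLaw_of_fintype (H : Subring (N → Ω)) (ψ : N → Ω) {κ : Type*} [Fintype κ]
    (a b : κ → N → Ω) (ha : ∀ k, a k ∈ H) (hb : ∀ k, b k ∈ H)
    (h : ∀ x x', ψ (x + x') = ∑ k, a k x * b k x') : HasLaw H ψ := by
  classical
  let e := Fintype.equivFin κ
  refine ⟨Fintype.card κ, fun k => a (e.symm k), fun k => b (e.symm k), fun k => ha _,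
    fun k => hb _, fun x x' => ?_⟩
  rw [h x x']
  exact (Fintype.sum_equiv e.symm _ _ (fun _ => rfl)).symm

theorem hasLaw_zero (H : Subring (N → Ω)) : HasLaw H 0 :=
  ⟨0, fun k => k.elim0, fun k => k.elim0, fun k => k.elim0, fun k => k.elim0, fun x x' => by simp⟩

theorem hasLaw_one (H : Subring (N → Ω)) : HasLaw H 1 :=
  ⟨1, fun _ => 1, fun _ => 1, fun _ => H.one_mem, fun _ => H.one_mem, fun x x' => by simp⟩

theorem hasLaw_add (H : Subring (N → Ω)) {ψ₁ ψ₂ : N → Ω} (h₁ : HasLaw H ψ₁) (h₂ : HasLaw H ψ₂) :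
    HasLaw H (ψ₁ + ψ₂) := by
  obtain ⟨n₁, a₁, b₁, ha₁, hb₁, e₁⟩ := h₁
  obtain ⟨n₂, a₂, b₂, ha₂, hb₂, e₂⟩ := h₂
  refine hasLaw_of_fintype H _ (κ := Fin n₁ ⊕ Fin n₂) (Sum.elim a₁ a₂) (Sum.elim b₁ b₂) ?_ ?_ ?_
  · rintro (k | k)
    · exact ha₁ k
    · exact ha₂ k
  · rintro (k | k)
    · exact hb₁ k
    · exact hb₂ k
  · intro x x'
    rw [Fintype.sum_sum_type]
    simp only [Pi.add_apply, Sum.elim_inl, Sum.elim_inr]
    rw [e₁, e₂]

theorem hasLaw_neg (H : Subring (N → Ω)) {ψ : N → Ω} (h : HasLaw H ψ) : HasLaw H (-ψ) := by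
  obtain ⟨n, a, b, ha, hb, e⟩ := h
  refine ⟨n, fun k => -a k, b, fun k => H.neg_mem (ha k), hb, fun x x' => ?_⟩
  simp only [Pi.neg_apply, neg_mul, Finset.sum_neg_distrib]
  rw [e]

theorem hasLaw_mul (H : Subring (N → Ω)) {ψ₁ ψ₂ : N → Ω} (h₁ : HasLaw H ψ₁) (h₂ : HasLaw H ψ₂) :
    HasLaw H (ψ₁ * ψ₂) := by
  obtain ⟨n₁, a₁, b₁, ha₁, hb₁, e₁⟩ := h₁
  obtain ⟨n₂, a₂, b₂, ha₂, hb₂, e₂⟩ := h₂
  refine hasLaw_of_fintype H _ (κ := Fin n₁ × Fin n₂) (fun k => a₁ k.1 * a₂ k.2)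
    (fun k => b₁ k.1 * b₂ k.2) (fun k => H.mul_mem (ha₁ _) (ha₂ _))
    (fun k => H.mul_mem (hb₁ _) (hb₂ _)) ?_
  intro x x'
  rw [Fintype.sum_prod_type]
  simp only [Pi.mul_apply]
  rw [e₁, e₂, Finset.sum_mul_sum]
  refine Finset.sum_congr rfl (fun i _ => Finset.sum_congr rfl (fun j _ => ?_))
  ring

/-- (P5) the addition law. -/
theorem pullOrder_law (π : ι → N →+ M) (H0 : Subring (M → Ω))
    (hadd : ∀ φ ∈ H0, ∃ (n : ℕ) (a b : Fin n → M → Ω), (∀ k, a k ∈ H0) ∧ (∀ k, b k ∈ H0) ∧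
      ∀ m m', φ (m + m') = ∑ k, a k m * b k m') :
    ∀ ψ ∈ pullOrder π H0, ∃ (n : ℕ) (a b : Fin n → N → Ω),
      (∀ k, a k ∈ pullOrder π H0) ∧ (∀ k, b k ∈ pullOrder π H0) ∧
      ∀ x x', ψ (x + x') = ∑ k, a k x * b k x' := by
  intro ψ hψ
  change HasLaw (pullOrder π H0) ψ
  induction hψ using Subring.closure_induction with
  | mem ψ h =>
    obtain ⟨i, φ, hφ, rfl⟩ := h
    obtain ⟨n, a, b, ha, hb, e⟩ := hadd φ hφ
    refine ⟨n, fun k x => a k (π i x), fun k x => b k (π i x),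
      fun k => comp_mem_pullOrder π H0 i (ha k), fun k => comp_mem_pullOrder π H0 i (hb k),
      fun x x' => ?_⟩
    show φ (π i (x + x')) = _
    rw [map_add, e]
  | zero => exact hasLaw_zero _
  | one => exact hasLaw_one _
  | add a b _ _ ha hb => exact hasLaw_add _ ha hb
  | neg a _ ha => exact hasLaw_neg _ ha
  | mul a b _ _ ha hb => exact hasLaw_mul _ ha hb

/-- (P6) the clause (Loc): all values are congruent to the value at `0` modulo `𝔪`. -/
theorem pullOrder_loc (π : ι → N →+ M) (H0 : Subring (M → Ω)) (A : Subring Ω)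
    (𝔪 : AddSubgroup Ω) (h𝔪 : ∀ a ∈ A, ∀ d ∈ 𝔪, a * d ∈ 𝔪)
    (hval : ∀ φ ∈ H0, ∀ m, φ m ∈ A) (hloc : ∀ φ ∈ H0, ∀ m, φ m - φ 0 ∈ 𝔪) :
    ∀ ψ ∈ pullOrder π H0, ∀ x, ψ x - ψ 0 ∈ 𝔪 := by
  intro ψ hψ
  induction hψ using Subring.closure_induction with
  | mem ψ h =>
    obtain ⟨i, φ, hφ, rfl⟩ := h
    intro x
    show φ (π i x) - φ (π i 0) ∈ 𝔪
    rw [map_zero]
    exact hloc φ hφ _
  | zero => intro x; simp
  | one => intro x; simp
  | add a b _ _ ha hb =>
    intro x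
    have : (a + b) x - (a + b) 0 = (a x - a 0) + (b x - b 0) := by
      simp only [Pi.add_apply]; ring
    rw [this]
    exact 𝔪.add_mem (ha x) (hb x)
  | neg a _ ha =>
    intro x
    have : (-a) x - (-a) 0 = -(a x - a 0) := by
      simp only [Pi.neg_apply]; ring
    rw [this]
    exact 𝔪.neg_mem (ha x)
  | mul a b ha' hb' ha hb =>
    intro x
    have : (a * b) x - (a * b) 0 = a x * (b x - b 0) + b 0 * (a x - a 0) := by
      simp only [Pi.mul_apply]; ring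
    rw [this]
    exact 𝔪.add_mem (h𝔪 _ (pullOrder_val π H0 A hval a ha' x) _ (hb x))
      (h𝔪 _ (pullOrder_val π H0 A hval b hb' 0) _ (ha x))

end Core

section Product

variable {M Ω : Type*} [AddCommGroup M] [CommRing Ω]

/-- The product order on `Fin d → M`. -/
def prodOrder (d : ℕ) (H0 : Subring (M → Ω)) : Subring ((Fin d → M) → Ω) :=
  pullOrder (fun i : Fin d => Pi.evalAddMonoidHom (fun _ : Fin d => M) i) H0

theorem eval_comp_mem_prodOrder (d : ℕ) (H0 : Subring (M → Ω)) (i : Fin d) {φ : M → Ω}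
    (hφ : φ ∈ H0) : (fun x : Fin d → M => φ (x i)) ∈ prodOrder d H0 :=
  comp_mem_pullOrder _ H0 i hφ

omit [AddCommGroup M] in
/-- The diagonal action on `Fin d → M` is bijective when the action on `M` is. -/
theorem diag_bijective (d : ℕ) (f : M → M) (hf : Function.Bijective f) :
    Function.Bijective (fun (x : Fin d → M) i => f (x i)) := by
  constructor
  · intro x y hxy
    funext i
    exact hf.1 (congrFun hxy i)
  · intro y
    choose g hg using hf.2
    exact ⟨fun i => g (y i), funext fun i => hg (y i)⟩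

/-- The diagonal action on `Fin d → M` is additive when the action on `M` is. -/
theorem diag_add (d : ℕ) (f : M → M) (hf : ∀ m m', f (m + m') = f m + f m')
    (x y : Fin d → M) : (fun i => f ((x + y) i)) = (fun i => f (x i)) + fun i => f (y i) := by
  funext i
  exact hf _ _

/-- **(P7) The product order in the S19-ORDER shape.**  The five clauses of an order of
`S`-equivariant `A`-valued functions on `M` (values, equivariance, scalars fixed by `S`,
separation, addition law) and the clause (Loc) pass to the product order on `Fin d → M`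
with the diagonal action, `d ≠ 0`. -/
theorem prodOrder_spec {G : Type*} (d : ℕ) (hd : d ≠ 0) (A : Subring Ω) (S : Set G)
    (act : G → M → M) (σ : G → Ω →+* Ω) (𝔪 : AddSubgroup Ω)
    (h𝔪 : ∀ a ∈ A, ∀ c ∈ 𝔪, a * c ∈ 𝔪) (H0 : Subring (M → Ω))
    (hval : ∀ φ ∈ H0, ∀ m, φ m ∈ A)
    (hI : ∀ φ ∈ H0, ∀ s ∈ S, ∀ m, φ (act s m) = σ s (φ m))
    (hR0 : ∀ c ∈ A, (∀ s ∈ S, σ s c = c) → ∀ φ ∈ H0, (fun m => c * φ m) ∈ H0)
    (hsep : ∀ m m', m ≠ m' → ∃ φ ∈ H0, φ m ≠ φ m')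
    (hadd : ∀ φ ∈ H0, ∃ (n : ℕ) (a b : Fin n → M → Ω), (∀ k, a k ∈ H0) ∧ (∀ k, b k ∈ H0) ∧
      ∀ m m', φ (m + m') = ∑ k, a k m * b k m')
    (hloc : ∀ φ ∈ H0, ∀ m, φ m - φ 0 ∈ 𝔪) :
    (∀ ψ ∈ prodOrder d H0, ∀ x, ψ x ∈ A) ∧
    (∀ ψ ∈ prodOrder d H0, ∀ s ∈ S, ∀ x : Fin d → M, ψ (fun i => act s (x i)) = σ s (ψ x)) ∧
    (∀ c ∈ A, (∀ s ∈ S, σ s c = c) → ∀ ψ ∈ prodOrder d H0,
      (fun x => c * ψ x) ∈ prodOrder d H0) ∧
    (∀ x x' : Fin d → M, x ≠ x' → ∃ ψ ∈ prodOrder d H0, ψ x ≠ ψ x') ∧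
    (∀ ψ ∈ prodOrder d H0, ∃ (n : ℕ) (a b : Fin n → (Fin d → M) → Ω),
      (∀ k, a k ∈ prodOrder d H0) ∧ (∀ k, b k ∈ prodOrder d H0) ∧
      ∀ x x', ψ (x + x') = ∑ k, a k x * b k x') ∧
    (∀ ψ ∈ prodOrder d H0, ∀ x, ψ x - ψ 0 ∈ 𝔪) := by
  have : Nonempty (Fin d) := ⟨⟨0, Nat.pos_of_ne_zero hd⟩⟩
  refine ⟨pullOrder_val _ H0 A hval, ?_, ?_, ?_, pullOrder_law _ H0 hadd,
    pullOrder_loc _ H0 A 𝔪 h𝔪 hval hloc⟩
  · intro ψ hψ s hs x
    exact pullOrder_equivariant _ H0 (act s) (fun x i => act s (x i)) (σ s) (fun i x => rfl)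
      (fun φ hφ m => hI φ hφ s hs m) ψ hψ x
  · intro c hc hcS ψ hψ
    exact pullOrder_smul _ H0 c (hR0 c hc hcS) ψ hψ
  · exact pullOrder_sep _ H0 (fun x x' h => funext h) hsep

end Product

section Valuation

variable {K : Type*} [Field K]

/-- The nonunits of a valuation subring as an additive subgroup (the maximal ideal, inside `K`). -/
def nonunitsAddSubgroup (A : ValuationSubring K) : AddSubgroup K where
  carrier := {x | x ∈ A.nonunits}
  zero_mem' := by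
    show (0 : K) ∈ A.nonunits
    rw [ValuationSubring.mem_nonunits_iff, map_zero]
    exact zero_lt_one
  add_mem' := by
    intro x y hx hy
    have hx' : A.valuation x < 1 := (ValuationSubring.mem_nonunits_iff A).mp hx
    have hy' : A.valuation y < 1 := (ValuationSubring.mem_nonunits_iff A).mp hy
    show x + y ∈ A.nonunits
    rw [ValuationSubring.mem_nonunits_iff]
    exact lt_of_le_of_lt (A.valuation.map_add x y) (max_lt hx' hy')
  neg_mem' := by
    intro x hx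
    have hx' : A.valuation x < 1 := (ValuationSubring.mem_nonunits_iff A).mp hx
    show -x ∈ A.nonunits
    rw [ValuationSubring.mem_nonunits_iff, Valuation.map_neg]
    exact hx'

theorem mem_nonunitsAddSubgroup (A : ValuationSubring K) (x : K) :
    x ∈ nonunitsAddSubgroup A ↔ x ∈ A.nonunits := Iff.rfl

theorem mul_mem_nonunitsAddSubgroup (A : ValuationSubring K) :
    ∀ a ∈ A.toSubring, ∀ c ∈ nonunitsAddSubgroup A, a * c ∈ nonunitsAddSubgroup A := by
  intro a ha c hc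
  have ha' : A.valuation a ≤ 1 := (A.valuation_le_one_iff a).mpr ha
  have hc' : A.valuation c < 1 := (ValuationSubring.mem_nonunits_iff A).mp hc
  show a * c ∈ A.nonunits
  rw [ValuationSubring.mem_nonunits_iff, map_mul]
  exact mul_lt_one_of_nonneg_of_lt_one_right ha' zero_le hc'

/-- **The product order for a valuation subring and a group of field automorphisms**, in the
shape of the conclusion of `S19.helper1243.exists_order_of_exactLaw` (values in `A`,
`I`-equivariance, scalars from `A^I`, separation, addition law) together with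
(Loc) `φ m - φ 0 ∈ A.nonunits`: all six clauses pass from `H0` on `M` to `prodOrder d H0` on
`Fin d → M` with the diagonal action. -/
theorem prodOrder_spec_valuationSubring {k : Type*} [CommSemiring k] [Algebra k K]
    {M : Type*} [AddCommGroup M] (d : ℕ) (hd : d ≠ 0) (A : ValuationSubring K)
    (I : Subgroup (K ≃ₐ[k] K)) (act : (K ≃ₐ[k] K) → M → M) (H0 : Subring (M → K))
    (hval : ∀ φ ∈ H0, ∀ m, φ m ∈ A)
    (hI : ∀ φ ∈ H0, ∀ s ∈ I, ∀ m, φ (act s m) = s (φ m))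
    (hR0 : ∀ c ∈ A, (∀ s ∈ I, s c = c) → ∀ φ ∈ H0, (fun m => c * φ m) ∈ H0)
    (hsep : ∀ m m', m ≠ m' → ∃ φ ∈ H0, φ m ≠ φ m')
    (hadd : ∀ φ ∈ H0, ∃ (n : ℕ) (a b : Fin n → M → K), (∀ k, a k ∈ H0) ∧ (∀ k, b k ∈ H0) ∧
      ∀ m m', φ (m + m') = ∑ k, a k m * b k m')
    (hloc : ∀ φ ∈ H0, ∀ m, φ m - φ 0 ∈ A.nonunits) :
    (∀ ψ ∈ prodOrder d H0, ∀ x, ψ x ∈ A) ∧
    (∀ ψ ∈ prodOrder d H0, ∀ s ∈ I, ∀ x : Fin d → M, ψ (fun i => act s (x i)) = s (ψ x)) ∧
    (∀ c ∈ A, (∀ s ∈ I, s c = c) → ∀ ψ ∈ prodOrder d H0,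
      (fun x => c * ψ x) ∈ prodOrder d H0) ∧
    (∀ x x' : Fin d → M, x ≠ x' → ∃ ψ ∈ prodOrder d H0, ψ x ≠ ψ x') ∧
    (∀ ψ ∈ prodOrder d H0, ∃ (n : ℕ) (a b : Fin n → (Fin d → M) → K),
      (∀ k, a k ∈ prodOrder d H0) ∧ (∀ k, b k ∈ prodOrder d H0) ∧
      ∀ x x', ψ (x + x') = ∑ k, a k x * b k x') ∧
    (∀ ψ ∈ prodOrder d H0, ∀ x, ψ x - ψ 0 ∈ A.nonunits) :=
  prodOrder_spec d hd A.toSubring (I : Set (K ≃ₐ[k] K)) act
    (fun s => (s : K →+* K)) (nonunitsAddSubgroup A) (mul_mem_nonunitsAddSubgroup A) H0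
    hval hI hR0 hsep hadd hloc

end Valuation

end Fermat.Agent.S33.helper9487
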