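import Fermat.Agent.S33.helper2784_LocalOrd
import Fermat.Agent.S33.helper9487_ProdOrder

/-!
# S33, product order in the vocabulary of `helper2784_LocalOrd`

`OrderHyp G A mA H` on `M` gives `OrderHyp G A mA (prodOrder r H)` on `Fin r → M` (with the
`Pi` action of `G`), `r ≠ 0`; and the existence statement `orderHyp_pi` for every `r`
(for `r = 0` the order of fixed integral constants on the one-point group).
-/

set_option autoImplicit false

namespace Fermat.Agent.S33.helper9487

open Fermat.Agent.S33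

variable {Ω : Type*} [Field Ω] {G : Type*} [Group G] [MulSemiringAction G Ω]
  {M : Type*} [AddCommGroup M] [DistribMulAction G M]
  {A : Subring Ω} {mA : AddSubgroup Ω} {H : Subring (M → Ω)}

/-- **POWORDER**: the product order satisfies `OrderHyp` for the `Pi` action. -/
theorem orderHyp_prodOrder (hmul : ∀ a ∈ A, ∀ x ∈ mA, a * x ∈ mA)
    (hH : helper2784.OrderHyp G A mA H) (r : ℕ) (hr : r ≠ 0) :
    helper2784.OrderHyp G A mA (prodOrder r H) := by
  obtain ⟨h1, h2, h3, h4, h5, h6⟩ := prodOrder_spec r hr A (Set.univ : Set G)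
    (fun g m => g • m) (fun g => MulSemiringAction.toRingHom G Ω g) mA hmul H hH.val
    (fun φ hφ s _ m => hH.eqv φ hφ s m)
    (fun c hc hfix φ hφ => hH.smul c hc (fun g => hfix g (Set.mem_univ g)) φ hφ)
    hH.sep hH.law hH.loc
  exact ⟨h1, fun ψ hψ g x => h2 ψ hψ g (Set.mem_univ g) x,
    fun c hc hfix ψ hψ => h3 c hc (fun s _ => hfix s) ψ hψ, h4, h5, h6⟩

/-- The order of fixed integral constants on a one-point group. -/
def constOrder (G : Type*) [Group G] [MulSemiringAction G Ω] (A : Subring Ω) (X : Type*) :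
    Subring (X → Ω) where
  carrier := {ψ | ∃ c ∈ A, helper2784.Fixed G c ∧ ψ = fun _ => c}
  mul_mem' := by
    rintro _ _ ⟨c, hc, hcf, rfl⟩ ⟨d, hd, hdf, rfl⟩
    exact ⟨c * d, A.mul_mem hc hd, hcf.mul hdf, rfl⟩
  one_mem' := ⟨1, A.one_mem, helper2784.Fixed.one, rfl⟩
  add_mem' := by
    rintro _ _ ⟨c, hc, hcf, rfl⟩ ⟨d, hd, hdf, rfl⟩
    exact ⟨c + d, A.add_mem hc hd, hcf.add hdf, rfl⟩
  zero_mem' := ⟨0, A.zero_mem, helper2784.Fixed.zero, rfl⟩
  neg_mem' := by
    rintro _ ⟨c, hc, hcf, rfl⟩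
    exact ⟨-c, A.neg_mem hc, hcf.neg, rfl⟩

/-- On a subsingleton group the order of fixed integral constants satisfies `OrderHyp`. -/
theorem orderHyp_constOrder {X : Type*} [AddCommGroup X] [DistribMulAction G X] [Subsingleton X]
    (A : Subring Ω) (mA : AddSubgroup Ω) : helper2784.OrderHyp G A mA (constOrder G A X) where
  val := by
    rintro _ ⟨c, hc, -, rfl⟩ m
    exact hc
  eqv := by
    rintro _ ⟨c, -, hcf, rfl⟩ g m
    exact (hcf g).symm
  smul := by
    rintro c hc hcf _ ⟨d, hd, hdf, rfl⟩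
    exact ⟨c * d, A.mul_mem hc hd, hcf.mul hdf, rfl⟩
  sep := fun m m' hne => absurd (Subsingleton.elim m m') hne
  law := by
    rintro _ ⟨c, hc, hcf, rfl⟩
    refine ⟨1, fun _ _ => c, fun _ _ => 1, fun _ => ⟨c, hc, hcf, rfl⟩,
      fun _ => ⟨1, A.one_mem, helper2784.Fixed.one, rfl⟩, fun m m' => by simp⟩
  loc := by
    rintro _ ⟨c, -, -, rfl⟩ m
    simp

/-- **POWORDER, existence form** (statement of the S33 captain, `team_s33_chat` #67): for every
`r` there is an order on `Fin r → M` satisfying `OrderHyp` and containing all `φ ∘ eval i`. -/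
theorem orderHyp_pi {p : ℕ} (hb : helper2784.BaseHyp G p A mA)
    (hH : helper2784.OrderHyp G A mA H) (r : ℕ) :
    ∃ Hr : Subring ((Fin r → M) → Ω), helper2784.OrderHyp G A mA Hr ∧
      ∀ φ ∈ H, ∀ i, (fun x : Fin r → M => φ (x i)) ∈ Hr := by
  rcases Nat.eq_zero_or_pos r with rfl | hr
  · exact ⟨constOrder G A (Fin 0 → M), orderHyp_constOrder A mA, fun φ _ i => i.elim0⟩
  · exact ⟨prodOrder r H, orderHyp_prodOrder hb.mA_mul hH r (Nat.pos_iff_ne_zero.mp hr),
      fun φ hφ i => eval_comp_mem_prodOrder r H i hφ⟩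

end Fermat.Agent.S33.helper9487
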