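/-
S33 (ordinarity at `p ∥ N`) -- LOCAL-ORD, the DUAL step (findings #2990 (3)(iii)).
helper9568.  Mathlib + `helper6126_BinomCore` only.

Elementary basis form.  `Ω` is a field with an action of a group `G`, `A ⊆ Ω` a subring,
`R0 = A^G`, `mA ⊆ A` an ideal-like subset with `g a - a ∈ mA`, `R0 ∩ mA ⊆ p R0`.  `M` is an
abelian group with `G`-action and `φ : I → M → Ω` a finite family of `G`-equivariant `A`-valued
functions, an `Ω`-basis of `M → Ω`, whose `R0`-span is a ring (`u`, `d`) stable under the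
comultiplication `φ i (m + m') = ∑ c i j k * (φ j m * φ k m')`.

* `DualHyp.char_coeff_mem` (D1): every character `χ : M → Ω` is an `A`-combination of the `φ i`.
* `DualHyp.quot_sub_one` (D2): for a character `χ` and `s : G`, if `η = s(χ)/χ` is
  `G`-equivariant, then `η = ∑ y k * φ k` with `y k ∈ R0` and `y k - u k ∈ p R0`.
* `DualHyp.dual_trivial` (D3): if moreover `η ^ p = 1` (`p` odd) then `η = 1`.
* `DualHyp.smul_sub_mem_of_chain` (D5): if `M` is killed by `p ^ N`, `Ω` contains a primitive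
  `p ^ N`-th root of unity `ζ` with `g • ζ = ζ ^ e g`, and `M` has a `G`-stable chain
  `C 0, …, C r = ⊤` with `G` acting through `e` on the steps, then `g • m - e g • m ∈ C 0`.
* `DualHyp.smul_sub_mem_of_nofix`: the same for a chain with steps `{1, e}` when no quotient of
  `M` by a `G`-stable subgroup has a nonzero `G`-fixed element (NOFIX): LOCAL-ORD = NOFIX + DUAL.
-/
import Mathlib
import Fermat.Agent.S33.helper6126_BinomCore

set_option autoImplicit false

namespace Fermat.Agent.S33.helper9568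

open Finset
open scoped Pointwise

variable {Ω : Type*} [Field Ω] {G : Type*} [Group G] [MulSemiringAction G Ω]
  {M : Type*} [AddCommGroup M] [DistribMulAction G M]
  {I : Type*} [Fintype I]

/-- The hypotheses of the dual step of LOCAL-ORD, in basis form. -/
structure DualHyp (A R0 : Subring Ω) (mA : Set Ω) (p : ℕ) (φ : I → M → Ω)
    (u : I → Ω) (d c : I → I → I → Ω) : Prop where
  R0_le : R0 ≤ A
  R0_fixed : ∀ x ∈ R0, ∀ g : G, g • x = x
  fixed_mem : ∀ x ∈ A, (∀ g : G, g • x = x) → x ∈ R0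
  integral_mem : ∀ x : Ω, IsIntegral R0 x → x ∈ A
  mA_le : ∀ x ∈ mA, x ∈ A
  mA_zero : (0 : Ω) ∈ mA
  mA_add : ∀ x ∈ mA, ∀ y ∈ mA, x + y ∈ mA
  mA_mul : ∀ a ∈ A, ∀ x ∈ mA, a * x ∈ mA
  inertia : ∀ g : G, ∀ a ∈ A, g • a - a ∈ mA
  fixed_mA : ∀ x ∈ R0, x ∈ mA → ∃ y ∈ R0, x = (p : Ω) * y
  p_ne_zero : (p : Ω) ≠ 0
  sep : ∀ x ∈ R0, (∀ k : ℕ, ∃ y ∈ R0, x = (p : Ω) ^ k * y) → x = 0
  mem_A : ∀ i m, φ i m ∈ A
  equiv : ∀ i (g : G) m, φ i (g • m) = g • φ i m
  indep : LinearIndependent Ω φ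
  span : ⊤ ≤ Submodule.span Ω (Set.range φ)
  u_mem : ∀ k, u k ∈ R0
  one_eq : ∀ m, ∑ k, u k * φ k m = 1
  d_mem : ∀ i j k, d i j k ∈ R0
  mul_eq : ∀ i j m, φ i m * φ j m = ∑ k, d i j k * φ k m
  c_mem : ∀ i j k, c i j k ∈ R0
  comul_eq : ∀ i m m', φ i (m + m') = ∑ j, ∑ k, c i j k * (φ j m * φ k m')

/-- A character of `M` with values in `Ω`. -/
def IsChar (χ : M → Ω) : Prop := χ 0 = 1 ∧ ∀ m m', χ (m + m') = χ m * χ m'

namespace IsChar

omit [MulSemiringAction G Ω] [DistribMulAction G M] in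
theorem nsmul {χ : M → Ω} (hχ : IsChar χ) (n : ℕ) (m : M) : χ (n • m) = χ m ^ n := by
  induction n with
  | zero => simp [hχ.1]
  | succ n ih => rw [succ_nsmul, hχ.2, ih, pow_succ]

omit [MulSemiringAction G Ω] [DistribMulAction G M] in
theorem neg_mul {χ : M → Ω} (hχ : IsChar χ) (m : M) : χ (-m) * χ m = 1 := by
  rw [← hχ.2, neg_add_cancel, hχ.1]

omit [MulSemiringAction G Ω] [DistribMulAction G M] in
theorem pow {χ : M → Ω} (hχ : IsChar χ) (n : ℕ) : IsChar (fun m => χ m ^ n) :=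
  ⟨by simp [hχ.1], fun m m' => by simp [hχ.2, mul_pow]⟩

omit [DistribMulAction G M] in
/-- On a group killed by `n`, `G` acts on the values of a character through the exponent `e`
of its action on a primitive `n`-th root of unity. -/
theorem smul_eq_pow {χ : M → Ω} (hχ : IsChar χ) {n : ℕ} (hn : n ≠ 0) (hM : ∀ m : M, n • m = 0)
    {ζ : Ω} (hζ : IsPrimitiveRoot ζ n) {e : G → ℕ} (he : ∀ g : G, g • ζ = ζ ^ e g) (g : G)
    (m : M) : g • χ m = χ m ^ e g := by
  have h1 : χ m ^ n = 1 := by rw [← hχ.nsmul, hM, hχ.1]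
  have : NeZero n := ⟨hn⟩
  obtain ⟨i, -, hi⟩ := hζ.eq_pow_of_pow_eq_one h1
  rw [← hi, smul_pow', he, ← pow_mul, ← pow_mul, mul_comm]

omit [MulSemiringAction G Ω] [DistribMulAction G M] in
/-- Characters separate the points of a finite group killed by `n` when `Ω` contains a primitive
`n`-th root of unity. -/
theorem exists_ne_one [Finite M] {n : ℕ} (hn : n ≠ 0) (hM : ∀ m : M, n • m = 0) {ζ : Ω}
    (hζ : IsPrimitiveRoot ζ n) {x : M} (hx : x ≠ 0) : ∃ χ : M → Ω, IsChar χ ∧ χ x ≠ 1 := by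
  have : NeZero n := ⟨hn⟩
  have : HasEnoughRootsOfUnity Ω n := ⟨⟨ζ, hζ⟩, rootsOfUnity.isCyclic Ω n⟩
  have hdvd : Monoid.exponent (Multiplicative M) ∣ n :=
    Monoid.exponent_dvd_of_forall_pow_eq_one (fun g => by
      show Multiplicative.ofAdd (n • Multiplicative.toAdd g) = 1
      rw [hM]
      rfl)
  have : HasEnoughRootsOfUnity Ω (Monoid.exponent (Multiplicative M)) :=
    HasEnoughRootsOfUnity.of_dvd Ω hdvd
  obtain ⟨ψ, hψ⟩ := CommGroup.exists_apply_ne_one_of_hasEnoughRootsOfUnity (Multiplicative M) Ω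
    (a := Multiplicative.ofAdd x) (by simpa using hx)
  refine ⟨fun m => (ψ (Multiplicative.ofAdd m) : Ω), ⟨by simp, fun m m' => by simp [ofAdd_add]⟩,
    ?_⟩
  intro h1
  exact hψ (Units.ext h1)

omit [MulSemiringAction G Ω] [DistribMulAction G M] in
/-- Relative form: characters trivial on a subgroup `N₀` separate the points of `M ⧸ N₀`. -/
theorem exists_ne_one_of_not_mem [Finite M] {n : ℕ} (hn : n ≠ 0) (hM : ∀ m : M, n • m = 0)
    {ζ : Ω} (hζ : IsPrimitiveRoot ζ n) (N₀ : AddSubgroup M) {x : M} (hx : x ∉ N₀) :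
    ∃ χ : M → Ω, IsChar χ ∧ (∀ y ∈ N₀, χ y = 1) ∧ χ x ≠ 1 := by
  have hQ : ∀ q : M ⧸ N₀, n • q = 0 := by
    intro q
    obtain ⟨m, rfl⟩ := QuotientAddGroup.mk_surjective q
    rw [← QuotientAddGroup.mk_nsmul, hM, QuotientAddGroup.mk_zero]
  have hx' : (QuotientAddGroup.mk x : M ⧸ N₀) ≠ 0 := fun h0 =>
    hx ((QuotientAddGroup.eq_zero_iff x).1 h0)
  obtain ⟨χ, hχ, hχx⟩ := exists_ne_one (Ω := Ω) hn hQ hζ hx'
  refine ⟨fun m => χ (QuotientAddGroup.mk m), ⟨?_, fun m m' => ?_⟩, fun y hy => ?_, hχx⟩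
  · show χ (QuotientAddGroup.mk (0 : M)) = 1
    rw [QuotientAddGroup.mk_zero, hχ.1]
  · show χ (QuotientAddGroup.mk (m + m')) = χ (QuotientAddGroup.mk m) * χ (QuotientAddGroup.mk m')
    rw [QuotientAddGroup.mk_add, hχ.2]
  · show χ (QuotientAddGroup.mk y) = 1
    rw [(QuotientAddGroup.eq_zero_iff y).2 hy, hχ.1]

end IsChar

namespace DualHyp

variable {A R0 : Subring Ω} {mA : Set Ω} {p : ℕ} {φ : I → M → Ω}
  {u : I → Ω} {d c : I → I → I → Ω}

/-- Coefficients with respect to `φ` are unique. -/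
theorem coeff_zero (h : DualHyp (G := G) A R0 mA p φ u d c) (a : I → Ω)
    (ha : ∀ m, ∑ i, a i * φ i m = 0) : ∀ i, a i = 0 := by
  refine Fintype.linearIndependent_iff.1 h.indep a ?_
  funext m
  simpa [Finset.sum_apply] using ha m

theorem coeff_unique (h : DualHyp (G := G) A R0 mA p φ u d c) (a a' : I → Ω)
    (ha : ∀ m, ∑ i, a i * φ i m = ∑ i, a' i * φ i m) : a = a' := by
  funext i
  have := h.coeff_zero (fun i => a i - a' i) (fun m => by
    simp only [sub_mul, Finset.sum_sub_distrib, ha m, sub_self]) i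
  exact sub_eq_zero.1 this

/-- Every function is a combination of the `φ i`. -/
theorem exists_coeff (h : DualHyp (G := G) A R0 mA p φ u d c) (f : M → Ω) :
    ∃ a : I → Ω, ∀ m, f m = ∑ i, a i * φ i m := by
  have hf : f ∈ Submodule.span Ω (Set.range φ) := h.span Submodule.mem_top
  obtain ⟨a, ha⟩ := (Submodule.mem_span_range_iff_exists_fun Ω).1 hf
  refine ⟨a, fun m => ?_⟩
  rw [← ha]
  simp [Finset.sum_apply]

/-- Double coefficients are unique. -/
theorem coeff2_zero (h : DualHyp (G := G) A R0 mA p φ u d c) (x : I → I → Ω)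
    (hx : ∀ m m', ∑ j, ∑ k, x j k * (φ j m * φ k m') = 0) : ∀ j k, x j k = 0 := by
  intro j
  refine h.coeff_zero (fun k => x j k) fun m' => ?_
  refine h.coeff_zero (fun j => ∑ k, x j k * φ k m') (fun m => ?_) j
  rw [← hx m m']
  refine Finset.sum_congr rfl fun j _ => ?_
  rw [Finset.sum_mul]
  refine Finset.sum_congr rfl fun k _ => ?_
  ring

/-- The coefficients of a multiplicative function are multiplicative for the structure
constants of the comultiplication. -/
theorem char_coeff_mul (h : DualHyp (G := G) A R0 mA p φ u d c) (χ : M → Ω)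
    (hχ : ∀ m m', χ (m + m') = χ m * χ m') (a : I → Ω) (ha : ∀ m, χ m = ∑ i, a i * φ i m) :
    ∀ j k, a j * a k = ∑ i, a i * c i j k := by
  intro j k
  have := h.coeff2_zero (fun j k => a j * a k - ∑ i, a i * c i j k) (fun m m' => ?_) j k
  · exact sub_eq_zero.1 this
  have h1 : ∑ j, ∑ k, (a j * a k) * (φ j m * φ k m') = χ m * χ m' := by
    rw [ha m, ha m', Finset.sum_mul_sum]
    refine Finset.sum_congr rfl fun j _ => Finset.sum_congr rfl fun k _ => ?_
    ring
  have h2 : ∑ j, ∑ k, (∑ i, a i * c i j k) * (φ j m * φ k m') = χ (m + m') := by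
    calc ∑ j, ∑ k, (∑ i, a i * c i j k) * (φ j m * φ k m')
        = ∑ j, ∑ k, ∑ i, a i * (c i j k * (φ j m * φ k m')) := by
          refine Finset.sum_congr rfl fun j _ => Finset.sum_congr rfl fun k _ => ?_
          rw [Finset.sum_mul]
          exact Finset.sum_congr rfl fun i _ => by ring
      _ = ∑ j, ∑ i, ∑ k, a i * (c i j k * (φ j m * φ k m')) :=
          Finset.sum_congr rfl fun j _ => Finset.sum_comm
      _ = ∑ i, ∑ j, ∑ k, a i * (c i j k * (φ j m * φ k m')) := Finset.sum_comm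
      _ = χ (m + m') := by
          rw [ha (m + m')]
          refine Finset.sum_congr rfl fun i _ => ?_
          rw [h.comul_eq, Finset.mul_sum]
          exact Finset.sum_congr rfl fun j _ => by rw [Finset.mul_sum]
  simp only [sub_mul, Finset.sum_sub_distrib]
  rw [h1, h2, hχ, sub_self]

/-- **(D1)** The coefficients of a character lie in `A`. -/
theorem char_coeff_mem (h : DualHyp (G := G) A R0 mA p φ u d c) (χ : M → Ω)
    (hχ : ∀ m m', χ (m + m') = χ m * χ m') (a : I → Ω) (ha : ∀ m, χ m = ∑ i, a i * φ i m) :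
    ∀ i, a i ∈ A := by
  classical
  have hmul := h.char_coeff_mul χ hχ a ha
  set S : Submodule R0 Ω := Submodule.span R0 (insert 1 (Set.range a)) with hS
  have hone : (1 : Ω) ∈ S := Submodule.subset_span (Set.mem_insert _ _)
  have hgen : ∀ i, a i ∈ S := fun i =>
    Submodule.subset_span (Set.mem_insert_of_mem _ ⟨i, rfl⟩)
  have hSS : ∀ x y, x ∈ S → y ∈ S → x * y ∈ S := by
    intro x y hx hy
    have hle : S * S ≤ S := by
      rw [show S * S = Submodule.span R0
        (insert 1 (Set.range a) * insert 1 (Set.range a)) from Submodule.span_mul_span _ _ _]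
      refine Submodule.span_le.2 ?_
      rintro _ ⟨x, hx, y, hy, rfl⟩
      change x * y ∈ S
      rcases hx with rfl | ⟨j, rfl⟩
      · rw [one_mul]
        exact Submodule.subset_span hy
      rcases hy with rfl | ⟨k, rfl⟩
      · rw [mul_one]
        exact hgen j
      · rw [hmul j k]
        refine Submodule.sum_mem _ fun i _ => ?_
        have : a i * c i j k = (⟨c i j k, h.c_mem i j k⟩ : R0) • a i := by
          rw [Subring.smul_def, smul_eq_mul, mul_comm]
        rw [this]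
        exact Submodule.smul_mem _ _ (hgen i)
    exact hle (Submodule.mul_mem_mul hx hy)
  have hfg : (S.toSubalgebra hone hSS).toSubmodule.FG := by
    rw [Submodule.toSubalgebra_toSubmodule]
    exact Submodule.fg_span ((Set.finite_range a).insert 1)
  intro i
  exact h.integral_mem _ (IsIntegral.of_mem_of_fg (S.toSubalgebra hone hSS) hfg (a i) (hgen i))

/-- Coefficients of the twist `m ↦ s • f (s⁻¹ • m)`. -/
theorem twist_coeff (h : DualHyp (G := G) A R0 mA p φ u d c) (s : G) (f : M → Ω) (a : I → Ω)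
    (ha : ∀ m, f m = ∑ i, a i * φ i m) (m : M) :
    s • f (s⁻¹ • m) = ∑ i, (s • a i) * φ i m := by
  rw [ha, Finset.smul_sum]
  refine Finset.sum_congr rfl fun i _ => ?_
  rw [smul_mul', ← h.equiv, smul_inv_smul]

/-- The coefficients of a `G`-equivariant function are `G`-fixed. -/
theorem equivariant_coeff_fixed (h : DualHyp (G := G) A R0 mA p φ u d c) (f : M → Ω)
    (hf : ∀ (g : G) m, f (g • m) = g • f m) (y : I → Ω) (hy : ∀ m, f m = ∑ k, y k * φ k m)
    (k : I) (g : G) : g • y k = y k := by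
  have := h.coeff_unique (fun k => g • y k) y (fun m => by
    rw [← h.twist_coeff g f y hy m, ← hf, smul_inv_smul, hy])
  exact congrFun this k

/-- Coefficients of a product. -/
theorem mul_coeff (h : DualHyp (G := G) A R0 mA p φ u d c) (f f' : M → Ω) (a b : I → Ω)
    (ha : ∀ m, f m = ∑ i, a i * φ i m) (hb : ∀ m, f' m = ∑ i, b i * φ i m) (m : M) :
    f m * f' m = ∑ k, (∑ i, ∑ j, a i * b j * d i j k) * φ k m := by
  calc f m * f' m = ∑ i, ∑ j, ∑ k, a i * b j * d i j k * φ k m := by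
        rw [ha m, hb m, Finset.sum_mul_sum]
        refine Finset.sum_congr rfl fun i _ => Finset.sum_congr rfl fun j _ => ?_
        rw [show a i * φ i m * (b j * φ j m) = a i * b j * (φ i m * φ j m) by ring, h.mul_eq,
          Finset.mul_sum]
        exact Finset.sum_congr rfl fun k _ => by ring
    _ = ∑ i, ∑ k, ∑ j, a i * b j * d i j k * φ k m :=
        Finset.sum_congr rfl fun i _ => Finset.sum_comm
    _ = ∑ k, ∑ i, ∑ j, a i * b j * d i j k * φ k m := Finset.sum_comm
    _ = ∑ k, (∑ i, ∑ j, a i * b j * d i j k) * φ k m := by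
        refine Finset.sum_congr rfl fun k _ => ?_
        rw [Finset.sum_mul]
        exact Finset.sum_congr rfl fun i _ => by rw [Finset.sum_mul]

theorem smul_mem_A (h : DualHyp (G := G) A R0 mA p φ u d c) (g : G) {a : Ω} (ha : a ∈ A) :
    g • a ∈ A := by
  have := A.add_mem (h.mA_le _ (h.inertia g a ha)) ha
  rwa [sub_add_cancel] at this

theorem mA_sum (h : DualHyp (G := G) A R0 mA p φ u d c) {ι : Type*} (s : Finset ι) (f : ι → Ω)
    (hf : ∀ i ∈ s, f i ∈ mA) : ∑ i ∈ s, f i ∈ mA := by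
  classical
  induction s using Finset.induction_on with
  | empty => simpa using h.mA_zero
  | insert i s hi ih =>
    rw [Finset.sum_insert hi]
    exact h.mA_add _ (hf i (Finset.mem_insert_self _ _)) _
      (ih fun j hj => hf j (Finset.mem_insert_of_mem hj))

/-- **(D2)** For a character `χ` and `s : G`, if `η = s(χ)/χ` is `G`-equivariant then
`η = 1 + p * ∑ z k * φ k` with `z k ∈ R0`. -/
theorem quot_sub_one (h : DualHyp (G := G) A R0 mA p φ u d c) (χ : M → Ω) (hχ0 : χ 0 = 1)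
    (hχ : ∀ m m', χ (m + m') = χ m * χ m') (s : G)
    (hη : ∀ (g : G) m, s • χ (s⁻¹ • (g • m)) * χ (-(g • m)) = g • (s • χ (s⁻¹ • m) * χ (-m))) :
    ∃ z : I → Ω, (∀ k, z k ∈ R0) ∧
      ∀ m, s • χ (s⁻¹ • m) * χ (-m) = 1 + (p : Ω) * ∑ k, z k * φ k m := by
  classical
  obtain ⟨a, ha⟩ := h.exists_coeff χ
  obtain ⟨b, hb⟩ := h.exists_coeff (fun m => χ (-m))
  have haA := h.char_coeff_mem χ hχ a ha
  have hbA := h.char_coeff_mem (fun m => χ (-m)) (fun m m' => by
    show χ (-(m + m')) = χ (-m) * χ (-m')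
    rw [neg_add, hχ]) b hb
  -- the coefficients of `η`
  have hy := fun m => h.mul_coeff (fun m => s • χ (s⁻¹ • m)) (fun m => χ (-m))
    (fun i => s • a i) b (h.twist_coeff s χ a ha) hb m
  -- the coefficients of `1`
  have hw := fun m => h.mul_coeff χ (fun m => χ (-m)) a b ha hb m
  have hwu : (fun k => ∑ i, ∑ j, a i * b j * d i j k) = u := by
    refine h.coeff_unique _ _ fun m => ?_
    rw [← hw m, h.one_eq, ← hχ, add_neg_cancel, hχ0]
  set y : I → Ω := fun k => ∑ i, ∑ j, s • a i * b j * d i j k with hydef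
  have hyA : ∀ k, y k ∈ A := fun k =>
    A.sum_mem fun i _ => A.sum_mem fun j _ =>
      A.mul_mem (A.mul_mem (h.smul_mem_A s (haA i)) (hbA j)) (h.R0_le (h.d_mem i j k))
  have hyfix : ∀ k (g : G), g • y k = y k :=
    h.equivariant_coeff_fixed (fun m => s • χ (s⁻¹ • m) * χ (-m)) hη y hy
  have hyR0 : ∀ k, y k ∈ R0 := fun k => h.fixed_mem _ (hyA k) (hyfix k)
  have hdiff : ∀ k, y k - u k ∈ mA := by
    intro k
    have : y k - u k = ∑ i, ∑ j, (b j * d i j k) * (s • a i - a i) := by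
      rw [← congrFun hwu k, hydef, ← Finset.sum_sub_distrib]
      refine Finset.sum_congr rfl fun i _ => ?_
      rw [← Finset.sum_sub_distrib]
      exact Finset.sum_congr rfl fun j _ => by ring
    rw [this]
    exact h.mA_sum _ _ fun i _ => h.mA_sum _ _ fun j _ =>
      h.mA_mul _ (A.mul_mem (hbA j) (h.R0_le (h.d_mem i j k))) _ (h.inertia s _ (haA i))
  have hz : ∀ k, ∃ z ∈ R0, y k - u k = (p : Ω) * z := fun k =>
    h.fixed_mA _ (R0.sub_mem (hyR0 k) (h.u_mem k)) (hdiff k)
  choose z hzR0 hzeq using hz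
  refine ⟨z, hzR0, fun m => ?_⟩
  rw [hy m, ← h.one_eq m, Finset.mul_sum, ← Finset.sum_add_distrib]
  refine Finset.sum_congr rfl fun k _ => ?_
  have : y k = u k + (p : Ω) * z k := by rw [← hzeq k]; ring
  change y k * φ k m = _
  rw [this]
  ring

/-- The `R0`-span of the `φ i`, as a subring of `M → Ω`. -/
def spanRing (h : DualHyp (G := G) A R0 mA p φ u d c) : Subring (M → Ω) where
  carrier := {f | ∃ y : I → Ω, (∀ k, y k ∈ R0) ∧ ∀ m, f m = ∑ k, y k * φ k m}
  mul_mem' := by
    rintro f f' ⟨y, hy, hf⟩ ⟨y', hy', hf'⟩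
    refine ⟨fun k => ∑ i, ∑ j, y i * y' j * d i j k, fun k => ?_, fun m => ?_⟩
    · exact R0.sum_mem fun i _ => R0.sum_mem fun j _ =>
        R0.mul_mem (R0.mul_mem (hy i) (hy' j)) (h.d_mem i j k)
    · exact h.mul_coeff f f' y y' hf hf' m
  one_mem' := ⟨u, h.u_mem, fun m => (h.one_eq m).symm⟩
  add_mem' := by
    rintro f f' ⟨y, hy, hf⟩ ⟨y', hy', hf'⟩
    refine ⟨fun k => y k + y' k, fun k => R0.add_mem (hy k) (hy' k), fun m => ?_⟩
    rw [Pi.add_apply, hf, hf', ← Finset.sum_add_distrib]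
    exact Finset.sum_congr rfl fun k _ => by ring
  zero_mem' := ⟨fun _ => 0, fun _ => R0.zero_mem, fun m => by simp⟩
  neg_mem' := by
    rintro f ⟨y, hy, hf⟩
    refine ⟨fun k => -y k, fun k => R0.neg_mem (hy k), fun m => ?_⟩
    rw [Pi.neg_apply, hf, ← Finset.sum_neg_distrib]
    exact Finset.sum_congr rfl fun k _ => by ring

theorem mem_spanRing (h : DualHyp (G := G) A R0 mA p φ u d c) (f : M → Ω) :
    f ∈ h.spanRing ↔ ∃ y : I → Ω, (∀ k, y k ∈ R0) ∧ ∀ m, f m = ∑ k, y k * φ k m := Iff.rfl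

/-- **(D3)** The dual step: `η = s(χ)/χ` is `G`-equivariant with `η ^ p = 1`, `p` odd; then
`η = 1`, i.e. `s` fixes `χ`. -/
theorem dual_trivial (h : DualHyp (G := G) A R0 mA p φ u d c) (hp : p.Prime) (hp2 : p ≠ 2)
    (χ : M → Ω) (hχ0 : χ 0 = 1) (hχ : ∀ m m', χ (m + m') = χ m * χ m') (s : G)
    (hη : ∀ (g : G) m, s • χ (s⁻¹ • (g • m)) * χ (-(g • m)) = g • (s • χ (s⁻¹ • m) * χ (-m)))
    (hpow : ∀ m, (s • χ (s⁻¹ • m) * χ (-m)) ^ p = 1) :
    ∀ m, s • χ (s⁻¹ • m) = χ m := by
  classical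
  obtain ⟨z, hzR0, hz⟩ := h.quot_sub_one χ hχ0 hχ s hη
  -- the element `x = η - 1 = p * ∑ z k φ k` of the span ring
  let w : h.spanRing := ⟨fun m => ∑ k, z k * φ k m, z, hzR0, fun _ => rfl⟩
  have hnat : ∀ (n : ℕ) (m : M), (((n : h.spanRing) : M → Ω)) m = (n : Ω) := by
    intro n m
    rw [Subring.coe_natCast]
    rfl
  have hx0 : (p : h.spanRing) * w = 0 := by
    refine helper6126.eq_zero_of_one_add_pow_eq_one_ring hp hp2 ((p : h.spanRing) * w)
      ⟨w, rfl⟩ ?_ ?_ ?_
    · apply Subtype.ext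
      funext m
      have := hpow m
      rw [hz m] at this
      simp only [Subring.coe_pow, Subring.coe_add, Subring.coe_one, Subring.coe_mul,
        Pi.pow_apply, Pi.add_apply, Pi.one_apply, Pi.mul_apply, hnat]
      exact this
    · intro r hr
      apply Subtype.ext
      funext m
      have := congrFun (congrArg Subtype.val hr) m
      simp only [Subring.coe_mul, Pi.mul_apply, hnat, Subring.coe_zero, Pi.zero_apply] at this
      exact (mul_eq_zero.1 this).resolve_left h.p_ne_zero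
    · intro r hr
      obtain ⟨y, hyR0, hy⟩ := (h.mem_spanRing _).1 r.2
      have hy0 : ∀ k, y k = 0 := by
        intro k
        refine h.sep _ (hyR0 k) fun n => ?_
        obtain ⟨r', hr'⟩ := hr n
        obtain ⟨y', hy'R0, hy'⟩ := (h.mem_spanRing _).1 r'.2
        refine ⟨y' k, hy'R0 k, ?_⟩
        have := h.coeff_unique y (fun k => (p : Ω) ^ n * y' k) (fun m => by
          rw [← hy m]
          have := congrFun (congrArg Subtype.val hr') m
          simp only [Subring.coe_mul, Subring.coe_pow, Pi.mul_apply, Pi.pow_apply, hnat] at this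
          rw [this, hy' m, Finset.mul_sum]
          exact Finset.sum_congr rfl fun k _ => by ring)
        exact congrFun this k
      apply Subtype.ext
      funext m
      rw [hy m]
      simp [hy0]
  intro m
  have hw0 : (p : Ω) * ∑ k, z k * φ k m = 0 := by
    have := congrFun (congrArg Subtype.val hx0) m
    simpa only [Subring.coe_mul, Pi.mul_apply, hnat, Subring.coe_zero, Pi.zero_apply] using this
  have h1 := hz m
  rw [hw0, add_zero] at h1
  have h2 : χ (-m) * χ m = 1 := by rw [← hχ, neg_add_cancel, hχ0]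
  calc s • χ (s⁻¹ • m) = s • χ (s⁻¹ • m) * (χ (-m) * χ m) := by rw [h2, mul_one]
    _ = (s • χ (s⁻¹ • m) * χ (-m)) * χ m := by ring
    _ = χ m := by rw [h1, one_mul]

/-- **(D5), relative form** The dual step in the form consumed by the chain induction.  `M` is
finite, killed by `p ^ N`; `Ω` contains a primitive `p ^ N`-th root of unity `ζ` with
`g • ζ = ζ ^ e g`; `M` has a `G`-stable chain `C 0, …, C r = ⊤` on whose steps `G` acts through
`e`.  Then `G` acts on `M ⧸ C 0` through `e`.  (The order lives on `M`; no order on the quotient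
is needed.) -/
theorem smul_sub_mem_of_chain [Finite M] (h : DualHyp (G := G) A R0 mA p φ u d c) (hp : p.Prime)
    (hp2 : p ≠ 2) (N : ℕ) (hM : ∀ m : M, p ^ N • m = 0) (ζ : Ω) (hζ : IsPrimitiveRoot ζ (p ^ N))
    (e : G → ℕ) (he : ∀ g : G, g • ζ = ζ ^ e g)
    (r : ℕ) (C : ℕ → AddSubgroup M) (hCr : C r = ⊤)
    (hCstab : ∀ i (g : G), ∀ x ∈ C i, g • x ∈ C i)
    (hstep : ∀ i < r, ∀ (g : G), ∀ x ∈ C (i + 1), g • x - e g • x ∈ C i)
    (g : G) (m : M) : g • m - e g • m ∈ C 0 := by
  classical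
  have hpN : p ^ N ≠ 0 := pow_ne_zero _ hp.ne_zero
  have hsm : ∀ {χ : M → Ω}, IsChar χ → ∀ (g : G) (m : M), g • χ m = χ m ^ e g :=
    fun hχ g m => hχ.smul_eq_pow hpN hM hζ he g m
  -- `η = s(χ)/χ` is a character
  have hηchar : ∀ {χ : M → Ω}, IsChar χ → ∀ s : G,
      IsChar (fun m => s • χ (s⁻¹ • m) * χ (-m)) := by
    intro χ hχ s
    refine ⟨?_, fun m m' => ?_⟩
    · simp [hχ.1]
    · simp only [smul_add, neg_add, hχ.2, smul_mul']
      ring
  -- downward induction along the chain: `G` fixes the characters trivial on `C (r - k)`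
  have key : ∀ k, k ≤ r → ∀ χ : M → Ω, IsChar χ → (∀ x ∈ C (r - k), χ x = 1) →
      ∀ (s : G) (m : M), s • χ (s⁻¹ • m) = χ m := by
    intro k
    induction k with
    | zero =>
      intro _ χ hχ h1 s m
      have : ∀ x, χ x = 1 := fun x => h1 x (by
        rw [Nat.sub_zero, hCr]
        exact AddSubgroup.mem_top x)
      rw [this, this, smul_one]
    | succ k ih =>
      intro hk χ hχ h1 s
      have hi : r - (k + 1) < r := by omega
      have hi1 : r - (k + 1) + 1 = r - k := by omega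
      -- `η` is trivial on the next term of the chain
      have hηC : ∀ (χ : M → Ω), IsChar χ → (∀ x ∈ C (r - (k + 1)), χ x = 1) →
          ∀ x ∈ C (r - k), s • χ (s⁻¹ • x) * χ (-x) = 1 := by
        intro χ hχ h1 x hx
        have hx' : s⁻¹ • x ∈ C (r - (k + 1) + 1) := by
          rw [hi1]
          exact hCstab _ _ _ hx
        have h2 := hstep _ hi s _ hx'
        rw [smul_inv_smul] at h2
        have h3 := h1 _ h2
        rw [hsm hχ, ← hχ.nsmul]
        have h4 : χ (e s • s⁻¹ • x) * χ (-x) = χ (-(x - e s • s⁻¹ • x)) := by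
          rw [← hχ.2]
          congr 1
          abel
        rw [h4]
        have := hχ.neg_mul (x - e s • s⁻¹ • x)
        rw [h3, mul_one] at this
        exact this
      -- hence `G`-fixed
      have hηfix : ∀ (χ : M → Ω), IsChar χ → (∀ x ∈ C (r - (k + 1)), χ x = 1) →
          ∀ (g : G) (m : M), s • χ (s⁻¹ • (g • m)) * χ (-(g • m)) =
            g • (s • χ (s⁻¹ • m) * χ (-m)) := by
        intro χ hχ h1 g m
        have := ih (by omega) _ (hηchar hχ s) (hηC χ hχ h1) g (g • m)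
        rw [inv_smul_smul] at this
        exact this.symm
      -- induction on the order of `η`
      have sub : ∀ j : ℕ, ∀ χ : M → Ω, IsChar χ → (∀ x ∈ C (r - (k + 1)), χ x = 1) →
          (∀ m, (s • χ (s⁻¹ • m) * χ (-m)) ^ p ^ j = 1) → ∀ m, s • χ (s⁻¹ • m) = χ m := by
        intro j
        induction j with
        | zero =>
          intro χ hχ h1 hpw m
          have h5 := hpw m
          rw [pow_zero, pow_one] at h5
          calc s • χ (s⁻¹ • m) = s • χ (s⁻¹ • m) * (χ (-m) * χ m) := by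
                rw [hχ.neg_mul, mul_one]
            _ = (s • χ (s⁻¹ • m) * χ (-m)) * χ m := by ring
            _ = χ m := by rw [h5, one_mul]
        | succ j ihj =>
          intro χ hχ h1 hpw
          have hχp : IsChar (fun m => χ m ^ p) := hχ.pow p
          have h6 : ∀ m, s • (χ (s⁻¹ • m) ^ p) = χ m ^ p :=
            ihj _ hχp (fun x hx => by simp [h1 x hx]) (fun m => by
              have := hpw m
              rw [pow_succ', pow_mul] at this
              rw [smul_pow', ← mul_pow]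
              exact this)
          refine h.dual_trivial hp hp2 χ hχ.1 hχ.2 s (hηfix χ hχ h1) (fun m => ?_)
          rw [mul_pow, ← smul_pow', h6 m, ← mul_pow, mul_comm, hχ.neg_mul, one_pow]
      exact sub N χ hχ h1 (fun m => by
        have hc := hηchar hχ s
        have h7 : (s • χ (s⁻¹ • m) * χ (-m)) ^ p ^ N =
            (fun m => s • χ (s⁻¹ • m) * χ (-m)) (p ^ N • m) := (hc.nsmul (p ^ N) m).symm
        rw [h7, hM]
        exact hc.1)
  -- all characters trivial on `C 0` are fixed; conclude by separation of points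
  have hall : ∀ χ : M → Ω, IsChar χ → (∀ x ∈ C 0, χ x = 1) →
      ∀ (s : G) (m : M), s • χ (s⁻¹ • m) = χ m := by
    intro χ hχ h0
    refine key r le_rfl χ hχ fun x hx => ?_
    rw [Nat.sub_self] at hx
    exact h0 x hx
  by_contra hne
  obtain ⟨χ, hχ, hχ0, hχne⟩ := IsChar.exists_ne_one_of_not_mem (Ω := Ω) hpN hM hζ (C 0) hne
  apply hχne
  have h8 := hall χ hχ hχ0 g (g • m)
  rw [inv_smul_smul, hsm hχ, ← hχ.nsmul] at h8
  -- `h8 : χ (e g • m) = χ (g • m)`
  have h9 : χ (g • m - e g • m) * χ (e g • m) = χ (g • m) := by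
    rw [← hχ.2, sub_add_cancel]
  rw [h8] at h9
  have h10 : χ (g • m) ≠ 0 := by
    intro h0
    have := hχ.neg_mul (g • m)
    rw [h0, mul_zero] at this
    exact zero_ne_one this
  exact mul_right_cancel₀ h10 (by rw [h9, one_mul])

/-- **(D5)** Absolute form: a chain from `⊥` to `⊤` with `e`-steps; then `G` acts on all of `M`
through `e`. -/
theorem smul_eq_of_chain [Finite M] (h : DualHyp (G := G) A R0 mA p φ u d c) (hp : p.Prime)
    (hp2 : p ≠ 2) (N : ℕ) (hM : ∀ m : M, p ^ N • m = 0) (ζ : Ω) (hζ : IsPrimitiveRoot ζ (p ^ N))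
    (e : G → ℕ) (he : ∀ g : G, g • ζ = ζ ^ e g)
    (r : ℕ) (C : ℕ → AddSubgroup M) (hC0 : C 0 = ⊥) (hCr : C r = ⊤)
    (hCstab : ∀ i (g : G), ∀ x ∈ C i, g • x ∈ C i)
    (hstep : ∀ i < r, ∀ (g : G), ∀ x ∈ C (i + 1), g • x - e g • x ∈ C i)
    (g : G) (m : M) : g • m = e g • m := by
  have := h.smul_sub_mem_of_chain hp hp2 N hM ζ hζ e he r C hCr hCstab hstep g m
  rw [hC0, AddSubgroup.mem_bot] at this
  exact sub_eq_zero.1 this

/-- **LOCAL-ORD = NOFIX + DUAL** (relative form).  If `M ⧸ N₀` has no nonzero `G`-fixed element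
for every `G`-stable `N₀ ≥ C 0` (NOFIX) and `M` has a `G`-stable chain from `C 0` to `⊤` whose
steps are `G`-trivial or `e`-steps, then `G` acts on `M ⧸ C 0` through `e`. -/
theorem smul_sub_mem_of_nofix [Finite M] (h : DualHyp (G := G) A R0 mA p φ u d c) (hp : p.Prime)
    (hp2 : p ≠ 2) (N : ℕ) (hM : ∀ m : M, p ^ N • m = 0) (ζ : Ω) (hζ : IsPrimitiveRoot ζ (p ^ N))
    (e : G → ℕ) (he : ∀ g : G, g • ζ = ζ ^ e g)
    (hnofix : ∀ N₀ : AddSubgroup M, (∀ (g : G), ∀ x ∈ N₀, g • x ∈ N₀) →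
      ∀ m : M, (∀ g : G, g • m - m ∈ N₀) → m ∈ N₀)
    (r : ℕ) (C : ℕ → AddSubgroup M) (hCr : C r = ⊤)
    (hCstab : ∀ i (g : G), ∀ x ∈ C i, g • x ∈ C i)
    (hstep : ∀ i < r, (∀ (g : G), ∀ x ∈ C (i + 1), g • x - x ∈ C i) ∨
      (∀ (g : G), ∀ x ∈ C (i + 1), g • x - e g • x ∈ C i))
    (g : G) (m : M) : g • m - e g • m ∈ C 0 := by
  refine h.smul_sub_mem_of_chain hp hp2 N hM ζ hζ e he r C hCr hCstab (fun i hi => ?_) g m
  rcases hstep i hi with h1 | h2
  · -- a trivial step is zero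
    intro g x hx
    have hxi : x ∈ C i := hnofix (C i) (hCstab i) x (fun g => h1 g x hx)
    exact (C i).sub_mem (hCstab i g x hxi) ((C i).nsmul_mem hxi _)
  · exact h2

end DualHyp

end Fermat.Agent.S33.helper9568
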